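import Fermat.Agent.QComp.ModGal
import Fermat.Agent.ESh.Final

/-!
# The action of inertia and Frobenius at `q` on the Tate module of `J₀(M q)`, `q ∤ M`
-/

set_option autoImplicit false
set_option linter.unusedSectionVars false
set_option linter.style.haveILetI false

noncomputable section

open AlgebraicCurve ModularCurve IntermediateField Module

namespace Fermat.Agent.QComp

open Fermat.Agent.FF Fermat.Agent.Red Fermat.Agent.QVal Fermat.Agent.JZ Fermat.Agent.ESh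
  Fermat.Agent.ModFn

local notation "Qb" => AlgebraicClosure ℚ
local notation "Γℚ" => (AlgebraicClosure ℚ ≃ₐ[ℚ] AlgebraicClosure ℚ)

section General

variable {K F : Type*} [Field K] [Field F] [Algebra K F]

theorem exists_pow_eq_of_div [IsAlgClosed K] [CharZero K] [IsFnField K F] {n : ℕ} (hn : n ≠ 0)
    {D : Divisor K F} (hD : D.IsPrincipal) {f : F}
    (hf : f ≠ 0) (h : ∀ P, (n : ℤ) * D P = P.ord f) : ∃ g : F, g ^ n = f := by
  obtain ⟨g, hg0, hg⟩ := hD
  have h1 : ∀ v : Place K F, v.ord (f / g ^ n) = 0 := by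
    intro v
    rw [ord_div v hf (pow_ne_zero _ hg0), ord_pow, ← h v, ← hg v, sub_self]
  obtain ⟨a, ha⟩ := RR.exists_algebraMap_eq_of_forall_ord_nonneg (fun v => (h1 v).ge)
  obtain ⟨b, hb⟩ := IsAlgClosed.exists_pow_nat_eq a (Nat.pos_of_ne_zero hn)
  exact ⟨algebraMap K F b * g, by
    rw [mul_pow, ← map_pow, hb, ha, div_mul_cancel₀ _ (pow_ne_zero _ hg0)]⟩

theorem exists_norm_root {F' : Type*} [Field F'] [Algebra K F'] [IsAlgClosed K] [CharZero K] [IsFnField K F]
    [IsFnField K F'] (φ : F →ₐ[K] F') (hφ : φ.toRingHom.IsIntegral) (hfin : FiniteAlong K φ)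
    (hN : NormFormulaAlong K φ hfin) {n : ℕ} (hn : n ≠ 0) {D : Divisor K F'}
    (hpush : (Divisor.pushforwardAlong φ hφ D).IsPrincipal) {y : F'} (hy : y ≠ 0)
    (hdiv : ∀ P, (n : ℤ) * D P = P.ord y) : ∃ h : F, h ^ n = normAlong φ y := by
  refine exists_pow_eq_of_div hn hpush (normAlong_ne_zero φ hfin hy) (fun P => ?_)
  have h1 := pushforwardAlong_apply_of_ord φ hφ hfin hN hy (D := n • D) (fun w => by
    rw [← hdiv w, Finsupp.smul_apply, nsmul_eq_mul]) P
  rw [← h1, map_nsmul, Finsupp.smul_apply, nsmul_eq_mul]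

variable {k κ : Type*} [Field k] [Field κ] [Algebra k κ] {A : ValuationSubring K} {π : A →+* k}

theorem exists_pow_of_isRed {R : ConstRed A π F κ} {f : F} {n : ℕ} (hn : n ≠ 0) {b : κ}
    (h : R.IsRed (f ^ n) b) : ∃ z : κ, z ^ n = b := by
  have hf : f ∈ R.O := by
    rcases R.O.mem_or_inv_mem f with h1 | h1
    · exact h1
    · rcases eq_or_ne f 0 with rfl | hf0
      · exact zero_mem _
      · obtain ⟨m, rfl⟩ := Nat.exists_eq_succ_of_ne_zero hn
        have h2 : f = f ^ (m + 1) * f⁻¹ ^ m := by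
          rw [pow_succ', mul_assoc, ← mul_pow, mul_inv_cancel₀ hf0, one_pow, mul_one]
        rw [h2]
        exact mul_mem h.mem (pow_mem h1 m)
  obtain ⟨z, hz⟩ := R.exists_isRed_of_mem hf
  exact ⟨z, (hz.pow n).unique h⟩

end General

section Level

variable {k : Type*} [Field k] {A : ValuationSubring Qb} {π : A →+* k} {M q : ℕ} [NeZero M]
  [NeZero q] [hqf : Fact q.Prime]
  {hA : A.LiesOverPrime q} {hπ : ∀ a : A, π a = 0 ↔ ¬ IsUnit a}
  {hs : Function.Surjective π} {hM : ¬ q ∣ M}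

theorem isRed_norm_root [CharP k q] {y : FB (M * q)} {n : ℕ} (hn : n ≠ 0) {h : FB M}
    (hh : h ^ n = normAlong (al1 M q) y) {γ₁ γ₂ : Qb}
    {b₁ b₂ : modularFunctionFieldFullC k M}
    (h1 : (rInf1 M q hA hπ hs hM).IsRed (algebraMap Qb (FB (M * q)) γ₁ * y) b₁)
    (h2 : (rZero1 M q hA hπ hs hM).IsRed (algebraMap Qb (FB (M * q)) γ₂ * y) b₂) :
    ∃ z : modularFunctionFieldFullC k M, z ^ n = b₁ * phiK q M b₂ := by
  have h3 := isRed_norm_scale h1 h2
  obtain ⟨c, hc⟩ := IsAlgClosed.exists_pow_nat_eq (γ₁ * γ₂ ^ q) (Nat.pos_of_ne_zero hn)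
  rw [← hh, ← hc, map_pow, ← mul_pow] at h3
  exact exists_pow_of_isRed hn h3

theorem norm_be1_eq (y : FB (M * q)) :
    normAlong (be1 M q) y = normAlong (al1 M q) (w1 hqf.out hM y) := by
  have h1 := normAlong_be1 hqf.out hM (w1 hqf.out hM y)
  rw [w1_w1] at h1
  exact h1

theorem isRed_norm_root' [CharP k q] {y : FB (M * q)} {n : ℕ} (hn : n ≠ 0) {h : FB M}
    (hh : h ^ n = normAlong (be1 M q) y) {γ₁ γ₂ : Qb}
    {b₁ b₂ : modularFunctionFieldFullC k M}
    (h1 : (rInf1 M q hA hπ hs hM).IsRed (algebraMap Qb (FB (M * q)) γ₁ * y) b₁)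
    (h2 : (rZero1 M q hA hπ hs hM).IsRed (algebraMap Qb (FB (M * q)) γ₂ * y) b₂) :
    ∃ z : modularFunctionFieldFullC k M, z ^ n = phiK q M b₁ * b₂ := by
  rw [norm_be1_eq (hM := hM)] at hh
  rw [mul_comm]
  refine isRed_norm_root (hA := hA) (hπ := hπ) (hs := hs) (hM := hM) hn hh (γ₁ := γ₂)
    (γ₂ := γ₁) ?_ ?_
  · rw [isRed_rZero1, map_mul, AlgEquiv.commutes] at h2
    exact h2
  · rw [isRed_rZero1, map_mul, AlgEquiv.commutes, w1_w1]
    exact h1

omit [NeZero M] [NeZero q] hqf in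
theorem exists_div_of_torsion {K F : Type*} [Field K] [Field F] [Algebra K F] {n : ℕ}
    {D : Divisor.degZero (K := K) (F := F)} (h : n • Pic0.mk D = 0) :
    ∃ y : F, y ≠ 0 ∧ ∀ P, (n : ℤ) * (D : Divisor K F) P = P.ord y := by
  have h1 : Pic0.mk (n • D) = 0 := h
  rw [Red.pic0_mk_eq_zero] at h1
  obtain ⟨y, hy, h2⟩ := h1
  refine ⟨y, hy, fun P => ?_⟩
  rw [← h2 P]
  change _ = (n • (D : Divisor K F)) P
  rw [Finsupp.smul_apply, nsmul_eq_mul]

theorem a34_aux (hA : A.LiesOverPrime q) (hπ : ∀ a : A, π a = 0 ↔ ¬ IsUnit a)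
    (hsur : Function.Surjective π) (hM : ¬ q ∣ M)
    [CharP k q] [PerfectRing k q] [IsAlgClosed k]
    [IsFnField k (modularFunctionFieldFullC k M)] {m : ℕ} (hm : (m : k) ≠ 0)
    {s : Γℚ} (hs : s ∈ A.inertiaSubgroupIn ℚ) (x : JZero (M * q)) (hx : m • x = 0) :
    s • s • x - s • x - s • x + x = 0 := by
  obtain ⟨φ, hφ⟩ := Frob.exists_isFrobeniusAt A hqf.out hA
  obtain ⟨D, rfl⟩ := Pic0.mk_surjective x
  obtain ⟨y, hy, hdiv⟩ := exists_div_of_torsion hx
  set g := arithmeticGalois (modularFunctionFieldFull (M * q)) s with hg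
  have hsemi : SemiRed (rInf1 M q hA hπ hsur hM) (rZero1 M q hA hπ hsur hM)
      (al1 M q (jB M) * (w1 hqf.out hM : FB (M * q) →ₐ[Qb] FB (M * q)) (al1 M q (jB M)))
      (gF g) (gK g) (RingHom.id (modularFunctionFieldFullC k M)) := by
    obtain ⟨hσD, hσF⟩ := (Frob.mem_inertiaSubgroupIn_iff A s).1 hs
    rw [← gF_coeffSemi_refl]
    refine semiRed_galois (((s : Qb →+* Qb).comp A.subtype).codRestrict A.toSubring
      (fun a => (Frob.apply_mem_iff hσD).2 a.2)) (fun a => rfl) _ (fun a => ?_)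
    rw [RingEquiv.refl_apply, ← sub_eq_zero, ← map_sub, hπ]
    have h1 := hσF a a.2
    rw [ValuationSubring.mem_nonunits_iff_exists_mem_maximalIdeal] at h1
    obtain ⟨h2, h3⟩ := h1
    exact (IsLocalRing.mem_maximalIdeal _).1 h3
  have hmain := inertia_class (twoLevel hA hπ hsur hM) (isArch_of_liesOverPrime hA)
    (exists_nonunit hA) hm hsur (frobStructure hφ) hsemi (Divisor.mem_degZero.1 D.2) hy hdiv
  have h4 : s • s • Pic0.mk D - s • Pic0.mk D - s • Pic0.mk D + Pic0.mk D =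
      Pic0.mk (SemilinearAut.degZeroSMulHom g (SemilinearAut.degZeroSMulHom g D - D) -
        (SemilinearAut.degZeroSMulHom g D - D)) := by
    have e : ∀ z : JZero (M * q), s • z = g • z := fun z => rfl
    rw [e, e]
    change _ = g • (g • Pic0.mk D - Pic0.mk D) - (g • Pic0.mk D - Pic0.mk D)
    rw [smul_sub]
    abel
  rw [h4, Red.pic0_mk_eq_zero]
  exact hmain

theorem a35_aux (hA : A.LiesOverPrime q) (hπ : ∀ a : A, π a = 0 ↔ ¬ IsUnit a)
    (hsur : Function.Surjective π) (hM : ¬ q ∣ M)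
    [CharP k q] [PerfectRing k q] [IsAlgClosed k]
    [IsFnField k (modularFunctionFieldFullC k M)] {m : ℕ} (hm : (m : k) ≠ 0)
    {φ : Γℚ} (hφ : A.IsFrobeniusAt φ q) (x : JZero (M * q)) (hx : m • x = 0)
    (htrA : trA M q x = 0) (htrB : trB M q x = 0) :
    φ • φ • φ • φ • x - (q ^ 2 + 1) • φ • φ • x + q ^ 2 • x = 0 := by
  have hm0 : m ≠ 0 := by rintro rfl; simp at hm
  obtain ⟨D, rfl⟩ := Pic0.mk_surjective x
  obtain ⟨y, hy, hdiv⟩ := exists_div_of_torsion hx
  rw [trA_mk, Red.pic0_mk_eq_zero, coe_degZeroPush] at htrA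
  rw [trB_mk, Red.pic0_mk_eq_zero, coe_degZeroPush] at htrB
  obtain ⟨hα, hα'⟩ := exists_norm_root _ _ (finiteAlong _) (nInputs.norm _ _ _ _) hm0 htrA hy
    hdiv
  obtain ⟨hβ, hβ'⟩ := exists_norm_root _ _ (finiteAlong _) (nInputs.norm _ _ _ _) hm0 htrB hy
    hdiv
  obtain ⟨γ₁, hγ₁, b₁, hb₁, h1⟩ := (rInf1 M q hA hπ hsur hM).exists_isRed_mul hy
  obtain ⟨γ₂, hγ₂, b₂, hb₂, h2⟩ := (rZero1 M q hA hπ hsur hM).exists_isRed_mul hy
  set g := arithmeticGalois (modularFunctionFieldFull (M * q)) (φ * φ) with hg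
  have hmain := frobenius_class (twoLevel hA hπ hsur hM) (isArch_of_liesOverPrime hA)
    (exists_nonunit hA) hm hsur (frobStructure hφ) (Divisor.mem_degZero.1 D.2) hy hdiv
    (φ := phiK q M) (fun b => by
      rw [gF_coeffSemi_trans, gF_coeffSemi_frob, gF_coeffSemi_frob]) hγ₁ hγ₂ hb₁ hb₂ h1 h2
    (isRed_norm_root hm0 hα' h1 h2) (isRed_norm_root' hm0 hβ' h1 h2)
  have e : ∀ z : JZero (M * q), φ • φ • z = g • z := fun z => by
    rw [← mul_smul]; rfl
  have h4 : φ • φ • φ • φ • Pic0.mk D - (q ^ 2 + 1) • φ • φ • Pic0.mk D + q ^ 2 • Pic0.mk D =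
      Pic0.mk (SemilinearAut.degZeroSMulHom g (SemilinearAut.degZeroSMulHom g D - D) -
        q ^ 2 • (SemilinearAut.degZeroSMulHom g D - D)) := by
    rw [e, e]
    change _ = g • (g • Pic0.mk D - Pic0.mk D) - q ^ 2 • (g • Pic0.mk D - Pic0.mk D)
    rw [smul_sub, nsmul_sub, add_nsmul, one_nsmul]
    abel
  rw [h4, Red.pic0_mk_eq_zero]
  exact hmain

end Level

section Final

variable {M q p : ℕ} [NeZero M] [NeZero q] [hqf : Fact q.Prime]

theorem cast_pow_ne_zero {k : Type*} [Field k] [CharP k q] (hp : p.Prime) (hpq : p ≠ q) (n : ℕ) :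
    ((p ^ n : ℕ) : k) ≠ 0 := by
  rw [Nat.cast_pow]
  apply pow_ne_zero
  rw [Ne, CharP.cast_eq_zero_iff _ q, Nat.prime_dvd_prime_iff_eq hqf.out hp]
  exact fun h => hpq h.symm

/-- **(A34)** -/
theorem a34 (hM : ¬ q ∣ M) (hp : p.Prime) (hpq : p ≠ q) : A34 (M * q) q p := by
  intro A hA s hs x ⟨n, hn⟩
  have hπ := residue_eq_zero_iff' A
  have hsur : Function.Surjective (IsLocalRing.residue A) := IsLocalRing.residue_surjective
  haveI : CharP (IsLocalRing.ResidueField A) q := charP_of_liesOverPrime hA hπ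
  haveI : IsAlgClosed (IsLocalRing.ResidueField A) := isAlgClosed_of_surjective hsur
  haveI : PerfectRing (IsLocalRing.ResidueField A) q := PerfectField.toPerfectRing q
  haveI := isFnField_fullC (k := IsLocalRing.ResidueField A) M q hM
  exact a34_aux hA hπ hsur hM (cast_pow_ne_zero hp hpq n) hs x hn

/-- **(A35)** -/
theorem a35 (hM : ¬ q ∣ M) (hp : p.Prime) (hpq : p ≠ q) : A35 M q p := by
  intro A hA φ hφ x ⟨n, hn⟩ htrA htrB
  have hπ := residue_eq_zero_iff' A
  have hsur : Function.Surjective (IsLocalRing.residue A) := IsLocalRing.residue_surjective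
  haveI : CharP (IsLocalRing.ResidueField A) q := charP_of_liesOverPrime hA hπ
  haveI : IsAlgClosed (IsLocalRing.ResidueField A) := isAlgClosed_of_surjective hsur
  haveI : PerfectRing (IsLocalRing.ResidueField A) q := PerfectField.toPerfectRing q
  haveI := isFnField_fullC (k := IsLocalRing.ResidueField A) M q hM
  exact a35_aux hA hπ hsur hM (cast_pow_ne_zero hp hpq n) hφ x hn htrA htrB

end Final

end Fermat.Agent.QComp
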