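import Fermat.Agent.QComp.Interface
import Fermat.Agent.RepTwo.QuadLim
import Fermat.Agent.RepTwo.JZeroMod
import Fermat.Agent.RepTwo.S30Core

/-!
# S30, S31, S34 from the geometry of `JZero N`
-/

set_option autoImplicit false

namespace Fermat.Agent.QComp

open IsLocalRing Fermat.Agent.RepTwo Polynomial

theorem natCast_mem_maximalIdeal {𝒪 T : Type} [CommRing 𝒪] [IsLocalRing 𝒪] [CommRing T]
    [IsLocalRing T] [Algebra 𝒪 T] [IsLocalHom (algebraMap 𝒪 T)] {p : ℕ}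
    (hp : (p : 𝒪) ∈ maximalIdeal 𝒪) : (p : T) ∈ maximalIdeal T := by
  rw [mem_maximalIdeal, mem_nonunits_iff] at hp ⊢
  intro h
  apply hp
  have h1 : IsUnit (algebraMap 𝒪 T (p : 𝒪)) := by rwa [map_natCast]
  exact isUnit_of_map_unit _ _ h1

/-- **S30 from the geometry of `JZero N`.** -/
theorem s30_of_geometry (p : ℕ) [Fact p.Prime] (N : ℕ) [NeZero N] (S : Finset ℕ)
    (hpS : p ∈ S) (hNS : ∀ q : ℕ, q.Prime → q ∣ N → q ∈ S) (G : JZeroGeom N p)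
    (𝒪' : Type) [CommRing 𝒪'] [IsDomain 𝒪'] [IsDiscreteValuationRing 𝒪']
    [IsAdicComplete (IsLocalRing.maximalIdeal 𝒪') 𝒪'] [Finite (IsLocalRing.ResidueField 𝒪')]
    [CharZero 𝒪'] (hp𝒪' : (p : 𝒪') ∈ IsLocalRing.maximalIdeal 𝒪')
    (χ : CuspForm.heckeAlgebra N 2 (↑S : Set ℕ) →+* 𝒪') :
    ∃ (𝒪'' : Type) (_ : CommRing 𝒪'') (_ : IsDomain 𝒪'') (_ : IsDiscreteValuationRing 𝒪'')
      (_ : IsAdicComplete (IsLocalRing.maximalIdeal 𝒪'') 𝒪'')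
      (_ : Finite (IsLocalRing.ResidueField 𝒪'')) (_ : CharZero 𝒪'')
      (_ : Algebra 𝒪' 𝒪'') (_ : Module.Finite 𝒪' 𝒪'') (_ : IsLocalHom (algebraMap 𝒪' 𝒪'')),
    Function.Injective (algebraMap 𝒪' 𝒪'') ∧
    ∃ ρ : GaloisRepAdic 𝒪'',
      (∀ (ℓ : ℕ) (hℓ : ℓ.Prime) (hℓN : ¬ ℓ ∣ N) (hℓS : ℓ ∉ (↑S : Set ℕ)),
        ∀ A : ValuationSubring (AlgebraicClosure ℚ), A.LiesOverPrime ℓ →
          ∀ σ : AlgebraicClosure ℚ ≃ₐ[ℚ] AlgebraicClosure ℚ, A.IsFrobeniusAt σ ℓ →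
            LinearMap.charpoly (ρ.ρ σ) =
              X ^ 2 - C (algebraMap 𝒪' 𝒪'' (χ (CuspForm.heckeAlgebra.T hℓ hℓN hℓS))) * X
                + C ((ℓ : 𝒪''))) ∧
      (∀ q : ℕ, q.Prime → ¬ q ∣ N → q ≠ p → ρ.IsUnramifiedAt q) :=
  exists_galoisRep_of_point_of_ES Fact.out hpS hNS
    (fun n => G.nonempty_esModule (↑S : Set ℕ) n) 𝒪' hp𝒪' χ

section Datum

variable {p : ℕ} {N : ℕ} [NeZero N] {S : Finset ℕ}
  {𝒪 : Type} [CommRing 𝒪] [IsDomain 𝒪] [IsDiscreteValuationRing 𝒪]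
  [IsAdicComplete (IsLocalRing.maximalIdeal 𝒪) 𝒪]
  {θ : CuspForm.heckeAlgebra N 2 (↑S : Set ℕ) →+* IsLocalRing.ResidueField 𝒪}
  {T : Type} [CommRing T] [IsLocalRing T] [IsNoetherianRing T]
  [IsAdicComplete (IsLocalRing.maximalIdeal T) T] [Algebra 𝒪 T] [IsLocalHom (algebraMap 𝒪 T)]
  [Module.Finite 𝒪 T] [Module.Free 𝒪 T]

/-- **S31 from the geometry of `JZero N`.** -/
theorem s31_of_geometry (hp : p.Prime)
    (hp𝒪 : (p : 𝒪) ∈ IsLocalRing.maximalIdeal 𝒪) (hpS : p ∈ S)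
    (hNS : ∀ q : ℕ, q.Prime → q ∣ N → q ∈ S) (G : JZeroGeom N p)
    (H : CuspForm.HeckeGaloisRepDatum N (↑S : Set ℕ) 𝒪 θ T)
    (q : ℕ) (hq : q.Prime) (hqS : q ∉ S) :
    H.ρ.IsUnramifiedAt q := by
  haveI : Fact p.Prime := ⟨hp⟩
  exact isUnramifiedAt_of_ES frobeniusDensity hp (natCast_mem_maximalIdeal hp𝒪) hpS hNS
    (fun n => G.nonempty_esModule (↑S : Set ℕ) n) H.π H.ρ
    (fun ℓ hℓ hℓN hℓS _ => H.charpoly_frob ℓ hℓ hℓN hℓS) H.residual_absIrr q hq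
    (fun h => hqS (hNS q hq h)) (fun h => hqS (h ▸ hpS))

/-- **S34 from the geometry of `JZero N`.** -/
theorem s34_of_geometry (hp : p.Prime)
    (hp𝒪 : (p : 𝒪) ∈ IsLocalRing.maximalIdeal 𝒪) (hpS : p ∈ S)
    (hNS : ∀ q : ℕ, q.Prime → q ∣ N → q ∈ S) (G : JZeroGeom N p)
    (H : CuspForm.HeckeGaloisRepDatum N (↑S : Set ℕ) 𝒪 θ T)
    (q : ℕ) (hq : q.Prime) (hqp : q ≠ p) (h34 : A34 N q p) :
    H.ρ.IsUnipotentOnInertiaAt q := by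
  haveI : Fact p.Prime := ⟨hp⟩
  obtain ⟨c, hc⟩ := (G.isES (↑S : Set ℕ)).exists_realized
  refine isUnipotentOnInertiaAt_of_sq hp (natCast_mem_maximalIdeal hp𝒪) hpS hNS H.π H.ρ
    (fun ℓ hℓ hℓN hℓS _ => H.charpoly_frob ℓ hℓ hℓN hℓS) q hq hqp fun n => ?_
  obtain ⟨E, ⟨R⟩⟩ := hc n
  refine ⟨E, fun A hA s hs v => R.inj ?_⟩
  rw [map_zero, map_add, map_sub, map_sub, R.act, R.act]
  exact h34 A hA s hs (R.j v) ⟨_, (R.mem_range _).mpr ⟨v, rfl⟩⟩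

end Datum

end Fermat.Agent.QComp
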