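import Fermat.Agent.QComp.Geom
import Fermat.Agent.RepTwo.S30Core

/-!
# S35 from (A35)
-/

set_option autoImplicit false

namespace Fermat.Agent.QComp

open IsLocalRing Fermat.Agent.RepTwo Polynomial ModularFormClass

/-- Ring homomorphisms from an integral extension of `ℤ` without zero divisors to a ring of
characteristic zero are injective. -/
theorem injective_of_isIntegral_int {B O : Type*} [CommRing B] [IsDomain B]
    [Algebra.IsIntegral ℤ B] [CommRing O] [CharZero O] (f : B →+* O) : Function.Injective f := by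
  rw [RingHom.injective_iff_ker_eq_bot]
  apply Ideal.eq_bot_of_comap_eq_bot (R := ℤ)
  rw [eq_bot_iff]
  intro n hn
  rw [Ideal.mem_comap, RingHom.mem_ker, eq_intCast, map_intCast] at hn
  rw [Submodule.mem_bot]
  exact_mod_cast hn

section Level

variable {N p : ℕ} [NeZero N] {S : Set ℕ}

theorem exists_level' (hp : p.Prime) {n : ℕ} (E : ESModule N p S n) :
    ∃ Λ : Level N p S n, Λ.E = E := by
  obtain ⟨m, hm⟩ := E.torsion
  obtain ⟨L1, hL1f, hL1⟩ := E.finiteLevel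
  set M := max n m with hM
  have : NeZero ((p ^ M : ℕ) : AlgebraicClosure ℚ) :=
    ⟨by exact_mod_cast pow_ne_zero M hp.ne_zero⟩
  obtain ⟨ζ, hζ⟩ := HasEnoughRootsOfUnity.exists_primitiveRoot (AlgebraicClosure ℚ) (p ^ M)
  have : FiniteDimensional ℚ (IntermediateField.adjoin ℚ {ζ}) :=
    IntermediateField.adjoin.finiteDimensional (Algebra.IsIntegral.isIntegral ζ)
  exact ⟨{
    E := E
    m := M
    le := le_max_left _ _
    torsion := fun x => by
      obtain ⟨k, hk⟩ := Nat.exists_eq_add_of_le (le_max_right n m)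
      rw [hM, hk, pow_add, mul_comm, mul_smul, hm, smul_zero]
    ζ := ζ
    prim := hζ
    L := L1 ⊔ IntermediateField.adjoin ℚ {ζ}
    fin := IntermediateField.finiteDimensional_sup _ _
    ζ_mem := (le_sup_right : IntermediateField.adjoin ℚ {ζ} ≤ L1 ⊔ _)
      (IntermediateField.mem_adjoin_simple_self ℚ ζ)
    act_eq := fun σ hσ => hL1 σ fun x hx => hσ x ((le_sup_left : L1 ≤ L1 ⊔ _) hx) }, rfl⟩

theorem quad_replace (hp : p.Prime) {n : ℕ} (Λ : Level N p S n) {g : GQ} {r : HeckePoly N S}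
    {c c' : ℕ} (h : Λ.Quad g r c) (h' : g Λ.ζ = Λ.ζ ^ c') : Λ.Quad g r c' := by
  refine ⟨?_, h'⟩
  have hcc : c ≡ c' [MOD p ^ Λ.m] := Λ.modEq hp (h.2.symm.trans h')
  refine LinearMap.ext fun v => ?_
  have h1 := LinearMap.congr_fun h.1 v
  simp only [LinearMap.add_apply, LinearMap.sub_apply, Module.End.mul_apply,
    Module.algebraMap_end_apply, LinearMap.zero_apply] at h1 ⊢
  rw [← Λ.smul_eq hcc]
  exact h1

/-- existence of the quadratic relation -/
theorem exists_quad' {S : Finset ℕ} (hp : p.Prime) (hpS : p ∈ S)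
    (hNS : ∀ q : ℕ, q.Prime → q ∣ N → q ∈ S) {n : ℕ} (Λ : Level N p (↑S : Set ℕ) n) (g : GQ) :
    ∃ r c, Λ.Quad g r c := by
  have := Λ.fin
  obtain ⟨r, c, ℓ, A, F, k, H⟩ := exists_isApprox (p := p) frobeniusDensity hpS hNS Λ.L g
  exact ⟨r, c, Λ.quad_of_isApprox hp le_rfl H⟩

end Level

/-- the point `χ` of the Hecke algebra attached to the newform, on Hecke polynomials -/
theorem chig_evalHecke {M : ℕ} [NeZero M] {g : CuspForm (CongruenceSubgroup.Gamma0 M) 2}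
    {S : Set ℕ} (chig : CuspForm.heckeAlgebra M 2 S →+* ℂ)
    (hchig : ∀ (ℓ : ℕ) (hℓ : ℓ.Prime) (hℓM : ¬ ℓ ∣ M) (hℓS : ℓ ∉ S),
      chig (CuspForm.heckeAlgebra.T hℓ hℓM hℓS) = ModularFormClass.qCoeff g ℓ)
    (t : HeckePoly M S) :
    chig (evalHecke M S t) = MvPolynomial.aeval (fun i : GoodPrime M S => qCoeff g i) t := by
  have h : (chig.comp (evalHecke M S).toRingHom) =
      (MvPolynomial.aeval (fun i : GoodPrime M S => qCoeff g i) :
        HeckePoly M S →ₐ[ℤ] ℂ).toRingHom := by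
    refine MvPolynomial.ringHom_ext (fun n => ?_) (fun i => ?_)
    · simp
    · change chig (evalHecke M S (MvPolynomial.X i)) = _
      rw [evalHecke_X]
      change _ = MvPolynomial.aeval (fun i : GoodPrime M S => qCoeff g i) (MvPolynomial.X i)
      rw [MvPolynomial.aeval_X]
      exact hchig i i.2.1 i.2.2.1 i.2.2.2
  exact DFunLike.congr_fun h t

/-- from a relation on Eichler–Shimura modules to the adic representation -/
theorem trace_sq_of_relation {p N : ℕ} [NeZero N] {S : Finset ℕ} (hp : p.Prime) (hpS : p ∈ S)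
    (hNS : ∀ q : ℕ, q.Prime → q ∣ N → q ∈ S)
    (O : Type) [CommRing O] [IsDomain O] [IsDiscreteValuationRing O]
    [IsAdicComplete (maximalIdeal O) O] (hpO : (p : O) ∈ maximalIdeal O)
    (χ : CuspForm.heckeAlgebra N 2 (↑S : Set ℕ) →+* O) (ρ : GaloisRepAdic O)
    (hρ : ∀ (ℓ : ℕ) (hℓ : ℓ.Prime) (hℓN : ¬ ℓ ∣ N) (hℓS : ℓ ∉ (↑S : Set ℕ)),
      ∀ A : ValuationSubring (AlgebraicClosure ℚ), A.LiesOverPrime ℓ →
      ∀ σ : AlgebraicClosure ℚ ≃ₐ[ℚ] AlgebraicClosure ℚ, A.IsFrobeniusAt σ ℓ →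
        LinearMap.charpoly (ρ.ρ σ) =
          X ^ 2 - C (χ (CuspForm.heckeAlgebra.T hℓ hℓN hℓS)) * X + C ((ℓ : O)))
    (t₀ : HeckePoly N (↑S : Set ℕ)) (ht₀ : χ (evalHecke N (↑S : Set ℕ) t₀) ≠ 0)
    {q : ℕ} (hq : q.Prime) (hqp : q ≠ p) {A : ValuationSubring (AlgebraicClosure ℚ)}
    (hA : A.LiesOverPrime q) {φ : GQ} (hφ : A.IsFrobeniusAt φ q)
    (hrel : ∀ n, ∃ E : ESModule N p (↑S : Set ℕ) n, ∀ v : E.V,
      E.act φ (E.act φ (E.act φ (E.act φ (t₀ • v)))) -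
        (q ^ 2 + 1) • E.act φ (E.act φ (t₀ • v)) + q ^ 2 • (t₀ • v) = 0) :
    (ρ.trace φ = q + 1 ∨ ρ.trace φ = -(q + 1)) ∧ LinearMap.det (ρ.ρ φ) = q := by
  have key : ∀ n, (ρ.trace φ ^ 2 - (q + 1) ^ 2) * χ (evalHecke N (↑S : Set ℕ) t₀) ∈
        maximalIdeal O ^ n ∧ LinearMap.det (ρ.ρ φ) - q ∈ maximalIdeal O ^ n := by
    intro n
    obtain ⟨E, hE⟩ := hrel n
    obtain ⟨Λ, rfl⟩ := exists_level' hp E
    obtain ⟨r, c, hrc⟩ := exists_quad' hp hpS hNS Λ φ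
    have hroot : φ Λ.ζ = Λ.ζ ^ q := frobenius_apply_root hq hp hqp hA hφ Λ.prim.pow_eq_one
    have hquad : Λ.Quad φ r q := quad_replace hp Λ hrc hroot
    obtain ⟨h1, h2⟩ := trace_det_sub_mem_of_quad hp hpO hpS hNS χ ρ
      (fun ℓ hℓ hℓN hℓS _ => hρ ℓ hℓ hℓN hℓS) Λ hquad
    refine ⟨?_, h2⟩
    -- the polynomial `(r² - (q+1)²) t₀` kills the module
    have hkill : ∀ w : Λ.E.V, ((r ^ 2 - ((q : HeckePoly N (↑S : Set ℕ)) + 1) ^ 2) * t₀) • w = 0 := by
      intro w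
      obtain ⟨v, rfl⟩ : ∃ v, Λ.E.act φ (Λ.E.act φ v) = w := ⟨Λ.E.act φ⁻¹ (Λ.E.act φ⁻¹ w), by
        have e : ∀ x, Λ.E.act φ (Λ.E.act φ⁻¹ x) = x := fun x => by
          rw [← Module.End.mul_apply, ← map_mul, mul_inv_cancel, map_one, Module.End.one_apply]
        rw [e, e]⟩
      have e0 := hE v
      have hq1 : ∀ x : Λ.E.V, Λ.E.act φ (Λ.E.act φ x) =
          r • Λ.E.act φ x - (q : HeckePoly N (↑S : Set ℕ)) • x := by
        intro x
        have e1 := LinearMap.congr_fun hquad.1 x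
        simp only [LinearMap.add_apply, LinearMap.sub_apply, Module.End.mul_apply,
          Module.algebraMap_end_apply, LinearMap.zero_apply] at e1
        rw [← sub_eq_zero, ← e1]
        abel
      set y := t₀ • v with hy
      -- `φ² y`
      have e2 : (q : HeckePoly N (↑S : Set ℕ)) • y = r • Λ.E.act φ y - Λ.E.act φ (Λ.E.act φ y) := by
        rw [hq1 y]; abel
      have e4 : Λ.E.act φ (Λ.E.act φ (Λ.E.act φ (Λ.E.act φ y))) +
          ((q : HeckePoly N (↑S : Set ℕ)) ^ 2) • y =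
          (r ^ 2 - 2 * (q : HeckePoly N (↑S : Set ℕ))) • Λ.E.act φ (Λ.E.act φ y) := by
        have e5 : Λ.E.act φ (Λ.E.act φ (Λ.E.act φ (Λ.E.act φ y))) =
            r • Λ.E.act φ (Λ.E.act φ (Λ.E.act φ y)) -
              (q : HeckePoly N (↑S : Set ℕ)) • Λ.E.act φ (Λ.E.act φ y) := hq1 _
        have e6 : Λ.E.act φ (Λ.E.act φ (Λ.E.act φ y)) =
            r • Λ.E.act φ (Λ.E.act φ y) - (q : HeckePoly N (↑S : Set ℕ)) • Λ.E.act φ y := hq1 _
        have e7 : ((q : HeckePoly N (↑S : Set ℕ)) ^ 2) • y =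
            (q : HeckePoly N (↑S : Set ℕ)) • r • Λ.E.act φ y -
              (q : HeckePoly N (↑S : Set ℕ)) • Λ.E.act φ (Λ.E.act φ y) := by
          rw [pow_two, mul_smul, e2, smul_sub]
        rw [e5, e6, e7, smul_sub, sub_smul, pow_two, mul_smul, two_mul, add_smul,
          smul_comm r (q : HeckePoly N (↑S : Set ℕ))]
        abel
      have e8 : ((r ^ 2 - ((q : HeckePoly N (↑S : Set ℕ)) + 1) ^ 2) * t₀) •
          Λ.E.act φ (Λ.E.act φ v) =
          (r ^ 2 - ((q : HeckePoly N (↑S : Set ℕ)) + 1) ^ 2) • Λ.E.act φ (Λ.E.act φ y) := by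
        rw [mul_smul, hy, map_smul, map_smul]
      rw [e8, ← e0]
      have e9 : ((r ^ 2 - ((q : HeckePoly N (↑S : Set ℕ)) + 1) ^ 2) : HeckePoly N (↑S : Set ℕ)) =
          (r ^ 2 - 2 * (q : HeckePoly N (↑S : Set ℕ))) -
            ((q ^ 2 + 1 : ℕ) : HeckePoly N (↑S : Set ℕ)) := by
        push_cast; ring
      rw [e9, sub_smul, ← e4, Nat.cast_smul_eq_nsmul]
      have e10 : ((q : HeckePoly N (↑S : Set ℕ)) ^ 2) • y = q ^ 2 • y := by
        rw [← Nat.cast_pow, Nat.cast_smul_eq_nsmul]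
      rw [e10]
      abel
    obtain ⟨u, hu⟩ := Λ.E.faithful _ hkill
    have hpn : ((p ^ n : ℕ) : O) ∈ maximalIdeal O ^ n := by
      push_cast
      exact Ideal.pow_mem_pow hpO n
    have e1 : χ (evalHecke N (↑S : Set ℕ) ((r ^ 2 - ((q : HeckePoly N (↑S : Set ℕ)) + 1) ^ 2) * t₀)) ∈
        maximalIdeal O ^ n := by
      rw [hu, map_nsmul, nsmul_eq_mul]
      exact Ideal.mul_mem_right _ _ hpn
    rw [map_mul, map_mul, map_sub, map_sub, map_pow, map_pow, map_pow, map_pow, map_add, map_add,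
      map_one, map_one, map_natCast, map_natCast] at e1
    have e2 : (ρ.trace φ ^ 2 - (q + 1) ^ 2) * χ (evalHecke N (↑S : Set ℕ) t₀) =
        (χ (evalHecke N (↑S : Set ℕ) r) ^ 2 - (q + 1) ^ 2) * χ (evalHecke N (↑S : Set ℕ) t₀) +
        (ρ.trace φ - χ (evalHecke N (↑S : Set ℕ) r)) *
          ((ρ.trace φ + χ (evalHecke N (↑S : Set ℕ) r)) * χ (evalHecke N (↑S : Set ℕ) t₀)) := by
      ring
    rw [e2]
    exact Ideal.add_mem _ e1 (Ideal.mul_mem_right _ _ h1)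
  have h1 : (ρ.trace φ ^ 2 - (q + 1) ^ 2) * χ (evalHecke N (↑S : Set ℕ) t₀) = 0 := by
    apply IsHausdorff.haus (I := maximalIdeal O) inferInstance
    intro n
    rw [SModEq.zero, smul_eq_mul, Ideal.mul_top]
    exact (key n).1
  have h2 : LinearMap.det (ρ.ρ φ) - q = 0 := by
    apply IsHausdorff.haus (I := maximalIdeal O) inferInstance
    intro n
    rw [SModEq.zero, smul_eq_mul, Ideal.mul_top]
    exact (key n).2
  refine ⟨?_, sub_eq_zero.mp h2⟩
  have h3 : (ρ.trace φ - (q + 1)) * (ρ.trace φ + (q + 1)) = 0 := by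
    have := (mul_eq_zero.mp h1).resolve_right ht₀
    linear_combination this
  rcases mul_eq_zero.mp h3 with h | h
  · exact Or.inl (sub_eq_zero.mp h)
  · exact Or.inr (eq_neg_of_add_eq_zero_left h)

/-- **S35 from (A35).** -/
theorem s35_of_A35 {M : ℕ} [NeZero M] {g : CuspForm (CongruenceSubgroup.Gamma0 M) 2}
    (hg : g.IsNewform) (lam : ℕ) [Fact lam.Prime] (S : Finset ℕ)
    (O' : Type) [CommRing O'] [IsDomain O'] [IsDiscreteValuationRing O']
    [IsAdicComplete (maximalIdeal O') O'] [Finite (ResidueField O')]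
    [CharZero O'] (hlamO' : (lam : O') ∈ maximalIdeal O')
    (chig : CuspForm.heckeAlgebra M 2 (↑S : Set ℕ) →+* ℂ)
    (hchig : ∀ (ℓ : ℕ) (hℓ : ℓ.Prime) (hℓM : ¬ ℓ ∣ M) (hℓS : ℓ ∉ (↑S : Set ℕ)),
      chig (CuspForm.heckeAlgebra.T hℓ hℓM hℓS) = ModularFormClass.qCoeff g ℓ)
    (iota : chig.range →+* O')
    (hlamS : lam ∈ S) (hMS : ∀ q : ℕ, q.Prime → q ∣ M → q ∈ S)
    (h35 : ∀ (M' q : ℕ) [NeZero M'] [NeZero q], q.Prime → ¬ q ∣ M' → q ≠ lam → A35 M' q lam) :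
    ∃ ρ : GaloisRepAdic O',
        (∀ (ℓ : ℕ) (hℓ : ℓ.Prime) (hℓM : ¬ ℓ ∣ M) (hℓS : ℓ ∉ (↑S : Set ℕ)),
          ∀ A : ValuationSubring (AlgebraicClosure ℚ), A.LiesOverPrime ℓ →
            ∀ σ : AlgebraicClosure ℚ ≃ₐ[ℚ] AlgebraicClosure ℚ, A.IsFrobeniusAt σ ℓ →
              LinearMap.charpoly (ρ.ρ σ) =
                X ^ 2 - C ((iota.comp chig.rangeRestrict) (CuspForm.heckeAlgebra.T hℓ hℓM hℓS)) * X
                  + C ((ℓ : O'))) ∧
        (∀ q : ℕ, q.Prime → q ≠ lam → q ∣ M → ¬ q ^ 2 ∣ M →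
          ∀ A : ValuationSubring (AlgebraicClosure ℚ), A.LiesOverPrime q →
            ∀ σ : AlgebraicClosure ℚ ≃ₐ[ℚ] AlgebraicClosure ℚ, A.IsFrobeniusAt σ q →
              LinearMap.charpoly (ρ.ρ σ) = X ^ 2 - C ((q : O') + 1) * X + C ((q : O')) ∨
              LinearMap.charpoly (ρ.ρ σ) = X ^ 2 + C ((q : O') + 1) * X + C ((q : O'))) := by
  have hlam : lam.Prime := Fact.out
  set χ := iota.comp chig.rangeRestrict with hχ
  obtain ⟨ρ, h1, h2⟩ := exists_padic_rep hlam hlamS hMS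
    (fun n => (jZeroGeom M lam).nonempty_esModule (↑S : Set ℕ) n) O' hlamO' χ
  refine ⟨ρ, h1, fun q hq hqlam hqM hq2 A hA σ hσ => ?_⟩
  obtain ⟨M', rfl⟩ : ∃ M', M = M' * q := ⟨M / q, (Nat.div_mul_cancel hqM).symm⟩
  have hM'0 : NeZero M' := ⟨fun h => NeZero.ne (M' * q) (by rw [h, zero_mul])⟩
  have hq0 : NeZero q := ⟨hq.ne_zero⟩
  have hqM' : ¬ q ∣ M' := fun h => hq2 (by rw [pow_two]; exact Nat.mul_dvd_mul_right h q)
  have hMM' : ¬ M' * q ∣ M' := fun h => by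
    have := Nat.le_of_dvd (Nat.pos_of_ne_zero (NeZero.ne M')) h
    have h2 := hq.two_le
    nlinarith [Nat.pos_of_ne_zero (NeZero.ne M')]
  obtain ⟨t₀, ht₀, htr⟩ := exists_killing_traces hg M' q hq hMM' (↑S : Set ℕ) S hMS
    (fun ℓ hℓ hℓS => ⟨fun h => hℓS (hMS ℓ hℓ h), fun h => hℓS (Finset.mem_coe.mp h)⟩)
  have hinj : Function.Injective iota := by
    have : Algebra.IsIntegral ℤ chig.range := by
      have h3 : Module.Finite ℤ (CuspForm.heckeAlgebra (M' * q) 2 (↑S : Set ℕ)) :=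
        Fermat.Agent.Eichler.moduleFinite_heckeAlgebra 2 _
      have h4 : Algebra.IsIntegral ℤ (CuspForm.heckeAlgebra (M' * q) 2 (↑S : Set ℕ)) :=
        inferInstance
      exact Algebra.IsIntegral.of_surjective chig.rangeRestrict.toIntAlgHom
        chig.rangeRestrict_surjective
    exact injective_of_isIntegral_int iota
  have ht₀' : χ (evalHecke (M' * q) (↑S : Set ℕ) t₀) ≠ 0 := by
    intro h
    apply ht₀
    rw [← chig_evalHecke chig hchig]
    have h3 : chig.rangeRestrict (evalHecke (M' * q) (↑S : Set ℕ) t₀) = 0 :=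
      hinj (h.trans (map_zero _).symm)
    exact congrArg Subtype.val h3
  obtain ⟨c, hc⟩ := ((jZeroGeom (M' * q) lam).isES (↑S : Set ℕ)).exists_realized
  obtain ⟨ht, hd⟩ := trace_sq_of_relation hlam hlamS hMS O' hlamO' χ ρ h1 t₀ ht₀' hq hqlam hA hσ
    (fun n => by
      obtain ⟨E, ⟨R⟩⟩ := hc n
      refine ⟨E, fun v => R.inj ?_⟩
      have hv : lam ^ (n + c) • R.j v = 0 := (R.mem_range _).mpr ⟨v, rfl⟩
      obtain ⟨hA0, hB0⟩ := htr (lam ^ (n + c)) (pow_ne_zero _ hlam.ne_zero) (R.j v) hv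
      have hty : R.j (t₀ • v) = (opsJ (M' * q) (M' * q) (↑S : Set ℕ)).ev t₀ (R.j v) := R.smul t₀ v
      rw [← hty] at hA0 hB0
      have h3 := h35 M' q hq hqM' hqlam A hA σ hσ (R.j (t₀ • v))
        ⟨n + c, (R.mem_range _).mpr ⟨t₀ • v, rfl⟩⟩ hA0 hB0
      rw [map_zero, map_add, map_sub, map_nsmul, map_nsmul, R.act, R.act, R.act, R.act]
      exact h3)
  have hcp := charpoly_eq_of_trace_det ρ.finrank_eq (ρ.ρ σ)
  rw [hd] at hcp
  rcases ht with ht | ht
  · left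
    rw [hcp]
    change X ^ 2 - C (ρ.trace σ) * X + _ = _
    rw [ht]
  · right
    rw [hcp]
    change X ^ 2 - C (ρ.trace σ) * X + _ = _
    rw [ht, map_neg]
    ring

end Fermat.Agent.QComp
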