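import Fermat.Agent.QComp.S36Core

/-!
# S36 from (A36)
-/

set_option autoImplicit false

namespace Fermat.Agent.QComp

open IsLocalRing Fermat.Agent.RepTwo Polynomial ModularFormClass

/-- The geometric input of S36: for some auxiliary factor `r` prime to `q`, bounded
inertia-invariants in the `q`-new part of the torsion at level `M' * r * q * q`. -/
def A36Input (lam : ℕ) : Prop :=
  ∀ (M' q : ℕ), M' ≠ 0 → q.Prime → ¬ q ∣ M' → q ≠ lam →
    ∃ r : ℕ, r ≠ 0 ∧ ¬ q ∣ r ∧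
      ∃ (_ : NeZero (M' * r * q)) (_ : NeZero q), A36 (M' * r * q) q lam

/-- (A36) for levels `M` which are rigid at `q`. -/
def A36Rigid (lam : ℕ) : Prop :=
  ∀ (M q : ℕ) [NeZero (M * q)] [NeZero q], M ≠ 0 → q.Prime → ¬ q ∣ M → q ≠ lam →
    (∃ r : ℕ, r.Prime ∧ r ∣ M ∧ r % 12 = 11) → (q = 2 → 3 ∣ M) → (q = 3 → 2 ∣ M) →
    A36 (M * q) q lam

theorem a36Input_of_rigid {lam : ℕ} (h : A36Rigid lam) : A36Input lam := by
  intro M' q hM' hq hqM' hqlam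
  obtain ⟨r, hr, hrq, hr12⟩ : ∃ r : ℕ, r.Prime ∧ r ≠ q ∧ r % 12 = 11 := by
    by_cases h11 : q = 11
    · exact ⟨23, by norm_num, by omega, by norm_num⟩
    · exact ⟨11, by norm_num, fun h => h11 h.symm, by norm_num⟩
  obtain ⟨e, he0, hqe, he2, he3⟩ : ∃ e : ℕ, e ≠ 0 ∧ ¬ q ∣ e ∧ (q = 2 → 3 ∣ e) ∧
      (q = 3 → 2 ∣ e) := by
    by_cases h2 : q = 2
    · exact ⟨3, by norm_num, by rw [h2]; norm_num, fun _ => dvd_rfl, fun h3 => by omega⟩
    · by_cases h3 : q = 3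
      · exact ⟨2, by norm_num, by rw [h3]; norm_num, fun h => absurd h h2, fun _ => dvd_rfl⟩
      · exact ⟨1, one_ne_zero, fun h => hq.one_lt.ne' (Nat.dvd_one.mp h), fun h => absurd h h2,
          fun h => absurd h h3⟩
  have hre : r * e ≠ 0 := mul_ne_zero hr.ne_zero he0
  have hqr : ¬ q ∣ r := fun h => hrq ((Nat.prime_dvd_prime_iff_eq hq hr).mp h).symm
  have hqre : ¬ q ∣ r * e := fun h => (hq.dvd_mul.mp h).elim hqr hqe
  have i1 : NeZero (M' * (r * e) * q) := ⟨mul_ne_zero (mul_ne_zero hM' hre) hq.ne_zero⟩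
  have i2 : NeZero q := ⟨hq.ne_zero⟩
  refine ⟨r * e, hre, hqre, i1, i2, h (M' * (r * e)) q (mul_ne_zero hM' hre) hq
    (fun h => (hq.dvd_mul.mp h).elim hqM' hqre) hqlam
    ⟨r, hr, ⟨M' * e, by ring⟩, hr12⟩ (fun h2 => ?_) (fun h3 => ?_)⟩
  · exact (he2 h2).trans ⟨M' * r, by ring⟩
  · exact (he3 h3).trans ⟨M' * r, by ring⟩

theorem chig_evalHecke' {M N : ℕ} [NeZero M] [NeZero N]
    {g : CuspForm (CongruenceSubgroup.Gamma0 M) 2}
    {S : Set ℕ} (chig : CuspForm.heckeAlgebra N 2 S →+* ℂ)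
    (hchig : ∀ (ℓ : ℕ) (hℓ : ℓ.Prime) (hℓM : ¬ ℓ ∣ N) (hℓS : ℓ ∉ S),
      chig (CuspForm.heckeAlgebra.T hℓ hℓM hℓS) = ModularFormClass.qCoeff g ℓ)
    (t : HeckePoly N S) :
    chig (evalHecke N S t) = MvPolynomial.aeval (fun i : GoodPrime N S => qCoeff g i) t := by
  have h : (chig.comp (evalHecke N S).toRingHom) =
      (MvPolynomial.aeval (fun i : GoodPrime N S => qCoeff g i) :
        HeckePoly N S →ₐ[ℤ] ℂ).toRingHom := by
    refine MvPolynomial.ringHom_ext (fun n => ?_) (fun i => ?_)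
    · simp
    · change chig (evalHecke N S (MvPolynomial.X i)) = _
      rw [evalHecke_X]
      change _ = MvPolynomial.aeval (fun i : GoodPrime N S => qCoeff g i) (MvPolynomial.X i)
      rw [MvPolynomial.aeval_X]
      exact hchig i i.2.1 i.2.2.1 i.2.2.2
  exact DFunLike.congr_fun h t

/-- **S36 from (A36).** -/
theorem s36_of_A36 {M : ℕ} [NeZero M] {g : CuspForm (CongruenceSubgroup.Gamma0 M) 2}
    (hg : g.IsNewform) (lam : ℕ) [Fact lam.Prime] (S : Finset ℕ)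
    (O' : Type) [CommRing O'] [IsDomain O'] [IsDiscreteValuationRing O']
    [IsAdicComplete (maximalIdeal O') O'] [Finite (ResidueField O')]
    [CharZero O'] (hlamO' : (lam : O') ∈ maximalIdeal O') (hlam2 : lam ≠ 2)
    (chig : CuspForm.heckeAlgebra M 2 (↑S : Set ℕ) →+* ℂ)
    (hchig : ∀ (ℓ : ℕ) (hℓ : ℓ.Prime) (hℓM : ¬ ℓ ∣ M) (hℓS : ℓ ∉ (↑S : Set ℕ)),
      chig (CuspForm.heckeAlgebra.T hℓ hℓM hℓS) = ModularFormClass.qCoeff g ℓ)
    (iota : chig.range →+* O')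
    (hlamS : lam ∈ S) (hMS : ∀ q : ℕ, q.Prime → q ∣ M → q ∈ S) (h36 : A36Input lam) :
    ∃ ρ : GaloisRepAdic O',
        (∀ (ℓ : ℕ) (hℓ : ℓ.Prime) (hℓM : ¬ ℓ ∣ M) (hℓS : ℓ ∉ (↑S : Set ℕ)),
          ∀ A : ValuationSubring (AlgebraicClosure ℚ), A.LiesOverPrime ℓ →
            ∀ σ : AlgebraicClosure ℚ ≃ₐ[ℚ] AlgebraicClosure ℚ, A.IsFrobeniusAt σ ℓ →
              LinearMap.charpoly (ρ.ρ σ) =
                X ^ 2 - C ((iota.comp chig.rangeRestrict) (CuspForm.heckeAlgebra.T hℓ hℓM hℓS)) * X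
                  + C ((ℓ : O'))) ∧
        (∀ q : ℕ, q.Prime → q ≠ lam → M.factorization q = 2 →
          ¬ ρ.IsUnipotentOnInertiaAt q) := by
  classical
  have hlam : lam.Prime := Fact.out
  set χ := iota.comp chig.rangeRestrict with hχ
  obtain ⟨ρ, h1, h2⟩ := exists_padic_rep hlam hlamS hMS
    (fun n => (jZeroGeom M lam).nonempty_esModule (↑S : Set ℕ) n) O' hlamO' χ
  refine ⟨ρ, h1, fun q hq hqlam hqM hun => ?_⟩
  -- the level
  have hM0 : M ≠ 0 := NeZero.ne M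
  obtain ⟨M', hM', hqM'⟩ : ∃ M', M = M' * q ^ 2 ∧ ¬ q ∣ M' := by
    refine ⟨M / q ^ 2, ?_, ?_⟩
    · have := Nat.ordProj_mul_ordCompl_eq_self M q
      rw [hqM] at this
      rw [mul_comm]; exact this.symm
    · have := Nat.not_dvd_ordCompl hq hM0
      rwa [hqM] at this
  have hM'0 : M' ≠ 0 := fun h => hM0 (by rw [hM', h, zero_mul])
  obtain ⟨r, hr, hrq, hNZ1, hNZ2, A, hA, c₀, hc₀, hA36⟩ := h36 M' q hM'0 hq hqM' hqlam
  set M₁ := M' * r * q with hM₁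
  have hN0 : NeZero (M₁ * q) := ⟨mul_ne_zero hNZ1.ne hNZ2.ne⟩
  have hMN : M ∣ M₁ * q := ⟨r, by rw [hM', hM₁]; ring⟩
  have hMM₁ : ¬ M ∣ M₁ := by
    intro h
    have h3 : q ^ 2 ∣ M' * r * q := (Dvd.intro_left M' hM'.symm).trans h
    rw [pow_two] at h3
    have h4 : q ∣ M' * r := Nat.dvd_of_mul_dvd_mul_right hq.pos h3
    rcases (Nat.Prime.dvd_mul hq).mp h4 with h5 | h5
    · exact hqM' h5
    · exact hrq h5
  set S' : Finset ℕ := S ∪ r.primeFactors with hS'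
  have hSS' : (↑S : Set ℕ) ⊆ (↑S' : Set ℕ) := by
    rw [hS']; exact Finset.coe_subset.mpr Finset.subset_union_left
  have hqS : q ∈ S := hMS q hq (by rw [hM']; exact (dvd_pow_self q two_ne_zero).mul_left M')
  have hNS' : ∀ ℓ : ℕ, ℓ.Prime → ℓ ∣ M₁ * q → ℓ ∈ S' := by
    intro ℓ hℓ hd
    rw [hS', Finset.mem_union]
    rcases (Nat.Prime.dvd_mul hℓ).mp hd with hd | hd
    · rcases (Nat.Prime.dvd_mul hℓ).mp hd with hd | hd
      · rcases (Nat.Prime.dvd_mul hℓ).mp hd with hd | hd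
        · exact Or.inl (hMS ℓ hℓ (by rw [hM']; exact hd.mul_right _))
        · exact Or.inr (Nat.mem_primeFactors.mpr ⟨hℓ, hd, hr⟩)
      · exact Or.inl ((Nat.prime_dvd_prime_iff_eq hℓ hq).mp hd ▸ hqS)
    · exact Or.inl ((Nat.prime_dvd_prime_iff_eq hℓ hq).mp hd ▸ hqS)
  have hlamS' : lam ∈ S' := by rw [hS']; exact Finset.mem_union_left _ hlamS
  obtain ⟨π, hπ⟩ := exists_levelMap M (M₁ * q) hMN (↑S : Set ℕ) (↑S' : Set ℕ) hSS' hNS'
  -- traces of inertia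
  have htr : ∀ s ∈ A.inertiaSubgroupIn ℚ, ρ.trace s = 2 := by
    intro s hs
    have h3 := hun A hA s hs
    have h4 : LinearMap.charpoly (ρ.ρ s) = X ^ 2 - C (2 : O') * X + C (1 : O') := by
      rw [h3, map_ofNat, map_one]; ring
    exact (trace_det_of_charpoly ρ.finrank_eq h4).1
  obtain ⟨t₀, ht₀, htr₀⟩ := exists_killing_traces hg M₁ q hq hMM₁ (↑S' : Set ℕ) S'
    (fun ℓ hℓ hd => hNS' ℓ hℓ (hd.trans hMN))
    (fun ℓ hℓ hℓS => ⟨fun h => hℓS (hNS' ℓ hℓ h), fun h => hℓS (Finset.mem_coe.mp h)⟩)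
  have hkill : ∀ x : ModularCurve.JZero (M₁ * q), (∃ m : ℕ, lam ^ m • x = 0) →
      (∀ s ∈ A.inertiaSubgroupIn ℚ, s • x = x) →
        (opsJ (M₁ * q) (M₁ * q) (↑S' : Set ℕ)).ev
          ((c₀ : HeckePoly (M₁ * q) (↑S' : Set ℕ)) * t₀) x = 0 := by
    intro x ⟨m, hm⟩ hfix
    obtain ⟨hA0, hB0⟩ := htr₀ (lam ^ m) (pow_ne_zero _ hlam.ne_zero) x hm
    rw [map_mul, map_natCast, Module.End.mul_apply, Module.End.natCast_apply]
    refine hA36 _ ⟨m, ?_⟩ (fun s hs => ?_) hA0 hB0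
    · rw [← map_nsmul, hm, map_zero]
    · rw [← HeckeOps.ev_gal, hfix s hs]
  have hmain := chi_eq_zero_of_kills_invariants hlam hlam2 hlamS' hNS' O' hlamO' (χ.comp π) ρ
    (fun ℓ hℓ hℓN hℓS' B hB σ hσ => by
      have hℓM : ¬ ℓ ∣ M := fun h => hℓN (h.trans hMN)
      have hℓS : ℓ ∉ (↑S : Set ℕ) := fun h => hℓS' (hSS' h)
      rw [RingHom.comp_apply, hπ ℓ hℓ hℓN hℓS' hℓM hℓS]
      exact h1 ℓ hℓ hℓM hℓS B hB σ hσ) hq hqlam hA htr _ hkill
  -- conclusion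
  have hinj : Function.Injective iota := by
    have : Algebra.IsIntegral ℤ chig.range := by
      have h3 : Module.Finite ℤ (CuspForm.heckeAlgebra M 2 (↑S : Set ℕ)) :=
        Fermat.Agent.Eichler.moduleFinite_heckeAlgebra 2 _
      have h4 : Algebra.IsIntegral ℤ (CuspForm.heckeAlgebra M 2 (↑S : Set ℕ)) :=
        inferInstance
      exact Algebra.IsIntegral.of_surjective chig.rangeRestrict.toIntAlgHom
        chig.rangeRestrict_surjective
    exact injective_of_isIntegral_int iota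
  rw [map_mul, map_mul, map_natCast, map_natCast] at hmain
  have hc₀' : (c₀ : O') ≠ 0 := by exact_mod_cast hc₀
  have h3 := (mul_eq_zero.mp hmain).resolve_left hc₀'
  have h4 : chig.rangeRestrict (π (evalHecke (M₁ * q) (↑S' : Set ℕ) t₀)) = 0 :=
    hinj (h3.trans (map_zero _).symm)
  have h5 : (chig.comp π) (evalHecke (M₁ * q) (↑S' : Set ℕ) t₀) = 0 := congrArg Subtype.val h4
  apply ht₀
  rw [← chig_evalHecke' (chig.comp π) (fun ℓ hℓ hℓN hℓS' => by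
    have hℓM : ¬ ℓ ∣ M := fun h => hℓN (h.trans hMN)
    have hℓS : ℓ ∉ (↑S : Set ℕ) := fun h => hℓS' (hSS' h)
    rw [RingHom.comp_apply, hπ ℓ hℓ hℓN hℓS' hℓM hℓS]
    exact hchig ℓ hℓ hℓM hℓS)]
  exact h5

end Fermat.Agent.QComp
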