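import Fermat.Agent.QComp.Traces
import Fermat.Prelude.Def_GaloisRep_LocalConditions

/-!
# Interface between the geometry of `X₀(N)` at `q ∣ N` and the assemblies of S34, S35, S36
-/

set_option autoImplicit false

namespace Fermat.Agent.QComp

open AlgebraicCurve ModularCurve

local notation "Γℚ" => (AlgebraicClosure ℚ ≃ₐ[ℚ] AlgebraicClosure ℚ)

/-- **(A34)** `q ∥ N`: inertia at `q` acts on the `p`-power torsion with `(s - 1)(t - 1) = 0`
(only `t = s` is used). -/
def A34 (N q p : ℕ) : Prop :=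
  ∀ A : ValuationSubring (AlgebraicClosure ℚ), A.LiesOverPrime q →
    ∀ s ∈ A.inertiaSubgroupIn ℚ, ∀ x : JZero N, (∃ n : ℕ, p ^ n • x = 0) →
      s • s • x - s • x - s • x + x = 0

/-- **(A35)** level `M * q` with `q ∤ M`: a Frobenius at `q` satisfies
`(φ² - q²) (φ² - 1) = 0` on the `p`-power torsion killed by the two traces to level `M`. -/
def A35 (M q p : ℕ) [NeZero M] [NeZero q] : Prop :=
  ∀ A : ValuationSubring (AlgebraicClosure ℚ), A.LiesOverPrime q →
    ∀ φ : Γℚ, A.IsFrobeniusAt φ q → ∀ x : JZero (M * q), (∃ n : ℕ, p ^ n • x = 0) →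
      trA M q x = 0 → trB M q x = 0 →
        φ • φ • φ • φ • x - (q ^ 2 + 1) • φ • φ • x + q ^ 2 • x = 0

/-- **(A36)** level `M * q` with `q ∥ M` (so `q² ∥ M * q`): the inertia-invariants in the
`p`-power torsion which are killed by the two traces to level `M` are bounded. -/
def A36 (M q p : ℕ) [NeZero M] [NeZero q] : Prop :=
  ∃ A : ValuationSubring (AlgebraicClosure ℚ), A.LiesOverPrime q ∧ ∃ c : ℕ, c ≠ 0 ∧
    ∀ x : JZero (M * q), (∃ n : ℕ, p ^ n • x = 0) →
      (∀ s ∈ A.inertiaSubgroupIn ℚ, s • x = x) → trA M q x = 0 → trB M q x = 0 → c • x = 0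

end Fermat.Agent.QComp
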