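import Fermat.Agent.QComp.Traces
import Fermat.Agent.ESh.AtkinLehner

/-!
# Hecke equivariance of the trace maps
-/

set_option autoImplicit false
set_option linter.style.haveILetI false

namespace Fermat.Agent.QComp

open AlgebraicCurve ModularCurve Fermat.Agent.FF Fermat.Agent.JZ IntermediateField

section Rank

variable {K F F₁ F₂ : Type*} [Field K] [Field F] [Field F₁] [Field F₂] [Algebra K F]
  [Algebra K F₁] [Algebra K F₂]

theorem finrankAlong_comp (φ : F →ₐ[K] F₁) (ψ : F₁ →ₐ[K] F₂) :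
    finrankAlong K (ψ.comp φ) = finrankAlong K φ * finrankAlong K ψ := by
  letI := algebraAlong φ
  letI := algebraAlong ψ
  letI : Algebra F F₂ := algebraAlong (ψ.comp φ)
  haveI : IsScalarTower F F₁ F₂ := IsScalarTower.of_algebraMap_eq fun x => rfl
  exact (Module.finrank_mul_finrank F F₁ F₂).symm

theorem finrankAlong_pos (φ : F →ₐ[K] F₁) (h : FiniteAlong K φ) : 0 < finrankAlong K φ := by
  letI := algebraAlong φ
  haveI : Module.Finite F F₁ := h
  exact Module.finrank_pos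

/-- `φ_* φ^* = deg φ` over an algebraically closed field of constants. -/
theorem pushforwardAlong_pullbackAlong [HasPrincipalDivisors K F₁] (φ : F →ₐ[K] F₁)
    (hφ : φ.toRingHom.IsIntegral) (hFI : FundamentalIdentityAlong K φ hφ)
    (hdeg : ∀ v : Place K F, v.deg = 1) (hdeg₁ : ∀ v : Place K F₁, v.deg = 1)
    (D : Divisor K F) :
    Divisor.pushforwardAlong φ hφ (Divisor.pullbackAlong φ hφ D) = finrankAlong K φ • D := by
  classical
  induction D using Finsupp.induction_linear with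
  | zero => simp only [map_zero, smul_zero]
  | add D E hD hE => rw [map_add, map_add, hD, hE, smul_add]
  | single v n =>
    have hf : ∀ w : Place K F₁, w.inertiaDegAlong φ hφ = 1 := by
      intro w
      have h := deg_restrictAlong_mul_inertiaDegAlong φ hφ w
      rwa [hdeg, hdeg₁, one_mul] at h
    have hsum : ∑ w ∈ Place.fiberAlong φ hφ v, (w.ramificationIndexAlong φ : ℤ) =
        (finrankAlong K φ : ℤ) := by
      letI := algebraAlong φ
      haveI := isScalarTower_along φ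
      haveI := isIntegral_along φ hφ
      haveI : FundamentalIdentity K F F₁ := hFI
      have h := FundamentalIdentity.sum_ramificationIndex_mul_deg (K := K) (F := F) (F' := F₁) v
      rw [hdeg, Nat.cast_one, mul_one] at h
      have h2 : ∀ w ∈ v.fiber F₁, (w.ramificationIndex F : ℤ) * (w.deg : ℤ) =
          (w.ramificationIndex F : ℤ) := by
        intro w _
        rw [hdeg₁, Nat.cast_one, mul_one]
      rw [Finset.sum_congr rfl h2] at h
      exact h
    rw [Divisor.pullbackAlong_single, map_sum]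
    have h3 : ∀ w ∈ Place.fiberAlong φ hφ v,
        Divisor.pushforwardAlong φ hφ (Finsupp.single w (n * (w.ramificationIndexAlong φ : ℤ))) =
          Finsupp.single v (n * (w.ramificationIndexAlong φ : ℤ)) := by
      intro w hw
      rw [Divisor.pushforwardAlong_single, hf, Place.mem_fiberAlong.mp hw, Nat.cast_one, mul_one]
    rw [Finset.sum_congr rfl h3, ← Finsupp.single_finsetSum, ← Finset.mul_sum, hsum,
      Finsupp.smul_single, nsmul_eq_mul, mul_comm]

/-- Twisting both legs of a correspondence by an automorphism does not change it. -/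
theorem correspondence_comp_aut [HasPrincipalDivisors K F₁] {φ ψ φ' ψ' : F →ₐ[K] F₁}
    (w : F₁ →ₐ[K] F₁) (hφ' : w.comp φ = φ') (hψ' : w.comp ψ = ψ') (hw1 : finrankAlong K w = 1)
    (iφ : φ.toRingHom.IsIntegral) (iψ : ψ.toRingHom.IsIntegral)
    (iφ' : φ'.toRingHom.IsIntegral) (iψ' : ψ'.toRingHom.IsIntegral)
    (iw : w.toRingHom.IsIntegral) (hFI : FundamentalIdentityAlong K w iw)
    (hdeg : ∀ v : Place K F, v.deg = 1) (hdeg₁ : ∀ v : Place K F₁, v.deg = 1)
    (D : Divisor K F) :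
    Divisor.correspondence φ' ψ' iφ' iψ' D = Divisor.correspondence φ ψ iφ iψ D := by
  subst hφ' hψ'
  rw [Divisor.correspondence_apply, Divisor.correspondence_apply,
    ← pullbackAlong_comp φ iφ w iw iφ',
    ← pushforwardAlong_comp ψ iψ w iw iψ' (fun v => by rw [hdeg]; exact one_ne_zero),
    pushforwardAlong_pullbackAlong w iw hFI hdeg₁ hdeg₁, hw1, one_smul]

end Rank

section PicCorr

variable {K F F₁ F₂ F₃ : Type*} [Field K] [Field F] [Field F₁] [Field F₂] [Field F₃]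
  [Algebra K F] [Algebra K F₁] [Algebra K F₂] [Algebra K F₃]
  [HasPrincipalDivisors K F₁] [HasPrincipalDivisors K F₂] [HasPrincipalDivisors K F₃]

theorem pushPic0_correspondence
    {π : F →ₐ[K] F₁} {α₂ β₂ : F →ₐ[K] F₂} {α₂' β₂' : F₁ →ₐ[K] F₃}
    (hπ : π.toRingHom.IsIntegral)
    (hα₂ : α₂.toRingHom.IsIntegral) (hβ₂ : β₂.toRingHom.IsIntegral)
    (hα₂' : α₂'.toRingHom.IsIntegral) (hβ₂' : β₂'.toRingHom.IsIntegral)
    (hf : FiniteAlong K π) (hN : NormFormulaAlong K π hf)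
    (hf₂ : FiniteAlong K α₂) (hN₂ : NormFormulaAlong K α₂ hf₂)
    (hf₂' : FiniteAlong K α₂') (hN₂' : NormFormulaAlong K α₂' hf₂')
    (hFI : FundamentalIdentityAlong K β₂ hβ₂) (hFI' : FundamentalIdentityAlong K β₂' hβ₂')
    (h : ∀ D : Divisor K F₁,
      Divisor.pushforwardAlong π hπ (Divisor.correspondence β₂' α₂' hβ₂' hα₂' D) =
      Divisor.correspondence β₂ α₂ hβ₂ hα₂ (Divisor.pushforwardAlong π hπ D))
    (x : Pic0 K F₁) :
    pushPic0 π hπ hf hN (Pic0.correspondence β₂' α₂' hβ₂' hα₂' hFI' hf₂' hN₂' x) =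
      Pic0.correspondence β₂ α₂ hβ₂ hα₂ hFI hf₂ hN₂ (pushPic0 π hπ hf hN x) := by
  obtain ⟨D, rfl⟩ := Pic0.mk_surjective x
  rw [pushPic0_mk, Pic0.correspondence_mk, Pic0.correspondence_mk, pushPic0_mk]
  refine congrArg Pic0.mk (Subtype.ext ?_)
  simp only [Pic0.coe_degZeroCorrespondence, coe_degZeroPush]
  exact h _

end PicCorr

section Modular

local notation "Qb" => AlgebraicClosure ℚ

/-- the Atkin–Lehner automorphism is an isomorphism -/
theorem exists_al (N ℓ : ℕ) [NeZero N] [NeZero ℓ] (hℓ : ℓ.Prime) (hN : ¬ ℓ ∣ N) :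
    ∃ w : FN Qb (N * ℓ) →ₐ[Qb] FN Qb (N * ℓ),
      w.comp (heckeAlphaBar Qb N ℓ) = heckeBetaBar Qb N ℓ ∧
      w.comp (heckeBetaBar Qb N ℓ) = heckeAlphaBar Qb N ℓ ∧ finrankAlong Qb w = 1 := by
  have : Algebra.IsAlgebraic ℚ (AlgebraicClosure ℚ) := AlgebraicClosure.isAlgebraic ℚ
  let _ : Algebra Qb ℂ :=
    (IsAlgClosed.lift (M := ℂ) (R := ℚ) (S := AlgebraicClosure ℚ)).toRingHom.toAlgebra
  obtain ⟨w, h1, h2⟩ := ESh.exists_atkinLehner Qb N ℓ hℓ hN
  have e1 : w.comp (heckeAlphaBar Qb N ℓ) = heckeBetaBar Qb N ℓ := AlgHom.ext h1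
  have e2 : w.comp (heckeBetaBar Qb N ℓ) = heckeAlphaBar Qb N ℓ := AlgHom.ext h2
  refine ⟨w, e1, e2, ?_⟩
  have f1 := finrankAlong_comp (heckeAlphaBar Qb N ℓ) w
  have f2 := finrankAlong_comp (heckeBetaBar Qb N ℓ) w
  rw [e1] at f1
  rw [e2] at f2
  have hpos := finrankAlong_pos (heckeAlphaBar Qb N ℓ) (finiteAlong _)
  have hw : finrankAlong Qb w * finrankAlong Qb w = 1 := by
    rw [f1, mul_assoc] at f2
    exact (Nat.eq_of_mul_eq_mul_left hpos (by rw [mul_one]; exact f2)).symm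
  exact Nat.eq_one_of_mul_eq_one_left hw

theorem finrankAlong_beta_one (q : ℕ) [NeZero q] (hq : q.Prime) :
    finrankAlong Qb (heckeBetaBar Qb 1 q) = finrankAlong Qb (heckeAlphaBar Qb 1 q) := by
  obtain ⟨w, e1, e2, hw1⟩ := exists_al 1 q hq (fun h => hq.one_lt.ne' (Nat.dvd_one.mp h))
  have f1 := finrankAlong_comp (heckeAlphaBar Qb 1 q) w
  rw [e1] at f1
  rw [f1, hw1, mul_one]

/-- The Hecke correspondence `T_ℓ`, `ℓ ∤ N`, is symmetric. -/
theorem correspondence_symm (N ℓ : ℕ) [NeZero N] [NeZero ℓ] (hℓ : ℓ.Prime) (hN : ¬ ℓ ∣ N)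
    (hα : HeckeAlphaBarIntegral Qb N ℓ) (hβ : HeckeBetaBarIntegral Qb N ℓ)
    (D : Divisor Qb (FN Qb N)) :
    Divisor.correspondence (heckeBetaBar Qb N ℓ) (heckeAlphaBar Qb N ℓ) hβ hα D =
      Divisor.correspondence (heckeAlphaBar Qb N ℓ) (heckeBetaBar Qb N ℓ) hα hβ D := by
  obtain ⟨w, e1, e2, hw1⟩ := exists_al N ℓ hℓ hN
  exact correspondence_comp_aut w e1 e2 hw1 hα hβ hβ hα (isIntegralAlong _)
    (nInputs.fund _ _ _ _) (fun v => FF.deg_eq_one v) (fun v => FF.deg_eq_one v) D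

theorem finrank_square {F F₁ F₂ F₃ : Type} [Field F] [Field F₁] [Field F₂] [Field F₃]
    [Algebra Qb F] [Algebra Qb F₁] [Algebra Qb F₂] [Algebra Qb F₃]
    (ι : F →ₐ[Qb] F₁) (ι' : F₂ →ₐ[Qb] F₃) (a b : F₁ →ₐ[Qb] F₃) (a₁ b₁ : F →ₐ[Qb] F₂)
    (ea : a.comp ι = ι'.comp a₁) (eb : b.comp ι = ι'.comp b₁)
    (hpos : 0 < finrankAlong Qb ι) (h : finrankAlong Qb b₁ = finrankAlong Qb a₁) :
    finrankAlong Qb b = finrankAlong Qb a := by
  have f1 := finrankAlong_comp ι b
  have f2 := finrankAlong_comp ι a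
  rw [eb, finrankAlong_comp, h] at f1
  rw [ea, finrankAlong_comp] at f2
  exact Nat.eq_of_mul_eq_mul_left hpos (f1.symm.trans f2)

theorem finrankAlong_beta (N q : ℕ) [NeZero N] [NeZero q] (hq : q.Prime) :
    finrankAlong Qb (heckeBetaBar Qb N q) = finrankAlong Qb (heckeAlphaBar Qb N q) := by
  have hle : FN Qb (1 * q) ≤ FN Qb (N * q) :=
    FN_mono (L := Qb) (M := 1 * q) (M' := N * q) (Nat.mul_dvd_mul_right (one_dvd N) q)
  have hle1 : FN Qb 1 ≤ FN Qb N := FN_mono (one_dvd N)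
  refine finrank_square (IntermediateField.inclusion hle1) (IntermediateField.inclusion hle)
    (heckeAlphaBar Qb N q) (heckeBetaBar Qb N q) (heckeAlphaBar Qb 1 q) (heckeBetaBar Qb 1 q)
    ?_ ?_ (finrankAlong_pos _ (finiteAlong _)) (finrankAlong_beta_one q hq)
  · refine AlgHom.ext fun x => Subtype.ext ?_
    rw [AlgHom.comp_apply, AlgHom.comp_apply]
    exact (coe_heckeAlphaBar N q _).trans ((IntermediateField.coe_inclusion hle1 x).trans
      ((IntermediateField.coe_inclusion hle _).trans (coe_heckeAlphaBar 1 q x)).symm)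
  · refine AlgHom.ext fun x => Subtype.ext ?_
    rw [AlgHom.comp_apply, AlgHom.comp_apply]
    exact (coe_heckeBetaBar N q _).trans
      ((congrArg (qExpand Qb q) (IntermediateField.coe_inclusion hle1 x)).trans
      ((IntermediateField.coe_inclusion hle _).trans (coe_heckeBetaBar 1 q x)).symm)


/-- the square of function fields for the trace and a Hecke operator -/
theorem push_correspondence_modular (N q ℓ : ℕ) [NeZero N] [NeZero q] [NeZero ℓ]
    (π : FN Qb N →ₐ[Qb] FN Qb (N * q)) (π' : FN Qb (N * ℓ) →ₐ[Qb] FN Qb (N * q * ℓ))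
    (hα : (heckeAlphaBar Qb (N * q) ℓ).comp π = π'.comp (heckeAlphaBar Qb N ℓ))
    (hβ : (heckeBetaBar Qb (N * q) ℓ).comp π = π'.comp (heckeBetaBar Qb N ℓ))
    (hr : finrankAlong Qb π = finrankAlong Qb π')
    (hgen : ∀ S : Subfield (FN Qb (N * q * ℓ)), (∀ x, π' x ∈ S) →
      (∀ x, heckeBetaBar Qb (N * q) ℓ x ∈ S) → S = ⊤)
    (x : JZero (N * q)) :
    pushPic0 π (isIntegralAlong _) (finiteAlong _) (nInputs.norm _ _ _ _)
      (heckeOperatorAlong Qb (N * q) ℓ x) =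
    heckeOperatorAlong Qb N ℓ
      (pushPic0 π (isIntegralAlong _) (finiteAlong _) (nInputs.norm _ _ _ _) x) := by
  obtain ⟨hα₁, hβ₁, hP₁, hf₁, hFI₁, hN₁⟩ := heckeInputsAlong modInputs nInputs (N * q) ℓ
  obtain ⟨hα₂, hβ₂, hP₂, hf₂, hFI₂, hN₂⟩ := heckeInputsAlong modInputs nInputs N ℓ
  rw [heckeOperatorAlong_eq hα₁ hβ₁ hFI₁ hf₁ hN₁, heckeOperatorAlong_eq hα₂ hβ₂ hFI₂ hf₂ hN₂]
  exact pushPic0_correspondence (isIntegralAlong _) hα₂ hβ₂ hα₁ hβ₁ (finiteAlong _)
    (nInputs.norm _ _ _ _) hf₂ hN₂ hf₁ hN₁ hFI₂ hFI₁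
    (push_correspondence (fun v => by rw [FF.deg_eq_one v]; exact one_ne_zero)
    (simpleApprox _ _) (isIntegralAlong _) (isIntegralAlong π') hα₂ hβ₂ hα₁ hβ₁ hα hβ
    (finiteAlong _) (finiteAlong _) (nInputs.norm _ _ _ _) (nInputs.norm _ _ _ _) hr hgen) x


theorem prime_dvd_mul_prime_iff {N q ℓ : ℕ} (hq : q.Prime) (hℓ : ℓ.Prime) (hne : ℓ ≠ q) :
    q ∣ N * ℓ ↔ q ∣ N := by
  rw [hq.dvd_mul]
  refine ⟨fun h => h.resolve_right fun h => hne ?_, Or.inl⟩
  exact ((Nat.prime_dvd_prime_iff_eq hq hℓ).mp h).symm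

theorem relfinrank_square (N q ℓ : ℕ) [NeZero N] [NeZero q] [NeZero ℓ] (hq : q.Prime)
    (hℓ : ℓ.Prime) (hne : ℓ ≠ q) :
    (FN Qb N).relfinrank (FN Qb (N * q)) =
      (FN Qb (N * ℓ)).relfinrank (FN Qb (N * q * ℓ)) := by
  have hcomm3 : N * ℓ * q = N * q * ℓ := by ring
  have h4 : (FN Qb (N * ℓ)).relfinrank (FN Qb (N * q * ℓ)) =
      (FN Qb (N * ℓ)).relfinrank (FN Qb (N * ℓ * q)) := by
    congr 1
    simp only [hcomm3]
  rw [h4, relfinrank_FN_prime modInputs hq, relfinrank_FN_prime modInputs hq]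
  simp only [prime_dvd_mul_prime_iff hq hℓ hne]

theorem trA_hecke (N q : ℕ) [NeZero N] [NeZero q] (hq : q.Prime) (ℓ : Nat.Primes)
    (hne : (ℓ : ℕ) ≠ q) (x : JZero (N * q)) :
    trA N q (heckeOperatorBar (N * q) ℓ x) = heckeOperatorBar N ℓ (trA N q x) := by
  haveI : NeZero (ℓ : ℕ) := ⟨ℓ.2.ne_zero⟩
  have hdvd : N * ℓ ∣ N * q * ℓ := ⟨q, by ring⟩
  have hle : FN Qb (N * ℓ) ≤ FN Qb (N * q * ℓ) := FN_mono hdvd
  refine push_correspondence_modular N q ℓ (heckeAlphaBar Qb N q)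
    (IntermediateField.inclusion hle) ?_ ?_ ?_ ?_ x
  · refine AlgHom.ext fun x => Subtype.ext ?_
    rw [AlgHom.comp_apply, AlgHom.comp_apply]
    exact (coe_heckeAlphaBar (N * q) ℓ _).trans ((coe_heckeAlphaBar N q x).trans
      ((IntermediateField.coe_inclusion hle _).trans (coe_heckeAlphaBar N ℓ x)).symm)
  · refine AlgHom.ext fun x => Subtype.ext ?_
    rw [AlgHom.comp_apply, AlgHom.comp_apply]
    exact (coe_heckeBetaBar (N * q) ℓ _).trans
      ((congrArg (qExpand Qb ℓ) (coe_heckeAlphaBar N q x)).trans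
      ((IntermediateField.coe_inclusion hle _).trans (coe_heckeBetaBar N ℓ x)).symm)
  · exact (finrankAlong_inclusion _).trans
      ((relfinrank_square N q ℓ hq ℓ.2 hne).trans (finrankAlong_inclusion hle).symm)
  · intro S hS1 hS2
    refine eq_top_of_gen modInputs S (fun a => ?_) (fun x hx => ?_) (fun x hx => ?_)
    · have := hS1 (algebraMap Qb _ a)
      rwa [AlgHom.commutes] at this
    · have h1 := coeffEmb_qExpand_mem (L := Qb) (M := N * ℓ) (d := 1) (one_dvd _)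
      rw [qExpand_one_apply] at h1
      have h2 := hS1 ⟨_, h1⟩
      have h3 : IntermediateField.inclusion hle ⟨_, h1⟩ = x :=
        Subtype.ext ((IntermediateField.coe_inclusion hle _).trans hx.symm)
      rwa [h3] at h2
    · have h1 := coeffEmb_qExpand_mem (L := Qb) (M := N * q) (d := N * q) dvd_rfl
      have h2 := hS2 ⟨_, h1⟩
      have h3 : heckeBetaBar Qb (N * q) ℓ ⟨_, h1⟩ = x := Subtype.ext (by
        rw [hx]
        refine (coe_heckeBetaBar (N * q) ℓ _).trans ?_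
        change qExpand Qb ℓ (qExpand Qb (N * q) (coeffEmb Qb jq)) = _
        rw [qExpand_qExpand]
        exact qExpand_congr (by ring) _)
      rwa [h3] at h2

theorem trB_hecke (N q : ℕ) [NeZero N] [NeZero q] (hq : q.Prime) (ℓ : Nat.Primes)
    (hℓN : ¬ (ℓ : ℕ) ∣ N * q) (x : JZero (N * q)) :
    trB N q (heckeOperatorBar (N * q) ℓ x) = heckeOperatorBar N ℓ (trB N q x) := by
  haveI : NeZero (ℓ : ℕ) := ⟨ℓ.2.ne_zero⟩
  have hℓN' : ¬ (ℓ : ℕ) ∣ N := fun h => hℓN (h.mul_right q)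
  have hne : (ℓ : ℕ) ≠ q := fun h => hℓN (h ▸ dvd_mul_left _ N)
  have hcomm3 : N * ℓ * q = N * q * ℓ := by ring
  have hle : FN Qb (N * ℓ * q) ≤ FN Qb (N * q * ℓ) := FN_mono (dvd_of_eq hcomm3)
  let π' : FN Qb (N * ℓ) →ₐ[Qb] FN Qb (N * q * ℓ) :=
    (IntermediateField.inclusion hle).comp (heckeBetaBar Qb (N * ℓ) q)
  have hπ' : ∀ x, ((π' x : FN Qb (N * q * ℓ)) : LaurentSeries Qb) = qExpand Qb q x := fun x =>
    (IntermediateField.coe_inclusion hle _).trans (coe_heckeBetaBar (N * ℓ) q x)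
  have hα : (heckeAlphaBar Qb (N * q) ℓ).comp (heckeBetaBar Qb N q) =
      π'.comp (heckeAlphaBar Qb N ℓ) := by
    refine AlgHom.ext fun x => Subtype.ext ?_
    rw [AlgHom.comp_apply, AlgHom.comp_apply]
    exact (coe_heckeAlphaBar (N * q) ℓ _).trans ((coe_heckeBetaBar N q x).trans
      ((hπ' _).trans (congrArg (qExpand Qb q) (coe_heckeAlphaBar N ℓ x))).symm)
  have hβ : (heckeBetaBar Qb (N * q) ℓ).comp (heckeBetaBar Qb N q) =
      π'.comp (heckeBetaBar Qb N ℓ) := by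
    refine AlgHom.ext fun x => Subtype.ext ?_
    rw [AlgHom.comp_apply, AlgHom.comp_apply]
    refine (coe_heckeBetaBar (N * q) ℓ _).trans
      ((congrArg (qExpand Qb ℓ) (coe_heckeBetaBar N q x)).trans ?_)
    refine Eq.trans ?_ ((hπ' _).trans (congrArg (qExpand Qb q) (coe_heckeBetaBar N ℓ x))).symm
    rw [qExpand_qExpand, qExpand_qExpand]
    exact qExpand_congr (mul_comm _ _) _
  have hr : finrankAlong Qb (heckeBetaBar Qb N q) = finrankAlong Qb π' := by
    have h1 : finrankAlong Qb π' = finrankAlong Qb (heckeBetaBar Qb (N * ℓ) q) := by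
      have h2 := finrankAlong_comp (heckeBetaBar Qb (N * ℓ) q) (IntermediateField.inclusion hle)
      have h3 : finrankAlong Qb (IntermediateField.inclusion hle) = 1 := by
        rw [finrankAlong_inclusion, IntermediateField.relfinrank_eq_one_iff]
        exact FN_mono (dvd_of_eq hcomm3.symm)
      rw [h3, mul_one] at h2
      exact h2
    rw [h1, finrankAlong_beta N q hq, finrankAlong_beta (N * ℓ) q hq]
    have e1 : finrankAlong Qb (heckeAlphaBar Qb N q) = (FN Qb N).relfinrank (FN Qb (N * q)) :=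
      finrankAlong_inclusion _
    have e2 : finrankAlong Qb (heckeAlphaBar Qb (N * ℓ) q) =
      (FN Qb (N * ℓ)).relfinrank (FN Qb (N * ℓ * q)) := finrankAlong_inclusion _
    rw [e1, e2, relfinrank_FN_prime modInputs hq, relfinrank_FN_prime modInputs hq]
    simp only [prime_dvd_mul_prime_iff hq ℓ.2 hne]
  have hgen : ∀ S : Subfield (FN Qb (N * q * ℓ)), (∀ x, π' x ∈ S) →
      (∀ x, heckeAlphaBar Qb (N * q) ℓ x ∈ S) → S = ⊤ := by
    intro S hS1 hS2
    refine eq_top_of_gen modInputs S (fun a => ?_) (fun x hx => ?_) (fun x hx => ?_)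
    · have := hS1 (algebraMap Qb _ a)
      rwa [AlgHom.commutes] at this
    · have h1 := coeffEmb_qExpand_mem (L := Qb) (M := N * q) (d := 1) (one_dvd _)
      rw [qExpand_one_apply] at h1
      have h2 := hS2 ⟨_, h1⟩
      have h3 : heckeAlphaBar Qb (N * q) ℓ ⟨_, h1⟩ = x :=
        Subtype.ext ((coe_heckeAlphaBar (N * q) ℓ _).trans hx.symm)
      rwa [h3] at h2
    · have h1 := coeffEmb_qExpand_mem (L := Qb) (M := N * ℓ) (d := N * ℓ) dvd_rfl
      have h2 := hS1 ⟨_, h1⟩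
      have h3 : π' ⟨_, h1⟩ = x := Subtype.ext (by
        rw [hx]
        refine (hπ' _).trans ?_
        change qExpand Qb q (qExpand Qb (N * ℓ) (coeffEmb Qb jq)) = _
        rw [qExpand_qExpand]
        exact qExpand_congr (by ring) _)
      rwa [h3] at h2
  obtain ⟨hα₁, hβ₁, hP₁, hf₁, hFI₁, hN₁⟩ := heckeInputsAlong modInputs nInputs (N * q) ℓ
  obtain ⟨hα₂, hβ₂, hP₂, hf₂, hFI₂, hN₂⟩ := heckeInputsAlong modInputs nInputs N ℓ
  change trB N q (heckeOperatorAlong Qb (N * q) ℓ x) = heckeOperatorAlong Qb N ℓ (trB N q x)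
  rw [heckeOperatorAlong_eq hα₁ hβ₁ hFI₁ hf₁ hN₁, heckeOperatorAlong_eq hα₂ hβ₂ hFI₂ hf₂ hN₂]
  refine pushPic0_correspondence (isIntegralAlong _) hα₂ hβ₂ hα₁ hβ₁ (finiteAlong _)
    (nInputs.norm _ _ _ _) hf₂ hN₂ hf₁ hN₁ hFI₂ hFI₁ (fun D => ?_) x
  rw [correspondence_symm (N * q) ℓ ℓ.2 hℓN hα₁ hβ₁, correspondence_symm N ℓ ℓ.2 hℓN' hα₂ hβ₂]
  exact push_correspondence (fun v => by rw [FF.deg_eq_one v]; exact one_ne_zero)
    (simpleApprox _ _) (isIntegralAlong _) (isIntegralAlong π') hβ₂ hα₂ hβ₁ hα₁ hβ hα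
    (finiteAlong _) (finiteAlong _) (nInputs.norm _ _ _ _) (nInputs.norm _ _ _ _) hr hgen D

end Modular

end Fermat.Agent.QComp
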