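import Fermat.Agent.QComp.Killing
import Fermat.Agent.QComp.TrHecke
import Fermat.Agent.QComp.Interface
import Fermat.Agent.RepTwo.Geometry
import Fermat.Agent.RepTwo.JZeroMod
import Fermat.Agent.Top.SupportCoker

/-!
# Hecke polynomials acting on `JZero N`
-/

set_option autoImplicit false

namespace Fermat.Agent.QComp

open ModularCurve Fermat.Agent.RepTwo Fermat.Agent.Top

/-- The geometry of `JZero N` from the Eichler–Shimura relation. -/
theorem jZeroGeom_of_es {N p : ℕ} [NeZero N] [hp : Fact p.Prime] (h : JZeroES N p) :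
    JZeroGeom N p where
  finite m := by
    haveI : NeZero (p ^ m) := ⟨pow_ne_zero m hp.out.ne_zero⟩
    exact Top.finite_pTor N (p ^ m)
  level m := torsionLevel N (p ^ m)
  comm := heckeOperatorsCommuteBar N
  es := h
  support m := by
    haveI : NeZero (p ^ m) := ⟨pow_ne_zero m hp.out.ne_zero⟩
    exact Top.supportMap N (p ^ m)

/-- Hecke polynomials in `T_ℓ`, `ℓ ∈ GoodPrime N' S'`, acting on `JZero N`. -/
noncomputable def opsJ (N N' : ℕ) [NeZero N] (S' : Set ℕ) : HeckeOps N' S' (JZero N) where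
  T i := heckeOperatorBar N ⟨i.1, i.2.1⟩
  comm _ _ := heckeOperatorsCommuteBar N _ _
  gal i σ x := JZ.heckeOperatorBar_smul ⟨i.1, i.2.1⟩ σ x

theorem opsJ_T (N N' : ℕ) [NeZero N] (S' : Set ℕ) (i : GoodPrime N' S') :
    (opsJ N N' S').T i = heckeOperatorBar N ⟨i.1, i.2.1⟩ := rfl

/-- Hecke polynomials killing the parabolic cohomology kill the torsion of `J₀(N)` up to a bounded
factor. -/
theorem exists_bound_of_evalPar (N : ℕ) [NeZero N] : ∃ c : ℕ, c ≠ 0 ∧
    ∀ (N' : ℕ) (S' : Set ℕ), (∀ i : GoodPrime N' S', ¬ (i : ℕ) ∣ N) →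
      ∀ t : HeckePoly N' S', evalPar N ℤ (polyIncl N' S' t) = 0 →
        ∀ m : ℕ, m ≠ 0 → ∀ x : JZero N, m • x = 0 → c • (opsJ N N' S').ev t x = 0 := by
  obtain ⟨c, hc, H⟩ := exists_supportMap_bounded N
  refine ⟨c, hc, fun N' S' hS' t ht m hm x hx => ?_⟩
  obtain ⟨ι, -, -, h3, h4⟩ := H m hm
  obtain ⟨φ, hφ⟩ := h4 x hx
  let T'' : GoodPrime N' S' → Module.End ℤ (parM N ℤ) := fun i => hopPar N ℤ ⟨i.1, i.2.1⟩
  have hT'' : ∀ i j, T'' i * T'' j = T'' j * T'' i := fun i j => hopPar_comm N ℤ _ _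
  have e1 : evalPar N ℤ (polyIncl N' S' t) = evalEnd T'' hT'' t := by
    refine eq_evalEnd (T := T'') hT''
      ((evalPar N ℤ).toRingHom.comp (polyIncl N' S').toRingHom) (fun i => ?_) t
    show evalPar N ℤ (polyIncl N' S' (MvPolynomial.X i)) = _
    rw [polyIncl_X]
    exact evalEnd_X _ (hopPar_comm N ℤ) (⟨i.1, i.2.1⟩ : Nat.Primes)
  have e2 : ι (evalEnd T'' hT'' t φ) = (opsJ N N' S').ev t (ι φ) :=
    evalEnd_natural hT'' (opsJ N N' S').comm ι (fun i φ => h3 ⟨i.1, i.2.1⟩ (hS' i) φ) t φ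
  rw [← map_nsmul, hφ, ← e2, ← e1, ht, LinearMap.zero_apply, map_zero]

/-- trace maps commute with good Hecke polynomials -/
theorem trA_ev (M q N' : ℕ) [NeZero M] [NeZero q] (S' : Set ℕ) (hq : q.Prime)
    (hS' : ∀ i : GoodPrime N' S', (i : ℕ) ≠ q) (t : HeckePoly N' S') (x : JZero (M * q)) :
    trA M q ((opsJ (M * q) N' S').ev t x) = (opsJ M N' S').ev t (trA M q x) :=
  evalEnd_natural (opsJ (M * q) N' S').comm (opsJ M N' S').comm (trA M q)
    (fun i x => trA_hecke M q hq ⟨i.1, i.2.1⟩ (hS' i) x) t x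

theorem trB_ev (M q N' : ℕ) [NeZero M] [NeZero q] (S' : Set ℕ) (hq : q.Prime)
    (hS' : ∀ i : GoodPrime N' S', ¬ (i : ℕ) ∣ M * q) (t : HeckePoly N' S') (x : JZero (M * q)) :
    trB M q ((opsJ (M * q) N' S').ev t x) = (opsJ M N' S').ev t (trB M q x) :=
  evalEnd_natural (opsJ (M * q) N' S').comm (opsJ M N' S').comm (trB M q)
    (fun i x => trB_hecke M q hq ⟨i.1, i.2.1⟩ (hS' i) x) t x

/-- **A polynomial in the good Hecke operators of level `M * q` mapping all torsion into the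
kernel of the traces to level `M`, which does not kill a given newform.** -/
theorem exists_killing_traces {M₀ : ℕ} [NeZero M₀] {g : CuspForm (CongruenceSubgroup.Gamma0 M₀) 2}
    (hg : g.IsNewform) (M q : ℕ) [NeZero M] [NeZero q] (hq : q.Prime) (hM : ¬ M₀ ∣ M)
    (S : Set ℕ) (s : Finset ℕ) (hs : ∀ r : ℕ, r.Prime → r ∣ M₀ → r ∈ s)
    (hs' : ∀ ℓ : ℕ, ℓ.Prime → ℓ ∉ s → ¬ ℓ ∣ M * q ∧ ℓ ∉ S) :
    ∃ t : HeckePoly (M * q) S,
      MvPolynomial.aeval (fun i : GoodPrime (M * q) S => ModularFormClass.qCoeff g i) t ≠ (0 : ℂ) ∧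
      ∀ m : ℕ, m ≠ 0 → ∀ x : JZero (M * q), m • x = 0 →
        trA M q ((opsJ (M * q) (M * q) S).ev t x) = 0 ∧
        trB M q ((opsJ (M * q) (M * q) S).ev t x) = 0 := by
  obtain ⟨t, ht, htg⟩ := exists_killing hg M hM (M * q) S s hs hs'
  obtain ⟨c, hc, H⟩ := exists_bound_of_evalPar M
  have hgood : ∀ i : GoodPrime (M * q) S, ¬ (i : ℕ) ∣ M := fun i h => i.2.2.1 (h.mul_right q)
  have hne : ∀ i : GoodPrime (M * q) S, (i : ℕ) ≠ q := fun i h => i.2.2.1 (by
    rw [h]; exact dvd_mul_left _ _)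
  refine ⟨(c : HeckePoly (M * q) S) * t, ?_, fun m hm x hx => ⟨?_, ?_⟩⟩
  · rw [map_mul, map_natCast]
    exact mul_ne_zero (by exact_mod_cast hc) htg
  · rw [trA_ev M q (M * q) S hq hne, map_mul, map_natCast]
    exact H (M * q) S hgood t ht m hm _ (by rw [← map_nsmul, hx, map_zero])
  · rw [trB_ev M q (M * q) S hq (fun i => i.2.2.1), map_mul, map_natCast]
    exact H (M * q) S hgood t ht m hm _ (by rw [← map_nsmul, hx, map_zero])

end Fermat.Agent.QComp
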