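import Fermat.Agent.QComp.S34Final
import Fermat.Agent.QComp.OpsJ
import Fermat.Agent.ESh.Final

/-!
# The geometry of `JZero N`, unconditionally
-/

set_option autoImplicit false

namespace Fermat.Agent.QComp

open ModularCurve Fermat.Agent.RepTwo

/-- The Eichler–Shimura relation on `JZero N`. -/
theorem jZeroES (N p : ℕ) [NeZero N] : JZeroES N p :=
  jzeroES_of_specializationExists (heckeOperatorsCommuteBar N)
    (ESh.specializationExists N p (heckeOperatorsCommuteBar N))

/-- All the geometric facts on `JZero N`. -/
theorem jZeroGeom (N p : ℕ) [NeZero N] [Fact p.Prime] : JZeroGeom N p :=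
  jZeroGeom_of_es (jZeroES N p)

end Fermat.Agent.QComp
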