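import Fermat.Agent.QVal.LevelTwo
import Fermat.Agent.Cusp.Fricke
import Fermat.Agent.Red.XZero
import Fermat.Agent.Red.Assembly

/-!
# Horizontal cusps of `X₀(M q²)`
-/

set_option autoImplicit false
set_option linter.unusedSectionVars false
set_option linter.style.haveILetI false

noncomputable section

open AlgebraicCurve ModularCurve IntermediateField Module

namespace Fermat.Agent.QComp

open Fermat.Agent.FF Fermat.Agent.QVal Fermat.Agent.JZ Fermat.Agent.Red

section Close

variable {K F : Type*} [Field K] [Field F] [Algebra K F] (v : Place K F)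

/-- `a` and `b` differ by a principal unit at `v` -/
def Close (a b : F) : Prop :=
  ∃ u : Fˣ, u ∈ v.toValuationSubring.principalUnitGroup ∧ a = u * b

theorem mem_pu_iff (u : Fˣ) : u ∈ v.toValuationSubring.principalUnitGroup ↔
    ((u : F) - 1 = 0 ∨ 0 < v.ord ((u : F) - 1)) := by
  rw [ValuationSubring.mem_principalUnitGroup_iff, ← ValuationSubring.mem_nonunits_iff,
    ValuationSubring.mem_nonunits_iff_exists_mem_maximalIdeal]
  constructor
  · rintro ⟨h1, h2⟩
    exact (coe_mem_maximalIdeal_iff v ⟨_, h1⟩).1 h2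
  · intro h
    have h1 : (u : F) - 1 ∈ v.toValuationSubring := (mem_iff v).2 (h.imp id le_of_lt)
    exact ⟨h1, (coe_mem_maximalIdeal_iff v ⟨_, h1⟩).2 h⟩

variable {v} {a b c : F}

theorem Close.symm (h : Close v a b) : Close v b a := by
  obtain ⟨u, hu, rfl⟩ := h
  exact ⟨u⁻¹, inv_mem hu, by rw [← mul_assoc, Units.inv_mul, one_mul]⟩

theorem Close.trans (h : Close v a b) (h' : Close v b c) : Close v a c := by
  obtain ⟨u, hu, rfl⟩ := h
  obtain ⟨u', hu', rfl⟩ := h'
  exact ⟨u * u', mul_mem hu hu', by rw [Units.val_mul, mul_assoc]⟩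

theorem Close.pow (h : Close v a b) (n : ℕ) : Close v (a ^ n) (b ^ n) := by
  obtain ⟨u, hu, rfl⟩ := h
  exact ⟨u ^ n, pow_mem hu n, by rw [Units.val_pow_eq_pow_val, mul_pow]⟩

theorem ord_pu {u : Fˣ} (hu : u ∈ v.toValuationSubring.principalUnitGroup) :
    v.ord (u : F) = 0 := by
  rcases (mem_pu_iff v u).1 hu with h | h
  · rw [sub_eq_zero.1 h, Place.ord_one]
  · have h1 : (u : F) = 1 + ((u : F) - 1) := by ring
    have h2 : v.ord (1 : F) = 0 := Place.ord_one v
    rw [h1, ord_add_eq_of_lt v one_ne_zero (Or.inr (by rw [h2]; exact h)), h2]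

theorem Close.ord_eq (h : Close v a b) : v.ord a = v.ord b := by
  obtain ⟨u, hu, rfl⟩ := h
  by_cases hb : b = 0
  · rw [hb, mul_zero]
  · rw [v.ord_mul u.ne_zero hb, ord_pu hu, zero_add]

theorem Close.of_sub (ha : a ≠ 0) (hb : b ≠ 0) (h : a - b ≠ 0 → v.ord b < v.ord (a - b)) :
    Close v a b := by
  refine ⟨Units.mk0 (a / b) (div_ne_zero ha hb), (mem_pu_iff v _).2 ?_, ?_⟩
  · rw [Units.val_mk0, div_sub_one hb]
    by_cases h0 : a - b = 0
    · left; rw [h0, zero_div]
    · right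
      rw [div_eq_mul_inv, v.ord_mul h0 (inv_ne_zero hb), v.ord_inv]
      have := h h0
      omega
  · rw [Units.val_mk0, div_mul_cancel₀ _ hb]

theorem Close.sub_pos (h : Close v a b) (hb : b ≠ 0) (hab : a ≠ b) : 0 < v.ord (1 - a / b) := by
  obtain ⟨u, hu, rfl⟩ := h
  rw [mul_div_cancel_right₀ _ hb]
  rcases (mem_pu_iff v u).1 hu with h | h
  · exact absurd (by rw [sub_eq_zero.1 h, one_mul]) hab
  · rw [← neg_sub, ord_neg]
    exact h

theorem ramificationIndexAlong_pos' {F' : Type*} [Field F']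
    [Algebra K F'] (φ : F →ₐ[K] F') (hφ : φ.toRingHom.IsIntegral) (W : Place K F') :
    0 < W.ramificationIndexAlong φ := by
  let _ := algebraAlong φ
  have := isScalarTower_along φ
  have := isIntegral_along φ hφ
  exact W.ramificationIndex_pos (F := F)

theorem Close.map {F' : Type*} [Field F'] [Algebra K F'] [IsFnField K F] [IsFnField K F']
    (φ : F →ₐ[K] F') {w : Place K F'} (hφ : φ.toRingHom.IsIntegral)
    (h : Close (w.restrictAlong φ hφ) a b) : Close w (φ a) (φ b) := by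
  obtain ⟨u, hu, rfl⟩ := h
  refine ⟨Units.map (φ : F →* F') u, (mem_pu_iff w _).2 ?_, by rw [map_mul]; rfl⟩
  have h1 : ((Units.map (φ : F →* F') u : F'ˣ) : F') - 1 = φ ((u : F) - 1) := by
    rw [map_sub, map_one]; rfl
  rw [h1, Place.ord_restrictAlong φ hφ]
  rcases (mem_pu_iff _ u).1 hu with h | h
  · left; rw [h, map_zero]
  · right
    have := ramificationIndexAlong_pos' φ hφ w
    exact mul_pos (by exact_mod_cast this) h

theorem Close.of_ord {v' : Place K F} (φ : F →+* F) (hord : ∀ x, v.ord x = v'.ord (φ x))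
    (h : Close v' (φ a) (φ b)) (hb : b ≠ 0) : Close v a b := by
  obtain ⟨u, hu, h1⟩ := h
  have hφb : φ b ≠ 0 := (map_ne_zero φ).2 hb
  have ha : a ≠ 0 := by
    rintro rfl
    rw [map_zero] at h1
    exact mul_ne_zero u.ne_zero hφb h1.symm
  refine ⟨Units.mk0 (a / b) (div_ne_zero ha hb), (mem_pu_iff v _).2 ?_, ?_⟩
  · rw [Units.val_mk0]
    have h2 : φ (a / b - 1) = (u : F) - 1 := by
      rw [map_sub, map_one, map_div₀, h1, mul_div_cancel_right₀ _ hφb]
    rcases (mem_pu_iff v' u).1 hu with h3 | h3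
    · left
      rw [h3] at h2
      exact (map_eq_zero φ).1 h2
    · right
      rw [hord, h2]
      exact h3
  · rw [Units.val_mk0, div_mul_cancel₀ _ hb]

end Close

local notation "Qb" => AlgebraicClosure ℚ

section Prime

variable (q : ℕ) [NeZero q] [hqf : Fact q.Prime]

open Cusp

theorem close_cuspInf : Close (cuspInf q) (jEN Qb q) (jE Qb q ^ q) := by
  have h0 : jE Qb q ≠ 0 := by
    intro h
    have := cuspInf_j q
    rw [h, Place.ord_zero] at this
    norm_num at this
  have h1 : jEN Qb q ≠ 0 := by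
    intro h
    have := cuspInf_jN q
    rw [h, Place.ord_zero] at this
    have := hqf.out.pos
    omega
  refine Close.of_sub h1 (pow_ne_zero _ h0) (fun hne => ?_)
  rw [ord_pow, cuspInf_j, ord_cuspInf]
  have e1 : ((jEN Qb q - jE Qb q ^ q : FN Qb q) : LaurentSeries Qb) =
      qExpand Qb q (jqModC Qb) - jqModC Qb ^ q := by
    have e2 : ((jEN Qb q - jE Qb q ^ q : FN Qb q) : LaurentSeries Qb) =
      ((jEN Qb q : FN Qb q) : LaurentSeries Qb) - ((jE Qb q : FN Qb q) : LaurentSeries Qb) ^ q :=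
      rfl
    rw [e2, coe_jEN, coe_jE, coeffEmb_jq_eq']
  have h2 : (jEN Qb q - jE Qb q ^ q : FN Qb q) ≠ 0 := hne
  have h3 : ((jEN Qb q - jE Qb q ^ q : FN Qb q) : LaurentSeries Qb) ≠ 0 :=
    fun h => h2 (Subtype.ext h)
  by_contra hle
  push Not at hle
  rw [mul_neg, mul_one] at hle
  have h4 := HahnSeries.coeff_order_eq_zero.not.2 h3
  apply h4
  rw [e1] at hle ⊢
  set m := (qExpand Qb q (jqModC Qb) - jqModC Qb ^ q).order with hm
  rw [HahnSeries.coeff_sub]
  rcases hle.lt_or_eq with h5 | h5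
  · rw [ModFn.jqModC_pow_coeff_of_lt q h5, sub_zero]
    apply HahnSeries.coeff_eq_zero_of_lt_order
    rw [ModFn.order_qExpand, ModFn.order_jqModC]
    linarith
  · rw [h5, ModFn.jqModC_pow_coeff_self]
    have h6 : (-(q : ℤ)) = (q : ℤ) * (-1) := by ring
    rw [h6, qExpand_coeff_mul]
    have h7 := ModFn.jqModC_pow_coeff_self (O := Qb) 1
    rw [pow_one] at h7
    rw [show (-1 : ℤ) = -((1 : ℕ) : ℤ) by norm_num, h7, sub_self]

theorem jE_ne_zero' : jE Qb q ≠ 0 := by
  intro h
  have := cuspInf_j q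
  rw [h, Place.ord_zero] at this
  norm_num at this

theorem jEN_ne_zero' : jEN Qb q ≠ 0 := by
  intro h
  have := cuspInf_jN q
  rw [h, Place.ord_zero] at this
  have := hqf.out.pos
  omega

theorem close_cuspZero : Close (cuspZero q) (jE Qb q) (jEN Qb q ^ q) := by
  refine Close.of_ord (v' := cuspInf q) (fricke q : FN Qb q →+* FN Qb q) (fun x => ?_) ?_
    (pow_ne_zero _ (jEN_ne_zero' q))
  · rw [ord_cuspZero, ord_cuspInf]; rfl
  · have h1 : (fricke q : FN Qb q →+* FN Qb q) (jE Qb q) = jEN Qb q := fricke_j q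
    have h2 : (fricke q : FN Qb q →+* FN Qb q) (jEN Qb q ^ q) = jE Qb q ^ q := by
      rw [map_pow]
      exact congrArg (· ^ q) (fricke_jN q)
    rw [h1, h2]
    exact close_cuspInf q

theorem close_of_ord_neg {P : Place Qb (FN Qb q)} (hP : P.ord (jE Qb q) < 0) :
    Close P (jEN Qb q) (jE Qb q ^ q) ∨ Close P (jE Qb q) (jEN Qb q ^ q) := by
  rcases eq_cusp q P hP with rfl | rfl
  · exact Or.inl (close_cuspInf q)
  · exact Or.inr (close_cuspZero q)

/-- the same along any map from `X₀(q)` -/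
theorem close_of_algHom {F : Type*} [Field F] [Algebra Qb F] [IsFnField Qb F]
    (φ : FN Qb q →ₐ[Qb] F) {v : Place Qb F} (hv : v.ord (φ (jE Qb q)) < 0) :
    Close v (φ (jEN Qb q)) (φ (jE Qb q) ^ q) ∨ Close v (φ (jE Qb q)) (φ (jEN Qb q) ^ q) := by
  have hφ := isIntegralAlong φ
  have h1 := Place.ord_restrictAlong φ hφ v (jE Qb q)
  have h2 : (v.restrictAlong φ hφ).ord (jE Qb q) < 0 := by
    by_contra h
    push Not at h
    rw [h1] at hv
    have := mul_nonneg (Int.natCast_nonneg (v.ramificationIndexAlong φ)) h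
    omega
  rcases close_of_ord_neg q h2 with h3 | h3
  · left
    rw [← map_pow]
    exact h3.map φ hφ
  · right
    rw [← map_pow]
    exact h3.map φ hφ

theorem neg_iff_of_algHom {F : Type*} [Field F] [Algebra Qb F] [IsFnField Qb F]
    (φ : FN Qb q →ₐ[Qb] F) {v : Place Qb F} :
    v.ord (φ (jE Qb q)) < 0 ↔ v.ord (φ (jEN Qb q)) < 0 := by
  have hφ := isIntegralAlong φ
  have hpos : (0 : ℤ) < v.ramificationIndexAlong φ := by
    exact_mod_cast ramificationIndexAlong_pos' φ hφ v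
  rw [Place.ord_restrictAlong φ hφ v, Place.ord_restrictAlong φ hφ v]
  have h1 : ∀ n : ℤ, (v.ramificationIndexAlong φ : ℤ) * n < 0 ↔ n < 0 := fun n =>
    ⟨fun h => by
      by_contra h2
      push Not at h2
      have := mul_nonneg hpos.le h2
      omega, fun h => mul_neg_of_pos_of_neg hpos h⟩
  rw [h1, h1, j_neg_iff]

end Prime

section Level

variable (M q : ℕ) [NeZero M] [NeZero q] [hqf : Fact q.Prime]

/-- `j` on `X₀(M q²)` -/
abbrev j0 : FB (M * q * q) := al2 M q (al1 M q (jB M))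
/-- `j(qτ)` on `X₀(M q²)` -/
abbrev j1 : FB (M * q * q) := al2 M q (be1 M q (jB M))
/-- `j(q²τ)` on `X₀(M q²)` -/
abbrev j2 : FB (M * q * q) := be2 M q (be1 M q (jB M))

theorem j1_eq : j1 M q = be2 M q (al1 M q (jB M)) := by
  apply Subtype.ext
  rw [coe_al2, coe_be1, coe_be2, coe_al1]

instance instIsFnFieldFB'' (N : ℕ) [NeZero N] : IsFnField Qb (FB N) := Red.isFnField_bar N

theorem coe_jE_eq : ((Cusp.jE Qb q : FN Qb q) : LaurentSeries Qb) = jqModC Qb :=
  ModFn.coeffMap_jqModC (algebraMap ℚ Qb)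

theorem coe_jEN_eq : ((Cusp.jEN Qb q : FN Qb q) : LaurentSeries Qb) = qExpand Qb q (jqModC Qb) := by
  rw [Cusp.coe_jEN, coeffEmb_jq_eq']

/-- inclusion of the function field of `X₀(q)` in level `M q` -/
def inc1 : FN Qb q →ₐ[Qb] FB (M * q) :=
  IntermediateField.inclusion (FN_mono (dvd_mul_left q M))

theorem inc1_jE : inc1 M q (Cusp.jE Qb q) = al1 M q (jB M) := by
  apply Subtype.ext
  rw [coe_al1, coe_jB, ← coe_jE_eq q]
  rfl

theorem inc1_jEN : inc1 M q (Cusp.jEN Qb q) = be1 M q (jB M) := by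
  apply Subtype.ext
  rw [coe_be1, coe_jB, ← coe_jEN_eq q]
  rfl

variable {M q} {v : Place Qb (FB (M * q * q))}

theorem close_j0 (hv : v.ord (j0 M q) < 0) :
    Close v (j1 M q) (j0 M q ^ q) ∨ Close v (j0 M q) (j1 M q ^ q) := by
  have h := close_of_algHom q ((al2 M q).comp (inc1 M q)) (v := v) (by
    rw [AlgHom.comp_apply, inc1_jE]; exact hv)
  rw [AlgHom.comp_apply, AlgHom.comp_apply, inc1_jE, inc1_jEN] at h
  exact h

theorem close_j1 (hv : v.ord (j1 M q) < 0) :
    Close v (j2 M q) (j1 M q ^ q) ∨ Close v (j1 M q) (j2 M q ^ q) := by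
  have h := close_of_algHom q ((be2 M q).comp (inc1 M q)) (v := v) (by
    rw [AlgHom.comp_apply, inc1_jE, ← j1_eq]; exact hv)
  rw [AlgHom.comp_apply, AlgHom.comp_apply, inc1_jE, inc1_jEN, ← j1_eq] at h
  exact h

/-- the two possibilities for the chain `j, j1, j2` at a cusp -/
theorem chain (hv : v.ord (j0 M q) < 0) :
    Close v (j2 M q) (j0 M q ^ (q * q)) ∨ v.ord (j2 M q) = v.ord (j0 M q) ∨
      Close v (j0 M q) (j2 M q ^ (q * q)) := by
  have hq : (0 : ℤ) < q := by exact_mod_cast hqf.out.pos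
  rcases close_j0 hv with h1 | h1
  · -- j1 ~ j0 ^ q
    have e1 := h1.ord_eq
    rw [ord_pow] at e1
    have hv1 : v.ord (j1 M q) < 0 := by rw [e1]; exact mul_neg_of_pos_of_neg hq hv
    rcases close_j1 hv1 with h2 | h2
    · left
      have h3 := h1.pow q
      rw [← pow_mul] at h3
      exact h2.trans h3
    · right; left
      have e2 := h2.ord_eq
      rw [ord_pow, e1] at e2
      exact (mul_left_cancel₀ hq.ne' e2).symm
  · have e1 := h1.ord_eq
    rw [ord_pow] at e1
    have hv1 : v.ord (j1 M q) < 0 := by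
      by_contra h
      push Not at h
      have := mul_nonneg hq.le h
      omega
    rcases close_j1 hv1 with h2 | h2
    · right; left
      have e2 := h2.ord_eq
      rw [ord_pow, ← e1] at e2
      exact e2
    · right; right
      have h3 := h2.pow q
      rw [← pow_mul] at h3
      exact h1.trans h3

theorem order_j0 : ((j0 M q : FB (M * q * q)) : LaurentSeries Qb).order = -1 := by
  rw [coe_al2, coe_al1, coe_jB, ModFn.order_jqModC]

theorem order_j2 : ((j2 M q : FB (M * q * q)) : LaurentSeries Qb).order = -(q * q : ℤ) := by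
  rw [coe_be2, coe_be1, coe_jB, ModFn.order_qExpand, ModFn.order_qExpand, ModFn.order_jqModC]
  ring

theorem j0_ne : j0 M q ≠ 0 := by
  intro h
  have h1 := order_j0 (M := M) (q := q)
  rw [h, ZeroMemClass.coe_zero, HahnSeries.order_zero] at h1
  norm_num at h1

theorem j2_ne : j2 M q ≠ 0 := by
  intro h
  have h1 := order_j2 (M := M) (q := q)
  rw [h, ZeroMemClass.coe_zero, HahnSeries.order_zero] at h1
  have := hqf.out.pos
  have h2 : (0 : ℤ) < q * q := by positivity
  omega

/-- **(E1)** -/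
theorem ord_j0_neg_iff : v.ord (j0 M q) < 0 ↔ v.ord (j2 M q) < 0 := by
  have h1 := neg_iff_of_algHom q ((al2 M q).comp (inc1 M q)) (v := v)
  have h2 := neg_iff_of_algHom q ((be2 M q).comp (inc1 M q)) (v := v)
  rw [AlgHom.comp_apply, AlgHom.comp_apply, inc1_jE, inc1_jEN] at h1 h2
  rw [← j1_eq] at h2
  exact h1.trans h2

/-- the three cases, as orders -/
theorem ord_cases (hv : v.ord (j0 M q) < 0) :
    v.ord (j2 M q) = (q * q : ℤ) * v.ord (j0 M q) ∨ v.ord (j2 M q) = v.ord (j0 M q) ∨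
      v.ord (j0 M q) = (q * q : ℤ) * v.ord (j2 M q) := by
  rcases chain hv with h | h | h
  · left
    rw [h.ord_eq, ord_pow]
    push_cast
    ring
  · exact Or.inr (Or.inl h)
  · right; right
    rw [h.ord_eq, ord_pow]
    push_cast
    ring

theorem ord_div' {a b : FB (M * q * q)} (ha : a ≠ 0) (hb : b ≠ 0) :
    v.ord (a / b) = v.ord a - v.ord b := by
  rw [div_eq_mul_inv, v.ord_mul ha (inv_ne_zero hb), v.ord_inv]; ring

theorem one_le_qq : (1 : ℤ) ≤ q * q := by
  have : (1 : ℤ) ≤ q := by exact_mod_cast hqf.out.one_lt.le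
  nlinarith

/-- **(E2)** -/
theorem ord_j2_div_nonneg (hv : v.ord (j0 M q) < 0) :
    0 ≤ v.ord (j2 M q / j0 M q ^ (q * q)) := by
  have hq := one_le_qq (q := q)
  rw [ord_div' j2_ne (pow_ne_zero _ j0_ne), ord_pow]
  push_cast
  rcases ord_cases hv with h | h | h
  · rw [h, sub_self]
  · rw [h]; nlinarith
  · have h2 := ord_j0_neg_iff.1 hv
    rw [h] at hv ⊢
    nlinarith

/-- **(E2)**, mirror image -/
theorem ord_j0_div_nonneg (hv : v.ord (j0 M q) < 0) :
    0 ≤ v.ord (j0 M q / j2 M q ^ (q * q)) := by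
  have hq := one_le_qq (q := q)
  rw [ord_div' j0_ne (pow_ne_zero _ j2_ne), ord_pow]
  push_cast
  have h2 := ord_j0_neg_iff.1 hv
  rcases ord_cases hv with h | h | h
  · rw [h]
    nlinarith
  · rw [h]; nlinarith
  · rw [h, sub_self]

theorem j0_ne_j2_pow : j0 M q ≠ j2 M q ^ (q * q) := by
  intro h
  have h1 := order_j0 (M := M) (q := q)
  rw [h] at h1
  have h2 : ((j2 M q ^ (q * q) : FB (M * q * q)) : LaurentSeries Qb) =
    ((j2 M q : FB (M * q * q)) : LaurentSeries Qb) ^ (q * q) := rfl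
  rw [h2, HahnSeries.order_pow, order_j2, nsmul_eq_mul] at h1
  have hq : (2 : ℤ) ≤ q := by exact_mod_cast hqf.out.two_le
  push_cast at h1
  have h3 : (4 : ℤ) ≤ q * q := by nlinarith
  nlinarith

theorem j2_ne_j0_pow (hM : ¬ q ∣ M) : j2 M q ≠ j0 M q ^ (q * q) := by
  intro h
  have h1 := congrArg (w2 hqf.out hM) h
  rw [map_pow] at h1
  have e1 : w2 hqf.out hM (j2 M q) = j0 M q := by rw [w2_be, w1_be]
  have e2 : w2 hqf.out hM (j0 M q) = j2 M q := by rw [w2_al, w1_al]
  rw [e1, e2] at h1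
  exact j0_ne_j2_pow h1

/-- **(E3)** -/
theorem ord_one_sub_j0_div (hv : v.ord (j0 M q) < 0) (h : v.ord (j0 M q / j2 M q) < 0) :
    0 < v.ord (1 - j0 M q / j2 M q ^ (q * q)) := by
  rw [ord_div' j0_ne j2_ne] at h
  have hq := one_le_qq (q := q)
  rcases chain hv with h1 | h1 | h1
  · exfalso
    have h2 := h1.ord_eq
    rw [ord_pow] at h2
    push_cast at h2
    rw [h2] at h
    nlinarith
  · rw [h1] at h; omega
  · exact h1.sub_pos (pow_ne_zero _ j2_ne) j0_ne_j2_pow

/-- **(E3)**, mirror image -/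
theorem ord_one_sub_j2_div (hM : ¬ q ∣ M) (hv : v.ord (j0 M q) < 0)
    (h : v.ord (j2 M q / j0 M q) < 0) :
    0 < v.ord (1 - j2 M q / j0 M q ^ (q * q)) := by
  rw [ord_div' j2_ne j0_ne] at h
  have hq := one_le_qq (q := q)
  have hv2 := ord_j0_neg_iff.1 hv
  rcases chain hv with h1 | h1 | h1
  · exact h1.sub_pos (pow_ne_zero _ j0_ne) (j2_ne_j0_pow hM)
  · rw [h1] at h; omega
  · exfalso
    have h2 := h1.ord_eq
    rw [ord_pow] at h2
    push_cast at h2
    rw [h2] at h
    nlinarith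

end Level

end Fermat.Agent.QComp
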