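import Fermat.Agent.QComp.InstN
import Fermat.Agent.QComp.CuspHor

/-!
# Level `M q²`: the points of the cuspidal chart
-/

set_option autoImplicit false
set_option linter.unusedSectionVars false
set_option linter.style.haveILetI false
set_option linter.unusedVariables false

noncomputable section

open AlgebraicCurve ModularCurve IntermediateField Module Polynomial IsLocalRing

namespace Fermat.Agent.QComp

open Fermat.Agent.FF Fermat.Agent.Red Fermat.Agent.QVal Fermat.Agent.JZ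

local notation "Qb" => AlgebraicClosure ℚ
local notation "Γℚ" => (AlgebraicClosure ℚ ≃ₐ[ℚ] AlgebraicClosure ℚ)

section Gen

variable {K F : Type*} [Field K] [Field F] [Algebra K F]

/-- at a pole of `y`, the order of a polynomial in `y` -/
theorem ord_aeval_of_negC (v : Place K F) {y : F} (hy : v.ord y < 0) (p : K[X]) (hp : p ≠ 0) :
    aeval y p ≠ 0 ∧ v.ord (aeval y p) = p.natDegree * v.ord y := by
  have hy0 : y ≠ 0 := by rintro rfl; rw [v.ord_zero] at hy; omega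
  induction hn : p.natDegree using Nat.strong_induction_on generalizing p with
  | _ n ih =>
    have hc : p.leadingCoeff ≠ 0 := leadingCoeff_ne_zero.2 hp
    have h1 := p.eraseLead_add_C_mul_X_pow
    have h2 : aeval y p = aeval y (C p.leadingCoeff * X ^ p.natDegree) + aeval y p.eraseLead := by
      rw [← map_add, add_comm, h1]
    have h3 : aeval y (C p.leadingCoeff * X ^ p.natDegree) =
        algebraMap K F p.leadingCoeff * y ^ n := by
      rw [map_mul, aeval_C, map_pow, aeval_X, hn]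
    have h40 : algebraMap K F p.leadingCoeff * y ^ n ≠ 0 :=
      mul_ne_zero ((_root_.map_ne_zero _).2 hc) (pow_ne_zero _ hy0)
    have h4 : v.ord (algebraMap K F p.leadingCoeff * y ^ n) = n * v.ord y := by
      rw [v.ord_mul ((_root_.map_ne_zero _).2 hc) (pow_ne_zero _ hy0), FF.ord_algebraMap, zero_add,
        FF.ord_pow]
    have h5 : aeval y p.eraseLead = 0 ∨
        v.ord (algebraMap K F p.leadingCoeff * y ^ n) < v.ord (aeval y p.eraseLead) := by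
      by_cases h6 : p.eraseLead = 0
      · left; rw [h6, map_zero]
      · right
        have h7 := (eraseLead_natDegree_lt_or_eraseLead_eq_zero p).resolve_right h6
        rw [hn] at h7
        rw [(ih _ h7 _ h6 rfl).2, h4]
        have h8 : ((p.eraseLead.natDegree : ℕ) : ℤ) < n := by exact_mod_cast h7
        nlinarith
    rw [h2, h3]
    have h9 := FF.ord_add_eq_of_lt v h40 h5
    refine ⟨fun h => ?_, by rw [h9, h4]⟩
    rw [h, v.ord_zero, h4] at h9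
    rcases h5 with h5 | h5
    · rw [h5, add_zero] at h
      exact h40 h
    · rw [h4] at h5
      have h10 : aeval y p.eraseLead = -(algebraMap K F p.leadingCoeff * y ^ n) := by
        linear_combination h
      rw [h10, FF.ord_neg, h4] at h5
      exact lt_irrefl _ h5

theorem exists_pow_ord_nonneg [IsFnField K F] [CharZero K] {S : Place K F → Prop} {y z : F} (hy0 : y ≠ 0)
    (hz0 : z ≠ 0) (hy : ∀ v, S v → 0 ≤ v.ord y) (h : ∀ v, S v → v.ord z < 0 → 0 < v.ord y) :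
    ∃ n : ℕ, ∀ v, S v → 0 ≤ v.ord (y ^ n * z) := by
  classical
  obtain ⟨n, hn⟩ : ∃ n : ℕ, ∀ v : Place K F, v.ord z ≠ 0 → -(n : ℤ) ≤ v.ord z := by
    have hfin := finite_support_ord (K := K) z
    refine ⟨∑ v ∈ hfin.toFinset, (v.ord z).natAbs, fun v hv => ?_⟩
    have h1 : (v.ord z).natAbs ≤ ∑ v ∈ hfin.toFinset, (v.ord z).natAbs :=
      Finset.single_le_sum (f := fun v : Place K F => (v.ord z).natAbs) (fun _ _ => Nat.zero_le _)
        (hfin.mem_toFinset.2 hv)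
    omega
  refine ⟨n, fun v hv => ?_⟩
  rw [v.ord_mul (pow_ne_zero _ hy0) hz0, FF.ord_pow]
  have h1 := hy v hv
  by_cases h2 : v.ord z < 0
  · have h3 := h v hv h2
    have h4 := hn v h2.ne
    nlinarith
  · push Not at h2
    have : 0 ≤ (n : ℤ) * v.ord y := mul_nonneg (Int.natCast_nonneg _) h1
    omega

end Gen

section TriEta

variable {L : Type*} [Field L] {F0 : Subfield L} {κ : Type*} [Field κ]
variable {k : Type*} [Field k] [Algebra k κ] {S : Subring L} {cI cM cZ : Comp F0 κ} {ϖ : L} {N : ℕ}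
  {κ0 : Subring κ} {ψ : κ →+* κ} {Θ : κ → κ}

/-- the quotient `aI * aM ^ N * aZ / ϖ` -/
theorem TriVal.exists_eta (H : TriVal S cI.V cM.V cZ.V ϖ N)
    {aI aM aZ : S} (hI : (aI : L) ∈ cI.V.nonunits) (hM : (aM : L) ∈ cM.V.nonunits)
    (hZ : (aZ : L) ∈ cZ.V.nonunits) :
    ∃ η : S, (aI : L) * (aM : L) ^ N * aZ = ϖ * η ∧ (η : L) = aI * ((aM : L) ^ N / ϖ) * aZ := by
  have h1 : (aI : L) * (aM : L) ^ N * aZ ∈ S := mul_mem (mul_mem aI.2 (pow_mem aM.2 N)) aZ.2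
  have hϖ := H.ne_zero
  have h2 : (aI : L) * (aM : L) ^ N * aZ / ϖ ∈ S := by
    refine H.int _ h1 ?_ ?_ ?_
    · have : (aI : L) * (aM : L) ^ N * aZ / ϖ = (aI : L) / ϖ * ((aM : L) ^ N * aZ) := by ring
      rw [this]
      exact mul_mem (H.valI _ aI.2 hI) (H.leI (mul_mem (pow_mem aM.2 N) aZ.2))
    · have : (aI : L) * (aM : L) ^ N * aZ / ϖ = (aM : L) ^ N / ϖ * ((aI : L) * aZ) := by ring
      rw [this]
      exact mul_mem (H.valM _ aM.2 hM) (H.leM (mul_mem aI.2 aZ.2))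
    · have : (aI : L) * (aM : L) ^ N * aZ / ϖ = (aZ : L) / ϖ * ((aI : L) * (aM : L) ^ N) := by ring
      rw [this]
      exact mul_mem (H.valZ _ aZ.2 hZ) (H.leZ (mul_mem aI.2 (pow_mem aM.2 N)))
  refine ⟨⟨_, h2⟩, ?_, ?_⟩
  · change (aI : L) * (aM : L) ^ N * aZ = ϖ * ((aI : L) * (aM : L) ^ N * aZ / ϖ)
    field_simp
  · change (aI : L) * (aM : L) ^ N * aZ / ϖ = _
    ring

end TriEta

variable {k : Type*} [Field k] {A : ValuationSubring Qb} {π : A →+* k} {M q : ℕ} [NeZero M]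
  [NeZero q] [hqf : Fact q.Prime] (hA : A.LiesOverPrime q) (hπ : ∀ a : A, π a = 0 ↔ ¬ IsUnit a)
  (hs : Function.Surjective π) (hM : ¬ q ∣ M)

variable [CharP k q] [PerfectRing k q] [IsFnField k (modularFunctionFieldFullC k M)]

/-! ### The two functions `j₂ / j ^ q²` and `j / j₂ ^ q²` -/

variable (M q) in
/-- `j₂ / j ^ q²` -/
def g1 : FB (M * q * q) := jL2 M q / jL M q ^ (q * q)

variable (M q) in
/-- `j / j₂ ^ q²` -/
def g2 : FB (M * q * q) := jL M q / jL2 M q ^ (q * q)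

theorem jL_eq_j0 : jL M q = j0 M q := rfl

theorem jL2_eq_j2 : jL2 M q = j2 M q := rfl

theorem IFix_g1 : IFix A (g1 M q) := by
  rw [g1, div_eq_mul_inv]
  exact IFix_jL2.mul (IFix_jL.pow _).inv

theorem IFix_g2 : IFix A (g2 M q) := by
  rw [g2, div_eq_mul_inv]
  exact IFix_jL.mul (IFix_jL2.pow _).inv

/-- the places of the chart -/
theorem ord_cases_x_inv {v : Place Qb (FB (M * q * q))} (hv : 0 ≤ v.ord (xL M q)⁻¹) :
    v.ord (jL M q) < 0 ∨ (v.ord (jL M q) = 0 ∧ v.ord (jL2 M q) = 0) := by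
  rw [v.ord_inv, xL, v.ord_mul jL_ne_zero jL2_ne_zero] at hv
  by_cases h : v.ord (jL M q) < 0
  · exact Or.inl h
  · have h2 : ¬ v.ord (jL2 M q) < 0 := fun h3 => h (ord_j0_neg_iff.2 h3)
    right
    omega

theorem g1_mem_IC : g1 M q ∈ IC Qb (FB (M * q * q)) Qb (xL M q)⁻¹ := by
  haveI : IsFnField Qb (FB (M * q * q)) := isFnField_bar _
  refine mem_IC_K_of_ord transcendental_xL_inv fun v hv => ?_
  rcases ord_cases_x_inv hv with h | ⟨h1, h2⟩
  · exact ord_j2_div_nonneg h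
  · rw [g1, div_eq_mul_inv, v.ord_mul jL2_ne_zero (inv_ne_zero (pow_ne_zero _ jL_ne_zero)),
      v.ord_inv, FF.ord_pow, h1, h2]
    norm_num

theorem g2_mem_IC : g2 M q ∈ IC Qb (FB (M * q * q)) Qb (xL M q)⁻¹ := by
  haveI : IsFnField Qb (FB (M * q * q)) := isFnField_bar _
  refine mem_IC_K_of_ord transcendental_xL_inv fun v hv => ?_
  rcases ord_cases_x_inv hv with h | ⟨h1, h2⟩
  · exact ord_j0_div_nonneg h
  · rw [g2, div_eq_mul_inv, v.ord_mul jL_ne_zero (inv_ne_zero (pow_ne_zero _ jL2_ne_zero)),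
      v.ord_inv, FF.ord_pow, h1, h2]
    norm_num

theorem cI_g1 : (cI hA hπ hs hM).Is (g1 M q) 1 := by
  have h := (cI_jL2 hA hπ hs hM).div ((cI_jL hA hπ hs hM).pow (q * q))
    (pow_ne_zero _ xj_ne_zero) (IFix_jL.pow _)
  rwa [div_self (pow_ne_zero _ xj_ne_zero)] at h

theorem cZ_g2 : (cZ hA hπ hs hM).Is (g2 M q) 1 := by
  have h := (cZ_jL hA hπ hs hM).div ((cZ_jL2 hA hπ hs hM).pow (q * q))
    (pow_ne_zero _ xj_ne_zero) (IFix_jL2.pow _)
  rwa [div_self (pow_ne_zero _ xj_ne_zero)] at h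

theorem cI_g2 : (cI hA hπ hs hM).Is (g2 M q)
    (RedQ.xj k M / (RedQ.xj k M ^ (q * q)) ^ (q * q)) :=
  (cI_jL hA hπ hs hM).div ((cI_jL2 hA hπ hs hM).pow (q * q))
    (pow_ne_zero _ (pow_ne_zero _ xj_ne_zero)) (IFix_jL2.pow _)

theorem cZ_g1 : (cZ hA hπ hs hM).Is (g1 M q)
    (RedQ.xj k M / (RedQ.xj k M ^ (q * q)) ^ (q * q)) :=
  (cZ_jL2 hA hπ hs hM).div ((cZ_jL hA hπ hs hM).pow (q * q))
    (pow_ne_zero _ (pow_ne_zero _ xj_ne_zero)) (IFix_jL.pow _)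

theorem cM_g1 {ζ0 : RU q} (h0 : ζ0 ≠ 1) : (cM hA hπ hs hM h0).Is (g1 M q)
    (RedQ.xj k M / RedQ.xj k M ^ (q * q)) :=
  (cM_jL2 hA hπ hs hM h0).div ((cM_jL hA hπ hs hM h0).pow (q * q))
    (pow_ne_zero _ xj_ne_zero) (IFix_jL.pow _)

theorem cM_g2 {ζ0 : RU q} (h0 : ζ0 ≠ 1) : (cM hA hπ hs hM h0).Is (g2 M q)
    (RedQ.xj k M / RedQ.xj k M ^ (q * q)) :=
  (cM_jL hA hπ hs hM h0).div ((cM_jL2 hA hπ hs hM h0).pow (q * q))
    (pow_ne_zero _ xj_ne_zero) (IFix_jL2.pow _)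

theorem g1_mem_SX {ζ0 : RU q} (h0 : ζ0 ≠ 1) (hA : A.LiesOverPrime q)
    (hπ : ∀ a : A, π a = 0 ↔ ¬ IsUnit a) (hs : Function.Surjective π) (hM : ¬ q ∣ M) :
    g1 M q ∈ SX A (xL M q)⁻¹ :=
  mem_SX_x_inv (hA := hA) (hπ := hπ) (hs := hs) (hM := hM) (h0 := h0) IFix_g1 g1_mem_IC
    (cI_g1 hA hπ hs hM).mem (Comp.mem (cM_g1 hA hπ hs hM h0)) (cZ_g1 hA hπ hs hM).mem

theorem g2_mem_SX {ζ0 : RU q} (h0 : ζ0 ≠ 1) (hA : A.LiesOverPrime q)
    (hπ : ∀ a : A, π a = 0 ↔ ¬ IsUnit a) (hs : Function.Surjective π) (hM : ¬ q ∣ M) :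
    g2 M q ∈ SX A (xL M q)⁻¹ :=
  mem_SX_x_inv (hA := hA) (hπ := hπ) (hs := hs) (hM := hM) (h0 := h0) IFix_g2 g2_mem_IC
    (cI_g2 hA hπ hs hM).mem (Comp.mem (cM_g2 hA hπ hs hM h0)) (cZ_g2 hA hπ hs hM).mem

/-! ### The function `1 - j / j₂` -/

theorem one_sub_g2_ne : (1 : FB (M * q * q)) - g2 M q ≠ 0 := by
  intro h
  have h1 : g2 M q = 1 := (sub_eq_zero.1 h).symm
  rw [g2, div_eq_one_iff_eq (pow_ne_zero _ jL2_ne_zero)] at h1
  exact j0_ne_j2_pow h1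

theorem one_sub_g1_ne (hM : ¬ q ∣ M) : (1 : FB (M * q * q)) - g1 M q ≠ 0 := by
  intro h
  have h1 : g1 M q = 1 := (sub_eq_zero.1 h).symm
  rw [g1, div_eq_one_iff_eq (pow_ne_zero _ jL_ne_zero)] at h1
  exact j2_ne_j0_pow hM h1

theorem jL_ne_jL2 : jL M q ≠ jL2 M q := by
  intro h
  have h1 := order_j0 (M := M) (q := q)
  have h2 := order_j2 (M := M) (q := q)
  rw [← jL_eq_j0, h, jL2_eq_j2, h2] at h1
  have h3 : (2 : ℤ) ≤ q := by exact_mod_cast hqf.out.two_le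
  nlinarith

variable (M q) in
/-- `1 - j / j₂` -/
def uj : FB (M * q * q) := 1 - jL M q / jL2 M q

theorem uj_ne : uj M q ≠ 0 := by
  intro h
  have h1 := (sub_eq_zero.1 h).symm
  rw [div_eq_one_iff_eq jL2_ne_zero] at h1
  exact jL_ne_jL2 h1

theorem exists_pow_uj : ∃ n : ℕ,
    (1 - g2 M q) ^ n * uj M q ∈ IC Qb (FB (M * q * q)) Qb (xL M q)⁻¹ := by
  haveI : IsFnField Qb (FB (M * q * q)) := isFnField_bar _
  have hA1 : ∀ v : Place Qb (FB (M * q * q)), 0 ≤ v.ord (xL M q)⁻¹ → 0 ≤ v.ord (1 - g2 M q) :=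
    fun v hv => ord_nonneg_of_mem_IC_K (K := Qb) (R := Qb) (x := (xL M q)⁻¹)
      (sub_mem (one_mem _) g2_mem_IC) hv
  have hA2 : ∀ v : Place Qb (FB (M * q * q)), 0 ≤ v.ord (xL M q)⁻¹ → v.ord (uj M q) < 0 →
      0 < v.ord (1 - g2 M q) := by
    intro v hv hz
    have hz2 : v.ord (jL M q / jL2 M q) < 0 := by
      by_contra h
      push Not at h
      have h1 : jL M q / jL2 M q ∈ v.toValuationSubring := (FF.mem_iff_ord_nonneg v).2 h
      have h2 : uj M q ∈ v.toValuationSubring := sub_mem (one_mem _) h1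
      have := (FF.mem_iff_ord_nonneg v).1 h2
      omega
    rcases ord_cases_x_inv hv with h | ⟨h1, h2⟩
    · exact ord_one_sub_j0_div h hz2
    · exfalso
      rw [div_eq_mul_inv, v.ord_mul jL_ne_zero (inv_ne_zero jL2_ne_zero), v.ord_inv, h1, h2] at hz2
      norm_num at hz2
  obtain ⟨n, hn⟩ := exists_pow_ord_nonneg (K := Qb) (F := FB (M * q * q))
    (S := fun v => 0 ≤ v.ord (xL M q)⁻¹) (y := 1 - g2 M q) (z := uj M q) one_sub_g2_ne uj_ne
    hA1 hA2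
  exact ⟨n, mem_IC_K_of_ord transcendental_xL_inv hn⟩

theorem IFix_one' {N : ℕ} [NeZero N] : IFix A (1 : FB N) := by
  have h := IFix.algebraMap (A := A) (N := N) (c := (1 : Qb)) (fun σ _ => map_one _)
  rwa [map_one] at h

theorem IFix_uj : IFix A (uj M q) := by
  rw [uj, div_eq_mul_inv]
  exact IFix_one'.sub (IFix_jL.mul IFix_jL2.inv)

theorem cI_uj_mem : ∃ z, (cI hA hπ hs hM).Is (uj M q) z :=
  ⟨_, (Comp.Is.one _).sub ((cI_jL hA hπ hs hM).div (cI_jL2 hA hπ hs hM)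
    (pow_ne_zero _ xj_ne_zero) IFix_jL2)⟩

theorem cZ_uj_mem : ∃ z, (cZ hA hπ hs hM).Is (uj M q) z :=
  ⟨_, (Comp.Is.one _).sub ((cZ_jL hA hπ hs hM).div (cZ_jL2 hA hπ hs hM)
    xj_ne_zero IFix_jL2)⟩

theorem cM_uj {ζ0 : RU q} (h0 : ζ0 ≠ 1) : (cM hA hπ hs hM h0).Is (uj M q) 0 := by
  have h := (Comp.Is.one (cM hA hπ hs hM h0)).sub ((cM_jL hA hπ hs hM h0).div
    (cM_jL2 hA hπ hs hM h0) xj_ne_zero IFix_jL2)
  rwa [div_self xj_ne_zero, sub_self] at h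

theorem cM_uj_pow {ζ0 : RU q} (h0 : ζ0 ≠ 1) : ∃ s : modularFunctionFieldFullC k M,
    (s = 1 ∨ s = -1) ∧ (cM hA hπ hs hM h0).Is (uj M q ^ (q - 1) / (q : FB (M * q * q)))
      (s * (Th hA hπ hs hM (RedQ.xj k M) / RedQ.xj k M ^ (q - 1))) := by
  have h1 := cM_tt hA hπ hs hM h0 (isRed_jB (hA := hA) (hπ := hπ) (hs := hs) (hM := hM))
  have h2 := h1.div ((cM_jL2 hA hπ hs hM h0).pow (q - 1)) (pow_ne_zero _ xj_ne_zero)
    (IFix_jL2.pow _)
  have h3 := (((Comp.Is.one (cM hA hπ hs hM h0)).neg).pow (q - 1)).mul h2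
  refine ⟨(-1) ^ (q - 1) * (-1), ?_, ?_⟩
  · rcases neg_one_pow_eq_or (modularFunctionFieldFullC k M) (q - 1) with h | h
    · right; rw [h, one_mul]
    · left; rw [h]; ring
  · convert h3 using 1
    · change uj M q ^ (q - 1) / (q : FB (M * q * q)) = (-1) ^ (q - 1) *
        ((jL M q - jL2 M q) ^ (q - 1) / (q : FB (M * q * q)) / jL2 M q ^ (q - 1))
      rw [div_right_comm, ← div_pow, ← mul_div_assoc, ← mul_pow]
      congr 2
      rw [uj]
      have := jL2_ne_zero (M := M) (q := q)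
      field_simp
      ring
    · ring

/-! ### The order of `θ j / j` -/

theorem ord_Th_xj {h : modularFunctionFieldFullC k M}
    (hh : (h : LaurentSeries k) * (Igusa.deltaC k) ^ (q - 1) = 1)
    {v : Place k (modularFunctionFieldFullC k M)} (hv : v.ord (RedQ.xj k M) < 0) :
    Th hA hπ hs hM (RedQ.xj k M) ≠ 0 ∧
      v.ord (Th hA hπ hs hM (RedQ.xj k M)) = ((q - 1 : ℕ) : ℤ) * v.ord (RedQ.xj k M) := by
  obtain ⟨H, hHd, hH⟩ := exists_poly_hasse hA hπ hs hh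
  set J := RedQ.xj k M with hJ
  have hh0 : h ≠ 0 := fun e => hasse_ne hh (by rw [e]; rfl)
  have hH0 : H ≠ 0 := by
    rintro rfl
    rw [map_zero] at hH
    exact hh0 hH
  have e1 : h * (Th hA hπ hs hM J) ^ 6 = (J ^ 4 * (J - 1728) ^ 3) ^ (q - 1) := by
    apply Subtype.ext
    have h1 : ((h * (Th hA hπ hs hM J) ^ 6 : modularFunctionFieldFullC k M) : LaurentSeries k) =
        (h : LaurentSeries k) * ((theta k (J : LaurentSeries k)) ^ (q - 1)) ^ 6 := rfl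
    have h2 : (((J ^ 4 * (J - 1728) ^ 3) ^ (q - 1) : modularFunctionFieldFullC k M) :
        LaurentSeries k) = ((J : LaurentSeries k) ^ 4 * ((J : LaurentSeries k) - 1728) ^ 3) ^ (q - 1) :=
      rfl
    have h3 : (J : LaurentSeries k) = jqModC k := rfl
    rw [h1, h2, h3, pow_right_comm, theta_j_pow_six, mul_assoc, mul_pow, ← mul_assoc, hh, one_mul]
  have hc : (1728 : modularFunctionFieldFullC k M) =
      algebraMap k (modularFunctionFieldFullC k M) 1728 := by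
    rw [map_ofNat]
  have h1 := ord_aeval_of_negC v hv H hH0
  have h2 := ord_aeval_of_negC v hv (X - C 1728) (X_sub_C_ne_zero _)
  rw [map_sub, aeval_X, aeval_C, ← hc, natDegree_X_sub_C, Nat.cast_one, one_mul] at h2
  have hJ0 : J ≠ 0 := xj_ne_zero
  have hT0 : Th hA hπ hs hM J ≠ 0 := by
    intro h3
    rw [h3, zero_pow (by norm_num), mul_zero] at e1
    exact pow_ne_zero _ (mul_ne_zero (pow_ne_zero _ hJ0) (pow_ne_zero _ h2.1)) e1.symm
  refine ⟨hT0, ?_⟩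
  have h3 := congrArg v.ord e1
  rw [v.ord_mul hh0 (pow_ne_zero _ hT0), FF.ord_pow, FF.ord_pow,
    v.ord_mul (pow_ne_zero _ hJ0) (pow_ne_zero _ h2.1), FF.ord_pow, FF.ord_pow, h2.2, hH, h1.2,
    hHd] at h3
  push_cast at h3 ⊢
  linarith

/-! ### The points of the cuspidal chart -/

theorem ord_xj_neg_of {c : Comp (FI A (M * q * q)).toSubfield (modularFunctionFieldFullC k M)}
    {P : Ideal (SX A (xL M q)⁻¹)} {v : Place k (modularFunctionFieldFullC k M)}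
    (hxP : (⟨_, xL_inv_mem A⟩ : SX A (xL M q)⁻¹) ∈ P) (hc : AtPl c P v) {m : ℕ}
    (hx : c.Is (xL M q)⁻¹ ((RedQ.xj k M)⁻¹ ^ m)) : v.ord (RedQ.xj k M) < 0 := by
  have h1 := (hc ⟨_, xL_inv_mem A⟩ _ hx).1 hxP
  rw [mem_nonunits_iff_ord] at h1
  have h2 : (RedQ.xj k M)⁻¹ ^ m ≠ 0 := pow_ne_zero _ (inv_ne_zero xj_ne_zero)
  have h3 := h1.resolve_left h2
  rw [FF.ord_pow, v.ord_inv] at h3
  by_contra h4
  push Not at h4
  have : 0 ≤ (m : ℤ) * v.ord (RedQ.xj k M) := mul_nonneg (Int.natCast_nonneg _) h4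
  linarith

theorem four_le_qq : (4 : ℤ) ≤ q * q := by
  have : (2 : ℤ) ≤ q := by exact_mod_cast hqf.out.two_le
  nlinarith

theorem xj_div_mem_nonunits {v : Place k (modularFunctionFieldFullC k M)}
    (hv : v.ord (RedQ.xj k M) < 0) :
    RedQ.xj k M / RedQ.xj k M ^ (q * q) ∈ v.toValuationSubring.nonunits := by
  rw [mem_nonunits_iff_ord]
  right
  rw [div_eq_mul_inv, v.ord_mul xj_ne_zero (inv_ne_zero (pow_ne_zero _ xj_ne_zero)), v.ord_inv,
    FF.ord_pow]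
  push_cast
  have := four_le_qq (q := q)
  nlinarith

theorem xj_div_mem_nonunits' {v : Place k (modularFunctionFieldFullC k M)}
    (hv : v.ord (RedQ.xj k M) < 0) :
    RedQ.xj k M / (RedQ.xj k M ^ (q * q)) ^ (q * q) ∈ v.toValuationSubring.nonunits := by
  rw [mem_nonunits_iff_ord]
  right
  rw [div_eq_mul_inv, v.ord_mul xj_ne_zero (inv_ne_zero (pow_ne_zero _ (pow_ne_zero _ xj_ne_zero))),
    v.ord_inv, FF.ord_pow, FF.ord_pow]
  push_cast
  have h4 := four_le_qq (q := q)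
  have h5 : (16 : ℤ) ≤ (q * q : ℤ) * (q * q) := by nlinarith
  nlinarith

set_option maxHeartbeats 1000000 in
/-- **(G)** the points of the cuspidal chart lie on one component only. -/
theorem oneComp_cusp {ζ0 : RU q} (h0 : ζ0 ≠ 1) (P : Ideal (SX A (xL M q)⁻¹)) [hP : P.IsPrime]
    (hxP : (⟨_, xL_inv_mem A⟩ : SX A (xL M q)⁻¹) ∈ P)
    (hngI : ∃ b ∈ P, (b : FB (M * q * q)) ∉ (cI hA hπ hs hM).V.nonunits)
    (hngM : ∃ b ∈ P, (b : FB (M * q * q)) ∉ (cM hA hπ hs hM h0).V.nonunits)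
    (hngZ : ∃ b ∈ P, (b : FB (M * q * q)) ∉ (cZ hA hπ hs hM).V.nonunits)
    (hex : Thru (cI hA hπ hs hM).V (SX A (xL M q)⁻¹) P ∨
        Thru (cM hA hπ hs hM h0).V (SX A (xL M q)⁻¹) P ∨
        Thru (cZ hA hπ hs hM).V (SX A (xL M q)⁻¹) P) :
    OneComp k (SX A (xL M q)⁻¹) (cI hA hπ hs hM) (cM hA hπ hs hM h0) (cZ hA hπ hs hM)
      (q : FB (M * q * q)) (q - 1) (kx (RedQ.xj k M)⁻¹) P := by
  have H := triChart_x_inv hA hπ hs hM h0
  set G1 : SX A (xL M q)⁻¹ := ⟨g1 M q, g1_mem_SX h0 hA hπ hs hM⟩ with hG1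
  set G2 : SX A (xL M q)⁻¹ := ⟨g2 M q, g2_mem_SX h0 hA hπ hs hM⟩ with hG2
  have h1P : (1 : SX A (xL M q)⁻¹) ∉ P := (Ideal.ne_top_iff_one P).1 hP.ne_top
  have one_not : ∀ G : SX A (xL M q)⁻¹, 1 - G ∈ P → G ∉ P := by
    intro G ha hb
    apply h1P
    have := add_mem ha hb
    rwa [sub_add_cancel] at this
  -- `1 - g₁` vanishes on the first component, `1 - g₂` on the last one
  have sI : (cI hA hπ hs hM).Is ((1 - G1 : SX A (xL M q)⁻¹) : FB (M * q * q)) 0 := by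
    have := (Comp.Is.one (cI hA hπ hs hM)).sub (cI_g1 hA hπ hs hM)
    rwa [sub_self] at this
  have sZ : (cZ hA hπ hs hM).Is ((1 - G2 : SX A (xL M q)⁻¹) : FB (M * q * q)) 0 := by
    have := (Comp.Is.one (cZ hA hπ hs hM)).sub (cZ_g2 hA hπ hs hM)
    rwa [sub_self] at this
  -- points on the components
  have pI : Thru (cI hA hπ hs hM).V (SX A (xL M q)⁻¹) P →
      ∃ v : Place k (modularFunctionFieldFullC k M),
        (∀ z ∈ kx (RedQ.xj k M)⁻¹, z ∈ v.toValuationSubring) ∧ AtPl (cI hA hπ hs hM) P v ∧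
        G1 ∉ P ∧ G2 ∈ P := by
    intro hI
    obtain ⟨v, hv, hvI⟩ := H.ontoI.exists_place H.place hngI hI
    have hneg := ord_xj_neg_of hxP hvI (cI_xL_inv hA hπ hs hM)
    refine ⟨v, hv, hvI, one_not _ (hI _ (sI.nonunit_iff.2 rfl)), ?_⟩
    exact (hvI G2 _ (cI_g2 hA hπ hs hM)).2 (xj_div_mem_nonunits' hneg)
  have pZ : Thru (cZ hA hπ hs hM).V (SX A (xL M q)⁻¹) P →
      ∃ v : Place k (modularFunctionFieldFullC k M),
        (∀ z ∈ kx (RedQ.xj k M)⁻¹, z ∈ v.toValuationSubring) ∧ AtPl (cZ hA hπ hs hM) P v ∧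
        G2 ∉ P ∧ G1 ∈ P := by
    intro hZ
    obtain ⟨v, hv, hvZ⟩ := H.ontoZ.exists_place H.place hngZ hZ
    have hneg := ord_xj_neg_of hxP hvZ (cZ_xL_inv hA hπ hs hM)
    refine ⟨v, hv, hvZ, one_not _ (hZ _ (sZ.nonunit_iff.2 rfl)), ?_⟩
    exact (hvZ G1 _ (cZ_g1 hA hπ hs hM)).2 (xj_div_mem_nonunits' hneg)
  have pM : Thru (cM hA hπ hs hM h0).V (SX A (xL M q)⁻¹) P →
      ∃ v : Place k (modularFunctionFieldFullC k M),
        (∀ z ∈ kx (RedQ.xj k M)⁻¹, z ∈ v.toValuationSubring) ∧ AtPl (cM hA hπ hs hM h0) P v ∧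
        v.ord (RedQ.xj k M) < 0 ∧ G1 ∈ P ∧ G2 ∈ P := by
    intro hMid
    obtain ⟨v, hv, hvM⟩ := H.ontoM.exists_place H.place hngM hMid
    have hneg := ord_xj_neg_of hxP hvM (cM_xL_inv hA hπ hs hM h0)
    exact ⟨v, hv, hvM, hneg, (hvM G1 _ (cM_g1 hA hπ hs hM h0)).2 (xj_div_mem_nonunits hneg),
      (hvM G2 _ (cM_g2 hA hπ hs hM h0)).2 (xj_div_mem_nonunits hneg)⟩
  have hexn : ∀ {V : ValuationSubring (FB (M * q * q))}, ¬ Thru V (SX A (xL M q)⁻¹) P →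
      ∃ b : SX A (xL M q)⁻¹, (b : FB (M * q * q)) ∈ V.nonunits ∧ b ∉ P := by
    intro V hV
    unfold Thru at hV
    push Not at hV
    exact hV
  have hne : ∀ b : SX A (xL M q)⁻¹, b ∉ P → b ≠ 0 := fun b hb h => hb (h ▸ zero_mem _)
  by_cases hI : Thru (cI hA hπ hs hM).V (SX A (xL M q)⁻¹) P
  · obtain ⟨v, hv, hvI, hn1, hm2⟩ := pI hI
    have nM : ¬ Thru (cM hA hπ hs hM h0).V (SX A (xL M q)⁻¹) P := fun h => by
      obtain ⟨-, -, -, -, h1, -⟩ := pM h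
      exact hn1 h1
    have nZ : ¬ Thru (cZ hA hπ hs hM).V (SX A (xL M q)⁻¹) P := fun h => by
      obtain ⟨-, -, -, h1, h2⟩ := pZ h
      exact hn1 h2
    obtain ⟨bM, hbM, hbMP⟩ := hexn nM
    obtain ⟨bZ, hbZ, hbZP⟩ := hexn nZ
    have hη : bM ^ (q - 1) * bZ ∉ P := fun h => by
      rcases hP.mem_or_mem h with h | h
      · exact hbMP (hP.mem_of_pow_mem _ h)
      · exact hbZP h
    refine ⟨v, hv, fun _ => hvI, fun h => absurd h nM, fun h => absurd h nZ,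
      ⟨⟨(q : FB (M * q * q)), H.tri.mem⟩, bM, bZ, bM ^ (q - 1) * bZ, H.tri.nuI, hbM, hbZ, hη,
        hne _ hη, ?_⟩, Or.inl ⟨hI, nM, nZ⟩⟩
    push_cast; ring
  by_cases hZ : Thru (cZ hA hπ hs hM).V (SX A (xL M q)⁻¹) P
  · obtain ⟨v, hv, hvZ, hn2, hm1⟩ := pZ hZ
    have nM : ¬ Thru (cM hA hπ hs hM h0).V (SX A (xL M q)⁻¹) P := fun h => by
      obtain ⟨-, -, -, -, -, h1⟩ := pM h
      exact hn2 h1
    obtain ⟨bM, hbM, hbMP⟩ := hexn nM
    obtain ⟨bI, hbI, hbIP⟩ := hexn hI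
    have hη : bI * bM ^ (q - 1) ∉ P := fun h => by
      rcases hP.mem_or_mem h with h | h
      · exact hbIP h
      · exact hbMP (hP.mem_of_pow_mem _ h)
    refine ⟨v, hv, fun h => absurd h hI, fun h => absurd h nM, fun _ => hvZ,
      ⟨bI, bM, ⟨(q : FB (M * q * q)), H.tri.mem⟩, bI * bM ^ (q - 1), hbI, hbM, H.tri.nuZ, hη,
        hne _ hη, ?_⟩, Or.inr (Or.inr ⟨hI, nM, hZ⟩)⟩
    push_cast; ring
  -- the middle component
  have hMid : Thru (cM hA hπ hs hM h0).V (SX A (xL M q)⁻¹) P := by tauto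
  obtain ⟨v, hv, hvM, hneg, hm1, hm2⟩ := pM hMid
  obtain ⟨h, hh, -⟩ := exists_hasse M hA hπ hs hM
  obtain ⟨hT0, hT⟩ := ord_Th_xj hA hπ hs hM hh hneg
  obtain ⟨n, hn⟩ := exists_pow_uj (M := M) (q := q)
  obtain ⟨s, hs1, hsu⟩ := cM_uj_pow hA hπ hs hM h0
  set w : modularFunctionFieldFullC k M := 1 - RedQ.xj k M / RedQ.xj k M ^ (q * q) with hw
  have cM1 : (cM hA hπ hs hM h0).Is (1 - g1 M q) w :=
    (Comp.Is.one _).sub (cM_g1 hA hπ hs hM h0)
  have cM2 : (cM hA hπ hs hM h0).Is (1 - g2 M q) w :=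
    (Comp.Is.one _).sub (cM_g2 hA hπ hs hM h0)
  have hwn : w ∉ v.toValuationSubring.nonunits := by
    intro h1
    have h2 := (hvM (1 - G1) _ cM1).2 h1
    exact one_not _ h2 hm1
  have hw0 : w ≠ 0 := (notMem_nonunits_iff.1 hwn).1
  have hwo : v.ord w = 0 := by
    have h1 := (mem_nonunits_iff_ord v).not.1 hwn
    push Not at h1
    have h2 : 0 ≤ v.ord w := by
      rw [← FF.mem_iff_ord_nonneg]
      exact sub_mem (one_mem _) (ValuationSubring.nonunits_subset (xj_div_mem_nonunits hneg))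
    have := h1.2
    omega
  have hs0 : s ≠ 0 := by rcases hs1 with rfl | rfl <;> norm_num
  have hso : v.ord s = 0 := by
    rcases hs1 with rfl | rfl
    · exact v.ord_one
    · rw [FF.ord_neg]; exact v.ord_one
  set E := (1 - g2 M q) ^ n * uj M q with hE
  obtain ⟨zI, hzI⟩ := cI_uj_mem hA hπ hs hM
  obtain ⟨zZ, hzZ⟩ := cZ_uj_mem hA hπ hs hM
  have eM : (cM hA hπ hs hM h0).Is E 0 := by
    have := (cM2.pow n).mul (cM_uj hA hπ hs hM h0)
    rwa [mul_zero] at this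
  have eI := (((Comp.Is.one _).sub (cI_g2 hA hπ hs hM)).pow n).mul hzI
  have eZ := (((Comp.Is.one _).sub (cZ_g2 hA hπ hs hM)).pow n).mul hzZ
  have hES : E ∈ SX A (xL M q)⁻¹ :=
    mem_SX_x_inv (hA := hA) (hπ := hπ) (hs := hs) (hM := hM) (h0 := h0)
      (((IFix_one'.sub IFix_g2).pow n).mul IFix_uj) hn eI.mem (Comp.mem eM) eZ.mem
  obtain ⟨η, hη, hη'⟩ := H.tri.exists_eta (aI := 1 - G1) (aM := ⟨E, hES⟩) (aZ := 1 - G2)
    (sI.nonunit_iff.2 rfl) (eM.nonunit_iff.2 rfl) (sZ.nonunit_iff.2 rfl)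
  set T := Th hA hπ hs hM (RedQ.xj k M) / RedQ.xj k M ^ (q - 1) with hTd
  have hTn0 : T ≠ 0 := div_ne_zero hT0 (pow_ne_zero _ xj_ne_zero)
  have hTo : v.ord T = 0 := by
    rw [hTd, div_eq_mul_inv, v.ord_mul hT0 (inv_ne_zero (pow_ne_zero _ xj_ne_zero)), v.ord_inv,
      FF.ord_pow, hT]
    ring
  have hEq : (cM hA hπ hs hM h0).Is (E ^ (q - 1) / (q : FB (M * q * q)))
      ((w ^ n) ^ (q - 1) * (s * T)) := by
    have h1 := ((cM2.pow n).pow (q - 1)).mul hsu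
    have e : E ^ (q - 1) / (q : FB (M * q * q)) =
        ((1 - g2 M q) ^ n) ^ (q - 1) * (uj M q ^ (q - 1) / (q : FB (M * q * q))) := by
      rw [hE, mul_pow, mul_div_assoc]
    rw [e]
    exact h1
  have hηr : (cM hA hπ hs hM h0).Is (η : FB (M * q * q)) (w * ((w ^ n) ^ (q - 1) * (s * T)) * w) := by
    rw [hη']
    exact (cM1.mul hEq).mul cM2
  have hz0 : w * ((w ^ n) ^ (q - 1) * (s * T)) * w ≠ 0 :=
    mul_ne_zero (mul_ne_zero hw0 (mul_ne_zero (pow_ne_zero _ (pow_ne_zero _ hw0))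
      (mul_ne_zero hs0 hTn0))) hw0
  have hzo : v.ord (w * ((w ^ n) ^ (q - 1) * (s * T)) * w) = 0 := by
    rw [v.ord_mul (mul_ne_zero hw0 (mul_ne_zero (pow_ne_zero _ (pow_ne_zero _ hw0))
      (mul_ne_zero hs0 hTn0))) hw0, v.ord_mul hw0 (mul_ne_zero (pow_ne_zero _ (pow_ne_zero _ hw0))
      (mul_ne_zero hs0 hTn0)), v.ord_mul (pow_ne_zero _ (pow_ne_zero _ hw0))
      (mul_ne_zero hs0 hTn0), v.ord_mul hs0 hTn0, FF.ord_pow, FF.ord_pow, hwo, hso, hTo]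
    ring
  have hηP : η ∉ P := by
    rw [hvM η _ hηr, mem_nonunits_iff_ord]
    push Not
    exact ⟨hz0, by omega⟩
  refine ⟨v, hv, fun h => absurd h hI, fun _ => hvM, fun h => absurd h hZ,
    ⟨1 - G1, ⟨E, hES⟩, 1 - G2, η, sI.nonunit_iff.2 rfl, eM.nonunit_iff.2 rfl,
      sZ.nonunit_iff.2 rfl, hηP, hne _ hηP, hη⟩, Or.inr (Or.inl ⟨hI, hMid, hZ⟩)⟩

/-- **Extraction of the root**, unconditionally. -/
theorem exists_root' [IsAlgClosed k] {ζ0 : RU q} (h0 : ζ0 ≠ 1)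
    (hr : ∃ r : ℕ, r.Prime ∧ r ∣ M ∧ r % 12 = 11)
    {ℓ : ℕ} (hℓ : ℓ.Prime) (hℓq : ℓ ≠ q) (a : ℕ) {f : FB (M * q * q)} (hf : IFix A f)
    (hI : (cI hA hπ hs hM).Is f 1) (hMid : (cM hA hπ hs hM h0).Is f 1)
    (hZ : (cZ hA hπ hs hM).Is f 1)
    (hdiv : ∀ P : Place Qb (FB (M * q * q)), ((ℓ ^ a : ℕ) : ℤ) ∣ P.ord f)
    {y y' : FB (M * q)} (hy : y ^ (ℓ ^ a) = normAlong (al2 M q) f)
    (hy' : y' ^ (ℓ ^ a) = normAlong (be2 M q) f) :
    ∃ h : FB (M * q * q), h ^ (ℓ ^ a) = f ^ (q ^ 2 - 1) :=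
  exists_root hA hπ hs hM h0 hr hℓ hℓq a hf hI hMid hZ hdiv hy hy'
    fun P hP hx h1 h2 h3 h4 => oneComp_cusp hA hπ hs hM h0 P hx h1 h2 h3 h4

end Fermat.Agent.QComp
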