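import Fermat.Agent.QComp.A36Main
import Fermat.Agent.QComp.CuspPt

/-!
# (A36), final form
-/

set_option autoImplicit false

namespace Fermat.Agent.QComp

theorem cuspStmt : CuspStmt := by
  intro k _ A π M q _ _ hqf hA hπ hs hM _ _ _ _ ζ0 h0 P hP hx h1 h2 h3 h4
  exact oneComp_cusp hA hπ hs hM h0 P (hP := hP) hx h1 h2 h3 h4

/-- **(A36)** -/
theorem a36Rigid {lam : ℕ} (hlam : lam.Prime) : A36Rigid lam := a36Rigid_of_cusp cuspStmt hlam

theorem a36Input {lam : ℕ} (hlam : lam.Prime) : A36Input lam := a36Input_of_rigid (a36Rigid hlam)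

end Fermat.Agent.QComp
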