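import Fermat.Agent.S21
import Fermat.Agent.Period.ConjForm
import Fermat.Agent.Newform.Eigenspaces
import Fermat.Agent.Top.Faithful
import Fermat.Agent.RepTwo.EigenInt

/-!
# Levels of eigensystems in parabolic cohomology

If the eigensystem (away from a finite set of primes) of a newform of level `M` occurs in
`Hom_par(Γ₀(N), ℂ)`, then `M ∣ N`.
-/

set_option autoImplicit false

namespace Fermat.Agent.QComp

open CongruenceSubgroup ModularCurve ModularCurve.Period Fermat.Agent.Period Fermat.Agent.Top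
  CuspForm ModularFormClass Fermat.Agent.Newform Fermat.Agent.Petersson Fermat.Agent.Eigenform
open scoped TensorProduct

local notation "conjA" => ((starRingEnd ℂ : ℂ →+* ℂ) : ℂ →+ ℂ)

theorem periodLin_hOp {N : ℕ} [NeZero N] (ℓ : Nat.Primes) (f : CuspForm (Gamma0 N) 2) :
    periodLin N (hOp N ℓ f) = hop N ℓ (periodLin N f) := by
  have h := periodLin_heckeEvalForms (heckeGen ℓ) f
  rw [evalHom_heckeGen, CuspForm.heckeEvalForms_heckeGen] at h
  exact h

/-- Parabolic homomorphisms are sums of periods and conjugate periods. -/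
theorem exists_period_conj_period {N : ℕ} [NeZero N] {ψ : Additive (Gamma0 N) →+ ℂ}
    (hψ : IsParabolicHom (Gamma0 N) ψ) :
    ∃ F G : CuspForm (Gamma0 N) 2,
      ψ = periodLin N F + AddMonoidHom.comp conjA (periodLin N G) := by
  have h1 : ψ ∈ LinearMap.range (periodHomPair N) := by
    rw [(S21.result N).2]
    exact hψ
  obtain ⟨⟨f, g⟩, rfl⟩ := h1
  refine ⟨f + g, -conjForm (f - g), AddMonoidHom.ext fun γ' => ?_⟩
  obtain ⟨γ, rfl⟩ : ∃ γ, Additive.ofMul γ = γ' := ⟨γ'.toMul, rfl⟩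
  have h5 := charInvolution_periodLin (f - g) γ
  rw [map_sub, map_sub, AddMonoidHom.sub_apply] at h5
  have h6 : periodLin N (-conjForm (f - g)) = -periodLin N (conjForm (f - g)) := map_neg _ _
  have h7 : (AddMonoidHom.comp conjA (-periodLin N (conjForm (f - g)))) (Additive.ofMul γ) =
      -(starRingEnd ℂ) ((periodLin N (conjForm (f - g))) (Additive.ofMul γ)) :=
    map_neg (starRingEnd ℂ) _
  rw [Fermat.Agent.Period.periodHomPair_apply, h6, map_add, AddMonoidHom.add_apply,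
    AddMonoidHom.add_apply, AddMonoidHom.sub_apply, AddMonoidHom.add_apply,
    AddMonoidHom.add_apply, h7, ← h5]
  ring

theorem hop_conj_comp {N : ℕ} (ℓ : Nat.Primes) (φ : Additive (Gamma0 N) →+ ℂ) :
    hop N ℓ (AddMonoidHom.comp conjA φ) = AddMonoidHom.comp conjA (hop N ℓ φ) :=
  hop_comp_left ℓ conjA φ

/-- uniqueness of the decomposition -/
theorem eq_zero_of_period_add_conj {N : ℕ} [NeZero N] (F G : CuspForm (Gamma0 N) 2)
    (h : periodLin N F + AddMonoidHom.comp conjA (periodLin N G) = 0) : F = 0 ∧ G = 0 := by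
  have h1 : ∀ γ : Gamma0 N, periodLin N F (Additive.ofMul γ) =
      (starRingEnd ℂ) (periodLin N (-G) (Additive.ofMul γ)) := by
    intro γ
    have h2 := DFunLike.congr_fun h (Additive.ofMul γ)
    rw [AddMonoidHom.add_apply, AddMonoidHom.comp_apply, AddMonoidHom.zero_apply] at h2
    have h3 : periodLin N (-G) = -periodLin N G := map_neg _ _
    rw [h3, AddMonoidHom.neg_apply, map_neg]
    exact eq_neg_of_add_eq_zero_left h2
  refine ⟨eq_zero_of_period_eq_conj F (-G) h1, ?_⟩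
  rw [← neg_eq_zero]
  refine eq_zero_of_period_eq_conj (-G) F fun γ => ?_
  rw [h1 γ, Complex.conj_conj]

/-- **Eigensystems in parabolic cohomology.** -/
theorem level_dvd_of_eigen_parabolic {M : ℕ} [NeZero M] {g : CuspForm (Gamma0 M) 2}
    (hg : g.IsNewform) (N : ℕ) [NeZero N] (s : Finset ℕ) (hs : ∀ q : ℕ, q.Prime → q ∣ M → q ∈ s)
    {ψ : Additive (Gamma0 N) →+ ℂ} (hψ : IsParabolicHom (Gamma0 N) ψ) (hψ0 : ψ ≠ 0)
    (h : ∀ ℓ : Nat.Primes, (ℓ : ℕ) ∉ s → hop N ℓ ψ = qCoeff g ℓ • ψ) : M ∣ N := by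
  obtain ⟨F, G, rfl⟩ := exists_period_conj_period hψ
  have hg0 : g ≠ 0 := ne_zero_of_isNormalizedEigenform hg.1
  have hreal : ∀ ℓ : Nat.Primes, (ℓ : ℕ) ∉ s → (starRingEnd ℂ) (qCoeff g ℓ) = qCoeff g ℓ := by
    intro ℓ hℓ
    have hℓM : ¬ (ℓ : ℕ) ∣ M := fun h => hℓ (hs ℓ ℓ.2 h)
    exact IsSym.conj_eq (ip_heckeTLin ℓ.2 hℓM) hg0 (heckeTLin_eigen hg.1 ℓ.2 hℓM)
  have key : ∀ ℓ : Nat.Primes, (ℓ : ℕ) ∉ s → hOp N ℓ F = qCoeff g ℓ • F ∧
      hOp N ℓ G = qCoeff g ℓ • G := by
    intro ℓ hℓ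
    have h1 := h ℓ hℓ
    have h2 := eq_zero_of_period_add_conj (hOp N ℓ F - qCoeff g ℓ • F)
      (hOp N ℓ G - qCoeff g ℓ • G) (by
        rw [map_sub, map_sub, periodLin_hOp, periodLin_hOp, map_smul, map_smul]
        rw [map_add, hop_conj_comp] at h1
        have h3 : AddMonoidHom.comp conjA (hop N ℓ (periodLin N G) - qCoeff g ℓ • periodLin N G) =
            AddMonoidHom.comp conjA (hop N ℓ (periodLin N G)) -
              qCoeff g ℓ • AddMonoidHom.comp conjA (periodLin N G) := by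
          refine AddMonoidHom.ext fun γ => ?_
          change (starRingEnd ℂ) (hop N ℓ (periodLin N G) γ - qCoeff g ℓ * periodLin N G γ) =
            (starRingEnd ℂ) (hop N ℓ (periodLin N G) γ) -
              qCoeff g ℓ * (starRingEnd ℂ) (periodLin N G γ)
          rw [map_sub, map_mul, hreal ℓ hℓ]
        rw [h3, sub_add_sub_comm, h1, smul_add, sub_self])
    exact ⟨sub_eq_zero.mp h2.1, sub_eq_zero.mp h2.2⟩
  by_contra hMN
  have hempty : {F : UpperHalfPlane → ℂ | ∃ d : ℕ, M * d ∣ N ∧ F = V d g} = ∅ := by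
    rw [Set.eq_empty_iff_forall_notMem]
    rintro F ⟨d, hd, -⟩
    exact hMN ((dvd_mul_right M d).trans hd)
  have hF := mem_span_of_eigen hg N s F fun ℓ hℓ => (key ℓ hℓ).1
  have hG := mem_span_of_eigen hg N s G fun ℓ hℓ => (key ℓ hℓ).2
  rw [hempty, Submodule.span_empty, Submodule.mem_bot] at hF hG
  have hF' : F = 0 := DFunLike.coe_injective hF
  have hG' : G = 0 := DFunLike.coe_injective hG
  apply hψ0
  rw [hF', hG', map_zero, AddMonoidHom.comp_zero, add_zero]

end Fermat.Agent.QComp
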