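import Fermat.Agent.FF.Canonical

/-!
# Derivations of function fields in characteristic `p`

For a function field `F / K` over a perfect field of characteristic `p`: `F = ⊕_{i<p} F^p z^i` for
`z` with `dz ≠ 0`, the kernel of `d` is `F^p`, local parameters have nonzero differential.
-/

set_option autoImplicit false
set_option linter.unusedSectionVars false
set_option linter.style.haveILetI false

open AlgebraicCurve IntermediateField KaehlerDifferential

namespace Fermat.Agent.QComp

open Fermat.Agent.FF

variable {K F : Type*} [Field K] [Field F] [Algebra K F]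

section Decomp

variable (p : ℕ) [hp : Fact p.Prime] [CharP K p] [CharP F p] [PerfectField K]

/-- if `F` is separable over `K(x)`, then `F = F^p (x)`. -/
theorem exists_decomp (x : F) [Algebra.IsSeparable K⟮x⟯ F] (f : F) :
    ∃ c : ℕ → F, f = ∑ i ∈ Finset.range p, c i ^ p * x ^ i := by
  haveI : ExpChar K p := ExpChar.prime hp.out
  haveI : ExpChar F p := ExpChar.prime hp.out
  haveI : ExpChar K⟮x⟯ p := expChar_of_injective_algebraMap (algebraMap K K⟮x⟯).injective p
  haveI : PerfectRing K p := PerfectField.toPerfectRing p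
  set F' : Subfield F := (frobenius F p).fieldRange with hF'
  have hfro : ∀ g : F, g ^ p ∈ F' := fun g => ⟨g, rfl⟩
  have hK : ∀ a : K, algebraMap K F a ∈ F' := by
    intro a
    obtain ⟨b, rfl⟩ := surjective_frobenius K p a
    exact ⟨algebraMap K F b, by rw [frobenius_def, frobenius_def, map_pow]⟩
  -- the subfield `F'(x)`
  let E : IntermediateField F' F := F'⟮x⟯
  have hxint : IsIntegral F' x := by
    refine ⟨Polynomial.X ^ p - Polynomial.C ⟨x ^ p, hfro x⟩, ?_, ?_⟩
    · exact Polynomial.monic_X_pow_sub_C _ hp.out.ne_zero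
    · rw [Polynomial.eval₂_sub, Polynomial.eval₂_X_pow, Polynomial.eval₂_C]
      exact sub_self _
  -- it contains everything
  have hall : ∀ g : F, g ∈ E := by
    intro g
    have h1 := adjoin_eq_adjoin_pow_expChar_of_isSeparable' K⟮x⟯ F (Set.univ : Set F) p
    have h2 : g ∈ IntermediateField.adjoin K⟮x⟯ ((· ^ p) '' (Set.univ : Set F)) := by
      rw [← h1]
      exact IntermediateField.subset_adjoin _ _ (Set.mem_univ _)
    have hKx : ∀ y : K⟮x⟯, (y : F) ∈ E := by
      intro y
      have h3 : K⟮x⟯.toSubfield ≤ E.toSubfield := by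
        rw [IntermediateField.adjoin_toSubfield, Subfield.closure_le]
        rintro z (⟨a, rfl⟩ | hz)
        · have : algebraMap K F a = algebraMap F' F ⟨algebraMap K F a, hK a⟩ := rfl
          rw [this]
          exact E.algebraMap_mem _
        · rw [Set.mem_singleton_iff.1 hz]
          exact IntermediateField.mem_adjoin_simple_self F' x
      exact h3 y.2
    have h4 : (IntermediateField.adjoin K⟮x⟯ ((· ^ p) '' (Set.univ : Set F))).toSubfield ≤
        E.toSubfield := by
      rw [IntermediateField.adjoin_toSubfield, Subfield.closure_le]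
      rintro z (⟨a, rfl⟩ | ⟨b, -, rfl⟩)
      · exact hKx a
      · have : b ^ p = algebraMap F' F ⟨b ^ p, hfro b⟩ := rfl
        change b ^ p ∈ E
        rw [this]
        exact E.algebraMap_mem _
    exact h4 h2
  have hf := hall f
  have h5 : f ∈ Algebra.adjoin F' {x} := by
    rw [← IntermediateField.adjoin_simple_toSubalgebra_of_isAlgebraic hxint.isAlgebraic]
    exact hf
  rw [Algebra.adjoin_singleton_eq_range_aeval] at h5
  obtain ⟨P, rfl⟩ := h5
  set m : Polynomial F' := Polynomial.X ^ p - Polynomial.C ⟨x ^ p, hfro x⟩ with hm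
  have hmm : m.Monic := Polynomial.monic_X_pow_sub_C _ hp.out.ne_zero
  have hm0 : Polynomial.aeval x m = 0 := by
    rw [hm, map_sub, map_pow, Polynomial.aeval_X, Polynomial.aeval_C]
    exact sub_self _
  have h6 : Polynomial.aeval x (P %ₘ m) = Polynomial.aeval x P := by
    conv_rhs => rw [← Polynomial.modByMonic_add_div P m]
    rw [map_add, map_mul, hm0, zero_mul, add_zero]
  have h7 : (P %ₘ m).natDegree < p := by
    have h8 := Polynomial.natDegree_modByMonic_lt P hmm (by
      intro h
      have := congrArg Polynomial.natDegree h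
      rw [hm, Polynomial.natDegree_X_pow_sub_C, Polynomial.natDegree_one] at this
      exact hp.out.ne_zero this)
    rwa [hm, Polynomial.natDegree_X_pow_sub_C] at h8
  have h8 : ∀ i, ∃ c : F, ((P %ₘ m).coeff i : F) = c ^ p := by
    intro i
    obtain ⟨c, hc⟩ := ((P %ₘ m).coeff i).2
    exact ⟨c, hc.symm⟩
  choose c hc using h8
  refine ⟨c, ?_⟩
  change Polynomial.aeval x P = _
  rw [← h6, Polynomial.aeval_eq_sum_range' h7]
  refine Finset.sum_congr rfl fun i _ => ?_
  rw [Algebra.smul_def, ← hc]
  rfl

end Decomp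

section DD

variable {x : F} [Algebra.IsSeparable K⟮x⟯ F]

/-- the derivation `d/dx`. -/
noncomputable def dd (hx : Transcendental K x) : Derivation K F F :=
  (coordForm hx).compDer (KaehlerDifferential.D K F)

theorem dd_self (hx : Transcendental K x) : dd hx x = 1 := coordForm_D hx

theorem D_eq_dd (hx : Transcendental K x) (f : F) :
    KaehlerDifferential.D K F f = dd hx f • KaehlerDifferential.D K F x := D_eq_smul hx f

theorem dd_eq_zero_iff (hx : Transcendental K x) {f : F} :
    dd hx f = 0 ↔ KaehlerDifferential.D K F f = 0 := by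
  constructor
  · intro h
    rw [D_eq_dd hx, h, zero_smul]
  · intro h
    change coordForm hx (KaehlerDifferential.D K F f) = 0
    rw [h, map_zero]

/-- a derivation is determined by its value at `x`. -/
theorem derivation_eq (hx : Transcendental K x) {V : Type*} [AddCommGroup V] [Module K V]
    [Module F V] [IsScalarTower K F V] (δ : Derivation K F V) (f : F) : δ f = dd hx f • δ x := by
  have h1 := congrArg δ.liftKaehlerDifferential (D_eq_dd hx f)
  rwa [map_smul, Derivation.liftKaehlerDifferential_comp_D,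
    Derivation.liftKaehlerDifferential_comp_D] at h1

end DD

section CharP

variable (p : ℕ) [hp : Fact p.Prime] [CharP F p]

theorem der_mul_const {δ : Derivation K F F} {a : F} (ha : δ a = 0) (f : F) :
    δ (a * f) = a * δ f := by
  rw [Derivation.leibniz, ha, smul_zero, add_zero, smul_eq_mul]

theorem der_pow_char (δ : Derivation K F F) (c : F) : δ (c ^ p) = 0 := by
  rw [Derivation.leibniz_pow, ← Nat.cast_smul_eq_nsmul F, CharP.cast_eq_zero F p, zero_smul]

theorem iterate_mul_const {δ : Derivation K F F} {a : F} (ha : δ a = 0) (n : ℕ) (f : F) :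
    (δ : F → F)^[n] (a * f) = a * (δ : F → F)^[n] f := by
  induction n generalizing f with
  | zero => rfl
  | succ n ih => rw [Function.iterate_succ_apply, der_mul_const ha, ih, Function.iterate_succ_apply]

theorem iterate_add (δ : Derivation K F F) (n : ℕ) (f g : F) :
    (δ : F → F)^[n] (f + g) = (δ : F → F)^[n] f + (δ : F → F)^[n] g := by
  induction n generalizing f g with
  | zero => rfl
  | succ n ih => simp only [Function.iterate_succ_apply, map_add, ih]

theorem iterate_zero' (δ : Derivation K F F) (n : ℕ) : (δ : F → F)^[n] 0 = 0 := by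
  induction n with
  | zero => rfl
  | succ n ih => rw [Function.iterate_succ_apply, map_zero, ih]

theorem iterate_sum (δ : Derivation K F F) (n : ℕ) {ι : Type*} (s : Finset ι) (f : ι → F) :
    (δ : F → F)^[n] (∑ i ∈ s, f i) = ∑ i ∈ s, (δ : F → F)^[n] (f i) := by
  classical
  induction s using Finset.induction_on with
  | empty => simp
  | insert i s his ih => rw [Finset.sum_insert his, iterate_add, ih, Finset.sum_insert his]

theorem iterate_pow {δ : Derivation K F F} {z : F} (hz : δ z = 1) (n i : ℕ) :
    (δ : F → F)^[n] (z ^ i) = (i.descFactorial n : F) * z ^ (i - n) := by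
  induction n generalizing i with
  | zero => simp
  | succ n ih =>
    rw [Function.iterate_succ_apply, Derivation.leibniz_pow, hz]
    rcases i with _ | i
    · simp
    · rw [← Nat.cast_smul_eq_nsmul F, smul_eq_mul, smul_eq_mul, mul_one, iterate_mul_const (by
        simp), Nat.add_sub_cancel, ih, Nat.succ_descFactorial_succ, Nat.add_sub_add_right]
      push_cast
      ring

/-- extracting the top coefficient by iterating the derivation. -/
theorem iterate_top {δ : Derivation K F F} {z : F} (hz : δ z = 1) (a : ℕ → F)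
    (ha : ∀ i, δ (a i) = 0) :
    (δ : F → F)^[p - 1] (∑ i ∈ Finset.range p, a i * z ^ i) = ((p - 1).factorial : F) * a (p - 1) := by
  have hp1 : p - 1 + 1 = p := Nat.sub_add_cancel hp.out.one_le
  rw [iterate_sum]
  have h1 : Finset.range p = Finset.range (p - 1 + 1) := by rw [hp1]
  rw [h1, Finset.sum_range_succ, Finset.sum_eq_zero, zero_add]
  · rw [iterate_mul_const (ha _), iterate_pow hz, Nat.descFactorial_self, Nat.sub_self, pow_zero]
    ring
  · intro i hi
    rw [Finset.mem_range] at hi
    rw [iterate_mul_const (ha _), iterate_pow hz, Nat.descFactorial_of_lt hi]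
    simp

/-- linear independence of the powers of `z` over the constants of `δ`. -/
theorem coeff_eq_zero {δ : Derivation K F F} {z : F} (hz : δ z = 1) (n : ℕ) (hn : n ≤ p)
    (a : ℕ → F) (ha : ∀ i, δ (a i) = 0) (h : ∑ i ∈ Finset.range n, a i * z ^ i = 0) :
    ∀ i < n, a i = 0 := by
  induction n generalizing a with
  | zero => intro i hi; omega
  | succ n ih =>
    have h1 := congrArg δ h
    rw [map_zero, map_sum, Finset.sum_range_succ'] at h1
    have h2 : ∑ i ∈ Finset.range n, ((i + 1 : ℕ) : F) * a (i + 1) * z ^ i = 0 := by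
      rw [← h1]
      have h3 : δ (a 0 * z ^ 0) = 0 := by simp [ha]
      rw [h3, add_zero]
      refine Finset.sum_congr rfl fun i _ => ?_
      rw [der_mul_const (ha _), Derivation.leibniz_pow, hz, ← Nat.cast_smul_eq_nsmul F,
        Nat.add_sub_cancel]
      simp only [smul_eq_mul]
      ring
    have h3 := ih (by omega) (fun i => ((i + 1 : ℕ) : F) * a (i + 1)) (fun i => by
      rw [der_mul_const (by simp), ha, mul_zero]) h2
    have h4 : ∀ i < n, a (i + 1) = 0 := by
      intro i hi
      have h5 := h3 i hi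
      rcases mul_eq_zero.mp h5 with h6 | h6
      · exfalso
        rw [CharP.cast_eq_zero_iff F p] at h6
        have := Nat.le_of_dvd (by omega) h6
        omega
      · exact h6
    intro i hi
    rcases i with _ | i
    · rw [Finset.sum_range_succ', Finset.sum_eq_zero, zero_add, pow_zero, mul_one] at h
      · exact h
      · intro i hi
        rw [h4 i (Finset.mem_range.mp hi), zero_mul]
    · exact h4 i (by omega)

variable [CharP K p] [PerfectField K]

/-- **The kernel of the differential is `F^p`.** -/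
theorem exists_pow_of_dd_eq_zero {x : F} [Algebra.IsSeparable K⟮x⟯ F] (hx : Transcendental K x)
    {f : F} (hf : dd hx f = 0) : ∃ g, g ^ p = f := by
  obtain ⟨c, hc⟩ := exists_decomp (K := K) p x f
  have hp1 : p - 1 + 1 = p := Nat.sub_add_cancel hp.out.one_le
  -- `f - c₀^p` has derivative zero
  have h1 : ∑ i ∈ Finset.range (p - 1), (((i + 1 : ℕ) : F) * c (i + 1) ^ p) * x ^ i = 0 := by
    rw [hc, map_sum, ← hp1, Finset.sum_range_succ'] at hf
    have h3 : dd hx (c 0 ^ (p - 1 + 1) * x ^ 0) = 0 := by
      rw [hp1, pow_zero, mul_one, der_pow_char]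
    rw [h3, add_zero] at hf
    rw [← hf]
    refine Finset.sum_congr rfl fun i _ => ?_
    rw [hp1, der_mul_const (der_pow_char p _ _), Derivation.leibniz_pow, dd_self,
      ← Nat.cast_smul_eq_nsmul F, Nat.add_sub_cancel]
    simp only [smul_eq_mul]
    ring
  have h2 := coeff_eq_zero (K := K) p (dd_self hx) (p - 1) (by omega) _ (fun i => by
    rw [der_mul_const (by simp), der_pow_char, mul_zero]) h1
  have h3 : ∀ i < p - 1, c (i + 1) ^ p = 0 := by
    intro i hi
    rcases mul_eq_zero.mp (h2 i hi) with h6 | h6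
    · exfalso
      rw [CharP.cast_eq_zero_iff F p] at h6
      have := Nat.le_of_dvd (by omega) h6
      omega
    · exact h6
  refine ⟨c 0, ?_⟩
  rw [hc]
  conv_rhs => rw [← hp1]
  rw [Finset.sum_range_succ', Finset.sum_eq_zero, zero_add, pow_zero, mul_one, hp1]
  intro i hi
  rw [hp1, h3 i (Finset.mem_range.mp hi), zero_mul]

end CharP

section Unif

variable (p : ℕ) [hp : Fact p.Prime] [CharP F p] [CharP K p] [PerfectField K] [IsFnField K F]

/-- a function with nonzero differential is separating. -/
theorem isSeparable_of_D_ne_zero {x : F} [Algebra.IsSeparable K⟮x⟯ F] (hx : Transcendental K x)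
    {z : F} (hz : KaehlerDifferential.D K F z ≠ 0) : Algebra.IsSeparable K⟮z⟯ F := by
  haveI := (IsFnField.essFinite : Algebra.EssFiniteType K F)
  haveI : Algebra.EssFiniteType K⟮z⟯ F := Algebra.EssFiniteType.of_comp K K⟮z⟯ F
  rw [← Algebra.FormallyUnramified.iff_isSeparable]
  refine ⟨?_⟩
  -- all differentials relative to `K(z)` vanish
  have h1 : KaehlerDifferential.D K⟮z⟯ F z = 0 := by
    exact Derivation.map_algebraMap (KaehlerDifferential.D K⟮z⟯ F) (AdjoinSimple.gen K z)
  have h2 : dd hx z ≠ 0 := fun h => hz ((dd_eq_zero_iff hx).1 h)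
  have h3 : ∀ f : F, KaehlerDifferential.D K⟮z⟯ F f = 0 := by
    intro f
    have h4 := derivation_eq hx ((KaehlerDifferential.D K⟮z⟯ F).restrictScalars K)
    have h5 := h4 z
    have h6 : dd hx z • (KaehlerDifferential.D K⟮z⟯ F) x = 0 := h5.symm.trans h1
    have h7 : (KaehlerDifferential.D K⟮z⟯ F) x = 0 := (smul_eq_zero.mp h6).resolve_left h2
    have h8 := h4 f
    change (KaehlerDifferential.D K⟮z⟯ F) f = dd hx f • (KaehlerDifferential.D K⟮z⟯ F) x at h8
    rw [h8, h7, smul_zero]
  have h4 : (⊤ : Submodule F Ω[F⁄K⟮z⟯]) = ⊥ := by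
    rw [← KaehlerDifferential.span_range_derivation, Submodule.span_eq_bot]
    rintro _ ⟨f, rfl⟩
    exact h3 f
  exact (Submodule.subsingleton_iff F).1 ((subsingleton_iff_bot_eq_top).1 h4.symm)

include p in
/-- local parameters have nonzero differential. -/
theorem D_ne_zero_of_ord_eq_one {x : F} [Algebra.IsSeparable K⟮x⟯ F] (hx : Transcendental K x)
    (v : Place K F) {z : F} (hz : v.ord z = 1) : KaehlerDifferential.D K F z ≠ 0 := by
  intro h
  obtain ⟨g, rfl⟩ := exists_pow_of_dd_eq_zero p hx ((dd_eq_zero_iff hx).2 h)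
  rw [ord_pow] at hz
  have h1 : (p : ℤ) ∣ 1 := ⟨_, hz.symm⟩
  have h2 := hp.out.one_lt
  have h3 := Int.le_of_dvd one_pos h1
  omega

omit [CharP F p] [CharP K p] hp in
theorem ord_dd_nonneg {t : F} [Algebra.IsSeparable K⟮t⟯ F] (ht : Transcendental K t)
    (v : Place K F) (hv : v.ord t = 1) {f : F} (hf : 0 ≤ v.ord f) : 0 ≤ v.ord (dd ht f) := by
  haveI := IsFnField.finiteDimensional ht
  obtain ⟨g, hg, hgt⟩ := exists_D_eq_smul_of_uniformizer' v ht hv hf
  rw [D_eq_dd ht] at hgt
  rwa [smul_D_injective ht hgt]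

omit hp in
theorem ord_dd_eq {t : F} [Algebra.IsSeparable K⟮t⟯ F] (ht : Transcendental K t)
    (v : Place K F) (hv : v.ord t = 1) {f : F} (hf : ¬ (p : ℤ) ∣ v.ord f) :
    dd ht f ≠ 0 ∧ v.ord (dd ht f) = v.ord f - 1 := by
  have ht0 : t ≠ 0 := by rintro rfl; simp at hv
  have hf0 : f ≠ 0 := by rintro rfl; simp at hf
  set n := v.ord f with hn
  set u := f * t ^ (-n) with hu
  have hu0 : u ≠ 0 := mul_ne_zero hf0 (zpow_ne_zero _ ht0)
  have hun : v.ord u = 0 := by
    rw [hu, v.ord_mul hf0 (zpow_ne_zero _ ht0), v.ord_zpow, hv]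
    omega
  have hfu : f = u * t ^ n := by
    rw [hu, mul_assoc, ← zpow_add₀ ht0]
    simp
  have hD : dd ht f = n * u * t ^ (n - 1) + t ^ n * dd ht u := by
    rw [hfu, Derivation.leibniz, Derivation.leibniz_zpow, dd_self, smul_eq_mul, smul_eq_mul,
      smul_eq_mul, mul_one, ← Int.cast_smul_eq_zsmul F n, smul_eq_mul]
    ring
  have hn0 : (n : F) ≠ 0 := by
    rw [Ne, CharP.intCast_eq_zero_iff F p]
    exact hf
  have hA0 : n * u * t ^ (n - 1) ≠ 0 := mul_ne_zero (mul_ne_zero hn0 hu0) (zpow_ne_zero _ ht0)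
  have h1 : v.ord (n * u * t ^ (n - 1)) = n - 1 := by
    rw [v.ord_mul (mul_ne_zero hn0 hu0) (zpow_ne_zero _ ht0), v.ord_mul hn0 hu0, v.ord_zpow, hv,
      hun]
    have : v.ord (n : F) = 0 := by
      have := ord_algebraMap v (n : K)
      simpa using this
    rw [this]
    ring
  have h2 : t ^ n * dd ht u = 0 ∨ v.ord (n * u * t ^ (n - 1)) < v.ord (t ^ n * dd ht u) := by
    rcases eq_or_ne (dd ht u) 0 with h0 | h0
    · left; rw [h0, mul_zero]
    · right
      have h3 := ord_dd_nonneg ht v hv hun.ge
      rw [h1, v.ord_mul (zpow_ne_zero _ ht0) h0, v.ord_zpow, hv]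
      omega
  have h3 := ord_add_eq_of_lt v hA0 h2
  constructor
  · rw [hD]
    intro h0
    rcases h2 with h2 | h2
    · rw [h2, add_zero] at h0
      exact hA0 h0
    · have h4 : t ^ n * dd ht u = -(n * u * t ^ (n - 1)) := by linear_combination h0
      rw [h4, ord_neg] at h2
      exact lt_irrefl _ h2
  · rw [hD, h3, h1]

omit hp in
theorem ord_iterate_dd {t : F} [Algebra.IsSeparable K⟮t⟯ F] (ht : Transcendental K t)
    (v : Place K F) (hv : v.ord t = 1) (k : ℕ) {f : F} (hf0 : f ≠ 0)
    (hf : ∀ j < k, ¬ (p : ℤ) ∣ v.ord f - (j : ℤ)) :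
    (dd ht : F → F)^[k] f ≠ 0 ∧ v.ord ((dd ht : F → F)^[k] f) = v.ord f - k := by
  induction k with
  | zero => exact ⟨hf0, by simp⟩
  | succ k ih =>
    obtain ⟨h1, h2⟩ := ih fun j hj => hf j (by omega)
    rw [Function.iterate_succ_apply']
    have h3 := ord_dd_eq p ht v hv (f := (dd ht : F → F)^[k] f) (by
      rw [h2]; exact hf k (by omega))
    refine ⟨h3.1, ?_⟩
    rw [h3.2, h2]
    push_cast
    ring

/-- **Abstract form of (Z3)**: if the top coefficient of `T` in `F = ⊕ F^p z^i` is `1`, then
`ord T ≤ 0` implies `ord T ≢ -1 mod p`. -/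
theorem not_dvd_ord_add_one {x : F} [Algebra.IsSeparable K⟮x⟯ F] (hx : Transcendental K x)
    (v : Place K F) {z : F} (hz : v.ord z = 1) (T : F) (a : ℕ → F)
    (ha : ∀ i, KaehlerDifferential.D K F (a i) = 0)
    (hT : T = ∑ i ∈ Finset.range p, a i * z ^ i) (h1 : a (p - 1) = 1) (hv : v.ord T ≤ 0) :
    ¬ (p : ℤ) ∣ v.ord T + 1 := by
  intro hdvd
  have hzt : Transcendental K z := transcendental_of_ord_ne_zero v (by rw [hz]; norm_num)
  haveI := isSeparable_of_D_ne_zero hx (D_ne_zero_of_ord_eq_one p hx v hz)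
  have h2 := iterate_top (K := K) p (dd_self hzt) a fun i => (dd_eq_zero_iff hzt).2 (ha i)
  rw [← hT, h1, mul_one] at h2
  have hfac : ((p - 1).factorial : F) ≠ 0 := by
    rw [Ne, CharP.cast_eq_zero_iff F p, hp.out.dvd_factorial]
    have := hp.out.one_lt
    omega
  have hT0 : T ≠ 0 := by
    rintro rfl
    rw [iterate_zero'] at h2
    exact hfac h2.symm
  have h3 := ord_iterate_dd p hzt v hz (p - 1) hT0 (by
    intro j hj h
    have h4 : (p : ℤ) ∣ (v.ord T + 1) - (v.ord T - j) := dvd_sub hdvd h
    have h5 : (v.ord T + 1) - (v.ord T - j) = ((j + 1 : ℕ) : ℤ) := by push_cast; ring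
    rw [h5, Int.natCast_dvd_natCast] at h4
    have := Nat.le_of_dvd (by omega) h4
    omega)
  rw [h2] at h3
  have h4 : v.ord ((p - 1).factorial : F) = 0 := by
    have := ord_algebraMap v ((p - 1).factorial : K)
    simpa using this
  rw [h4] at h3
  have := hp.out.one_lt
  omega

end Unif

end Fermat.Agent.QComp
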