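import Fermat.Agent.Red.Gauss
import Fermat.Agent.Red.XZero
import Fermat.Agent.ESh.NormRed
import Fermat.Agent.QComp.SepDeriv

/-!
# The derivation `θ = q d/dq` on Laurent series
-/

set_option autoImplicit false
set_option linter.unusedSectionVars false
set_option linter.style.haveILetI false

open AlgebraicCurve IntermediateField ModularCurve Fermat.Agent.Red Fermat.Agent.FF

namespace Fermat.Agent.QComp

section Theta

variable (R : Type*) [CommRing R]

/-- The derivation `θ = q d/dq` of `R((q))`. -/
noncomputable def theta : LaurentSeries R →+ LaurentSeries R where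
  toFun f :=
    { coeff := fun n => (n : R) * f.coeff n
      isPWO_support' := f.isPWO_support.mono fun n hn => by
        rw [Function.mem_support] at hn
        rw [HahnSeries.mem_support]
        exact fun h => hn (by rw [h, mul_zero]) }
  map_zero' := by ext n; simp
  map_add' f g := by ext n; simp [mul_add]

variable {R}

@[simp] theorem theta_coeff (f : LaurentSeries R) (n : ℤ) :
    (theta R f).coeff n = (n : R) * f.coeff n := rfl

theorem theta_coeffMap {S : Type*} [CommRing S] (φ : R →+* S) (f : LaurentSeries R) :
    theta S (coeffMap φ f) = coeffMap φ (theta R f) := by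
  ext n
  rw [theta_coeff, coeffMap_coeff, coeffMap_coeff, theta_coeff, map_mul, map_intCast]

theorem theta_mul (f g : LaurentSeries R) :
    theta R (f * g) = f * theta R g + g * theta R f := by
  have hsupp : ∀ h : LaurentSeries R, (theta R h).support ⊆ h.support := by
    intro h n hn
    rw [HahnSeries.mem_support, theta_coeff] at hn
    rw [HahnSeries.mem_support]
    exact fun h' => hn (by rw [h', mul_zero])
  ext n
  rw [HahnSeries.coeff_add, mul_comm g, HahnSeries.coeff_mul_right' g.isPWO_support (hsupp g),
    HahnSeries.coeff_mul_left' f.isPWO_support (hsupp f), ← Finset.sum_add_distrib, theta_coeff,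
    HahnSeries.coeff_mul, Finset.mul_sum]
  refine Finset.sum_congr rfl fun ij hij => ?_
  rw [Finset.mem_antidiagonal] at hij
  rw [theta_coeff, theta_coeff, ← hij.2.2]
  push_cast
  ring

theorem theta_C (c : R) : theta R (HahnSeries.C c) = 0 := by
  ext n
  rw [theta_coeff, HahnSeries.C_apply, HahnSeries.coeff_single, HahnSeries.coeff_zero]
  split_ifs with h
  · rw [h]; simp
  · simp

theorem theta_one : theta R 1 = 0 := by
  rw [← HahnSeries.C_one]
  exact theta_C 1

theorem theta_C_mul (c : R) (f : LaurentSeries R) :
    theta R (HahnSeries.C c * f) = HahnSeries.C c * theta R f := by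
  rw [theta_mul, theta_C, mul_zero, add_zero]

theorem theta_pow (f : LaurentSeries R) (n : ℕ) :
    theta R (f ^ n) = n * (f ^ (n - 1) * theta R f) := by
  induction n with
  | zero => simp [theta_one]
  | succ n ih =>
    rw [pow_succ, theta_mul, ih]
    rcases n with _ | n
    · simp
    · rw [Nat.add_sub_cancel, Nat.add_sub_cancel]
      push_cast
      ring

theorem theta_single (n : ℤ) (r : R) :
    theta R (HahnSeries.single n r) = HahnSeries.single n ((n : R) * r) := by
  ext m
  rw [theta_coeff, HahnSeries.coeff_single, HahnSeries.coeff_single]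
  split_ifs with h
  · rw [h]
  · rw [mul_zero]

end Theta

section GRed

variable {L k : Type*} [Field L] [Field k] {A : ValuationSubring L} {π : A →+* k}

/-- `θ` is compatible with reduction. -/
theorem gRed_theta {f : LaurentSeries L} {z : LaurentSeries k} (h : GRed π f z) :
    GRed π (theta L f) (theta k z) := by
  obtain ⟨a, b, hb, h1, h2⟩ := h
  refine ⟨theta A a * b - a * theta A b, b * b, ?_, ?_, ?_⟩
  · rw [map_mul]; exact mul_ne_zero hb hb
  · have h3 := congrArg (theta L) h1
    rw [theta_mul, iotaA, theta_coeffMap, theta_coeffMap] at h3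
    rw [iotaA, map_sub, map_mul, map_mul, map_mul, ← h3]
    rw [iotaA] at h1
    rw [← h1]
    ring
  · have h3 := congrArg (theta k) h2
    rw [theta_mul, rhoA, theta_coeffMap, theta_coeffMap] at h3
    rw [rhoA, map_sub, map_mul, map_mul, map_mul, ← h3]
    rw [rhoA] at h2
    rw [← h2]
    ring

end GRed

section Field

/-- a derivation of a field restricted to a function field. -/
theorem der_eq_dd {k Ω : Type*} [Field k] [Field Ω] [Algebra k Ω] {E : IntermediateField k Ω}
    (t : Ω →+ Ω) (ht : ∀ f g, t (f * g) = f * t g + g * t f)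
    (hc : ∀ c : k, t (algebraMap k Ω c) = 0)
    {x : E} [Algebra.IsSeparable k⟮x⟯ E] (hx : Transcendental k x) (f : E) :
    t (f : Ω) = (dd hx f : Ω) * t (x : Ω) := by
  let δ : Derivation k E Ω :=
    { toFun := fun f => t (f : Ω)
      map_add' := fun f g => by
        rw [IntermediateField.coe_add, map_add]
      map_smul' := fun c f => by
        rw [IntermediateField.coe_smul, Algebra.smul_def, ht, hc, mul_zero, add_zero,
          RingHom.id_apply, Algebra.smul_def]
      map_one_eq_zero' := by
        change t ((1 : E) : Ω) = 0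
        rw [IntermediateField.coe_one, ← map_one (algebraMap k Ω), hc]
      leibniz' := fun f g => by
        change t ((f * g : E) : Ω) = _
        rw [IntermediateField.coe_mul, ht]
        rfl }
  exact derivation_eq hx δ f

variable {k : Type*} [Field k] {E : IntermediateField k (LaurentSeries k)}

/-- on a subfield `E` separable over `k(x)`, `θ f = (df/dx) θ x`. -/
theorem theta_eq_dd {x : E} [Algebra.IsSeparable k⟮x⟯ E] (hx : Transcendental k x) (f : E) :
    theta k (f : LaurentSeries k) = (dd hx f : LaurentSeries k) * theta k (x : LaurentSeries k) :=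
  der_eq_dd (theta k) theta_mul (fun c => by rw [algebraMap_eq_C, theta_C]) hx f

end Field

section CharP

variable {k : Type*} [Field k] (p : ℕ) [CharP k p]

/-- projection onto the exponents divisible by `p` -/
noncomputable def pProj (k : Type*) [Field k] (p : ℕ) : LaurentSeries k →+ LaurentSeries k where
  toFun f :=
    { coeff := fun n => if (p : ℤ) ∣ n then f.coeff n else 0
      isPWO_support' := f.isPWO_support.mono fun n hn => by
        rw [Function.mem_support] at hn
        rw [HahnSeries.mem_support]
        intro h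
        apply hn
        rw [h, ite_self] }
  map_zero' := by ext n; simp
  map_add' f g := by
    ext n
    simp only [HahnSeries.coeff_add]
    split_ifs <;> simp

theorem pProj_coeff (f : LaurentSeries k) (n : ℤ) :
    (pProj k p f).coeff n = if (p : ℤ) ∣ n then f.coeff n else 0 := rfl

theorem pProj_theta (f : LaurentSeries k) : pProj k p (theta k f) = 0 := by
  ext n
  rw [pProj_coeff, theta_coeff, HahnSeries.coeff_zero]
  split_ifs with h
  · rw [(CharP.intCast_eq_zero_iff k p n).2 h, zero_mul]
  · rfl

theorem coeff_eq_zero_of_theta {c : LaurentSeries k} (hc : theta k c = 0) {n : ℤ}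
    (hn : ¬ (p : ℤ) ∣ n) : c.coeff n = 0 := by
  have h1 := congrArg (fun f => HahnSeries.coeff f n) hc
  simp only [theta_coeff, HahnSeries.coeff_zero] at h1
  rcases mul_eq_zero.mp h1 with h | h
  · exact absurd ((CharP.intCast_eq_zero_iff k p n).1 h) hn
  · exact h

theorem pProj_mul {c : LaurentSeries k} (hc : theta k c = 0) (f : LaurentSeries k) :
    pProj k p (c * f) = c * pProj k p f := by
  have hsupp : (pProj k p f).support ⊆ f.support := by
    intro n hn
    rw [HahnSeries.mem_support, pProj_coeff] at hn
    rw [HahnSeries.mem_support]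
    exact fun h' => hn (by rw [h', ite_self])
  ext n
  rw [HahnSeries.coeff_mul_right' f.isPWO_support hsupp, pProj_coeff, HahnSeries.coeff_mul]
  split_ifs with h
  · refine Finset.sum_congr rfl fun ij hij => ?_
    rw [Finset.mem_antidiagonal] at hij
    rw [pProj_coeff]
    split_ifs with h2
    · rfl
    · have h3 : ¬ (p : ℤ) ∣ ij.1 := by
        intro h4
        apply h2
        have : ij.2 = n - ij.1 := by rw [← hij.2.2]; ring
        rw [this]
        exact dvd_sub h h4
      rw [coeff_eq_zero_of_theta p hc h3, zero_mul, zero_mul]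
  · symm
    refine Finset.sum_eq_zero fun ij hij => ?_
    rw [Finset.mem_antidiagonal] at hij
    rw [pProj_coeff]
    split_ifs with h2
    · have h3 : ¬ (p : ℤ) ∣ ij.1 := by
        intro h4
        apply h
        rw [← hij.2.2]
        exact dvd_add h4 h2
      rw [coeff_eq_zero_of_theta p hc h3, zero_mul]
    · rw [mul_zero]

theorem pProj_eq_self {c : LaurentSeries k} (hc : theta k c = 0) : pProj k p c = c := by
  ext n
  rw [pProj_coeff]
  split_ifs with h
  · rfl
  · exact (coeff_eq_zero_of_theta p hc h).symm

theorem theta_pow_char (f : LaurentSeries k) : theta k (f ^ p) = 0 := by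
  haveI : CharP (LaurentSeries k) p :=
    charP_of_injective_algebraMap (algebraMap k (LaurentSeries k)).injective p
  rw [theta_pow, CharP.cast_eq_zero (LaurentSeries k) p, zero_mul]

variable [hp : Fact p.Prime]

theorem coeff_pow_char (f : LaurentSeries k) (n : ℤ) :
    (f ^ p).coeff (p * n) = f.coeff n ^ p := by
  haveI : NeZero p := ⟨hp.out.ne_zero⟩
  rw [ESh.pow_eq_qExpand, qExpand_coeff_mul, coeffMap_coeff, frobenius_def]

/-- **The Cartier identity**: the part of `z^(p-1) θ z` with exponents divisible by `p` is
`(θ z)^p`. -/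
theorem pProj_pow_mul_theta (z : LaurentSeries k) :
    pProj k p (z ^ (p - 1) * theta k z) = theta k z ^ p := by
  classical
  -- lift `z` to characteristic zero
  obtain ⟨φ, hφ⟩ : ∃ φ : MvPolynomial k ℤ →+* k, Function.Surjective φ :=
    ⟨MvPolynomial.eval₂Hom (Int.castRingHom k) id, fun a => ⟨MvPolynomial.X a, by simp⟩⟩
  obtain ⟨Z, rfl⟩ : ∃ Z : LaurentSeries (MvPolynomial k ℤ), coeffMap φ Z = z := by
    choose s hs using hφ
    refine ⟨⟨fun n => if z.coeff n = 0 then 0 else s (z.coeff n),
      z.isPWO_support.mono fun n hn => ?_⟩, ?_⟩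
    · rw [Function.mem_support] at hn
      rw [HahnSeries.mem_support]
      intro h
      apply hn
      rw [if_pos h]
    · ext n
      rw [coeffMap_coeff]
      change φ (if z.coeff n = 0 then 0 else s (z.coeff n)) = z.coeff n
      split_ifs with h
      · rw [map_zero, h]
      · exact hs _
  set z := coeffMap φ Z with hz
  have hZ : z ^ (p - 1) * theta k z = coeffMap φ (Z ^ (p - 1) * theta _ Z) := by
    rw [map_mul, map_pow, ← theta_coeffMap]
  ext m
  rw [pProj_coeff]
  by_cases h : (p : ℤ) ∣ m
  · obtain ⟨n, rfl⟩ := h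
    rw [if_pos (dvd_mul_right _ _), coeff_pow_char, theta_coeff, mul_pow]
    have h1 : ((n : k)) ^ p = (n : k) := by
      have := map_intCast (frobenius k p) n
      rwa [frobenius_def] at this
    rw [h1, ← coeff_pow_char p z n, hZ, coeffMap_coeff]
    -- the identity in characteristic zero
    have h2 : (p : MvPolynomial k ℤ) * (Z ^ (p - 1) * theta _ Z).coeff (p * n) =
        (p : MvPolynomial k ℤ) * ((n : MvPolynomial k ℤ) * (Z ^ p).coeff (p * n)) := by
      have h3 := congrArg (fun f => HahnSeries.coeff f ((p : ℤ) * n)) (theta_pow Z p)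
      simp only [theta_coeff] at h3
      have h5 : ((p : LaurentSeries (MvPolynomial k ℤ))) =
          HahnSeries.C (p : MvPolynomial k ℤ) := by simp
      rw [h5, HahnSeries.C_mul_eq_smul, HahnSeries.coeff_smul, smul_eq_mul] at h3
      rw [← h3]
      push_cast
      ring
    have hp0 : (p : MvPolynomial k ℤ) ≠ 0 := by exact_mod_cast hp.out.ne_zero
    rw [mul_left_cancel₀ hp0 h2, map_mul, map_intCast, ← coeffMap_coeff, map_pow]
  · rw [if_neg h]
    exact (coeff_eq_zero_of_theta p (theta_pow_char p _) h).symm

/-- the top coefficient of `(θ z)^(p-1)` in the basis `z^i` over the `p`-th powers is `1`. -/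
theorem top_coeff_eq_one {z : LaurentSeries k} (hz : theta k z ≠ 0) (a : ℕ → LaurentSeries k)
    (ha : ∀ i, theta k (a i) = 0)
    (h : theta k z ^ (p - 1) = ∑ i ∈ Finset.range p, a i * z ^ i) : a (p - 1) = 1 := by
  have hp1 : p - 1 + 1 = p := Nat.sub_add_cancel hp.out.one_le
  have h1 : theta k z ^ p = ∑ i ∈ Finset.range p, a i * (z ^ i * theta k z) := by
    rw [← hp1, pow_succ, h, Finset.sum_mul, hp1]
    exact Finset.sum_congr rfl fun i _ => by ring
  have h2 := congrArg (pProj k p) h1
  rw [pProj_eq_self p (theta_pow_char p _), map_sum] at h2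
  have h0 : Finset.range p = Finset.range (p - 1 + 1) := by rw [hp1]
  rw [h0, Finset.sum_range_succ, Finset.sum_eq_zero, zero_add, pProj_mul p (ha _),
    pProj_pow_mul_theta] at h2
  · have h3 : theta k z ^ p ≠ 0 := pow_ne_zero _ hz
    exact (mul_eq_right₀ h3).1 h2.symm
  · intro i hi
    rw [Finset.mem_range] at hi
    rw [pProj_mul p (ha _)]
    have hi0 : ((i + 1 : ℕ) : k) ≠ 0 := by
      rw [Ne, CharP.cast_eq_zero_iff k p]
      intro hd
      have := Nat.le_of_dvd (by omega) hd
      omega
    have h3 : z ^ i * theta k z =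
        theta k (HahnSeries.C ((i + 1 : ℕ) : k)⁻¹ * z ^ (i + 1)) := by
      rw [theta_C_mul, theta_pow, Nat.add_sub_cancel, ← mul_assoc]
      have h5 : (((i + 1 : ℕ) : LaurentSeries k)) = HahnSeries.C ((i + 1 : ℕ) : k) :=
        (map_natCast (HahnSeries.C : k →+* LaurentSeries k) (i + 1)).symm
      rw [h5, ← map_mul, inv_mul_cancel₀ hi0, map_one, one_mul]
    rw [h3, pProj_theta, mul_zero]

/-- **(Z3)**. Let `z` be a local parameter at `v`, `T = (θ z)^(p-1)`. If `ord T ≤ 0` then
`ord T ≢ -1 mod p`. -/
theorem not_dvd_ord_theta_pow_add_one [PerfectField k] {E : IntermediateField k (LaurentSeries k)}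
    [IsFnField k E] {x : E} [Algebra.IsSeparable k⟮x⟯ E] (hx : Transcendental k x)
    (hθx : theta k (x : LaurentSeries k) ≠ 0) (v : Place k E) {z T : E} (hz : v.ord z = 1)
    (hT : (T : LaurentSeries k) = theta k (z : LaurentSeries k) ^ (p - 1)) (h0 : v.ord T ≤ 0) :
    ¬ (p : ℤ) ∣ v.ord T + 1 := by
  haveI : CharP E p := charP_of_injective_algebraMap (algebraMap k E).injective p
  have hDz := D_ne_zero_of_ord_eq_one p hx v hz
  have hzt : Transcendental k z := transcendental_of_ord_ne_zero v (by rw [hz]; norm_num)
  haveI := isSeparable_of_D_ne_zero hx hDz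
  obtain ⟨c, hc⟩ := exists_decomp (K := k) p z T
  have hθz : theta k (z : LaurentSeries k) ≠ 0 := by
    rw [theta_eq_dd hx z]
    refine mul_ne_zero ?_ hθx
    intro h
    apply hDz
    rw [← dd_eq_zero_iff hx]
    exact Subtype.ext h
  have h1 : theta k (z : LaurentSeries k) ^ (p - 1) =
      ∑ i ∈ Finset.range p, (c i : LaurentSeries k) ^ p * (z : LaurentSeries k) ^ i := by
    rw [← hT]
    conv_lhs => rw [hc]
    push_cast
    rfl
  have h2 := top_coeff_eq_one p hθz _ (fun i => theta_pow_char p _) h1
  refine not_dvd_ord_add_one p hx v hz T (fun i => c i ^ p) (fun i => ?_) hc ?_ h0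
  · rw [← dd_eq_zero_iff hx]
    exact der_pow_char p _ _
  · apply Subtype.ext
    push_cast
    exact h2

end CharP

end Fermat.Agent.QComp
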