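import Fermat.Agent.QVal.Inert
import Fermat.Agent.Top.DescentKummer
import Fermat.Agent.Cusp.Fricke
import Fermat.Agent.RR.Duality
import Fermat.Agent.Top.PicKummer

/-!
# Descent of divisors and functions along inertia
-/

set_option autoImplicit false
set_option linter.unusedSectionVars false
set_option linter.style.haveILetI false
set_option linter.unusedVariables false

noncomputable section

open AlgebraicCurve ModularCurve IntermediateField Fermat.Agent.FF

namespace Fermat.Agent.QComp

section Abstract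

variable {K F : Type*} [Field K] [Field F] [Algebra K F] [IsAlgClosed K] [IsFnField K F]

theorem isPrincipal_add {D E : Divisor K F} (hD : D.IsPrincipal) (hE : E.IsPrincipal) :
    (D + E).IsPrincipal :=
  Divisor.mem_principal.1 (add_mem (Divisor.mem_principal.2 hD) (Divisor.mem_principal.2 hE))

theorem isPrincipal_sub {D E : Divisor K F} (hD : D.IsPrincipal) (hE : E.IsPrincipal) :
    (D - E).IsPrincipal :=
  Divisor.mem_principal.1 (sub_mem (Divisor.mem_principal.2 hD) (Divisor.mem_principal.2 hE))

theorem isPrincipal_divOf {f : F} (hf : f ≠ 0) : (RR.divOf (K := K) f).IsPrincipal :=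
  ⟨f, hf, fun v => RR.divOf_apply _ _⟩

theorem degree_of_isPrincipal {D : Divisor K F} (h : D.IsPrincipal) : Divisor.degree D = 0 := by
  obtain ⟨f, hf, hD⟩ := h
  have : D = RR.divOf (K := K) f := by
    ext v
    rw [hD v, RR.divOf_apply]
  rw [this, RR.degree_divOf]

/-- A unique effective divisor in a suitable class. -/
theorem exists_unique_effective (w : Place K F) (D : Divisor K F) (hD : Divisor.degree D = 0) :
    ∃ (m : ℕ) (E : Divisor K F), 0 ≤ E ∧ (E - (D + Finsupp.single w (m : ℤ))).IsPrincipal ∧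
      ∀ E' : Divisor K F, 0 ≤ E' → (E' - (D + Finsupp.single w (m : ℤ))).IsPrincipal → E' = E := by
  classical
  have hex : ∃ m : ℕ, ∃ E : Divisor K F, 0 ≤ E ∧
      (E - (D + Finsupp.single w (m : ℤ))).IsPrincipal := by
    refine ⟨genusFF K F, ?_⟩
    have h1 := RR.riemann_ineq (D + Finsupp.single w (genusFF K F : ℤ))
    rw [map_add, RR.degree_single', hD] at h1
    obtain ⟨f, hf, hf0⟩ := RR.exists_mem_ne_zero_of_ell_pos
      (D := D + Finsupp.single w (genusFF K F : ℤ)) (by omega)
    refine ⟨D + Finsupp.single w (genusFF K F : ℤ) + RR.divOf f, ?_, ?_⟩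
    · exact (RR.mem_riemannRochSpace_iff_divOf hf0).1 hf
    · rw [add_sub_cancel_left]
      exact isPrincipal_divOf hf0
  obtain ⟨E, hE0, hE⟩ := Nat.find_spec hex
  refine ⟨Nat.find hex, E, hE0, hE, fun E' hE0' hE' => ?_⟩
  set m := Nat.find hex with hm
  have hmin : ∀ (E : Divisor K F), 0 ≤ E → (E - (D + Finsupp.single w (m : ℤ))).IsPrincipal →
      0 < m → E w ≤ 0 := by
    intro E hE0 hE hm0
    by_contra hcon
    push Not at hcon
    refine Nat.find_min hex (m := m - 1) (by omega) ⟨E - Finsupp.single w 1, ?_, ?_⟩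
    · intro v
      rw [Finsupp.sub_apply, Finsupp.single_apply]
      split_ifs with h
      · subst h
        simp only [Finsupp.coe_zero, Pi.zero_apply]
        omega
      · simpa using hE0 v
    · have h1 : E - Finsupp.single w 1 - (D + Finsupp.single w ((m - 1 : ℕ) : ℤ)) =
          E - (D + Finsupp.single w (m : ℤ)) := by
        have h2 : Finsupp.single w (m : ℤ) = Finsupp.single w 1 +
            Finsupp.single w ((m - 1 : ℕ) : ℤ) := by
          rw [← Finsupp.single_add]
          congr 1
          omega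
        rw [h2]
        abel
      rw [h1]
      exact hE
  by_contra hne
  rcases Nat.eq_zero_or_pos m with h0 | hpos
  · have key : ∀ E : Divisor K F, 0 ≤ E → (E - (D + Finsupp.single w (m : ℤ))).IsPrincipal →
        E = 0 := by
      intro E hE0 hE
      have h1 := degree_of_isPrincipal hE
      rw [map_sub, map_add, RR.degree_single', hD, h0] at h1
      symm
      apply RR.eq_of_le_of_degree_le hE0
      rw [map_zero]
      have : ((0 : ℕ) : ℤ) = 0 := rfl
      omega
    exact hne ((key E' hE0' hE').trans (key E hE0 hE).symm)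
  · obtain ⟨f, hf0, hf⟩ := isPrincipal_sub hE' hE
    have h1 : ∀ v, E' v - E v = v.ord f := by
      intro v
      rw [← hf v]
      simp only [Finsupp.sub_apply, Finsupp.add_apply]
      ring
    have hw1 : E w = 0 := le_antisymm (hmin E hE0 hE hpos) (hE0 w)
    have hw2 : E' w = 0 := le_antisymm (hmin E' hE0' hE' hpos) (hE0' w)
    have hwf : 0 ≤ w.ord f := by rw [← h1 w, hw1, hw2, sub_zero]
    obtain ⟨a, ha⟩ := RR.exists_sub_ord_pos w hwf
    rcases ha with ha | ha
    · apply hne
      ext v
      have h2 := h1 v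
      rw [sub_eq_zero.1 ha, FF.ord_algebraMap] at h2
      omega
    · have hfa : f - algebraMap K F a ≠ 0 := by
        intro h
        rw [h, Place.ord_zero] at ha
        exact lt_irrefl _ ha
      have h2 : ∀ v : Place K F, 0 ≤ E v + v.ord (f - algebraMap K F a) := by
        intro v
        have h3 := FF.min_le_ord_add v (f := f) (g := algebraMap K F (-a)) (by
          rw [map_neg, ← sub_eq_add_neg]; exact hfa)
        rw [map_neg, ← sub_eq_add_neg, ← map_neg, FF.ord_algebraMap] at h3
        have h4 := h1 v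
        have h5 := hE0 v
        have h6 := hE0' v
        simp only [Finsupp.coe_zero, Pi.zero_apply] at h5 h6
        rcases min_le_iff.1 h3 with h7 | h7 <;> omega
      have h3 := hmin (E + RR.divOf (f - algebraMap K F a)) (by
        intro v
        simpa [RR.divOf_apply] using h2 v) (by
        have h4 : E + RR.divOf (f - algebraMap K F a) - (D + Finsupp.single w (m : ℤ)) =
            (E - (D + Finsupp.single w (m : ℤ))) + RR.divOf (f - algebraMap K F a) := by abel
        rw [h4]
        exact isPrincipal_add hE (isPrincipal_divOf hfa)) hpos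
      rw [Finsupp.add_apply, RR.divOf_apply, hw1] at h3
      omega

theorem smul_isPrincipal (g : SemilinearAut K F) {D : Divisor K F} (hD : D.IsPrincipal) :
    (g • D).IsPrincipal :=
  Divisor.mem_principal.1 (SemilinearAut.smul_mem_principal g (Divisor.mem_principal.2 hD))

theorem smul_effective (g : SemilinearAut K F) {D : Divisor K F} (hD : 0 ≤ D) : 0 ≤ g • D := by
  intro v
  rw [SemilinearAut.divisor_smul_apply]
  exact hD _

/-- Descent of divisors classes with a fixed place. -/
theorem exists_invariant_divisor (w : Place K F) (S : Set (SemilinearAut K F))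
    (hw : ∀ g ∈ S, g • w = w) (x : Pic0 K F) (hx : ∀ g ∈ S, g • x = x) :
    ∃ D : Divisor.degZero (K := K) (F := F), Pic0.mk D = x ∧
      ∀ g ∈ S, g • (D : Divisor K F) = D := by
  obtain ⟨D₀, rfl⟩ := Pic0.mk_surjective x
  obtain ⟨m, E, hE0, hE, huniq⟩ := exists_unique_effective w (D₀ : Divisor K F)
    (Divisor.mem_degZero.1 D₀.2)
  have hdeg : Divisor.degree (E - Finsupp.single w (m : ℤ)) = 0 := by
    have h1 := degree_of_isPrincipal hE
    rw [map_sub, map_add, Divisor.mem_degZero.1 D₀.2] at h1
    rw [map_sub]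
    omega
  have hinv : ∀ g ∈ S, g • E = E := by
    intro g hg
    apply huniq _ (smul_effective g hE0)
    have h1 : (g • (D₀ : Divisor K F) - D₀).IsPrincipal := by
      have h2 := hx g hg
      rw [SemilinearAut.pic0_smul_mk, ← sub_eq_zero] at h2
      have h3 : Pic0.mk (SemilinearAut.degZeroSMulHom g D₀) - Pic0.mk D₀ =
          Pic0.mk (SemilinearAut.degZeroSMulHom g D₀ - D₀) := rfl
      rw [h3, Top.mk_eq_zero_iff] at h2
      exact h2
    have h2 : g • E - ((D₀ : Divisor K F) + Finsupp.single w (m : ℤ)) =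
        g • (E - ((D₀ : Divisor K F) + Finsupp.single w (m : ℤ))) +
          (g • (D₀ : Divisor K F) - D₀) := by
      rw [smul_sub, smul_add, SemilinearAut.smul_single, hw g hg]
      abel
    rw [h2]
    exact isPrincipal_add (smul_isPrincipal g hE) h1
  refine ⟨⟨E - Finsupp.single w (m : ℤ), Divisor.mem_degZero.2 hdeg⟩, ?_, fun g hg => ?_⟩
  · rw [← sub_eq_zero]
    have h3 : Pic0.mk (⟨E - Finsupp.single w (m : ℤ), Divisor.mem_degZero.2 hdeg⟩ :
        Divisor.degZero (K := K) (F := F)) - Pic0.mk D₀ = Pic0.mk (⟨E - Finsupp.single w (m : ℤ),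
          Divisor.mem_degZero.2 hdeg⟩ - D₀) := rfl
    rw [h3, Top.mk_eq_zero_iff]
    change (E - Finsupp.single w (m : ℤ) - (D₀ : Divisor K F)).IsPrincipal
    convert hE using 1
    abel
  · change g • (E - Finsupp.single w (m : ℤ)) = E - Finsupp.single w (m : ℤ)
    rw [smul_sub, SemilinearAut.smul_single, hinv g hg, hw g hg]

end Abstract

section Main

local notation "Qb" => AlgebraicClosure ℚ
local notation "Γℚ" => (AlgebraicClosure ℚ ≃ₐ[ℚ] AlgebraicClosure ℚ)

open Fermat.Agent.QVal

variable {N : ℕ} [NeZero N]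

/-- the cusp `∞` of `X₀(N)` -/
def cuspI (N : ℕ) [NeZero N] : Place Qb (FB N) :=
  Cusp.placeInf (FB N) (Cusp.exists_order_neg_one (L := Qb) N)

theorem ord_cuspI (f : FB N) : (cuspI N).ord f = (f : LaurentSeries Qb).order :=
  Cusp.ord_placeInf _ _ _

theorem smul_cuspI (σ : Γℚ) : arithmeticGalois (modularFunctionFieldFull N) σ • cuspI N =
    cuspI N := by
  refine Top.smul_qPlace (e := 1) one_pos (fun f => ?_) σ
  rw [mul_one]
  exact (ord_cuspI f).symm

/-- **Descent of torsion classes fixed by inertia.** -/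
theorem div_descent (A : ValuationSubring Qb) (x : JZero N) (n : ℕ) (hn : n ≠ 0)
    (hnx : n • x = 0) (hx : ∀ s ∈ A.inertiaSubgroupIn ℚ, s • x = x) :
    ∃ D : Divisor.degZero (K := Qb) (F := FB N), Pic0.mk D = x ∧
      ∃ f : FB N, f ≠ 0 ∧ IFix A f ∧ ∀ P, (n : ℤ) * (D : Divisor Qb (FB N)) P = P.ord f := by
  haveI : IsFnField Qb (FB N) := JZ.modularFieldInputsBar.fnField N
  obtain ⟨D, hD, hinv⟩ := exists_invariant_divisor (cuspI N)
    {g | ∃ s ∈ A.inertiaSubgroupIn ℚ, g = arithmeticGalois (modularFunctionFieldFull N) s}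
    (by rintro _ ⟨s, -, rfl⟩; exact smul_cuspI s) x
    (by rintro _ ⟨s, hs, rfl⟩; exact hx s hs)
  refine ⟨D, hD, ?_⟩
  rw [← hD] at hnx
  have h1 : n • Pic0.mk D = Pic0.mk (n • D) := rfl
  rw [h1, Top.mk_eq_zero_iff] at hnx
  obtain ⟨f, hf0, hf⟩ := hnx
  have hf' : ∀ P : Place Qb (FB N), (n : ℤ) * (D : Divisor Qb (FB N)) P = P.ord f := by
    intro P
    rw [← hf P]
    change _ = (n • (D : Divisor Qb (FB N))) P
    rw [Finsupp.smul_apply, nsmul_eq_mul]
  set c : Qb := (f : LaurentSeries Qb).leadingCoeff with hc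
  have hfL : (f : LaurentSeries Qb) ≠ 0 := fun h => hf0 (Subtype.ext h)
  have hc0 : c ≠ 0 := HahnSeries.leadingCoeff_ne_zero.2 hfL
  set g : FB N := algebraMap Qb (FB N) c⁻¹ * f with hg
  have hgc : algebraMap Qb (FB N) c⁻¹ ≠ 0 := by simpa using hc0
  have hg0 : g ≠ 0 := mul_ne_zero hgc hf0
  have hgord : ∀ P : Place Qb (FB N), P.ord g = P.ord f := by
    intro P
    rw [hg, P.ord_mul hgc hf0, FF.ord_algebraMap, zero_add]
  have hglead : (g : LaurentSeries Qb).leadingCoeff = 1 := by
    have h2 : (g : LaurentSeries Qb) = algebraMap Qb (LaurentSeries Qb) c⁻¹ *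
        (f : LaurentSeries Qb) := rfl
    rw [h2, HahnSeries.leadingCoeff_mul, ← hc, algebraMap_laurentSeries_eq_single,
      HahnSeries.leadingCoeff_of_single, inv_mul_cancel₀ hc0]
  refine ⟨g, hg0, ?_, fun P => by rw [hf', hgord]⟩
  intro s hs
  set G := arithmeticGalois (modularFunctionFieldFull N) s with hG
  have hGD : G • (D : Divisor Qb (FB N)) = D := hinv G ⟨s, hs, rfl⟩
  have hord : ∀ P : Place Qb (FB N), P.ord (G • g) = P.ord g := by
    intro P
    have h2 := SemilinearAut.ord_smul G (G⁻¹ • P) g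
    rw [smul_inv_smul] at h2
    rw [h2, hgord, hgord, ← hf', ← hf']
    have h3 := SemilinearAut.divisor_smul_apply G (D : Divisor Qb (FB N)) P
    rw [hGD] at h3
    rw [h3]
  have hGg0 : G • g ≠ 0 := by
    intro h
    exact hg0 ((smul_eq_zero_iff_eq G).1 h)
  obtain ⟨a, ha⟩ := RR.exists_algebraMap_eq_of_forall_ord_nonneg (K := Qb) (f := (G • g) / g)
    (fun v => by
      rw [div_eq_mul_inv, v.ord_mul hGg0 (inv_ne_zero hg0), v.ord_inv, hord]
      omega)
  have h4 : G • g = algebraMap Qb (FB N) a * g := by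
    rw [ha, div_mul_cancel₀ _ hg0]
  have h5 : ((G • g : FB N) : LaurentSeries Qb).leadingCoeff = 1 := by
    rw [hG, coe_arithmeticGalois_smul, Top.leadingCoeff_coeffMap, hglead]
    exact map_one _
  have h6 : a = 1 := by
    have h7 : ((G • g : FB N) : LaurentSeries Qb) = algebraMap Qb (LaurentSeries Qb) a *
        (g : LaurentSeries Qb) := congrArg Subtype.val h4
    rw [h7, HahnSeries.leadingCoeff_mul, hglead, mul_one, algebraMap_laurentSeries_eq_single,
      HahnSeries.leadingCoeff_of_single] at h5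
    exact h5
  have h8 : G • g = g := by rw [h4, h6, map_one, one_mul]
  exact h8

end Main

end Fermat.Agent.QComp
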