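import Fermat.Agent.QComp.ModMain

/-!
# The strong form of (A34): `(t - 1)(s - 1) = 0` for `s`, `t` in inertia
-/

set_option autoImplicit false
set_option linter.unusedSectionVars false
set_option linter.style.haveILetI false

noncomputable section

open AlgebraicCurve ModularCurve IntermediateField Module

namespace Fermat.Agent.QComp

open Fermat.Agent.FF Fermat.Agent.Red Fermat.Agent.QVal Fermat.Agent.JZ Fermat.Agent.ESh
  Fermat.Agent.ModFn

local notation "Qb" => AlgebraicClosure ℚ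
local notation "Γℚ" => (AlgebraicClosure ℚ ≃ₐ[ℚ] AlgebraicClosure ℚ)

section Class

variable {K k : Type*} [Field K] [Field k] {A : ValuationSubring K} {π : A →+* k}
  {F₀ F κ : Type*} [Field F₀] [Algebra K F₀] [Field F] [Algebra K F] [Field κ] [Algebra k κ]
  [IsAlgClosed K] [CharZero K] [IsAlgClosed k] [IsFnField K F₀] [IsFnField K F] [IsFnField k κ]
  {R₀ : ConstRed A π F₀ κ} {R₁ R₂ : ConstRed A π F κ} {j : F₀} {jb : κ}
    {α : F₀ →ₐ[K] F} {w : F →ₐ[K] F} {Fr : κ →ₐ[k] κ} {q : ℕ}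
    (H : TwoLevel R₀ R₁ R₂ j jb α w Fr q)
    {Q : ℕ} {τ τ' : F →+* F} {σ σ' : K →+* K} {ψ ψ' : κ →+* κ}
    {n : ℕ} {y : F} {D : Divisor K F}

include H

/-- inertia acts trivially on the image of `g - 1`, `g` in inertia -/
theorem inertia_class₂ (hA : IsArch A)
    (hA' : ∃ c : A, ¬ IsUnit c ∧ c ≠ 0) (hn : (n : k) ≠ 0) (hπ : Function.Surjective π)
    (Φ : TwoLevel.Frob R₁ R₂ (α j * w (α j)) Fr Q τ τ' σ σ' ψ ψ')
    {g g' : SemilinearAut K F} (hg : SemiRed R₁ R₂ (α j * w (α j)) (gF g) (gK g) (RingHom.id κ))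
    (hg' : SemiRed R₁ R₂ (α j * w (α j)) (gF g') (gK g') (RingHom.id κ))
    (hD : Divisor.degree D = 0) (hy : y ≠ 0) (hdiv : ∀ P, (n : ℤ) * D P = P.ord y) :
    Divisor.IsPrincipal (g' • (g • D - D) - (g • D - D)) := by
  have hn0 : n ≠ 0 := by rintro rfl; simp at hn
  obtain ⟨γ₁, hγ₁, b₁, hb₁, h1⟩ := R₁.exists_isRed_mul hy
  obtain ⟨γ₂, hγ₂, b₂, hb₂, h2⟩ := R₂.exists_isRed_mul hy
  obtain ⟨c₁, c₂, W⟩ := W1.of_semi hg hn0 hD hy hdiv hγ₁ hγ₂ hb₁ hb₂ h1 h2 (a₁ := 1) (a₂ := 1)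
    (by rw [one_pow, RingHom.id_apply, div_self hb₁])
    (by rw [one_pow, RingHom.id_apply, div_self hb₂])
  have h3 := divisor_smul_sub (g := g') W.ne W.div 1
  rw [one_smul, pow_one] at h3
  obtain ⟨f, hf⟩ := W.inertia H hA hA' hn hπ Φ hg'
    (D₁ := g' • (g • D - D) - (g • D - D))
    (by rw [map_sub, SemilinearAut.degree_smul, sub_self]) h3
  have hf0 : f ≠ 0 := by
    rintro rfl
    rw [zero_pow hn0] at hf
    have hgy : gF g' (gF g y / y) ≠ 0 := fun h => W.ne ((map_eq_zero (gF g')).1 h)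
    exact div_ne_zero hgy W.ne hf.symm
  refine ⟨f, hf0, fun P => ?_⟩
  have h4 := h3 P
  rw [← hf, ord_pow] at h4
  exact mul_left_cancel₀ (by exact_mod_cast hn0) h4

end Class

section Level

variable {k : Type*} [Field k] {A : ValuationSubring Qb} {π : A →+* k} {M q : ℕ} [NeZero M]
  [NeZero q] [hqf : Fact q.Prime]

theorem semiRed_inertia (hA : A.LiesOverPrime q) (hπ : ∀ a : A, π a = 0 ↔ ¬ IsUnit a)
    (hsur : Function.Surjective π) (hM : ¬ q ∣ M) {s : Γℚ} (hs : s ∈ A.inertiaSubgroupIn ℚ) :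
    SemiRed (rInf1 M q hA hπ hsur hM) (rZero1 M q hA hπ hsur hM)
      (al1 M q (jB M) * (w1 hqf.out hM : FB (M * q) →ₐ[Qb] FB (M * q)) (al1 M q (jB M)))
      (gF (arithmeticGalois (modularFunctionFieldFull (M * q)) s))
      (gK (arithmeticGalois (modularFunctionFieldFull (M * q)) s))
      (RingHom.id (modularFunctionFieldFullC k M)) := by
  obtain ⟨hσD, hσF⟩ := (Frob.mem_inertiaSubgroupIn_iff A s).1 hs
  rw [← gF_coeffSemi_refl]
  refine semiRed_galois (((s : Qb →+* Qb).comp A.subtype).codRestrict A.toSubring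
    (fun a => (Frob.apply_mem_iff hσD).2 a.2)) (fun a => rfl) _ (fun a => ?_)
  rw [RingEquiv.refl_apply, ← sub_eq_zero, ← map_sub, hπ]
  have h1 := hσF a a.2
  rw [ValuationSubring.mem_nonunits_iff_exists_mem_maximalIdeal] at h1
  obtain ⟨h2, h3⟩ := h1
  exact (IsLocalRing.mem_maximalIdeal _).1 h3

theorem a34_strong_aux (hA : A.LiesOverPrime q) (hπ : ∀ a : A, π a = 0 ↔ ¬ IsUnit a)
    (hsur : Function.Surjective π) (hM : ¬ q ∣ M)
    [CharP k q] [PerfectRing k q] [IsAlgClosed k]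
    [IsFnField k (modularFunctionFieldFullC k M)] {m : ℕ} (hm : (m : k) ≠ 0)
    {s t : Γℚ} (hs : s ∈ A.inertiaSubgroupIn ℚ) (ht : t ∈ A.inertiaSubgroupIn ℚ)
    (x : JZero (M * q)) (hx : m • x = 0) :
    t • (s • x - x) = s • x - x := by
  obtain ⟨φ, hφ⟩ := Frob.exists_isFrobeniusAt A hqf.out hA
  obtain ⟨D, rfl⟩ := Pic0.mk_surjective x
  obtain ⟨y, hy, hdiv⟩ := exists_div_of_torsion hx
  set g := arithmeticGalois (modularFunctionFieldFull (M * q)) s with hg
  set g' := arithmeticGalois (modularFunctionFieldFull (M * q)) t with hg'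
  have hmain := inertia_class₂ (twoLevel hA hπ hsur hM) (isArch_of_liesOverPrime hA)
    (exists_nonunit hA) hm hsur (frobStructure hφ) (semiRed_inertia hA hπ hsur hM hs)
    (semiRed_inertia hA hπ hsur hM ht) (Divisor.mem_degZero.1 D.2) hy hdiv
  rw [← sub_eq_zero]
  have h4 : t • (s • Pic0.mk D - Pic0.mk D) - (s • Pic0.mk D - Pic0.mk D) =
      Pic0.mk (SemilinearAut.degZeroSMulHom g' (SemilinearAut.degZeroSMulHom g D - D) -
        (SemilinearAut.degZeroSMulHom g D - D)) := rfl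
  rw [h4, Red.pic0_mk_eq_zero]
  exact hmain

end Level

variable {M q p : ℕ} [NeZero M] [NeZero q] [hqf : Fact q.Prime]

/-- **(A34), strong form** -/
theorem a34_strong (hM : ¬ q ∣ M) (hp : p.Prime) (hpq : p ≠ q)
    (A : ValuationSubring (AlgebraicClosure ℚ)) (hA : A.LiesOverPrime q)
    {s t : Γℚ} (hs : s ∈ A.inertiaSubgroupIn ℚ) (ht : t ∈ A.inertiaSubgroupIn ℚ)
    (x : JZero (M * q)) (hx : ∃ n : ℕ, p ^ n • x = 0) : t • (s • x - x) = s • x - x := by
  obtain ⟨n, hn⟩ := hx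
  have hπ := residue_eq_zero_iff' A
  have hsur : Function.Surjective (IsLocalRing.residue A) := IsLocalRing.residue_surjective
  haveI : CharP (IsLocalRing.ResidueField A) q := charP_of_liesOverPrime hA hπ
  haveI : IsAlgClosed (IsLocalRing.ResidueField A) := isAlgClosed_of_surjective hsur
  haveI : PerfectRing (IsLocalRing.ResidueField A) q := PerfectField.toPerfectRing q
  haveI := isFnField_fullC (k := IsLocalRing.ResidueField A) M q hM
  exact a34_strong_aux hA hπ hsur hM (cast_pow_ne_zero hp hpq n) hs ht x hn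

end Fermat.Agent.QComp
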