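import Fermat.Agent.QComp.GradedBasis
import Mathlib.RingTheory.Trace.Basic
import Mathlib.RingTheory.Coprime.Lemmas

/-!
# Connectedness of the special fibre
-/

set_option autoImplicit false
set_option linter.unusedSectionVars false
set_option linter.style.haveILetI false

open Polynomial IsLocalRing

namespace Fermat.Agent.QComp

attribute [local instance] isIntegrallyClosed_of_valuationRing

/-- `A` is a valuation ring of rank one with pseudo-uniformizer `c`. -/
structure IsRankOne (A : Type*) [CommRing A] [IsLocalRing A] (c : A) : Prop where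
  mem : c ∈ maximalIdeal A
  ne_zero : c ≠ 0
  dvd_pow : ∀ a : A, a ≠ 0 → ∃ n, a ∣ c ^ n
  pow_dvd : ∀ a ∈ maximalIdeal A, ∃ n, c ∣ a ^ n

/-- Newton iteration for idempotents. -/
theorem exists_idem_lift {R : Type*} [CommRing R] (e : R) (N : ℕ) :
    ∃ f α β : R, f ^ 2 - f = α * (e ^ 2 - e) ^ (N + 1) ∧ f - e = β * (e ^ 2 - e) := by
  have h : IsCoprime (e ^ (N + 1)) ((1 - e) ^ (N + 1)) :=
    IsCoprime.pow (⟨1, 1, by ring⟩ : IsCoprime e (1 - e))
  obtain ⟨a, b, hab⟩ := h
  refine ⟨a * e ^ (N + 1), (-1) ^ N * a * b, b * (1 - e) ^ N - a * e ^ N, ?_, ?_⟩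
  · have h1 : 1 - a * e ^ (N + 1) = b * (1 - e) ^ (N + 1) := by linear_combination -hab
    have h2 : (e ^ 2 - e) = (-1) * (e * (1 - e)) := by ring
    have h3 : (-1 : R) ^ N * (-1) ^ N = 1 := by
      rw [← mul_pow]; norm_num
    calc (a * e ^ (N + 1)) ^ 2 - a * e ^ (N + 1)
        = - ((a * e ^ (N + 1)) * (1 - a * e ^ (N + 1))) := by ring
      _ = - ((a * e ^ (N + 1)) * (b * (1 - e) ^ (N + 1))) := by rw [h1]
      _ = (-1) ^ N * a * b * (e ^ 2 - e) ^ (N + 1) := by
          rw [h2, mul_pow, mul_pow, pow_succ (-1 : R) N]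
          linear_combination (a * b * e ^ (N + 1) * (1 - e) ^ (N + 1)) * h3
  · linear_combination e * hab

section

variable {K E L : Type*} [Field K] [Field E] [Field L] [Algebra K E] [Algebra E L]
  [Algebra K L] [IsScalarTower K E L]
variable {A : Type*} [CommRing A] [IsDomain A] [ValuationRing A] [Algebra A K] [IsFractionRing A K]

theorem ev_map (t : E) (p : A[X]) : ev K K t (p.map (algebraMap A K)) = ev K A t p := by
  rw [ev_eq_aeval, ev_eq_aeval, Algebra.algebraMap_self, map_id]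

theorem IC_le_ICK (t : E) : IC K L A t ≤ IC K L K t := by
  rintro a ⟨p, hp, hpa⟩
  refine ⟨p.map (mapRingHom (algebraMap A K)), hp.map _, ?_⟩
  have h1 : (ev K K t).comp (mapRingHom (algebraMap A K)) = ev K A t :=
    RingHom.ext fun p => ev_map t p
  rw [eval₂_map, RingHom.comp_assoc, h1]
  exact hpa

theorem OverGauss.inv {x : L} {V : ValuationSubring L} (hx : x ≠ 0)
    (h : OverGauss K A x V) : OverGauss K A x⁻¹ V where
  mem_iff := h.mem_iff
  mem := by
    have := h.inv_mem X prim_X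
    rwa [ev_X] at this
  inv_mem u hu := by
    have h1 := ev_mul_inv_pow (R := A) (K := K) (inv_ne_zero hx) u le_rfl
    rw [inv_inv] at h1
    have h2 : Prim (u.reflect u.natDegree) := by
      obtain ⟨i, hi⟩ := hu
      refine ⟨revAt u.natDegree i, ?_⟩
      rwa [coeff_reflect, revAt_invol]
    have h3 := h.inv_mem _ h2
    rw [← h1, mul_inv] at h3
    have h4 := mul_mem h3 (pow_mem h.mem u.natDegree)
    rwa [mul_assoc, inv_mul_cancel₀ (pow_ne_zero _ hx), mul_one] at h4

theorem OverGauss.inv_iff {x : L} {V : ValuationSubring L} (hx : x ≠ 0) :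
    OverGauss K A x⁻¹ V ↔ OverGauss K A x V :=
  ⟨fun h => by simpa using h.inv (inv_ne_zero hx), fun h => h.inv hx⟩

/-- bound for the coordinates of integral elements -/
theorem exists_coord_bound [FiniteDimensional E L] [Algebra.IsSeparable E L] {t : E}
    (ht : IsGen K t) {ι : Type*} [Fintype ι] (B : Module.Basis ι E L) (i : ι) :
    ∃ w : A, w ≠ 0 ∧ ∀ g ∈ IC K L A t, ∀ P : K[X], B.repr g i = ev K K t P →
      ∃ Q : A[X], Q.map (algebraMap A K) = C (algebraMap A K w) * P := by
  classical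
  have hnd := traceForm_nondegenerate E L
  set β : L := ((Algebra.traceForm E L).toDual hnd).symm (B.coord i) with hβ
  have hβ' : ∀ g, Algebra.trace E L (β * g) = B.repr g i := by
    intro g
    have := LinearMap.BilinForm.apply_toDual_symm_apply (B := Algebra.traceForm E L) (hB := hnd)
      (B.coord i) g
    rw [← hβ, Algebra.traceForm_apply] at this
    exact this
  obtain ⟨p, hp, hpβ⟩ := exists_mul_mem_IC (R := A) ht β
  obtain ⟨w, hw, u, hu, rfl⟩ := exists_prim hp
  refine ⟨w, hw, fun g hg P hP => ?_⟩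
  have h1 := trace_mem ht (mul_mem hpβ hg)
  rw [mul_assoc, ← Algebra.smul_def, map_smul, hβ', hP, smul_eq_mul] at h1
  obtain ⟨q, hq⟩ := h1
  have h2 : u.map (algebraMap A K) * (C (algebraMap A K w) * P) = q.map (algebraMap A K) := by
    apply ev_injective K K ht.trans
    rw [map_mul, map_mul, ev_map, ev_map, hq, map_mul, ev_C, ev_C]
    simp only [Algebra.algebraMap_self, RingHom.id_apply]
    ring
  obtain ⟨r, hr⟩ := gauss_map hu h2
  exact ⟨r, hr.symm⟩

theorem exists_basis_bound [FiniteDimensional E L] {t : E} (ht : IsGen K t) (b : L) :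
    ∃ w : A, w ≠ 0 ∧ ∀ V : ValuationSubring L, OverGauss K A (algebraMap E L t) V →
      algebraMap E L (ev K A t (C w)) * b ∈ V := by
  obtain ⟨p, hp, hpb⟩ := exists_mul_mem_IC (R := A) ht b
  obtain ⟨w, hw, u, hu, rfl⟩ := exists_prim hp
  refine ⟨w, hw, fun V hV => ?_⟩
  have h1 := mul_mem (hV.inv_mem u hu) (hV.IC_le hpb)
  rw [← algebraMap_ev, map_mul, map_mul, ← mul_assoc, mul_comm (algebraMap E L _),
    ← mul_assoc] at h1
  have h0 : algebraMap E L (ev K A t u) ≠ 0 := by
    rw [Ne, map_eq_zero]; exact ev_prim_ne_zero ht hu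
  have h2 : algebraMap E L (ev K A t (C w)) * b = (algebraMap E L (ev K A t u))⁻¹ *
      (algebraMap E L (ev K A t (C w) * ev K A t u) * b) := by
    rw [map_mul]; field_simp
  rw [h2]
  have h3 := mul_mem (hV.inv_mem u hu) (hV.IC_le hpb)
  rwa [← algebraMap_ev, map_mul] at h3

variable (K L A) in
/-- `S[1/x]` -/
noncomputable def LX (t : E) : Subring L where
  carrier := {a | ∃ n : ℕ, (algebraMap E L t) ^ n * a ∈ IC K L A t}
  mul_mem' := by
    rintro a b ⟨n, hn⟩ ⟨m, hm⟩
    refine ⟨n + m, ?_⟩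
    rw [pow_add, mul_mul_mul_comm]
    exact mul_mem hn hm
  one_mem' := ⟨0, by rw [pow_zero, one_mul]; exact one_mem _⟩
  add_mem' := by
    rintro a b ⟨n, hn⟩ ⟨m, hm⟩
    refine ⟨n + m, ?_⟩
    have h1 := add_mem (mul_mem (pow_mem (algebraMap_t_mem (K := K) (L := L) (R := A) t) m) hn)
      (mul_mem (pow_mem (algebraMap_t_mem (K := K) (L := L) (R := A) t) n) hm)
    convert h1 using 1
    ring
  zero_mem' := ⟨0, by rw [mul_zero]; exact zero_mem _⟩
  neg_mem' := by
    rintro a ⟨n, hn⟩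
    refine ⟨n, ?_⟩
    rw [mul_neg]
    exact neg_mem hn

theorem mem_LX {t : E} {a : L} : a ∈ LX K L A t ↔ ∃ n : ℕ, (algebraMap E L t) ^ n * a ∈ IC K L A t :=
  Iff.rfl

theorem mem_LX_iff {t : E} {a : L} : a ∈ LX K L A t ↔
    ∃ n0 : ℕ, ∀ n ≥ n0, (algebraMap E L t) ^ n * a ∈ IC K L A t := by
  constructor
  · rintro ⟨n, hn⟩
    refine ⟨n, fun m hm => ?_⟩
    obtain ⟨k, rfl⟩ := Nat.exists_eq_add_of_le hm
    rw [pow_add, mul_comm (_ ^ n), mul_assoc]
    exact mul_mem (pow_mem (algebraMap_t_mem _) _) hn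
  · rintro ⟨n, hn⟩
    exact ⟨n, hn n le_rfl⟩

theorem IC_le_LX (t : E) : IC K L A t ≤ LX K L A t := fun a ha =>
  ⟨0, by rw [pow_zero, one_mul]; exact ha⟩

theorem inv_mem_LX {t : E} (h0 : t ≠ 0) : (algebraMap E L t)⁻¹ ∈ LX K L A t :=
  ⟨1, by
    rw [pow_one, mul_inv_cancel₀]
    · exact one_mem _
    · rwa [Ne, map_eq_zero]⟩

theorem IC_inv_le_LX [FiniteDimensional E L] {t : E} (ht : IsGen K t) :
    IC K L A t⁻¹ ≤ LX K L A t := by
  intro a ha
  obtain ⟨n0, hn0⟩ := exists_inv_pow_mul_mem ht.inv ha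
  exact ⟨n0, by simpa using hn0 n0 le_rfl⟩

/-- elements of `S[1/x]` in all the maximal ideals are nilpotent modulo `c`. -/
theorem exists_pow_LX [FiniteDimensional E L] {t : E} (ht : IsGen K t) {c : A}
    (hc : IsRankOne A c) {a : L} (ha : a ∈ LX K L A t)
    (h : ∀ V : ValuationSubring L, OverGauss K A (algebraMap E L t) V → a ∈ V.nonunits) :
    ∃ m : ℕ, ∃ y ∈ LX K L A t, a ^ m = algebraMap E L (ev K A t (C c)) * y := by
  obtain ⟨n, hn⟩ := ha
  have hx0 : algebraMap E L t ≠ 0 := by rw [Ne, map_eq_zero]; exact ht.ne_zero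
  obtain ⟨c1, hc1, m, hm, s, hs, h1⟩ := exists_pow_of_forall_nonunits ht hn (fun V hV => by
    have h2 := h V hV
    have h3 : (algebraMap E L t) ^ n ∈ V := pow_mem hV.mem n
    rw [ValuationSubring.mem_nonunits_iff] at h2 ⊢
    rw [map_mul, mul_comm]
    exact mul_lt_one_of_nonneg_of_lt_one_left zero_le h2 ((V.valuation_le_one_iff _).2 h3))
  obtain ⟨k, d, hk⟩ := hc.pow_dvd c1 hc1
  refine ⟨m * k, ((algebraMap E L t)⁻¹) ^ (n * m * k) * (algebraMap E L (ev K A t (C d)) * s ^ k),
    mul_mem (pow_mem (inv_mem_LX ht.ne_zero) _) (IC_le_LX t (mul_mem (ev_mem_IC t _)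
      (pow_mem hs k))), ?_⟩
  have h4 : (algebraMap E L t) ^ (n * m * k) * a ^ (m * k) =
      algebraMap E L (ev K A t (C c)) * (algebraMap E L (ev K A t (C d)) * s ^ k) := by
    have h5 : (algebraMap E L t) ^ (n * m * k) * a ^ (m * k) =
        (((algebraMap E L t) ^ n * a) ^ m) ^ k := by
      rw [← pow_mul, mul_pow, ← pow_mul, mul_assoc]
    rw [h5, h1, mul_pow, ← map_pow, ← map_pow, ← C_pow, hk, C_mul, map_mul, map_mul, mul_assoc]
  rw [mul_left_comm, ← h4, ← mul_assoc, ← mul_pow, inv_mul_cancel₀ hx0, one_pow, one_mul]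

theorem cube_trick {R : Type*} [CommRing R] {c D : R} {m M : ℕ} {y z : R} (h1 : D ^ m = c * y)
    (h2 : D ^ 3 - D = c ^ M * z) : c ^ M ∣ D := by
  have h3 : ∀ j : ℕ, c ^ M ∣ D ^ (3 ^ j) - D := by
    intro j
    induction j with
    | zero => simp
    | succ j ih =>
      have h4 : D ^ 3 ^ (j + 1) - D = (D ^ 3 ^ j - D) * ((D ^ 3 ^ j) ^ 2 + D ^ 3 ^ j * D + D ^ 2) +
          (D ^ 3 - D) := by
        rw [pow_succ 3 j, pow_mul]; ring
      rw [h4, h2]
      exact dvd_add (Dvd.dvd.mul_right ih _) (Dvd.intro _ rfl)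
  have h5 : m * M ≤ 3 ^ (m * M) := (Nat.lt_pow_self (by norm_num)).le
  have h6 : c ^ M ∣ D ^ 3 ^ (m * M) := by
    obtain ⟨k, hk⟩ := Nat.exists_eq_add_of_le h5
    rw [hk, pow_add, pow_mul, h1, mul_pow, mul_assoc]
    exact Dvd.intro _ rfl
  have h7 := dvd_sub h6 (h3 (m * M))
  rwa [sub_sub_cancel] at h7

theorem nonunits_mul_mem {L : Type*} [Field L] {V : ValuationSubring L} {a b : L}
    (ha : a ∈ V.nonunits) (hb : b ∈ V) : a * b ∈ V.nonunits := by
  rw [ValuationSubring.mem_nonunits_iff] at ha ⊢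
  rw [map_mul]
  exact mul_lt_one_of_nonneg_of_lt_one_left zero_le ha ((V.valuation_le_one_iff _).2 hb)

/-- the heart of the connectedness theorem: a function which is idempotent modulo the maximal ideal
and glues to a function near infinity is congruent to a constant. -/
theorem exists_const [FiniteDimensional E L] [Algebra.IsSeparable E L] {t : E} (ht : IsGen K t)
    (hK : ∀ a : L, IsIntegral K a → ∃ κ : K, algebraMap K L κ = a)
    {c : A} (hc : IsRankOne A c) {e e' : L} (he : e ∈ IC K L A t) (he' : e' ∈ IC K L A t⁻¹)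
    (h : ∀ V : ValuationSubring L, OverGauss K A (algebraMap E L t) V →
      e ^ 2 - e ∈ V.nonunits ∧ e' ^ 2 - e' ∈ V.nonunits ∧ e - e' ∈ V.nonunits) :
    ∃ κ : K, ∀ V : ValuationSubring L, OverGauss K A (algebraMap E L t) V →
      e - algebraMap K L κ ∈ V.nonunits := by
  classical
  obtain ⟨ι, _, B, d, hB0, hB⟩ := exists_graded_basis ht hK
  have ht0 := ht.ne_zero
  set x : L := algebraMap E L t with hx
  have hx0 : x ≠ 0 := by rw [hx, Ne, map_eq_zero]; exact ht0
  have hxinv : algebraMap E L t⁻¹ = x⁻¹ := by rw [map_inv₀]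
  set γ : L := algebraMap E L (ev K A t (C c)) with hγ
  -- the bounds
  choose w1 hw1 hw1' using fun i => exists_coord_bound (A := A) ht B i
  choose w2 hw2 hw2' using fun i => exists_basis_bound (A := A) ht (B i)
  choose M hM using fun i => hc.dvd_pow (w1 i * w2 i) (mul_ne_zero (hw1 i) (hw2 i))
  set M0 : ℕ := (Finset.univ.sup M) + 1 with hM0
  have hv : ∀ i, ∃ v : A, c ^ M0 = w1 i * (w2 i * (c * v)) := by
    intro i
    obtain ⟨v, hv⟩ := hM i
    have h1 : M i ≤ Finset.univ.sup M := Finset.le_sup (Finset.mem_univ i)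
    obtain ⟨k, hk⟩ := Nat.exists_eq_add_of_le h1
    refine ⟨v * c ^ k, ?_⟩
    rw [hM0, hk, pow_succ, pow_add, hv]
    ring
  choose v hv using hv
  -- improve the idempotents
  have hS : ∀ (t' : E) (_ : IsGen K t') (_ : ∀ V : ValuationSubring L,
      OverGauss K A (algebraMap E L t') V ↔ OverGauss K A x V) (e : L) (_ : e ∈ IC K L A t')
      (_ : ∀ V : ValuationSubring L, OverGauss K A x V → e ^ 2 - e ∈ V.nonunits),
      ∃ f ∈ IC K L A t', ∃ α ∈ IC K L A t', f ^ 2 - f = γ ^ M0 * α ∧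
      ∀ V : ValuationSubring L, OverGauss K A x V → f - e ∈ V.nonunits := by
    intro t' ht' hV' e he h
    have h1 : e ^ 2 - e ∈ IC K L A t' := sub_mem (pow_mem he 2) he
    obtain ⟨c1, hc1, m, hm, s, hs, h2⟩ := exists_pow_of_forall_nonunits ht' h1
      (fun V hV => h V ((hV' V).1 hV))
    obtain ⟨k, c2, hk⟩ := hc.pow_dvd c1 hc1
    have hγ' : algebraMap E L (ev K A t' (C c)) = γ := by rw [hγ, ev_C, ev_C]
    have h3 : (e ^ 2 - e) ^ (m * k) = γ * (algebraMap E L (ev K A t' (C c2)) * s ^ k) := by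
      rw [pow_mul, h2, mul_pow, ← map_pow, ← map_pow, ← C_pow, hk, C_mul, map_mul, map_mul, hγ',
        mul_assoc]
    set s1 := algebraMap E L (ev K A t' (C c2)) * s ^ k with hs1
    have hs1m : s1 ∈ IC K L A t' := mul_mem (ev_mem_IC t' _) (pow_mem hs k)
    obtain ⟨f, α, β, hf1, hf2⟩ := exists_idem_lift (⟨e, he⟩ : IC K L A t') (m * k * M0)
    have hf1' := congrArg (Subtype.val) hf1
    have hf2' := congrArg (Subtype.val) hf2
    push_cast at hf1' hf2'
    refine ⟨f, f.2, (α : L) * (s1 ^ M0 * (e ^ 2 - e)), mul_mem α.2 (mul_mem (pow_mem hs1m _) h1),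
      ?_, ?_⟩
    · rw [hf1', pow_succ, pow_mul, h3, mul_pow]
      ring
    · intro V hV
      rw [hf2', mul_comm]
      exact nonunits_mul_mem (h V hV) (((hV' V).2 hV).IC_le β.2)
  obtain ⟨f, hf, α, hα, hfα, hfe⟩ := hS t ht (fun V => Iff.rfl) e he (fun V hV => (h V hV).1)
  obtain ⟨f', hf', α', hα', hfα', hfe'⟩ := hS t⁻¹ ht.inv
    (fun V => by rw [hxinv]; exact OverGauss.inv_iff hx0) e' he' (fun V hV => (h V hV).2.1)
  have hfX := IC_le_LX t hf
  have hfX' := IC_inv_le_LX ht hf'
  have hαX := IC_le_LX t hα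
  have hαX' := IC_inv_le_LX ht hα'
  have hDX : f - f' ∈ LX K L A t := sub_mem hfX hfX'
  have hγX : γ ∈ LX K L A t := IC_le_LX t (ev_mem_IC t _)
  obtain ⟨m, y, hy, hDm⟩ := exists_pow_LX ht hc hDX (fun V hV => by
    have h1 := sub_mem (add_mem (hfe V hV) (h V hV).2.2) (hfe' V hV)
    convert h1 using 1
    ring)
  have hcube : (f - f') ^ 3 - (f - f') = γ ^ M0 *
      (α + α * f - 3 * (α * f') + 3 * (α' * f) - α' - α' * f') := by
    linear_combination (f + 1 - 3 * f') * hfα + (3 * f - f' - 1) * hfα'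
  have h3X : (3 : L) ∈ LX K L A t := ofNat_mem _ 3
  have hzX : α + α * f - 3 * (α * f') + 3 * (α' * f) - α' - α' * f' ∈ LX K L A t :=
    sub_mem (sub_mem (add_mem (sub_mem (add_mem hαX (mul_mem hαX hfX))
      (mul_mem h3X (mul_mem hαX hfX'))) (mul_mem h3X (mul_mem hαX' hfX))) hαX') (mul_mem hαX' hfX')
  obtain ⟨g1, hg1⟩ := cube_trick (R := LX K L A t) (c := ⟨γ, hγX⟩) (D := ⟨f - f', hDX⟩)
    (y := ⟨y, hy⟩) (z := ⟨_, hzX⟩) (m := m) (M := M0) (Subtype.ext hDm) (Subtype.ext hcube)
  have hg1' : f - f' = γ ^ M0 * (g1 : L) := congrArg Subtype.val hg1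
  obtain ⟨n1, hn1⟩ := mem_LX_iff.1 g1.2
  obtain ⟨n2, hn2⟩ := exists_mem_Vm ht (IC_le_ICK t hf)
  obtain ⟨n3, hn3⟩ := exists_pow_mul_mem_Vm ht (IC_le_ICK t⁻¹ hf')
  set n := max n1 n3 with hn
  have hG := hn1 n (le_max_left _ _)
  obtain ⟨n4, hn4⟩ := exists_mem_Vm ht (IC_le_ICK t hG)
  choose p hp hp' using hB n2 f (hn2 n2 le_rfl)
  choose r hr hr' using hB n _ (hn3 n (le_max_right _ _))
  choose P hP hP' using hB n4 _ (hn4 n4 le_rfl)
  choose Q hQ using fun i => hw1' i _ hG (P i) (hP i)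
  have heq : ∀ i, X ^ n * p i - r i = C (algebraMap A K (c ^ M0)) * P i := by
    intro i
    apply ev_injective K K ht.trans
    have h5 : ev K K t (C (algebraMap A K (c ^ M0))) = ev K A t (C c) ^ M0 := by
      rw [ev_C, ev_C, ← map_pow, ← map_pow]
      rfl
    rw [map_sub, map_mul, map_pow, ev_X, map_mul, ← hp, ← hr, ← hP, h5]
    have h1 : x ^ n * f - x ^ n * f' = γ ^ M0 * (x ^ n * (g1 : L)) := by
      rw [← mul_sub, hg1']; ring
    have h2 := congrArg (fun z => B.repr z i) h1
    simp only [map_sub, Finsupp.sub_apply] at h2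
    have h3 : x ^ n * f = (t ^ n) • f := by rw [Algebra.smul_def, map_pow]
    have h4 : γ ^ M0 * (x ^ n * (g1 : L)) = (ev K A t (C c) ^ M0) • (x ^ n * (g1 : L)) := by
      rw [Algebra.smul_def, map_pow]
    rw [h3, h4, map_smul, map_smul, Finsupp.smul_apply, Finsupp.smul_apply, smul_eq_mul,
      smul_eq_mul] at h2
    exact h2
  have hcoef : ∀ i k, (p i).coeff k = (if k = 0 then (r i).coeff n else 0) +
      algebraMap A K (w2 i * (c * v i)) * algebraMap A K ((Q i).coeff (n + k)) := by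
    intro i k
    have h1 := congrArg (fun z => (C (algebraMap A K (w1 i)) * z).coeff (n + k)) (heq i)
    have h2 : C (algebraMap A K (w1 i)) * (C (algebraMap A K (c ^ M0)) * P i) =
        C (algebraMap A K (c ^ M0)) * (Q i).map (algebraMap A K) := by rw [hQ]; ring
    rw [h2, coeff_C_mul, coeff_C_mul, coeff_sub, coeff_map, add_comm n k, coeff_X_pow_mul,
      add_comm k n, hv i, map_mul, mul_assoc] at h1
    have hw : algebraMap A K (w1 i) ≠ 0 :=
      (map_ne_zero_iff _ (IsFractionRing.injective A K)).2 (hw1 i)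
    have h3 := mul_left_cancel₀ hw h1
    rw [sub_eq_iff_eq_add] at h3
    rw [h3, add_comm]
    congr 1
    split_ifs with hk
    · rw [hk, add_zero]
    · by_contra hne
      have := hr' i _ hne
      omega
  let Q' : ι → A[X] := fun i => ∑ k ∈ Finset.range ((Q i).natDegree + 1),
    monomial k ((Q i).coeff (n + k))
  have hQ' : ∀ i k, (Q' i).coeff k = (Q i).coeff (n + k) := by
    intro i k
    simp only [Q', finsetSum_coeff, coeff_monomial]
    rw [Finset.sum_ite_eq']
    split_ifs with hk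
    · rfl
    · rw [Finset.mem_range, not_lt] at hk
      rw [coeff_eq_zero_of_natDegree_lt (by omega)]
  have hpQ : ∀ i, p i = C ((r i).coeff n) + (C (w2 i * (c * v i)) * Q' i).map (algebraMap A K) := by
    intro i
    ext k
    rw [hcoef, coeff_add, coeff_C, coeff_map, coeff_C_mul, hQ', ← map_mul (algebraMap A K)]
  have hκ : ∀ i, ∃ κ : K, algebraMap K L κ = algebraMap K L ((r i).coeff n) * B i := by
    intro i
    by_cases h0 : (r i).coeff n = 0
    · exact ⟨0, by rw [h0, map_zero, zero_mul]⟩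
    · have := hr' i _ h0
      obtain ⟨κ, hκ⟩ := hB0 i (by omega)
      exact ⟨(r i).coeff n * κ, by rw [map_mul, hκ]⟩
  choose κ hκ using hκ
  refine ⟨∑ i, κ i, fun V hV => ?_⟩
  have hfsum : f - algebraMap K L (∑ i, κ i) =
      ∑ i, algebraMap E L (ev K A t (C c)) *
        (algebraMap E L (ev K A t (C (v i) * Q' i)) * (algebraMap E L (ev K A t (C (w2 i))) * B i)) := by
    have h1 : f = ∑ i, algebraMap E L (ev K K t (p i)) * B i := by
      conv_lhs => rw [← B.sum_repr f]
      refine Finset.sum_congr rfl fun i _ => ?_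
      rw [Algebra.smul_def, hp]
    rw [h1, map_sum, ← Finset.sum_sub_distrib]
    refine Finset.sum_congr rfl fun i _ => ?_
    rw [hκ, hpQ, map_add, ev_C, ev_map, map_add, ← IsScalarTower.algebraMap_apply]
    simp only [map_mul, Algebra.algebraMap_self, RingHom.id_apply]
    ring
  have h1 : f - algebraMap K L (∑ i, κ i) ∈ V.nonunits := by
    rw [hfsum]
    refine sum_mem fun i _ => ?_
    refine nonunits_mul_mem ?_ (mul_mem (hV.IC_le (ev_mem_IC t _)) (hw2' i V hV))
    rw [ev_C, ← IsScalarTower.algebraMap_apply, hV.nonunits_iff]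
    exact hc.mem
  have h2 := sub_mem h1 (hfe V hV)
  convert h2 using 1
  ring

/-- `V` passes through the prime `P` of the integral closure of `A[t]`. -/
def Thru (V : ValuationSubring L) (S : Subring L) (P : Ideal S) : Prop :=
  ∀ a : S, (a : L) ∈ V.nonunits → a ∈ P

/-- separation of components by a function -/
theorem exists_sep [FiniteDimensional E L] {t : E} (ht : IsGen K t)
    (p : ValuationSubring L → Prop)
    (h : ∀ V V', OverGauss K A (algebraMap E L t) V → OverGauss K A (algebraMap E L t) V' →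
      p V → ¬ p V' → ∀ P : Ideal (IC K L A t), P.IsMaximal → Thru V (IC K L A t) P →
      Thru V' (IC K L A t) P → False) :
    ∃ e ∈ IC K L A t, ∀ V : ValuationSubring L, OverGauss K A (algebraMap E L t) V →
      (p V → 1 - e ∈ V.nonunits) ∧ (¬ p V → e ∈ V.nonunits) := by
  classical
  have hfin : ∀ r : ValuationSubring L → Prop, {P : Ideal (BG K L A t) |
      ∃ V : ValuationSubring L, ∃ hV : OverGauss K A (algebraMap E L t) V, r V ∧
        P = ctr K A t V (hV.BG_le ht)}.Finite := by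
    intro r
    refine (finite_maximal (K := K) (L := L) (A := A) ht).subset ?_
    rintro P ⟨V, hV, -, rfl⟩
    exact isMaximal_ctr ht hV _
  have key : ∀ r : ValuationSubring L → Prop, ∃ I : Ideal (IC K L A t),
      (∀ V, OverGauss K A (algebraMap E L t) V → r V → ∀ a ∈ I, (a : L) ∈ V.nonunits) ∧
      (∀ P : Ideal (IC K L A t), P.IsPrime → I ≤ P → ∃ V, OverGauss K A (algebraMap E L t) V ∧
        r V ∧ Thru V (IC K L A t) P) := by
    intro r
    let inc : IC K L A t →+* BG K L A t := Subring.inclusion (IC_le_BG t)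
    refine ⟨(hfin r).toFinset.inf fun P => P.comap inc, ?_, ?_⟩
    · intro V hV hr a ha
      have h1 : a ∈ (ctr K A t V (hV.BG_le ht)).comap inc := by
        have h2 : (hfin r).toFinset.inf (fun P => P.comap inc) ≤
            (ctr K A t V (hV.BG_le ht)).comap inc :=
          Finset.inf_le (f := fun P : Ideal (BG K L A t) => P.comap inc)
            ((hfin r).mem_toFinset.2 ⟨V, hV, hr, rfl⟩)
        exact h2 ha
      rw [Ideal.mem_comap, mem_ctr] at h1
      exact h1
    · intro P hP hI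
      rw [hP.inf_le'] at hI
      obtain ⟨Q, hQ, hQP⟩ := hI
      rw [Set.Finite.mem_toFinset] at hQ
      obtain ⟨V, hV, hr, rfl⟩ := hQ
      refine ⟨V, hV, hr, fun a ha => hQP ?_⟩
      rw [Ideal.mem_comap, mem_ctr]
      exact ha
  obtain ⟨I1, h1, h1'⟩ := key p
  obtain ⟨I2, h2, h2'⟩ := key fun V => ¬ p V
  have htop : I1 ⊔ I2 = ⊤ := by
    by_contra hne
    obtain ⟨M, hM, hle⟩ := Ideal.exists_le_maximal _ hne
    obtain ⟨V, hV, hpV, hVM⟩ := h1' M hM.isPrime (le_sup_left.trans hle)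
    obtain ⟨V', hV', hpV', hVM'⟩ := h2' M hM.isPrime (le_sup_right.trans hle)
    exact h V V' hV hV' hpV hpV' M hM hVM hVM'
  obtain ⟨i1, hi1, i2, hi2, h12⟩ := Submodule.mem_sup.1 ((Ideal.eq_top_iff_one _).1 htop)
  have h12' : (i1 : L) + (i2 : L) = 1 := congrArg Subtype.val h12
  refine ⟨i2, i2.2, fun V hV => ⟨fun hp => ?_, fun hp => h2 V hV hp i2 hi2⟩⟩
  rw [← h12', add_sub_cancel_right]
  exact h1 V hV hp i1 hi1

/-- **Connectedness of the special fibre**: a function of the components which takes the same value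
on components meeting in a point is constant. -/
theorem connected [FiniteDimensional E L] [Algebra.IsSeparable E L] {t : E} (ht : IsGen K t)
    (hK : ∀ a : L, IsIntegral K a → ∃ κ : K, algebraMap K L κ = a)
    {ϖ : A} (hϖ : IsRankOne A ϖ) {α : Type*} (c : ValuationSubring L → α)
    (h0 : ∀ V V', OverGauss K A (algebraMap E L t) V → OverGauss K A (algebraMap E L t) V' →
      ∀ P : Ideal (IC K L A t), P.IsMaximal → Thru V (IC K L A t) P →
      Thru V' (IC K L A t) P → c V = c V')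
    (hinf : ∀ V V', OverGauss K A (algebraMap E L t) V → OverGauss K A (algebraMap E L t) V' →
      ∀ P : Ideal (IC K L A t⁻¹), P.IsMaximal → Thru V (IC K L A t⁻¹) P →
      Thru V' (IC K L A t⁻¹) P → c V = c V')
    (V V' : ValuationSubring L) (hV : OverGauss K A (algebraMap E L t) V)
    (hV' : OverGauss K A (algebraMap E L t) V') : c V = c V' := by
  classical
  by_contra hne
  have hx0 : algebraMap E L t ≠ 0 := by rw [Ne, map_eq_zero]; exact ht.ne_zero
  have hiff : ∀ W : ValuationSubring L, OverGauss K A (algebraMap E L t⁻¹) W ↔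
      OverGauss K A (algebraMap E L t) W := fun W => by
    rw [map_inv₀]; exact OverGauss.inv_iff hx0
  obtain ⟨e, he, h1⟩ := exists_sep (K := K) (A := A) ht (fun W => c W = c V)
    (fun W W' hW hW' hp hp' P hP h2 h3 => hp' ((h0 W W' hW hW' P hP h2 h3).symm.trans hp))
  obtain ⟨e', he', h1'⟩ := exists_sep (K := K) (A := A) ht.inv (fun W => c W = c V)
    (fun W W' hW hW' hp hp' P hP h2 h3 => hp' ((hinf W W' ((hiff W).1 hW) ((hiff W').1 hW') P hP
      h2 h3).symm.trans hp))
  have hval : ∀ W : ValuationSubring L, OverGauss K A (algebraMap E L t) W →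
      ∀ a ∈ W, (1 - a ∈ W.nonunits ∨ a ∈ W.nonunits) → a ^ 2 - a ∈ W.nonunits := by
    intro W hW a ha h
    rcases h with h | h
    · have := neg_mem (nonunits_mul_mem h ha)
      convert this using 1
      ring
    · have h3 : a - 1 ∈ W := sub_mem ha (one_mem _)
      have := nonunits_mul_mem h h3
      convert this using 1
      ring
  obtain ⟨κ, hκ⟩ := exists_const ht hK hϖ he he' (fun W hW => by
    have hW' := (hiff W).2 hW
    by_cases hp : c W = c V
    · have h2 := (h1 W hW).1 hp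
      have h3 := (h1' W hW').1 hp
      refine ⟨hval W hW e (hW.IC_le he) (Or.inl h2), hval W hW e' (hW'.IC_le he') (Or.inl h3), ?_⟩
      have := sub_mem h3 h2
      convert this using 1
      ring
    · have h2 := (h1 W hW).2 hp
      have h3 := (h1' W hW').2 hp
      exact ⟨hval W hW e (hW.IC_le he) (Or.inr h2), hval W hW e' (hW'.IC_le he') (Or.inr h3),
        sub_mem h2 h3⟩)
  have h2 : 1 - algebraMap K L κ ∈ V.nonunits := by
    have := add_mem ((h1 V hV).1 rfl) (hκ V hV)
    convert this using 1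
    ring
  have h3 : algebraMap K L κ ∈ V'.nonunits := by
    have := sub_mem ((h1 V' hV').2 (fun h => hne h.symm)) (hκ V' hV')
    convert this using 1
    ring
  obtain ⟨a, ha⟩ := (hV'.mem_iff κ).1 (ValuationSubring.nonunits_subset h3)
  rw [← ha, hV'.nonunits_iff, ← hV.nonunits_iff, ha] at h3
  have h4 := add_mem h2 h3
  rw [sub_add_cancel, ValuationSubring.mem_nonunits_iff, map_one] at h4
  exact lt_irrefl _ h4

end

end Fermat.Agent.QComp
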