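import Fermat.Agent.QComp.UFD
import Fermat.Agent.QComp.Connected
import Mathlib.RingTheory.Localization.Submodule

/-!
# The local ring of a normal arithmetic surface: factoriality and `n`-th powers
-/

set_option autoImplicit false
set_option linter.unusedSectionVars false
set_option linter.style.haveILetI false

open IsLocalRing

namespace Fermat.Agent.QComp

section Loc

variable {L : Type*} [Field L] (S : Subring L) (P : Ideal S) [hP : P.IsPrime]

/-- the local ring at `P` as a subring of `L`. -/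
noncomputable def LB : Subring L := (LocalSubring.ofPrime S P).toSubring

noncomputable instance : Algebra S (LB S P) :=
  inferInstanceAs (Algebra S (LocalSubring.ofPrime S P).toSubring)

instance : IsLocalization.AtPrime (LB S P) P :=
  inferInstanceAs (IsLocalization.AtPrime (LocalSubring.ofPrime S P).toSubring P)

instance : IsLocalRing (LB S P) :=
  inferInstanceAs (IsLocalRing (LocalSubring.ofPrime S P).toSubring)

instance [IsNoetherianRing S] : IsNoetherianRing (LB S P) :=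
  IsLocalization.isNoetherianRing P.primeCompl _ inferInstance

variable {S P}

@[simp] theorem coe_algebraMap_LB (b : S) : ((algebraMap S (LB S P) b : LB S P) : L) = b := rfl

theorem ne_zero_of_notMem {s : S} (hs : s ∉ P) : (s : L) ≠ 0 := by
  intro h
  apply hs
  have : s = 0 := Subtype.ext h
  rw [this]
  exact zero_mem _

theorem mem_LB {z : L} : z ∈ LB S P ↔ ∃ b s : S, s ∉ P ∧ z = b / s := by
  constructor
  · intro hz
    obtain ⟨b, s, h⟩ := IsLocalization.exists_mk'_eq P.primeCompl (⟨z, hz⟩ : LB S P)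
    refine ⟨b, s, s.2, ?_⟩
    have h1 := IsLocalization.mk'_spec (LB S P) b s
    rw [h] at h1
    have h2 : z * ((s : S) : L) = b := congrArg Subtype.val h1
    rw [← h2, mul_div_cancel_right₀ _ (ne_zero_of_notMem s.2)]
  · rintro ⟨b, s, hs, rfl⟩
    have h1 : IsUnit (algebraMap S (LB S P) s) :=
      IsLocalization.map_units (LB S P) (⟨s, hs⟩ : P.primeCompl)
    obtain ⟨t, ht⟩ := h1.exists_right_inv
    have h2 : (s : L) * (t : L) = 1 := congrArg Subtype.val ht
    rw [div_eq_mul_inv, inv_eq_of_mul_eq_one_right h2]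
    exact mul_mem (algebraMap S (LB S P) b).2 t.2

theorem coe_mem_LB (b : S) : (b : L) ∈ LB S P := (algebraMap S (LB S P) b).2

theorem div_mem_LB {b s : S} (hs : s ∉ P) : (b : L) / s ∈ LB S P := mem_LB.2 ⟨b, s, hs, rfl⟩

theorem isUnit_LB_iff {z : LB S P} : IsUnit z ↔ ∃ b s : S, b ∉ P ∧ s ∉ P ∧ (z : L) = b / s := by
  constructor
  · intro hz
    obtain ⟨b, s, hs, hbs⟩ := mem_LB.1 z.2
    refine ⟨b, s, fun hb => ?_, hs, hbs⟩
    obtain ⟨w, hw⟩ := hz.exists_right_inv
    obtain ⟨b', s', hs', hbs'⟩ := mem_LB.1 w.2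
    have h1 : (z : L) * (w : L) = 1 := congrArg Subtype.val hw
    have hs0 := ne_zero_of_notMem hs
    have hs0' := ne_zero_of_notMem hs'
    rw [hbs, hbs'] at h1
    field_simp at h1
    have h2 : b * b' = s * s' := Subtype.ext (by push_cast; exact h1)
    have h3 : s * s' ∈ P := h2 ▸ Ideal.mul_mem_right _ _ hb
    rcases hP.mem_or_mem h3 with h | h
    · exact hs h
    · exact hs' h
  · rintro ⟨b, s, hb, hs, hz⟩
    refine IsUnit.of_mul_eq_one ⟨(s : L) / b, div_mem_LB hb⟩ (Subtype.ext ?_)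
    have hs0 := ne_zero_of_notMem hs
    have hb0 := ne_zero_of_notMem hb
    push_cast
    rw [hz]
    field_simp

/-- the extension of a residue map to the local ring -/
theorem exists_red {κ : Type*} [Field κ] (ρ : S →+* κ) (hρ : ∀ s : S, s ∉ P → ρ s ≠ 0) :
    ∃ ρ' : LB S P →+* κ, ∀ b s : S, s ∉ P → ∀ z : LB S P, (z : L) = b / s →
      ρ' z = ρ b / ρ s := by
  refine ⟨IsLocalization.lift (M := P.primeCompl) (g := ρ)
    (fun s => (isUnit_iff_ne_zero.2 (hρ s s.2))), fun b s hs z hz => ?_⟩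
  have h1 : z = IsLocalization.mk' (LB S P) b (⟨s, hs⟩ : P.primeCompl) := by
    rw [IsLocalization.eq_mk'_iff_mul_eq]
    apply Subtype.ext
    change (z : L) * (s : L) = b
    rw [hz, div_mul_cancel₀ _ (ne_zero_of_notMem hs)]
  rw [h1, IsLocalization.lift_mk', Units.mul_inv_eq_iff_eq_mul, div_mul_eq_mul_div,
    eq_div_iff (hρ s hs)]
  rfl

theorem LB_le {V : ValuationSubring L} (hSV : S ≤ V.toSubring) (hV : Thru V S P) :
    LB S P ≤ V.toSubring := by
  intro z hz
  obtain ⟨b, s, hs, rfl⟩ := mem_LB.1 hz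
  have h1 : (s : L) ∉ V.nonunits := fun h => hs (hV s h)
  rw [ValuationSubring.mem_nonunits_iff_or] at h1
  push Not at h1
  rw [div_eq_mul_inv]
  exact mul_mem (hSV b.2) h1.2

theorem nonunits_of_mul_left {V : ValuationSubring L} {a b : L} (ha : a ∈ V.nonunits) (hb : b ∈ V) :
    b * a ∈ V.nonunits := by
  rw [mul_comm]; exact nonunits_mul_mem ha hb

theorem one_notMem_nonunits {V : ValuationSubring L} : (1 : L) ∉ V.nonunits := by
  rw [ValuationSubring.mem_nonunits_iff, map_one]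
  exact lt_irrefl _

theorem inv_mem_of_notMem_nonunits {V : ValuationSubring L} {a : L} (h : a ∉ V.nonunits) :
    a⁻¹ ∈ V := by
  rw [ValuationSubring.mem_nonunits_iff_or] at h
  push Not at h
  exact h.2

theorem notMem_nonunits_iff {V : ValuationSubring L} {a : L} :
    a ∉ V.nonunits ↔ a ≠ 0 ∧ a⁻¹ ∈ V := by
  rw [ValuationSubring.mem_nonunits_iff_or]
  push Not
  rfl

/-- the system of local equations of the components of the special fibre at `P`. -/
structure LocSys {ι : Type*} [Fintype ι] (S : Subring L) (P : Ideal S) (V : ι → ValuationSubring L)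
    (ϖ : S) (a : ι → S) (e : ι → ℕ) (η : S) : Prop where
  le : ∀ c, S ≤ (V c).toSubring
  mem : ∀ c, (a c : L) ∈ (V c).nonunits
  ne_zero : ∀ c, a c ≠ 0
  unit : η ∉ P
  prod : ∏ c, a c ^ e c = ϖ * η
  dvd : ∀ c, ∀ b : S, (b : L) ∈ (V c).nonunits → ∃ y : S, a c * y = b * η

namespace LocSys

variable {ι : Type*} [Fintype ι] {V : ι → ValuationSubring L} {ϖ : S} {a : ι → S} {e : ι → ℕ}
  {η : S} (H : LocSys S P V ϖ a e η)

include H

theorem dvd_iff {c : ι} (hc : Thru (V c) S P) (b : LB S P) :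
    algebraMap S (LB S P) (a c) ∣ b ↔ (b : L) ∈ (V c).nonunits := by
  constructor
  · rintro ⟨y, rfl⟩
    exact nonunits_mul_mem (H.mem c) (LB_le (H.le c) hc y.2)
  · intro hb
    obtain ⟨x, s, hs, hxs⟩ := mem_LB.1 b.2
    have hs0 := ne_zero_of_notMem hs
    have hx : (x : L) ∈ (V c).nonunits := by
      have h1 : (x : L) = b * s := by rw [hxs, div_mul_cancel₀ _ hs0]
      rw [h1]
      exact nonunits_mul_mem hb (H.le c s.2)
    obtain ⟨y, hy⟩ := H.dvd c x hx
    have hη0 := ne_zero_of_notMem H.unit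
    have hsη : s * η ∉ P := fun h => (hP.mem_or_mem h).elim hs H.unit
    refine ⟨⟨(y : L) / ((s * η : S) : L), div_mem_LB hsη⟩, Subtype.ext ?_⟩
    change (b : L) = (a c : L) * ((y : L) / ((s * η : S) : L))
    have hy' : (a c : L) * y = x * η := congrArg Subtype.val hy
    rw [← mul_div_assoc, hy', hxs]
    push_cast
    field_simp

theorem isUnit_of_not_thru {c : ι} (hc : ¬ Thru (V c) S P) :
    IsUnit (algebraMap S (LB S P) (a c)) := by
  unfold Thru at hc
  push Not at hc
  obtain ⟨b, hb, hbP⟩ := hc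
  obtain ⟨y, hy⟩ := H.dvd c b hb
  have h1 : IsUnit (algebraMap S (LB S P) (b * η)) :=
    IsLocalization.map_units (LB S P) (⟨b * η, fun h => (hP.mem_or_mem h).elim hbP H.unit⟩ :
      P.primeCompl)
  rw [← hy, map_mul] at h1
  exact isUnit_of_mul_isUnit_left h1

theorem prime {c : ι} (hc : Thru (V c) S P) : Prime (algebraMap S (LB S P) (a c)) := by
  refine ⟨fun h => H.ne_zero c ?_, fun hu => ?_, fun x y hxy => ?_⟩
  · have h' : ((algebraMap S (LB S P) (a c) : LB S P) : L) = ((0 : LB S P) : L) :=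
      congrArg Subtype.val h
    exact Subtype.ext h'
  · have h1 := hu.dvd (a := (1 : LB S P))
    rw [H.dvd_iff hc] at h1
    exact one_notMem_nonunits h1
  · rw [H.dvd_iff hc] at hxy ⊢
    rw [H.dvd_iff hc]
    by_contra hcon
    push Not at hcon
    obtain ⟨h1, h2⟩ := hcon
    have h1' := notMem_nonunits_iff.1 h1
    have h2' := notMem_nonunits_iff.1 h2
    have h3 : ((x * y : LB S P) : L) ∉ (V c).nonunits := by
      rw [notMem_nonunits_iff]
      push_cast
      exact ⟨mul_ne_zero h1'.1 h2'.1, by rw [mul_inv]; exact mul_mem h1'.2 h2'.2⟩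
    exact h3 hxy

/-- the local ring is factorial. -/
theorem ufd [IsNoetherianRing S] {c : ι} (hc : Thru (V c) S P) {κ : Type*} [Field κ]
    (ρ : S →+* κ) (hρ : ∀ b : S, ρ b = 0 ↔ (b : L) ∈ (V c).nonunits)
    (hres : ∀ b b' : S, ∃ x s : S, s ∉ P ∧ (ρ (s * b) = ρ (x * b') ∨ ρ (s * b') = ρ (x * b))) :
    UniqueFactorizationMonoid (LB S P) := by
  have hρs : ∀ s : S, s ∉ P → ρ s ≠ 0 := fun s hs h => hs (hc s ((hρ s).1 h))
  obtain ⟨ρ', hρ'⟩ := exists_red (S := S) (P := P) ρ hρs
  refine ufd_of_red ρ' (a := algebraMap S (LB S P) (a c)) (H.prime hc).ne_zero (fun z => ?_)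
    (fun z z' => ?_)
  · rw [H.dvd_iff hc]
    obtain ⟨b, s, hs, hbs⟩ := mem_LB.1 z.2
    rw [hρ' b s hs z hbs, div_eq_zero_iff, or_iff_left (hρs s hs), hρ]
    have hs0 := ne_zero_of_notMem hs
    have hs' : (s : L) ∉ (V c).nonunits := fun h => hs (hc s h)
    constructor
    · intro h
      rw [hbs, div_eq_mul_inv]
      exact nonunits_mul_mem h (inv_mem_of_notMem_nonunits hs')
    · intro h
      have h1 : (b : L) = z * s := by rw [hbs, div_mul_cancel₀ _ hs0]
      rw [h1]
      exact nonunits_mul_mem h (H.le c s.2)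
  · obtain ⟨b, s, hs, hbs⟩ := mem_LB.1 z.2
    obtain ⟨b', s', hs', hbs'⟩ := mem_LB.1 z'.2
    have hs0 := ne_zero_of_notMem hs
    have hs0' := ne_zero_of_notMem hs'
    have key : ∀ b b' s s' : S, s ∉ P → s' ∉ P → ∀ z z' : LB S P, (z : L) = b / s →
        (z' : L) = b' / s' → ∀ x t : S, t ∉ P → ρ (t * b) = ρ (x * b') → ∃ w, ρ' z = ρ' (w * z') := by
      intro b b' s s' hs hs' z z' hbs hbs' x t ht hx
      have hs0 := ne_zero_of_notMem hs
      have hs0' := ne_zero_of_notMem hs'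
      have ht0 := ne_zero_of_notMem ht
      have hts : t * s ∉ P := fun h => (hP.mem_or_mem h).elim ht hs
      have htss : t * s * s' ∉ P := fun h => (hP.mem_or_mem h).elim hts hs'
      refine ⟨⟨((x * s' : S) : L) / ((t * s : S) : L), div_mem_LB hts⟩, ?_⟩
      rw [hρ' b s hs z hbs, hρ' (x * s' * b') (t * s * s') htss _ ?_]
      · rw [div_eq_div_iff (hρs s hs) (hρs _ htss)]
        rw [map_mul, map_mul] at hx
        simp only [map_mul]
        linear_combination (ρ s * ρ s') * hx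
      · change ((x * s' : S) : L) / ((t * s : S) : L) * (z' : L) = _
        rw [hbs']
        push_cast
        field_simp
    obtain ⟨x, t, ht, hx | hx⟩ := hres b b'
    · left
      exact key b b' s s' hs hs' z z' hbs hbs' x t ht hx
    · right
      exact key b' b s' s hs' hs z' z hbs' hbs x t ht hx

/-- the prime elements dividing `ϖ` are the local equations of the components -/
theorem associated_of_dvd {p : LB S P} (hp : Prime p) (h : p ∣ algebraMap S (LB S P) ϖ) :
    ∃ c, Thru (V c) S P ∧ Associated p (algebraMap S (LB S P) (a c)) := by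
  have h1 : p ∣ ∏ c, algebraMap S (LB S P) (a c) ^ e c := by
    have h2 := congrArg (algebraMap S (LB S P)) H.prod
    rw [map_prod, map_mul] at h2
    simp only [map_pow] at h2
    rw [h2]
    exact h.mul_right _
  obtain ⟨c, -, hc⟩ := (hp.dvd_finsetProd_iff _).1 h1
  have hc' := hp.dvd_of_dvd_pow hc
  by_cases hth : Thru (V c) S P
  · exact ⟨c, hth, hp.associated_of_dvd (H.prime hth) hc'⟩
  · exact absurd (isUnit_of_dvd_unit hc' (H.isUnit_of_not_thru hth)) hp.not_isUnit

/-- **The local structure of functions whose divisor is divisible by `n`.** -/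
theorem exists_pow [IsNoetherianRing S] {c : ι} (hc : Thru (V c) S P) {κ : Type*} [Field κ]
    (ρ : S →+* κ) (hρ : ∀ b : S, ρ b = 0 ↔ (b : L) ∈ (V c).nonunits)
    (hres : ∀ b b' : S, ∃ x s : S, s ∉ P ∧ (ρ (s * b) = ρ (x * b') ∨ ρ (s * b') = ρ (x * b)))
    {f : L} (hf0 : f ≠ 0) (hfS : ∃ b1 b2 : S, (b2 : L) ≠ 0 ∧ f = b1 / b2)
    (hfV : ∀ c, Thru (V c) S P → f ∈ V c ∧ f⁻¹ ∈ V c) {n : ℕ} (hn : 0 < n)
    (hhor : ∀ W : ValuationSubring L, S ≤ W.toSubring → (ϖ : L)⁻¹ ∈ W → W ≠ ⊤ →
      ∃ v : L → ℤ, (∀ x y, x ≠ 0 → y ≠ 0 → v (x * y) = v x + v y) ∧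
        (∀ x, x ≠ 0 → (x ∈ W.nonunits ↔ 0 < v x)) ∧
        (∃ h1 h2 : S, (h1 : L) ≠ 0 ∧ (h2 : L) ≠ 0 ∧ v h1 = v h2 + 1) ∧ (n : ℤ) ∣ v f) :
    ∃ (b s : S) (g : L), b ∉ P ∧ s ∉ P ∧ g ≠ 0 ∧ (∃ b1 b2 : S, (b2 : L) ≠ 0 ∧ g = b1 / b2) ∧
      f = b / s * g ^ n := by
  haveI := H.ufd hc ρ hρ hres
  obtain ⟨f1, f2, hf2, hff⟩ := hfS
  have hf1 : (f1 : L) ≠ 0 := by
    intro h; apply hf0; rw [hff, h, zero_div]
  set z : S := f1 * f2 ^ (n - 1) with hz
  have hfz : f * (f2 : L) ^ n = z := by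
    rw [hff, hz]
    obtain ⟨m, rfl⟩ : ∃ m, n = m + 1 := ⟨n - 1, by omega⟩
    rw [Nat.add_sub_cancel]
    push_cast
    field_simp
    ring
  set F2 : LB S P := algebraMap S (LB S P) f2 with hF2
  set Z : LB S P := algebraMap S (LB S P) z with hZ
  have hF20 : F2 ≠ 0 := fun h => hf2 (congrArg (fun t : LB S P => (t : L)) h)
  have hZ0 : Z ≠ 0 := by
    intro h
    have h1 : (z : L) = 0 := congrArg (fun t : LB S P => (t : L)) h
    rw [← hfz] at h1
    exact (mul_ne_zero hf0 (pow_ne_zero _ hf2)) h1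
  have hZL : (Z : L) = f * (F2 : L) ^ n := hfz.symm
  obtain ⟨u, g, hu, hg, hug⟩ := exists_unit_mul_pow hn Z hZ0 (fun p hp m c' hcm hpc' => by
    have hc'0 : c' ≠ 0 := by rintro rfl; exact hZ0 (by rw [hcm, mul_zero])
    obtain ⟨m', y, hpy, hF2m⟩ := WfDvdMonoid.max_power_factor hF20 hp.irreducible
    have hy0 : y ≠ 0 := by rintro rfl; exact hF20 (by rw [hF2m, mul_zero])
    have hpL : (p : L) ≠ 0 := fun h => hp.ne_zero (Subtype.ext h)
    have hyL : (y : L) ≠ 0 := fun h => hy0 (Subtype.ext h)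
    have hc'L : (c' : L) ≠ 0 := fun h => hc'0 (Subtype.ext h)
    have hrel : f * ((p : L) ^ m' * y) ^ n = (p : L) ^ m * c' := by
      have h1 : (Z : L) = (p : L) ^ m * c' := congrArg Subtype.val hcm
      have h2 : (F2 : L) = (p : L) ^ m' * y := congrArg Subtype.val hF2m
      rw [← h1, hZL, h2]
    by_cases hpϖ : p ∣ algebraMap S (LB S P) ϖ
    · -- vertical primes
      obtain ⟨c1, hc1, hassoc⟩ := H.associated_of_dvd hp hpϖ
      have hp1 : ∀ b : LB S P, p ∣ b ↔ (b : L) ∈ (V c1).nonunits := fun b => by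
        rw [hassoc.dvd_iff_dvd_left, H.dvd_iff hc1]
      have hle := LB_le (H.le c1) hc1
      have hpm : (p : L) ∈ (V c1).nonunits := (hp1 p).1 dvd_rfl
      have hunit : ∀ b : LB S P, ¬ p ∣ b → (b : L)⁻¹ ∈ V c1 := fun b hb =>
        inv_mem_of_notMem_nonunits (fun h => hb ((hp1 b).2 h))
      obtain ⟨hfc, hfc'⟩ := hfV c1 hc1
      have hpinv : ∀ k : ℕ, ∀ w : L, w ∈ V c1 → (p : L) ^ (k + 1) * w ≠ 1 := by
        intro k w hw h1
        apply one_notMem_nonunits (V := V c1)
        rw [← h1, pow_succ, mul_assoc]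
        exact nonunits_of_mul_left (nonunits_mul_mem hpm hw) (pow_mem (hle p.2) k)
      refine ⟨m', ?_⟩
      by_contra hne
      rcases Nat.lt_or_gt_of_ne hne with hlt | hgt
      · -- m < n * m'
        obtain ⟨d, hd⟩ : ∃ d, n * m' = m + (d + 1) := ⟨n * m' - m - 1, by omega⟩
        refine hpinv d (f * (y : L) ^ n * (c' : L)⁻¹)
          (mul_mem (mul_mem hfc (pow_mem (hle y.2) n)) (hunit c' hpc')) ?_
        rw [mul_pow, ← pow_mul, mul_comm m' n, hd, pow_add] at hrel
        have h3 : (p : L) ^ m ≠ 0 := pow_ne_zero _ hpL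
        have h5 : f * (p : L) ^ (d + 1) * (y : L) ^ n = c' :=
          mul_left_cancel₀ h3 (by rw [← hrel]; ring)
        have h6 : (p : L) ^ (d + 1) * (f * (y : L) ^ n * (c' : L)⁻¹) =
            f * (p : L) ^ (d + 1) * (y : L) ^ n * (c' : L)⁻¹ := by ring
        rw [h6, h5, mul_inv_cancel₀ hc'L]
      · obtain ⟨d, hd⟩ : ∃ d, m = n * m' + (d + 1) := ⟨m - n * m' - 1, by omega⟩
        refine hpinv d ((c' : L) * f⁻¹ * ((y : L)⁻¹) ^ n)
          (mul_mem (mul_mem (hle c'.2) hfc') (pow_mem (hunit y hpy) n)) ?_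
        rw [mul_pow, ← pow_mul, mul_comm m' n, hd, pow_add] at hrel
        have h3 : (p : L) ^ (n * m') ≠ 0 := pow_ne_zero _ hpL
        have h5 : (p : L) ^ (d + 1) * c' = f * (y : L) ^ n :=
          mul_left_cancel₀ h3 (by rw [← mul_assoc, ← hrel]; ring)
        have h6 : (p : L) ^ (d + 1) * ((c' : L) * f⁻¹ * ((y : L)⁻¹) ^ n) =
            (p : L) ^ (d + 1) * c' * f⁻¹ * ((y : L) ^ n)⁻¹ := by rw [inv_pow]; ring
        rw [h6, h5, mul_inv_eq_iff_eq_mul₀ (pow_ne_zero n hyL), one_mul]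
        field_simp
    · -- horizontal primes
      haveI : (Ideal.span {p}).IsPrime := (Ideal.span_singleton_prime hp.ne_zero).2 hp
      obtain ⟨W, hBW, hW⟩ := exists_valuationSubring_of_prime (LB S P) (Ideal.span {p})
      simp only [Ideal.mem_span_singleton] at hW
      have hSW : S ≤ W.toSubring := fun x hx => hBW (coe_mem_LB (⟨x, hx⟩ : S))
      have hϖW : (ϖ : L)⁻¹ ∈ W := inv_mem_of_notMem_nonunits (fun h => hpϖ ((hW _).1 h))
      have hWtop : W ≠ ⊤ := by
        rintro rfl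
        have h1 : (p : L) ∈ (⊤ : ValuationSubring L).nonunits := (hW p).2 dvd_rfl
        rw [ValuationSubring.mem_nonunits_iff_or] at h1
        rcases h1 with h1 | h1
        · exact hpL h1
        · exact h1 (ValuationSubring.mem_top _)
      obtain ⟨v, hvmul, hvW, ⟨h1, h2, h10, h20, hv1⟩, hvn⟩ := hhor W hSW hϖW hWtop
      have hv1' : v 1 = 0 := by
        have := hvmul 1 1 one_ne_zero one_ne_zero
        rw [mul_one] at this
        omega
      have hvpow : ∀ x : L, x ≠ 0 → ∀ k : ℕ, v (x ^ k) = k * v x := by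
        intro x hx k
        induction k with
        | zero => simp [hv1']
        | succ k ih => rw [pow_succ, hvmul _ _ (pow_ne_zero _ hx) hx, ih]; push_cast; ring
      have hv0 : ∀ b : LB S P, ¬ p ∣ b → v b = 0 := by
        intro b hb
        have hb0 : (b : L) ≠ 0 := by
          intro h
          apply hb
          have : b = 0 := Subtype.ext h
          rw [this]; exact dvd_zero p
        have hnb : (b : L) ∉ W.nonunits := fun h => hb ((hW b).1 h)
        have hle0 : ¬ 0 < v b := fun h => hnb ((hvW _ hb0).2 h)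
        have hnb' : (b : L)⁻¹ ∉ W.nonunits := by
          intro h
          apply one_notMem_nonunits (V := W)
          rw [← inv_mul_cancel₀ hb0]
          exact nonunits_mul_mem h (hBW b.2)
        have hle1 : ¬ 0 < v ((b : L)⁻¹) := fun h => hnb' ((hvW _ (inv_ne_zero hb0)).2 h)
        have h3 := hvmul _ _ hb0 (inv_ne_zero hb0)
        rw [mul_inv_cancel₀ hb0, hv1'] at h3
        omega
      have hvdvd : ∀ b : LB S P, b ≠ 0 → ∃ k : ℕ, v b = k * v p := by
        intro b hb
        obtain ⟨k, b', hb', hbk⟩ := WfDvdMonoid.max_power_factor hb hp.irreducible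
        refine ⟨k, ?_⟩
        have hb'0 : (b' : L) ≠ 0 := by
          intro h
          apply hb
          rw [hbk]
          have : b' = 0 := Subtype.ext h
          rw [this, mul_zero]
        have h3 : (b : L) = (p : L) ^ k * b' := congrArg Subtype.val hbk
        rw [h3, hvmul _ _ (pow_ne_zero _ hpL) hb'0, hv0 b' hb', hvpow _ hpL, add_zero]
      have hvp : v p = 1 := by
        have hpos : 0 < v p := (hvW _ hpL).1 ((hW p).2 dvd_rfl)
        obtain ⟨k1, hk1⟩ := hvdvd (algebraMap S (LB S P) h1)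
          (fun h => h10 (congrArg (fun t : LB S P => (t : L)) h))
        obtain ⟨k2, hk2⟩ := hvdvd (algebraMap S (LB S P) h2)
          (fun h => h20 (congrArg (fun t : LB S P => (t : L)) h))
        rw [coe_algebraMap_LB] at hk1 hk2
        have h3 : v p * ((k1 : ℤ) - k2) = 1 := by
          rw [hk1, hk2] at hv1
          linarith
        exact Int.eq_one_of_mul_eq_one_right hpos.le h3
      have h3 : v (f * ((p : L) ^ m' * y) ^ n) = v ((p : L) ^ m * c') := by rw [hrel]
      rw [hvmul _ _ hf0 (pow_ne_zero _ (mul_ne_zero (pow_ne_zero _ hpL) hyL)),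
        hvmul _ _ (pow_ne_zero _ hpL) hc'L, hvpow _ (mul_ne_zero (pow_ne_zero _ hpL) hyL),
        hvpow _ hpL, hv0 c' hpc', hvp, add_zero, mul_one] at h3
      have h4 : (n : ℤ) ∣ (m : ℤ) := by
        rw [← h3]
        exact dvd_add hvn (dvd_mul_right _ _)
      exact_mod_cast h4)
  obtain ⟨b, s, hb, hs, hbs⟩ := isUnit_LB_iff.1 hu
  obtain ⟨g1, g2, hg2, hgg⟩ := mem_LB.1 g.2
  have hg20 := ne_zero_of_notMem hg2
  have hgL : (g : L) ≠ 0 := fun h => hg (Subtype.ext h)
  refine ⟨b, s, g / f2, hb, hs, div_ne_zero hgL hf2, ⟨g1, g2 * f2, ?_, ?_⟩, ?_⟩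
  · push_cast; exact mul_ne_zero hg20 hf2
  · rw [hgg]; push_cast; field_simp
  · have h1 : (Z : L) = u * (g : L) ^ n := congrArg Subtype.val hug
    rw [hZL] at h1
    have h2 : f = u * (g : L) ^ n / (F2 : L) ^ n := by
      have hf2' : (F2 : L) ≠ 0 := hf2
      rw [← h1, mul_div_cancel_right₀ _ (pow_ne_zero _ hf2')]
    rw [h2, hbs, div_pow]
    have h3 : (F2 : L) = f2 := rfl
    rw [h3]
    ring

end LocSys

end Loc

end Fermat.Agent.QComp
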