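import Fermat.Agent.QComp.Gauss
import Fermat.Agent.QComp.LocB
import Fermat.Agent.FF.FnField
import Mathlib.RingTheory.DedekindDomain.IntegralClosure
import Mathlib.RingTheory.Polynomial.Basic

/-!
# Finiteness of the integral closure, and the Dedekind case
-/

set_option autoImplicit false
set_option linter.unusedSectionVars false
set_option linter.style.haveILetI false

open Polynomial IsLocalRing AlgebraicCurve IsDedekindDomain

namespace Fermat.Agent.QComp

section Noeth

variable {K E L : Type*} [Field K] [Field E] [Field L] [Algebra K E] [Algebra E L]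
variable {R : Type*} [CommRing R] [Algebra R K]

/-- the inclusion of `R[X]` into the integral closure -/
noncomputable def icRingHom (K L R : Type*) {E : Type*} [Field K] [Field E] [Field L] [Algebra K E]
    [Algebra E L] [CommRing R] [Algebra R K] (t : E) : R[X] →+* IC K L R t :=
  ((algebraMap E L).comp (ev K R t)).codRestrict _ fun p => ev_mem_IC t p

theorem isIntegralClosure_IC (t : E) :
    letI := (icRingHom K L R t).toAlgebra
    letI := ((algebraMap E L).comp (ev K R t)).toAlgebra
    IsIntegralClosure (IC K L R t) R[X] L := by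
  letI := (icRingHom K L R t).toAlgebra
  letI := ((algebraMap E L).comp (ev K R t)).toAlgebra
  refine ⟨Subtype.coe_injective, fun {x} => ⟨fun hx => ⟨⟨x, hx⟩, rfl⟩, ?_⟩⟩
  rintro ⟨y, rfl⟩
  exact y.2

theorem isNoetherianRing_IC [IsDomain R] [IsFractionRing R K] [IsIntegrallyClosed R]
    [IsNoetherianRing R] [FiniteDimensional E L] [Algebra.IsSeparable E L] {t : E}
    (ht : IsGen K t) : IsNoetherianRing (IC K L R t) := by
  letI i1 := (ev K R t).toAlgebra
  letI i2 := ((algebraMap E L).comp (ev K R t)).toAlgebra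
  letI i3 := (icRingHom K L R t).toAlgebra
  haveI := isFractionRing_ev K R ht
  haveI : IsScalarTower R[X] E L := IsScalarTower.of_algebraMap_eq fun _ => rfl
  haveI : IsScalarTower R[X] (IC K L R t) L := IsScalarTower.of_algebraMap_eq fun _ => rfl
  haveI : IsIntegralClosure (IC K L R t) R[X] L := isIntegralClosure_IC t
  exact IsIntegralClosure.isNoetherianRing R[X] E L (IC K L R t)

theorem isFractionRing_IC [IsDomain R] [IsFractionRing R K]
    [FiniteDimensional E L] {t : E}
    (ht : IsGen K t) : IsFractionRing (IC K L R t) L := by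
  letI i1 := (ev K R t).toAlgebra
  letI i2 := ((algebraMap E L).comp (ev K R t)).toAlgebra
  letI i3 := (icRingHom K L R t).toAlgebra
  haveI := isFractionRing_ev K R ht
  haveI : IsScalarTower R[X] E L := IsScalarTower.of_algebraMap_eq fun _ => rfl
  haveI : IsScalarTower R[X] (IC K L R t) L := IsScalarTower.of_algebraMap_eq fun _ => rfl
  haveI : IsIntegralClosure (IC K L R t) R[X] L := isIntegralClosure_IC t
  exact IsIntegralClosure.isFractionRing_of_finite_extension R[X] E L (IC K L R t)

/-- fractions with denominator prescribed -/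
theorem exists_div_IC [IsDomain R] [IsFractionRing R K] [FiniteDimensional E L] {t : E}
    (ht : IsGen K t) (z : L) : ∃ b1 b2 : IC K L R t, (b2 : L) ≠ 0 ∧ z = b1 / b2 := by
  obtain ⟨p, hp, hpz⟩ := exists_mul_mem_IC (R := R) (L := L) ht z
  have h0 : algebraMap E L (ev K R t p) ≠ 0 := by
    haveI : FaithfulSMul R K := (faithfulSMul_iff_algebraMap_injective R K).2
      (IsFractionRing.injective R K)
    rw [Ne, map_eq_zero]
    exact (map_ne_zero_iff _ (ev_injective K R ht.trans)).2 hp
  exact ⟨⟨_, hpz⟩, ⟨_, ev_mem_IC t p⟩, h0, by field_simp⟩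

end Noeth

section Ded

variable {k E κ : Type*} [Field k] [Field E] [Field κ] [Algebra k E] [Algebra E κ] [Algebra k κ]
  [IsScalarTower k E κ]

theorem isDedekindDomain_IC [FiniteDimensional E κ] [Algebra.IsSeparable E κ] {t : E}
    (ht : IsGen k t) : IsDedekindDomain (IC k κ k t) := by
  letI i1 := (ev k k t).toAlgebra
  letI i2 := ((algebraMap E κ).comp (ev k k t)).toAlgebra
  letI i3 := (icRingHom k κ k t).toAlgebra
  haveI := isFractionRing_ev k k ht
  haveI : IsScalarTower k[X] E κ := IsScalarTower.of_algebraMap_eq fun _ => rfl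
  haveI : IsScalarTower k[X] (IC k κ k t) κ := IsScalarTower.of_algebraMap_eq fun _ => rfl
  haveI : IsIntegralClosure (IC k κ k t) k[X] κ := isIntegralClosure_IC t
  exact IsIntegralClosure.isDedekindDomain k[X] E κ (IC k κ k t)

/-- the algebra of constants in `IC`. -/
@[reducible] noncomputable def algIC (t : E) : Algebra k (IC k κ k t) :=
  ((algebraMap k κ).codRestrict (IC k κ k t) fun c => by
    have := ev_mem_IC (L := κ) (K := k) (R := k) t (C c)
    rw [ev_C] at this
    rw [IsScalarTower.algebraMap_apply k E κ]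
    exact this).toAlgebra

/-- (D0) the maximal ideals of `κ°` come from places -/
theorem exists_place_of_ideal [FiniteDimensional E κ] [Algebra.IsSeparable E κ] {t : E}
    (ht : IsGen k t) (P : Ideal (IC k κ k t)) [hP : P.IsPrime] (hP0 : P ≠ ⊥) :
    ∃ v : Place k κ, (∀ z ∈ IC k κ k t, z ∈ v.toValuationSubring) ∧
      ∀ z : IC k κ k t, z ∈ P ↔ (z : κ) ∈ v.toValuationSubring.nonunits := by
  haveI := isDedekindDomain_IC (k := k) (κ := κ) ht
  haveI := isFractionRing_IC (K := k) (R := k) (L := κ) ht
  letI := algIC (k := k) (κ := κ) t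
  haveI : IsScalarTower k (IC k κ k t) κ := IsScalarTower.of_algebraMap_eq fun _ => rfl
  set w : HeightOneSpectrum (IC k κ k t) := ⟨P, hP, hP0⟩
  set v := Place.ofHeightOneSpectrum (K := k) (F := κ) w with hv
  have h1 : ∀ z : IC k κ k t, (z : κ) ∈ v.toValuationSubring := fun z =>
    FF.algebraMap_mem_ofHeightOneSpectrum (K := k) (F := κ) w z
  refine ⟨v, fun z hz => h1 ⟨z, hz⟩, fun z => ?_⟩
  rw [ValuationSubring.mem_nonunits_iff_or]
  by_cases hz : (z : κ) = 0
  · have hz0 : z = 0 := Subtype.ext hz
    rw [hz0]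
    simp
  rw [FF.mem_iff_ord_nonneg, v.ord_inv, FF.ord_ofHeightOneSpectrum (K := k) w]
  have h2 : w.valuation κ (z : κ) < 1 ↔ z ∈ w.asIdeal := w.valuation_lt_one_iff_mem (K := κ) z
  have h3 : w.valuation κ (z : κ) ≠ 0 := (Valuation.ne_zero_iff _).2 hz
  change z ∈ w.asIdeal ↔ _
  rw [← h2, ← WithZero.exp_zero, ← WithZero.log_lt_iff_lt_exp h3 (a := 0)]
  constructor
  · intro h
    right
    omega
  · rintro (h | h)
    · exact absurd h hz
    · omega

/-- (D1) the local ring at a place is a localisation of `κ°`. -/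
theorem exists_div_of_mem [FiniteDimensional E κ] [Algebra.IsSeparable E κ] {t : E}
    (ht : IsGen k t) (v : Place k κ) (hv : ∀ z ∈ IC k κ k t, z ∈ v.toValuationSubring)
    {z : κ} (hz : z ∈ v.toValuationSubring) :
    ∃ a b : IC k κ k t, (b : κ) ∉ v.toValuationSubring.nonunits ∧ z = a / b := by
  haveI := isDedekindDomain_IC (k := k) (κ := κ) ht
  haveI := isFractionRing_IC (K := k) (R := k) (L := κ) ht
  letI := algIC (k := k) (κ := κ) t
  haveI : IsScalarTower k (IC k κ k t) κ := IsScalarTower.of_algebraMap_eq fun _ => rfl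
  obtain ⟨w, hw, hw2⟩ := FF.exists_heightOneSpectrum (R := IC k κ k t) v (fun r => hv _ r.2)
  rw [← hw, FF.mem_ofHeightOneSpectrum_iff] at hz
  obtain ⟨a, ⟨b, hb'⟩, hab⟩ := HeightOneSpectrum.exists_primeCompl_mul_eq_of_integer _ z hz
  have hb : b ∉ w.asIdeal := hb'
  rw [hw2, FF.mem_centre_iff, not_or] at hb
  have hb0 : (b : κ) ≠ 0 := fun h => hb.1 (Subtype.ext h)
  refine ⟨a, b, fun h => ?_, ?_⟩
  · rw [ValuationSubring.mem_nonunits_iff_or] at h
    rcases h with h | h
    · exact hb0 h
    · apply hb.2
      rw [FF.mem_iff_ord_nonneg, v.ord_inv] at h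
      push Not at h
      change 0 < v.ord (b : κ)
      omega
  · rw [eq_div_iff hb0]
    exact hab

end Ded

end Fermat.Agent.QComp
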