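import Fermat.Agent.QComp.Kummer
import Fermat.Agent.QComp.LocB
import Mathlib.RingTheory.IntegralClosure.GoingDown

/-!
# Every point of the special fibre lies on a component
-/

set_option autoImplicit false
set_option linter.unusedSectionVars false
set_option linter.style.haveILetI false

open Polynomial IsLocalRing

namespace Fermat.Agent.QComp

attribute [local instance] isIntegrallyClosed_of_valuationRing

variable {K E L : Type*} [Field K] [Field E] [Field L] [Algebra K E] [Algebra E L]
  [Algebra K L] [IsScalarTower K E L]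
variable {A : Type*} [CommRing A] [IsDomain A] [ValuationRing A] [Algebra A K] [IsFractionRing A K]

/-- Every prime of the integral closure containing `m_A` contains the centre of a valuation over
the Gauss valuation. -/
theorem exists_overGauss_thru {t : E} (ht : IsGen K t)
    (P : Ideal (IC K L A t)) [hP : P.IsPrime]
    (hm : ∀ c ∈ maximalIdeal A, (⟨_, algebraMap_A_mem_IC c⟩ : IC K L A t) ∈ P) :
    ∃ V : ValuationSubring L, OverGauss K A (algebraMap E L t) V ∧ Thru V (IC K L A t) P := by
  let φ : A[X] →+* IC K L A t := ((algebraMap E L).comp (ev K A t)).codRestrict _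
    fun p => ev_mem_IC t p
  letI := φ.toAlgebra
  have hinj : Function.Injective φ := by
    intro p q hpq
    have h1 : algebraMap E L (ev K A t p) = algebraMap E L (ev K A t q) :=
      congrArg Subtype.val hpq
    haveI : FaithfulSMul A K := (faithfulSMul_iff_algebraMap_injective A K).2
      (IsFractionRing.injective A K)
    exact ev_injective K A ht.trans ((algebraMap E L).injective h1)
  haveI : FaithfulSMul A[X] (IC K L A t) := (faithfulSMul_iff_algebraMap_injective _ _).2 hinj
  haveI : Algebra.IsIntegral A[X] (IC K L A t) := ⟨fun b => by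
    obtain ⟨p, hp, hpb⟩ := b.2
    refine ⟨p, hp, ?_⟩
    have h2 : (IC K L A t).subtype (eval₂ φ b p) = 0 := by
      rw [hom_eval₂]
      exact hpb
    exact Subtype.ext h2⟩
  haveI hmp : ((maximalIdeal A).map (C : A →+* A[X])).IsPrime :=
    haveI := (maximalIdeal.isMaximal A).isPrime
    Ideal.isPrime_map_C_of_isPrime
  have hle : (maximalIdeal A).map (C : A →+* A[X]) ≤ P.under A[X] := by
    rw [Ideal.map_le_iff_le_comap]
    intro c hc
    change φ (C c) ∈ P
    have h1 : φ (C c) = ⟨_, algebraMap_A_mem_IC c⟩ := by
      apply Subtype.ext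
      change algebraMap E L (ev K A t (C c)) = _
      rw [ev_C, ← IsScalarTower.algebraMap_apply]
    rw [h1]
    exact hm c hc
  haveI : P.LiesOver (P.under A[X]) := ⟨rfl⟩
  obtain ⟨Q, hQP, hQ, hQl⟩ := Ideal.exists_ideal_le_liesOver_of_le P hle
  obtain ⟨V, hV, hVQ⟩ := exists_valuationSubring_of_prime (IC K L A t) Q
  have hmem : ∀ u : A[X], φ u ∈ Q ↔ u ∈ (maximalIdeal A).map (C : A →+* A[X]) := by
    intro u
    rw [hQl.over]
    rfl
  refine ⟨V, overGauss_of (fun a => hV (algebraMap_A_mem_IC a)) (fun a ha => ?_) ?_ fun u hu => ?_,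
    fun a ha => hQP ((hVQ a).1 ha)⟩
  · have h1 : φ (C a) ∈ Q := (hmem _).2 (Ideal.mem_map_of_mem C ha)
    have h2 := (hVQ _).2 h1
    have h3 : ((φ (C a) : IC K L A t) : L) = algebraMap K L (algebraMap A K a) := by
      change algebraMap E L (ev K A t (C a)) = _
      rw [ev_C, ← IsScalarTower.algebraMap_apply]
    rwa [h3] at h2
  · have h1 := hV (φ X).2
    have h3 : ((φ X : IC K L A t) : L) = algebraMap E L t := by
      change algebraMap E L (ev K A t X) = _
      rw [ev_X]
    rwa [h3] at h1
  · have h1 : φ u ∉ Q := by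
      rw [hmem, Ideal.mem_map_C_iff]
      intro h
      obtain ⟨i, hi⟩ := hu
      exact (mem_maximalIdeal _).1 (h i) hi
    have h2 : ((φ u : IC K L A t) : L) ∉ V.nonunits := fun h => h1 ((hVQ _).1 h)
    have h3 : ((φ u : IC K L A t) : L) = ev K A (algebraMap E L t) u := by
      change algebraMap E L (ev K A t u) = _
      rw [ev_eq_aeval, ev_eq_aeval, aeval_algebraMap_apply]
    rw [h3] at h2
    exact inv_mem_of_notMem_nonunits h2

end Fermat.Agent.QComp
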