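import Fermat.Agent.QComp.Connected
import Mathlib.FieldTheory.KummerExtension
import Mathlib.RingTheory.AdjoinRoot
import Mathlib.FieldTheory.IsAlgClosed.Basic
import Mathlib.RingTheory.RootsOfUnity.AlgebraicallyClosed

/-!
# Locally trivial Kummer classes are trivial
-/

set_option autoImplicit false
set_option linter.unusedSectionVars false
set_option linter.style.haveILetI false

open Polynomial IsLocalRing

namespace Fermat.Agent.QComp

attribute [local instance] isIntegrallyClosed_of_valuationRing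

section Comap

variable {K F L : Type*} [Field K] [Field F] [Field L] [Algebra K F] [Algebra K L]
variable {A : Type*} [CommRing A] [IsDomain A] [ValuationRing A] [Algebra A K] [IsFractionRing A K]

theorem mem_nonunits_comap {V : ValuationSubring L} (φ : F →+* L) {a : F} :
    a ∈ (V.comap φ).nonunits ↔ φ a ∈ V.nonunits := by
  rw [ValuationSubring.mem_nonunits_iff_or, ValuationSubring.mem_nonunits_iff_or, map_eq_zero,
    ValuationSubring.mem_comap, map_inv₀]

theorem OverGauss.comap {V : ValuationSubring L} {x : F} (φ : F →ₐ[K] L)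
    (h : OverGauss K A (φ x) V) : OverGauss K A x (V.comap (φ : F →+* L)) where
  mem_iff a := by
    rw [ValuationSubring.mem_comap]
    have : (φ : F →+* L) (algebraMap K F a) = algebraMap K L a := φ.commutes a
    rw [this]
    exact h.mem_iff a
  mem := h.mem
  inv_mem u hu := by
    rw [ValuationSubring.mem_comap, map_inv₀]
    have : (φ : F →+* L) (ev K A x u) = ev K A (φ x) u := by
      rw [ev_eq_aeval, ev_eq_aeval]
      exact (aeval_algHom_apply φ x _).symm
    rw [this]
    exact h.inv_mem u hu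

end Comap

section Roots

variable {K L : Type*} [Field K] [Field L] [Algebra K L]
variable {A : Type*} [CommRing A] [IsDomain A] [ValuationRing A] [Algebra A K] [IsFractionRing A K]

/-- distinct `ℓ`-th roots of unity differ by units. -/
theorem isUnit_sub_of_roots {ℓ : ℕ} (hℓ : IsUnit (ℓ : A)) {a b : A} (ha : a ^ ℓ = 1)
    (hb : b ^ ℓ = 1) (hab : a ≠ b) : IsUnit (a - b) := by
  by_contra hu
  have hm : a - b ∈ maximalIdeal A := (mem_maximalIdeal _).2 hu
  have h1 : (a - b) * ∑ i ∈ Finset.range ℓ, a ^ i * b ^ (ℓ - 1 - i) = 0 := by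
    rw [mul_comm, (Commute.all a b).geom_sum₂_mul, ha, hb, sub_self]
  have h2 := (mul_eq_zero.1 h1).resolve_left (sub_ne_zero.2 hab)
  have h3 : residue A a = residue A b := by
    rw [← sub_eq_zero, ← map_sub, residue_eq_zero_iff]
    exact hm
  have hℓ0 : ℓ ≠ 0 := by
    rintro rfl
    simp at hℓ
  have h4 := congrArg (residue A) h2
  rw [map_sum, map_zero] at h4
  have h5 : ∀ i ∈ Finset.range ℓ, residue A (a ^ i * b ^ (ℓ - 1 - i)) = residue A (b ^ (ℓ - 1)) := by
    intro i hi
    rw [Finset.mem_range] at hi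
    rw [map_mul, map_pow, map_pow, map_pow, h3, ← pow_add]
    congr 1
    omega
  rw [Finset.sum_congr rfl h5, Finset.sum_const, Finset.card_range, nsmul_eq_mul] at h4
  have h6 : IsUnit ((ℓ : A) * b ^ (ℓ - 1)) := by
    refine hℓ.mul (IsUnit.pow _ ?_)
    exact IsUnit.of_mul_eq_one (b ^ (ℓ - 1)) (by rw [← pow_succ', Nat.sub_add_cancel (Nat.pos_of_ne_zero hℓ0), hb])
  have h7 : residue A ((ℓ : A) * b ^ (ℓ - 1)) = 0 := by
    rw [map_mul, map_natCast]; exact h4
  exact (h6.map (residue A)).ne_zero h7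

theorem exists_of_pow_eq_one {ℓ : ℕ} (hℓ : 0 < ℓ) {ζ : K} (h : ζ ^ ℓ = 1) :
    ∃ a : A, algebraMap A K a = ζ ∧ a ^ ℓ = 1 := by
  have h1 : IsIntegral A ζ := ⟨X ^ ℓ - 1, monic_X_pow_sub_C 1 hℓ.ne', by simp [h]⟩
  obtain ⟨a, ha⟩ := IsIntegrallyClosed.isIntegral_iff.1 h1
  refine ⟨a, ha, ?_⟩
  apply IsFractionRing.injective A K
  rw [map_pow, ha, h, map_one]

theorem nonunits_or_of_mul {L : Type*} [Field L] {V : ValuationSubring L} {a b : L}
    (h : a * b ∈ V.nonunits) : a ∈ V.nonunits ∨ b ∈ V.nonunits := by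
  rw [or_iff_not_imp_left]
  intro ha
  rw [ValuationSubring.mem_nonunits_iff_or] at ha
  push Not at ha
  have h1 := nonunits_mul_mem h ha.2
  rwa [mul_right_comm, mul_inv_cancel₀ ha.1, one_mul] at h1

/-- an `ℓ`-th power root of `1` modulo `m_W` is congruent to a root of unity. -/
theorem exists_root_of_pow [IsAlgClosed K] [CharZero K] {W : ValuationSubring L}
    {ℓ : ℕ} (hℓ : 0 < ℓ) {y : L} (hy : y ^ ℓ - 1 ∈ W.nonunits) :
    ∃ ζ : K, ζ ^ ℓ = 1 ∧ y - algebraMap K L ζ ∈ W.nonunits := by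
  haveI : NeZero (ℓ : K) := ⟨by exact_mod_cast hℓ.ne'⟩
  obtain ⟨ξ, hξ⟩ := HasEnoughRootsOfUnity.exists_primitiveRoot K ℓ
  have h1 := congrArg (fun p => aeval y p) (X_pow_sub_one_eq_prod hℓ hξ)
  simp only [map_sub, map_pow, aeval_X, map_one, map_prod, aeval_C] at h1
  rw [h1] at hy
  have key : ∀ s : Finset K, ∏ z ∈ s, (y - algebraMap K L z) ∈ W.nonunits →
      ∃ z ∈ s, y - algebraMap K L z ∈ W.nonunits := by
    intro s
    classical
    induction s using Finset.induction_on with
    | empty =>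
      intro h
      rw [Finset.prod_empty, ValuationSubring.mem_nonunits_iff, map_one] at h
      exact absurd h (lt_irrefl _)
    | insert a s ha ih =>
      intro h
      rw [Finset.prod_insert ha] at h
      rcases nonunits_or_of_mul h with h | h
      · exact ⟨a, Finset.mem_insert_self _ _, h⟩
      · obtain ⟨z, hz, hz'⟩ := ih h
        exact ⟨z, Finset.mem_insert_of_mem hz, hz'⟩
  obtain ⟨z, hz, hz'⟩ := key _ hy
  rw [mem_nthRootsFinset hℓ] at hz
  exact ⟨z, hz, hz'⟩

end Roots

section Tower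

variable {K E F L : Type*} [Field K] [Field E] [Field F] [Field L] [Algebra K E] [Algebra E F]
  [Algebra F L] [Algebra E L] [Algebra K F] [Algebra K L] [IsScalarTower K E F]
  [IsScalarTower K E L] [IsScalarTower E F L] [IsScalarTower K F L]
variable {A : Type*} [CommRing A] [IsDomain A] [ValuationRing A] [Algebra A K] [IsFractionRing A K]

theorem algebraMap_mem_IC_iff {R : Type*} [CommRing R] [Algebra R K] {t : E} {a : F} :
    algebraMap F L a ∈ IC K L R t ↔ a ∈ IC K F R t := by
  have h0 : (algebraMap E L).comp (ev K R t) = (algebraMap F L).comp ((algebraMap E F).comp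
      (ev K R t)) := by
    rw [← RingHom.comp_assoc, ← IsScalarTower.algebraMap_eq]
  rw [mem_IC, mem_IC, h0]
  constructor
  · rintro ⟨p, hp, hpa⟩
    refine ⟨p, hp, ?_⟩
    apply (algebraMap F L).injective
    rw [hom_eval₂, hpa, map_zero]
  · rintro ⟨p, hp, hpa⟩
    refine ⟨p, hp, ?_⟩
    rw [← hom_eval₂, hpa, map_zero]

theorem mem_IC_of_pow {R : Type*} [CommRing R] [Algebra R K] {t : E} {a : L} {n : ℕ} (hn : 0 < n)
    (h : a ^ n ∈ IC K L R t) : a ∈ IC K L R t := by
  letI := ((algebraMap E L).comp (ev K R t)).toAlgebra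
  exact IsIntegral.of_pow (R := R[X]) hn h

/-- the inclusion of integral closures -/
noncomputable def icMap (K F L R : Type*) {E : Type*} [Field K] [Field E] [Field F] [Field L]
    [Algebra K E] [Algebra E F] [Algebra F L] [Algebra E L] [Algebra K F] [Algebra K L]
    [IsScalarTower K E F] [IsScalarTower K E L] [IsScalarTower E F L] [IsScalarTower K F L]
    [CommRing R] [Algebra R K] (t : E) : IC K F R t →+* IC K L R t :=
  ((algebraMap F L).comp (IC K F R t).subtype).codRestrict _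
    fun a => algebraMap_mem_IC_iff.2 a.2

@[simp] theorem coe_icMap {R : Type*} [CommRing R] [Algebra R K] (t : E) (a : IC K F R t) :
    (icMap K F L R t a : L) = algebraMap F L (a : F) := rfl

theorem isIntegral_icMap {R : Type*} [CommRing R] [Algebra R K] (t : E) :
    (icMap K F L R t).IsIntegral := by
  intro b
  obtain ⟨p, hp, hpb⟩ := b.2
  let g : R[X] →+* IC K F R t := ((algebraMap E F).comp (ev K R t)).codRestrict _
    fun q => ev_mem_IC t q
  refine ⟨p.map g, hp.map g, ?_⟩
  apply Subtype.ext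
  have h3 : ((IC K L R t).subtype.comp (icMap K F L R t)).comp g =
      (algebraMap E L).comp (ev K R t) := by
    ext q
    · change algebraMap F L (algebraMap E F (ev K R t (C q))) = algebraMap E L (ev K R t (C q))
      rw [← IsScalarTower.algebraMap_apply]
    · change algebraMap F L (algebraMap E F (ev K R t X)) = algebraMap E L (ev K R t X)
      rw [← IsScalarTower.algebraMap_apply]
  have h2 : (IC K L R t).subtype (eval₂ (icMap K F L R t) b (p.map g)) = 0 := by
    rw [hom_eval₂, eval₂_map, h3]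
    exact hpb
  exact h2

/-- `z` lies in `1 + m_P R_P`, for `P` a prime of the subring `S`. -/
def Loc1 (S : Subring F) (P : Ideal S) (z : F) : Prop :=
  ∃ s b : S, s ∉ P ∧ (s : F) * z = b ∧ b - s ∈ P

/-- the local triviality of the class of `f` modulo `n`-th powers in the chart of `t`, with roots
`r V` of the reductions. -/
def PtCond (K A : Type*) {E F : Type*} [Field K] [Field E] [Field F] [Algebra K E] [Algebra E F]
    [Algebra K F] [IsScalarTower K E F] [CommRing A] [IsDomain A] [ValuationRing A] [Algebra A K]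
    [IsFractionRing A K] (t : E) (f : F) (n : ℕ) (r : ValuationSubring F → F) : Prop :=
  ∀ P : Ideal (IC K F A t), P.IsMaximal →
    (∃ V : ValuationSubring F, OverGauss K A (algebraMap E F t) V ∧ Thru V (IC K F A t) P) →
    ∃ g : F, Loc1 (IC K F A t) P (f / g ^ n) ∧
      ∀ V : ValuationSubring F, OverGauss K A (algebraMap E F t) V → Thru V (IC K F A t) P →
        ∃ z, Loc1 (IC K F A t) P z ∧ r V / g - z ∈ V.nonunits

/-- the set of roots of unity describing the component `W` -/
def rootSet (K : Type*) {F L : Type*} [Field K] [Field F] [Field L] [Algebra F L] [Algebra K L]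
    (ℓ : ℕ) (r : ValuationSubring F → F) (θ : L) (W : ValuationSubring L) : Set K :=
  {ζ | ζ ^ ℓ = 1 ∧ θ / algebraMap F L (r (W.comap (algebraMap F L))) - algebraMap K L ζ ∈ W.nonunits}

theorem algebraMap_A_mem_IC {t : E} (a : A) :
    algebraMap K L (algebraMap A K a) ∈ IC K L A t := by
  have := ev_mem_IC (K := K) (L := L) (R := A) t (C a)
  rwa [ev_C, ← IsScalarTower.algebraMap_apply] at this

theorem comap_overGauss {t : E} {W : ValuationSubring L}
    (hW : OverGauss K A (algebraMap E L t) W) :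
    OverGauss K A (algebraMap E F t) (W.comap (algebraMap F L)) := by
  have h1 : (IsScalarTower.toAlgHom K F L) (algebraMap E F t) = algebraMap E L t := by
    rw [IsScalarTower.toAlgHom_apply, ← IsScalarTower.algebraMap_apply]
  exact OverGauss.comap (IsScalarTower.toAlgHom K F L) (h1 ▸ hW)

theorem rootSet_nonempty [IsAlgClosed K] [CharZero K] {t : E} {ℓ : ℕ} (hℓ : ℓ.Prime)
    {f : F} {θ : L} (hθ : θ ^ ℓ = algebraMap F L f)
    {r : ValuationSubring F → F}
    (hr : ∀ V : ValuationSubring F, OverGauss K A (algebraMap E F t) V →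
      f / (r V) ^ ℓ - 1 ∈ V.nonunits) {W : ValuationSubring L}
    (hW : OverGauss K A (algebraMap E L t) W) : (rootSet K ℓ r θ W).Nonempty := by
  have h1 := hr _ (comap_overGauss (F := F) hW)
  rw [mem_nonunits_comap, map_sub, map_div₀, ← hθ, map_pow, ← div_pow, map_one] at h1
  obtain ⟨ζ, h2, h3⟩ := exists_root_of_pow (K := K) hℓ.pos h1
  exact ⟨ζ, h2, h3⟩

theorem Thru.comap {t : E} {W : ValuationSubring L} {M : Ideal (IC K L A t)}
    (h : Thru W (IC K L A t) M) :
    Thru (W.comap (algebraMap F L)) (IC K F A t) (M.comap (icMap K F L A t)) := by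
  intro a ha
  rw [mem_nonunits_comap] at ha
  exact h (icMap K F L A t a) ha

theorem rootSet_unique [IsAlgClosed K] [CharZero K] {t : E} {ℓ : ℕ} (hℓ : ℓ.Prime)
    (hℓA : IsUnit (ℓ : A)) {f : F} {θ : L} (hθ : θ ^ ℓ = algebraMap F L f)
    {r : ValuationSubring F → F}
    (hr : ∀ V : ValuationSubring F, OverGauss K A (algebraMap E F t) V →
      f / (r V) ^ ℓ - 1 ∈ V.nonunits)
    (hP : PtCond K A t f ℓ r) {W0 : ValuationSubring L}
    (hW0 : OverGauss K A (algebraMap E L t) W0)
    {M : Ideal (IC K L A t)} (hM : M.IsMaximal) (h0 : Thru W0 (IC K L A t) M) :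
    ∃ ζ0 : K, ∀ W : ValuationSubring L, OverGauss K A (algebraMap E L t) W →
      Thru W (IC K L A t) M → ∀ ζ ∈ rootSet K ℓ r θ W, ζ = ζ0 := by
  haveI := hM
  set P := M.comap (icMap K F L A t) with hPdef
  have hPm : P.IsMaximal :=
    Ideal.isMaximal_comap_of_isIntegral_of_isMaximal' (icMap K F L A t) (isIntegral_icMap t) M
  obtain ⟨g, ⟨s, b, hs, hsb, hbs⟩, hg⟩ := hP P hPm ⟨_, comap_overGauss (F := F) hW0, h0.comap⟩
  have hg0 : g ≠ 0 := by
    rintro rfl
    rw [zero_pow hℓ.ne_zero, div_zero, mul_zero] at hsb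
    have hb0 : b = 0 := Subtype.ext hsb.symm
    rw [hb0, zero_sub, neg_mem_iff] at hbs
    exact hs hbs
  have hgL : algebraMap F L g ≠ 0 := by rwa [Ne, map_eq_zero]
  set τ : L := algebraMap F L (s : F) * (θ / algebraMap F L g) with hτ
  have hτpow : τ ^ ℓ = algebraMap F L ((s : F) ^ (ℓ - 1) * (b : F)) := by
    have h1 : (s : F) ^ ℓ = (s : F) ^ (ℓ - 1) * s := by
      rw [← pow_succ, Nat.sub_add_cancel hℓ.pos]
    rw [hτ, mul_pow, div_pow, hθ, ← map_pow, ← map_pow, ← map_div₀, ← map_mul, h1, ← hsb]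
    congr 1
    ring
  have hτm : τ ∈ IC K L A t := by
    apply mem_IC_of_pow hℓ.pos
    rw [hτpow, algebraMap_mem_IC_iff]
    exact mul_mem (pow_mem s.2 _) b.2
  set s' := icMap K F L A t s with hs'
  have hs'M : s' ∉ M := hs
  have hmem : (⟨τ, hτm⟩ : IC K L A t) ^ ℓ - s' ^ ℓ ∈ M := by
    have h1 : (⟨τ, hτm⟩ : IC K L A t) ^ ℓ - s' ^ ℓ =
        icMap K F L A t (s ^ (ℓ - 1) * (b - s)) := by
      apply Subtype.ext
      change τ ^ ℓ - (algebraMap F L (s : F)) ^ ℓ =
        algebraMap F L ((s : F) ^ (ℓ - 1) * ((b : F) - (s : F)))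
      rw [hτpow, ← map_pow, ← map_sub]
      congr 1
      have h1 : (s : F) ^ ℓ = (s : F) ^ (ℓ - 1) * s := by
        rw [← pow_succ, Nat.sub_add_cancel hℓ.pos]
      rw [h1]
      ring
    rw [h1]
    exact Ideal.mem_comap.1 (Ideal.mul_mem_left P _ hbs)
  haveI : NeZero (ℓ : K) := ⟨by exact_mod_cast hℓ.ne_zero⟩
  obtain ⟨ξ, hξ⟩ := HasEnoughRootsOfUnity.exists_primitiveRoot K ℓ
  obtain ⟨ξA, hξA, hξA1⟩ := exists_of_pow_eq_one (A := A) hℓ.pos hξ.pow_eq_one
  -- the root
  have hroot : ∃ a0 : A, a0 ^ ℓ = 1 ∧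
      (⟨τ, hτm⟩ : IC K L A t) - ⟨_, algebraMap_A_mem_IC a0⟩ * s' ∈ M := by
    have hξL : IsPrimitiveRoot (⟨_, algebraMap_A_mem_IC ξA⟩ : IC K L A t) ℓ := by
      have h1 : IsPrimitiveRoot (algebraMap K L ξ) ℓ := hξ.map_of_injective (algebraMap K L).injective
      refine IsPrimitiveRoot.of_map_of_injective (f := (IC K L A t).subtype) ?_
        Subtype.coe_injective
      change IsPrimitiveRoot (algebraMap K L (algebraMap A K ξA)) ℓ
      rwa [hξA]
    rw [hξL.pow_sub_pow_eq_prod_sub_mul _ _ hℓ.pos] at hmem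
    obtain ⟨η, hη, hηM⟩ := (hM.isPrime.prod_mem_iff).1 hmem
    rw [mem_nthRootsFinset hℓ.pos] at hη
    haveI : NeZero ℓ := ⟨hℓ.ne_zero⟩
    obtain ⟨i, -, hi⟩ := hξL.eq_pow_of_pow_eq_one hη
    refine ⟨ξA ^ i, by rw [← pow_mul, mul_comm, pow_mul, hξA1, one_pow], ?_⟩
    convert hηM using 3
    rw [← hi]
    apply Subtype.ext
    change algebraMap K L (algebraMap A K (ξA ^ i)) = (algebraMap K L (algebraMap A K ξA)) ^ i
    rw [map_pow, map_pow]
  obtain ⟨a0, ha0, hτa⟩ := hroot
  refine ⟨algebraMap A K a0, fun W hW hWM ζ hζ => ?_⟩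
  obtain ⟨hζ1, hζ2⟩ := hζ
  obtain ⟨a, rfl, ha⟩ := exists_of_pow_eq_one (A := A) hℓ.pos hζ1
  set V := W.comap (algebraMap F L) with hVdef
  have hV : OverGauss K A (algebraMap E F t) V := comap_overGauss hW
  have hVP : Thru V (IC K F A t) P := hWM.comap
  obtain ⟨z, ⟨s1, b1, hs1, hs1b, hb1s⟩, hz⟩ := hg V hV hVP
  have hs1V : (s1 : F) ∉ V.nonunits := fun h => hs1 (hVP s1 h)
  have hs10 : (s1 : F) ≠ 0 := by
    intro h
    apply hs1V
    rw [h, ValuationSubring.mem_nonunits_iff_or]
    exact Or.inl rfl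
  have hzV : z ∈ V := by
    rw [ValuationSubring.mem_nonunits_iff_or] at hs1V
    push Not at hs1V
    have h1 : z = (s1 : F)⁻¹ * b1 := by rw [← hs1b]; field_simp
    rw [h1]
    exact mul_mem hs1V.2 (hV.IC_le b1.2)
  have hr0 : r V ≠ 0 := by
    intro h
    have h1 := hr V hV
    rw [h, zero_pow hℓ.ne_zero, div_zero, zero_sub, neg_mem_iff,
      ValuationSubring.mem_nonunits_iff, map_one] at h1
    exact lt_irrefl _ h1
  have hrL : algebraMap F L (r V) ≠ 0 := by rwa [Ne, map_eq_zero]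
  set y : L := θ / algebraMap F L (r V) with hy
  have haW : algebraMap K L (algebraMap A K a) ∈ W := hW.coe_mem a
  have hrg : algebraMap F L (r V / g) ∈ W := by
    have h1 : r V / g = (r V / g - z) + z := by ring
    have h2 : r V / g ∈ V := by
      rw [h1]; exact add_mem (ValuationSubring.nonunits_subset hz) hzV
    exact h2
  have hkey : θ / algebraMap F L g - algebraMap K L (algebraMap A K a) * algebraMap F L z ∈
      W.nonunits := by
    have h1 : θ / algebraMap F L g - algebraMap K L (algebraMap A K a) * algebraMap F L z =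
        (y - algebraMap K L (algebraMap A K a)) * algebraMap F L (r V / g) +
          algebraMap F L (r V / g - z) * algebraMap K L (algebraMap A K a) := by
      rw [hy, map_sub, map_div₀]
      field_simp
      ring
    rw [h1]
    exact add_mem (nonunits_mul_mem hζ2 hrg) (nonunits_mul_mem (mem_nonunits_comap _ |>.1 hz) haW)
  set s1' := icMap K F L A t s1 with hs1'
  set b1' := icMap K F L A t b1 with hb1'
  set a' : IC K L A t := ⟨_, algebraMap_A_mem_IC a⟩ with ha'
  set a0' : IC K L A t := ⟨_, algebraMap_A_mem_IC a0⟩ with ha0'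
  have hM1 : s1' * ⟨τ, hτm⟩ - s' * b1' * a' ∈ M := by
    apply hWM
    have h1 : ((s1' * ⟨τ, hτm⟩ - s' * b1' * a' : IC K L A t) : L) =
        (θ / algebraMap F L g - algebraMap K L (algebraMap A K a) * algebraMap F L z) *
          algebraMap F L (s * s1 : F) := by
      change algebraMap F L (s1 : F) * τ - algebraMap F L (s : F) * algebraMap F L (b1 : F) *
        algebraMap K L (algebraMap A K a) = _
      rw [← hs1b, hτ, map_mul, map_mul]
      ring
    rw [h1]
    exact nonunits_mul_mem hkey (hV.IC_le (mul_mem s.2 s1.2))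
  have hM2 : s1' * (⟨τ, hτm⟩ - a0' * s') ∈ M := Ideal.mul_mem_left _ _ hτa
  have hM3 : b1' - s1' ∈ M := by
    have := Ideal.mem_comap.1 hb1s
    rwa [map_sub] at this
  have hM4 : s' * s1' * (a0' - a') ∈ M := by
    have h1 : s' * s1' * (a0' - a') = (s1' * ⟨τ, hτm⟩ - s' * b1' * a') -
        s1' * (⟨τ, hτm⟩ - a0' * s') + (s' * a') * (b1' - s1') := by ring
    rw [h1]
    exact add_mem (sub_mem hM1 hM2) (Ideal.mul_mem_left _ _ hM3)
  have hM5 : a0' - a' ∈ M := by
    rcases hM.isPrime.mem_or_mem hM4 with h | h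
    · rcases hM.isPrime.mem_or_mem h with h | h
      · exact absurd h hs'M
      · exact absurd h hs1
    · exact h
  by_contra hne
  have hne' : a0 ≠ a := fun h => hne (by rw [h])
  obtain ⟨u, hu⟩ := (isUnit_sub_of_roots hℓA ha0 ha hne').exists_right_inv
  apply hM.ne_top
  rw [Ideal.eq_top_iff_one]
  have h1 : (1 : IC K L A t) = (a0' - a') * ⟨_, algebraMap_A_mem_IC u⟩ := by
    apply Subtype.ext
    push_cast
    rw [← map_sub, ← map_sub, ← map_mul, ← map_mul, hu, map_one, map_one]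
  rw [h1]
  exact Ideal.mul_mem_right _ _ hM5

theorem rootSet_eq [IsAlgClosed K] [CharZero K] {t : E} {ℓ : ℕ} (hℓ : ℓ.Prime)
    (hℓA : IsUnit (ℓ : A)) {f : F} {θ : L} (hθ : θ ^ ℓ = algebraMap F L f)
    {r : ValuationSubring F → F}
    (hr : ∀ V : ValuationSubring F, OverGauss K A (algebraMap E F t) V →
      f / (r V) ^ ℓ - 1 ∈ V.nonunits)
    (hP : PtCond K A t f ℓ r) {W W' : ValuationSubring L}
    (hW : OverGauss K A (algebraMap E L t) W) (hW' : OverGauss K A (algebraMap E L t) W')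
    {M : Ideal (IC K L A t)} (hM : M.IsMaximal) (h1 : Thru W (IC K L A t) M)
    (h1' : Thru W' (IC K L A t) M) : rootSet K ℓ r θ W = rootSet K ℓ r θ W' := by
  obtain ⟨ζ0, h⟩ := rootSet_unique hℓ hℓA hθ hr hP hW hM h1
  have key : ∀ W : ValuationSubring L, OverGauss K A (algebraMap E L t) W →
      Thru W (IC K L A t) M → rootSet K ℓ r θ W = {ζ0} := by
    intro W hW hM
    obtain ⟨ζ, hζ⟩ := rootSet_nonempty (K := K) (A := A) hℓ hθ hr hW
    rw [Set.eq_singleton_iff_unique_mem]
    refine ⟨?_, h W hW hM⟩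
    rw [← h W hW hM ζ hζ]
    exact hζ
  rw [key W hW h1, key W' hW' h1']

end Tower

section Exists

variable {K E L : Type*} [Field K] [Field E] [Field L] [Algebra K E] [Algebra E L]
  [Algebra K L] [IsScalarTower K E L]
variable {A : Type*} [CommRing A] [IsDomain A] [ValuationRing A] [Algebra A K] [IsFractionRing A K]

theorem exists_algebraMap_of_isIntegral [IsAlgClosed K] (a : L) (ha : IsIntegral K a) :
    ∃ κ : K, algebraMap K L κ = a := by
  have h1 := IsAlgClosed.degree_eq_one_of_irreducible K (minpoly.irreducible ha)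
  obtain ⟨κ, hκ⟩ := minpoly.mem_range_of_degree_eq_one K a h1
  exact ⟨κ, hκ⟩

theorem exists_overGauss [FiniteDimensional E L] {t : E} (ht : IsGen K t) :
    ∃ V : ValuationSubring L, OverGauss K A (algebraMap E L t) V := by
  by_contra hne
  push Not at hne
  obtain ⟨n, hn⟩ := mem_radical_mBG (A := A) ht (one_mem (BG K L A t)) (fun V hV => absurd hV (hne V))
  obtain ⟨c, hc, b, hb⟩ := hn
  obtain ⟨u, hu, hub⟩ := b.2
  have hb' : (1 : L) = algebraMap E L (ev K A t (C c)) * b := by
    rw [← hb]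
    exact (one_pow n).symm
  have hc0 : algebraMap E L (ev K A t (C c)) ≠ 0 := by
    intro h
    rw [h, zero_mul] at hb'
    exact one_ne_zero hb'
  have h1 : algebraMap E L (ev K A t u) * b = algebraMap E L (ev K A t u / ev K A t (C c)) := by
    rw [map_div₀]
    field_simp
    rw [mul_assoc, mul_comm (b : L), ← hb', mul_one]
  rw [h1] at hub
  obtain ⟨q, hq⟩ := mem_range_of_mem_IC ht hub
  have h2 : ev K A t (C c) ≠ 0 := by
    intro h; apply hc0; rw [h, map_zero]
  have h3 : C c * q = u := by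
    apply ev_injective K A ht.trans
    rw [map_mul, hq]
    field_simp
  obtain ⟨i, hi⟩ := hu
  rw [← h3, coeff_C_mul] at hi
  exact (mem_maximalIdeal _).1 hc (isUnit_of_mul_isUnit_left hi)

/-- An idempotent of the special fibre is trivial. -/
theorem idem_dichotomy [FiniteDimensional E L] [Algebra.IsSeparable E L] {t : E} (ht : IsGen K t)
    (hK : ∀ a : L, IsIntegral K a → ∃ κ : K, algebraMap K L κ = a)
    {ϖ : A} (hϖ : IsRankOne A ϖ) {e e' : L} (he : e ∈ IC K L A t) (he' : e' ∈ IC K L A t⁻¹)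
    (h : ∀ V : ValuationSubring L, OverGauss K A (algebraMap E L t) V →
      e ^ 2 - e ∈ V.nonunits ∧ e' ^ 2 - e' ∈ V.nonunits ∧ e - e' ∈ V.nonunits) :
    (∀ V : ValuationSubring L, OverGauss K A (algebraMap E L t) V → e ∈ V.nonunits) ∨
    (∀ V : ValuationSubring L, OverGauss K A (algebraMap E L t) V → 1 - e ∈ V.nonunits) := by
  obtain ⟨κ, hκ⟩ := exists_const ht hK hϖ he he' h
  obtain ⟨V0, hV0⟩ := exists_overGauss (L := L) (A := A) ht
  have h1 : algebraMap K L κ ∈ V0 := by
    have := sub_mem (hV0.IC_le he) (ValuationSubring.nonunits_subset (hκ V0 hV0))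
    have h2 : algebraMap K L κ = e - (e - algebraMap K L κ) := by ring
    rw [h2]; exact this
  obtain ⟨a, rfl⟩ := (hV0.mem_iff κ).1 h1
  have h2 : algebraMap K L (algebraMap A K (a * (1 - a))) ∈ V0.nonunits := by
    have h3 := nonunits_mul_mem (hκ V0 hV0) (sub_mem (one_mem V0) (add_mem (hV0.IC_le he) h1))
    have h4 := neg_mem (add_mem (h V0 hV0).1 h3)
    convert h4 using 1
    simp only [map_mul, map_sub, map_one]
    ring
  rw [hV0.nonunits_iff] at h2
  rcases (maximalIdeal.isMaximal A).isPrime.mem_or_mem h2 with h3 | h3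
  · left
    intro V hV
    have := add_mem (hκ V hV) ((hV.nonunits_iff a).2 h3)
    rwa [sub_add_cancel] at this
  · right
    intro V hV
    have := sub_mem ((hV.nonunits_iff _).2 h3) (hκ V hV)
    convert this using 1
    simp only [map_sub, map_one]
    ring

end Exists

section Main

universe u

variable {K E : Type*} {F : Type u} [Field K] [Field E] [Field F] [Algebra K E] [Algebra E F]
  [Algebra K F] [IsScalarTower K E F]
variable {A : Type*} [CommRing A] [IsDomain A] [ValuationRing A] [Algebra A K] [IsFractionRing A K]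

theorem Loc1.mem {S : Subring F} {P : Ideal S} {z : F} (h : Loc1 S P z) {V : ValuationSubring F}
    (hV : Thru V S P) (hS : S ≤ V.toSubring) : z ∈ V := by
  obtain ⟨s, b, hs, hsb, -⟩ := h
  have hs1V : (s : F) ∉ V.nonunits := fun h => hs (hV s h)
  rw [ValuationSubring.mem_nonunits_iff_or] at hs1V
  push Not at hs1V
  have h1 : z = (s : F)⁻¹ * b := by
    rw [← hsb, ← mul_assoc, inv_mul_cancel₀ hs1V.1, one_mul]
  rw [h1]
  exact mul_mem hs1V.2 (hS b.2)

theorem Loc1.one (S : Subring F) (P : Ideal S) [hP : P.IsPrime] : Loc1 S P 1 :=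
  ⟨1, 1, fun h => hP.ne_top ((Ideal.eq_top_iff_one _).2 h), by simp, by simp⟩

theorem Loc1.mul {S : Subring F} {P : Ideal S} [hP : P.IsPrime] {z w : F} (hz : Loc1 S P z)
    (hw : Loc1 S P w) : Loc1 S P (z * w) := by
  obtain ⟨s, b, hs, hsb, hbs⟩ := hz
  obtain ⟨s', b', hs', hsb', hbs'⟩ := hw
  refine ⟨s * s', b * b', fun h => ?_, ?_, ?_⟩
  · rcases hP.mem_or_mem h with h | h
    · exact hs h
    · exact hs' h
  · push_cast
    rw [← hsb, ← hsb']
    ring
  · have : b * b' - s * s' = b * (b' - s') + s' * (b - s) := by ring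
    rw [this]
    exact add_mem (Ideal.mul_mem_left _ _ hbs') (Ideal.mul_mem_left _ _ hbs)

theorem Loc1.pow {S : Subring F} {P : Ideal S} [hP : P.IsPrime] {z : F} (hz : Loc1 S P z)
    (n : ℕ) : Loc1 S P (z ^ n) := by
  induction n with
  | zero => rw [pow_zero]; exact Loc1.one S P
  | succ n ih => rw [pow_succ]; exact ih.mul hz

theorem pow_sub_pow_nonunits {V : ValuationSubring F} {a b : F} (hb : b ∈ V)
    (h : a - b ∈ V.nonunits) (n : ℕ) : a ^ n - b ^ n ∈ V.nonunits := by
  have ha : a ∈ V := by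
    have := add_mem (ValuationSubring.nonunits_subset h) hb
    rwa [sub_add_cancel] at this
  rw [← (Commute.all a b).geom_sum₂_mul, mul_comm]
  exact nonunits_mul_mem h (sum_mem fun i _ => mul_mem (pow_mem ha _) (pow_mem hb _))

/-- A locally trivial Kummer class of prime exponent is trivial. -/
theorem exists_root_of_local [IsAlgClosed K] [CharZero K] [FiniteDimensional E F] {t : E}
    (ht : IsGen K t) {ϖ : A} (hϖ : IsRankOne A ϖ) {ℓ : ℕ} (hℓ : ℓ.Prime) (hℓA : IsUnit (ℓ : A))
    {f : F} {r : ValuationSubring F → F}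
    (hr : ∀ V : ValuationSubring F, OverGauss K A (algebraMap E F t) V →
      f / (r V) ^ ℓ - 1 ∈ V.nonunits)
    (hP : PtCond K A t f ℓ r) (hP' : PtCond K A t⁻¹ f ℓ r) : ∃ h : F, h ^ ℓ = f := by
  by_contra hne
  push Not at hne
  haveI : Fact (Irreducible (X ^ ℓ - C f)) := ⟨X_pow_sub_C_irreducible_of_prime hℓ hne⟩
  let L := AdjoinRoot (X ^ ℓ - C f)
  haveI : CharZero E := charZero_of_injective_algebraMap (algebraMap K E).injective
  haveI : FiniteDimensional F L := (AdjoinRoot.powerBasis (X_pow_sub_C_ne_zero hℓ.pos f)).finite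
  haveI : FiniteDimensional E L := FiniteDimensional.trans E F L
  haveI : IsScalarTower K E L := by
    refine IsScalarTower.of_algebraMap_eq fun a => ?_
    rw [IsScalarTower.algebraMap_apply K F L, IsScalarTower.algebraMap_apply E F L,
      ← IsScalarTower.algebraMap_apply K E F]
  let θ : L := AdjoinRoot.root _
  have hθ : θ ^ ℓ = algebraMap F L f := by
    have h1 := AdjoinRoot.eval₂_root (X ^ ℓ - C f)
    rw [eval₂_sub, eval₂_pow, eval₂_X, eval₂_C, sub_eq_zero] at h1
    exact h1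
  have hx0 : algebraMap E F t ≠ 0 := by rw [Ne, map_eq_zero]; exact ht.ne_zero
  have hxL0 : algebraMap E L t ≠ 0 := by rw [Ne, map_eq_zero]; exact ht.ne_zero
  have hr' : ∀ V : ValuationSubring F, OverGauss K A (algebraMap E F t⁻¹) V →
      f / (r V) ^ ℓ - 1 ∈ V.nonunits := fun V hV => hr V (by
    rw [map_inv₀] at hV; exact (OverGauss.inv_iff hx0).1 hV)
  have hconst := connected (K := K) (L := L) ht
    (fun a ha => exists_algebraMap_of_isIntegral a ha) hϖ (rootSet K ℓ r θ)
    (fun W W' hW hW' P hPm h1 h1' => rootSet_eq hℓ hℓA hθ hr hP hW hW' hPm h1 h1')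
    (fun W W' hW hW' P hPm h1 h1' => by
      refine rootSet_eq (t := t⁻¹) hℓ hℓA hθ hr' hP' ?_ ?_ hPm h1 h1'
      · rw [map_inv₀]; exact hW.inv hxL0
      · rw [map_inv₀]; exact hW'.inv hxL0)
  obtain ⟨W, hW⟩ := exists_overGauss (L := L) (A := A) ht
  haveI : NeZero (ℓ : K) := ⟨by exact_mod_cast hℓ.ne_zero⟩
  obtain ⟨ζ, hζ⟩ := HasEnoughRootsOfUnity.exists_primitiveRoot K ℓ
  have hσ0 : (X ^ ℓ - C f).eval₂ ((AdjoinRoot.ofAlgHom F (X ^ ℓ - C f)).toRingHom)
      (algebraMap K L ζ * θ) = 0 := by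
    rw [eval₂_sub, eval₂_pow, eval₂_X, eval₂_C, mul_pow, ← map_pow, hζ.pow_eq_one, map_one,
      one_mul, hθ, sub_eq_zero]
    rfl
  let σ : L →ₐ[F] L := AdjoinRoot.liftAlgHom (X ^ ℓ - C f) (AdjoinRoot.ofAlgHom F (X ^ ℓ - C f))
    (algebraMap K L ζ * θ) hσ0
  have hσθ : σ θ = algebraMap K L ζ * θ := AdjoinRoot.liftAlgHom_root _ _ _ _
  have hW1 : OverGauss K A (algebraMap E L t) (W.comap (σ : L →+* L)) := by
    refine OverGauss.comap (σ.restrictScalars K) ?_
    have h1 : (σ.restrictScalars K) (algebraMap E L t) = algebraMap E L t := by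
      rw [IsScalarTower.algebraMap_apply E F L]
      exact σ.commutes _
    rw [h1]
    exact hW
  have heq := hconst W _ hW hW1
  obtain ⟨ξ, hξ⟩ := rootSet_nonempty (K := K) (A := A) hℓ hθ hr hW
  have hξ1 : ξ ∈ rootSet K ℓ r θ (W.comap (σ : L →+* L)) := heq ▸ hξ
  obtain ⟨hξp, hξ2⟩ := hξ
  obtain ⟨-, hξ3⟩ := hξ1
  have hV : (W.comap (σ : L →+* L)).comap (algebraMap F L) = W.comap (algebraMap F L) := by
    rw [ValuationSubring.comap_comap]
    congr 1
    exact RingHom.ext fun a => σ.commutes a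
  rw [hV, mem_nonunits_comap] at hξ3
  set ρ := r (W.comap (algebraMap F L)) with hρ
  have h2 : (σ : L →+* L) (θ / algebraMap F L ρ - algebraMap K L ξ) =
      algebraMap K L ζ * (θ / algebraMap F L ρ) - algebraMap K L ξ := by
    have h3 : σ (θ / algebraMap F L ρ - algebraMap K L ξ) =
      algebraMap K L ζ * (θ / algebraMap F L ρ) - algebraMap K L ξ := by
      rw [map_sub, map_div₀, hσθ, σ.commutes]
      have h4 : σ (algebraMap K L ξ) = algebraMap K L ξ := (σ.restrictScalars K).commutes ξ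
      rw [h4, mul_div_assoc]
    exact h3
  rw [h2] at hξ3
  obtain ⟨ζA, rfl, hζA⟩ := exists_of_pow_eq_one (A := A) hℓ.pos hζ.pow_eq_one
  obtain ⟨ξA, rfl, hξA⟩ := exists_of_pow_eq_one (A := A) hℓ.pos hξp
  have h3 : algebraMap K L (algebraMap A K ((ζA - 1) * ξA)) ∈ W.nonunits := by
    have h4 := sub_mem hξ3 (nonunits_mul_mem hξ2 (hW.coe_mem ζA))
    convert h4 using 1
    simp only [map_sub, map_mul, map_one]
    ring
  rw [hW.nonunits_iff, mem_maximalIdeal, mem_nonunits_iff] at h3
  apply h3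
  have hζ1 : ζA ≠ 1 := by
    rintro rfl
    rw [map_one] at hζ
    exact hℓ.one_lt.ne' (hζ.unique IsPrimitiveRoot.one)
  refine (isUnit_sub_of_roots hℓA hζA (one_pow ℓ) hζ1).mul ?_
  exact IsUnit.of_mul_eq_one (ξA ^ (ℓ - 1)) (by
    rw [← pow_succ', Nat.sub_add_cancel hℓ.pos, hξA])

/-- **Locally trivial Kummer classes are trivial.** -/
theorem exists_pow_of_local [IsAlgClosed K] [CharZero K] [FiniteDimensional E F] {t : E}
    (ht : IsGen K t) {ϖ : A} (hϖ : IsRankOne A ϖ) {ℓ : ℕ} (hℓ : ℓ.Prime) (hℓA : IsUnit (ℓ : A))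
    (a : ℕ) {f : F} {r : ValuationSubring F → F}
    (hr : ∀ V : ValuationSubring F, OverGauss K A (algebraMap E F t) V →
      f / (r V) ^ (ℓ ^ a) - 1 ∈ V.nonunits)
    (hP : PtCond K A t f (ℓ ^ a) r) (hP' : PtCond K A t⁻¹ f (ℓ ^ a) r) :
    ∃ h : F, h ^ (ℓ ^ a) = f := by
  have hx0 : algebraMap E F t ≠ 0 := by rw [Ne, map_eq_zero]; exact ht.ne_zero
  haveI : CharZero E := charZero_of_injective_algebraMap (algebraMap K E).injective
  have hK : ∀ a : F, IsIntegral K a → ∃ κ : K, algebraMap K F κ = a :=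
    fun a ha => exists_algebraMap_of_isIntegral a ha
  induction a generalizing f with
  | zero => exact ⟨f, by rw [pow_zero, pow_one]⟩
  | succ a ih =>
    -- extract an `ℓ`-th root
    have hpt : ∀ {t' : E}, IsGen K t' → PtCond K A t' f (ℓ ^ (a + 1)) r →
        PtCond K A t' f ℓ (fun V => r V ^ (ℓ ^ a)) := by
      intro t' ht' hP P hPm hex
      haveI := hPm.isPrime
      obtain ⟨g, hg, hg'⟩ := hP P hPm hex
      refine ⟨g ^ (ℓ ^ a), ?_, fun V hV hVP => ?_⟩
      · rwa [← pow_mul, ← pow_succ]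
      · obtain ⟨z, hz, hz'⟩ := hg' V hV hVP
        refine ⟨z ^ (ℓ ^ a), hz.pow _, ?_⟩
        rw [← div_pow]
        exact pow_sub_pow_nonunits (hz.mem hVP hV.IC_le) hz' _
    obtain ⟨h, hh⟩ := exists_root_of_local ht hϖ hℓ hℓA (f := f) (r := fun V => r V ^ (ℓ ^ a))
      (fun V hV => by
        have := hr V hV
        rwa [pow_succ, pow_mul] at this) (hpt ht hP) (hpt ht.inv hP')
    -- the root of unity is constant
    have hh' : h ^ ℓ = algebraMap F F f := hh
    have hr1 : ∀ V : ValuationSubring F, OverGauss K A (algebraMap E F t) V →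
        f / (r V ^ (ℓ ^ a)) ^ ℓ - 1 ∈ V.nonunits := fun V hV => by
      have := hr V hV
      rwa [pow_succ, pow_mul] at this
    have hr1' : ∀ V : ValuationSubring F, OverGauss K A (algebraMap E F t⁻¹) V →
        f / (r V ^ (ℓ ^ a)) ^ ℓ - 1 ∈ V.nonunits := fun V hV => hr1 V (by
      rw [map_inv₀] at hV; exact (OverGauss.inv_iff hx0).1 hV)
    have hconst := connected (K := K) (L := F) ht hK hϖ
      (rootSet K ℓ (fun V => r V ^ (ℓ ^ a)) h)
      (fun W W' hW hW' P hPm h1 h1' => rootSet_eq hℓ hℓA hh' hr1 (hpt ht hP) hW hW' hPm h1 h1')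
      (fun W W' hW hW' P hPm h1 h1' => by
        refine rootSet_eq (t := t⁻¹) hℓ hℓA hh' hr1' (hpt ht.inv hP') ?_ ?_ hPm h1 h1'
        · rw [map_inv₀]; exact hW.inv hx0
        · rw [map_inv₀]; exact hW'.inv hx0)
    obtain ⟨W, hW⟩ := exists_overGauss (L := F) (A := A) ht
    obtain ⟨ξ, hξ⟩ := rootSet_nonempty (K := K) (A := A) hℓ hh' hr1 hW
    have hξp : ξ ^ ℓ = 1 := hξ.1
    obtain ⟨ξA, rfl, hξA⟩ := exists_of_pow_eq_one (A := A) hℓ.pos hξp
    have hξall : ∀ V : ValuationSubring F, OverGauss K A (algebraMap E F t) V →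
        h / r V ^ (ℓ ^ a) - algebraMap K F (algebraMap A K ξA) ∈ V.nonunits := by
      intro V hV
      have h1 : algebraMap A K ξA ∈ rootSet K ℓ (fun V => r V ^ (ℓ ^ a)) h V := by
        rw [← hconst W V hW hV]; exact hξ
      have h2 := h1.2
      have h3 : V.comap (algebraMap F F) = V := by ext z; exact Iff.rfl
      rw [h3] at h2
      exact h2
    have hξ0 : algebraMap K F (algebraMap A K ξA) ≠ 0 := by
      rw [Ne, map_eq_zero, map_eq_zero_iff _ (IsFractionRing.injective A K)]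
      rintro rfl
      rw [zero_pow hℓ.ne_zero] at hξA
      exact zero_ne_one hξA
    have hξinv : (algebraMap K F (algebraMap A K ξA))⁻¹ =
        algebraMap K F (algebraMap A K (ξA ^ (ℓ - 1))) := by
      apply inv_eq_of_mul_eq_one_right
      rw [← map_mul, ← map_mul, ← pow_succ', Nat.sub_add_cancel hℓ.pos, hξA, map_one, map_one]
    set h1 : F := h / algebraMap K F (algebraMap A K ξA) with hh1
    have hh1p : h1 ^ ℓ = f := by
      rw [hh1, div_pow, hh, ← map_pow, hξp, map_one, div_one]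
    have hcomp : ∀ V : ValuationSubring F, OverGauss K A (algebraMap E F t) V →
        h1 / r V ^ (ℓ ^ a) - 1 ∈ V.nonunits := by
      intro V hV
      have h2 := nonunits_mul_mem (hξall V hV) (hV.coe_mem (ξA ^ (ℓ - 1)))
      rw [← hξinv] at h2
      convert h2 using 1
      rw [hh1]
      field_simp
    have hcomp' : ∀ V : ValuationSubring F, OverGauss K A (algebraMap E F t⁻¹) V →
        h1 / r V ^ (ℓ ^ a) - 1 ∈ V.nonunits := fun V hV => hcomp V (by
      rw [map_inv₀] at hV; exact (OverGauss.inv_iff hx0).1 hV)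
    have hpt1 : ∀ {t' : E}, IsGen K t' → (∀ V : ValuationSubring F,
        OverGauss K A (algebraMap E F t') V → h1 / r V ^ (ℓ ^ a) - 1 ∈ V.nonunits) →
        PtCond K A t' f (ℓ ^ (a + 1)) r → PtCond K A t' h1 (ℓ ^ a) r := by
      intro t' ht' hcomp hP P hPm hex
      haveI := hPm.isPrime
      obtain ⟨g, ⟨s, b, hs, hsb, hbs⟩, hg'⟩ := hP P hPm hex
      refine ⟨g, ?_, hg'⟩
      obtain ⟨V, hV, hVP⟩ := hex
      obtain ⟨z, hz, hz'⟩ := hg' V hV hVP
      have hzV := hz.mem hVP hV.IC_le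
      obtain ⟨s1, b1, hs1, hs1b, hb1s⟩ := hz.pow (ℓ ^ a)
      set τ : F := s * (h1 / g ^ (ℓ ^ a)) with hτ
      have hτp : τ ^ ℓ = (s : F) ^ (ℓ - 1) * b := by
        have h2 : (s : F) ^ ℓ = (s : F) ^ (ℓ - 1) * s := by
          rw [← pow_succ, Nat.sub_add_cancel hℓ.pos]
        rw [hτ, mul_pow, div_pow, hh1p, ← pow_mul, ← pow_succ, h2, ← hsb]
        ring
      have hτm : τ ∈ IC K F A t' := by
        apply mem_IC_of_pow hℓ.pos
        rw [hτp]
        exact mul_mem (pow_mem s.2 _) b.2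
      refine ⟨s, ⟨τ, hτm⟩, hs, rfl, ?_⟩
      have hrV0 : r V ≠ 0 := by
        intro h0
        have h2 := hcomp V hV
        rw [h0, zero_pow (pow_ne_zero _ hℓ.ne_zero), div_zero, zero_sub, neg_mem_iff,
          ValuationSubring.mem_nonunits_iff, map_one] at h2
        exact lt_irrefl _ h2
      have h2 : h1 / g ^ (ℓ ^ a) - z ^ (ℓ ^ a) ∈ V.nonunits := by
        have h3 := pow_sub_pow_nonunits hzV hz' (ℓ ^ a)
        have h4 : (r V / g) ^ (ℓ ^ a) ∈ V := by
          have := add_mem (ValuationSubring.nonunits_subset h3) (pow_mem hzV (ℓ ^ a))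
          rwa [sub_add_cancel] at this
        have h5 := add_mem (nonunits_mul_mem (hcomp V hV) h4) h3
        convert h5 using 1
        rw [div_pow]
        field_simp
        ring
      have h3 : s1 * ⟨τ, hτm⟩ - s * b1 ∈ P := by
        apply hVP
        have h4 : ((s1 * ⟨τ, hτm⟩ - s * b1 : IC K F A t') : F) =
            (h1 / g ^ (ℓ ^ a) - z ^ (ℓ ^ a)) * (s * s1) := by
          push_cast
          rw [← hs1b, hτ]
          ring
        rw [h4]
        exact nonunits_mul_mem h2 (hV.IC_le (mul_mem s.2 s1.2))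
      have h4 : s1 * (⟨τ, hτm⟩ - s) ∈ P := by
        have h5 : s1 * (⟨τ, hτm⟩ - s) = (s1 * ⟨τ, hτm⟩ - s * b1) + s * (b1 - s1) := by ring
        rw [h5]
        exact add_mem h3 (Ideal.mul_mem_left _ _ hb1s)
      exact (hPm.isPrime.mem_or_mem h4).resolve_left hs1
    obtain ⟨h2, hh2⟩ := ih hcomp (hpt1 ht hcomp hP) (hpt1 ht.inv hcomp' hP')
    exact ⟨h2, by rw [pow_succ, pow_mul, hh2, hh1p]⟩

end Main

end Fermat.Agent.QComp
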