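import Fermat.Agent.QComp.Point
import Fermat.Agent.QComp.Kummer

/-!
# From the rational charts to the geometric charts
-/

set_option autoImplicit false
set_option linter.unusedSectionVars false
set_option linter.style.haveILetI false

open Polynomial IsLocalRing AlgebraicCurve

namespace Fermat.Agent.QComp

section Data

variable {L : Type*} [Field L]

/-- the data required at the point `P` of a rational chart. -/
def PtData (S : Subring L) (F0 : Subfield L) {ι : Type*} (V : ι → ValuationSubring L) (ω : ι → L)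
    (P : Ideal S) (f : L) (n : ℕ) : Prop :=
  ∃ g : L, g ∈ F0 ∧ Loc1 S P (f / g ^ n) ∧ ∀ i, Thru (V i) S P →
    ∃ z, Loc1 S P z ∧ ω i / g - z ∈ (V i).nonunits

theorem Loc1.mem_subfield {S : Subring L} {P : Ideal S} [hP : P.IsPrime] {F0 : Subfield L}
    (hS : S ≤ F0.toSubring) {z : L} (h : Loc1 S P z) : z ∈ F0 := by
  obtain ⟨s, b, hs, hsb, -⟩ := h
  have hs0 := ne_zero_of_notMem hs
  have : z = b / s := by rw [← hsb]; field_simp
  rw [this]
  exact F0.div_mem (hS b.2) (hS s.2)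

end Data

section Transfer

variable {K0 K L : Type*} [Field K0] [Field K] [Field L] [Algebra K0 K] [Algebra K L]
  [Algebra K0 L] [IsScalarTower K0 K L]
variable {F0 : IntermediateField K0 L}
variable {E0 E : Type*} [Field E0] [Field E] [Algebra K0 E0] [Algebra E0 F0] [Algebra K E]
  [Algebra E L] [IsScalarTower K0 E0 F0] [IsScalarTower K E L]
variable {A0 A : Type*} [CommRing A0] [CommRing A] [IsDomain A] [ValuationRing A]
  [Algebra A0 K0] [Algebra A K] [IsFractionRing A K]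

omit [IsScalarTower K0 K L] [Algebra K0 K] [IsDomain A] [ValuationRing A] [IsFractionRing A K] in
theorem SF_le (F0 : IntermediateField K0 L) (t : E) : SF K L A F0 t ≤ IC K L A t := inf_le_left

/-- `IC K L A t` is integral over its rational part -/
theorem isIntegral_SF {t0 : E0} {t : E}
    (hx : algebraMap E L t = (algebraMap E0 F0 t0 : F0)) {ι : A0 →+* A} (hι : ι.IsIntegral)
    (hcomp : ∀ a, algebraMap A K (ι a) = algebraMap K0 K (algebraMap A0 K0 a)) :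
    (Subring.inclusion (SF_le (K := K) (A := A) F0 t)).IsIntegral := by
  have key : (((algebraMap E L).comp (ev K A t)).comp (mapRingHom ι)) =
      (algebraMap F0 L).comp ((algebraMap E0 F0).comp (ev K0 A0 t0)) := by
    refine Polynomial.ringHom_ext (fun r => ?_) ?_
    · change algebraMap E L (ev K A t (mapRingHom ι (C r))) =
        algebraMap F0 L (algebraMap E0 F0 (ev K0 A0 t0 (C r)))
      rw [coe_mapRingHom, map_C, ev_C, ev_C, hcomp, ← IsScalarTower.algebraMap_apply K E L,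
        ← IsScalarTower.algebraMap_apply K0 E0 F0, ← IsScalarTower.algebraMap_apply K0 F0 L,
        ← IsScalarTower.algebraMap_apply K0 K L]
    · change algebraMap E L (ev K A t (mapRingHom ι X)) =
        algebraMap F0 L (algebraMap E0 F0 (ev K0 A0 t0 X))
      rw [coe_mapRingHom, map_X, ev_X, ev_X, hx]
      rfl
  intro z
  letI i1 := (mapRingHom ι).toAlgebra
  letI i2 := ((algebraMap E L).comp (ev K A t)).toAlgebra
  letI i3 := (((algebraMap E L).comp (ev K A t)).comp (mapRingHom ι)).toAlgebra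
  haveI : IsScalarTower A0[X] A[X] L := IsScalarTower.of_algebraMap_eq fun _ => rfl
  haveI : Algebra.IsIntegral A0[X] A[X] := ⟨isIntegral_mapRingHom hι⟩
  have h1 : IsIntegral A[X] (z : L) := z.2
  have h2 : IsIntegral A0[X] (z : L) := isIntegral_trans (R := A0[X]) _ h1
  obtain ⟨p, hp, hpz⟩ := h2
  have hmem : ∀ u : A0[X], (((algebraMap E L).comp (ev K A t)).comp (mapRingHom ι)) u ∈
      SF K L A F0 t := by
    intro u
    refine ⟨ev_mem_IC t _, ?_⟩
    rw [key]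
    exact (algebraMap E0 F0 (ev K0 A0 t0 u)).2
  let ψ : A0[X] →+* SF K L A F0 t := RingHom.codRestrict _ _ hmem
  refine ⟨p.map ψ, hp.map _, Subtype.ext ?_⟩
  have h3 : ((IC K L A t).subtype) (eval₂ (Subring.inclusion (SF_le (K := K) (A := A) F0 t)) z (p.map ψ)) = eval₂ (algebraMap A0[X] L) z.1 p := by
    rw [hom_eval₂, eval₂_map]
    rfl
  exact h3.trans hpz

theorem isIntegral_SF_isMaximal {t0 : E0} {t : E}
    (hx : algebraMap E L t = (algebraMap E0 F0 t0 : F0)) {ι : A0 →+* A} (hι : ι.IsIntegral)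
    (hcomp : ∀ a, algebraMap A K (ι a) = algebraMap K0 K (algebraMap A0 K0 a))
    (P : Ideal (IC K L A t)) [hP : P.IsMaximal] :
    (P.comap (Subring.inclusion (SF_le (K := K) (A := A) F0 t))).IsMaximal :=
  Ideal.isMaximal_comap_of_isIntegral_of_isMaximal' _ (isIntegral_SF hx hι hcomp) P

variable {ι : Type*} {V : ι → ValuationSubring L} {ω : ι → L} {r : ValuationSubring L → L}
  {f : L} {n : ℕ}

theorem Loc1.inclusion {S R : Subring L} (h : S ≤ R) {P : Ideal R} {z : L}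
    (hz : Loc1 S (P.comap (Subring.inclusion h)) z) : Loc1 R P z := by
  obtain ⟨s, b, hs, hsb, hbs⟩ := hz
  exact ⟨Subring.inclusion h s, Subring.inclusion h b, fun h' => hs h', hsb, by
    rw [← map_sub]; exact hbs⟩

theorem thru_comap {S R : Subring L} (h : S ≤ R) {P : Ideal R} {V W : ValuationSubring L}
    (hV : Thru W R P) (hVW : ∀ z ∈ S, z ∈ V.nonunits → z ∈ W.nonunits) :
    Thru V S (P.comap (Subring.inclusion h)) := fun b hb => hV _ (hVW _ b.2 hb)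

/-- the point condition in the geometric chart from the rational chart -/
theorem ptCond_of_data {t : E}
    (hcls : ∀ W, OverGauss K A (algebraMap E L t) W → ∃ i, r W = ω i ∧
      ∀ z ∈ F0, (z ∈ (V i).nonunits ↔ z ∈ W.nonunits))
    (hω : ∀ i, ω i ∈ F0)
    (hdata : ∀ P : Ideal (IC K L A t), P.IsMaximal → (∃ i, Thru (V i) (SF K L A F0 t)
      (P.comap (Subring.inclusion (SF_le F0 t)))) →
      PtData (SF K L A F0 t) F0.toSubfield V ω (P.comap (Subring.inclusion (SF_le F0 t))) f n) :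
    PtCond K A t f n r := by
  intro P hP hex
  have hthru : ∀ W, OverGauss K A (algebraMap E L t) W → Thru W (IC K L A t) P → ∃ i,
      Thru (V i) (SF K L A F0 t) (P.comap (Subring.inclusion (SF_le F0 t))) ∧ r W = ω i ∧
      ∀ z ∈ F0, (z ∈ (V i).nonunits ↔ z ∈ W.nonunits) := by
    intro W hW hWP
    obtain ⟨i, hi, hi'⟩ := hcls W hW
    exact ⟨i, thru_comap _ hWP fun z hz h => (hi' z hz.2).1 h, hi, hi'⟩
  obtain ⟨W0, hW0, hW0P⟩ := hex
  obtain ⟨i0, hi0, -⟩ := hthru W0 hW0 hW0P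
  obtain ⟨g, hg, hgf, hgi⟩ := hdata P hP ⟨i0, hi0⟩
  refine ⟨g, hgf.inclusion, fun W hW hWP => ?_⟩
  obtain ⟨i, hi, hri, hi'⟩ := hthru W hW hWP
  obtain ⟨z, hz, hzi⟩ := hgi i hi
  haveI := hP.isPrime
  have hPc : (P.comap (Subring.inclusion (SF_le (K := K) (A := A) F0 t))).IsPrime :=
    Ideal.IsPrime.comap _
  refine ⟨z, hz.inclusion, ?_⟩
  rw [hri, ← hi']
  · exact hzi
  · exact F0.sub_mem (F0.div_mem (hω i) hg) (Loc1.mem_subfield (hP := hPc) (F0 := F0.toSubfield) inf_le_right hz)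

end Transfer

section Two

variable {L : Type*} [Field L]

/-- the transfer of an ideal of `S'` to `S` through the local ring -/
noncomputable def trP {S S' : Subring L} (P' : Ideal S') [P'.IsPrime] (h : S ≤ LB S' P') :
    Ideal S :=
  (maximalIdeal (LB S' P')).comap (Subring.inclusion h)

instance {S S' : Subring L} (P' : Ideal S') [P'.IsPrime] (h : S ≤ LB S' P') :
    (trP P' h).IsPrime := Ideal.IsPrime.comap _

theorem mem_trP {S S' : Subring L} {P' : Ideal S'} [hP' : P'.IsPrime] {h : S ≤ LB S' P'} {b : S}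
    {b' s' : S'} (hs' : s' ∉ P') (hb : (b : L) = b' / s') : b ∈ trP P' h ↔ b' ∈ P' := by
  rw [trP, Ideal.mem_comap, mem_maximalIdeal, mem_nonunits_iff, isUnit_LB_iff]
  constructor
  · intro h1
    by_contra hb'
    exact h1 ⟨b', s', hb', hs', hb⟩
  · rintro h1 ⟨b1, s1, hb1, hs1, hbs⟩
    have h2 : (b' : L) / s' = b1 / s1 := hb.symm.trans hbs
    have hs0 := ne_zero_of_notMem hs'
    have hs10 := ne_zero_of_notMem hs1
    rw [div_eq_div_iff hs0 hs10] at h2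
    have h3 : b' * s1 = b1 * s' := Subtype.ext h2
    have h4 : b1 * s' ∈ P' := h3 ▸ Ideal.mul_mem_right _ _ h1
    rcases hP'.mem_or_mem h4 with h5 | h5
    · exact hb1 h5
    · exact hs' h5

/-- `S` and `S'` are charts glued along `x` and `x⁻¹`. -/
theorem exists_num {S S' : Subring L} {x : L} (hx : x⁻¹ ∈ S')
    (hSS' : ∀ b ∈ S, ∃ n0 : ℕ, ∀ n ≥ n0, (x⁻¹) ^ n * b ∈ S') {P' : Ideal S'} [hP' : P'.IsPrime]
    (hxP : (⟨x⁻¹, hx⟩ : S') ∉ P') (b c : S) :
    ∃ b' c' s' : S', s' ∉ P' ∧ (b : L) = b' / s' ∧ (c : L) = c' / s' ∧ ∃ n : ℕ,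
      (s' : L) = (x⁻¹) ^ n := by
  obtain ⟨n1, h1⟩ := hSS' b b.2
  obtain ⟨n2, h2⟩ := hSS' c c.2
  have hx0 : x ≠ 0 := by
    have := ne_zero_of_notMem hxP
    intro h
    apply this
    change x⁻¹ = 0
    rw [h, inv_zero]
  set n := max n1 n2
  have hn : (⟨x⁻¹, hx⟩ : S') ^ n ∉ P' := fun h => hxP (hP'.mem_of_pow_mem _ h)
  refine ⟨⟨_, h1 n (le_max_left _ _)⟩, ⟨_, h2 n (le_max_right _ _)⟩, ⟨x⁻¹, hx⟩ ^ n, hn, ?_, ?_,
    n, by push_cast; rfl⟩
  · push_cast; field_simp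
  · push_cast; field_simp

theorem le_LB {S S' : Subring L} {x : L} (hx : x⁻¹ ∈ S')
    (hSS' : ∀ b ∈ S, ∃ n0 : ℕ, ∀ n ≥ n0, (x⁻¹) ^ n * b ∈ S') {P' : Ideal S'} [hP' : P'.IsPrime]
    (hxP : (⟨x⁻¹, hx⟩ : S') ∉ P') : S ≤ LB S' P' := by
  intro b hb
  obtain ⟨b', -, s', hs', h1, -⟩ := exists_num hx hSS' hxP ⟨b, hb⟩ 0
  exact mem_LB.2 ⟨b', s', hs', h1⟩

theorem Loc1.transfer {S S' : Subring L} {x : L} (hx : x⁻¹ ∈ S')
    (hSS' : ∀ b ∈ S, ∃ n0 : ℕ, ∀ n ≥ n0, (x⁻¹) ^ n * b ∈ S') {P' : Ideal S'} [hP' : P'.IsPrime]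
    (hxP : (⟨x⁻¹, hx⟩ : S') ∉ P') {z : L} (hz : Loc1 S (trP P' (le_LB hx hSS' hxP)) z) :
    Loc1 S' P' z := by
  obtain ⟨s, b, hs, hsb, hbs⟩ := hz
  obtain ⟨s1, b1, d, hd, h1, h2, -⟩ := exists_num hx hSS' hxP s b
  rw [mem_trP hd h1] at hs
  rw [mem_trP (b' := b1 - s1) hd (by push_cast; rw [h1, h2]; ring)] at hbs
  refine ⟨s1, b1, hs, ?_, hbs⟩
  have hd0 := ne_zero_of_notMem hd
  rw [h1, h2] at hsb
  field_simp at hsb
  linear_combination hsb

theorem PtData.transfer {S S' : Subring L} {x : L} (hx : x⁻¹ ∈ S')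
    (hSS' : ∀ b ∈ S, ∃ n0 : ℕ, ∀ n ≥ n0, (x⁻¹) ^ n * b ∈ S') {P' : Ideal S'} [hP' : P'.IsPrime]
    (hxP : (⟨x⁻¹, hx⟩ : S') ∉ P') {F0 : Subfield L} {ι : Type*} {V : ι → ValuationSubring L}
    (hV : ∀ i, x⁻¹ ∈ V i) {ω : ι → L} {f : L} {n : ℕ}
    (h : PtData S F0 V ω (trP P' (le_LB hx hSS' hxP)) f n) : PtData S' F0 V ω P' f n := by
  obtain ⟨g, hg, hgf, hgi⟩ := h
  refine ⟨g, hg, hgf.transfer hx hSS' hxP, fun i hi => ?_⟩
  obtain ⟨z, hz, hzi⟩ := hgi i (fun b hb => by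
    obtain ⟨b1, -, d, hd, h1, -, m, hm⟩ := exists_num hx hSS' hxP b 0
    rw [mem_trP hd h1]
    apply hi
    have hd0 := ne_zero_of_notMem hd
    have h2 : (b1 : L) = b * (x⁻¹) ^ m := by rw [h1, ← hm]; field_simp
    rw [h2]
    exact nonunits_mul_mem hb (pow_mem (hV i) m))
  exact ⟨z, hz.transfer hx hSS' hxP, hzi⟩

theorem thru_trP {S S' : Subring L} {x : L} (hx : x⁻¹ ∈ S')
    (hSS' : ∀ b ∈ S, ∃ n0 : ℕ, ∀ n ≥ n0, (x⁻¹) ^ n * b ∈ S') {P' : Ideal S'} [hP' : P'.IsPrime]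
    (hxP : (⟨x⁻¹, hx⟩ : S') ∉ P') {V : ValuationSubring L} (hV : x⁻¹ ∈ V) (h : Thru V S' P') :
    Thru V S (trP P' (le_LB hx hSS' hxP)) := fun b hb => by
  obtain ⟨b1, -, d, hd, h1, -, m, hm⟩ := exists_num hx hSS' hxP b 0
  rw [mem_trP hd h1]
  apply h
  have hd0 := ne_zero_of_notMem hd
  have h2 : (b1 : L) = b * (x⁻¹) ^ m := by rw [h1, ← hm]; field_simp
  rw [h2]
  exact nonunits_mul_mem hb (pow_mem hV m)

/-- nongenericity transfers -/
theorem nongen_trP {S S' : Subring L} {x : L} (hx : x⁻¹ ∈ S')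
    (hSS' : ∀ b ∈ S, ∃ n0 : ℕ, ∀ n ≥ n0, (x⁻¹) ^ n * b ∈ S')
    (hS'S : ∀ b ∈ S', ∃ n0 : ℕ, ∀ n ≥ n0, x ^ n * b ∈ S) {P' : Ideal S'} [hP' : P'.IsPrime]
    (hxP : (⟨x⁻¹, hx⟩ : S') ∉ P') {V : ValuationSubring L} (hV : x⁻¹ ∈ V)
    (h : ∃ b ∈ P', (b : L) ∉ V.nonunits) :
    ∃ b ∈ trP P' (le_LB hx hSS' hxP), (b : L) ∉ V.nonunits := by
  obtain ⟨b, hb, hbV⟩ := h
  obtain ⟨m, hm⟩ := hS'S b b.2
  have hx0 : x ≠ 0 := by
    have := ne_zero_of_notMem hxP
    intro h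
    apply this
    change x⁻¹ = 0
    rw [h, inv_zero]
  have hn : (⟨x⁻¹, hx⟩ : S') ^ m ∉ P' := fun h => hxP (hP'.mem_of_pow_mem _ h)
  refine ⟨⟨_, hm m le_rfl⟩, ?_, fun h2 => hbV ?_⟩
  · rw [mem_trP (b' := b) hn]
    · exact hb
    · push_cast
      rw [inv_pow]
      field_simp
  · have h3 : (b : L) = (x ^ m * b) * (x⁻¹) ^ m := by
      rw [inv_pow]
      field_simp
    rw [h3]
    exact nonunits_mul_mem h2 (pow_mem hV m)

end Two

end Fermat.Agent.QComp
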