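import Fermat.Agent.QComp.IntLemma
import Fermat.Agent.QComp.GoDown
import Fermat.Agent.QComp.Transfer
import Fermat.Agent.Red.Eval
import Mathlib.RingTheory.Valuation.LocalSubring

/-!
# More on integral closures of `R[x]`
-/

set_option autoImplicit false
set_option linter.unusedSectionVars false
set_option linter.style.haveILetI false

open Polynomial IsLocalRing AlgebraicCurve IntermediateField

namespace Fermat.Agent.QComp

section Gen

variable {K L : Type*} [Field K] [Field L] [Algebra K L]

/-- the generator of `K(x)` -/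
noncomputable def tg (K : Type*) {L : Type*} [Field K] [Field L] [Algebra K L] (x : L) : K⟮x⟯ :=
  AdjoinSimple.gen K x

@[simp] theorem algebraMap_tg (x : L) : algebraMap K⟮x⟯ L (tg K x) = x :=
  AdjoinSimple.algebraMap_gen K x

theorem isGen_tg {x : L} (hx : Transcendental K x) : IsGen K (tg K x) where
  trans := by
    intro h
    apply hx
    have := (isAlgebraic_algebraMap_iff (algebraMap K⟮x⟯ L).injective).2 h
    rwa [algebraMap_tg] at this
  gen z := by
    obtain ⟨r, s, hrs⟩ := IntermediateField.mem_adjoin_simple_iff K (z : L) |>.1 z.2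
    by_cases hs : s = 0
    · refine ⟨0, 1, one_ne_zero, ?_⟩
      apply Subtype.ext
      rw [hrs, hs]
      simp
    · refine ⟨r, s, hs, ?_⟩
      apply (algebraMap K⟮x⟯ L).injective
      rw [map_div₀, ← aeval_algebraMap_apply, ← aeval_algebraMap_apply, algebraMap_tg]
      exact hrs

end Gen

section IC

variable {K E L : Type*} [Field K] [Field E] [Field L] [Algebra K E] [Algebra E L]
  [Algebra K L] [IsScalarTower K E L]
variable {R : Type*} [CommRing R] [Algebra R K]

/-- it is enough to know the image of `t` in `L` -/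
theorem IC_eq (t : E) : IC K L R t = IC K L R (algebraMap E L t) := by
  have h : (algebraMap E L).comp (ev K R t) = (algebraMap L L).comp (ev K R (algebraMap E L t)) := by
    refine Polynomial.ringHom_ext (fun a => ?_) ?_
    · rw [RingHom.comp_apply, RingHom.comp_apply, ev_C, ev_C, ← IsScalarTower.algebraMap_apply]
      rfl
    · rw [RingHom.comp_apply, RingHom.comp_apply, ev_X, ev_X]
      rfl
  ext z
  rw [mem_IC, mem_IC, h]

theorem IC_tg (x : L) : IC K L R (tg K x) = IC K L R x := by
  rw [IC_eq, algebraMap_tg]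

theorem IC_tg_inv (x : L) : IC K L R (tg K x)⁻¹ = IC K L R x⁻¹ := by
  rw [IC_eq, map_inv₀, algebraMap_tg]

theorem const_mem_IC (x : L) (a : R) : algebraMap K L (algebraMap R K a) ∈ IC K L R x := by
  have h := ev_mem_IC (K := K) (L := L) (R := R) (x : L) (C a)
  rwa [ev_C] at h

theorem self_mem_IC (x : L) : x ∈ IC K L R x := by
  have h := ev_mem_IC (K := K) (L := L) (R := R) (x : L) X
  rwa [ev_X] at h

theorem mem_IC_iff_valuation {x z : L} : z ∈ IC K L R x ↔ ∀ V : ValuationSubring L,
    (∀ a : R, algebraMap K L (algebraMap R K a) ∈ V) → x ∈ V → z ∈ V := by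
  set s : Set L := Set.range (fun a : R => algebraMap K L (algebraMap R K a)) ∪ {x} with hs
  have hcl : Subring.closure s = ((algebraMap L L).comp (ev K R x)).range := by
    apply le_antisymm
    · rw [Subring.closure_le]
      rintro y (⟨a, rfl⟩ | rfl)
      · exact ⟨C a, by rw [RingHom.comp_apply, ev_C]; rfl⟩
      · exact ⟨X, by rw [RingHom.comp_apply, ev_X]; rfl⟩
    · rintro _ ⟨p, rfl⟩
      change ev K R x p ∈ _
      rw [ev, coe_eval₂RingHom, eval₂_eq_sum_range]
      refine sum_mem fun i _ => mul_mem ?_ (pow_mem ?_ _)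
      · exact Subring.subset_closure (Or.inl ⟨_, rfl⟩)
      · exact Subring.subset_closure (Or.inr rfl)
  have h1 : z ∈ IC K L R x ↔ z ∈ (integralClosure (Subring.closure s) L).toSubring := by
    rw [hcl]
    change _ ↔ IsIntegral _ z
    constructor
    · rintro ⟨p, hp, hpz⟩
      refine ⟨p.map ((algebraMap L L).comp (ev K R x)).rangeRestrict, hp.map _, ?_⟩
      rw [eval₂_map]
      exact hpz
    · rintro ⟨p, hp, hpz⟩
      have hlift : p ∈ Polynomial.lifts ((algebraMap L L).comp (ev K R x)).rangeRestrict := by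
        rw [Polynomial.mem_lifts]
        exact Polynomial.map_surjective _ (RingHom.rangeRestrict_surjective _) p
      obtain ⟨p', hp', -, hm⟩ := Polynomial.lifts_and_degree_eq_and_monic hlift hp
      refine ⟨p', hm, ?_⟩
      rw [← hp', eval₂_map] at hpz
      exact hpz
  rw [h1, ← iInf_valuationSubring_superset]
  rw [Subring.mem_iInf]
  constructor
  · intro h V h1 h2
    exact h ⟨V, by
      rintro y (⟨a, rfl⟩ | rfl)
      · exact h1 a
      · exact h2⟩
  · intro h V
    exact h V.1 (fun a => V.2 (Or.inl ⟨a, rfl⟩)) (V.2 (Or.inr rfl))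

theorem IC_le_of_mem {x y : L} (h : y ∈ IC K L R x) : IC K L R y ≤ IC K L R x := by
  intro z hz
  rw [mem_IC_iff_valuation] at h hz ⊢
  intro V h1 h2
  exact hz V h1 (h V h1 h2)

theorem map_mem_IC {L' : Type*} [Field L'] [Algebra K L'] (φ : L →ₐ[K] L') {x z : L}
    (h : z ∈ IC K L R x) : φ z ∈ IC K L' R (φ x) := by
  obtain ⟨p, hp, hpz⟩ := h
  refine ⟨p, hp, ?_⟩
  have h1 : (algebraMap L' L').comp (ev K R (φ x)) =
      (φ : L →+* L').comp ((algebraMap L L).comp (ev K R x)) := by
    refine Polynomial.ringHom_ext (fun a => ?_) ?_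
    · simp
    · simp
  rw [h1]
  change eval₂ _ ((φ : L →+* L') z) p = 0
  rw [← hom_eval₂, hpz, map_zero]

theorem mem_IC_K_of_isIntegral {x z : L} (h : IsIntegral (Algebra.adjoin K {x}) z) :
    z ∈ IC K L K x := by
  rw [mem_IC_iff_valuation]
  intro V h1 h2
  obtain ⟨p, hp, hpz⟩ := h
  have h3 : ∀ y : Algebra.adjoin K {x}, (y : L) ∈ V := by
    intro y
    have h4 : Algebra.adjoin K {x} ≤
        ({ V.toSubring with algebraMap_mem' := fun a => h1 a } : Subalgebra K L) := by
      rw [Algebra.adjoin_le_iff]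
      rintro _ rfl
      exact h2
    exact h4 y.2
  let g : Algebra.adjoin K {x} →+* V := (Algebra.adjoin K {x}).val.toRingHom.codRestrict V.toSubring h3
  have h5 : IsIntegral V z := by
    refine ⟨p.map g, hp.map g, ?_⟩
    rw [eval₂_map]
    exact hpz
  obtain ⟨w, hw⟩ := IsIntegrallyClosed.isIntegral_iff.1 h5
  rw [← hw]
  exact w.2

theorem IC_le_IC_K (x : L) : IC K L R x ≤ IC K L K x := by
  intro z hz
  rw [mem_IC_iff_valuation] at hz ⊢
  intro V h1 h2
  exact hz V (fun a => h1 _) h2

theorem smul_mem_IC_K {x z : L} (c : K) (h : z ∈ IC K L K x) : algebraMap K L c * z ∈ IC K L K x :=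
  mul_mem (const_mem_IC (R := K) x c) h

theorem isIntegral_of_mem_IC_K {x z : L} (h : z ∈ IC K L K x) :
    IsIntegral (Algebra.adjoin K {x}) z := by
  obtain ⟨p, hp, hpz⟩ := h
  have hmem : ∀ q : K[X], (algebraMap L L).comp (ev K K x) q ∈ (Algebra.adjoin K {x}).toSubring := by
    intro q
    change ev K K x q ∈ Algebra.adjoin K {x}
    rw [ev_eq_aeval]
    exact Algebra.adjoin_singleton_eq_range_aeval K x ▸ ⟨_, rfl⟩
  refine ⟨p.map (((algebraMap L L).comp (ev K K x)).codRestrict (Algebra.adjoin K {x}).toSubring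
    hmem), hp.map _, ?_⟩
  rw [eval₂_map]
  exact hpz

/-- membership in terms of places -/
theorem mem_IC_K_of_ord [FF.IsFnField K L] [CharZero K] [IsAlgClosed K] {x z : L} (hx : Transcendental K x)
    (h : ∀ v : Place K L, 0 ≤ v.ord x → 0 ≤ v.ord z) : z ∈ IC K L K x := by
  haveI := FF.IsFnField.finiteDimensional hx
  haveI : CharZero K⟮x⟯ := charZero_of_injective_algebraMap (algebraMap K K⟮x⟯).injective
  haveI : Algebra.IsSeparable K⟮x⟯ L := inferInstance
  exact mem_IC_K_of_isIntegral (Red.isIntegral_of_forall h)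

theorem ord_nonneg_of_mem_IC_K {x z : L} (h : z ∈ IC K L R x) {v : Place K L} (hv : 0 ≤ v.ord x) :
    0 ≤ v.ord z := by
  rw [← FF.mem_iff_ord_nonneg]
  rw [mem_IC_iff_valuation] at h
  exact h v.toValuationSubring (fun a => v.algebraMap_mem' _) ((FF.mem_iff_ord_nonneg v).2 hv)

end IC

section Over

variable {K L : Type*} [Field K] [Field L] [Algebra K L]
variable {A : Type*} [CommRing A] [IsDomain A] [ValuationRing A] [Algebra A K] [IsFractionRing A K]

theorem OverGauss.const_mem {x : L} {V : ValuationSubring L} (h : OverGauss K A x V) (a : A) :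
    algebraMap K L (algebraMap A K a) ∈ V := (h.mem_iff _).2 ⟨a, rfl⟩

theorem isAlgebraic_aux {k κ : Type*} [Field k] [Field κ] [Algebra k κ] {x y : κ}
    (hy : IsAlgebraic k y) (p : (k[X])[X]) (hp : p.Monic)
    (h : eval₂ (aeval y : k[X] →ₐ[k] κ).toRingHom x p = 0) : IsAlgebraic k x := by
  let B := Algebra.adjoin k {y}
  haveI : Algebra.IsIntegral k B :=
    Algebra.IsIntegral.adjoin (fun z hz => by rw [Set.mem_singleton_iff.1 hz]; exact hy.isIntegral)
  let g : k[X] →+* B := (aeval (⟨y, Algebra.subset_adjoin rfl⟩ : B) : k[X] →ₐ[k] B).toRingHom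
  have hg : (algebraMap B κ).comp g = (aeval y : k[X] →ₐ[k] κ).toRingHom := by
    refine Polynomial.ringHom_ext (fun a => ?_) ?_
    · change algebraMap B κ (aeval _ (C a)) = aeval y (C a)
      rw [aeval_C, aeval_C]
      rfl
    · change algebraMap B κ (aeval _ X) = aeval y X
      rw [aeval_X, aeval_X]
      rfl
  have hx : IsIntegral B x := by
    refine ⟨p.map g, hp.map g, ?_⟩
    rw [eval₂_map, hg]
    exact h
  exact (isIntegral_trans (R := k) _ hx).isAlgebraic

/-- if `x` is integral over `A[y]` then a valuation ring over the Gauss valuation of `x`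
containing `y` is over the Gauss valuation of `y`. -/
theorem OverGauss.of_mem_IC {x y : L} (hx : Transcendental K x) {V : ValuationSubring L}
    (h : OverGauss K A x V)
    (hy : y ∈ V) (hxy : x ∈ IC K L A y) : OverGauss K A y V := by
  refine overGauss_of h.const_mem (fun a ha => (h.nonunits_iff a).2 ha) hy fun u hu => ?_
  by_contra hcon
  have hun : ev K A y u ∈ V.nonunits := by
    rw [ValuationSubring.mem_nonunits_iff_or]
    exact Or.inr hcon
  -- the residue map
  let res : V →+* ResidueField V := residue V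
  let φ : A →+* V := ((algebraMap K L).comp (algebraMap A K)).codRestrict V.toSubring h.const_mem
  have hφloc : ∀ a ∈ maximalIdeal A, (res.comp φ) a = 0 := by
    intro a ha
    change residue V (φ a) = 0
    rw [residue_eq_zero_iff, ← ValuationSubring.coe_mem_nonunits_iff]
    exact (h.nonunits_iff a).2 ha
  let ρ : ResidueField A →+* ResidueField V := Ideal.Quotient.lift _ (res.comp φ) hφloc
  have hρ : ∀ a, ρ (residue A a) = res (φ a) := fun a => Ideal.Quotient.lift_mk _ _ _
  letI := ρ.toAlgebra
  -- evaluation at elements of `V`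
  have key : ∀ w : V, (res.comp (eval₂RingHom φ w)) =
      ((aeval (res w) : (ResidueField A)[X] →ₐ[ResidueField A] ResidueField V).toRingHom).comp
        (mapRingHom (residue A)) := by
    intro w
    refine Polynomial.ringHom_ext (fun a => ?_) ?_
    · change res (eval₂ φ w (C a)) = aeval (res w) ((C a).map (residue A))
      rw [eval₂_C, map_C, aeval_C]
      exact (hρ a).symm
    · change res (eval₂ φ w X) = aeval (res w) (X.map (residue A))
      rw [eval₂_X, map_X, aeval_X]
  have hevV : ∀ (w : V) (p : A[X]), ((eval₂RingHom φ w p : V) : L) = ev K A (w : L) p := by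
    intro w p
    rw [coe_eval₂RingHom, ev, coe_eval₂RingHom]
    change V.subtype (eval₂ φ w p) = _
    rw [hom_eval₂]
    rfl
  set yV : V := ⟨y, hy⟩
  set xV : V := ⟨x, h.mem⟩
  -- `y` is algebraic
  have hyalg : IsAlgebraic (ResidueField A) (res yV) := by
    refine ⟨u.map (residue A), (prim_iff u).1 hu, ?_⟩
    have h1 := RingHom.congr_fun (key yV) u
    have h2 : res (eval₂RingHom φ yV u) = 0 := by
      change residue V _ = 0
      rw [residue_eq_zero_iff, ← ValuationSubring.coe_mem_nonunits_iff, hevV]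
      exact hun
    exact h1.symm.trans h2
  -- so `x` is algebraic
  have hxalg : IsAlgebraic (ResidueField A) (res xV) := by
    obtain ⟨p, hp, hpx⟩ := hxy
    refine isAlgebraic_aux hyalg (p.map (mapRingHom (residue A))) (hp.map _) ?_
    rw [eval₂_map, ← key yV, ← hom_eval₂]
    have h2 : eval₂ (eval₂RingHom φ yV) xV p = 0 := by
      apply Subtype.ext
      change V.subtype (eval₂ (eval₂RingHom φ yV) xV p) = 0
      rw [hom_eval₂]
      have h3 : V.subtype.comp (eval₂RingHom φ yV) = (algebraMap L L).comp (ev K A y) := by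
        exact RingHom.ext fun a => hevV yV a
      rw [h3]
      exact hpx
    rw [h2, map_zero]
  obtain ⟨w, hw0, hw⟩ := hxalg
  obtain ⟨w', rfl⟩ := Polynomial.map_surjective _ (residue_surjective (R := A)) w
  have hw' : Prim w' := (prim_iff w').2 hw0
  have h4 := RingHom.congr_fun (key xV) w'
  have h5 : residue V (eval₂RingHom φ xV w') = 0 := h4.trans hw
  rw [residue_eq_zero_iff, ← ValuationSubring.coe_mem_nonunits_iff, hevV] at h5
  change ev K A x w' ∈ V.nonunits at h5
  rw [ValuationSubring.mem_nonunits_iff_or] at h5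
  rcases h5 with h6 | h6
  · rw [ev_eq_aeval] at h6
    refine hx ⟨_, ?_, h6⟩
    intro h7
    exact hw'.ne_zero ((Polynomial.map_eq_zero_iff (IsFractionRing.injective A K)).1 h7)
  · exact h6 (h.inv_mem w' hw')

end Over

end Fermat.Agent.QComp
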