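import Fermat.Agent.QComp.InstA

/-!
# Level `M q²`: the three components
-/

set_option autoImplicit false
set_option linter.unusedSectionVars false
set_option linter.style.haveILetI false
set_option linter.unusedVariables false

noncomputable section

open AlgebraicCurve ModularCurve IntermediateField Module Polynomial IsLocalRing

namespace Fermat.Agent.QComp

open Fermat.Agent.FF Fermat.Agent.Red Fermat.Agent.QVal

local notation "Qb" => AlgebraicClosure ℚ
local notation "Γℚ" => (AlgebraicClosure ℚ ≃ₐ[ℚ] AlgebraicClosure ℚ)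

section ConstRed

variable {K k : Type*} [Field K] [Field k] {A : ValuationSubring K} {π : A →+* k}
  {F Fk : Type*} [Field F] [Algebra K F] [Field Fk] [Algebra k Fk] {R : ConstRed A π F Fk}

theorem isRed_nonunits_iff {f : F} {z : Fk} (h : R.IsRed f z) : f ∈ R.O.nonunits ↔ z = 0 := by
  obtain ⟨hf, hz⟩ := h
  rw [← hz, R.red_eq_zero_iff]
  have h1 := ValuationSubring.coe_mem_nonunits_iff (A := R.O) (a := ⟨f, hf⟩)
  rw [mem_maximalIdeal, mem_nonunits_iff] at h1
  exact h1

end ConstRed

section Comps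

variable {k : Type*} [Field k] {A : ValuationSubring Qb} {π : A →+* k} {M q : ℕ} [NeZero M]
  [NeZero q] [hqf : Fact q.Prime] (hA : A.LiesOverPrime q) (hπ : ∀ a : A, π a = 0 ↔ ¬ IsUnit a)
  (hs : Function.Surjective π) (hM : ¬ q ∣ M)

/-- the `∞` component -/
def cI : Comp (FI A (M * q * q)).toSubfield (modularFunctionFieldFullC k M) where
  V := (rInf2 M q hA hπ hs hM).O
  Is := (rInf2 M q hA hπ hs hM).IsRed
  mem' h := h.mem
  ex' _ h := ConstRed.exists_isRed_of_mem _ h
  uniq' h h' := h.unique h'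
  zero' := ConstRed.isRed_zero _
  one' := ConstRed.isRed_one _
  add' h h' := h.add h'
  mul' h h' := h.mul h'
  neg' h := h.neg
  nonunit_iff' h := isRed_nonunits_iff h

/-- the `0` component -/
def cZ : Comp (FI A (M * q * q)).toSubfield (modularFunctionFieldFullC k M) where
  V := (rZero2 M q hA hπ hs hM).O
  Is := (rZero2 M q hA hπ hs hM).IsRed
  mem' h := h.mem
  ex' _ h := ConstRed.exists_isRed_of_mem _ h
  uniq' h h' := h.unique h'
  zero' := ConstRed.isRed_zero _
  one' := ConstRed.isRed_one _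
  add' h h' := h.add h'
  mul' h h' := h.mul h'
  neg' h := h.neg
  nonunit_iff' h := isRed_nonunits_iff h

/-- the middle component -/
def cM {ζ0 : RU q} (h0 : ζ0 ≠ 1) :
    Comp (FI A (M * q * q)).toSubfield (modularFunctionFieldFullC k M) where
  V := (rMid hA hπ hs hM h0).O
  Is f z := ∀ (ζ : RU q) (h : ζ ≠ 1), GRed π (epsU hM h f) z
  mem' h := mem_rMid.2 ⟨_, h ζ0 h0⟩
  ex' hf h := exists_mid_kap hA hπ hs hM hf h
  uniq' h h' := Subtype.ext ((h ζ0 h0).unique (h' ζ0 h0))
  zero' := fun ζ h => (map_zero (epsU hM h)).symm ▸ gRed_zero π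
  one' := fun ζ h => (map_one (epsU hM h)).symm ▸ gRed_one π
  add' h h' := fun ζ hζ => (map_add (epsU hM hζ) _ _).symm ▸ (h ζ hζ).add (h' ζ hζ)
  mul' h h' := fun ζ hζ => (map_mul (epsU hM hζ) _ _).symm ▸ (h ζ hζ).mul (h' ζ hζ)
  neg' h := fun ζ hζ => (map_neg (epsU hM hζ) _).symm ▸ (h ζ hζ).neg
  nonunit_iff' {f z} h := by
    have h1 := isRed_rMid_of (hA := hA) (hπ := hπ) (hs := hs) (h ζ0 h0)
    rw [isRed_nonunits_iff h1]
    constructor
    · intro h2
      exact Subtype.ext (congrArg (fun t => ((t : kapMid π hs hM h0) : LaurentSeries k)) h2)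
    · rintro rfl
      rfl

theorem exists_RU_ne (q : ℕ) [hqf : Fact q.Prime] : ∃ ζ : RU q, ζ ≠ 1 := by
  haveI : NeZero q := ⟨hqf.out.ne_zero⟩
  by_contra h
  push Not at h
  have h1 := card_RU q
  have h2 : Fintype.card (RU q) ≤ 1 := Fintype.card_le_one_iff.2 fun a b => by rw [h a, h b]
  have := hqf.out.one_lt
  omega

end Comps

section Psi

variable {k : Type*} [Field k] (q : ℕ) [hqf : Fact q.Prime] [NeZero q] [CharP k q] [PerfectRing k q] (M : ℕ)

/-- the inverse of the coefficient Frobenius -/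
def phiE : modularFunctionFieldFullC k M ≃+* modularFunctionFieldFullC k M :=
  RingEquiv.ofBijective (phiK q M) ⟨(phiK q M).injective, phiK_surjective q M⟩

variable {M} in
theorem phiE_apply (z : modularFunctionFieldFullC k M) : phiE q M z = phiK q M z := rfl

theorem phiK_symm (z : modularFunctionFieldFullC k M) : phiK q M ((phiE q M).symm z) = z :=
  (phiE q M).apply_symm_apply z

/-- `z(q² τ)` -/
def psi : modularFunctionFieldFullC k M →+* modularFunctionFieldFullC k M :=
  (iterateFrobenius (modularFunctionFieldFullC k M) q 2).comp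
    ((phiE (k := k) q M).symm.toRingHom.comp (phiE (k := k) q M).symm.toRingHom)

end Psi

end Fermat.Agent.QComp
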