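import Fermat.Agent.QComp.InstC
import Fermat.Agent.QComp.InstB

/-!
# Horizontal valuations
-/

set_option autoImplicit false
set_option linter.unusedSectionVars false
set_option linter.style.haveILetI false
set_option linter.unusedVariables false

noncomputable section

open AlgebraicCurve ModularCurve IntermediateField Module Polynomial IsLocalRing

namespace Fermat.Agent.QComp

open Fermat.Agent.FF Fermat.Agent.Red Fermat.Agent.QVal

local notation "Qb" => AlgebraicClosure ℚ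
local notation "Γℚ" => (AlgebraicClosure ℚ ≃ₐ[ℚ] AlgebraicClosure ℚ)

variable {A : ValuationSubring Qb} {N : ℕ} {q : ℕ} [hqf : Fact q.Prime]

theorem q_ne_zero_Qb (q : ℕ) [hqf : Fact q.Prime] : (q : Qb) ≠ 0 :=
  Nat.cast_ne_zero.2 hqf.out.ne_zero

theorem q_mem_nonunits (hA : A.LiesOverPrime q) : (q : Qb) ∈ A.nonunits := hA

theorem isRankOne_q (hA : A.LiesOverPrime q) : IsRankOne A (q : A) where
  mem := by
    have h := q_mem_nonunits hA
    rw [mem_maximalIdeal, mem_nonunits_iff]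
    intro hu
    have h1 := ValuationSubring.coe_mem_nonunits_iff (A := A) (a := (q : A))
    rw [mem_maximalIdeal, mem_nonunits_iff] at h1
    exact h1.1 h hu
  ne_zero := by
    intro h
    exact q_ne_zero_Qb q (congrArg Subtype.val h)
  dvd_pow a ha := by
    have ha0 : (a : Qb) ≠ 0 := fun h => ha (Subtype.ext h)
    obtain ⟨n, hn⟩ := exists_pow_mul_mem hA (q_mem_nonunits hA) (a : Qb)⁻¹
    have h1 := ValuationSubring.nonunits_subset (hn n le_rfl)
    refine ⟨n, ⟨_, h1⟩, Subtype.ext ?_⟩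
    push_cast
    field_simp
  pow_dvd a ha := by
    have ha' : (a : Qb) ∈ A.nonunits := (ValuationSubring.coe_mem_nonunits_iff (A := A)).2 ha
    obtain ⟨n, hn⟩ := exists_pow_mul_mem hA ha' (q : Qb)⁻¹
    have h1 := ValuationSubring.nonunits_subset (hn n le_rfl)
    have := q_ne_zero_Qb q
    refine ⟨n, ⟨_, h1⟩, Subtype.ext ?_⟩
    push_cast
    field_simp

theorem const_mem_SX {x : FB N} {a : Qb} (ha : a ∈ A) (hI : ∀ σ ∈ A.inertiaSubgroupIn ℚ, σ a = a) :
    algebraMap Qb (FB N) a ∈ SX A x :=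
  ⟨const_mem_IC (R := A) x ⟨a, ha⟩, IFix.algebraMap hI⟩

theorem q_mem_SX (x : FB N) : (q : FB N) ∈ SX A x := natCast_mem (SX A x) q

/-- valuation rings above the generic fibre contain the constants -/
theorem const_mem_of_horizontal (hA : A.LiesOverPrime q) {x : FB N} {W : ValuationSubring (FB N)}
    (hSW : SX A x ≤ W.toSubring) (hq : ((q : FB N))⁻¹ ∈ W) (a : Qb) : algebraMap Qb (FB N) a ∈ W := by
  -- elements of `KI A`
  have h1 : ∀ a : KI A, algebraMap Qb (FB N) (a : Qb) ∈ W := by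
    intro a
    by_cases ha : (a : Qb) = 0
    · rw [ha, map_zero]; exact zero_mem _
    obtain ⟨n, hn, -⟩ := CFT.Loc.exists_zpow_of_inertia hqf.out hA ha (mem_KI.1 a.2)
    have h2 : ∀ m : ℤ, algebraMap Qb (FB N) ((q : Qb) ^ m) ∈ W := by
      intro m
      rw [map_zpow₀, map_natCast]
      cases m with
      | ofNat m =>
        rw [Int.ofNat_eq_natCast, zpow_natCast]
        exact pow_mem (hSW (q_mem_SX x)) m
      | negSucc m =>
        rw [zpow_negSucc, ← inv_pow]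
        exact pow_mem hq _
    have h3 : (a : Qb) = ((a : Qb) * (q : Qb) ^ (-n)) * (q : Qb) ^ n := by
      rw [mul_assoc, ← zpow_add₀ (q_ne_zero_Qb q), neg_add_cancel, zpow_zero, mul_one]
    rw [h3, map_mul]
    refine mul_mem (hSW (const_mem_SX hn fun σ hσ => ?_)) (h2 n)
    rw [map_mul, mem_KI.1 a.2 σ hσ, map_zpow₀, map_natCast]
  have h2 : IsIntegral (KI A) a := (Algebra.IsAlgebraic.isAlgebraic a).isIntegral
  obtain ⟨p, hp, hpa⟩ := h2
  let g : KI A →+* W := ((algebraMap Qb (FB N)).comp (algebraMap (KI A) Qb)).codRestrict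
    W.toSubring h1
  have h3 : IsIntegral W (algebraMap Qb (FB N) a) := by
    refine ⟨p.map g, hp.map g, ?_⟩
    rw [eval₂_map]
    have h4 : (algebraMap W (FB N)).comp g = (algebraMap Qb (FB N)).comp (algebraMap (KI A) Qb) := rfl
    rw [h4, ← hom_eval₂, hpa, map_zero]
  obtain ⟨w, hw⟩ := IsIntegrallyClosed.isIntegral_iff.1 h3
  rw [← hw]
  exact w.2

/-- the horizontal valuations -/
theorem hhor_SX [NeZero N] (hA : A.LiesOverPrime q)
    (hspan : ∀ z : FB N, z ∈ Submodule.span Qb (FI A N : Set (FB N))) {x : FB N} (hxI : IFix A x)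
    (hx : Transcendental Qb x) {f : FB N} {n : ℕ} (hdiv : ∀ P : Place Qb (FB N), (n : ℤ) ∣ P.ord f)
    (W : ValuationSubring (FB N)) (hSW : SX A x ≤ W.toSubring) (hq : ((q : FB N))⁻¹ ∈ W)
    (hW : W ≠ ⊤) :
    ∃ v : FB N → ℤ, (∀ x y, x ≠ 0 → y ≠ 0 → v (x * y) = v x + v y) ∧
      (∀ x, x ≠ 0 → (x ∈ W.nonunits ↔ 0 < v x)) ∧
      (∃ h1 h2 : SX A x, (h1 : FB N) ≠ 0 ∧ (h2 : FB N) ≠ 0 ∧ v h1 = v h2 + 1) ∧ (n : ℤ) ∣ v f := by
  haveI : IsFnField Qb (FB N) := isFnField_bar N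
  obtain ⟨v, rfl⟩ := exists_place_of_valuationSubring W (const_mem_of_horizontal hA hSW hq) hW
  obtain ⟨f0, hf0, hf01⟩ := isFixed_GI.exists_ord_eq_one hspan (x := x) hxI hx v
  obtain ⟨b1, b2, hb2, hb⟩ := exists_div_SX hxI hx (z := f0) hf0
  have hf00 : f0 ≠ 0 := by rintro rfl; rw [v.ord_zero] at hf01; omega
  have hb1 : (b1 : FB N) ≠ 0 := by
    intro h; apply hf00; rw [hb, h, zero_div]
  refine ⟨v.ord, fun x y hx hy => v.ord_mul hx hy, fun y hy => ?_, ⟨b1, b2, hb1, hb2, ?_⟩, hdiv v⟩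
  · rw [mem_nonunits_iff_ord, or_iff_right hy]
  · rw [hb, div_eq_mul_inv, v.ord_mul hb1 (inv_ne_zero hb2), v.ord_inv] at hf01
    omega

end Fermat.Agent.QComp
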