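import Fermat.Agent.QComp.Inert
import Fermat.Agent.Red.ChartN

/-!
# Lifts fixed by inertia (Z1)
-/

set_option autoImplicit false
set_option linter.unusedSectionVars false
set_option linter.style.haveILetI false

open AlgebraicCurve IntermediateField ModularCurve Fermat.Agent.Red Fermat.Agent.FF

namespace Fermat.Agent.QComp

local notation "Qb" => AlgebraicClosure ℚ

section RankOne

variable {q : ℕ} [hq : Fact q.Prime] {A : ValuationSubring (AlgebraicClosure ℚ)}

/-- `A` has rank one -/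
theorem exists_mul_pow_notMem (hA : A.LiesOverPrime q) {a d : Qb} (ha : a ∉ A) (hd : d ≠ 0) :
    ∃ n : ℕ, d * a ^ n ∉ A := by
  obtain ⟨g, rfl⟩ := CFT.Loc.exists_eq_smul_padicPlace q hA
  rw [CFT.Loc.mem_smul_padicPlace_iff] at ha
  push Not at ha
  have hd' : 0 < ‖CFT.Loc.jg q g d‖ := norm_pos_iff.2 ((_root_.map_ne_zero _).2 hd)
  obtain ⟨n, hn⟩ := pow_unbounded_of_one_lt (‖CFT.Loc.jg q g d‖⁻¹) ha
  refine ⟨n, ?_⟩
  rw [CFT.Loc.mem_smul_padicPlace_iff, map_mul, map_pow, norm_mul, norm_pow, not_le]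
  rw [inv_eq_one_div, div_lt_iff₀ hd'] at hn
  linarith

end RankOne

section Complete

variable {L : Type*} [Field L] {A : ValuationSubring L}

/-- `A((q))` is completely integrally closed in `L((q))` if `A` has rank one. -/
theorem coeff_mem_of_bounded (hrk : ∀ a d : L, a ∉ A → d ≠ 0 → ∃ n : ℕ, d * a ^ n ∉ A)
    {f D : LaurentSeries L} (hD0 : D ≠ 0)
    (h : ∀ n : ℕ, ∀ m : ℤ, (D * f ^ n).coeff m ∈ A) (m : ℤ) : f.coeff m ∈ A := by
  classical
  -- series with coefficients in `A`
  let S : Subring (LaurentSeries L) := (coeffMap A.subtype).range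
  have hS : ∀ g : LaurentSeries L, g ∈ S ↔ ∀ m, g.coeff m ∈ A := by
    intro g
    constructor
    · rintro ⟨a, rfl⟩ m
      rw [coeffMap_coeff]
      exact (a.coeff m).2
    · intro hg
      obtain ⟨a, ha⟩ := exists_iotaA g hg
      exact ⟨a, ha⟩
  have h' : ∀ n : ℕ, D * f ^ n ∈ S := fun n => (hS _).2 (h n)
  by_contra hm
  -- the first bad coefficient
  have hf0 : f ≠ 0 := by
    rintro rfl
    exact hm A.zero_mem
  obtain ⟨m₀, hm₀, hmin⟩ : ∃ m₀ : ℤ, f.coeff m₀ ∉ A ∧ ∀ i < m₀, f.coeff i ∈ A := by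
    have hb : ∀ z : ℤ, f.coeff z ∉ A → f.order ≤ z := by
      intro z hz
      by_contra hlt
      push Not at hlt
      exact hz (by rw [HahnSeries.coeff_eq_zero_of_lt_order hlt]; exact A.zero_mem)
    obtain ⟨m₀, h1, h2⟩ := Int.exists_least_of_bdd (P := fun z => f.coeff z ∉ A)
      ⟨f.order, hb⟩ ⟨m, hm⟩
    refine ⟨m₀, h1, fun i hi => ?_⟩
    by_contra h3
    exact absurd (h2 i h3) (not_le.2 hi)
  -- remove the good part
  let t : LaurentSeries L :=
    { coeff := fun i => if i < m₀ then f.coeff i else 0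
      isPWO_support' := f.isPWO_support.mono fun i hi => by
        rw [Function.mem_support] at hi
        rw [HahnSeries.mem_support]
        intro h0
        apply hi
        rw [h0, ite_self] }
  have ht : ∀ i, t.coeff i = if i < m₀ then f.coeff i else 0 := fun i => rfl
  have htS : t ∈ S := by
    rw [hS]
    intro i
    rw [ht]
    split_ifs with hi
    · exact hmin i hi
    · exact A.zero_mem
  set g := f - t with hg
  have hgc : ∀ i, g.coeff i = if i < m₀ then 0 else f.coeff i := by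
    intro i
    rw [hg, HahnSeries.coeff_sub, ht]
    split_ifs <;> simp
  have hg' : ∀ n : ℕ, D * g ^ n ∈ S := by
    intro n
    rw [hg, sub_eq_add_neg, add_pow, Finset.mul_sum]
    refine sum_mem fun i _ => ?_
    have h3 : D * (f ^ i * (-t) ^ (n - i) * (n.choose i : LaurentSeries L)) =
        (D * f ^ i) * ((-t) ^ (n - i) * (n.choose i : LaurentSeries L)) := by ring
    rw [h3]
    exact mul_mem (h' i) (mul_mem (pow_mem (neg_mem htS) _) (natCast_mem S _))
  have hg0 : g ≠ 0 := by
    intro h0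
    have h1 := hgc m₀
    rw [h0, HahnSeries.coeff_zero, if_neg (lt_irrefl _)] at h1
    exact hm₀ (h1 ▸ A.zero_mem)
  have hord : g.order = m₀ := by
    apply le_antisymm
    · apply HahnSeries.order_le_of_coeff_ne_zero
      rw [hgc, if_neg (lt_irrefl _)]
      intro h0
      exact hm₀ (h0 ▸ A.zero_mem)
    · by_contra hlt
      push Not at hlt
      have h1 := hgc g.order
      rw [if_pos hlt] at h1
      exact hg0 (HahnSeries.coeff_order_eq_zero.1 h1)
  have hlead : g.leadingCoeff = f.coeff m₀ := by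
    rw [HahnSeries.leadingCoeff_eq, hord, hgc, if_neg (lt_irrefl _)]
  obtain ⟨n, hn⟩ := hrk (f.coeff m₀) D.leadingCoeff hm₀ (HahnSeries.leadingCoeff_ne_zero.2 hD0)
  apply hn
  have hmul : ∀ x y : LaurentSeries L, x ≠ 0 → y ≠ 0 →
      (x * y).leadingCoeff = x.leadingCoeff * y.leadingCoeff := by
    intro x y hx hy
    rw [HahnSeries.leadingCoeff_eq, HahnSeries.order_mul hx hy,
      HahnSeries.coeff_mul_order_add_order]
  have hpow : ∀ n : ℕ, (D * g ^ n).leadingCoeff = D.leadingCoeff * g.leadingCoeff ^ n := by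
    intro n
    induction n with
    | zero => simp
    | succ n ih =>
      rw [pow_succ, ← mul_assoc, hmul _ _ (mul_ne_zero hD0 (pow_ne_zero _ hg0)) hg0, ih, pow_succ,
        mul_assoc]
  rw [← hlead, ← hpow, HahnSeries.leadingCoeff_eq]
  exact (hS _).1 (hg' n) _

/-- elements of `Frac A((q))` integral over `A((q))` have coefficients in `A` (rank one). -/
theorem coeff_mem_of_equation (hrk : ∀ a d : L, a ∉ A → d ≠ 0 → ∃ n : ℕ, d * a ^ n ∉ A)
    {f : LaurentSeries L} {a b : LaurentSeries A} (hb : b ≠ 0) (hab : f * iotaA A b = iotaA A a)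
    (d : ℕ) (c : ℕ → LaurentSeries A)
    (heq : f ^ d + ∑ i ∈ Finset.range d, iotaA A (c i) * f ^ i = 0) (m : ℤ) :
    f.coeff m ∈ A := by
  have hb' : iotaA A b ≠ 0 := by
    intro h
    exact hb (iotaA_injective (A := A) (by rw [h, map_zero]))
  refine coeff_mem_of_bounded hrk (D := iotaA A b ^ d) (pow_ne_zero _ hb') ?_ m
  have key : ∀ n : ℕ, ∃ g : LaurentSeries A, iotaA A g = iotaA A b ^ d * f ^ n := by
    intro n
    induction n using Nat.strong_induction_on with
    | _ n ih =>
      rcases le_or_gt n d with hn | hn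
      · refine ⟨b ^ (d - n) * a ^ n, ?_⟩
        rw [map_mul, map_pow, map_pow, ← hab]
        have : iotaA A b ^ d = iotaA A b ^ (d - n) * iotaA A b ^ n := by
          rw [← pow_add, Nat.sub_add_cancel hn]
        rw [this]
        ring
      · choose! g hg using ih
        refine ⟨-∑ i ∈ Finset.range d, c i * g (n - d + i), ?_⟩
        rw [map_neg, map_sum]
        have h1 : f ^ n = f ^ (n - d) * f ^ d := by rw [← pow_add, Nat.sub_add_cancel hn.le]
        have h2 : f ^ d = -∑ i ∈ Finset.range d, iotaA A (c i) * f ^ i :=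
          eq_neg_of_add_eq_zero_left heq
        rw [h1, h2, mul_neg, mul_neg, Finset.mul_sum, Finset.mul_sum]
        congr 1
        refine Finset.sum_congr rfl fun i hi => ?_
        rw [Finset.mem_range] at hi
        rw [map_mul, hg _ (by omega), pow_add]
        ring
  intro n i
  obtain ⟨g, hg⟩ := key n
  rw [← hg, coeffMap_coeff]
  exact (g.coeff i).2

end Complete

section Pivots

variable {k E ι : Type*} [Field k] [AddCommGroup E] [Module k E]

/-- echelon bases with respect to a separating family of functionals -/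
theorem exists_pivots (c : ι → E →ₗ[k] k) (n : ℕ) : ∀ (W : Submodule k E)
    [FiniteDimensional k W], Module.finrank k W = n →
    (∀ w ∈ W, (∀ i, c i w = 0) → w = 0) →
    ∃ (r : ℕ) (p : Fin r → ι) (w : Fin r → E), (∀ i, w i ∈ W) ∧
      (∀ i j, c (p j) (w i) = if i = j then 1 else 0) ∧
      ∀ z ∈ W, z = ∑ i, c (p i) z • w i := by
  classical
  induction n using Nat.strong_induction_on with
  | _ n ih =>
    intro W _ hW hsep
    by_cases hbot : ∀ w ∈ W, w = 0
    · exact ⟨0, Fin.elim0, Fin.elim0, fun i => i.elim0, fun i => i.elim0, fun z hz => by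
        rw [hbot z hz]; simp⟩
    push Not at hbot
    obtain ⟨w, hw, hw0⟩ := hbot
    obtain ⟨p0, hp0⟩ : ∃ i, c i w ≠ 0 := by
      by_contra h
      push Not at h
      exact hw0 (hsep w hw h)
    -- the kernel of the functional
    set W' : Submodule k E := W ⊓ LinearMap.ker (c p0) with hW'
    have hle : W' ≤ W := inf_le_left
    haveI : FiniteDimensional k W' := Submodule.finiteDimensional_of_le hle
    have hlt : Module.finrank k W' < n := by
      rw [← hW]
      apply Submodule.finrank_lt_finrank_of_lt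
      refine lt_of_le_of_ne hle ?_
      intro h
      rw [← h] at hw
      exact hp0 hw.2
    obtain ⟨r, p, v, hv, hvp, hspan⟩ := ih _ hlt W' rfl (fun w hw => hsep w (hle hw))
    -- the new vector
    obtain ⟨w1, hw1W, hw1p⟩ : ∃ w1 ∈ W, c p0 w1 = 1 :=
      ⟨(c p0 w)⁻¹ • w, W.smul_mem _ hw, by rw [map_smul, smul_eq_mul, inv_mul_cancel₀ hp0]⟩
    set w2 : E := w1 - ∑ i, c (p i) w1 • v i with hw2
    have hvp0 : ∀ i, c p0 (v i) = 0 := fun i => (hv i).2
    have hw2p0 : c p0 w2 = 1 := by
      rw [hw2, map_sub, hw1p, map_sum, Finset.sum_eq_zero, sub_zero]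
      intro i _
      rw [map_smul, hvp0, smul_zero]
    have hw2p : ∀ j, c (p j) w2 = 0 := by
      intro j
      rw [hw2, map_sub, map_sum, Finset.sum_eq_single j]
      · rw [map_smul, hvp, if_pos rfl, smul_eq_mul, mul_one, sub_self]
      · intro i _ hij
        rw [map_smul, hvp, if_neg hij, smul_zero]
      · intro h
        exact absurd (Finset.mem_univ j) h
    have hw2W : w2 ∈ W := by
      rw [hw2]
      exact W.sub_mem hw1W (W.sum_mem fun i _ => W.smul_mem _ (hle (hv i)))
    refine ⟨r + 1, Fin.cons p0 p, Fin.cons w2 v, ?_, ?_, ?_⟩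
    · intro i
      refine Fin.cases ?_ (fun i => ?_) i
      · exact hw2W
      · exact hle (hv i)
    · intro i j
      refine Fin.cases ?_ (fun i => ?_) i <;> refine Fin.cases ?_ (fun j => ?_) j
      · simpa using hw2p0
      · simp only [Fin.cons_zero, Fin.cons_succ]
        rw [hw2p, if_neg (Fin.succ_ne_zero j).symm]
      · simp only [Fin.cons_zero, Fin.cons_succ]
        rw [hvp0, if_neg (Fin.succ_ne_zero i)]
      · simp only [Fin.cons_succ, Fin.succ_inj]
        exact hvp i j
    · intro z hz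
      have hz' : z - c p0 z • w2 ∈ W' := by
        refine ⟨W.sub_mem hz (W.smul_mem _ hw2W), ?_⟩
        change c p0 (z - c p0 z • w2) = 0
        rw [map_sub, map_smul, hw2p0, smul_eq_mul, mul_one, sub_self]
      have h1 := hspan _ hz'
      rw [Fin.sum_univ_succ]
      simp only [Fin.cons_zero, Fin.cons_succ]
      have h2 : ∀ i, c (p i) (z - c p0 z • w2) = c (p i) z := by
        intro i
        rw [map_sub, map_smul, hw2p, smul_zero, sub_zero]
      simp only [h2] at h1
      rw [← h1]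
      abel

end Pivots

section Abs

variable {K k : Type*} [Field K] [Field k] {A : ValuationSubring K} {π : A →+* k}
  {F Fk : Type*} [Field F] [Algebra K F] [Field Fk] [Algebra k Fk] {R : ConstRed A π F Fk}

/-- the space of reductions -/
theorem exists_redSpace (hs : Function.Surjective π) (V : Submodule K F) :
    ∃ W : Submodule k Fk, ∀ z, z ∈ W ↔ ∃ f ∈ V, R.IsRed f z :=
  ⟨{ carrier := {z | ∃ f ∈ V, R.IsRed f z}
     add_mem' := by
        rintro z z' ⟨f, hf, hz⟩ ⟨f', hf', hz'⟩
        exact ⟨f + f', V.add_mem hf hf', hz.add hz'⟩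
     zero_mem' := ⟨0, V.zero_mem, R.isRed_zero⟩
     smul_mem' := by
        rintro c z ⟨f, hf, hz⟩
        obtain ⟨a, rfl⟩ := hs c
        refine ⟨(a : K) • f, V.smul_mem _ hf, ?_⟩
        rw [Algebra.smul_def, Algebra.smul_def]
        exact (R.isRed_coe a).mul hz }, fun _ => Iff.rfl⟩

/-- inverting a matrix congruent to the identity -/
theorem exists_matrix_inv (hπ : ∀ a : A, π a = 0 ↔ ¬ IsUnit a) {r : ℕ} (a : Fin r → Fin r → A)
    (haπ : ∀ i j, π (a i j) = if i = j then 1 else 0) :
    ∃ B : Fin r → Fin r → A, (∀ i j, ∑ l, B i l * a l j = if i = j then 1 else 0) ∧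
      ∀ i j, π (B i j) = if i = j then 1 else 0 := by
  classical
  let a' : Matrix (Fin r) (Fin r) A := Matrix.of a
  have haπ' : a'.map π = 1 := by
    ext i j
    rw [Matrix.map_apply, Matrix.one_apply]
    exact haπ i j
  have hdet : IsUnit a'.det := by
    by_contra h
    rw [← hπ] at h
    have h1 : π a'.det = (a'.map π).det := RingHom.map_det π a'
    rw [h1, haπ', Matrix.det_one] at h
    exact one_ne_zero h
  have hBa : a'⁻¹ * a' = 1 := Matrix.nonsing_inv_mul a' hdet
  have hBπ : (a'⁻¹).map π = 1 := by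
    have h1 : (a'⁻¹ * a').map π = (a'⁻¹).map π * a'.map π := Matrix.map_mul
    rw [hBa, haπ', mul_one] at h1
    rw [← h1]
    ext i j
    rw [Matrix.map_apply, Matrix.one_apply, Matrix.one_apply]
    split_ifs <;> simp
  refine ⟨fun i j => a'⁻¹ i j, fun i j => ?_, fun i j => ?_⟩
  · have := congrFun (congrFun hBa i) j
    rw [Matrix.mul_apply, Matrix.one_apply] at this
    exact this
  · have := congrFun (congrFun hBπ i) j
    rwa [Matrix.map_apply, Matrix.one_apply] at this

/-- **Rational bases**: let `V` be a Galois stable space of functions, whose Gauss integral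
elements have coefficients in `A`. The reductions of the Gauss integral elements of `V` are spanned
by the reductions of Galois invariant elements of `V`. -/
theorem exists_rational_basis (hπ : ∀ a : A, π a = 0 ↔ ¬ IsUnit a) (hs : Function.Surjective π)
    {ι : Type*} (c : ι → F →ₗ[K] K) (ck : ι → Fk →ₗ[k] k)
    (hck : ∀ z : Fk, (∀ i, ck i z = 0) → z = 0)
    (hcomp : ∀ f z, R.IsRed f z → (∀ i, c i f ∈ A) → ∀ i (h : c i f ∈ A), ck i z = π ⟨c i f, h⟩)
    (V : Submodule K F) {G : Type*} (s : G → F →+* F) (s' : G → K →+* K)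
    (hss : ∀ g i f, c i (s g f) = s' g (c i f))
    (hstab : ∀ g, ∀ f ∈ V, s g f ∈ V)
    (hint : ∀ f ∈ V, f ∈ R.O → ∀ i, c i f ∈ A)
    (W0 : Submodule k Fk) [FiniteDimensional k W0] (hW : ∀ f ∈ V, ∀ z, R.IsRed f z → z ∈ W0) :
    ∃ (r : ℕ) (e : Fin r → F) (w : Fin r → Fk) (p : Fin r → ι),
      (∀ i, e i ∈ V) ∧ (∀ i n, c n (e i) ∈ A) ∧ (∀ g i, s g (e i) = e i) ∧
      (∀ i, R.IsRed (e i) (w i)) ∧ (∀ f ∈ V, f = ∑ i, c (p i) f • e i) ∧
      ∀ f ∈ V, ∀ z, R.IsRed f z → z = ∑ i, ck (p i) z • w i := by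
  classical
  -- the space of reductions
  obtain ⟨W, hWmem⟩ := exists_redSpace (R := R) hs V
  have hWW0 : W ≤ W0 := by
    intro z hz
    obtain ⟨f, hf, hz⟩ := (hWmem z).1 hz
    exact hW f hf z hz
  haveI : FiniteDimensional k W := Submodule.finiteDimensional_of_le hWW0
  obtain ⟨r, p, w, hw, hwp, hspan⟩ := exists_pivots ck _ W rfl (fun w _ h0 => hck w h0)
  choose f hfV hfw using fun i => (hWmem _).1 (hw i)
  have hfA : ∀ i n, c n (f i) ∈ A := fun i => hint _ (hfV i) (hfw i).mem
  -- the matrix of coefficients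
  obtain ⟨B, hBa, hBπ⟩ := exists_matrix_inv hπ (fun i j => (⟨c (p j) (f i), hfA i _⟩ : A))
    (fun i j => by rw [← hwp i j, hcomp _ _ (hfw i) (hfA i) (p j) (hfA i _)])
  -- the new basis
  obtain ⟨e, he⟩ : ∃ e : Fin r → F, ∀ i, e i = ∑ j, (B i j : K) • f j := ⟨_, fun _ => rfl⟩
  have heV : ∀ i, e i ∈ V := fun i => by
    rw [he]
    exact V.sum_mem fun j _ => V.smul_mem _ (hfV j)
  have hew : ∀ i, R.IsRed (e i) (w i) := by
    intro i
    have h1 : R.IsRed (e i) (∑ j, algebraMap k _ (π (B i j)) * w j) := by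
      rw [he]
      refine ConstRed.isRed_sum _ fun j _ => ?_
      rw [Algebra.smul_def]
      exact (R.isRed_coe _).mul (hfw j)
    have h2 : ∑ j, algebraMap k Fk (π (B i j)) * w j = w i := by
      rw [Finset.sum_eq_single i]
      · rw [hBπ, if_pos rfl, map_one, one_mul]
      · intro j _ hj
        rw [hBπ, if_neg hj.symm, map_zero, zero_mul]
      · intro h
        exact absurd (Finset.mem_univ i) h
    rwa [h2] at h1
  have hep : ∀ i j, c (p j) (e i) = if i = j then 1 else 0 := by
    intro i j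
    have h1 : c (p j) (e i) = ((∑ l, B i l * (⟨c (p j) (f l), hfA l _⟩ : A) : A) : K) := by
      rw [he, map_sum]
      push_cast
      refine Finset.sum_congr rfl fun l _ => ?_
      rw [map_smul, smul_eq_mul]
    rw [h1, hBa]
    split_ifs <;> simp
  -- uniqueness
  have huniq : ∀ v ∈ V, (∀ j, c (p j) v = 0) → v = 0 := by
    intro v hv h0
    by_contra hv0
    obtain ⟨d, hd, z, hz, hcz⟩ := R.exists_isRed_mul hv0
    rw [← Algebra.smul_def] at hcz
    have h2 := V.smul_mem d hv
    apply hz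
    rw [hspan z ((hWmem _).2 ⟨_, h2, hcz⟩)]
    refine Finset.sum_eq_zero fun i _ => ?_
    rw [hcomp _ _ hcz (hint _ h2 hcz.mem) (p i) (hint _ h2 hcz.mem _)]
    have h4 : (⟨c (p i) (d • v), hint _ h2 hcz.mem (p i)⟩ : A) = 0 := by
      apply Subtype.ext
      change c (p i) (d • v) = 0
      rw [map_smul, h0, smul_zero]
    rw [h4, map_zero, zero_smul]
  refine ⟨r, e, w, p, heV, fun i => hint _ (heV i) (hew i).mem, ?_, hew, ?_, ?_⟩
  · intro g i
    rw [← sub_eq_zero]
    apply huniq _ (V.sub_mem (hstab g _ (heV i)) (heV i))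
    intro j
    rw [map_sub, hss, hep]
    split_ifs <;> simp
  · intro v hv
    rw [← sub_eq_zero]
    apply huniq _ (V.sub_mem hv (V.sum_mem fun i _ => V.smul_mem _ (heV i)))
    intro j
    rw [map_sub, map_sum, Finset.sum_eq_single j]
    · rw [map_smul, hep, if_pos rfl, smul_eq_mul, mul_one, sub_self]
    · intro i _ hij
      rw [map_smul, hep, if_neg hij, smul_zero]
    · intro h
      exact absurd (Finset.mem_univ j) h
  · intro v hv z hz
    exact hspan z ((hWmem _).2 ⟨v, hv, hz⟩)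

/-- lifts with coefficients in `A` fixed by inertia -/
theorem exists_fixed_lift_abs (hπ : ∀ a : A, π a = 0 ↔ ¬ IsUnit a) (hs : Function.Surjective π)
    {ι : Type*} (c : ι → F →ₗ[K] K) (ck : ι → Fk →ₗ[k] k)
    (hck : ∀ z : Fk, (∀ i, ck i z = 0) → z = 0)
    (hcomp : ∀ f z, R.IsRed f z → (∀ i, c i f ∈ A) → ∀ i (h : c i f ∈ A), ck i z = π ⟨c i f, h⟩)
    (V : Submodule K F) {G : Type*} (s : G → F →+* F) (s' : G → K →+* K)
    (hss : ∀ g i f, c i (s g f) = s' g (c i f))
    (hsK : ∀ g a, s g (algebraMap K F a) = algebraMap K F (s' g a))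
    (hstab : ∀ g, ∀ f ∈ V, s g f ∈ V)
    (hint : ∀ f ∈ V, f ∈ R.O → ∀ i, c i f ∈ A)
    (W0 : Submodule k Fk) [FiniteDimensional k W0] (hW : ∀ f ∈ V, ∀ z, R.IsRed f z → z ∈ W0)
    (T : Set G) (hT : ∀ x : k, ∃ a : A, π a = x ∧ ∀ g ∈ T, s' g a = a)
    {f : F} (hf : f ∈ V) {z : Fk} (hz : R.IsRed f z) :
    ∃ f' ∈ V, R.IsRed f' z ∧ (∀ n, c n f' ∈ A) ∧ ∀ g ∈ T, s g f' = f' := by
  classical
  obtain ⟨r, e, w, p, heV, heA, heσ, hew, -, hspan⟩ :=
    exists_rational_basis hπ hs c ck hck hcomp V s s' hss hstab hint W0 hW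
  choose b hb hbσ using fun i => hT (ck (p i) z)
  have hmem : ∑ i, (b i : K) • e i ∈ V := V.sum_mem fun i _ => V.smul_mem _ (heV i)
  have hred : R.IsRed (∑ i, (b i : K) • e i) z := by
    rw [hspan f hf z hz]
    refine ConstRed.isRed_sum _ fun i _ => ?_
    rw [Algebra.smul_def, Algebra.smul_def, ← hb i]
    exact (R.isRed_coe _).mul (hew i)
  refine ⟨_, hmem, hred, hint _ hmem hred.mem, fun g hg => ?_⟩
  rw [map_sum]
  refine Finset.sum_congr rfl fun i _ => ?_
  rw [Algebra.smul_def, map_mul, hsK, hbσ i g hg, heσ]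

end Abs

section Main

variable {N : ℕ} [NeZero N] {q : ℕ} [hq : Fact q.Prime]
  {A : ValuationSubring (AlgebraicClosure ℚ)} {k : Type*} [Field k] {π : A →+* k}

variable (N) in
/-- the action of the Galois group on the coefficients of the functions on `X₀(N)`. -/
noncomputable def galB (σ : Qb ≃ₐ[ℚ] Qb) : modularFunctionFieldBar N →+* modularFunctionFieldBar N :=
  (coeffMap (σ : Qb →+* Qb)).restrict (modularFunctionFieldBar N) (modularFunctionFieldBar N)
    fun _ hx => coeffMap_mem_laurentBaseChange σ hx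

theorem coe_galB (σ : Qb ≃ₐ[ℚ] Qb) (f : modularFunctionFieldBar N) :
    (galB N σ f : LaurentSeries Qb) = coeffMap (σ : Qb →+* Qb) f := rfl

theorem galB_coeff (σ : Qb ≃ₐ[ℚ] Qb) (f : modularFunctionFieldBar N) (n : ℤ) :
    (galB N σ f : LaurentSeries Qb).coeff n = σ ((f : LaurentSeries Qb).coeff n) := rfl

/-- reductions of series with coefficients in `A` -/
theorem coeff_of_gRed {L : Type*} [Field L] {A : ValuationSubring L} {π : A →+* k}
    {f : LaurentSeries L} {z : LaurentSeries k}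
    (h : GRed π f z) (hf : ∀ n, f.coeff n ∈ A) (n : ℤ) : z.coeff n = π ⟨f.coeff n, hf n⟩ := by
  obtain ⟨y, rfl⟩ := exists_iotaA f hf
  rw [h.unique (gRed_iota π y), coeffMap_coeff]
  rfl

/-- the coefficient functionals -/
noncomputable def cfE {k : Type*} [Field k] (E : IntermediateField k (LaurentSeries k)) (n : ℤ) :
    E →ₗ[k] k where
  toFun z := (z : LaurentSeries k).coeff n
  map_add' z w := by rw [IntermediateField.coe_add, HahnSeries.coeff_add]
  map_smul' c z := by
    rw [IntermediateField.coe_smul, Algebra.smul_def, algebraMap_eq_C, HahnSeries.C_mul_eq_smul,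
      HahnSeries.coeff_smul, RingHom.id_apply]

theorem cfE_apply {k : Type*} [Field k] (E : IntermediateField k (LaurentSeries k)) (n : ℤ)
    (z : E) : cfE E n z = (z : LaurentSeries k).coeff n := rfl

theorem isUnit_jqModC (R : Type*) [CommRing R] : IsUnit (jqModC R) := by
  rw [jqModC]
  refine IsUnit.mul ?_ ?_
  · refine IsUnit.of_mul_eq_one (HahnSeries.single (1 : ℤ) (1 : R)) ?_
    rw [HahnSeries.single_mul_single]
    simp
  · apply IsUnit.map (HahnSeries.ofPowerSeries ℤ R)
    rw [PowerSeries.isUnit_iff_constantCoeff, ← PowerSeries.coeff_zero_eq_constantCoeff_apply,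
      PowerSeries.coeff_map, PowerSeries.coeff_zero_eq_constantCoeff_apply, constantCoeff_jNum,
      map_one]
    exact isUnit_one

/-- integral functions with a Gauss integral expansion have coefficients in `A`. -/
theorem coeff_mem_of_isInt {R : ConstRed A π (modularFunctionFieldBar N)
    (modularFunctionFieldFullC k N)}
    (hR : ∀ f z, R.IsRed f z → GRed π (f : LaurentSeries Qb) z) (hA : A.LiesOverPrime q)
    {x : modularFunctionFieldBar N} {xb : modularFunctionFieldFullC k N}
    (hc : GoodRed.IsCoord R x xb) {X : LaurentSeries A} (hX : iotaA A X = (x : LaurentSeries Qb))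
    {f : modularFunctionFieldBar N} (hf : f ∈ R.O)
    (hint : IsIntegral (Algebra.adjoin Qb {x}) f) (n : ℤ) :
    (f : LaurentSeries Qb).coeff n ∈ A := by
  obtain ⟨z, hz⟩ := R.exists_isRed_of_mem hf
  obtain ⟨a, b, hb, h1, -⟩ := hR f z hz
  obtain ⟨d, Q, hQ⟩ := hc.exists_equation hf hint
  have hb0 : b ≠ 0 := by
    rintro rfl
    rw [map_zero] at hb
    exact hb rfl
  refine coeff_mem_of_equation (fun a d ha hd => exists_mul_pow_notMem hA ha hd) hb0 h1 d
    (fun i => Polynomial.eval₂ (HahnSeries.C : A →+* LaurentSeries A) X (Q i)) ?_ n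
  have h2 := congrArg (algebraMap (modularFunctionFieldBar N) (LaurentSeries Qb)) hQ
  rw [map_add, map_pow, map_sum, map_zero] at h2
  rw [← h2]
  congr 1
  refine Finset.sum_congr rfl fun i _ => ?_
  rw [map_mul, map_pow]
  congr 1
  rw [iotaA, Polynomial.hom_eval₂]
  have h3 : algebraMap (modularFunctionFieldBar N) (LaurentSeries Qb)
      (Polynomial.aeval x ((Q i).map A.subtype)) = Polynomial.eval₂
        (algebraMap Qb (LaurentSeries Qb)) (x : LaurentSeries Qb) ((Q i).map A.subtype) := by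
    rw [Polynomial.aeval_def]
    exact Polynomial.hom_eval₂ _ _ (algebraMap (modularFunctionFieldBar N) (LaurentSeries Qb)) _
  rw [h3, Polynomial.eval₂_map, ← hX]
  congr 1
  ext a : 1
  rw [RingHom.comp_apply, RingHom.comp_apply, algebraMap_eq_C, coeffMap_single_zero]

theorem isInt_galB {x : modularFunctionFieldBar N} {σ : Qb ≃ₐ[ℚ] Qb} (hx : galB N σ x = x)
    {f : modularFunctionFieldBar N} (hf : IsIntegral (Algebra.adjoin Qb {x}) f) :
    IsIntegral (Algebra.adjoin Qb {x}) (galB N σ f) := by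
  have hC : ∀ a : Qb, galB N σ (algebraMap Qb _ a) = algebraMap Qb _ (σ a) := by
    intro a
    apply Subtype.ext
    rw [coe_galB]
    exact coeffMap_algebraMap (σ : Qb →+* Qb) a
  have hmem : ∀ y ∈ Algebra.adjoin Qb {x}, galB N σ y ∈ Algebra.adjoin Qb {x} := by
    intro y hy
    induction hy using Algebra.adjoin_induction with
    | mem y hy =>
      rw [Set.mem_singleton_iff.1 hy, hx]
      exact Algebra.self_mem_adjoin_singleton Qb x
    | algebraMap a =>
      rw [hC]
      exact Subalgebra.algebraMap_mem _ _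
    | add y z _ _ hy hz => rw [map_add]; exact add_mem hy hz
    | mul y z _ _ hy hz => rw [map_mul]; exact mul_mem hy hz
  let φ : Algebra.adjoin Qb {x} →+* Algebra.adjoin Qb {x} :=
    (galB N σ).restrict (Algebra.adjoin Qb {x}) (Algebra.adjoin Qb {x}) hmem
  exact IsIntegral.map_of_comp_eq φ (galB N σ) (RingHom.ext fun _ => rfl) hf

/-- **(Z1)**, general form: lifts with coefficients in `A` fixed by inertia. -/
theorem exists_fixed_lift_of_chart {R : ConstRed A π (modularFunctionFieldBar N)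
    (modularFunctionFieldFullC k N)} [IsAlgClosed k] [IsFnField k (modularFunctionFieldFullC k N)]
    (hR : ∀ f z, R.IsRed f z → GRed π (f : LaurentSeries Qb) z) (hA : A.LiesOverPrime q)
    (hπ : ∀ a : A, π a = 0 ↔ ¬ IsUnit a) (hs : Function.Surjective π)
    {x : modularFunctionFieldBar N} {xb : modularFunctionFieldFullC k N}
    (hc : GoodRed.IsCoord R x xb) (hC : Chart R x xb) {X : LaurentSeries A}
    (hX : iotaA A X = (x : LaurentSeries Qb)) (hxσ : ∀ σ : Qb ≃ₐ[ℚ] Qb, galB N σ x = x)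
    {z : modularFunctionFieldFullC k N} (hz : IsIntegral (Algebra.adjoin k {xb}) z) :
    ∃ f : modularFunctionFieldBar N, R.IsRed f z ∧ IsIntegral (Algebra.adjoin Qb {x}) f ∧
      (∀ n, (f : LaurentSeries Qb).coeff n ∈ A) ∧
      ∀ σ ∈ A.inertiaSubgroupIn ℚ, galB N σ f = f := by
  obtain ⟨f, hf, hfi⟩ := hC.lift z hz
  obtain ⟨m, hm⟩ := GoodRed.exists_mem_Lm hc.transK hfi
  haveI := hc.finite'
  obtain ⟨ι', _, ⟨B'⟩⟩ := GoodRed.exists_redBasis (K := k) hc.trans
  haveI := B'.finiteDimensional_Lm m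
  have hxi : ∀ σ : Qb ≃ₐ[ℚ] Qb, galB N σ x⁻¹ = x⁻¹ := fun σ => by rw [map_inv₀, hxσ]
  obtain ⟨f', hf'V, hf'z, hf'A, hf'σ⟩ := exists_fixed_lift_abs (R := R) hπ hs
    (cfE (modularFunctionFieldBar N)) (cfE (modularFunctionFieldFullC k N))
    (fun z h => Subtype.ext (HahnSeries.ext (funext h)))
    (fun f z hfz hfA i hi => coeff_of_gRed (hR f z hfz) hfA i)
    (GoodRed.Lm Qb x m) (galB N) (fun σ => (σ : Qb →+* Qb)) (fun σ i f => galB_coeff σ f i)
    (fun σ a => Subtype.ext (coeffMap_algebraMap (σ : Qb →+* Qb) a))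
    (fun σ f hf => ⟨isInt_galB (hxσ σ) hf.1, by
      have := isInt_galB (hxi σ) hf.2
      rw [map_mul, map_pow, hxi] at this
      exact this⟩)
    (fun f hf hfO i => coeff_mem_of_isInt hR hA hc hX hfO hf.1 i)
    (GoodRed.Lm k xb m) (fun f hf z hz => hc.mem_Lm hf hz) (A.inertiaSubgroupIn ℚ)
    (fun c => exists_fixed_lift hA hπ hs c) hm hf
  exact ⟨f', hf'z, hf'V.1, hf'A, hf'σ⟩

variable (hA : A.LiesOverPrime q) (hπ : ∀ a : A, π a = 0 ↔ ¬ IsUnit a)
  (hs : Function.Surjective π) (hN : ¬ q ∣ N)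

/-- **(Z1)** for the coordinate `j`. -/
theorem exists_fixed_lift_jB {z : modularFunctionFieldFullC k N}
    (hz : IsIntegral (Algebra.adjoin k {RedQ.xj k N}) z) :
    ∃ f : modularFunctionFieldBar N, (redX N hA hπ hs hN).IsRed f z ∧
      IsIntegral (Algebra.adjoin Qb {jB N}) f ∧
      (∀ n, (f : LaurentSeries Qb).coeff n ∈ A) ∧
      ∀ σ ∈ A.inertiaSubgroupIn ℚ, galB N σ f = f := by
  haveI hch : CharP k q := charP_of_liesOverPrime hA hπ
  haveI : IsAlgClosed k := isAlgClosed_of_surjective hs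
  haveI := isFnField_bar N
  haveI := isFnField_fullC (k := k) N q hN
  refine exists_fixed_lift_of_chart (fun f z h => isRed_redX.1 h) hA hπ hs
    (isCoord_jB hA hπ hs hN) (chart_jB hA hπ hs hN) (X := jqModC A) (coeffMap_jqModC _)
    (fun σ => Subtype.ext (coeffMap_jqModC _)) hz

/-- **(Z1)** for the coordinate `1/j`. -/
theorem exists_fixed_lift_jB_inv {z : modularFunctionFieldFullC k N}
    (hz : IsIntegral (Algebra.adjoin k {(RedQ.xj k N)⁻¹}) z) :
    ∃ f : modularFunctionFieldBar N, (redX N hA hπ hs hN).IsRed f z ∧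
      IsIntegral (Algebra.adjoin Qb {(jB N)⁻¹}) f ∧
      (∀ n, (f : LaurentSeries Qb).coeff n ∈ A) ∧
      ∀ σ ∈ A.inertiaSubgroupIn ℚ, galB N σ f = f := by
  haveI hch : CharP k q := charP_of_liesOverPrime hA hπ
  haveI : IsAlgClosed k := isAlgClosed_of_surjective hs
  haveI := isFnField_bar N
  haveI := isFnField_fullC (k := k) N q hN
  obtain ⟨u, hu⟩ := isUnit_jqModC A
  have hjσ : ∀ σ : Qb ≃ₐ[ℚ] Qb, galB N σ (jB N) = jB N :=
    fun σ => Subtype.ext (coeffMap_jqModC _)
  refine exists_fixed_lift_of_chart (fun f z h => isRed_redX.1 h) hA hπ hs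
    (isCoord_jB hA hπ hs hN).inv (chart_jB_inv hA hπ hs hN)
    (X := ((u⁻¹ : (LaurentSeries A)ˣ) : LaurentSeries A)) ?_
    (fun σ => by rw [map_inv₀, hjσ]) hz
  rw [IntermediateField.coe_inv, coe_jB]
  apply eq_inv_of_mul_eq_one_left
  have h1 : iotaA A (jqModC A) = jqModC Qb := coeffMap_jqModC _
  rw [← h1, ← hu, ← map_mul, Units.inv_mul, map_one]

end Main

end Fermat.Agent.QComp
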