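import Fermat.Agent.QComp.DivDescent
import Fermat.Agent.JZ.OpenStab

/-!
# Functions fixed by inertia: roots, spans, orbits
-/

set_option autoImplicit false
set_option linter.unusedSectionVars false
set_option linter.style.haveILetI false
set_option linter.unusedVariables false

noncomputable section

open AlgebraicCurve ModularCurve IntermediateField Fermat.Agent.FF

namespace Fermat.Agent.QComp

local notation "Qb" => AlgebraicClosure ℚ
local notation "Γℚ" => (AlgebraicClosure ℚ ≃ₐ[ℚ] AlgebraicClosure ℚ)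

open Fermat.Agent.QVal

variable {N : ℕ} [NeZero N]

theorem gal_algebraMap (σ : Γℚ) (c : Qb) :
    gal N σ (algebraMap Qb (FB N) c) = algebraMap Qb (FB N) (σ c) :=
  arithmeticRingAut_algebraMap (modularFunctionFieldFull N) σ c

/-- **(D2)** roots of functions fixed by inertia, up to constants -/
theorem exists_const_ifix (A : ValuationSubring Qb) {f y : FB N} (hf0 : f ≠ 0) (hf : IFix A f)
    {n : ℕ} (hn : n ≠ 0) (hy : y ^ n = f) :
    ∃ c : Qb, c ≠ 0 ∧ IFix A (algebraMap Qb (FB N) c * y) ∧
      ∀ σ ∈ A.inertiaSubgroupIn ℚ, σ (c ^ n) = c ^ n := by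
  have hy0 : y ≠ 0 := by
    rintro rfl
    rw [zero_pow hn] at hy
    exact hf0 hy.symm
  set l : Qb := (y : LaurentSeries Qb).leadingCoeff with hl
  have hyL : (y : LaurentSeries Qb) ≠ 0 := fun h => hy0 (Subtype.ext h)
  have hl0 : l ≠ 0 := HahnSeries.leadingCoeff_ne_zero.2 hyL
  have hcoe : ∀ (c : Qb) (z : FB N), ((algebraMap Qb (FB N) c * z : FB N) : LaurentSeries Qb) =
      algebraMap Qb (LaurentSeries Qb) c * (z : LaurentSeries Qb) := fun _ _ => rfl
  have hlc : ∀ (c : Qb) (z : FB N),
      ((algebraMap Qb (FB N) c * z : FB N) : LaurentSeries Qb).leadingCoeff =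
        c * (z : LaurentSeries Qb).leadingCoeff := by
    intro c z
    rw [hcoe, HahnSeries.leadingCoeff_mul, algebraMap_laurentSeries_eq_single,
      HahnSeries.leadingCoeff_of_single]
  have hlgal : ∀ (σ : Γℚ) (z : FB N), (gal N σ z : LaurentSeries Qb).leadingCoeff =
      σ (z : LaurentSeries Qb).leadingCoeff := by
    intro σ z
    rw [coe_gal, Top.leadingCoeff_coeffMap]
    rfl
  have hln : (f : LaurentSeries Qb).leadingCoeff = l ^ n := by
    have h1 : ∀ m : ℕ, ((y ^ m : FB N) : LaurentSeries Qb).leadingCoeff = l ^ m := by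
      intro m
      induction m with
      | zero =>
        rw [pow_zero, pow_zero]
        change (1 : LaurentSeries Qb).leadingCoeff = 1
        exact HahnSeries.leadingCoeff_one
      | succ m ih =>
        rw [pow_succ, pow_succ, ← ih, hl, ← HahnSeries.leadingCoeff_mul]
        rfl
    rw [← hy, h1]
  have hσl : ∀ σ ∈ A.inertiaSubgroupIn ℚ, σ (l ^ n) = l ^ n := by
    intro σ hσ
    rw [← hln, ← hlgal, hf σ hσ]
  refine ⟨l⁻¹, inv_ne_zero hl0, ?_, fun σ hσ => ?_⟩
  · intro σ hσ
    set w := algebraMap Qb (FB N) l⁻¹ * y with hw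
    have hw1 : (w : LaurentSeries Qb).leadingCoeff = 1 := by
      rw [hw, hlc, inv_mul_cancel₀ hl0]
    have hw0 : w ≠ 0 := mul_ne_zero (by simpa using hl0) hy0
    have hwn : w ^ n = algebraMap Qb (FB N) (l ^ n)⁻¹ * f := by
      rw [hw, mul_pow, hy, ← map_pow, inv_pow]
    have hgn : gal N σ w ^ n = w ^ n := by
      rw [← map_pow, hwn, map_mul, gal_algebraMap, map_inv₀, hσl σ hσ, hf σ hσ]
    have hq : (gal N σ w / w) ^ n = 1 := by
      rw [div_pow, hgn, div_self (pow_ne_zero _ hw0)]
    -- roots of unity of the function field are constants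
    haveI : IsFnField Qb (FB N) := JZ.modularFieldInputsBar.fnField N
    obtain ⟨a, ha⟩ : ∃ a : Qb, algebraMap Qb (FB N) a = gal N σ w / w :=
      RR.mem_range_of_isAlgebraic
        ⟨Polynomial.X ^ n - 1, Polynomial.X_pow_sub_C_ne_zero (Nat.pos_of_ne_zero hn) 1, by
          simp [hq]⟩
    have h1 : gal N σ w = algebraMap Qb (FB N) a * w := by rw [ha, div_mul_cancel₀ _ hw0]
    have h2 := hlgal σ w
    rw [h1, hlc, hw1, mul_one, map_one] at h2
    rw [h1, h2, map_one, one_mul]
  · rw [inv_pow, map_inv₀, hσl σ hσ]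

variable (N) in
/-- The subfield of functions fixed by inertia. -/
def ifixField (A : ValuationSubring Qb) : Subfield (FB N) where
  carrier := {f | IFix A f}
  mul_mem' {a b} ha hb σ hσ := by rw [map_mul, ha σ hσ, hb σ hσ]
  one_mem' σ hσ := map_one _
  add_mem' {a b} ha hb σ hσ := by rw [map_add, ha σ hσ, hb σ hσ]
  zero_mem' σ hσ := map_zero _
  neg_mem' {a} ha σ hσ := by rw [map_neg, ha σ hσ]
  inv_mem' a ha σ hσ := by rw [map_inv₀, ha σ hσ]

theorem mem_ifixField {A : ValuationSubring Qb} {f : FB N} : f ∈ ifixField N A ↔ IFix A f :=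
  Iff.rfl

theorem ifix_of_coeffEmb (A : ValuationSubring Qb) {f : FB N} {y : LaurentSeries ℚ}
    (h : (f : LaurentSeries Qb) = coeffEmb Qb y) : IFix A f := by
  intro σ hσ
  apply Subtype.ext
  rw [coe_gal, h, coeffMap_coeffEmb]

theorem isAlgebraic_const (A : ValuationSubring Qb) (a : Qb) :
    IsAlgebraic (ifixField N A) (algebraMap Qb (FB N) a) := by
  obtain ⟨P, hP, hPa⟩ := (AlgebraicClosure.isAlgebraic ℚ).isAlgebraic a
  let φ : ℚ →+* ifixField N A := Rat.castHom _
  refine ⟨P.map φ, (Polynomial.map_ne_zero_iff φ.injective).2 hP, ?_⟩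
  rw [Polynomial.aeval_def, Polynomial.eval₂_map]
  let ψ : ℚ →+* Qb := Rat.castHom _
  have h1 : (algebraMap (ifixField N A) (FB N)).comp φ =
      (algebraMap Qb (FB N)).comp ψ := Subsingleton.elim _ _
  have h2 : P.eval₂ ψ a = 0 := by
    rw [Subsingleton.elim ψ (algebraMap ℚ Qb)]
    exact hPa
  rw [h1, ← Polynomial.hom_eval₂, h2, map_zero]

theorem isAlgebraic_ifix (A : ValuationSubring Qb) : Algebra.IsAlgebraic (ifixField N A) (FB N) := by
  have h : (algebraicClosure (ifixField N A) (FB N)).toSubfield = ⊤ := by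
    refine JZ.eq_top_of_gen JZ.modularFieldInputsBar _ ?_ ?_ ?_
    · intro a
      exact mem_algebraicClosure_iff.2 (isAlgebraic_const A a)
    · intro x hx
      exact mem_algebraicClosure_iff.2 (isAlgebraic_algebraMap
        (⟨x, ifix_of_coeffEmb A hx⟩ : ifixField N A))
    · intro x hx
      have h2 : (x : LaurentSeries Qb) = coeffEmb Qb (qExpand ℚ N jq) := by
        rw [hx, coeffEmb, ModFn.coeffMap_qExpand]
      exact mem_algebraicClosure_iff.2 (isAlgebraic_algebraMap
        (⟨x, ifix_of_coeffEmb A h2⟩ : ifixField N A))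
  refine ⟨fun x => ?_⟩
  have hx : x ∈ (algebraicClosure (ifixField N A) (FB N)).toSubfield := by rw [h]; trivial
  exact mem_algebraicClosure_iff.1 hx

/-- **(D3)** every function is a linear combination of functions fixed by inertia. -/
theorem mem_span_ifix (A : ValuationSubring Qb) (z : FB N) :
    z ∈ Submodule.span Qb {f : FB N | IFix A f} := by
  haveI := isAlgebraic_ifix (N := N) A
  let T : Subalgebra Qb (FB N) := Algebra.adjoin Qb {f : FB N | IFix A f}
  let T' : Subalgebra (ifixField N A) (FB N) :=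
    { T.toSubsemiring with
      algebraMap_mem' := fun r => Algebra.subset_adjoin (show (r : FB N) ∈ {f | IFix A f} from r.2) }
  have hT' : IsField T' := Subalgebra.isField_of_algebraic T'
  have hinv : ∀ x ∈ T, x⁻¹ ∈ T := by
    intro x hx
    by_cases h0 : x = 0
    · rw [h0, inv_zero]; exact T.zero_mem
    · obtain ⟨y, hy⟩ := hT'.mul_inv_cancel (a := ⟨x, hx⟩) (fun h => h0 (congrArg Subtype.val h))
      have h1 : x * (y : FB N) = 1 := congrArg Subtype.val hy
      rw [← eq_inv_of_mul_eq_one_right h1]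
      exact y.2
  let S : Subfield (FB N) :=
    { T.toSubring with
      inv_mem' := hinv }
  have hS : S = ⊤ := by
    refine JZ.eq_top_of_gen JZ.modularFieldInputsBar _ ?_ ?_ ?_
    · intro a
      exact T.algebraMap_mem a
    · intro x hx
      exact Algebra.subset_adjoin (ifix_of_coeffEmb A hx)
    · intro x hx
      have h2 : (x : LaurentSeries Qb) = coeffEmb Qb (qExpand ℚ N jq) := by
        rw [hx, coeffEmb, ModFn.coeffMap_qExpand]
      exact Algebra.subset_adjoin (ifix_of_coeffEmb A h2)
  have hz : z ∈ T := by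
    have : z ∈ S := by rw [hS]; trivial
    exact this
  have h3 : Subalgebra.toSubmodule T = Submodule.span Qb {f : FB N | IFix A f} := by
    rw [Algebra.adjoin_eq_span]
    congr 1
    apply le_antisymm
    · exact (Submonoid.closure_le (S := (ifixField N A).toSubmonoid)).2 (fun f hf => hf)
    · exact Submonoid.subset_closure
  rw [← h3]
  exact hz

/-- Galois orbits of functions are finite. -/
theorem finite_orbit (z : FB N) : {w | ∃ σ : Γℚ, w = gal N σ z}.Finite := by
  classical
  obtain ⟨E, hE, h⟩ := JZ.exists_level_finset (F₀ := modularFunctionFieldFull N) {z}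
  haveI : FiniteDimensional ℚ E := hE
  let res : Γℚ → (E →ₐ[ℚ] Qb) := fun σ => (σ : Qb →ₐ[ℚ] Qb).comp E.val
  have key : ∀ σ τ : Γℚ, res σ = res τ → gal N σ z = gal N τ z := by
    intro σ τ hστ
    have h1 : ∀ y ∈ E, (τ⁻¹ * σ) y = y := by
      intro y hy
      have h2 : σ y = τ y := DFunLike.congr_fun hστ (⟨y, hy⟩ : E)
      rw [AlgEquiv.mul_apply, h2, ← AlgEquiv.mul_apply, inv_mul_cancel, AlgEquiv.one_apply]
    have h3 := h (τ⁻¹ * σ) h1 z (Finset.mem_singleton_self z)
    rw [map_mul, mul_smul, map_inv] at h3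
    have h4 : arithmeticGalois (modularFunctionFieldFull N) σ • z =
        arithmeticGalois (modularFunctionFieldFull N) τ • z := by
      rw [← h3, smul_inv_smul]
      rw [h3]
    exact h4
  have hfin : (Set.range res).Finite := Set.toFinite _
  refine (hfin.image (fun φ => if hφ : ∃ σ, res σ = φ then gal N hφ.choose z else z)).subset ?_
  rintro _ ⟨σ, rfl⟩
  refine ⟨res σ, ⟨σ, rfl⟩, ?_⟩
  have hφ : ∃ τ, res τ = res σ := ⟨σ, rfl⟩
  simp only [dif_pos hφ]
  exact key _ _ hφ.choose_spec

/-- Inertia orbits of functions are finite. -/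
theorem finite_orbit_inertia (A : ValuationSubring Qb) (z : FB N) :
    {w | ∃ σ ∈ A.inertiaSubgroupIn ℚ, w = gal N σ z}.Finite :=
  (finite_orbit z).subset (by rintro _ ⟨σ, -, rfl⟩; exact ⟨σ, rfl⟩)

end Fermat.Agent.QComp
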