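import Fermat.Agent.CFT.Loc.UnrGlob
import Fermat.Agent.EC.Inertia
import Fermat.Agent.Red.XZero

/-!
# The fixed field of inertia (Z5)

`KI A` is the fixed field of the inertia group of `A`, `RI A = A ∩ KI A` is a discrete valuation
ring with uniformizer the residue characteristic and the same residue field as `A`.
-/

set_option autoImplicit false
set_option linter.unusedSectionVars false
set_option linter.style.haveILetI false

open IsLocalRing

namespace Fermat.Agent.QComp

local notation "Qb" => AlgebraicClosure ℚ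

variable {q : ℕ} [hq : Fact q.Prime] {A : ValuationSubring (AlgebraicClosure ℚ)}
  {k : Type*} [Field k] {π : A →+* k}

/-- every residue is a Teichmüller type residue: it lifts to a root of unity of order prime to `q`
(or zero), which is fixed by inertia. -/
theorem exists_fixed_lift (hA : A.LiesOverPrime q) (hπ : ∀ a : A, π a = 0 ↔ ¬ IsUnit a)
    (hs : Function.Surjective π) (c : k) :
    ∃ a : A, π a = c ∧ ∀ σ ∈ A.inertiaSubgroupIn ℚ, σ (a : Qb) = a := by
  obtain ⟨b, rfl⟩ := hs c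
  by_cases hb : π b = 0
  · exact ⟨0, by rw [hb, map_zero], fun σ _ => by simp⟩
  haveI := Red.charP_of_liesOverPrime hA hπ
  have hb' : residue A b ≠ 0 := by
    rw [Ne, residue_eq_zero_iff, mem_maximalIdeal, mem_nonunits_iff, ← hπ]
    exact hb
  obtain ⟨N, hN0, hN, hN1⟩ := EC.residue_pow_eq_one hq.out hA (residue A b) hb'
  -- transport to `k`
  have key : ∀ y : A, residue A y = 0 → π y = 0 := by
    intro y hy
    rw [hπ]
    rw [residue_eq_zero_iff, mem_maximalIdeal, mem_nonunits_iff] at hy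
    exact hy
  have h1 : π b ^ N = 1 := by
    have h2 : π (b ^ N - 1) = 0 := key _ (by rw [map_sub, map_pow, hN, map_one, sub_self])
    rw [map_sub, map_pow, map_one] at h2
    exact sub_eq_zero.mp h2
  have h2 : ((N : ℕ) : k) ≠ 0 := by
    intro h
    have h3 : π ((N : A) + 1) = 0 := key _ (by rw [map_add, map_natCast, map_one, hN1])
    rw [map_add, map_natCast, h, zero_add, map_one] at h3
    exact one_ne_zero h3
  -- lift to a root of unity
  have hpoly : ((Polynomial.X ^ N - 1 : Polynomial A)).map π = Polynomial.X ^ N - 1 := by simp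
  have hne : ((Polynomial.X ^ N - 1 : Polynomial A)).map π ≠ 0 := by
    rw [hpoly]
    intro h
    have := congrArg Polynomial.natDegree h
    rw [← Polynomial.C_1, Polynomial.natDegree_X_pow_sub_C, Polynomial.natDegree_zero] at this
    exact hN0 this
  obtain ⟨a, ha, hac⟩ := Red.exists_root hπ hs (Polynomial.X ^ N - 1) hne (ā := π b) (by
    rw [hpoly, Polynomial.IsRoot.def]
    simp [h1])
  have haN : a ^ N = 1 := by
    simpa [sub_eq_zero] using ha
  refine ⟨a, hac, fun σ hσ => ?_⟩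
  -- `σ a / a` is a root of unity congruent to one
  have haN' : (a : Qb) ^ N = 1 := by exact_mod_cast congrArg Subtype.val haN
  have ha0 : (a : Qb) ≠ 0 := by
    intro h
    rw [h, zero_pow hN0] at haN'
    exact zero_ne_one haN'
  set u : Qb := σ a / a with hu
  have huN : u ^ N = 1 := by
    rw [hu, div_pow, ← map_pow, haN', map_one, div_one]
  by_contra hne'
  have hu1 : u ≠ 1 := by
    intro h
    apply hne'
    rwa [hu, div_eq_one_iff_eq ha0] at h
  -- `N = ∏ (1 - ζ)` argument: `u^N - 1 = (u - 1)(...)`, the cofactor is `≡ N`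
  have h3 : A.valuation (u - 1) < 1 := by
    have h4 := EC.inertia_sub_lt_one hσ a.2
    have h5 : u - 1 = (σ a - a) / a := by rw [hu]; field_simp
    rw [h5, map_div₀, EC.pow_eq_one_valuation hN0 haN', div_one]
    exact h4
  have huA : u ∈ A := by
    rw [← ValuationSubring.valuation_le_one_iff, EC.pow_eq_one_valuation hN0 huN]
  have h4 : (∑ i ∈ Finset.range N, u ^ i) * (u - 1) = 0 := by
    rw [geom_sum_mul, huN, sub_self]
  have h5 : ∑ i ∈ Finset.range N, u ^ i = 0 :=
    (mul_eq_zero.mp h4).resolve_right (sub_ne_zero.2 hu1)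
  have h6 : π ⟨u, huA⟩ = 1 := by
    have h7 : π (⟨u, huA⟩ - 1) = 0 := by
      rw [hπ]
      intro hunit
      have h8 := (ValuationSubring.valuation_eq_one_iff A (⟨u, huA⟩ - 1)).mp hunit
      have h9 : ((⟨u, huA⟩ - 1 : A) : Qb) = u - 1 := rfl
      rw [h9] at h8
      exact absurd h8 h3.ne
    rw [map_sub, map_one] at h7
    exact sub_eq_zero.mp h7
  have h7 : π (∑ i ∈ Finset.range N, (⟨u, huA⟩ : A) ^ i) = 0 := by
    have : (∑ i ∈ Finset.range N, (⟨u, huA⟩ : A) ^ i) = 0 := by
      apply Subtype.ext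
      push_cast
      exact h5
    rw [this, map_zero]
  rw [map_sum] at h7
  simp only [map_pow, h6, one_pow, Finset.sum_const, Finset.card_range, nsmul_eq_mul,
    mul_one] at h7
  exact h2 h7

variable (A) in
/-- the fixed field of inertia -/
noncomputable def KI : IntermediateField ℚ (AlgebraicClosure ℚ) :=
  IntermediateField.fixedField (A.inertiaSubgroupIn ℚ)

theorem mem_KI {x : Qb} : x ∈ KI A ↔ ∀ σ ∈ A.inertiaSubgroupIn ℚ, σ x = x := by
  rw [KI, IntermediateField.mem_fixedField_iff]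

variable (A) in
/-- the valuation ring of `KI A`. -/
noncomputable def RI : ValuationSubring (KI A) := A.comap (algebraMap (KI A) Qb)

theorem mem_RI {x : KI A} : x ∈ RI A ↔ (x : Qb) ∈ A := Iff.rfl

theorem isUnit_RI_iff {x : RI A} : IsUnit x ↔ x ≠ 0 ∧ (((x : KI A) : Qb))⁻¹ ∈ A := by
  constructor
  · intro h
    refine ⟨h.ne_zero, ?_⟩
    obtain ⟨y, hy⟩ := h.exists_right_inv
    have h1 : ((x : KI A) : Qb) * ((y : KI A) : Qb) = 1 := by
      have := congrArg (fun t : RI A => ((t : KI A) : Qb)) hy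
      simpa using this
    rw [← eq_inv_of_mul_eq_one_right h1]
    exact y.2
  · rintro ⟨h0, h⟩
    have hx0 : (x : KI A) ≠ 0 := fun h => h0 (Subtype.ext h)
    refine IsUnit.of_mul_eq_one ⟨(x : KI A)⁻¹, ?_⟩ (Subtype.ext (mul_inv_cancel₀ hx0))
    rw [mem_RI]
    exact_mod_cast h

theorem exists_associated (hA : A.LiesOverPrime q) {x : RI A} (hx : x ≠ 0) :
    ∃ n : ℕ, Associated ((q : RI A) ^ n) x := by
  have hx0 : (x : KI A) ≠ 0 := fun h => hx (Subtype.ext h)
  have hx0' : ((x : KI A) : Qb) ≠ 0 := fun h => hx0 (Subtype.ext h)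
  obtain ⟨n, h1, h2⟩ := CFT.Loc.exists_zpow_of_inertia hq.out hA hx0' (mem_KI.1 (x : KI A).2)
  have hq0 : (q : Qb) ≠ 0 := by exact_mod_cast hq.out.ne_zero
  have hqA : (q : Qb)⁻¹ ∉ A := by
    have := (Frob.mem_nonunits_iff_inv A).1 hA
    exact this.resolve_left hq0
  have hn : 0 ≤ n := by
    by_contra hneg
    push Not at hneg
    -- `x⁻¹ q^n ∈ A` and `x ∈ A` give `q^n ∈ A` with `n < 0`
    have h3 : (q : Qb) ^ n ∈ A := by
      have h4 := mul_mem h2 x.2
      have h5 : (((x : KI A) : Qb) * (q : Qb) ^ (-n))⁻¹ * ((x : KI A) : Qb) = (q : Qb) ^ n := by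
        rw [mul_inv, zpow_neg, inv_inv]
        field_simp
      change (((x : KI A) : Qb) * (q : Qb) ^ (-n))⁻¹ * ((x : KI A) : Qb) ∈ A at h4
      rwa [h5] at h4
    apply hqA
    have h4 : (q : Qb)⁻¹ = (q : Qb) ^ n * (q : Qb) ^ ((-n - 1).toNat) := by
      rw [← zpow_natCast, ← zpow_add₀ hq0, Int.toNat_of_nonneg (by omega)]
      have : n + (-n - 1) = -1 := by ring
      rw [this, zpow_neg_one]
    rw [h4]
    exact mul_mem h3 (pow_mem (natCast_mem A q) _)
  obtain ⟨m, rfl⟩ := Int.eq_ofNat_of_zero_le hn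
  refine ⟨m, ?_⟩
  -- the unit
  have hy : (x : KI A) * (q : KI A) ^ (-(m : ℤ)) ∈ RI A := by
    rw [mem_RI]
    push_cast
    exact h1
  have hu : IsUnit (⟨(x : KI A) * (q : KI A) ^ (-(m : ℤ)), hy⟩ : RI A) := by
    rw [isUnit_RI_iff]
    have hqK : (q : KI A) ≠ 0 := by exact_mod_cast hq.out.ne_zero
    refine ⟨?_, ?_⟩
    · intro h
      have := congrArg Subtype.val h
      exact mul_ne_zero hx0 (zpow_ne_zero _ hqK) this
    · push_cast
      exact h2
  obtain ⟨u, hu⟩ := hu
  refine ⟨u, ?_⟩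
  rw [hu]
  apply Subtype.ext
  have hqK : (q : KI A) ≠ 0 := by exact_mod_cast hq.out.ne_zero
  change (((q : RI A) ^ m : RI A) : KI A) * ((x : KI A) * (q : KI A) ^ (-(m : ℤ))) = x
  push_cast
  rw [zpow_neg, zpow_natCast]
  field_simp

theorem irreducible_q (hA : A.LiesOverPrime q) : Irreducible (q : RI A) := by
  have hq0 : (q : Qb) ≠ 0 := by exact_mod_cast hq.out.ne_zero
  have hqA : (q : Qb)⁻¹ ∉ A := ((Frob.mem_nonunits_iff_inv A).1 hA).resolve_left hq0
  have hqu : ¬ IsUnit (q : RI A) := by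
    rw [isUnit_RI_iff]
    rintro ⟨-, h⟩
    apply hqA
    simpa using h
  have hqR0 : (q : RI A) ≠ 0 := by
    intro h
    apply hq0
    have := congrArg (fun t : RI A => ((t : KI A) : Qb)) h
    simpa using this
  refine ⟨hqu, fun a b hab => ?_⟩
  by_contra hcon
  push Not at hcon
  have ha0 : a ≠ 0 := by rintro rfl; rw [zero_mul] at hab; exact hqR0 hab
  have hb0 : b ≠ 0 := by rintro rfl; rw [mul_zero] at hab; exact hqR0 hab
  obtain ⟨m, hm⟩ := exists_associated hA ha0
  obtain ⟨n, hn⟩ := exists_associated hA hb0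
  have hm0 : m ≠ 0 := by
    rintro rfl
    rw [pow_zero] at hm
    exact hcon.1 (hm.isUnit isUnit_one)
  have hn0 : n ≠ 0 := by
    rintro rfl
    rw [pow_zero] at hn
    exact hcon.2 (hn.isUnit isUnit_one)
  have h1 : (q : RI A) ^ 2 ∣ (q : RI A) := by
    have h2 : (q : RI A) ∣ a := (dvd_pow_self _ hm0).trans hm.dvd
    have h3 : (q : RI A) ∣ b := (dvd_pow_self _ hn0).trans hn.dvd
    have h4 := mul_dvd_mul h2 h3
    rwa [← hab, ← sq] at h4
  obtain ⟨c, hc⟩ := h1
  apply hqu
  have h2 : (q : RI A) * (1 - q * c) = 0 := by linear_combination hc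
  have h3 : 1 - (q : RI A) * c = 0 := (mul_eq_zero.mp h2).resolve_left hqR0
  exact IsUnit.of_mul_eq_one c (sub_eq_zero.mp h3).symm

/-- **(Z5)** `RI A` is a discrete valuation ring. -/
theorem isDiscreteValuationRing_RI (hA : A.LiesOverPrime q) : IsDiscreteValuationRing (RI A) :=
  IsDiscreteValuationRing.ofHasUnitMulPowIrreducibleFactorization
    ⟨(q : RI A), irreducible_q hA, fun {_} hx => exists_associated hA hx⟩

theorem maximalIdeal_RI (hA : A.LiesOverPrime q) :
    maximalIdeal (RI A) = Ideal.span {(q : RI A)} := by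
  haveI := isDiscreteValuationRing_RI hA
  exact (irreducible_q hA).maximalIdeal_eq

variable (π) in
/-- the residue map of `RI A` -/
noncomputable def piI : RI A →+* k :=
  π.comp (((algebraMap (KI A) Qb).restrict (RI A).toSubring A.toSubring fun _ h => h))

theorem piI_apply (x : RI A) : piI π x = π ⟨((x : KI A) : Qb), x.2⟩ := rfl

theorem piI_surjective (hA : A.LiesOverPrime q) (hπ : ∀ a : A, π a = 0 ↔ ¬ IsUnit a)
    (hs : Function.Surjective π) : Function.Surjective (piI π) := by
  intro c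
  obtain ⟨a, ha, hfix⟩ := exists_fixed_lift hA hπ hs c
  exact ⟨⟨⟨(a : Qb), mem_KI.2 hfix⟩, a.2⟩, ha⟩

theorem piI_eq_zero_iff (hπ : ∀ a : A, π a = 0 ↔ ¬ IsUnit a) (x : RI A) :
    piI π x = 0 ↔ ¬ IsUnit x := by
  rw [piI_apply, hπ, not_iff_not, isUnit_RI_iff]
  constructor
  · intro h
    refine ⟨?_, ?_⟩
    · rintro rfl
      exact h.ne_zero (Subtype.ext rfl)
    · obtain ⟨b, hb⟩ := h.exists_right_inv
      have hb' : ((x : KI A) : Qb) * (b : Qb) = 1 := congrArg Subtype.val hb
      rw [← eq_inv_of_mul_eq_one_right hb']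
      exact b.2
  · rintro ⟨h0, h⟩
    have hx0 : ((x : KI A) : Qb) ≠ 0 := fun h => h0 (Subtype.ext (Subtype.ext h))
    exact IsUnit.of_mul_eq_one ⟨_, h⟩ (Subtype.ext (mul_inv_cancel₀ hx0))

end Fermat.Agent.QComp
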