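import Fermat.Agent.QComp.TwoFrob
import Fermat.Prelude.Def_AlgebraicCurve_BaseChangeGalois

/-!
# The action of inertia and Frobenius on divisor classes of finite order
-/

set_option autoImplicit false
set_option linter.unusedSectionVars false
set_option linter.style.haveILetI false

open AlgebraicCurve IntermediateField Module

namespace Fermat.Agent.QComp

open Fermat.Agent.FF Fermat.Agent.Red

variable {K k : Type*} [Field K] [Field k] {A : ValuationSubring K} {π : A →+* k}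
  {F₀ F κ : Type*} [Field F₀] [Algebra K F₀] [Field F] [Algebra K F] [Field κ] [Algebra k κ]
  [IsAlgClosed K] [CharZero K] [IsAlgClosed k] [IsFnField K F₀] [IsFnField K F] [IsFnField k κ]

/-- the endomorphism of `F` attached to a semilinear automorphism -/
abbrev gF (g : SemilinearAut K F) : F →+* F := (SemilinearAut.toRingAut g : F →+* F)

/-- the endomorphism of `K` attached to a semilinear automorphism -/
abbrev gK (g : SemilinearAut K F) : K →+* K := (SemilinearAut.baseAut g : K →+* K)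

omit [IsAlgClosed K] [CharZero K] [IsFnField K F] in
theorem divisor_smul_div {g : SemilinearAut K F} {n : ℕ} {D : Divisor K F} {y : F}
    (hdiv : ∀ P, (n : ℤ) * D P = P.ord y) (P : Place K F) :
    (n : ℤ) * (g • D) P = P.ord (gF g y) := by
  rw [SemilinearAut.divisor_smul_apply, hdiv]
  have h := SemilinearAut.ord_smul g (g⁻¹ • P) y
  rw [smul_inv_smul] at h
  exact h.symm

theorem ord_div (P : Place K F) {a b : F} (ha : a ≠ 0) (hb : b ≠ 0) :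
    P.ord (a / b) = P.ord a - P.ord b := by
  rw [div_eq_mul_inv, P.ord_mul ha (inv_ne_zero hb), P.ord_inv]; ring

theorem divisor_smul_sub {g : SemilinearAut K F} {n : ℕ} {D : Divisor K F} {y : F} (hy : y ≠ 0)
    (hdiv : ∀ P, (n : ℤ) * D P = P.ord y) (Q : ℕ) (P : Place K F) :
    (n : ℤ) * (g • D - Q • D) P = P.ord (gF g y / y ^ Q) := by
  have h1 := divisor_smul_div (g := g) hdiv P
  have h2 : gF g y ≠ 0 := by
    intro h
    exact hy ((map_eq_zero (gF g)).1 h)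
  rw [ord_div P h2 (pow_ne_zero _ hy), ord_pow, ← h1, ← hdiv P, Finsupp.sub_apply,
    Finsupp.smul_apply, nsmul_eq_mul]
  ring

theorem W1.of_semi {R₁ R₂ : ConstRed A π F κ} {x : F} {g : SemilinearAut K F} {ψ : κ →+* κ}
    (hg : SemiRed R₁ R₂ x (gF g) (gK g) ψ) {n : ℕ} (hn0 : n ≠ 0) {D : Divisor K F}
    (hD : Divisor.degree D = 0) {y : F} (hy : y ≠ 0) (hdiv : ∀ P, (n : ℤ) * D P = P.ord y)
    {γ₁ γ₂ : K} (hγ₁ : γ₁ ≠ 0) (hγ₂ : γ₂ ≠ 0) {b₁ b₂ : κ} (hb₁ : b₁ ≠ 0) (hb₂ : b₂ ≠ 0)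
    (h1 : R₁.IsRed (algebraMap K F γ₁ * y) b₁) (h2 : R₂.IsRed (algebraMap K F γ₂ * y) b₂)
    {a₁ a₂ : κ} (ha₁ : a₁ ^ n = ψ b₁ / b₁) (ha₂ : a₂ ^ n = ψ b₂ / b₂) :
    ∃ c₁ c₂, W1 R₁ R₂ n (gF g y / y) (g • D - D) c₁ c₂ a₁ a₂ := by
  have hpos := Nat.pos_of_ne_zero hn0
  obtain ⟨c₁, hc₁⟩ := IsAlgClosed.exists_pow_nat_eq (gK g γ₁ / γ₁) hpos
  obtain ⟨c₂, hc₂⟩ := IsAlgClosed.exists_pow_nat_eq (gK g γ₂ / γ₂) hpos
  have e1 : algebraMap K F γ₁ ≠ 0 := by simpa using hγ₁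
  have e2 : algebraMap K F γ₂ ≠ 0 := by simpa using hγ₂
  have hgy : gF g y ≠ 0 := fun h => hy ((map_eq_zero (gF g)).1 h)
  refine ⟨c₁, c₂, hn0, ?_, div_ne_zero hgy hy, ?_, ?_, ?_, ?_, ?_, ?_, ?_⟩
  · rw [map_sub, SemilinearAut.degree_smul, hD, sub_zero]
  · intro P
    have := divisor_smul_sub (g := g) hy hdiv 1 P
    rwa [one_smul, pow_one] at this
  · rintro rfl
    rw [zero_pow hn0] at hc₁
    exact div_ne_zero (by simpa using hγ₁) hγ₁ hc₁.symm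
  · rintro rfl
    rw [zero_pow hn0] at hc₂
    exact div_ne_zero (by simpa using hγ₂) hγ₂ hc₂.symm
  · rintro rfl
    rw [zero_pow hn0] at ha₁
    exact div_ne_zero (by simpa using hb₁) hb₁ ha₁.symm
  · rintro rfl
    rw [zero_pow hn0] at ha₂
    exact div_ne_zero (by simpa using hb₂) hb₂ ha₂.symm
  · have h3 := (hg.red1 _ _ h1).div h1 hb₁
    rw [← map_pow, hc₁, ha₁]
    convert h3 using 1
    rw [map_mul, hg.comm, map_div₀]
    field_simp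
  · have h3 := (hg.red2 _ _ h2).div h2 hb₂
    rw [← map_pow, hc₂, ha₂]
    convert h3 using 1
    rw [map_mul, hg.comm, map_div₀]
    field_simp

variable {R₀ : ConstRed A π F₀ κ} {R₁ R₂ : ConstRed A π F κ} {j : F₀} {jb : κ}
    {α : F₀ →ₐ[K] F} {w : F →ₐ[K] F} {Fr : κ →ₐ[k] κ} {q : ℕ}
    (H : TwoLevel R₀ R₁ R₂ j jb α w Fr q)
    {Q : ℕ} {τ τ' : F →+* F} {σ σ' : K →+* K} {ψ ψ' : κ →+* κ}
    {n : ℕ} {y : F} {D : Divisor K F}

include H

/-- the action of inertia is unipotent of level two -/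
theorem inertia_class (hA : IsArch A)
    (hA' : ∃ c : A, ¬ IsUnit c ∧ c ≠ 0) (hn : (n : k) ≠ 0) (hπ : Function.Surjective π)
    (Φ : TwoLevel.Frob R₁ R₂ (α j * w (α j)) Fr Q τ τ' σ σ' ψ ψ')
    {g : SemilinearAut K F} (hg : SemiRed R₁ R₂ (α j * w (α j)) (gF g) (gK g) (RingHom.id κ))
    (hD : Divisor.degree D = 0) (hy : y ≠ 0) (hdiv : ∀ P, (n : ℤ) * D P = P.ord y) :
    Divisor.IsPrincipal (g • (g • D - D) - (g • D - D)) := by
  have hn0 : n ≠ 0 := by rintro rfl; simp at hn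
  obtain ⟨γ₁, hγ₁, b₁, hb₁, h1⟩ := R₁.exists_isRed_mul hy
  obtain ⟨γ₂, hγ₂, b₂, hb₂, h2⟩ := R₂.exists_isRed_mul hy
  obtain ⟨c₁, c₂, W⟩ := W1.of_semi hg hn0 hD hy hdiv hγ₁ hγ₂ hb₁ hb₂ h1 h2 (a₁ := 1) (a₂ := 1)
    (by rw [one_pow, RingHom.id_apply, div_self hb₁])
    (by rw [one_pow, RingHom.id_apply, div_self hb₂])
  have h3 := divisor_smul_sub (g := g) W.ne W.div 1
  rw [one_smul, pow_one] at h3
  obtain ⟨f, hf⟩ := W.inertia H hA hA' hn hπ Φ hg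
    (D₁ := g • (g • D - D) - (g • D - D))
    (by rw [map_sub, SemilinearAut.degree_smul, sub_self]) h3
  have hf0 : f ≠ 0 := by
    rintro rfl
    rw [zero_pow hn0] at hf
    have hgy : gF g (gF g y / y) ≠ 0 := fun h => W.ne ((map_eq_zero (gF g)).1 h)
    exact div_ne_zero hgy W.ne hf.symm
  refine ⟨f, hf0, fun P => ?_⟩
  have h4 := h3 P
  rw [← hf, ord_pow] at h4
  exact mul_left_cancel₀ (by exact_mod_cast hn0) h4

/-- the action of the square of Frobenius -/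
theorem frobenius_class (hA : IsArch A)
    (hA' : ∃ c : A, ¬ IsUnit c ∧ c ≠ 0) (hn : (n : k) ≠ 0) (hπ : Function.Surjective π)
    {g : SemilinearAut K F}
    (Φ : TwoLevel.Frob R₁ R₂ (α j * w (α j)) Fr Q (gF g) τ' (gK g) σ' ψ ψ')
    (hD : Divisor.degree D = 0) (hy : y ≠ 0) (hdiv : ∀ P, (n : ℤ) * D P = P.ord y)
    {φ : κ →+* κ} (hφ : ∀ b, ψ b = φ (φ b)) {γ₁ γ₂ : K} (hγ₁ : γ₁ ≠ 0) (hγ₂ : γ₂ ≠ 0)
    {b₁ b₂ : κ} (hb₁ : b₁ ≠ 0) (hb₂ : b₂ ≠ 0)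
    (h1 : R₁.IsRed (algebraMap K F γ₁ * y) b₁) (h2 : R₂.IsRed (algebraMap K F γ₂ * y) b₂)
    (hN1 : ∃ h : κ, h ^ n = b₁ * φ b₂) (hN2 : ∃ h : κ, h ^ n = φ b₁ * b₂) :
    Divisor.IsPrincipal (g • (g • D - D) - Q • (g • D - D)) := by
  have hn0 : n ≠ 0 := by rintro rfl; simp at hn
  obtain ⟨e₁, he₁⟩ := hN1
  obtain ⟨e₂, he₂⟩ := hN2
  have hφb₁ : φ b₁ ≠ 0 := by simpa using hb₁
  have hφb₂ : φ b₂ ≠ 0 := by simpa using hb₂
  obtain ⟨c₁, c₂, W⟩ := W1.of_semi Φ.semi hn0 hD hy hdiv hγ₁ hγ₂ hb₁ hb₂ h1 h2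
    (a₁ := φ e₂ / e₁) (a₂ := φ e₁ / e₂)
    (by
      rw [div_pow, ← map_pow, he₁, he₂, map_mul, ← hφ]
      field_simp)
    (by
      rw [div_pow, ← map_pow, he₁, he₂, map_mul, ← hφ]
      field_simp)
  have h3 := divisor_smul_sub (g := g) W.ne W.div Q
  obtain ⟨f, hf⟩ := W.frobenius H hA hA' hn hπ Φ
    (D₁ := g • (g • D - D) - Q • (g • D - D))
    (by rw [map_sub, SemilinearAut.degree_smul, map_nsmul, W.deg, smul_zero, sub_zero]) h3
  have hf0 : f ≠ 0 := by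
    rintro rfl
    rw [zero_pow hn0] at hf
    have hgy : gF g (gF g y / y) ≠ 0 := fun h => W.ne ((map_eq_zero (gF g)).1 h)
    exact div_ne_zero hgy (pow_ne_zero _ W.ne) hf.symm
  refine ⟨f, hf0, fun P => ?_⟩
  have h4 := h3 P
  rw [← hf, ord_pow] at h4
  exact mul_left_cancel₀ (by exact_mod_cast hn0) h4

end Fermat.Agent.QComp
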