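import Fermat.Agent.QComp.TwoOrth
import Fermat.Agent.GoodRed.Gauss

/-!
# Two constant reductions which together are all the components over the Gauss valuation
-/

set_option autoImplicit false
set_option linter.unusedSectionVars false
set_option linter.style.haveILetI false

open AlgebraicCurve IntermediateField
open scoped IntermediateField.algebraAdjoinAdjoin

namespace Fermat.Agent.QComp

open Fermat.Agent.FF Fermat.Agent.Red

variable {K k : Type*} [Field K] [Field k] {A : ValuationSubring K} {π : A →+* k}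
  {F κ₁ κ₂ : Type*} [Field F] [Algebra K F] [Field κ₁] [Algebra k κ₁] [Field κ₂] [Algebra k κ₂]

/-- Two constant reductions which are all the components above the Gauss valuation of `K(x)`. -/
structure TwoRed (R₁ : ConstRed A π F κ₁) (R₂ : ConstRed A π F κ₂) (x : F) (x₁ : κ₁) (x₂ : κ₂) :
    Prop where
  r1 : R₁.IsRed x x₁
  r2 : R₂.IsRed x x₂
  t1 : Transcendental k x₁
  t2 : Transcendental k x₂
  fd : FiniteDimensional K⟮x⟯ F
  fd1 : FiniteDimensional k⟮x₁⟯ κ₁
  fd2 : FiniteDimensional k⟮x₂⟯ κ₂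
  finrank_eq : Module.finrank K⟮x⟯ F = Module.finrank k⟮x₁⟯ κ₁ + Module.finrank k⟮x₂⟯ κ₂
  lift1 : ∀ b, ∃ f, R₁.IsRed f b ∧ R₂.IsRed f 0
  lift2 : ∀ b, ∃ f, R₁.IsRed f 0 ∧ R₂.IsRed f b

variable {R₁ : ConstRed A π F κ₁} {R₂ : ConstRed A π F κ₂} {x : F} {x₁ : κ₁} {x₂ : κ₂}

theorem TwoRed.symm (T : TwoRed R₁ R₂ x x₁ x₂) : TwoRed R₂ R₁ x x₂ x₁ :=
  ⟨T.r2, T.r1, T.t2, T.t1, T.fd, T.fd2, T.fd1, by rw [T.finrank_eq, add_comm],
    fun b => (T.lift2 b).imp fun _ h => h.symm, fun b => (T.lift1 b).imp fun _ h => h.symm⟩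

theorem mem_O_iff_of_rep (r1 : R₁.IsRed x x₁) (t1 : Transcendental k x₁) {c : F} {α : K}
    {p q : Polynomial A} (hp : p.map π ≠ 0) (hq : q.map π ≠ 0)
    (hcpq : c = algebraMap K F α * (Polynomial.aeval x (p.map A.subtype) /
      Polynomial.aeval x (q.map A.subtype))) : c ∈ R₁.O ↔ α ∈ A := by
  have h1 := GoodRed.isRed_aeval r1 p
  have h2 := GoodRed.isRed_aeval r1 q
  have h1' := GoodRed.aeval_ne_zero t1 hp
  have h2' := GoodRed.aeval_ne_zero t1 hq
  have h3 := h1.div h2 h2'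
  have h3' : Polynomial.aeval x₁ (p.map π) / Polynomial.aeval x₁ (q.map π) ≠ 0 :=
    div_ne_zero h1' h2'
  constructor
  · intro h4
    have h5 := mul_mem h4 (h3.inv h3').mem
    rw [hcpq, mul_assoc, mul_inv_cancel₀ (h3.ne_zero h3'), mul_one, R₁.algebraMap_mem_iff] at h5
    exact h5
  · intro h4
    rw [hcpq]
    exact mul_mem ((R₁.algebraMap_mem_iff _).2 h4) h3.mem

theorem mem_iff_of_isRed (r1 : R₁.IsRed x x₁) (t1 : Transcendental k x₁) (r2 : R₂.IsRed x x₂)
    (t2 : Transcendental k x₂) {c : F} (hc : c ∈ K⟮x⟯) : c ∈ R₁.O ↔ c ∈ R₂.O := by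
  rcases eq_or_ne c 0 with rfl | hc0
  · exact ⟨fun _ => zero_mem _, fun _ => zero_mem _⟩
  obtain ⟨α, hα, p, q, hp, hq, hcpq⟩ := GoodRed.exists_rep r1 t1 hc hc0
  rw [mem_O_iff_of_rep r1 t1 hp hq hcpq, mem_O_iff_of_rep r2 t2 hp hq hcpq]

namespace TwoRed

variable (T : TwoRed R₁ R₂ x x₁ x₂)

include T

theorem mem_iff {c : F} (hc : c ∈ K⟮x⟯) : c ∈ R₁.O ↔ c ∈ R₂.O :=
  mem_iff_of_isRed T.r1 T.t1 T.r2 T.t2 hc

theorem mem_gaussRing_iff {c : K⟮x⟯} : c ∈ gaussRing R₁ x ↔ c ∈ gaussRing R₂ x :=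
  T.mem_iff c.2

/-- the second residue map of the Gauss ring -/
def gred2 : gaussRing R₁ x →+* k⟮x₂⟯ :=
  (gaussRed T.r2 T.t2).comp
    (((gaussRing R₁ x).subtype).codRestrict (gaussRing R₂ x).toSubring
      fun c => T.mem_gaussRing_iff.1 c.2)

/-- the first constant reduction over `K(x)` -/
def ext1 : ConstRed (gaussRing R₁ x) (gaussRed T.r1 T.t1) F κ₁ := ConstRed.ext T.r1 T.t1

/-- the second constant reduction over `K(x)` -/
def ext2 : ConstRed (gaussRing R₁ x) T.gred2 F κ₂ where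
  O := R₂.O
  algebraMap_mem_iff c := (T.mem_iff c.2).symm
  red := R₂.red
  red_surjective := R₂.red_surjective
  red_eq_zero_iff := R₂.red_eq_zero_iff
  red_algebraMap _ := rfl
  exists_scale f hf := by
    obtain ⟨c, hc, h1, h2⟩ := R₂.exists_scale f hf
    exact ⟨algebraMap K K⟮x⟯ c, by simpa using hc, h1, h2⟩

theorem ext1_isRed {f : F} {z : κ₁} : T.ext1.IsRed f z ↔ R₁.IsRed f z := Iff.rfl

theorem ext2_isRed {f : F} {z : κ₂} : T.ext2.IsRed f z ↔ R₂.IsRed f z := Iff.rfl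

/-- a basis adapted to both reductions -/
theorem exists_basis : ∃ (n₁ n₂ : ℕ) (w : Module.Basis (Fin n₁ ⊕ Fin n₂) K⟮x⟯ F)
    (wb₁ : Module.Basis (Fin n₁) k⟮x₁⟯ κ₁) (wb₂ : Module.Basis (Fin n₂) k⟮x₂⟯ κ₂),
    Orth2 T.ext1 T.ext2 (fun i => w (Sum.inl i)) (fun i => w (Sum.inr i)) wb₁ wb₂ := by
  haveI := T.fd
  haveI := T.fd1
  haveI := T.fd2
  set wb₁ := Module.finBasis k⟮x₁⟯ κ₁ with hwb₁
  set wb₂ := Module.finBasis k⟮x₂⟯ κ₂ with hwb₂
  choose w₁ hw₁ using fun i => T.lift1 (wb₁ i)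
  choose w₂ hw₂ using fun i => T.lift2 (wb₂ i)
  have h : Orth2 T.ext1 T.ext2 w₁ w₂ wb₁ wb₂ :=
    ⟨fun i => (hw₁ i).1, fun i => (hw₁ i).2, fun i => (hw₂ i).1, fun i => (hw₂ i).2,
      wb₁.linearIndependent, wb₂.linearIndependent⟩
  set w := basisOfLinearIndependentOfCardEqFinrank' (Sum.elim w₁ w₂) h.linearIndependent (by
    rw [Fintype.card_sum, Fintype.card_fin, Fintype.card_fin, T.finrank_eq]) with hw
  refine ⟨_, _, w, wb₁, wb₂, ?_⟩
  have e1 : (fun i => w (Sum.inl i)) = w₁ := by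
    funext i
    simp [hw]
  have e2 : (fun i => w (Sum.inr i)) = w₂ := by
    funext i
    simp [hw]
  rw [e1, e2]
  exact h

/-- elements which are integral for both reductions are integral over the Gauss ring. -/
theorem isIntegral_gaussRing {f : F} (h1 : f ∈ R₁.O) (h2 : f ∈ R₂.O) :
    IsIntegral (gaussRing R₁ x) f := by
  classical
  obtain ⟨n₁, n₂, w, wb₁, wb₂, ho⟩ := T.exists_basis
  have hsum : ∀ j, ∑ i, algebraMap K⟮x⟯ F (Algebra.leftMulMatrix w f i j) * w i = f * w j := by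
    intro j
    have h1 := w.sum_repr (f * w j)
    rw [← h1]
    refine Finset.sum_congr rfl fun i _ => ?_
    rw [Algebra.leftMulMatrix_eq_repr_mul, Algebra.smul_def]
  have hw1 : ∀ j, w j ∈ R₁.O := by
    rintro (j | j)
    · exact (ho.r11 j).mem
    · exact (ho.r21 j).mem
  have hw2 : ∀ j, w j ∈ R₂.O := by
    rintro (j | j)
    · exact (ho.r12 j).mem
    · exact (ho.r22 j).mem
  have hmem : ∀ i j, Algebra.leftMulMatrix w f i j ∈ gaussRing R₁ x := by
    intro i j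
    have h3 := hsum j
    rw [Fintype.sum_sum_type] at h3
    have h4 := ho.mem_of_sum_mem (fun i => Algebra.leftMulMatrix w f (Sum.inl i) j)
      (fun i => Algebra.leftMulMatrix w f (Sum.inr i) j) (by
        rw [h3]; exact mul_mem h1 (hw1 j)) (by
        rw [h3]; exact mul_mem h2 (hw2 j))
    rcases i with i | i
    · exact h4.1 i
    · exact h4.2 i
  set M : Matrix (Fin n₁ ⊕ Fin n₂) (Fin n₁ ⊕ Fin n₂) (gaussRing R₁ x) :=
    fun i j => ⟨_, hmem i j⟩ with hM
  have hM1 : Algebra.leftMulMatrix w f = M.map (gaussRing R₁ x).subtype := rfl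
  refine ⟨M.charpoly, M.charpoly_monic, ?_⟩
  have h3 : (Algebra.leftMulMatrix w f).charpoly = M.charpoly.map (gaussRing R₁ x).subtype := by
    rw [hM1, Matrix.charpoly_map]
  have h4 : Polynomial.aeval f (Algebra.leftMulMatrix w f).charpoly = 0 := by
    apply Algebra.leftMulMatrix_injective w
    rw [map_zero, ← Polynomial.aeval_algHom_apply]
    exact Matrix.aeval_self_charpoly _
  rw [h3, Polynomial.aeval_def, Polynomial.eval₂_map] at h4
  exact h4

/-- Integral functions in `O₁ ∩ O₂` satisfy a monic equation over `A[x]`. -/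
theorem exists_monic {f : F} (h1 : f ∈ R₁.O) (h2 : f ∈ R₂.O)
    (hf : IsIntegral (Algebra.adjoin K {x}) f) :
    ∃ g : Polynomial (Polynomial A), g.Monic ∧ Polynomial.eval₂ (theta A x) f g = 0 := by
  haveI := T.fd
  have e1 : minpoly K⟮x⟯ f = (minpoly (Algebra.adjoin K {x}) f).map (algebraMap _ K⟮x⟯) :=
    minpoly.isIntegrallyClosed_eq_field_fractions' K⟮x⟯ hf
  have e2 : minpoly K⟮x⟯ f = (minpoly (gaussRing R₁ x) f).map (algebraMap _ K⟮x⟯) :=
    minpoly.isIntegrallyClosed_eq_field_fractions' K⟮x⟯ (T.isIntegral_gaussRing h1 h2)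
  have hlift : (minpoly K⟮x⟯ f).map (algebraMap _ F) ∈ Polynomial.lifts (theta A x) := by
    rw [Polynomial.lifts_iff_coeff_lifts]
    intro i
    obtain ⟨p, hp⟩ := exists_poly x ((minpoly (Algebra.adjoin K {x}) f).coeff i)
    have h1 : ((minpoly K⟮x⟯ f).map (algebraMap _ F)).coeff i = Polynomial.aeval x p := by
      rw [← hp, e1, Polynomial.coeff_map, Polynomial.coeff_map]
      rfl
    have h2 : Polynomial.aeval x p ∈ R₁.O := by
      rw [← h1, e2, Polynomial.coeff_map, Polynomial.coeff_map]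
      exact ((minpoly (gaussRing R₁ x) f).coeff i).2
    obtain ⟨q, hq⟩ := exists_poly_of_isRed T.r1 T.t1 h2
    exact ⟨q, by rw [theta_apply, hq, h1]⟩
  have hmonic : ((minpoly K⟮x⟯ f).map (algebraMap _ F)).Monic :=
    (minpoly.monic (hf.tower_top)).map _
  obtain ⟨r, hr1, -, hr2⟩ := Polynomial.lifts_and_natDegree_eq_and_monic hlift hmonic
  refine ⟨r, hr2, ?_⟩
  rw [← Polynomial.eval_map, hr1, Polynomial.eval_map]
  exact minpoly.aeval K⟮x⟯ f

/-- reductions of integral functions are integral. -/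
theorem isIntegral_red1 {f : F} {z : κ₁} (h : R₁.IsRed f z) (h2 : f ∈ R₂.O)
    (hf : IsIntegral (Algebra.adjoin K {x}) f) : IsIntegral (Algebra.adjoin k {x₁}) z := by
  obtain ⟨g, hg, h0⟩ := T.exists_monic h.mem h2 hf
  have h1 := isRed_eval₂ T.r1 h g
  rw [h0] at h1
  have h2 : Polynomial.eval₂ (thetak π x₁) z g = 0 := h1.unique R₁.isRed_zero
  set φ : Polynomial A →+* Algebra.adjoin k {x₁} := (thetak π x₁).codRestrict
    (Algebra.adjoin k {x₁}) (fun q => by
      rw [thetak_apply]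
      exact Polynomial.aeval_mem_adjoin_singleton k x₁) with hφ
  refine ⟨g.map φ, hg.map φ, ?_⟩
  rw [Polynomial.eval₂_map]
  exact h2

end TwoRed

theorem TwoRed.isIntegral_red2 (T : TwoRed R₁ R₂ x x₁ x₂) {f : F} {z : κ₂} (h : f ∈ R₁.O)
    (h2 : R₂.IsRed f z)
    (hf : IsIntegral (Algebra.adjoin K {x}) f) : IsIntegral (Algebra.adjoin k {x₂}) z :=
  T.symm.isIntegral_red1 h2 h hf

/-! ### Families with independent pairs of reductions -/

/-- A family of elements of `O₁ ∩ O₂` whose pairs of reductions are linearly independent. -/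
structure OrthP (R₁ : ConstRed A π F κ₁) (R₂ : ConstRed A π F κ₂) {ι : Type*} (y : ι → F)
    (z : ι → κ₁ × κ₂) : Prop where
  isRed1 : ∀ i, R₁.IsRed (y i) (z i).1
  isRed2 : ∀ i, R₂.IsRed (y i) (z i).2
  indep : LinearIndependent k z

namespace OrthP

variable {ι : Type*} [Fintype ι] {y : ι → F} {z : ι → κ₁ × κ₂} (h : OrthP R₁ R₂ y z)

include h

theorem red1 (a : ι → A) : R₁.IsRed (∑ i, algebraMap K F (a i) * y i)
    (∑ i, π (a i) • z i : κ₁ × κ₂).1 := by
  have h1 := ConstRed.isRed_sum (R := R₁) Finset.univ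
    (fun i _ => (R₁.isRed_coe (a i)).mul (h.isRed1 i))
  rw [Prod.fst_sum]
  simpa [Algebra.smul_def] using h1

theorem red2 (a : ι → A) : R₂.IsRed (∑ i, algebraMap K F (a i) * y i)
    (∑ i, π (a i) • z i : κ₁ × κ₂).2 := by
  have h1 := ConstRed.isRed_sum (R := R₂) Finset.univ
    (fun i _ => (R₂.isRed_coe (a i)).mul (h.isRed2 i))
  rw [Prod.snd_sum]
  simpa [Algebra.smul_def] using h1

theorem coeff_eq_zero (a : ι → A) (h1 : R₁.IsRed (∑ i, algebraMap K F (a i) * y i) 0)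
    (h2 : R₂.IsRed (∑ i, algebraMap K F (a i) * y i) 0) (i : ι) : π (a i) = 0 := by
  have e1 := (h.red1 a).unique h1
  have e2 := (h.red2 a).unique h2
  exact Fintype.linearIndependent_iff.mp h.indep _ (Prod.ext e1 e2) i

theorem exists_scaling (c : ι → K) (hne : ∃ i, c i ≠ 0) : ∃ d : K, d ≠ 0 ∧
      ∃ a : ι → A, (∀ i, c i = d * a i) ∧ ¬ (∀ i, π (a i) = 0) := by
  classical
  obtain ⟨i, -, hi0, hi⟩ := exists_max A Finset.univ c (by simpa using hne)
  refine ⟨c i, hi0, fun l => ⟨c l / c i, hi l (Finset.mem_univ _)⟩, fun l => ?_, fun h1 => ?_⟩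
  · change c l = _ * (c l / _)
    field_simp
  · have h3 := h1 i
    have h4 : (⟨c i / c i, hi i (Finset.mem_univ _)⟩ : A) = 1 := Subtype.ext (div_self hi0)
    beta_reduce at h3
    rw [h4, map_one] at h3
    exact one_ne_zero h3

theorem mem_of_sum_mem (c : ι → K) (h1 : ∑ i, algebraMap K F (c i) * y i ∈ R₁.O)
    (h2 : ∑ i, algebraMap K F (c i) * y i ∈ R₂.O) (i : ι) : c i ∈ A := by
  by_cases hne : ∃ i, c i ≠ 0
  swap
  · push Not at hne
    rw [hne i]; exact A.zero_mem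
  obtain ⟨d, hd0, a, e1, hnz⟩ := h.exists_scaling c hne
  have hdA : d ∈ A := by
    by_contra hd
    apply hnz
    have hdi : d⁻¹ ∈ A := (A.mem_or_inv_mem d).resolve_left hd
    have hu : ¬ IsUnit (⟨d⁻¹, hdi⟩ : A) := by
      intro hu
      apply hd
      obtain ⟨v, hv⟩ := hu.exists_right_inv
      have hv' : d⁻¹ * (v : K) = 1 := congrArg Subtype.val hv
      have : d = v := by field_simp at hv'; exact hv'.symm
      rw [this]; exact v.2
    have hdF : algebraMap K F d ≠ 0 := by simpa using hd0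
    have hS : ∑ i, algebraMap K F (a i) * y i =
        algebraMap K F d⁻¹ * (∑ i, algebraMap K F (c i) * y i) := by
      rw [Finset.mul_sum]
      refine Finset.sum_congr rfl fun i _ => ?_
      rw [e1 i, map_mul, map_inv₀]
      field_simp
    obtain ⟨s₁, hs₁⟩ := R₁.exists_isRed_of_mem h1
    obtain ⟨s₂, hs₂⟩ := R₂.exists_isRed_of_mem h2
    refine h.coeff_eq_zero a ?_ ?_
    · have h3 := (R₁.isRed_algebraMap hdi).mul hs₁
      rw [(R₁.pi_eq_zero_iff _).2 hu, map_zero, zero_mul] at h3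
      rwa [hS]
    · have h3 := (R₂.isRed_algebraMap hdi).mul hs₂
      rw [(R₂.pi_eq_zero_iff _).2 hu, map_zero, zero_mul] at h3
      rwa [hS]
  rw [e1 i]; exact mul_mem hdA (a i).2

theorem linearIndependent : LinearIndependent K y := by
  rw [Fintype.linearIndependent_iff]
  intro c hc
  by_contra hne
  push Not at hne
  obtain ⟨d, hd0, a, e1, hnz⟩ := h.exists_scaling c hne
  have hdF : algebraMap K F d ≠ 0 := by simpa using hd0
  apply hnz
  have hS : ∑ i, algebraMap K F (a i) * y i = 0 := by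
    apply mul_left_cancel₀ hdF
    rw [mul_zero, ← hc, Finset.mul_sum]
    refine Finset.sum_congr rfl fun i _ => ?_
    rw [e1 i, Algebra.smul_def, map_mul]
    ring
  refine h.coeff_eq_zero a ?_ ?_
  · rw [hS]; exact R₁.isRed_zero
  · rw [hS]; exact R₂.isRed_zero

/-- Subspaces of the span of a finite orthonormal family have orthonormal bases. -/
theorem exists_subspace (V : Submodule K F) (hV : V ≤ Submodule.span K (Set.range y)) :
    ∃ (r : ℕ) (v : Fin r → F) (u : Fin r → κ₁ × κ₂), OrthP R₁ R₂ v u ∧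
      Submodule.span K (Set.range v) = V := by
  classical
  set Φ : (ι → K) →ₗ[K] F := Fintype.linearCombination K y with hΦ
  set Φk : (ι → k) →ₗ[k] κ₁ × κ₂ := Fintype.linearCombination k z with hΦk
  obtain ⟨r, v, hv, hspan⟩ := exists_echelon A π (V.comap Φ)
  have hΦv : ∀ j, Φ (fun i => (v j i : K)) = ∑ i, algebraMap K F (v j i) * y i := by
    intro j
    rw [hΦ, Fintype.linearCombination_apply]
    exact Finset.sum_congr rfl fun i _ => Algebra.smul_def _ _
  have hΦkv : ∀ j, Φk (fun i => π (v j i)) = ∑ i, π (v j i) • z i := by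
    intro j
    rw [hΦk, Fintype.linearCombination_apply]
  refine ⟨r, fun j => Φ (fun i => (v j i : K)), fun j => Φk (fun i => π (v j i)), ⟨?_, ?_, ?_⟩, ?_⟩
  · intro j
    rw [hΦv, hΦkv]
    exact h.red1 _
  · intro j
    rw [hΦv, hΦkv]
    exact h.red2 _
  · exact hv.map' Φk (LinearMap.ker_eq_bot.mpr (by
      rw [hΦk]
      exact linearIndependent_iff_injective_fintypeLinearCombination.mp h.indep))
  · have h1 : Set.range (fun j => Φ (fun i => (v j i : K))) =
        Φ '' (Set.range fun j i => (v j i : K)) := by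
      rw [← Set.range_comp]; rfl
    rw [h1, Submodule.span_image, hspan, Submodule.map_comap_eq]
    rw [inf_eq_right]
    refine hV.trans ?_
    rw [hΦ, Fintype.range_linearCombination]

end OrthP

theorem Orth2.toOrthP {ι₁ ι₂ : Type*} {y₁ : ι₁ → F} {y₂ : ι₂ → F} {z₁ : ι₁ → κ₁} {z₂ : ι₂ → κ₂}
    (h : Orth2 R₁ R₂ y₁ y₂ z₁ z₂) :
    OrthP R₁ R₂ (Sum.elim y₁ y₂) (Sum.elim (fun i => (z₁ i, 0)) (fun j => (0, z₂ j))) := by
  refine ⟨?_, ?_, ?_⟩
  · rintro (i | i)
    · exact h.r11 i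
    · exact h.r21 i
  · rintro (i | i)
    · exact h.r12 i
    · exact h.r22 i
  · have h1 := h.i1.map' (LinearMap.inl k κ₁ κ₂) (LinearMap.ker_eq_bot.mpr LinearMap.inl_injective)
    have h2 := h.i2.map' (LinearMap.inr k κ₁ κ₂) (LinearMap.ker_eq_bot.mpr LinearMap.inr_injective)
    refine h1.sum_type h2 ?_
    rw [Submodule.disjoint_def]
    intro v hv1 hv2
    have e1 : v.2 = 0 := by
      have : v ∈ LinearMap.ker (LinearMap.snd k κ₁ κ₂) := by
        refine Submodule.span_le.mpr ?_ hv1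
        rintro _ ⟨i, rfl⟩
        simp
      simpa using this
    have e2 : v.1 = 0 := by
      have : v ∈ LinearMap.ker (LinearMap.fst k κ₁ κ₂) := by
        refine Submodule.span_le.mpr ?_ hv2
        rintro _ ⟨i, rfl⟩
        simp
      simpa using this
    exact Prod.ext e2 e1

namespace TwoRed

variable (T : TwoRed R₁ R₂ x x₁ x₂)

include T

theorem orth2_pow_mul {ι₁ ι₂ : Type*} {w₁ : ι₁ → F} {w₂ : ι₂ → F} {wb₁ : ι₁ → κ₁}
    {wb₂ : ι₂ → κ₂} (ho : Orth2 T.ext1 T.ext2 w₁ w₂ wb₁ wb₂) :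
    Orth2 R₁ R₂ (fun p : ℕ × ι₁ => x ^ p.1 * w₁ p.2) (fun p : ℕ × ι₂ => x ^ p.1 * w₂ p.2)
      (fun p : ℕ × ι₁ => x₁ ^ p.1 * wb₁ p.2) (fun p : ℕ × ι₂ => x₂ ^ p.1 * wb₂ p.2) := by
  refine ⟨fun p => (T.r1.pow p.1).mul (ho.r11 p.2), fun p => ?_, fun p => ?_,
    fun p => (T.r2.pow p.1).mul (ho.r22 p.2), ?_, ?_⟩
  · simpa using (T.r2.pow p.1).mul (T.ext2_isRed.1 (ho.r12 p.2))
  · simpa using (T.r1.pow p.1).mul (T.ext1_isRed.1 (ho.r21 p.2))
  · exact (orth_pow_mul T.r1 T.t1 (fun i => T.ext1_isRed.1 (ho.r11 i)) ho.i1).indep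
  · exact (orth_pow_mul T.r2 T.t2 (fun i => T.ext2_isRed.1 (ho.r22 i)) ho.i2).indep

theorem exists_orthP_span (s : Finset F) :
    ∃ (ι : Type) (_ : Fintype ι) (y : ι → F) (z : ι → κ₁ × κ₂), OrthP R₁ R₂ y z ∧
      ∀ f ∈ s, f ∈ Submodule.span K (Set.range y) := by
  classical
  obtain ⟨n₁, n₂, w, wb₁, wb₂, ho⟩ := T.exists_basis
  -- a common denominator
  obtain ⟨d, hd⟩ := IsLocalization.exist_integer_multiples_of_finset
    (nonZeroDivisors (Algebra.adjoin K {x}))
    ((s ×ˢ Finset.univ).image fun q : F × (Fin n₁ ⊕ Fin n₂) => w.repr q.1 q.2)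
  have hd0 : ((d : Algebra.adjoin K {x}) : F) ≠ 0 := by
    simp
  obtain ⟨pd, hpd⟩ := exists_poly x (d : Algebra.adjoin K {x})
  have hpd0 : pd ≠ 0 := by
    rintro rfl
    rw [map_zero] at hpd
    exact hd0 hpd
  obtain ⟨c, hc0, q, hq, hq0⟩ := GoodRed.exists_primitive (A := A) (π := π) pd hpd0
  have hcF : algebraMap K F c ≠ 0 := by simpa using hc0
  have hcd : algebraMap K F c * ((d : Algebra.adjoin K {x}) : F) =
      Polynomial.aeval x (q.map A.subtype) := by
    rw [hq, map_mul, Polynomial.aeval_C, hpd]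
  have hε₁ := GoodRed.isRed_aeval T.r1 q
  have hε₂ := GoodRed.isRed_aeval T.r2 q
  have hε₁0 := GoodRed.aeval_ne_zero T.t1 hq0
  have hε₂0 := GoodRed.aeval_ne_zero T.t2 hq0
  rw [← hcd] at hε₁ hε₂
  -- the coordinates, multiplied by the denominator, are polynomials
  have hpoly : ∀ f ∈ s, ∀ i, ∃ p : Polynomial K,
      Polynomial.aeval x p = ((d : Algebra.adjoin K {x}) : F) * ((w.repr f i : K⟮x⟯) : F) := by
    intro f hf i
    obtain ⟨a, ha⟩ := hd (w.repr f i) (Finset.mem_image.mpr ⟨(f, i),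
      Finset.mem_product.mpr ⟨hf, Finset.mem_univ _⟩, rfl⟩)
    obtain ⟨p, hp⟩ := exists_poly x a
    refine ⟨p, ?_⟩
    rw [← hp]
    have h1 := congrArg (fun u : K⟮x⟯ => (u : F)) ha
    simp only [Algebra.smul_def] at h1
    exact h1
  choose! p hp using hpoly
  obtain ⟨N, hN⟩ : ∃ N, ∀ f ∈ s, ∀ i, (p f i).natDegree < N := by
    refine ⟨(s.sup fun f => Finset.univ.sup fun i => (p f i).natDegree) + 1, fun f hf i => ?_⟩
    refine Nat.lt_succ_of_le (le_trans ?_ (Finset.le_sup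
      (f := fun f => Finset.univ.sup fun i => (p f i).natDegree) hf))
    exact Finset.le_sup (f := fun i => (p f i).natDegree) (Finset.mem_univ i)
  have horth := T.orth2_pow_mul ho
  have horth' := ((horth.mul_left (hε₁.inv hε₁0) (hε₂.inv hε₂0) (inv_ne_zero hε₁0)
    (inv_ne_zero hε₂0)).comp
    (fun q : Fin N × Fin n₁ => ((q.1 : ℕ), q.2)) (by
      rintro ⟨a, b⟩ ⟨a', b'⟩ h
      simp only [Prod.mk.injEq] at h
      exact Prod.ext (Fin.ext h.1) h.2) (fun q : Fin N × Fin n₂ => ((q.1 : ℕ), q.2)) (by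
      rintro ⟨a, b⟩ ⟨a', b'⟩ h
      simp only [Prod.mk.injEq] at h
      exact Prod.ext (Fin.ext h.1) h.2)).toOrthP
  refine ⟨(Fin N × Fin n₁) ⊕ (Fin N × Fin n₂), inferInstance, _, _, horth', fun f hf => ?_⟩
  have key : ∀ i, ((w.repr f i : K⟮x⟯) : F) * w i =
      ∑ j : Fin N, (c * (p f i).coeff j) • ((algebraMap K F c *
        ((d : Algebra.adjoin K {x}) : F))⁻¹ * (x ^ (j : ℕ) * w i)) := by
    intro i
    have h2 : ((w.repr f i : K⟮x⟯) : F) * w i = ((d : Algebra.adjoin K {x}) : F)⁻¹ *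
        (Polynomial.aeval x (p f i) * w i) := by
      rw [hp f hf i]
      field_simp
    rw [h2, sum_coeff_mem_span w (p f i) i (hN f hf i), Finset.mul_sum, ← Fin.sum_univ_eq_sum_range
      (fun j => ((d : Algebra.adjoin K {x}) : F)⁻¹ *
        (algebraMap K F ((p f i).coeff j) * (x ^ j * w i))) N]
    refine Finset.sum_congr rfl fun j _ => ?_
    rw [Algebra.smul_def, map_mul]
    field_simp
  rw [← w.sum_repr f, Fintype.sum_sum_type]
  refine add_mem (Submodule.sum_mem _ fun i _ => ?_) (Submodule.sum_mem _ fun i _ => ?_)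
  · rw [Algebra.smul_def]
    change ((w.repr f (Sum.inl i) : K⟮x⟯) : F) * w (Sum.inl i) ∈ _
    rw [key]
    refine Submodule.sum_mem _ fun j _ => Submodule.smul_mem _ _
      (Submodule.subset_span ⟨Sum.inl (j, i), rfl⟩)
  · rw [Algebra.smul_def]
    change ((w.repr f (Sum.inr i) : K⟮x⟯) : F) * w (Sum.inr i) ∈ _
    rw [key]
    refine Submodule.sum_mem _ fun j _ => Submodule.smul_mem _ _
      (Submodule.subset_span ⟨Sum.inr (j, i), rfl⟩)

/-- Every finite dimensional subspace of `F` has an orthonormal basis. -/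
theorem exists_orthP (V : Submodule K F) (hV : V.FG) :
    ∃ (r : ℕ) (v : Fin r → F) (u : Fin r → κ₁ × κ₂), OrthP R₁ R₂ v u ∧
      Submodule.span K (Set.range v) = V := by
  obtain ⟨s, hs⟩ := hV
  obtain ⟨ι, _, y, z, hyz, hspan⟩ := T.exists_orthP_span s
  exact hyz.exists_subspace V (by
    rw [← hs, Submodule.span_le]
    exact hspan)

end TwoRed

/-! ### The reduction of a subspace -/

section RedSub

variable (R₁ R₂) in
/-- The reduction of a subspace `V` of `F` in `κ₁ × κ₂`. -/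
def redSub (hπ : Function.Surjective π) (V : Submodule K F) : Submodule k (κ₁ × κ₂) where
  carrier := {b | ∃ f ∈ V, R₁.IsRed f b.1 ∧ R₂.IsRed f b.2}
  zero_mem' := ⟨0, V.zero_mem, R₁.isRed_zero, R₂.isRed_zero⟩
  add_mem' := by
    rintro a b ⟨f, hf, h1, h2⟩ ⟨g, hg, h3, h4⟩
    exact ⟨f + g, V.add_mem hf hg, h1.add h3, h2.add h4⟩
  smul_mem' := by
    rintro c b ⟨f, hf, h1, h2⟩
    obtain ⟨a, rfl⟩ := hπ c
    refine ⟨(a : K) • f, V.smul_mem _ hf, ?_, ?_⟩
    · have h3 := (R₁.isRed_coe a).mul h1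
      rw [Algebra.smul_def (a : K) f]
      rwa [← Algebra.smul_def (π a) b.1] at h3
    · have h3 := (R₂.isRed_coe a).mul h2
      rw [Algebra.smul_def (a : K) f]
      rwa [← Algebra.smul_def (π a) b.2] at h3

theorem mem_redSub {hπ : Function.Surjective π} {V : Submodule K F} {b : κ₁ × κ₂} :
    b ∈ redSub R₁ R₂ hπ V ↔ ∃ f ∈ V, R₁.IsRed f b.1 ∧ R₂.IsRed f b.2 := Iff.rfl

theorem redSub_mono {hπ : Function.Surjective π} {V V' : Submodule K F} (h : V ≤ V') :
    redSub R₁ R₂ hπ V ≤ redSub R₁ R₂ hπ V' := fun _ ⟨f, hf, h1⟩ => ⟨f, h hf, h1⟩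

theorem TwoRed.redSub_finrank (T : TwoRed R₁ R₂ x x₁ x₂) (hπ : Function.Surjective π)
    (V : Submodule K F) [hV : Module.Finite K V] :
    Module.Finite k (redSub R₁ R₂ hπ V) ∧
      Module.finrank k (redSub R₁ R₂ hπ V) = Module.finrank K V := by
  classical
  obtain ⟨r, v, u, hvu, hspan⟩ := T.exists_orthP V (Module.Finite.iff_fg.mp hV)
  have h1 : redSub R₁ R₂ hπ V = Submodule.span k (Set.range u) := by
    apply le_antisymm
    · rintro b ⟨f, hf, hb1, hb2⟩
      rw [← hspan, Submodule.mem_span_range_iff_exists_fun] at hf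
      obtain ⟨c, rfl⟩ := hf
      have e : ∑ i, c i • v i = ∑ i, algebraMap K F (c i) * v i :=
        Finset.sum_congr rfl fun i _ => Algebra.smul_def _ _
      rw [e] at hb1 hb2
      have hc := hvu.mem_of_sum_mem c hb1.mem hb2.mem
      have e1 := (hvu.red1 fun i => ⟨c i, hc i⟩).unique hb1
      have e2 := (hvu.red2 fun i => ⟨c i, hc i⟩).unique hb2
      have e3 : b = ∑ i, π ⟨c i, hc i⟩ • u i := (Prod.ext e1 e2).symm
      rw [e3]
      exact Submodule.sum_mem _ fun i _ => Submodule.smul_mem _ _ (Submodule.subset_span ⟨i, rfl⟩)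
    · rw [Submodule.span_le]
      rintro _ ⟨i, rfl⟩
      exact ⟨v i, by rw [← hspan]; exact Submodule.subset_span ⟨i, rfl⟩, hvu.isRed1 i,
        hvu.isRed2 i⟩
  constructor
  · rw [h1]
    exact Module.Finite.span_of_finite k (Set.finite_range u)
  · rw [h1, finrank_span_eq_card hvu.indep, ← hspan, finrank_span_eq_card hvu.linearIndependent]

end RedSub

end Fermat.Agent.QComp
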