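import Fermat.Agent.QComp.ModTwo
import Fermat.Agent.QComp.Interface
import Fermat.Agent.QVal.Gal
import Fermat.Agent.ESh.Relation

/-!
# The Galois action on the two components
-/

set_option autoImplicit false
set_option linter.unusedSectionVars false
set_option linter.style.haveILetI false

noncomputable section

open AlgebraicCurve ModularCurve IntermediateField Module

namespace Fermat.Agent.QComp

open Fermat.Agent.FF Fermat.Agent.Red Fermat.Agent.QVal Fermat.Agent.JZ Fermat.Agent.ESh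
  Fermat.Agent.ModFn

local notation "Qb" => AlgebraicClosure ℚ
local notation "Γℚ" => (AlgebraicClosure ℚ ≃ₐ[ℚ] AlgebraicClosure ℚ)

section Gauss

variable {k : Type*} [Field k] {A : ValuationSubring Qb} {π : A →+* k}

/-- Gauss reductions and the coefficientwise action -/
theorem gRed_galois {σ : Γℚ} (sA : A →+* A) (hsA : ∀ a : A, ((sA a : A) : Qb) = σ a)
    (sk : k →+* k) (hsk : ∀ a : A, π (sA a) = sk (π a)) {f : LaurentSeries Qb}
    {z : LaurentSeries k} (h : GRed π f z) :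
    GRed π (coeffMap (σ : Qb →+* Qb) f) (coeffMap sk z) := by
  obtain ⟨a, b, hb, h1, h2⟩ := h
  have hρ : ∀ c : LaurentSeries A, rhoA π (coeffMap sA c) = coeffMap sk (rhoA π c) := by
    intro c
    ext n
    simp only [coeffMap_coeff]
    exact hsk _
  have hι : ∀ c : LaurentSeries A,
      iotaA A (coeffMap sA c) = coeffMap (σ : Qb →+* Qb) (iotaA A c) := by
    intro c
    ext n
    simp only [coeffMap_coeff]
    exact hsA _
  refine ⟨coeffMap sA a, coeffMap sA b, ?_, ?_, ?_⟩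
  · rw [hρ]; exact (map_ne_zero _).2 hb
  · rw [hι, hι, ← map_mul, h1]
  · rw [hρ, hρ, ← map_mul, h2]

end Gauss

section Level

variable {k : Type*} [Field k] {A : ValuationSubring Qb} {π : A →+* k} {M q : ℕ} [NeZero M]
  [NeZero q] [hqf : Fact q.Prime]
  {hA : A.LiesOverPrime q} {hπ : ∀ a : A, π a = 0 ↔ ¬ IsUnit a}
  {hs : Function.Surjective π} {hM : ¬ q ∣ M}

theorem gal_jB (N : ℕ) [NeZero N] (σ : Γℚ) : gal N σ (jB N) = jB N :=
  Subtype.ext (by rw [coe_gal, coe_jB]; exact ModFn.coeffMap_jqModC _)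

/-- the Galois action is compatible with the two reductions -/
theorem semiRed_galois {σ : Γℚ} (sA : A →+* A) (hsA : ∀ a : A, ((sA a : A) : Qb) = σ a)
    (sk : k ≃+* k) (hsk : ∀ a : A, π (sA a) = sk (π a)) :
    SemiRed (rInf1 M q hA hπ hs hM) (rZero1 M q hA hπ hs hM)
      (al1 M q (jB M) * (w1 hqf.out hM : FB (M * q) →ₐ[Qb] FB (M * q)) (al1 M q (jB M)))
      (gF (arithmeticGalois (modularFunctionFieldFull (M * q)) σ))
      (gK (arithmeticGalois (modularFunctionFieldFull (M * q)) σ))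
      (gF (coeffSemi M sk)) where
  comm c := SemilinearAut.smul_algebraMap
    (arithmeticGalois (modularFunctionFieldFull (M * q)) σ) c
  fix := by
    change gal (M * q) σ (al1 M q (jB M) * w1 hqf.out hM (al1 M q (jB M))) = _
    rw [map_mul, gal_al1, ← w1_gal, gal_al1, gal_jB]
    rfl
  red1 f b h := by
    rw [isRed_rInf1] at h ⊢
    exact gRed_galois sA hsA (sk : k →+* k) hsk h
  red2 f b h := by
    rw [isRed_rZero1] at h ⊢
    have h1 : w1 hqf.out hM (gF (arithmeticGalois (modularFunctionFieldFull (M * q)) σ) f) =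
        gal (M * q) σ (w1 hqf.out hM f) := w1_gal hM σ f
    rw [h1, isRed_rInf1] 
    rw [isRed_rInf1] at h
    exact gRed_galois sA hsA (sk : k →+* k) hsk h

/-! ### Frobenius -/

theorem coe_gF_coeffSemi (sk : k ≃+* k) (b : modularFunctionFieldFullC k M) :
    ((gF (coeffSemi M sk) b : modularFunctionFieldFullC k M) : LaurentSeries k) =
      coeffMap (sk : k →+* k) (b : LaurentSeries k) := rfl

theorem gF_coeffSemi_refl : gF (coeffSemi M (RingEquiv.refl k)) = RingHom.id _ := by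
  ext b : 1
  apply Subtype.ext
  rw [coe_gF_coeffSemi]
  exact coeffMap_id _

theorem gF_coeffSemi_trans (s t : k ≃+* k) (b : modularFunctionFieldFullC k M) :
    gF (coeffSemi M (s.trans t)) b = gF (coeffSemi M t) (gF (coeffSemi M s) b) := by
  apply Subtype.ext
  rw [coe_gF_coeffSemi, coe_gF_coeffSemi, coe_gF_coeffSemi, coeffMap_coeffMap]
  exact coeffMap_congr (RingHom.ext fun a => rfl) _

theorem gF_coeffSemi_frob [CharP k q] [PerfectRing k q] (b : modularFunctionFieldFullC k M) :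
    gF (coeffSemi M (frobeniusEquiv k q)) b = phiK q M b := by
  apply Subtype.ext
  rw [coe_gF_coeffSemi, coe_phiK]
  exact coeffMap_congr (RingHom.ext fun a => by rw [RingHom.coe_coe, frobeniusEquiv_apply]) _

theorem exists_act {σ : Γℚ} {A : ValuationSubring Qb} {π : A →+* k}
    (hπ : ∀ a : A, π a = 0 ↔ ¬ IsUnit a) [CharP k q] [PerfectRing k q]
    (hσ : A.IsFrobeniusAt σ q) :
    (∃ sA : A →+* A, (∀ a : A, ((sA a : A) : Qb) = σ a) ∧
      ∀ a : A, π (sA a) = frobeniusEquiv k q (π a)) ∧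
    (∃ sA : A →+* A, (∀ a : A, ((sA a : A) : Qb) = σ⁻¹ a) ∧
      ∀ a : A, π (sA a) = (frobeniusEquiv k q).symm (π a)) := by
  obtain ⟨hσD, hσF⟩ := (Frob.isFrobeniusAt_iff A σ q).1 hσ
  let sA : A →+* A := ((σ : Qb →+* Qb).comp A.subtype).codRestrict A.toSubring
    (fun a => (Frob.apply_mem_iff hσD).2 a.2)
  have hsA : ∀ a : A, ((sA a : A) : Qb) = σ a := fun a => rfl
  have hsk : ∀ a : A, π (sA a) = frobeniusEquiv k q (π a) := by
    intro a
    rw [frobeniusEquiv_apply, frobenius_def, ← map_pow, ← sub_eq_zero, ← map_sub, hπ]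
    have h1 := hσF a a.2
    rw [ValuationSubring.mem_nonunits_iff_exists_mem_maximalIdeal] at h1
    obtain ⟨h2, h3⟩ := h1
    exact (IsLocalRing.mem_maximalIdeal _).1 h3
  refine ⟨⟨sA, hsA, hsk⟩, ?_⟩
  have hinv : ∀ a ∈ A, σ⁻¹ a ∈ A := by
    intro a ha
    have h1 := (Frob.apply_mem_iff hσD (x := σ⁻¹ a)).1
    apply h1
    have h2 : σ (σ⁻¹ a) = a := σ.apply_symm_apply a
    rw [h2]
    exact ha
  let sB : A →+* A := (((σ⁻¹ : Γℚ) : Qb →+* Qb).comp A.subtype).codRestrict A.toSubring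
    (fun a => hinv a a.2)
  refine ⟨sB, fun a => rfl, fun a => ?_⟩
  rw [RingEquiv.eq_symm_apply, ← hsk]
  congr 1
  apply Subtype.ext
  rw [hsA]
  exact σ.apply_symm_apply (a : Qb)

/-- the Frobenius structure -/
theorem frobStructure [CharP k q] [PerfectRing k q] {σ : Γℚ} (hσ : A.IsFrobeniusAt σ q) :
    TwoLevel.Frob (rInf1 M q hA hπ hs hM) (rZero1 M q hA hπ hs hM)
      (al1 M q (jB M) * (w1 hqf.out hM : FB (M * q) →ₐ[Qb] FB (M * q)) (al1 M q (jB M)))
      (FrK (q := q)) (q ^ 2)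
      (gF (arithmeticGalois (modularFunctionFieldFull (M * q)) (σ * σ)))
      (gF (arithmeticGalois (modularFunctionFieldFull (M * q)) (σ⁻¹ * σ⁻¹)))
      (gK (arithmeticGalois (modularFunctionFieldFull (M * q)) (σ * σ)))
      (gK (arithmeticGalois (modularFunctionFieldFull (M * q)) (σ⁻¹ * σ⁻¹)))
      (gF (coeffSemi M ((frobeniusEquiv k q).trans (frobeniusEquiv k q))))
      (gF (coeffSemi M ((frobeniusEquiv k q).symm.trans (frobeniusEquiv k q).symm))) where
  hQ := Nat.one_lt_pow two_ne_zero hqf.out.one_lt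
  semi := by
    obtain ⟨⟨sA, h1, h2⟩, -⟩ := exists_act (k := k) hπ hσ
    refine semiRed_galois (sA.comp sA) (fun a => ?_) _ (fun a => ?_)
    · change ((sA (sA a) : A) : Qb) = σ (σ a)
      rw [h1, h1]
    · change π (sA (sA a)) = frobeniusEquiv k q (frobeniusEquiv k q (π a))
      rw [h2, h2]
  semi' := by
    obtain ⟨-, sA, h1, h2⟩ := exists_act (k := k) hπ hσ
    refine semiRed_galois (sA.comp sA) (fun a => ?_) _ (fun a => ?_)
    · change ((sA (sA a) : A) : Qb) = σ⁻¹ (σ⁻¹ a)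
      rw [h1, h1]
    · change π (sA (sA a)) = (frobeniusEquiv k q).symm ((frobeniusEquiv k q).symm (π a))
      rw [h2, h2]
  inv b := by
    rw [gF_coeffSemi_trans, gF_coeffSemi_trans]
    apply Subtype.ext
    simp only [coe_gF_coeffSemi, coeffMap_coeffMap]
    refine (coeffMap_congr (g := RingHom.id k) (RingHom.ext fun a => ?_) _).trans (coeffMap_id _)
    simp
  frob b := by
    rw [gF_coeffSemi_trans, gF_coeffSemi_frob, gF_coeffSemi_frob, FrK_phiK, map_pow, FrK_phiK,
      ← pow_mul, sq]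

/-! ### Norms -/

theorem twist_algebraMap (ζ : Qbˣ) (c : Qb) :
    twist ζ (algebraMap Qb (LaurentSeries Qb) c) = algebraMap Qb (LaurentSeries Qb) c := by
  ext n
  rw [twist_coeff, algebraMap_laurentSeries_eq_single, HahnSeries.coeff_single]
  split_ifs with h
  · rw [h, zpow_zero, Units.val_one, one_mul]
  · rw [mul_zero]

theorem isRed_norm_scale [CharP k q] {y : FB (M * q)} {γ₁ γ₂ : Qb}
    {b₁ b₂ : modularFunctionFieldFullC k M}
    (h1 : (rInf1 M q hA hπ hs hM).IsRed (algebraMap Qb (FB (M * q)) γ₁ * y) b₁)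
    (h2 : (rZero1 M q hA hπ hs hM).IsRed (algebraMap Qb (FB (M * q)) γ₂ * y) b₂) :
    (redX M hA hπ hs hM).IsRed (algebraMap Qb (FB M) (γ₁ * γ₂ ^ q) * normAlong (al1 M q) y)
      (b₁ * phiK q M b₂) := by
  rw [isRed_redX]
  rw [isRed_rInf1] at h1
  rw [isRed_rZero1, isRed_rInf1, map_mul, AlgEquiv.commutes] at h2
  have h3 := (gRed_qExpand h1 q).mul (gRed_prod (Finset.univ : Finset (RU q)) (fun ζ _ =>
    gRed_twist_root hA hπ (RU.pow ζ) h2))
  have h4 : qExpand Qb q ((algebraMap Qb (FB (M * q)) γ₁ * y : FB (M * q)) : LaurentSeries Qb) *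
      ∏ ζ : RU q, twist (ζ : Qbˣ) ((algebraMap Qb (FB (M * q)) γ₂ * w1 hqf.out hM y :
        FB (M * q)) : LaurentSeries Qb) =
      qExpand Qb q ((algebraMap Qb (FB M) (γ₁ * γ₂ ^ q) * normAlong (al1 M q) y : FB M) :
        LaurentSeries Qb) := by
    have e1 : ((algebraMap Qb (FB (M * q)) γ₁ * y : FB (M * q)) : LaurentSeries Qb) =
      algebraMap Qb (LaurentSeries Qb) γ₁ * (y : LaurentSeries Qb) := rfl
    have e2 : ((algebraMap Qb (FB (M * q)) γ₂ * w1 hqf.out hM y : FB (M * q)) :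
      LaurentSeries Qb) = algebraMap Qb (LaurentSeries Qb) γ₂ * (w1 hqf.out hM y :
        LaurentSeries Qb) := rfl
    have e3 : ((algebraMap Qb (FB M) (γ₁ * γ₂ ^ q) * normAlong (al1 M q) y : FB M) :
        LaurentSeries Qb) = algebraMap Qb (LaurentSeries Qb) (γ₁ * γ₂ ^ q) *
          (normAlong (al1 M q) y : LaurentSeries Qb) := rfl
    rw [e1, e2, e3, map_mul, map_mul, QVal.qExpand_algebraMap, QVal.qExpand_algebraMap,
      qExpand_norm_al1 hqf.out hM y]
    have e4 : ∀ ζ : RU q, twist (ζ : Qbˣ) (algebraMap Qb (LaurentSeries Qb) γ₂ *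
        (w1 hqf.out hM y : LaurentSeries Qb)) = algebraMap Qb (LaurentSeries Qb) γ₂ *
        twist (ζ : Qbˣ) (w1 hqf.out hM y : LaurentSeries Qb) := by
      intro ζ
      rw [map_mul, twist_algebraMap]
    simp only [e4]
    rw [Finset.prod_mul_distrib, Finset.prod_const, Finset.card_univ, card_RU, map_mul, map_pow]
    ring
  rw [h4, Finset.prod_const, Finset.card_univ, card_RU, pow_eq_phiK, ← map_mul] at h3
  obtain ⟨z', hz', hzz⟩ := gRed_of_qExpand (gaussFB hA M) hπ q
    (algebraMap Qb (FB M) (γ₁ * γ₂ ^ q) * normAlong (al1 M q) y).2 h3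
  have hz : z' = _ := qExpand_injective (R := k) q hzz
  rw [hz] at hz'
  exact hz'

end Level

end Fermat.Agent.QComp
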