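import Fermat.Agent.QVal.LevelOneB
import Fermat.Agent.Cusp.FrickeUnit
import Fermat.Agent.Igusa.JFun
import Fermat.Agent.Red.Haupt

/-!
# The Hasse invariant function `h`, the reduction of `Δ(τ)/Δ(qτ)`
-/

set_option autoImplicit false
set_option linter.unusedSectionVars false
set_option linter.style.haveILetI false
set_option linter.unusedVariables false

noncomputable section
open AlgebraicCurve ModularCurve IntermediateField Fermat.Agent.JZ Polynomial Fermat.Agent.Red
open Fermat.Agent.QVal Fermat.Agent.FF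

namespace Fermat.Agent.QComp

local notation "Qb" => AlgebraicClosure ℚ

section General

theorem isInt_transport {K F F' : Type*} [Field K] [Field F] [Field F'] [Algebra K F] [Algebra K F']
    (φ : F →ₐ[K] F') {x f : F} (hf : IsIntegral (Algebra.adjoin K {x}) f) :
    IsIntegral (Algebra.adjoin K {φ x}) (φ f) := by
  have hmem : ∀ y ∈ Algebra.adjoin K {x}, (φ : F →+* F') y ∈ Algebra.adjoin K {φ x} := by
    intro y hy
    induction hy using Algebra.adjoin_induction with
    | mem y hy =>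
      rw [Set.mem_singleton_iff.1 hy]
      exact Algebra.self_mem_adjoin_singleton K (φ x)
    | algebraMap a =>
      have : (φ : F →+* F') (algebraMap K F a) = algebraMap K F' a := φ.commutes a
      rw [this]
      exact Subalgebra.algebraMap_mem _ _
    | add y z _ _ hy hz => rw [map_add]; exact add_mem hy hz
    | mul y z _ _ hy hz => rw [map_mul]; exact mul_mem hy hz
  let ψ : Algebra.adjoin K {x} →+* Algebra.adjoin K {φ x} :=
    (φ : F →+* F').restrict (Algebra.adjoin K {x}) (Algebra.adjoin K {φ x}) hmem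
  exact IsIntegral.map_of_comp_eq ψ (φ : F →+* F') (RingHom.ext fun _ => rfl) hf

theorem isIntElem_transport {K F F' : Type*} [Field K] [Field F] [Field F'] [Algebra K F]
    [Algebra K F'] (φ : F →ₐ[K] F') {x : F} {f : F'}
    (hf : IsIntegral (Algebra.adjoin K {φ x}) f) :
    ((φ : F →+* F').comp (algebraMap (Algebra.adjoin K {x}) F)).IsIntegralElem f := by
  have hmem : ∀ y ∈ Algebra.adjoin K {x}, (φ : F →+* F') y ∈ Algebra.adjoin K {φ x} := by
    intro y hy
    induction hy using Algebra.adjoin_induction with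
    | mem y hy =>
      rw [Set.mem_singleton_iff.1 hy]
      exact Algebra.self_mem_adjoin_singleton K (φ x)
    | algebraMap a =>
      have : (φ : F →+* F') (algebraMap K F a) = algebraMap K F' a := φ.commutes a
      rw [this]
      exact Subalgebra.algebraMap_mem _ _
    | add y z _ _ hy hz => rw [map_add]; exact add_mem hy hz
    | mul y z _ _ hy hz => rw [map_mul]; exact mul_mem hy hz
  let ψ : Algebra.adjoin K {x} →+* Algebra.adjoin K {φ x} :=
    (φ : F →+* F').restrict (Algebra.adjoin K {x}) (Algebra.adjoin K {φ x}) hmem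
  have hψ : Function.Surjective ψ := by
    rintro ⟨y, hy⟩
    have h1 : ∃ z ∈ Algebra.adjoin K {x}, φ z = y := by
      induction hy using Algebra.adjoin_induction with
      | mem y hy => exact ⟨x, Algebra.self_mem_adjoin_singleton K x, (Set.mem_singleton_iff.1 hy).symm⟩
      | algebraMap a => exact ⟨algebraMap K F a, Subalgebra.algebraMap_mem _ _, φ.commutes a⟩
      | add y z _ _ hy hz =>
        obtain ⟨a, ha, rfl⟩ := hy
        obtain ⟨b, hb, rfl⟩ := hz
        exact ⟨a + b, add_mem ha hb, map_add _ _ _⟩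
      | mul y z _ _ hy hz =>
        obtain ⟨a, ha, rfl⟩ := hy
        obtain ⟨b, hb, rfl⟩ := hz
        exact ⟨a * b, mul_mem ha hb, map_mul _ _ _⟩
    obtain ⟨z, hz, hzy⟩ := h1
    exact ⟨⟨z, hz⟩, Subtype.ext hzy⟩
  obtain ⟨p, hp, hp0⟩ := hf
  obtain ⟨p', hp', -, hpm⟩ := Polynomial.lifts_and_natDegree_eq_and_monic
    (Polynomial.map_surjective ψ hψ p |> fun ⟨r, hr⟩ => (Polynomial.mem_lifts p).2 ⟨r, hr⟩) hp
  refine ⟨p', hpm, ?_⟩
  rw [← hp', Polynomial.eval₂_map] at hp0
  exact hp0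

theorem coeff_isIntegral {F F' Ω ι R : Type*} [CommRing R] [Field F] [Field F'] [Field Ω]
    [Fintype ι] (i : F →+* Ω) (α : F →+* F') (σ : ι → (F' →+* Ω))
    (comm : ∀ a x, σ a (α x) = i x) [Algebra R F] {f : F'}
    (hf : (α.comp (algebraMap R F)).IsIntegralElem f) {χ : F[X]}
    (hχ : χ.map i = ∏ a, (X - C (σ a f))) (n : ℕ) : IsIntegral R (χ.coeff n) := by
  letI : Algebra R Ω := (i.comp (algebraMap R F)).toAlgebra
  have h1 : ∀ a, σ a f ∈ (integralClosure R Ω).toSubring := by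
    intro a
    obtain ⟨p, hp, hp0⟩ := hf
    refine ⟨p, hp, ?_⟩
    have h2 := congrArg (σ a) hp0
    rw [Polynomial.hom_eval₂, map_zero] at h2
    rw [← h2]
    congr 1
    ext r
    exact (comm a _).symm
  have h2 := coeff_prod_mem (integralClosure R Ω).toSubring Finset.univ (fun a => σ a f)
    (fun a _ => h1 a) n
  rw [← hχ, coeff_map] at h2
  obtain ⟨p, hp, hp0⟩ := h2
  refine ⟨p, hp, ?_⟩
  apply i.injective
  rw [Polynomial.hom_eval₂, map_zero]
  exact hp0

theorem isIntegral_of_sum {R F : Type*} [CommRing R] [Field F] [Algebra R F] {c : ℕ → F}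
    (hc : ∀ n, IsIntegral R (c n)) (D : ℕ) {z : F}
    (h : ∑ n ∈ Finset.range D, c n * z ^ n + z ^ D = 0) : IsIntegral R z := by
  obtain ⟨d, hd⟩ : ∃ d : ℕ → integralClosure R F, ∀ n, (d n : F) = c n := ⟨fun n => ⟨c n, hc n⟩, fun n => rfl⟩
  have h6 : IsIntegral (integralClosure R F) z := by
    have hlt : (∑ n ∈ Finset.range D, C (d n) * X ^ n).degree < (D : WithBot ℕ) := by
      rw [Polynomial.degree_lt_iff_coeff_zero]
      intro m hm
      rw [Polynomial.finsetSum_coeff]
      refine Finset.sum_eq_zero fun n hn => ?_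
      rw [Polynomial.coeff_C_mul, Polynomial.coeff_X_pow, if_neg, mul_zero]
      have := Finset.mem_range.1 hn
      omega
    refine ⟨X ^ D + ∑ n ∈ Finset.range D, C (d n) * X ^ n, Polynomial.monic_X_pow_add hlt, ?_⟩
    simp only [eval₂_add, eval₂_finsetSum, eval₂_mul, eval₂_C, eval₂_pow, eval₂_X]
    rw [add_comm, ← h]
    congr 1
    exact Finset.sum_congr rfl fun n _ => by rw [← hd n]; rfl
  exact isIntegral_trans z h6

theorem isIntegral_of_mem_adjoin {K F : Type*} [Field K] [Field F] [Algebra K F] {x f : F}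
    (hf : f ∈ Algebra.adjoin K {x}) : IsIntegral (Algebra.adjoin K {x}) f :=
  (isIntegral_algebraMap (R := Algebra.adjoin K {x}) (A := F) (x := ⟨f, hf⟩))

open scoped IntermediateField.algebraAdjoinAdjoin in
theorem exists_poly_of_integral {K F : Type*} [Field K] [Field F] [Algebra K F] {x : F}
    (h : Module.finrank K⟮x⟯ F = 1) {z : F} (hz : IsIntegral (Algebra.adjoin K {x}) z) :
    ∃ H : K[X], z = aeval x H := by
  have hz' : z ∈ K⟮x⟯ := by
    rw [IntermediateField.finrank_eq_one_iff_eq_top.1 h]; trivial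
  have h1 : IsIntegral (Algebra.adjoin K {x}) (⟨z, hz'⟩ : K⟮x⟯) :=
    (isIntegral_algebraMap_iff (A := K⟮x⟯) (B := F) (algebraMap K⟮x⟯ F).injective).1 hz
  obtain ⟨y, hy⟩ := (IsIntegrallyClosed.isIntegral_iff (R := Algebra.adjoin K {x}) (K := K⟮x⟯)).1 h1
  obtain ⟨H, hH⟩ := exists_poly x y
  refine ⟨H, ?_⟩
  rw [← hH]
  exact (congrArg Subtype.val hy).symm

end General

section

variable {k : Type*} [Field k] {A : ValuationSubring Qb} {π : A →+* k} {M q : ℕ} [NeZero M] [NeZero q]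
  [hqf : Fact q.Prime]
  {hA : A.LiesOverPrime q} {hπ : ∀ a : A, π a = 0 ↔ ¬ IsUnit a}
  {hs : Function.Surjective π} {hM : ¬ q ∣ M}

theorem al1_jB : al1 M q (jB M) = jB (M * q) := Subtype.ext (coe_al1 M q _)

/-- elements integral at both reductions and integral over `Qb[j]` are roots of a monic polynomial
with integral coefficients which are integral over `Qb[j]` -/
theorem exists_monic_int_level1 (hA : A.LiesOverPrime q) (hπ : ∀ a : A, π a = 0 ↔ ¬ IsUnit a)
    (hs : Function.Surjective π) (hM : ¬ q ∣ M) {f : FB (M * q)} (h1 : f ∈ (rInf1 M q hA hπ hs hM).O)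
    (h2 : f ∈ (rZero1 M q hA hπ hs hM).O) (hf : IsIntegral (Algebra.adjoin Qb {jB (M * q)}) f) :
    ∃ χ : (FB M)[X], χ.Monic ∧
      χ.eval₂ (al1 M q : FB M →+* FB (M * q)) f = 0 ∧
      ∀ n, χ.coeff n ∈ (redX M hA hπ hs hM).O ∧ IsIntegral (Algebra.adjoin Qb {jB M}) (χ.coeff n) := by
  obtain ⟨a, ha⟩ := (rInf1 M q hA hπ hs hM).exists_isRed_of_mem h1
  obtain ⟨c, hc⟩ := (rZero1 M q hA hπ hs hM).exists_isRed_of_mem h2
  rw [isRed_rInf1] at ha
  rw [isRed_rZero1, isRed_rInf1] at hc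
  obtain ⟨χ, hχ, hχ0, hχm⟩ := (fullEmb1 hqf.out hM).exists_charpoly f
  refine ⟨χ, hχ, hχ0, fun n => ⟨?_, ?_⟩⟩
  · have h3 : qExpand Qb q ((χ.coeff n : FB M) : LaurentSeries Qb) ∈ gaussS π := by
      have h4 := congrArg (fun p => p.coeff n) hχm
      simp only [coeff_map] at h4
      have h5 : base1 (q := q) (χ.coeff n) = qExpand Qb q ((χ.coeff n : FB M) : LaurentSeries Qb) := rfl
      rw [← h5, h4]
      refine coeff_prod_mem (gaussS π) _ _ (fun i _ => ?_) n
      cases i with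
      | none => exact ⟨_, gRed_qExpand ha q⟩
      | some ζ => exact ⟨_, gRed_twist_root hA hπ (RU.pow ζ) hc⟩
    obtain ⟨z, hz⟩ := h3
    obtain ⟨z', hz', -⟩ := gRed_of_qExpand (gaussFB hA M) hπ q (χ.coeff n).2 hz
    have h6 : z' ∈ modularFunctionFieldFullC k M := by
      rw [← gaussRes_bar M hA hπ hs hM]; exact ⟨_, (χ.coeff n).2, hz'⟩
    exact (isRed_redX (z := ⟨z', h6⟩).2 hz').mem
  · have h3 : IsIntegral (Algebra.adjoin Qb {al1 M q (jB M)}) f := by rw [al1_jB]; exact hf
    exact coeff_isIntegral (base1 (q := q)) (al1 M q : FB M →+* FB (M * q)) (emb1 hqf.out hM)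
      (fullEmb1 hqf.out hM).comm (isIntElem_transport (al1 M q) h3) hχm n

/-- reductions at infinity of functions which are integral at both components and integral over `Qb[j]` -/
theorem isIntegral_red_inf1 {f : FB (M * q)} {z : modularFunctionFieldFullC k M}
    (h1 : (rInf1 M q hA hπ hs hM).IsRed f z)
    (h2 : f ∈ (rZero1 M q hA hπ hs hM).O) (hf : IsIntegral (Algebra.adjoin Qb {jB (M * q)}) f) :
    IsIntegral (Algebra.adjoin k {RedQ.xj k M}) z := by
  obtain ⟨χ, hχ, hχ0, hχn⟩ := exists_monic_int_level1 hA hπ hs hM h1.mem h2 hf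
  choose c hc using fun n => (redX M hA hπ hs hM).exists_isRed_of_mem (hχn n).1
  have hci : ∀ n, IsIntegral (Algebra.adjoin k {RedQ.xj k M}) (c n) := fun n =>
    (isCoord' hA hπ hs hM).isIntegral_red (hc n) (hχn n).2
  set D := χ.natDegree with hD
  have h3 : (rInf1 M q hA hπ hs hM).IsRed (∑ n ∈ Finset.range D, al1 M q (χ.coeff n) * f ^ n + f ^ D)
      (∑ n ∈ Finset.range D, c n * z ^ n + z ^ D) := by
    have hpow : ∀ n, (rInf1 M q hA hπ hs hM).IsRed (f ^ n) (z ^ n) := by
      intro n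
      induction n with
      | zero => rw [pow_zero, pow_zero]; exact ConstRed.isRed_one _
      | succ n ih => rw [pow_succ, pow_succ]; exact ih.mul h1
    refine ConstRed.IsRed.add ?_ (hpow D)
    have : ∀ s : Finset ℕ, (rInf1 M q hA hπ hs hM).IsRed (∑ n ∈ s, al1 M q (χ.coeff n) * f ^ n)
        (∑ n ∈ s, c n * z ^ n) := by
      intro s
      induction s using Finset.cons_induction with
      | empty => rw [Finset.sum_empty, Finset.sum_empty]; exact ConstRed.isRed_zero _
      | cons a s ha ih =>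
        rw [Finset.sum_cons, Finset.sum_cons]
        exact ((isRed_inf_al1 (hc a)).mul (hpow a)).add ih
    exact this _
  have h4 : ∑ n ∈ Finset.range D, al1 M q (χ.coeff n) * f ^ n + f ^ D = 0 := by
    rw [Polynomial.eval₂_eq_sum_range, Finset.sum_range_succ, ← hD, hχ.coeff_natDegree,
      map_one, one_mul] at hχ0
    exact hχ0
  rw [h4] at h3
  have h5 := h3.unique (rInf1 M q hA hπ hs hM).isRed_zero
  exact isIntegral_of_sum hci D h5

/-! ### the function `d₁ = Δ(τ)/Δ(qτ)` -/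

variable (M q) in
/-- inclusion of level `q` into level `M q` -/
def incQ : FB q →ₐ[Qb] FB (M * q) := IntermediateField.inclusion (FN_mono (dvd_mul_left q M))

omit hqf in
theorem coe_incQ (x : FB q) : (incQ M q x : LaurentSeries Qb) = x :=
  IntermediateField.coe_inclusion (FN_mono (dvd_mul_left q M)) x

variable (M q) in
/-- the modular unit `Δ(τ)/Δ(qτ)` at level `M q` -/
def d1 : FB (M * q) := incQ M q (Cusp.uE q)

theorem coe_d1 : (d1 M q : LaurentSeries Qb) = coeffEmb Qb (modularUnitSeries q) := by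
  rw [d1, coe_incQ, Cusp.coe_uE]

theorem incQ_jE : incQ M q (Cusp.jE Qb q) = al1 M q (jB M) := by
  apply Subtype.ext
  rw [coe_incQ, coe_al1, Cusp.coe_jE]
  exact ModFn.coeffMap_jqModC (algebraMap ℚ Qb)

theorem incQ_jEN : incQ M q (Cusp.jEN Qb q) = be1 M q (jB M) := by
  apply Subtype.ext
  rw [coe_incQ, coe_be1, Cusp.coe_jEN]
  congr 1
  exact ModFn.coeffMap_jqModC (algebraMap ℚ Qb)

theorem w1_incQ (hM : ¬ q ∣ M) (x : FB q) :
    w1 hqf.out hM (incQ M q x) = incQ M q (Cusp.fricke q x) := by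
  have h : ((w1 hqf.out hM : FB (M * q) →+* FB (M * q))).comp (incQ M q : FB q →+* FB (M * q)) =
      (incQ M q : FB q →+* FB (M * q)).comp (Cusp.fricke q : FB q →+* FB q) := by
    refine Cusp.ringHom_ext modularFieldInputsBar _ _ ?_ ?_ ?_
    · intro a
      change w1 hqf.out hM (incQ M q (algebraMap Qb _ a)) = incQ M q (Cusp.fricke q (algebraMap Qb _ a))
      rw [AlgHom.commutes, AlgEquiv.commutes, AlgEquiv.commutes, AlgHom.commutes]
    · change w1 hqf.out hM (incQ M q (Cusp.jE Qb q)) = incQ M q (Cusp.fricke q (Cusp.jE Qb q))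
      rw [Cusp.fricke_j, incQ_jE, incQ_jEN, w1_al]
    · change w1 hqf.out hM (incQ M q (Cusp.jEN Qb q)) = incQ M q (Cusp.fricke q (Cusp.jEN Qb q))
      rw [Cusp.fricke_jN, incQ_jE, incQ_jEN, w1_be]
  exact RingHom.congr_fun h x

theorem w1_d1 (hM : ¬ q ∣ M) :
    w1 hqf.out hM (d1 M q) = algebraMap Qb _ ((q : Qb) ^ 12) * (d1 M q)⁻¹ := by
  rw [d1, w1_incQ, Cusp.fricke_uE, map_mul, AlgHom.commutes, map_inv₀]

theorem d1_ne_zero : d1 M q ≠ 0 := (_root_.map_ne_zero _).2 (Cusp.uE_ne_zero q)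

theorem d1_mul : (d1 M q : LaurentSeries Qb) * qExpand Qb q (Igusa.deltaC Qb) = Igusa.deltaC Qb := by
  have h := congrArg (coeffEmb Qb) (modularUnitSeries_mul_deltaSeriesN q)
  rw [map_mul, ← Igusa.deltaC_rat] at h
  have h1 : coeffEmb Qb (Igusa.deltaC ℚ) = Igusa.deltaC Qb := Igusa.coeffMap_deltaC _
  rw [h1, deltaSeriesN, ← Igusa.deltaC_rat, coeffEmb, ModFn.coeffMap_qExpand,
    Igusa.coeffMap_deltaC] at h
  rw [coe_d1]
  exact h

theorem gRed_deltaC : GRed π (Igusa.deltaC Qb) (Igusa.deltaC k) := by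
  have h := gRed_iota π (Igusa.deltaC A)
  rwa [iotaA, rhoA, Igusa.coeffMap_deltaC, Igusa.coeffMap_deltaC] at h

theorem deltaC_pow [CharP k q] : (Igusa.deltaC k) ^ q = qExpand k q (Igusa.deltaC k) := by
  rw [ESh.pow_eq_qExpand, Igusa.coeffMap_deltaC]

theorem coe_d1_eq :
    (d1 M q : LaurentSeries Qb) = Igusa.deltaC Qb * (qExpand Qb q (Igusa.deltaC Qb))⁻¹ := by
  have hne : qExpand Qb q (Igusa.deltaC Qb) ≠ 0 := by
    intro h0
    exact Igusa.deltaC_ne_zero Qb (qExpand_injective (R := Qb) q (h0.trans (map_zero _).symm))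
  exact (eq_mul_inv_iff_mul_eq₀ hne).2 d1_mul

theorem gRed_d1 [CharP k q] : GRed π (d1 M q : LaurentSeries Qb)
    (Igusa.deltaC k * (Igusa.deltaC k ^ q)⁻¹) := by
  have e := deltaC_pow (k := k) (q := q)
  have hne : qExpand k q (Igusa.deltaC k) ≠ 0 := by
    rw [← e]; exact pow_ne_zero _ (Igusa.deltaC_ne_zero k)
  have h := (gRed_deltaC (π := π)).mul ((gRed_qExpand (gRed_deltaC (π := π)) q).inv hne)
  rw [coe_d1_eq, e]
  exact h

variable (M) in
/-- **the Hasse function** `h`: the reduction of `Δ(τ)/Δ(qτ)` -/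
theorem exists_hasse (hA : A.LiesOverPrime q) (hπ : ∀ a : A, π a = 0 ↔ ¬ IsUnit a)
    (hs : Function.Surjective π) (hM : ¬ q ∣ M) : ∃ h : modularFunctionFieldFullC k M,
      (h : LaurentSeries k) * (Igusa.deltaC k) ^ (q - 1) = 1 ∧
      (rInf1 M q hA hπ hs hM).IsRed (d1 M q) h := by
  have := charP_of_liesOverPrime hA hπ
  have h1 := gRed_d1 (M := M) (π := π) (q := q)
  refine ⟨⟨_, mem_of_gRed_level1 hA hπ hs hM h1⟩, ?_, isRed_rInf1.2 h1⟩
  change Igusa.deltaC k * (Igusa.deltaC k ^ q)⁻¹ * Igusa.deltaC k ^ (q - 1) = 1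
  have h2 : Igusa.deltaC k ^ q = Igusa.deltaC k * Igusa.deltaC k ^ (q - 1) := by
    rw [← pow_succ', Nat.sub_add_cancel hqf.out.one_lt.le]
  rw [h2]
  have h3 := Igusa.deltaC_ne_zero k
  have h4 := pow_ne_zero (q - 1) h3
  field_simp

theorem isRed_zero_d1 : (rZero1 M q hA hπ hs hM).IsRed (d1 M q) 0 := by
  have := charP_of_liesOverPrime hA hπ
  rw [isRed_rZero1, w1_d1, isRed_rInf1]
  have hne : Igusa.deltaC k * (Igusa.deltaC k ^ q)⁻¹ ≠ 0 :=
    mul_ne_zero (Igusa.deltaC_ne_zero k) (inv_ne_zero (pow_ne_zero _ (Igusa.deltaC_ne_zero k)))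
  have h1 := (gRed_d1 (M := M) (π := π) (q := q)).inv hne
  have h2 := gRed_algebraMap π ((q : A) ^ 12)
  have h3 : π ((q : A) ^ 12) = 0 := by
    rw [map_pow, map_natCast, CharP.cast_eq_zero, zero_pow (by norm_num)]
  rw [h3, map_zero] at h2
  have h4 := h2.mul h1
  rw [zero_mul] at h4
  have h5 : (((q : A) ^ 12 : A) : Qb) = (q : Qb) ^ 12 := by push_cast; rfl
  rw [h5] at h4
  exact h4

theorem isSeparable_of_finite {K F : Type*} [Field K] [Field F] [Algebra K F] [CharZero K] {x : F}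
    [FiniteDimensional K⟮x⟯ F] : Algebra.IsSeparable K⟮x⟯ F := by
  have : CharZero K⟮x⟯ := charZero_of_injective_algebraMap (algebraMap K K⟮x⟯).injective
  infer_instance

theorem isInt_uE : IsIntegral (Algebra.adjoin Qb {Cusp.jE Qb q}) (Cusp.uE q) := by
  have e1 : Cusp.jE Qb q = jB q := Subtype.ext (ModFn.coeffMap_jqModC (algebraMap ℚ Qb))
  haveI : IsFnField Qb (FB q) := modularFieldInputsBar.fnField q
  haveI : FiniteDimensional Qb⟮Cusp.jE Qb q⟯ (FB q) := by rw [e1]; exact finiteDimensional_jB q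
  haveI : Algebra.IsSeparable Qb⟮Cusp.jE Qb q⟯ (FB q) := isSeparable_of_finite
  exact isIntegral_of_forall fun P hP => (Cusp.ord_uE_of_nonneg q P hP).symm.le

theorem isInt_d1 : IsIntegral (Algebra.adjoin Qb {jB (M * q)}) (d1 M q) := by
  have h := isInt_transport (incQ M q) (isInt_uE (q := q))
  rw [incQ_jE, al1_jB] at h
  exact h

/-- **(Z4)** -/
theorem isIntegral_hasse {h : modularFunctionFieldFullC k M}
    (hh : (rInf1 M q hA hπ hs hM).IsRed (d1 M q) h) :
    IsIntegral (Algebra.adjoin k {RedQ.xj k M}) h :=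
  isIntegral_red_inf1 hh (isRed_zero_d1 (hA := hA) (hπ := hπ) (hs := hs) (hM := hM)).mem isInt_d1

theorem finrank_one_eq (k : Type*) [Field k] [CharP k q] :
    Module.finrank k⟮RedQ.xj k 1⟯ (modularFunctionFieldFullC k 1) = 1 := by
  rw [RedQ.finrank_charP 1 k q hqf.out.not_dvd_one, dedekindPsi_one]

theorem order_aeval_j {k : Type*} [Field k] {H : k[X]} (hH : H ≠ 0) :
    (aeval (jqModC k) H).order = -(H.natDegree : ℤ) := by
  have hco : ∀ (i : ℕ) (m : ℤ), (algebraMap k (LaurentSeries k) (H.coeff i) * (jqModC k) ^ i).coeff m =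
      H.coeff i * ((jqModC k) ^ i).coeff m := by
    intro i m
    rw [algebraMap_eq_C, HahnSeries.C_mul_eq_smul, HahnSeries.coeff_smul, smul_eq_mul]
  have h1 : (aeval (jqModC k) H).coeff (-(H.natDegree : ℤ)) = H.leadingCoeff := by
    rw [Polynomial.aeval_def, Polynomial.eval₂_eq_sum_range, HahnSeries.coeff_sum, Finset.sum_range_succ,
      Finset.sum_eq_zero, zero_add, hco, coeff_jqModC_pow_self, mul_one]
    · rfl
    · intro i hi
      rw [Finset.mem_range] at hi
      rw [hco, coeff_jqModC_pow_of_lt _ (by omega), mul_zero]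
  have h2 : ∀ m : ℤ, m < -(H.natDegree : ℤ) → (aeval (jqModC k) H).coeff m = 0 := by
    intro m hm
    rw [Polynomial.aeval_def, Polynomial.eval₂_eq_sum_range, HahnSeries.coeff_sum, Finset.sum_eq_zero]
    intro i hi
    rw [Finset.mem_range] at hi
    rw [hco, coeff_jqModC_pow_of_lt _ (by omega), mul_zero]
  have h3 : (aeval (jqModC k) H).coeff (-(H.natDegree : ℤ)) ≠ 0 := by
    rw [h1]; exact Polynomial.leadingCoeff_ne_zero.2 hH
  have hne : aeval (jqModC k) H ≠ 0 := HahnSeries.ne_zero_of_coeff_ne_zero h3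
  refine le_antisymm (HahnSeries.order_le_of_coeff_ne_zero h3) ?_
  by_contra hlt
  rw [not_le] at hlt
  exact hne (HahnSeries.coeff_order_eq_zero.mp (h2 _ hlt))

theorem order_deltaC (k : Type*) [Field k] : (Igusa.deltaC k).order = 1 := by
  have h1 : (Igusa.deltaC k).coeff 1 = 1 := by
    rw [Igusa.deltaC, HahnSeries.coeff_single_mul, one_mul, sub_self,
      show (0 : ℤ) = ((0 : ℕ) : ℤ) from rfl, HahnSeries.ofPowerSeries_apply_coeff,
      PowerSeries.coeff_map, PowerSeries.coeff_zero_eq_constantCoeff, constantCoeff_dedekindEtaUnit]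
    simp
  have h2 : ∀ m : ℤ, m < 1 → (Igusa.deltaC k).coeff m = 0 := by
    intro m hm
    rw [Igusa.deltaC, HahnSeries.coeff_single_mul, one_mul]
    exact ModularCurve.ofPowerSeries_coeff_of_neg _ (by omega)
  have hne := Igusa.deltaC_ne_zero k
  refine le_antisymm (HahnSeries.order_le_of_coeff_ne_zero (by rw [h1]; exact one_ne_zero)) ?_
  by_contra hlt
  rw [not_le] at hlt
  exact hne (HahnSeries.coeff_order_eq_zero.mp (h2 _ hlt))

/-- **(V9')**: `Δ ^ (1 - q)` is a polynomial of degree `q - 1` in `j` in characteristic `q` -/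
theorem exists_poly_delta (hA : A.LiesOverPrime q) (hπ : ∀ a : A, π a = 0 ↔ ¬ IsUnit a)
    (hs : Function.Surjective π) : ∃ H : k[X], H.natDegree = q - 1 ∧
      aeval (jqModC k) H * Igusa.deltaC k ^ (q - 1) = 1 := by
  have := charP_of_liesOverPrime hA hπ
  obtain ⟨h, hh, hr⟩ := exists_hasse 1 hA hπ hs hqf.out.not_dvd_one
  obtain ⟨H, hH⟩ := exists_poly_of_integral (finrank_one_eq (q := q) k) (isIntegral_hasse hr)
  have hHv : (h : LaurentSeries k) = aeval (jqModC k) H := by
    rw [hH]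
    exact (Polynomial.aeval_algebraMap_apply (LaurentSeries k) (RedQ.xj k 1) H).symm
  rw [hHv] at hh
  refine ⟨H, ?_, hh⟩
  have hH0 : H ≠ 0 := by
    rintro rfl
    rw [map_zero, zero_mul] at hh
    exact zero_ne_one hh
  have h1 := congrArg HahnSeries.order hh
  have hne : Igusa.deltaC k ^ (q - 1) ≠ 0 := pow_ne_zero _ (Igusa.deltaC_ne_zero k)
  have hne' : aeval (jqModC k) H ≠ 0 := left_ne_zero_of_mul (hh ▸ one_ne_zero)
  rw [HahnSeries.order_mul hne' hne, order_aeval_j hH0, HahnSeries.order_pow, order_deltaC,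
    HahnSeries.order_one, nsmul_one] at h1
  omega

/-- **(V9')** at level `M`: the Hasse function is a polynomial of degree `q - 1` in `j` -/
theorem exists_poly_hasse (hA : A.LiesOverPrime q) (hπ : ∀ a : A, π a = 0 ↔ ¬ IsUnit a)
    (hs : Function.Surjective π) {h : modularFunctionFieldFullC k M}
    (hh : (h : LaurentSeries k) * (Igusa.deltaC k) ^ (q - 1) = 1) :
    ∃ H : k[X], H.natDegree = q - 1 ∧ h = aeval (RedQ.xj k M) H := by
  obtain ⟨H, hd, hH⟩ := exists_poly_delta hA hπ hs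
  refine ⟨H, hd, Subtype.ext ?_⟩
  have h1 : ((aeval (RedQ.xj k M) H : modularFunctionFieldFullC k M) : LaurentSeries k) =
      aeval (jqModC k) H :=
    (Polynomial.aeval_algebraMap_apply (LaurentSeries k) (RedQ.xj k M) H).symm
  rw [h1]
  exact mul_right_cancel₀ (pow_ne_zero (q - 1) (Igusa.deltaC_ne_zero k)) (hh.trans hH.symm)

/-- **(Z4)** -/
theorem hasse_ord_nonneg (hA : A.LiesOverPrime q) (hπ : ∀ a : A, π a = 0 ↔ ¬ IsUnit a)
    (hs : Function.Surjective π) (hM : ¬ q ∣ M) {h : modularFunctionFieldFullC k M}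
    (hh : (h : LaurentSeries k) * (Igusa.deltaC k) ^ (q - 1) = 1)
    (Q : Place k (modularFunctionFieldFullC k M)) (hQ : 0 ≤ Q.ord (RedQ.xj k M)) : 0 ≤ Q.ord h := by
  haveI : IsAlgClosed k := isAlgClosed_of_surjective hs
  haveI := charP_of_liesOverPrime hA hπ
  haveI := isFnField_fullC (k := k) (N := M) q hM
  obtain ⟨H, -, rfl⟩ := exists_poly_hasse hA hπ hs hh
  apply ord_nonneg_of_mem
  apply mem_of_isIntegral Q hQ
  exact isIntegral_of_mem_adjoin (Polynomial.aeval_mem_adjoin_singleton k (RedQ.xj k M))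

end

end Fermat.Agent.QComp
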