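import Fermat.Agent.Red.JRam
import Fermat.Agent.Red.XZero
import Fermat.Agent.Red.Haupt
import Fermat.Agent.S24Lib.GenusComp
import Fermat.Agent.Gam0.Index

/-!
# Ramification of `j` on `X₀(N)` without elliptic points
-/

set_option autoImplicit false
set_option linter.unusedSectionVars false
set_option linter.style.haveILetI false

namespace Fermat.Agent.QComp

open UpperHalfPlane hiding I
open HahnSeries ModularCurve WithZero AlgebraicCurve IntermediateField
open scoped MatrixGroups Pointwise Manifold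
open Fermat.Agent.ModFn Fermat.Agent.FF Fermat.Agent.Gam0 Fermat.Agent.Comb Fermat.Agent.S24Lib

section aux

variable (K : Type*) [Field K] [Algebra K ℂ] [IsAlgClosed K] (M : ℕ) [NeZero M]
variable (L : Type*) [Field L] [Algebra (modR K M) L] [IsFractionRing (modR K M) L]
  [Algebra K L] [IsScalarTower K (modR K M) L]
variable {N : ℕ} [NeZero N]
variable {F : Type*} [Field F] [Algebra K F]

include M L in
theorem ncard_zeros_aux (hNM : N ∣ M) (ι : F →ₐ[K] L) (jF : F) (hj' : ι jF = jL K M L)
    (h1' : ∀ y ∈ IntermediateField.adjoin K (gensL K M L N), y ∈ Set.range ι)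
    (h2' : ∀ z : F, ι z ∈ IntermediateField.adjoin K (gensL K M L N)) {a : K} {n : ℕ}
    (hn : 0 < n) {τ : ℍ} (hτ : ordAt (fun z => jH z - algebraMap K ℂ a) τ = (n : ℕ∞))
    (C : Subgroup SL(2, ℤ)) (hC : C ≤ MulAction.stabilizer SL(2, ℤ) τ)
    (hcard : n ≤ Nat.card (C.map (phi K M L))) :
    (zeros (K := K) (jF - algebraMap K F a)).ncard =
      Nat.card (MulAction.orbitRel.Quotient C (X N)) := by
  letI : Algebra F L := ι.toRingHom.toAlgebra
  haveI : IsScalarTower K F L := IsScalarTower.of_algebraMap_eq fun a => (ι.commutes a).symm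
  have hj : algebraMap F L jF = jL K M L := hj'
  have hF : ∀ y : L, (∀ g ∈ CongruenceSubgroup.Gamma0 N, phi K M L g y = y) →
      y ∈ Set.range (algebraMap F L) := by
    intro y hy
    exact h1' y (mem_adjoin_gensL K M L hNM hy)
  have hF' : ∀ g ∈ CongruenceSubgroup.Gamma0 N, ∀ z : F,
      phi K M L g (algebraMap F L z) = algebraMap F L z := by
    intro g hg z
    exact phi_of_mem_adjoin_gensL K M L (N := N) (h2' z) hg
  haveI : CharZero K := charZero_K K
  haveI : IsFnField K L := isFnField_L K M L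
  haveI : Algebra.IsIntegral F L := isIntegral_of_invariants (phi K M L) _ hF
  have hker : (phi K M L).ker ≤ CongruenceSubgroup.Gamma0 N := by
    intro γ hγ
    have h1 := ker_phi_le K M L hγ
    rw [CongruenceSubgroup.Gamma0_mem, ZMod.intCast_zmod_eq_zero_iff_dvd] at h1 ⊢
    exact (Int.natCast_dvd_natCast.mpr hNM).trans h1
  have hja : algebraMap F L (jF - algebraMap K F a) = jL K M L - algebraMap K L a := by
    rw [map_sub, hj, ← IsScalarTower.algebraMap_apply]
  obtain ⟨w, hw, hw1, hw2⟩ := exists_place_pt K M L hn hτ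
  rw [← hja] at hw1 hw2
  refine ncard_zeros_eq (phi K M L) ?_ ?_ ?_ _ hker hF hF' hw1 C ?_ ?_
  · rw [hja]
    exact transcendental_sub (transcendental_jL K M L) a
  · intro g
    rw [hja, map_sub, phi_jL, AlgEquiv.commutes]
  · intro y hy
    rw [hja, adjoin_simple_sub]
    exact mem_adjoin_jL K M L hy
  · intro c hc
    exact hw c (hC hc)
  · exact hw2.trans (by exact_mod_cast hcard)

end aux

section count

/-- if all zeros have order at most `n` and there are `deg / n` of them, all have order `n`. -/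
theorem ord_eq_of_count {K F : Type*} [Field K] [CharZero K] [Field F] [Algebra K F] [IsAlgClosed K]
    [IsFnField K F] {x : F} (hx : Transcendental K x) {n : ℕ}
    (hle : ∀ v : Place K F, v.ord x ≤ n)
    (hcount : Module.finrank K⟮x⟯ F = n * (zeros (K := K) x).ncard) (v : Place K F)
    (hv : 0 < v.ord x) : v.ord x = n := by
  have hfin : (zeros (K := K) x).Finite := finite_zeros_of_fnField _
  have h1 := sum_zeros_ord (K := K) hx
  rw [finsum_mem_eq_finite_toFinset_sum _ hfin, hcount,
    Set.ncard_eq_toFinset_card _ hfin] at h1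
  by_contra hne
  have h2 : ∑ w ∈ hfin.toFinset, w.ord x < ∑ w ∈ hfin.toFinset, (n : ℤ) := by
    apply Finset.sum_lt_sum (fun w _ => hle w)
    exact ⟨v, hfin.mem_toFinset.2 hv, lt_of_le_of_ne (hle v) hne⟩
  rw [h1, Finset.sum_const, nsmul_eq_mul] at h2
  push_cast at h2
  linarith

end count

section main

variable (K : Type*) [Field K] [Algebra K ℂ] [IsAlgClosed K] [Algebra ℚ K]
variable (N : ℕ) [NeZero N]

/-- `j` -/
noncomputable def jQ : laurentBaseChange K (modularFunctionFieldFull N) :=
  ⟨jqModC K, jqModC_mem_laurentBaseChange K N⟩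

theorem ncard_zeros_j' {a : K} {n : ℕ} (hn : 0 < n) {τ : ℍ}
    (hτ : ordAt (fun z => jH z - algebraMap K ℂ a) τ = (n : ℕ∞))
    (C : Subgroup SL(2, ℤ)) (hC : C ≤ MulAction.stabilizer SL(2, ℤ) τ)
    (hcard : n ≤ Nat.card (C.map (phi K N (FractionRing (modR K N))))) :
    (zeros (K := K) (jQ K N - algebraMap K _ a)).ncard =
      Nat.card (MulAction.orbitRel.Quotient C (X N)) := by
  obtain ⟨e, he⟩ := exists_embedding K N (FractionRing (modR K N)) N dvd_rfl
  refine ncard_zeros_aux K N (FractionRing (modR K N)) (N := N) dvd_rfl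
    ((IntermediateField.adjoin K (gensL K N (FractionRing (modR K N)) N)).val.comp
      e.toAlgHom) ⟨jqModC K, jqModC_mem_laurentBaseChange K N⟩ ?_ ?_ ?_ hn hτ C hC hcard
  · apply (qexpL K N (FractionRing (modR K N))).toRingHom.injective
    exact (he _).trans (qexpL_jL K N _).symm
  · intro y hy
    exact ⟨e.symm ⟨y, hy⟩, congrArg Subtype.val (e.apply_symm_apply ⟨y, hy⟩)⟩
  · intro z
    exact (e z).2

theorem ncard_zeros_j (hN : 2 ≤ N) : (zeros (K := K) (jQ K N - algebraMap K _ 0)).ncard =
    orb (X N) (ModularGroup.S * ModularGroup.T) := by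
  have h1 : ordAt (fun z => jH z - algebraMap K ℂ 0) rhoH = ((3 : ℕ) : ℕ∞) := by
    simp only [map_zero, sub_zero]
    rw [ordAt_jH_of_eq_zero jH_rhoH]
    rfl
  refine ncard_zeros_j' K N (by norm_num) h1 (Subgroup.zpowers (ModularGroup.S * ModularGroup.T)) ?_ ?_
  · rw [Subgroup.zpowers_le]
    exact ST_smul_rhoH
  · exact le_card_ST K N _ hN

theorem ncard_zeros_j_1728 (hN : 2 ≤ N) : (zeros (K := K) (jQ K N - algebraMap K _ 1728)).ncard =
    orb (X N) ModularGroup.S := by
  have h1 : ordAt (fun z => jH z - algebraMap K ℂ 1728) UpperHalfPlane.I = ((2 : ℕ) : ℕ∞) := by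
    have h2 : algebraMap K ℂ 1728 = 1728 := map_ofNat (algebraMap K ℂ) 1728
    rw [h2, ordAt_jH_sub_1728 jH_I]
    rfl
  refine ncard_zeros_j' K N (by norm_num) h1 (Subgroup.zpowers ModularGroup.S) ?_ ?_
  · rw [Subgroup.zpowers_le]
    exact S_smul_I
  · exact le_card_S K N _ hN

end main

section Bar

open Fermat.Agent.Red

local notation "Qb" => AlgebraicClosure ℚ

variable (N : ℕ) [NeZero N]

theorem orb_ST (hν : nuThree N = 0) : 3 * orb (X N) (ModularGroup.S * ModularGroup.T) = dedekindPsi N := by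
  have h := card_orbits_ST N
  rw [hν, mul_zero, add_zero] at h
  exact h

theorem orb_S (hν : nuTwo N = 0) : 2 * orb (X N) ModularGroup.S = dedekindPsi N := by
  have h := card_orbits_S N
  rw [hν, add_zero] at h
  exact h

theorem transcendental_jB' : Transcendental Qb (jB N) := by
  intro h
  exact transcendental_jqModC Qb (IsAlgebraic.algHom (modularFunctionFieldBar N).val h)

/-- `j` is totally ramified of index `3` above `0` when there are no elliptic points of order 3. -/
theorem ord_jB_eq_three (hN : 2 ≤ N) (hν : nuThree N = 0)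
    (v : Place Qb (modularFunctionFieldBar N)) (hv : 0 < v.ord (jB N)) : v.ord (jB N) = 3 := by
  have : Algebra.IsAlgebraic ℚ Qb := AlgebraicClosure.isAlgebraic ℚ
  let _ : Algebra Qb ℂ := (IsAlgClosed.lift (R := ℚ) (S := Qb) (M := ℂ)).toRingHom.toAlgebra
  haveI : IsFnField Qb (modularFunctionFieldBar N) := isFnField_bar N
  have h1 := ncard_zeros_j Qb N hN
  have e1 : (jQ Qb N - algebraMap Qb _ 0) = jB N := by
    rw [map_zero, sub_zero]; rfl
  have e2 : (zeros (K := Qb) (jB N)).ncard = orb (X N) (ModularGroup.S * ModularGroup.T) := by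
    rw [← e1]; exact h1
  have h2 := ord_eq_of_count (transcendental_jB' N) (n := 3) (fun v => ord_j_le_three Qb N v)
    (by rw [finrank_jB, e2, orb_ST N hν]) v hv
  exact_mod_cast h2

/-- `j` is totally ramified of index `2` above `1728` when there are no elliptic points of order 2. -/
theorem ord_jB_sub_eq_two (hN : 2 ≤ N) (hν : nuTwo N = 0)
    (v : Place Qb (modularFunctionFieldBar N)) (hv : 0 < v.ord (jB N - algebraMap Qb _ 1728)) :
    v.ord (jB N - algebraMap Qb _ 1728) = 2 := by
  have : Algebra.IsAlgebraic ℚ Qb := AlgebraicClosure.isAlgebraic ℚ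
  let _ : Algebra Qb ℂ := (IsAlgClosed.lift (R := ℚ) (S := Qb) (M := ℂ)).toRingHom.toAlgebra
  haveI : IsFnField Qb (modularFunctionFieldBar N) := isFnField_bar N
  have h1 := ncard_zeros_j_1728 Qb N hN
  have h2 := ord_eq_of_count (transcendental_sub (transcendental_jB' N) (1728 : Qb)) (n := 2)
    (fun v => ord_j_sub_1728_le_two Qb N v)
    (by rw [adjoin_simple_sub, finrank_jB, ← orb_S N hν]; exact congrArg _ h1.symm) v hv
  exact_mod_cast h2

theorem ord_jB_sub_eq_one {a : Qb} (ha : a ≠ 0) (ha' : a ≠ 1728)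
    (v : Place Qb (modularFunctionFieldBar N)) (hv : 0 < v.ord (jB N - algebraMap Qb _ a)) :
    v.ord (jB N - algebraMap Qb _ a) = 1 := by
  have : Algebra.IsAlgebraic ℚ Qb := AlgebraicClosure.isAlgebraic ℚ
  let _ : Algebra Qb ℂ := (IsAlgClosed.lift (R := ℚ) (S := Qb) (M := ℂ)).toRingHom.toAlgebra
  exact le_antisymm (ord_j_sub_le_one Qb N ha ha' v) hv

end Bar

section Nu

variable {N r : ℕ} [hr : Fact r.Prime]

theorem nuTwo_eq_zero (h : r ∣ N) (h12 : r % 12 = 11) : nuTwo N = 0 := by
  rw [nuTwo, Nat.card_eq_zero]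
  left
  constructor
  rintro ⟨x, hx⟩
  have h1 := congrArg (ZMod.castHom h (ZMod r)) hx
  rw [map_add, map_pow, map_one, map_zero] at h1
  have h2 : IsSquare (-1 : ZMod r) := ⟨ZMod.castHom h (ZMod r) x, by linear_combination -h1⟩
  have h3 := (ZMod.exists_sq_eq_neg_one_iff (p := r)).1 h2
  omega

theorem nuThree_eq_zero (h : r ∣ N) (h12 : r % 12 = 11) : nuThree N = 0 := by
  rw [nuThree, Nat.card_eq_zero]
  left
  constructor
  rintro ⟨x, hx⟩
  have h1 := congrArg (ZMod.castHom h (ZMod r)) hx
  rw [map_add, map_add, map_pow, map_one, map_zero] at h1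
  set y := ZMod.castHom h (ZMod r) x with hy
  have h3 : y ^ 3 = 1 := by linear_combination (y - 1) * h1
  have hy0 : y ≠ 0 := by
    rintro h0
    rw [h0] at h3
    simp at h3
  have hy1 : y ≠ 1 := by
    intro h0
    rw [h0] at h1
    have h4 : ((3 : ℕ) : ZMod r) = 0 := by push_cast; linear_combination h1
    rw [ZMod.natCast_eq_zero_iff] at h4
    have h5 := Nat.le_of_dvd (by norm_num) h4
    have h6 := hr.out.two_le
    omega
  have h4 : orderOf y = 3 := orderOf_eq_prime h3 hy1
  have h5 : orderOf y ∣ r - 1 := orderOf_dvd_of_pow_eq_one (ZMod.pow_card_sub_one_eq_one hy0)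
  rw [h4] at h5
  omega

end Nu

end Fermat.Agent.QComp
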