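import Fermat.Agent.QComp.JDeriv
import Fermat.Agent.QComp.RigidRam
import Fermat.Agent.QComp.HasseH
import Fermat.Agent.Red.ChartN
import Fermat.Agent.Red.Param

/-!
# The order of `(θ z)^(q-1)` at a local parameter: (Z2)
-/

set_option autoImplicit false
set_option linter.unusedSectionVars false
set_option linter.style.haveILetI false
set_option linter.unusedVariables false

noncomputable section

open AlgebraicCurve IntermediateField ModularCurve Fermat.Agent.Red Fermat.Agent.FF

namespace Fermat.Agent.QComp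

section General

variable {K F : Type*} [Field K] [Field F] [Algebra K F]

/-- the weight zero form of `(dz)^6/Δ`: `(dz/dj)^6 j^4 (j-1728)^3`. -/
def fSix {x : F} [Algebra.IsSeparable K⟮x⟯ F] (hx : Transcendental K x) (z : F) : F :=
  dd hx z ^ 6 * x ^ 4 * (x - 1728) ^ 3

theorem dd_mul_dd {x u : F} [Algebra.IsSeparable K⟮x⟯ F] (hx : Transcendental K x)
    [Algebra.IsSeparable K⟮u⟯ F] (hu : Transcendental K u) : dd hx u * dd hu x = 1 := by
  have h := derivation_eq hx (dd hu) u
  rw [dd_self, smul_eq_mul] at h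
  exact h.symm

theorem dd_eq_mul {x u : F} [Algebra.IsSeparable K⟮x⟯ F] (hx : Transcendental K x)
    [Algebra.IsSeparable K⟮u⟯ F] (hu : Transcendental K u) (f : F) :
    dd hx f = dd hu f * dd hx u :=
  derivation_eq hu (dd hx) f

theorem dd_sub_const {x u : F} [Algebra.IsSeparable K⟮x⟯ F] (hx : Transcendental K x) (a : K) :
    dd hx (u - algebraMap K F a) = dd hx u := by
  rw [map_sub, Derivation.map_algebraMap, sub_zero]

variable [IsAlgClosed K] [IsFnField K F]

theorem ord_fSix_zero [CharZero K] {x : F} [Algebra.IsSeparable K⟮x⟯ F]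
    (hx : Transcendental K x) (P : Place K F) (hP : 0 ≤ P.ord x)
    (h0 : 0 < P.ord x → P.ord x = 3)
    (h1 : 0 < P.ord (x - algebraMap K F 1728) → P.ord (x - algebraMap K F 1728) = 2)
    (h2 : ∀ a : K, a ≠ 0 → a ≠ 1728 → 0 < P.ord (x - algebraMap K F a) →
      P.ord (x - algebraMap K F a) = 1) {u : F} (hu : P.ord u = 1) :
    fSix hx u ≠ 0 ∧ P.ord (fSix hx u) = 0 := by
  haveI : CharZero F := charZero_of_injective_algebraMap (algebraMap K F).injective
  have hut : Transcendental K u := transcendental_of_ord_ne_zero P (by rw [hu]; norm_num)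
  haveI : FiniteDimensional K⟮u⟯ F := IsFnField.finiteDimensional hut
  haveI : Algebra.IsSeparable K⟮u⟯ F := isSeparable_of_finite
  obtain ⟨a, ha⟩ := exists_hasVal hP
  have hxa : x - algebraMap K F a ≠ 0 := by
    intro h
    apply hx
    rw [sub_eq_zero.1 h]
    exact isAlgebraic_algebraMap a
  have hpos : 0 < P.ord (x - algebraMap K F a) := by
    have h3 := ha.sub (hasVal_algebraMap P a)
    rw [sub_self] at h3
    rcases hasVal_zero_iff.1 h3 with h4 | h4
    · exact absurd h4 hxa
    · exact h4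
  set e := P.ord (x - algebraMap K F a) with he
  have h3 := ord_dd_eq 0 hut P hu (f := x - algebraMap K F a) (by
    rw [Nat.cast_zero, zero_dvd_iff]
    exact hpos.ne')
  rw [dd_sub_const, ← he] at h3
  have h4 := dd_mul_dd hx hut
  have hdd0 : dd hx u ≠ 0 := left_ne_zero_of_mul (h4 ▸ one_ne_zero)
  have h5 : P.ord (dd hx u) = 1 - e := by
    have h6 := congrArg P.ord h4
    rw [P.ord_mul hdd0 h3.1, P.ord_one, h3.2] at h6
    omega
  have hval : ∀ b : K, b ≠ a → P.ord (x - algebraMap K F b) = 0 := by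
    intro b hb
    have h6 := ha.sub (hasVal_algebraMap P b)
    exact h6.ord_eq_zero (sub_ne_zero.2 hb.symm)
  have hx0 : x ≠ 0 := transcendental_ne_zero hx
  have e1728 : (1728 : F) = algebraMap K F 1728 := (map_ofNat (algebraMap K F) 1728).symm
  have hx1 : x - 1728 ≠ 0 := by
    intro h
    apply hx
    rw [sub_eq_zero.1 h, e1728]
    exact isAlgebraic_algebraMap _
  have hne : fSix hx u ≠ 0 :=
    mul_ne_zero (mul_ne_zero (pow_ne_zero _ hdd0) (pow_ne_zero _ hx0)) (pow_ne_zero _ hx1)
  refine ⟨hne, ?_⟩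
  rw [fSix, P.ord_mul (mul_ne_zero (pow_ne_zero _ hdd0) (pow_ne_zero _ hx0)) (pow_ne_zero _ hx1),
    P.ord_mul (pow_ne_zero _ hdd0) (pow_ne_zero _ hx0), ord_pow, ord_pow, ord_pow, h5, e1728]
  rcases eq_or_ne a 0 with ha0 | ha0
  · have h6 : P.ord x = 3 := by
      apply h0
      have := hpos
      rwa [he, ha0, map_zero, sub_zero] at this
    have h7 : e = 3 := by rw [he, ha0, map_zero, sub_zero, h6]
    have h8 := hval 1728 (by rw [ha0]; norm_num)
    rw [h6, h7, h8]
    norm_num
  rcases eq_or_ne a 1728 with ha1 | ha1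
  · have h6 : e = 2 := by
      rw [he, ha1]
      apply h1
      rw [← ha1]
      exact hpos
    have h7 := hval 0 ha0.symm
    rw [map_zero, sub_zero] at h7
    rw [h7, h6, ← ha1, ← he, h6]
    norm_num
  · have h6 : e = 1 := h2 a ha0 ha1 hpos
    have h7 := hval 0 ha0.symm
    rw [map_zero, sub_zero] at h7
    have h8 := hval 1728 ha1.symm
    rw [h6, h7, h8]
    norm_num

end General

section Series

open Igusa

theorem theta_pow_six {L : Type*} [Field L] {E : IntermediateField L (LaurentSeries L)} {x : E}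
    (hxc : (x : LaurentSeries L) = jqModC L) [Algebra.IsSeparable L⟮x⟯ E] (hx : Transcendental L x)
    (z : E) : theta L (z : LaurentSeries L) ^ 6 = ((fSix hx z : E) : LaurentSeries L) * deltaC L := by
  rw [theta_eq_dd hx z, hxc, mul_pow, theta_j_pow_six]
  have h : ((fSix hx z : E) : LaurentSeries L) =
      (dd hx z : LaurentSeries L) ^ 6 * (jqModC L) ^ 4 * (jqModC L - 1728) ^ 3 := by
    have h1 : algebraMap E (LaurentSeries L) (fSix hx z) =
        (algebraMap E (LaurentSeries L) (dd hx z)) ^ 6 * (algebraMap E (LaurentSeries L) x) ^ 4 *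
          (algebraMap E (LaurentSeries L) x - 1728) ^ 3 := by
      rw [fSix, map_mul, map_mul, map_pow, map_pow, map_pow, map_sub, map_ofNat]
    have h2 : algebraMap E (LaurentSeries L) x = jqModC L := hxc
    rw [h2] at h1
    exact h1
  rw [h]
  ring

theorem gRed_fSix {L k : Type*} [Field L] [Field k] {A : ValuationSubring L} {π : A →+* k}
    {E : IntermediateField L (LaurentSeries L)} {x : E}
    (hxc : (x : LaurentSeries L) = jqModC L) [Algebra.IsSeparable L⟮x⟯ E] (hx : Transcendental L x)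
    {E' : IntermediateField k (LaurentSeries k)} {x' : E'}
    (hxc' : (x' : LaurentSeries k) = jqModC k) [Algebra.IsSeparable k⟮x'⟯ E']
    (hx' : Transcendental k x') {f : E} {z : E'}
    (h : GRed π (f : LaurentSeries L) (z : LaurentSeries k)) :
    GRed π ((fSix hx f : E) : LaurentSeries L) ((fSix hx' z : E') : LaurentSeries k) := by
  have hΔ : GRed π (deltaC L) (deltaC k) := by
    have h := gRed_iota π (deltaC A)
    rwa [iotaA, rhoA, coeffMap_deltaC, coeffMap_deltaC] at h
  have h1 := (QVal.gRed_pow (gRed_theta h) 6).mul (hΔ.inv (deltaC_ne_zero k))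
  rw [theta_pow_six hxc hx, theta_pow_six hxc' hx', mul_assoc, mul_assoc,
    mul_inv_cancel₀ (deltaC_ne_zero L), mul_inv_cancel₀ (deltaC_ne_zero k), mul_one, mul_one] at h1
  exact h1

end Series

section CharQ

variable {k F : Type*} [Field k] [Field F] [Algebra k F] [IsAlgClosed k] [IsFnField k F]
  (q : ℕ) [hq : Fact q.Prime] [CharP k q]

include hq

theorem fSix_ne_zero {x : F} [Algebra.IsSeparable k⟮x⟯ F] (hx : Transcendental k x)
    (Q : Place k F) {z : F} (hz : Q.ord z = 1) : fSix hx z ≠ 0 := by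
  haveI : CharP F q := charP_of_injective_algebraMap (algebraMap k F).injective q
  have h1 : dd hx z ≠ 0 := fun h =>
    D_ne_zero_of_ord_eq_one q hx Q hz ((dd_eq_zero_iff hx).1 h)
  have hx1 : x - 1728 ≠ 0 := by
    intro h
    apply hx
    rw [sub_eq_zero.1 h, ← map_ofNat (algebraMap k F) 1728]
    exact isAlgebraic_algebraMap _
  exact mul_ne_zero (mul_ne_zero (pow_ne_zero _ h1) (pow_ne_zero _ (transcendental_ne_zero hx)))
    (pow_ne_zero _ hx1)

/-- `ord_Q (fSix z)` does not depend on the local parameter `z`. -/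
theorem ord_fSix_congr {x : F} [Algebra.IsSeparable k⟮x⟯ F] (hx : Transcendental k x)
    (Q : Place k F) {z τ : F} (hz : Q.ord z = 1) (hτ : Q.ord τ = 1) :
    Q.ord (fSix hx z) = Q.ord (fSix hx τ) := by
  haveI : CharP F q := charP_of_injective_algebraMap (algebraMap k F).injective q
  have hτt : Transcendental k τ := transcendental_of_ord_ne_zero Q (by rw [hτ]; norm_num)
  haveI : Algebra.IsSeparable k⟮τ⟯ F := isSeparable_of_D_ne_zero hx
    (D_ne_zero_of_ord_eq_one q hx Q hτ)
  have h1 : fSix hx z = dd hτt z ^ 6 * fSix hx τ := by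
    rw [fSix, fSix, dd_eq_mul hx hτt z]
    ring
  have h2 := ord_dd_eq q hτt Q hτ (f := z) (by
    rw [hz]
    intro h
    have h3 := Int.le_of_dvd one_pos h
    have h4 := hq.out.one_lt
    omega)
  rw [h1, Q.ord_mul (pow_ne_zero _ h2.1) (fSix_ne_zero q hx Q hτ), ord_pow, h2.2, hz]
  norm_num

end CharQ

section Main

open Igusa

local notation "Qb" => AlgebraicClosure ℚ

variable {k : Type*} [Field k] {A : ValuationSubring Qb} {π : A →+* k} {M q : ℕ} [NeZero M]
  [hqf : Fact q.Prime]

theorem ord_fSix_param (hA : A.LiesOverPrime q) (hπ : ∀ a : A, π a = 0 ↔ ¬ IsUnit a)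
    (hs : Function.Surjective π) (hM : ¬ q ∣ M)
    (hr : ∃ r : ℕ, r.Prime ∧ r ∣ M ∧ r % 12 = 11) [IsAlgClosed k]
    [IsFnField k (modularFunctionFieldFullC k M)] [IsFnField Qb (modularFunctionFieldBar M)]
    [Algebra.IsSeparable k⟮RedQ.xj k M⟯ (modularFunctionFieldFullC k M)]
    (Q : Place k (modularFunctionFieldFullC k M)) (hQ : 0 ≤ Q.ord (RedQ.xj k M))
    {t : modularFunctionFieldBar M} {τ : modularFunctionFieldFullC k M}
    (ht : IsParam (redX M hA hπ hs hM) (jB M) (RedQ.xj k M) Q t τ) :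
    Q.ord (fSix (RedQ.transcendental_xj k M) τ) = 0 := by
  haveI hch : CharP k q := charP_of_liesOverPrime hA hπ
  haveI := finiteDimensional_jB M
  haveI : Algebra.IsSeparable Qb⟮jB M⟯ (modularFunctionFieldBar M) := isSeparable_of_finite
  have hx := transcendental_jB' M
  have hx' := RedQ.transcendental_xj k M
  have hC := chart_jB hA hπ hs hM
  obtain ⟨r, hrp, hrM, hr12⟩ := hr
  haveI : Fact r.Prime := ⟨hrp⟩
  have hM2 : 2 ≤ M := hrp.two_le.trans (Nat.le_of_dvd (Nat.pos_of_ne_zero (NeZero.ne M)) hrM)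
  have hreg : ∀ P : Place Qb (modularFunctionFieldBar M), Sp (redX M hA hπ hs hM) (jB M)
      (RedQ.xj k M) P Q → fSix hx t ≠ 0 ∧ P.ord (fSix hx t) = 0 := by
    intro P hP
    obtain ⟨α, hα, hαv⟩ := ht.val hP
    have h1 := ht.simple α hα P hP hαv
    obtain ⟨a, ha⟩ := hP.1
    have h2 := ord_fSix_zero hx P ha.nonneg (ord_jB_eq_three M hM2 (nuThree_eq_zero hrM hr12) P)
      (ord_jB_sub_eq_two M hM2 (nuTwo_eq_zero hrM hr12) P)
      (fun a ha ha' => ord_jB_sub_eq_one M ha ha' P) h1
    have h3 : fSix hx (t - algebraMap Qb _ (α : Qb)) = fSix hx t := by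
      rw [fSix, fSix, dd_sub_const]
    rwa [h3] at h2
  have hred : (redX M hA hπ hs hM).IsRed (fSix hx t) (fSix hx' τ) :=
    isRed_redX.2 (gRed_fSix rfl hx rfl hx' (isRed_redX.1 ht.isRed))
  have hne : fSix hx' τ ≠ 0 := fSix_ne_zero q hx' Q ht.ord_eq
  have hfin : ∀ g : modularFunctionFieldBar M,
      {P : Place Qb (modularFunctionFieldBar M) | P.ord g < 0}.Finite := by
    intro g
    refine (RR.finite_support_ord (K := Qb) g).subset fun P hP => ?_
    exact ne_of_lt hP
  have h1 : 0 ≤ Q.ord (fSix hx' τ) := hC.ord_nonneg_of_regular hQ hred (hfin _)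
    fun P hP => (hreg P hP).2.ge
  have h2 : 0 ≤ Q.ord (fSix hx' τ)⁻¹ := hC.ord_nonneg_of_regular hQ (hred.inv hne) (hfin _)
    fun P hP => by rw [P.ord_inv, (hreg P hP).2, neg_zero]
  rw [Q.ord_inv] at h2
  omega

/-- **(Z2)** -/
theorem six_ord_theta_pow (hA : A.LiesOverPrime q) (hπ : ∀ a : A, π a = 0 ↔ ¬ IsUnit a)
    (hs : Function.Surjective π) (hM : ¬ q ∣ M)
    (hr : ∃ r : ℕ, r.Prime ∧ r ∣ M ∧ r % 12 = 11) {h : modularFunctionFieldFullC k M}
    (hh : (h : LaurentSeries k) * (deltaC k) ^ (q - 1) = 1)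
    (Q : Place k (modularFunctionFieldFullC k M)) (hQ : 0 ≤ Q.ord (RedQ.xj k M))
    {z T : modularFunctionFieldFullC k M} (hz : Q.ord z = 1)
    (hT : (T : LaurentSeries k) = theta k (z : LaurentSeries k) ^ (q - 1)) :
    T ≠ 0 ∧ 6 * Q.ord T = - Q.ord h := by
  haveI : IsAlgClosed k := isAlgClosed_of_surjective hs
  haveI hch : CharP k q := charP_of_liesOverPrime hA hπ
  haveI := isFnField_fullC (k := k) (N := M) q hM
  haveI := isFnField_bar M
  haveI := RedQ.isSeparable_charP M k q hM
  have hC := chart_jB hA hπ hs hM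
  obtain ⟨t, τ, ht⟩ := hC.exists_param hs hQ
  have hx' := RedQ.transcendental_xj k M
  have h1 := ord_fSix_param hA hπ hs hM hr Q hQ ht
  have h2 := ord_fSix_congr q hx' Q hz ht.ord_eq
  rw [h1] at h2
  have hf0 := fSix_ne_zero q hx' Q hz
  -- the relation
  have h3 := theta_pow_six (E := modularFunctionFieldFullC k M) (x := RedQ.xj k M) rfl hx' z
  have h4 : T ^ 6 * h = fSix hx' z ^ (q - 1) := by
    apply Subtype.ext
    have h5 : (T : LaurentSeries k) ^ 6 * (h : LaurentSeries k) =
        ((fSix hx' z : modularFunctionFieldFullC k M) : LaurentSeries k) ^ (q - 1) := by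
      rw [hT, ← pow_mul, mul_comm (q - 1) 6, pow_mul, h3, mul_pow]
      linear_combination (((fSix hx' z : modularFunctionFieldFullC k M) : LaurentSeries k) ^ (q - 1)) * hh
    push_cast
    exact h5
  have h5 : T ^ 6 * h ≠ 0 := by rw [h4]; exact pow_ne_zero _ hf0
  have hT0 : T ≠ 0 := by
    rintro rfl
    simp at h5
  refine ⟨hT0, ?_⟩
  have h6 := congrArg Q.ord h4
  rw [Q.ord_mul (pow_ne_zero _ hT0) (right_ne_zero_of_mul h5), ord_pow, ord_pow, h2] at h6
  push_cast at h6
  linarith

end Main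

end Fermat.Agent.QComp
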