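import Fermat.Agent.QComp.TwoRed
import Fermat.Agent.QComp.Connected
import Fermat.Agent.RR.Duality

/-!
# Two constant reductions: changing the norms by constants
-/

set_option autoImplicit false

open AlgebraicCurve IntermediateField Module

namespace Fermat.Agent.QComp

open Fermat.Agent.FF Fermat.Agent.Red

/-- archimedean property of a valuation ring -/
def IsArch {K : Type*} [Field K] (A : ValuationSubring K) : Prop :=
  ∀ a : A, ¬ IsUnit a → ∀ c : K, ∃ N : ℕ, c * (a : K) ^ N ∈ A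

section Arch

variable {K : Type*} [Field K] {A : ValuationSubring K}

theorem IsArch.isRankOne (h : IsArch A) {c : A} (hc : ¬ IsUnit c) (hc0 : c ≠ 0) :
    IsRankOne A c where
  mem := (IsLocalRing.mem_maximalIdeal _).2 hc
  ne_zero := hc0
  dvd_pow a ha := by
    obtain ⟨N, hN⟩ := h c hc (a : K)⁻¹
    have ha' : (a : K) ≠ 0 := fun e => ha (Subtype.ext e)
    refine ⟨N, ⟨_, hN⟩, ?_⟩
    apply Subtype.ext
    push_cast
    field_simp
  pow_dvd a ha := by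
    obtain ⟨N, hN⟩ := h a ((IsLocalRing.mem_maximalIdeal _).1 ha) (c : K)⁻¹
    have ha' : (c : K) ≠ 0 := fun e => hc0 (Subtype.ext e)
    refine ⟨N, ⟨_, hN⟩, ?_⟩
    apply Subtype.ext
    push_cast
    field_simp

variable {k : Type*} [Field k] {π : A →+* k}
  {F κ : Type*} [Field F] [Algebra K F] [Field κ] [Algebra k κ] {R : ConstRed A π F κ}

theorem IsArch.exists_isRed_pow (h : IsArch A) {s : F} (hs : R.IsRed s 0) (c : K) :
    ∃ N₀ : ℕ, ∀ N, N₀ ≤ N → R.IsRed (algebraMap K F c * s ^ N) 0 := by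
  rcases eq_or_ne s 0 with rfl | hs0
  · refine ⟨1, fun N hN => ?_⟩
    rw [zero_pow (by omega), mul_zero]
    exact R.isRed_zero
  obtain ⟨d, hd0, hd1, hd2⟩ := R.exists_scale s hs0
  have hdF : algebraMap K F d ≠ 0 := by simpa using hd0
  have hdA : d⁻¹ ∈ A := by
    rw [← R.algebraMap_mem_iff, map_inv₀]
    have h1 := mul_mem hs.mem hd2
    rwa [mul_inv, mul_comm (algebraMap K F d)⁻¹, ← mul_assoc, mul_inv_cancel₀ hs0, one_mul] at h1
  have hdu : ¬ IsUnit (⟨d⁻¹, hdA⟩ : A) := by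
    rw [← R.pi_eq_zero_iff]
    obtain ⟨z, hz⟩ := R.exists_isRed_of_mem hd2
    have h1 := hs.mul hz
    rw [zero_mul, mul_inv, mul_comm (algebraMap K F d)⁻¹, ← mul_assoc, mul_inv_cancel₀ hs0,
      one_mul, ← map_inv₀] at h1
    have h2 := (R.isRed_algebraMap hdA).unique h1
    exact (map_eq_zero _).1 h2
  obtain ⟨N₀, hN₀⟩ := h _ hdu c
  refine ⟨N₀ + 1, fun N hN => ?_⟩
  obtain ⟨M, rfl⟩ := Nat.exists_eq_add_of_le hN
  obtain ⟨z, hz⟩ := R.exists_isRed_of_mem hd1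
  have e : algebraMap K F c * s ^ (N₀ + 1 + M) =
      algebraMap K F (c * (d⁻¹) ^ N₀) * (algebraMap K F (d⁻¹)) ^ (M + 1) *
        (algebraMap K F d * s) ^ (N₀ + 1 + M) := by
    have e1 : algebraMap K F (d⁻¹) * algebraMap K F d = 1 := by
      rw [← map_mul, inv_mul_cancel₀ hd0, map_one]
    have e2 : algebraMap K F (c * (d⁻¹) ^ N₀) * (algebraMap K F (d⁻¹)) ^ (M + 1) *
        (algebraMap K F d * s) ^ (N₀ + 1 + M) = algebraMap K F c *
        (algebraMap K F (d⁻¹) * algebraMap K F d) ^ (N₀ + 1 + M) * s ^ (N₀ + 1 + M) := by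
      rw [map_mul, map_pow]; ring
    rw [e2, e1, one_pow, mul_one]
  rw [e]
  have h1 := ((R.isRed_algebraMap hN₀).mul ((R.isRed_algebraMap hdA).pow (M + 1))).mul
    (hz.pow (N₀ + 1 + M))
  rw [(R.pi_eq_zero_iff _).2 hdu, map_zero, zero_pow (by omega), mul_zero, zero_mul] at h1
  exact h1

end Arch

variable {K k : Type*} [Field K] [Field k] {A : ValuationSubring K} {π : A →+* k}
  {F κ₁ κ₂ : Type*} [Field F] [Algebra K F] [Field κ₁] [Algebra k κ₁] [Field κ₂] [Algebra k κ₂]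
  {R₁ : ConstRed A π F κ₁} {R₂ : ConstRed A π F κ₂} {x : F} {x₁ : κ₁} {x₂ : κ₂}

/-- there are functions with prescribed constants as "leading terms" on both components -/
theorem TwoRed.exists_shift (T : TwoRed R₁ R₂ x x₁ x₂) (hA : IsArch A) {c₁ c₂ : K} (h1 : c₁ ≠ 0)
    (h2 : c₂ ≠ 0) : ∃ h : F, R₁.IsRed (algebraMap K F c₁ * h) 1 ∧
      R₂.IsRed (algebraMap K F c₂ * h) 1 := by
  obtain ⟨t, ht1, ht2⟩ := T.lift1 1
  obtain ⟨s, hs1, hs2⟩ := T.lift2 1
  obtain ⟨N₁, hN₁⟩ := hA.exists_isRed_pow hs1 (c₁ * c₂⁻¹)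
  obtain ⟨N₂, hN₂⟩ := hA.exists_isRed_pow ht2 (c₂ * c₁⁻¹)
  have e1 : algebraMap K F c₁ ≠ 0 := by simpa using h1
  have e2 : algebraMap K F c₂ ≠ 0 := by simpa using h2
  refine ⟨algebraMap K F c₁⁻¹ * t ^ (N₁ + N₂) + algebraMap K F c₂⁻¹ * s ^ (N₁ + N₂), ?_, ?_⟩
  · have h3 := (ht1.pow (N₁ + N₂)).add (hN₁ (N₁ + N₂) (by omega))
    rw [one_pow, add_zero] at h3
    convert h3 using 1
    simp only [map_mul, map_inv₀]
    field_simp
  · have h3 := (hN₂ (N₁ + N₂) (by omega)).add (hs2.pow (N₁ + N₂))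
    rw [one_pow, zero_add] at h3
    convert h3 using 1
    simp only [map_mul, map_inv₀]
    field_simp

section Shift

variable (R₁ R₂) in
/-- The reduction of a subspace of `F` in `κ₁ × κ₂`, with the norms changed by constants and
with a twist of the residues. -/
def shiftSub (hπ : Function.Surjective π) (c₁ c₂ : K) (a₁ : κ₁) (a₂ : κ₂) (V : Submodule K F) :
    Submodule k (κ₁ × κ₂) where
  carrier := {b | ∃ f ∈ V, R₁.IsRed (algebraMap K F c₁ * f) (b.1 / a₁) ∧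
    R₂.IsRed (algebraMap K F c₂ * f) (b.2 / a₂)}
  zero_mem' := ⟨0, V.zero_mem, by simpa using R₁.isRed_zero, by simpa using R₂.isRed_zero⟩
  add_mem' := by
    rintro a b ⟨f, hf, h1, h2⟩ ⟨g, hg, h3, h4⟩
    refine ⟨f + g, V.add_mem hf hg, ?_, ?_⟩
    · rw [mul_add, Prod.fst_add, add_div]; exact h1.add h3
    · rw [mul_add, Prod.snd_add, add_div]; exact h2.add h4
  smul_mem' := by
    rintro c b ⟨f, hf, h1, h2⟩
    obtain ⟨a, rfl⟩ := hπ c
    refine ⟨(a : K) • f, V.smul_mem _ hf, ?_, ?_⟩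
    · have h3 := (R₁.isRed_coe a).mul h1
      rw [Prod.smul_fst, Algebra.smul_def (a : K) f, Algebra.smul_def, mul_div_assoc,
        mul_left_comm]
      exact h3
    · have h3 := (R₂.isRed_coe a).mul h2
      rw [Prod.smul_snd, Algebra.smul_def (a : K) f, Algebra.smul_def, mul_div_assoc,
        mul_left_comm]
      exact h3

theorem mem_shiftSub {hπ : Function.Surjective π} {c₁ c₂ : K} {a₁ : κ₁} {a₂ : κ₂}
    {V : Submodule K F} {b : κ₁ × κ₂} :
    b ∈ shiftSub R₁ R₂ hπ c₁ c₂ a₁ a₂ V ↔ ∃ f ∈ V, R₁.IsRed (algebraMap K F c₁ * f) (b.1 / a₁) ∧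
    R₂.IsRed (algebraMap K F c₂ * f) (b.2 / a₂) := Iff.rfl

theorem TwoRed.shiftSub_finrank (T : TwoRed R₁ R₂ x x₁ x₂) (hA : IsArch A)
    (hπ : Function.Surjective π) {c₁ c₂ : K} (h1 : c₁ ≠ 0) (h2 : c₂ ≠ 0)
    {a₁ : κ₁} {a₂ : κ₂} (ha₁ : a₁ ≠ 0) (ha₂ : a₂ ≠ 0)
    (V : Submodule K F) [hV : Module.Finite K V] :
    Module.Finite k (shiftSub R₁ R₂ hπ c₁ c₂ a₁ a₂ V) ∧
      Module.finrank k (shiftSub R₁ R₂ hπ c₁ c₂ a₁ a₂ V) = Module.finrank K V := by
  classical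
  obtain ⟨h, hh1, hh2⟩ := T.exists_shift hA (inv_ne_zero h1) (inv_ne_zero h2)
  have e1 : algebraMap K F c₁ ≠ 0 := by simpa using h1
  have e2 : algebraMap K F c₂ ≠ 0 := by simpa using h2
  have hh0 : h ≠ 0 := by
    rintro rfl
    rw [mul_zero] at hh1
    exact one_ne_zero (hh1.unique R₁.isRed_zero)
  -- multiplication by `h`
  let Mh : F ≃ₗ[K] F := LinearEquiv.ofBijective (LinearMap.mulLeft K h)
    ⟨mul_right_injective₀ hh0, fun y => ⟨h⁻¹ * y, by simp [mul_inv_cancel_left₀ hh0]⟩⟩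
  have hMh : ∀ f, Mh f = h * f := fun f => rfl
  let Ma : (κ₁ × κ₂) ≃ₗ[k] (κ₁ × κ₂) := LinearEquiv.prodCongr
    (LinearEquiv.ofBijective (LinearMap.mulLeft k a₁)
    ⟨mul_right_injective₀ ha₁, fun y => ⟨a₁⁻¹ * y, by simp [mul_inv_cancel_left₀ ha₁]⟩⟩)
    (LinearEquiv.ofBijective (LinearMap.mulLeft k a₂)
    ⟨mul_right_injective₀ ha₂, fun y => ⟨a₂⁻¹ * y, by simp [mul_inv_cancel_left₀ ha₂]⟩⟩)
  have hMa : ∀ b, Ma b = (a₁ * b.1, a₂ * b.2) := fun b => rfl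
  have key1 : ∀ f b, R₁.IsRed (algebraMap K F c₁ * f) b ↔ R₁.IsRed (h * f) b := by
    intro f b
    have e3 : h * f = (algebraMap K F c₁⁻¹ * h) * (algebraMap K F c₁ * f) := by
      rw [map_inv₀]; field_simp
    constructor
    · intro hb
      rw [e3]
      simpa using hh1.mul hb
    · intro hb
      have e4 : algebraMap K F c₁ * f = (algebraMap K F c₁⁻¹ * h)⁻¹ * (h * f) := by
        rw [map_inv₀]; field_simp
      rw [e4]
      simpa using (hh1.inv one_ne_zero).mul hb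
  have key2 : ∀ f b, R₂.IsRed (algebraMap K F c₂ * f) b ↔ R₂.IsRed (h * f) b := by
    intro f b
    have e3 : h * f = (algebraMap K F c₂⁻¹ * h) * (algebraMap K F c₂ * f) := by
      rw [map_inv₀]; field_simp
    constructor
    · intro hb
      rw [e3]
      simpa using hh2.mul hb
    · intro hb
      have e4 : algebraMap K F c₂ * f = (algebraMap K F c₂⁻¹ * h)⁻¹ * (h * f) := by
        rw [map_inv₀]; field_simp
      rw [e4]
      simpa using (hh2.inv one_ne_zero).mul hb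
  have hEq : shiftSub R₁ R₂ hπ c₁ c₂ a₁ a₂ V =
      (redSub R₁ R₂ hπ (V.map (Mh : F →ₗ[K] F))).map (Ma : (κ₁ × κ₂) →ₗ[k] (κ₁ × κ₂)) := by
    ext b
    rw [mem_shiftSub, Submodule.mem_map]
    constructor
    · rintro ⟨f, hf, h3, h4⟩
      refine ⟨(b.1 / a₁, b.2 / a₂), ⟨h * f, ⟨f, hf, rfl⟩, (key1 _ _).1 h3, (key2 _ _).1 h4⟩, ?_⟩
      change Ma _ = _
      rw [hMa]
      ext
      · exact mul_div_cancel₀ _ ha₁
      · exact mul_div_cancel₀ _ ha₂
    · rintro ⟨b', ⟨_, ⟨f, hf, rfl⟩, h3, h4⟩, rfl⟩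
      change _ ∈ V at hf
      refine ⟨f, hf, ?_, ?_⟩
      · rw [key1]
        have e3 : ((Ma : (κ₁ × κ₂) →ₗ[k] (κ₁ × κ₂)) b').1 / a₁ = b'.1 :=
          mul_div_cancel_left₀ _ ha₁
        rw [e3]
        exact h3
      · rw [key2]
        have e3 : ((Ma : (κ₁ × κ₂) →ₗ[k] (κ₁ × κ₂)) b').2 / a₂ = b'.2 :=
          mul_div_cancel_left₀ _ ha₂
        rw [e3]
        exact h4
  obtain ⟨h5, h6⟩ := T.redSub_finrank hπ (V.map (Mh : F →ₗ[K] F))
  rw [hEq]
  constructor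
  · infer_instance
  · rw [LinearEquiv.finrank_map_eq, h6, LinearEquiv.finrank_map_eq]

end Shift

end Fermat.Agent.QComp
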