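import Fermat.Agent.QComp.Gauss
import Mathlib.Algebra.GCDMonoid.IntegrallyClosed
import Mathlib.RingTheory.Bezout
import Mathlib.RingTheory.Valuation.ValuationRing

/-!
# Primitive polynomials over a valuation ring and the Gauss lemma
-/

set_option autoImplicit false
set_option linter.unusedSectionVars false
set_option linter.style.haveILetI false

open Polynomial IsLocalRing

namespace Fermat.Agent.QComp

section Prim

variable {A : Type*} [CommRing A] [IsDomain A] [ValuationRing A]

theorem isIntegrallyClosed_of_valuationRing (A : Type*) [CommRing A] [IsDomain A]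
    [ValuationRing A] : IsIntegrallyClosed A := by
  classical
  letI := IsBezout.toGCDDomain A
  exact GCDMonoid.toIsIntegrallyClosed

attribute [local instance] isIntegrallyClosed_of_valuationRing

/-- a polynomial over a valuation ring is primitive if one of its coefficients is a unit -/
def Prim (u : A[X]) : Prop := ∃ i, IsUnit (u.coeff i)

theorem prim_iff (u : A[X]) : Prim u ↔ u.map (residue A) ≠ 0 := by
  rw [Prim, ne_eq, Polynomial.ext_iff, not_forall]
  refine exists_congr fun i => ?_
  rw [coeff_map, coeff_zero, residue_eq_zero_iff, mem_maximalIdeal, mem_nonunits_iff, not_not]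

theorem Prim.mul {u v : A[X]} (hu : Prim u) (hv : Prim v) : Prim (u * v) := by
  rw [prim_iff] at *
  rw [Polynomial.map_mul]
  exact mul_ne_zero hu hv

theorem Prim.pow {u : A[X]} (hu : Prim u) (n : ℕ) : Prim (u ^ n) := by
  rw [prim_iff] at *
  rw [Polynomial.map_pow]
  exact pow_ne_zero _ hu

theorem prim_one : Prim (1 : A[X]) := ⟨0, by simp⟩

theorem prim_X : Prim (X : A[X]) := ⟨1, by simp⟩

theorem Prim.ne_zero {u : A[X]} (hu : Prim u) : u ≠ 0 := by
  rintro rfl
  obtain ⟨i, hi⟩ := hu
  simp at hi

theorem exists_dvd_all (s : Finset ℕ) (f : ℕ → A) (hs : s.Nonempty) :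
    ∃ i ∈ s, ∀ j ∈ s, f i ∣ f j := by
  classical
  induction hs using Finset.Nonempty.cons_induction with
  | singleton a => exact ⟨a, by simp, by simp⟩
  | cons a s ha hs ih =>
    obtain ⟨i, hi, h⟩ := ih
    rcases ValuationRing.dvd_total (f a) (f i) with h1 | h1
    · refine ⟨a, by simp, fun j hj => ?_⟩
      rw [Finset.mem_cons] at hj
      rcases hj with rfl | hj
      · exact dvd_rfl
      · exact h1.trans (h j hj)
    · refine ⟨i, by simp [hi], fun j hj => ?_⟩
      rw [Finset.mem_cons] at hj
      rcases hj with rfl | hj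
      · exact h1
      · exact h j hj

theorem exists_prim {p : A[X]} (hp : p ≠ 0) : ∃ c : A, c ≠ 0 ∧ ∃ u, Prim u ∧ p = C c * u := by
  obtain ⟨i, hi, h⟩ := exists_dvd_all p.support (fun i => p.coeff i)
    (support_nonempty.2 hp)
  have h1 : C (p.coeff i) ∣ p := by
    rw [C_dvd_iff_dvd_coeff]
    intro j
    by_cases hj : j ∈ p.support
    · exact h j hj
    · rw [notMem_support_iff.1 hj]
      exact dvd_zero _
  obtain ⟨u, hu⟩ := h1
  have hc : p.coeff i ≠ 0 := mem_support_iff.1 hi
  refine ⟨p.coeff i, hc, u, ⟨i, ?_⟩, hu⟩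
  have h2 := congrArg (fun q : A[X] => q.coeff i) hu
  simp only [coeff_C_mul] at h2
  have h3 : p.coeff i * 1 = p.coeff i * u.coeff i := by rw [mul_one]; exact h2
  rw [← mul_left_cancel₀ hc h3]
  exact isUnit_one

/-- **Gauss lemma**. -/
theorem gauss {u q : A[X]} (hu : Prim u) {c : A} (h : C c ∣ u * q) : C c ∣ q := by
  rcases eq_or_ne q 0 with rfl | hq
  · exact dvd_zero _
  obtain ⟨d, hd, v, hv, rfl⟩ := exists_prim hq
  obtain ⟨i, hi⟩ := hu.mul hv
  rw [C_dvd_iff_dvd_coeff] at h
  have h1 := h i
  rw [show u * (C d * v) = C d * (u * v) by ring, coeff_C_mul] at h1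
  have h2 : c ∣ d := by
    obtain ⟨w, hw⟩ := hi
    rw [← hw] at h1
    exact (Units.dvd_mul_right).1 h1
  exact Dvd.dvd.mul_right (map_dvd C h2) v

variable {K : Type*} [Field K] [Algebra A K] [IsFractionRing A K]

theorem gauss_map {u : A[X]} (hu : Prim u) {p : K[X]} {q : A[X]}
    (h : u.map (algebraMap A K) * p = q.map (algebraMap A K)) :
    ∃ r : A[X], p = r.map (algebraMap A K) := by
  obtain ⟨a, ha, p', hp'⟩ := exists_ev_mul K A p
  have hinj : Function.Injective (Polynomial.map (algebraMap A K)) :=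
    map_injective _ (IsFractionRing.injective A K)
  have h1 : u * p' = C a * q := by
    apply hinj
    rw [Polynomial.map_mul, Polynomial.map_mul, hp', ← h, map_C]
    ring
  obtain ⟨r, hr⟩ := gauss hu ⟨q, h1⟩
  refine ⟨r, ?_⟩
  have ha' : algebraMap A K a ≠ 0 := (map_ne_zero_iff _ (IsFractionRing.injective A K)).2 ha
  rw [hr, Polynomial.map_mul, map_C] at hp'
  exact (mul_left_cancel₀ (C_ne_zero.2 ha') hp').symm

end Prim

section KeyPow

variable {K E L : Type*} [Field K] [Field E] [Field L] [Algebra K E] [Algebra E L]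
  [FiniteDimensional E L]
variable {A : Type*} [CommRing A] [IsDomain A] [ValuationRing A] [Algebra A K] [IsFractionRing A K]

theorem minpoly_mul (e : E) (he : e ≠ 0) (s : L) :
    minpoly E (algebraMap E L e * s) = scaleRoots (minpoly E s) e := by
  have hs : IsIntegral E s := Algebra.IsIntegral.isIntegral s
  have hb : IsIntegral E (algebraMap E L e * s) := Algebra.IsIntegral.isIntegral _
  have h1 : aeval (algebraMap E L e * s) (scaleRoots (minpoly E s) e) = 0 :=
    scaleRoots_aeval_eq_zero (minpoly.aeval E s)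
  have h2 : aeval s (scaleRoots (minpoly E (algebraMap E L e * s)) e⁻¹) = 0 := by
    have h3 := scaleRoots_aeval_eq_zero (r := e⁻¹) (minpoly.aeval E (algebraMap E L e * s))
    rwa [map_inv₀, ← mul_assoc, inv_mul_cancel₀ (by simpa using he), one_mul] at h3
  have h4 := minpoly.dvd E _ h1
  have h5 := minpoly.dvd E _ h2
  have m1 : (scaleRoots (minpoly E s) e).Monic :=
    (monic_scaleRoots_iff e).2 (minpoly.monic hs)
  have m2 : (scaleRoots (minpoly E (algebraMap E L e * s)) e⁻¹).Monic :=
    (monic_scaleRoots_iff _).2 (minpoly.monic hb)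
  refine (eq_of_monic_of_dvd_of_natDegree_le (minpoly.monic hb) m1 h4 ?_).symm
  rw [natDegree_scaleRoots]
  have := natDegree_le_of_dvd h5 m2.ne_zero
  rwa [natDegree_scaleRoots] at this

/-- the key divisibility statement. -/
theorem exists_pow_eq {t : E} (ht : IsGen K t) {b s : L} (hb : b ∈ IC K L A t)
    (hs : s ∈ IC K L A t) {u : A[X]} (hu : Prim u) {c : A} (hc : c ≠ 0)
    (h : algebraMap E L (ev K A t u) * b = algebraMap E L (ev K A t (C c)) * s) :
    ∃ n : ℕ, 0 < n ∧ ∃ s' ∈ IC K L A t, b ^ n = algebraMap E L (ev K A t (C c)) * s' := by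
  have hinj := ev_injective K A ht.trans
  have hu0 : ev K A t u ≠ 0 := by
    rw [Ne, map_eq_zero_iff _ hinj]
    exact hu.ne_zero
  have hc0 : ev K A t (C c) ≠ 0 := by
    rw [Ne, map_eq_zero_iff _ hinj, C_eq_zero]
    exact hc
  set e : E := ev K A t (C c) / ev K A t u with he
  have he0 : e ≠ 0 := div_ne_zero hc0 hu0
  have hbs : b = algebraMap E L e * s := by
    have hu0' : algebraMap E L (ev K A t u) ≠ 0 := by simpa using hu0
    rw [he, map_div₀, div_mul_eq_mul_div, ← h]
    field_simp
  have hmin := minpoly_mul e he0 s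
  rw [← hbs] at hmin
  set n := (minpoly E s).natDegree with hn
  have hnb : (minpoly E b).natDegree = n := by rw [hmin, natDegree_scaleRoots]
  have hsint : IsIntegral E s := Algebra.IsIntegral.isIntegral s
  have hbint : IsIntegral E b := Algebra.IsIntegral.isIntegral b
  have key : ∀ i < n, ∃ g : A[X], (minpoly E b).coeff i = ev K A t (C c) * ev K A t g := by
    intro i hi
    obtain ⟨g, hg⟩ := minpoly_coeff_mem ht hb i
    obtain ⟨g', hg'⟩ := minpoly_coeff_mem ht hs i
    have h1 : ev K A t g * ev K A t u ^ (n - i) = ev K A t g' * ev K A t (C c) ^ (n - i) := by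
      rw [hg, hmin, coeff_scaleRoots, ← hn, ← hg', he, div_pow]
      field_simp
    rw [← map_pow, ← map_pow, ← map_mul, ← map_mul] at h1
    have h2 := hinj h1
    have h3 : C (c ^ (n - i)) ∣ g := by
      refine gauss (hu.pow (n - i)) ⟨g', ?_⟩
      rw [mul_comm, h2, C_pow, mul_comm]
    have h4 : C c ∣ g := by
      refine (map_dvd C (dvd_pow_self c ?_)).trans h3
      omega
    obtain ⟨g'', hg''⟩ := h4
    exact ⟨g'', by rw [← hg, hg'', map_mul]⟩
  choose! g hg using key
  refine ⟨n, minpoly.natDegree_pos hsint, -∑ i ∈ Finset.range n,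
    algebraMap E L (ev K A t (g i)) * b ^ i, ?_, ?_⟩
  · refine Subring.neg_mem _ (Subring.sum_mem _ fun i _ => ?_)
    exact Subring.mul_mem _ (ev_mem_IC t _) (Subring.pow_mem _ hb i)
  · have h1 := minpoly.aeval E b
    rw [aeval_eq_sum_range, hnb, Finset.sum_range_succ] at h1
    have hlead : (minpoly E b).coeff n = 1 := by
      have := minpoly.monic hbint
      rw [Monic, leadingCoeff, hnb] at this
      exact this
    rw [hlead, one_smul] at h1
    rw [mul_neg, Finset.mul_sum, eq_neg_iff_add_eq_zero, add_comm, ← h1]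
    congr 1
    refine Finset.sum_congr rfl fun i hi => ?_
    rw [Algebra.smul_def, hg i (Finset.mem_range.1 hi), map_mul, mul_assoc]

end KeyPow

end Fermat.Agent.QComp
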