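import Mathlib.LinearAlgebra.FreeModule.Finite.Matrix
import Mathlib.FieldTheory.IsAlgClosed.Basic
import Mathlib.RingTheory.Nilpotent.Lemmas
import Mathlib.RingTheory.Ideal.Quotient.Operations

/-!
# Points of reduced finite dimensional algebras
-/

set_option autoImplicit false
set_option linter.style.haveILetI false

open Module

namespace Fermat.Agent.QComp

variable {k C : Type*} [Field k] [IsAlgClosed k] [CommRing C] [Algebra k C]
  [FiniteDimensional k C]

theorem exists_point_ne_zero [IsReduced C] {x : C} (hx : x ≠ 0) : ∃ e : C →ₐ[k] k, e x ≠ 0 := by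
  have h1 : ¬ IsNilpotent x := fun h => hx h.eq_zero
  rw [nilpotent_iff_mem_prime] at h1
  push Not at h1
  obtain ⟨p, hp, hxp⟩ := h1
  haveI := hp
  have h2 : Function.Bijective (algebraMap k (C ⧸ p)) :=
    IsAlgClosed.algebraMap_bijective_of_isIntegral
  let g : k ≃ₐ[k] (C ⧸ p) := AlgEquiv.ofBijective (Algebra.ofId k (C ⧸ p)) h2
  refine ⟨(g.symm : (C ⧸ p) →ₐ[k] k).comp (Ideal.Quotient.mkₐ k p), ?_⟩
  intro h
  apply hxp
  rw [← Ideal.Quotient.eq_zero_iff_mem]
  have h3 : g.symm (Ideal.Quotient.mk p x) = 0 := h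
  rwa [map_eq_zero_iff _ g.symm.injective] at h3

theorem card_points [IsReduced C] [Fintype (C →ₐ[k] k)] :
    Fintype.card (C →ₐ[k] k) = finrank k C ∧
      ∀ c : (C →ₐ[k] k) → k, ∃ x : C, ∀ e : C →ₐ[k] k, e x = c e := by
  let ev : C →ₗ[k] ((C →ₐ[k] k) → k) := LinearMap.pi fun e => e.toLinearMap
  have hinj : Function.Injective ev := by
    rw [injective_iff_map_eq_zero]
    intro x hx
    by_contra hx0
    obtain ⟨e, he⟩ := exists_point_ne_zero (k := k) hx0
    exact he (congrFun hx e)
  have h1 := LinearMap.finrank_le_finrank_of_injective hinj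
  rw [finrank_fintype_fun_eq_card] at h1
  have h2 := card_algHom_le_finrank k C k
  rw [Nat.card_eq_fintype_card] at h2
  have h3 := le_antisymm h2 h1
  refine ⟨h3, ?_⟩
  have h4 : Function.Surjective ev :=
    (LinearMap.injective_iff_surjective_of_finrank_eq_finrank
      (by rw [finrank_fintype_fun_eq_card, h3])).1 hinj
  intro c
  obtain ⟨x, hx⟩ := h4 c
  exact ⟨x, fun e => congrFun hx e⟩

end Fermat.Agent.QComp
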