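import Fermat.Agent.QComp.TwoMain
import Fermat.Agent.QComp.TwoArt

/-!
# The two components of a curve of level `M q`, from a curve of level `M`
-/

set_option autoImplicit false
set_option linter.unusedSectionVars false
set_option linter.style.haveILetI false

open AlgebraicCurve IntermediateField Module

namespace Fermat.Agent.QComp

open Fermat.Agent.FF Fermat.Agent.Red

/-! ### Generalities on poles -/

section Poles

variable {K F F' : Type*} [Field K] [Field F] [Algebra K F] [IsAlgClosed K] [IsFnField K F]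
  [Field F'] [Algebra K F'] [IsFnField K F']

theorem mem_Lm_of_algHom [CharZero K] (α : F →ₐ[K] F') {x f : F} (hx : Transcendental K x) {m : ℕ}
    (hf : f ∈ riemannRochSpace (m • RR.poleDiv (K := K) x)) :
    α f ∈ riemannRochSpace (m • RR.poleDiv (K := K) (α x)) := by
  have hx0 := transcendental_ne_zero hx
  have hx0' : α x ≠ 0 := by simpa using hx0
  haveI := IsFnField.finiteDimensional (K := K) hx
  haveI := IsFnField.finiteDimensional (K := K) (RR.transcendental_inv' hx)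
  have key : ∀ {y g : F}, IsIntegral (Algebra.adjoin K {y}) g →
      IsIntegral (Algebra.adjoin K {α y}) (α g) := by
    intro y g hg
    have h1 : ∀ a ∈ Algebra.adjoin K {y}, α a ∈ Algebra.adjoin K {α y} := by
      intro a ha
      have h2 : α a ∈ (Algebra.adjoin K {y}).map α := ⟨a, ha, rfl⟩
      rwa [AlgHom.map_adjoin, Set.image_singleton] at h2
    let g' : Algebra.adjoin K {y} →+* Algebra.adjoin K {α y} :=
      (α.toRingHom.comp (Algebra.adjoin K {y}).val.toRingHom).codRestrict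
        (Algebra.adjoin K {α y}).toSubring (fun a => h1 _ a.2)
    obtain ⟨p, hp, hpf⟩ := hg
    refine ⟨p.map g', hp.map g', ?_⟩
    rw [Polynomial.eval₂_map]
    have h2 : (algebraMap (Algebra.adjoin K {α y}) F').comp g' =
      α.toRingHom.comp (algebraMap (Algebra.adjoin K {y}) F) := rfl
    rw [h2]
    change Polynomial.eval₂ _ (α.toRingHom g) p = 0
    rw [← Polynomial.hom_eval₂, hpf, map_zero]
  rw [mem_Lm_iff hx0] at hf
  rw [mem_Lm_iff hx0']
  refine ⟨mem_regAlg_of_isIntegral (key (isIntegral_of_mem_regAlg hf.1)), ?_⟩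
  have h2 := mem_regAlg_of_isIntegral (key (isIntegral_of_mem_regAlg hf.2))
  rwa [map_mul, map_pow, map_inv₀] at h2

/-- pole divisor of a product of two functions with the same poles -/
theorem poleDiv_mul {J J' : F} (h0 : J ≠ 0) (h0' : J' ≠ 0) {q : ℕ}
    (h : J ∈ riemannRochSpace (q • RR.poleDiv (K := K) J'))
    (h' : J' ∈ riemannRochSpace (q • RR.poleDiv (K := K) J)) :
    RR.poleDiv (K := K) (J * J') = RR.poleDiv J + RR.poleDiv J' := by
  ext P
  rw [mem_Lm] at h h'
  have h1 := (h P).resolve_left h0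
  have h2 := (h' P).resolve_left h0'
  rw [Finsupp.add_apply, RR.poleDiv_apply, RR.poleDiv_apply, RR.poleDiv_apply, P.ord_mul h0 h0']
  rcases le_or_gt 0 (P.ord J) with h3 | h3
  · rw [max_eq_left (by omega), mul_zero, add_zero] at h2
    rw [max_eq_left (a := (0 : ℤ)) (b := - P.ord J) (by omega), zero_add,
      max_eq_left (a := (0 : ℤ)) (b := - P.ord J') (by omega), max_eq_left (by omega)]
  · have h4 : P.ord J' < 0 := by
      by_contra h5
      push Not at h5
      rw [max_eq_left (by omega), mul_zero, add_zero] at h1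
      omega
    rw [max_eq_right (by omega), max_eq_right (by omega), max_eq_right (by omega)]
    ring

theorem poleDiv_pow (x : F) (n : ℕ) : RR.poleDiv (K := K) (x ^ n) = n • RR.poleDiv x := by
  ext P
  rw [Finsupp.smul_apply, RR.poleDiv_apply, RR.poleDiv_apply, ord_pow, nsmul_eq_mul]
  rcases le_total 0 (P.ord x) with h | h
  · rw [max_eq_left (b := -P.ord x) (by omega), mul_zero]
    apply max_eq_left
    have : 0 ≤ (n : ℤ) * P.ord x := by positivity
    omega
  · rw [max_eq_right (b := -P.ord x) (by omega)]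
    rw [max_eq_right]
    · ring
    · nlinarith [(by positivity : (0 : ℤ) ≤ n)]

theorem ord_sub_pow {x : F} {P : Place K F} (hP : P.ord x < 0) {N : ℕ} (hN : 1 < N) :
    P.ord (x - x ^ N) = N * P.ord x := by
  have hx0 : x ≠ 0 := by rintro rfl; simp at hP
  have h2 : P.ord (x ^ N) < P.ord x := by
    rw [ord_pow]
    have : (1 : ℤ) < N := by exact_mod_cast hN
    nlinarith
  have h3 : P.ord (-(x ^ N)) = P.ord (x ^ N) := ord_neg P _
  rw [sub_eq_add_neg, add_comm, ord_add_eq_of_lt P (neg_ne_zero.2 (pow_ne_zero _ hx0))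
    (Or.inr (by rw [h3]; exact h2)), h3, ord_pow]

end Poles

variable {K k : Type*} [Field K] [Field k] {A : ValuationSubring K} {π : A →+* k}
  {F₀ F κ : Type*} [Field F₀] [Algebra K F₀] [Field F] [Algebra K F] [Field κ] [Algebra k κ]
  [IsAlgClosed K] [CharZero K] [IsAlgClosed k] [IsFnField K F₀] [IsFnField K F] [IsFnField k κ]

/-- a curve of level `M q` over a curve of level `M`, and its two reductions -/
structure TwoLevel (R₀ : ConstRed A π F₀ κ) (R₁ R₂ : ConstRed A π F κ) (j : F₀) (jb : κ)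
    (α : F₀ →ₐ[K] F) (w : F →ₐ[K] F) (Fr : κ →ₐ[k] κ) (q : ℕ) : Prop where
  hq : 2 ≤ q
  ww : ∀ f, w (w f) = f
  r0 : R₀.IsRed j jb
  t0 : Transcendental k jb
  redα : ∀ f z, R₀.IsRed f z → R₁.IsRed (α f) z
  redβ : ∀ f z, R₀.IsRed f z → R₁.IsRed (w (α f)) (Fr z)
  red2 : ∀ f z, R₂.IsRed f z ↔ R₁.IsRed (w f) z
  Frj : Fr jb = jb ^ q
  pole : α j ∈ riemannRochSpace (q • RR.poleDiv (K := K) (w (α j)))
  deg : finrank K⟮α j⟯ F = (q + 1) * finrank k⟮jb⟯ κ
  lift : ∃ m₀ : ℕ, ∀ m, m₀ ≤ m → ∀ c ∈ riemannRochSpace (m • RR.poleDiv (K := k) jb),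
    ∃ f ∈ riemannRochSpace (m • RR.poleDiv (K := K) j), R₀.IsRed f c

namespace TwoLevel

variable {R₀ : ConstRed A π F₀ κ} {R₁ R₂ : ConstRed A π F κ} {j : F₀} {jb : κ}
    {α : F₀ →ₐ[K] F} {w : F →ₐ[K] F} {Fr : κ →ₐ[k] κ} {q : ℕ}
    (H : TwoLevel R₀ R₁ R₂ j jb α w Fr q)
include H

theorem redα2 {f : F₀} {z : κ} (h : R₀.IsRed f z) : R₂.IsRed (α f) (Fr z) :=
  (H.red2 _ _).2 (H.redβ f z h)

theorem redβ2 {f : F₀} {z : κ} (h : R₀.IsRed f z) : R₂.IsRed (w (α f)) z := by
  rw [H.red2, H.ww]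
  exact H.redα f z h

theorem swap {f : F} {z : κ} : R₂.IsRed (w f) z ↔ R₁.IsRed f z := by rw [H.red2, H.ww]

theorem tJ : Transcendental K (α j) := transcendental_of_isRed (H.redα _ _ H.r0) H.t0

theorem tj : Transcendental K j := transcendental_of_isRed H.r0 H.t0

theorem tJ' : Transcendental K (w (α j)) := transcendental_of_isRed (H.redβ2 H.r0) H.t0

theorem fixx : w (α j * w (α j)) = α j * w (α j) := by rw [map_mul, H.ww, mul_comm]

theorem txb : Transcendental k (jb ^ (q + 1)) := H.t0.pow (Nat.succ_pos q)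

theorem r1 : R₁.IsRed (α j * w (α j)) (jb ^ (q + 1)) := by
  have h := (H.redα _ _ H.r0).mul (H.redβ _ _ H.r0)
  rwa [H.Frj, ← pow_succ'] at h

theorem r2 : R₂.IsRed (α j * w (α j)) (jb ^ (q + 1)) := by
  rw [H.red2, H.fixx]
  exact H.r1

theorem jb_ne : jb - jb ^ (q ^ 2) ≠ 0 := by
  intro h
  apply H.t0
  have hq := H.hq
  have hq2 : 1 < q ^ 2 := by nlinarith
  refine ⟨Polynomial.X - Polynomial.X ^ (q ^ 2), ?_, by simpa using h⟩
  intro h0
  have h1 := congrArg (fun p => Polynomial.coeff p 1) h0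
  simp only [Polynomial.coeff_sub, Polynomial.coeff_X_one, Polynomial.coeff_X_pow,
    Polynomial.coeff_zero] at h1
  rw [if_neg (by omega), sub_zero] at h1
  exact one_ne_zero h1

theorem pole' : w (α j) ∈ riemannRochSpace (q • RR.poleDiv (K := K) (α j)) := by
  have h := mem_Lm_of_algHom w H.tJ' H.pole
  rwa [H.ww] at h

theorem poleDiv_x : RR.poleDiv (K := K) (α j * w (α j)) =
    RR.poleDiv (α j) + RR.poleDiv (w (α j)) :=
  poleDiv_mul (transcendental_ne_zero H.tJ) (transcendental_ne_zero H.tJ') H.pole H.pole'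

theorem finrank_J' : finrank K⟮w (α j)⟯ F = finrank K⟮α j⟯ F := by
  let W : F ≃ₐ[K] F := AlgEquiv.ofAlgHom w w (AlgHom.ext H.ww) (AlgHom.ext H.ww)
  have h1 : ∀ y ∈ K⟮α j⟯, w y ∈ K⟮w (α j)⟯ := by
    intro y hy
    have h2 : w y ∈ (K⟮α j⟯).map w := ⟨y, hy, rfl⟩
    rwa [IntermediateField.adjoin_map, Set.image_singleton] at h2
  have h2 : ∀ y ∈ K⟮w (α j)⟯, w y ∈ K⟮α j⟯ := by
    intro y hy
    have h2 : w y ∈ (K⟮w (α j)⟯).map w := ⟨y, hy, rfl⟩
    rwa [IntermediateField.adjoin_map, Set.image_singleton, H.ww] at h2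
  let g : K⟮α j⟯ ≃+* K⟮w (α j)⟯ :=
    { toFun := fun y => ⟨w y, h1 _ y.2⟩
      invFun := fun y => ⟨w y, h2 _ y.2⟩
      left_inv := fun y => Subtype.ext (H.ww _)
      right_inv := fun y => Subtype.ext (H.ww _)
      map_mul' := fun a b => Subtype.ext (map_mul w _ _)
      map_add' := fun a b => Subtype.ext (map_add w _ _) }
  exact (Algebra.finrank_eq_of_equiv_equiv g W.toRingEquiv (by ext y; rfl)).symm

/-- **The two reductions of a curve of level `M q`.** -/
theorem twoRed : TwoRed R₁ R₂ (α j * w (α j)) (jb ^ (q + 1)) (jb ^ (q + 1)) := by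
  have htx : Transcendental K (α j * w (α j)) := transcendental_of_isRed H.r1 H.txb
  haveI := IsFnField.finiteDimensional (K := K) htx
  haveI := IsFnField.finiteDimensional (K := K) H.tJ
  haveI := IsFnField.finiteDimensional (K := K) H.tJ'
  haveI := IsFnField.finiteDimensional (K := k) H.txb
  haveI := IsFnField.finiteDimensional (K := k) H.t0
  have h1 : (finrank K⟮α j * w (α j)⟯ F : ℤ) = 2 * finrank K⟮α j⟯ F := by
    rw [← RR.degree_poleDiv htx, H.poleDiv_x, map_add, RR.degree_poleDiv H.tJ,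
      RR.degree_poleDiv H.tJ', H.finrank_J']
    ring
  have h2 : (finrank k⟮jb ^ (q + 1)⟯ κ : ℤ) = (q + 1) * finrank k⟮jb⟯ κ := by
    rw [← RR.degree_poleDiv H.txb, poleDiv_pow, map_nsmul, RR.degree_poleDiv H.t0, nsmul_eq_mul]
    push_cast
    ring
  have h3 : ∀ b : κ, ∃ f, R₁.IsRed f b ∧ R₂.IsRed f 0 := by
    intro b
    obtain ⟨f, hf⟩ := R₀.exists_isRed (b / (jb - jb ^ (q ^ 2)))
    refine ⟨α f * (α j - w (α j) ^ q), ?_, ?_⟩
    · have h4 := (H.redα _ _ hf).mul ((H.redα _ _ H.r0).sub ((H.redβ _ _ H.r0).pow q))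
      rw [H.Frj, ← pow_mul, ← sq, div_mul_cancel₀ _ H.jb_ne] at h4
      exact h4
    · have h4 := (H.redα2 hf).mul ((H.redα2 H.r0).sub ((H.redβ2 H.r0).pow q))
      rw [H.Frj, sub_self, mul_zero] at h4
      exact h4
  refine ⟨H.r1, H.r2, H.txb, H.txb, inferInstance, inferInstance, inferInstance, ?_, h3, ?_⟩
  · have h4 : (finrank K⟮α j * w (α j)⟯ F : ℤ) = finrank k⟮jb ^ (q + 1)⟯ κ +
        finrank k⟮jb ^ (q + 1)⟯ κ := by
      rw [h1, h2, H.deg]
      push_cast
      ring
    exact_mod_cast h4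
  · intro b
    obtain ⟨f, hf1, hf2⟩ := h3 b
    exact ⟨w f, (H.red2 _ _).1 hf2, H.swap.2 hf1⟩

end TwoLevel

end Fermat.Agent.QComp
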