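import Fermat.Agent.QComp.Prim
import Mathlib.RingTheory.Valuation.LocalSubring
import Mathlib.RingTheory.Ideal.GoingUp
import Mathlib.LinearAlgebra.Dimension.Constructions
import Mathlib.LinearAlgebra.FiniteDimensional.Basic

/-!
# Valuation rings over the Gauss valuation
-/

set_option autoImplicit false
set_option linter.unusedSectionVars false
set_option linter.style.haveILetI false

open Polynomial IsLocalRing

namespace Fermat.Agent.QComp

attribute [local instance] isIntegrallyClosed_of_valuationRing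

section Def

variable (K : Type*) {L : Type*} [Field K] [Field L] [Algebra K L]
variable (A : Type*) [CommRing A] [IsDomain A] [ValuationRing A] [Algebra A K] [IsFractionRing A K]

/-- `V` is a valuation ring of `L` lying over the Gauss valuation of `A` with respect to `x`. -/
structure OverGauss (x : L) (V : ValuationSubring L) : Prop where
  mem_iff : ∀ a : K, algebraMap K L a ∈ V ↔ a ∈ (algebraMap A K).range
  mem : x ∈ V
  inv_mem : ∀ u : A[X], Prim u → (ev K A x u)⁻¹ ∈ V

end Def

section Basic

variable {K L : Type*} [Field K] [Field L] [Algebra K L]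
variable {A : Type*} [CommRing A] [IsDomain A] [ValuationRing A] [Algebra A K] [IsFractionRing A K]

theorem isUnit_of_range_inv {a : A} (ha : a ≠ 0)
    (h : (algebraMap A K a)⁻¹ ∈ (algebraMap A K).range) : IsUnit a := by
  obtain ⟨b, hb⟩ := h
  refine IsUnit.of_mul_eq_one b ?_
  apply IsFractionRing.injective A K
  rw [map_mul, hb, map_one, mul_inv_cancel₀]
  exact (map_ne_zero_iff _ (IsFractionRing.injective A K)).2 ha

theorem OverGauss.nonunits_iff {x : L} {V : ValuationSubring L} (h : OverGauss K A x V) (a : A) :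
    algebraMap K L (algebraMap A K a) ∈ V.nonunits ↔ a ∈ maximalIdeal A := by
  rw [ValuationSubring.mem_nonunits_iff_or, ← map_inv₀, h.mem_iff, mem_maximalIdeal,
    mem_nonunits_iff]
  constructor
  · rintro (h1 | h1)
    · rw [map_eq_zero, map_eq_zero_iff _ (IsFractionRing.injective A K)] at h1
      rw [h1]; exact not_isUnit_zero
    · intro hu
      apply h1
      obtain ⟨b, hb⟩ := hu.exists_right_inv
      refine ⟨b, ?_⟩
      apply eq_inv_of_mul_eq_one_right
      rw [← map_mul, hb, map_one]
  · intro h1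
    by_cases ha : a = 0
    · left; rw [ha, map_zero, map_zero]
    · right
      intro h2
      exact h1 (isUnit_of_range_inv ha h2)

theorem OverGauss.coe_mem {x : L} {V : ValuationSubring L} (h : OverGauss K A x V) (a : A) :
    algebraMap K L (algebraMap A K a) ∈ V := (h.mem_iff _).2 ⟨a, rfl⟩

theorem OverGauss.ev_mem {x : L} {V : ValuationSubring L} (h : OverGauss K A x V) (p : A[X]) :
    ev K A x p ∈ V := by
  rw [ev, coe_eval₂RingHom, eval₂_eq_sum_range]
  exact sum_mem fun i _ => mul_mem (h.coe_mem _) (pow_mem h.mem i)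

theorem OverGauss.ev_nonunits {x : L} {V : ValuationSubring L} (h : OverGauss K A x V)
    {p : A[X]} (hp : ¬ Prim p) : ev K A x p ∈ V.nonunits := by
  rw [ev, coe_eval₂RingHom, eval₂_eq_sum_range]
  refine sum_mem fun i _ => ?_
  have h1 : algebraMap K L (algebraMap A K (p.coeff i)) ∈ V.nonunits := by
    rw [h.nonunits_iff, mem_maximalIdeal, mem_nonunits_iff]
    exact fun hu => hp ⟨i, hu⟩
  have h2 : x ^ i ∈ V := pow_mem h.mem i
  rw [ValuationSubring.mem_nonunits_iff] at h1 ⊢
  have h3 := (V.valuation_le_one_iff _).2 h2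
  rw [RingHom.comp_apply, map_mul]
  exact mul_lt_one_of_nonneg_of_lt_one_left zero_le h1 h3

/-- the criterion to lie over the Gauss valuation -/
theorem overGauss_of {x : L} {V : ValuationSubring L}
    (h1 : ∀ a : A, algebraMap K L (algebraMap A K a) ∈ V)
    (h2 : ∀ a ∈ maximalIdeal A, algebraMap K L (algebraMap A K a) ∈ V.nonunits)
    (h3 : x ∈ V) (h4 : ∀ u : A[X], Prim u → (ev K A x u)⁻¹ ∈ V) : OverGauss K A x V where
  mem_iff a := by
    constructor
    · intro ha
      rcases ValuationRing.isInteger_or_isInteger A a with h | h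
      · exact h
      · obtain ⟨b, hb⟩ := h
        by_cases hb0 : b = 0
        · rw [hb0, map_zero] at hb
          have : a = 0 := by
            rw [← inv_eq_zero]; exact hb.symm
          rw [this]
          exact ⟨0, map_zero _⟩
        by_cases hu : IsUnit b
        · obtain ⟨c, hc⟩ := hu.exists_right_inv
          refine ⟨c, ?_⟩
          have h5 : (algebraMap A K b) * algebraMap A K c = 1 := by rw [← map_mul, hc, map_one]
          rw [hb] at h5
          have ha0 : a ≠ 0 := by
            rintro rfl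
            simp at h5
          field_simp at h5
          exact h5
        · exfalso
          have h5 := h2 b ((mem_maximalIdeal _).2 hu)
          rw [hb, ValuationSubring.mem_nonunits_iff_or] at h5
          rcases h5 with h5 | h5
          · rw [map_eq_zero, inv_eq_zero] at h5
            rw [h5, inv_zero] at hb
            exact hb0 ((map_eq_zero_iff _ (IsFractionRing.injective A K)).1 hb)
          · rw [map_inv₀, inv_inv] at h5
            exact h5 ha
    · rintro ⟨b, rfl⟩
      exact h1 b
  mem := h3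
  inv_mem := h4

end Basic

section Tower

variable {K E L : Type*} [Field K] [Field E] [Field L] [Algebra K E] [Algebra E L]
  [Algebra K L] [IsScalarTower K E L]

theorem algebraMap_ev {R : Type*} [CommRing R] [Algebra R K] (t : E) (p : R[X]) :
    algebraMap E L (ev K R t p) = ev K R (algebraMap E L t) p := by
  rw [ev_eq_aeval, ev_eq_aeval, aeval_algebraMap_apply]

variable {A : Type*} [CommRing A] [IsDomain A] [ValuationRing A] [Algebra A K] [IsFractionRing A K]

theorem OverGauss.IC_le {t : E} {V : ValuationSubring L}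
    (h : OverGauss K A (algebraMap E L t) V) : IC K L A t ≤ V.toSubring := by
  intro a ha
  obtain ⟨p, hp, hpa⟩ := ha
  let g : A[X] →+* V := ((algebraMap E L).comp (ev K A t)).codRestrict V.toSubring (fun q => by
    rw [RingHom.comp_apply, algebraMap_ev]; exact h.ev_mem q)
  have hg : (algebraMap V L).comp g = (algebraMap E L).comp (ev K A t) := rfl
  have hint : IsIntegral V a := by
    refine ⟨p.map g, hp.map g, ?_⟩
    rw [eval₂_map, hg]
    exact hpa
  obtain ⟨b, hb⟩ := IsIntegrallyClosed.isIntegral_iff.1 hint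
  rw [← hb]
  exact b.2

variable (K L A) in
/-- The integral closure of the Gauss valuation ring. -/
noncomputable def BG (t : E) : Subring L where
  carrier := {b | ∃ u : A[X], Prim u ∧ algebraMap E L (ev K A t u) * b ∈ IC K L A t}
  mul_mem' := by
    rintro a b ⟨u, hu, h1⟩ ⟨v, hv, h2⟩
    refine ⟨u * v, hu.mul hv, ?_⟩
    rw [map_mul, map_mul, mul_mul_mul_comm]
    exact mul_mem h1 h2
  one_mem' := ⟨1, prim_one, by rw [mul_one]; exact ev_mem_IC t 1⟩
  add_mem' := by
    rintro a b ⟨u, hu, h1⟩ ⟨v, hv, h2⟩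
    refine ⟨u * v, hu.mul hv, ?_⟩
    have h3 := add_mem (mul_mem (ev_mem_IC (K := K) (L := L) t v) h1)
      (mul_mem (ev_mem_IC (K := K) (L := L) t u) h2)
    rw [map_mul, map_mul]
    convert h3 using 1
    ring
  zero_mem' := ⟨1, prim_one, by rw [mul_zero]; exact zero_mem _⟩
  neg_mem' := by
    rintro a ⟨u, hu, h1⟩
    refine ⟨u, hu, ?_⟩
    rw [mul_neg]
    exact neg_mem h1

theorem mem_BG {t : E} {b : L} : b ∈ BG K L A t ↔
    ∃ u : A[X], Prim u ∧ algebraMap E L (ev K A t u) * b ∈ IC K L A t := Iff.rfl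

theorem IC_le_BG (t : E) : IC K L A t ≤ BG K L A t := fun b hb =>
  ⟨1, prim_one, by rw [map_one, map_one, one_mul]; exact hb⟩

variable {t : E} (ht : IsGen K t)

include ht in
theorem ev_prim_ne_zero {u : A[X]} (hu : Prim u) : ev K A t u ≠ 0 := by
  rw [Ne, map_eq_zero_iff _ (ev_injective K A ht.trans)]
  exact hu.ne_zero

include ht in
theorem inv_mem_BG {u : A[X]} (hu : Prim u) : (algebraMap E L (ev K A t u))⁻¹ ∈ BG K L A t := by
  refine ⟨u, hu, ?_⟩
  rw [mul_inv_cancel₀]
  · exact one_mem _
  · rw [Ne, map_eq_zero]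
    exact ev_prim_ne_zero ht hu

include ht in
theorem OverGauss.BG_le {V : ValuationSubring L}
    (h : OverGauss K A (algebraMap E L t) V) : BG K L A t ≤ V.toSubring := by
  rintro b ⟨u, hu, h1⟩
  have h2 := mul_mem (h.inv_mem u hu) (h.IC_le h1)
  rw [← algebraMap_ev, ← mul_assoc, inv_mul_cancel₀, one_mul] at h2
  · exact h2
  · rw [Ne, map_eq_zero]
    exact ev_prim_ne_zero ht hu

include ht in
theorem overGauss_of_BG_le {V : ValuationSubring L} (h : BG K L A t ≤ V.toSubring)
    (h2 : ∀ a ∈ maximalIdeal A, algebraMap K L (algebraMap A K a) ∈ V.nonunits) :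
    OverGauss K A (algebraMap E L t) V := by
  refine overGauss_of (fun a => h (IC_le_BG t ?_)) h2 (h (IC_le_BG t ?_)) fun u hu => ?_
  · have := ev_mem_IC (K := K) (L := L) t (C a)
    rwa [ev_C, ← IsScalarTower.algebraMap_apply] at this
  · have := ev_mem_IC (K := K) (L := L) (R := A) t X
    rwa [ev_X] at this
  · rw [← algebraMap_ev]
    exact h (inv_mem_BG ht hu)

/-- the ideal generated by the maximal ideal of `A`. -/
noncomputable def mBG (K L A : Type*) {E : Type*} [Field K] [Field E] [Field L] [Algebra K E]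
    [Algebra E L] [Algebra K L] [IsScalarTower K E L] [CommRing A] [IsDomain A] [ValuationRing A]
    [Algebra A K] [IsFractionRing A K] (t : E) : Ideal (BG K L A t) where
  carrier := {b | ∃ c ∈ maximalIdeal A, ∃ b' : BG K L A t,
    (b : L) = algebraMap E L (ev K A t (C c)) * b'}
  zero_mem' := ⟨0, zero_mem _, 0, by simp⟩
  add_mem' := by
    rintro a b ⟨c, hc, a', ha⟩ ⟨d, hd, b', hb⟩
    rcases ValuationRing.dvd_total c d with ⟨e, rfl⟩ | ⟨e, rfl⟩
    · refine ⟨c, hc, a' + ⟨_, IC_le_BG t (ev_mem_IC t (C e))⟩ * b', ?_⟩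
      rw [C_mul, map_mul, map_mul] at hb
      push_cast
      rw [ha, hb]
      ring
    · refine ⟨d, hd, ⟨_, IC_le_BG t (ev_mem_IC t (C e))⟩ * a' + b', ?_⟩
      rw [C_mul, map_mul, map_mul] at ha
      push_cast
      rw [ha, hb]
      ring
  smul_mem' := by
    rintro a b ⟨c, hc, b', hb⟩
    refine ⟨c, hc, a * b', ?_⟩
    rw [smul_eq_mul]
    push_cast
    rw [hb]
    ring

theorem mem_mBG {b : BG K L A t} : b ∈ mBG K L A t ↔ ∃ c ∈ maximalIdeal A, ∃ b' : BG K L A t,
    (b : L) = algebraMap E L (ev K A t (C c)) * b' := Iff.rfl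

/-- valuation rings dominating a prime -/
theorem exists_valuationSubring_of_prime (R : Subring L) (P : Ideal R) [P.IsPrime] :
    ∃ V : ValuationSubring L, R ≤ V.toSubring ∧ ∀ a : R, (a : L) ∈ V.nonunits ↔ a ∈ P := by
  obtain ⟨V, hV⟩ := (LocalSubring.ofPrime R P).exists_le_valuationSubring
  have hle : R ≤ V.toSubring := (LocalSubring.le_ofPrime R P).trans hV.1
  refine ⟨V, hle, fun a => ?_⟩
  have h1 : IsUnit (algebraMap R (LocalSubring.ofPrime R P).toSubring a) ↔ a ∉ P := by
    rw [IsLocalization.AtPrime.isUnit_to_map_iff _ P]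
    rfl
  constructor
  · intro h
    by_contra ha
    obtain ⟨b, hb⟩ := (h1.2 ha).exists_right_inv
    have hb' : (a : L) * (b : L) = 1 := congrArg Subtype.val hb
    have ha0 : (a : L) ≠ 0 := by intro h0; rw [h0, zero_mul] at hb'; exact zero_ne_one hb'
    rw [ValuationSubring.mem_nonunits_iff_or] at h
    rcases h with h | h
    · exact ha0 h
    · apply h
      rw [inv_eq_of_mul_eq_one_right hb']
      exact hV.1 b.2
  · intro ha
    rw [ValuationSubring.mem_nonunits_iff_or]
    by_cases ha0 : (a : L) = 0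
    · exact Or.inl ha0
    right
    intro hinv
    have h2 : ¬ IsUnit (algebraMap R (LocalSubring.ofPrime R P).toSubring a) := by
      rw [h1]; exact fun h => h ha
    apply h2
    apply hV.2.1
    exact IsUnit.of_mul_eq_one ⟨(a : L)⁻¹, hinv⟩ (Subtype.ext (mul_inv_cancel₀ ha0))

include ht in
theorem mem_radical_mBG {a : L} (ha : a ∈ BG K L A t)
    (h : ∀ V : ValuationSubring L, OverGauss K A (algebraMap E L t) V → a ∈ V.nonunits) :
    (⟨a, ha⟩ : BG K L A t) ∈ (mBG K L A t).radical := by
  rw [Ideal.radical_eq_sInf, Ideal.mem_sInf]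
  rintro P ⟨hJ, hP⟩
  obtain ⟨V, hV1, hV2⟩ := exists_valuationSubring_of_prime (BG K L A t) P
  have hV : OverGauss K A (algebraMap E L t) V := by
    refine overGauss_of_BG_le ht hV1 fun c hc => ?_
    have h1 : (⟨algebraMap E L (ev K A t (C c)), IC_le_BG t (ev_mem_IC t (C c))⟩ : BG K L A t) ∈
        mBG K L A t := ⟨c, hc, 1, by simp⟩
    have h2 : algebraMap E L (ev K A t (C c)) ∈ V.nonunits := (hV2 _).2 (hJ h1)
    rwa [ev_C, ← IsScalarTower.algebraMap_apply] at h2
  exact (hV2 ⟨a, ha⟩).1 (h V hV)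

include ht in
/-- an element of the integral closure which is not a unit for all the valuations is nilpotent
modulo the maximal ideal of `A`. -/
theorem exists_pow_of_forall_nonunits [FiniteDimensional E L] {a : L} (ha : a ∈ IC K L A t)
    (h : ∀ V : ValuationSubring L, OverGauss K A (algebraMap E L t) V → a ∈ V.nonunits) :
    ∃ c ∈ maximalIdeal A, ∃ n : ℕ, 0 < n ∧ ∃ s ∈ IC K L A t,
      a ^ n = algebraMap E L (ev K A t (C c)) * s := by
  obtain ⟨n, hn⟩ := mem_radical_mBG ht (IC_le_BG t ha) h
  obtain ⟨c, hc, b, hb⟩ := hn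
  obtain ⟨u, hu, hub⟩ := b.2
  have hb' : a ^ n = algebraMap E L (ev K A t (C c)) * b := hb
  by_cases hc0 : c = 0
  · refine ⟨0, zero_mem _, n + 1, Nat.succ_pos _, 0, zero_mem _, ?_⟩
    rw [hc0] at hb'
    rw [pow_succ, hb']
    simp
  · have h1 : algebraMap E L (ev K A t u) * a ^ n =
        algebraMap E L (ev K A t (C c)) * (algebraMap E L (ev K A t u) * b) := by
      rw [hb']; ring
    obtain ⟨m, hm, s', hs', h2⟩ := exists_pow_eq ht (pow_mem ha n) hub hu hc0 h1
    by_cases hn0 : n = 0
    · refine ⟨c, hc, 1, Nat.one_pos, a * s', mul_mem ha hs', ?_⟩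
      rw [hn0, pow_zero, one_pow] at h2
      rw [pow_one, mul_left_comm, ← h2, mul_one]
    · exact ⟨c, hc, n * m, Nat.mul_pos (Nat.pos_of_ne_zero hn0) hm, s', hs', by rw [pow_mul, h2]⟩

/-- The centre of a valuation ring on `BG`. -/
noncomputable def ctr (K A : Type*) {E L : Type*} [Field K] [Field E] [Field L] [Algebra K E]
    [Algebra E L] [Algebra K L] [IsScalarTower K E L] [CommRing A] [IsDomain A] [ValuationRing A]
    [Algebra A K] [IsFractionRing A K] (t : E) (V : ValuationSubring L)
    (hV : BG K L A t ≤ V.toSubring) : Ideal (BG K L A t) :=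
  Ideal.comap (Subring.inclusion hV : BG K L A t →+* V) (maximalIdeal V)

theorem mem_ctr {V : ValuationSubring L} {hV : BG K L A t ≤ V.toSubring} {b : BG K L A t} :
    b ∈ ctr K A t V hV ↔ (b : L) ∈ V.nonunits := by
  rw [ctr, Ideal.mem_comap, ← ValuationSubring.coe_mem_nonunits_iff]
  rfl

instance (V : ValuationSubring L) (hV : BG K L A t ≤ V.toSubring) :
    (ctr K A t V hV).IsPrime := by
  unfold ctr
  infer_instance

variable (K A) in
/-- the Gauss valuation ring in `E` (as a subring). -/
noncomputable def GA (t : E) : Subring E where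
  carrier := {z | ∃ u p : A[X], Prim u ∧ z * ev K A t u = ev K A t p}
  mul_mem' := by
    rintro a b ⟨u, p, hu, h1⟩ ⟨v, r, hv, h2⟩
    refine ⟨u * v, p * r, hu.mul hv, ?_⟩
    rw [map_mul, map_mul, ← h1, ← h2]
    ring
  one_mem' := ⟨1, 1, prim_one, by simp⟩
  add_mem' := by
    rintro a b ⟨u, p, hu, h1⟩ ⟨v, r, hv, h2⟩
    refine ⟨u * v, p * v + r * u, hu.mul hv, ?_⟩
    rw [map_mul, map_add, map_mul, map_mul, ← h1, ← h2]
    ring
  zero_mem' := ⟨1, 0, prim_one, by simp⟩
  neg_mem' := by
    rintro a ⟨u, p, hu, h1⟩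
    refine ⟨u, -p, hu, ?_⟩
    rw [map_neg, ← h1]
    ring

include ht in
theorem algebraMap_GA_mem {z : E} (hz : z ∈ GA K A t) : algebraMap E L z ∈ BG K L A t := by
  obtain ⟨u, p, hu, h⟩ := hz
  refine ⟨u, hu, ?_⟩
  rw [← map_mul, mul_comm, h]
  exact ev_mem_IC t p

include ht in
/-- among finitely many elements of `E`, one divides all of them in `GA`. -/
theorem exists_div_mem_GA {ι : Type*} (s : Finset ι) (e : ι → E) (hs : ∃ i ∈ s, e i ≠ 0) :
    ∃ j ∈ s, e j ≠ 0 ∧ ∀ i ∈ s, e i / e j ∈ GA K A t := by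
  classical
  have hfrac : ∀ z : E, ∃ (r : A) (u v : A[X]), Prim u ∧ Prim v ∧ ∃ r' : A, r' ≠ 0 ∧
      z = ev K A t (C r * u) / ev K A t (C r' * v) := by
    intro z
    letI := (ev K A t).toAlgebra
    haveI := isFractionRing_ev K A ht
    obtain ⟨p, q, hq, hz⟩ := IsFractionRing.div_surjective (A := A[X]) z
    have hq0 : q ≠ 0 := nonZeroDivisors.ne_zero hq
    obtain ⟨r', hr', v, hv, rfl⟩ := exists_prim hq0
    by_cases hp : p = 0
    · refine ⟨0, 1, v, prim_one, hv, r', hr', ?_⟩
      rw [← hz, hp, map_zero, zero_div, map_zero, zero_mul, map_zero, zero_div]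
    · obtain ⟨r, hr, u, hu, rfl⟩ := exists_prim hp
      exact ⟨r, u, v, hu, hv, r', hr', hz.symm⟩
  -- total preorder
  have hC : ∀ c : A, c ≠ 0 → ev K A t (C c) ≠ 0 := by
    intro c hc
    rw [Ne, map_eq_zero_iff _ (ev_injective K A ht.trans), C_eq_zero]
    exact hc
  have htot : ∀ a b : E, b ≠ 0 → a / b ∈ GA K A t ∨ (a ≠ 0 ∧ b / a ∈ GA K A t) := by
    intro a b hb
    obtain ⟨r, u, v, hu, hv, r', hr', ea⟩ := hfrac a
    obtain ⟨s, w, y, hw, hy, s', hs', eb⟩ := hfrac b
    have hbr : s ≠ 0 := by
      intro h0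
      apply hb
      rw [eb, h0, C_0, zero_mul, map_zero, zero_div]
    have h1 := ev_prim_ne_zero ht hu
    have h2 := ev_prim_ne_zero ht hv
    have h1' := ev_prim_ne_zero ht hw
    have h2' := ev_prim_ne_zero ht hy
    have h3 := hC _ hr'
    have h4 := hC _ hs'
    have h5 := hC _ hbr
    rcases ValuationRing.dvd_total (s * r') (r * s') with ⟨c, hc⟩ | ⟨c, hc⟩
    · left
      refine ⟨v * w, C c * (u * y), hv.mul hw, ?_⟩
      have hc' := congrArg (fun z => ev K A t (C z)) hc
      simp only [map_mul] at hc'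
      rw [ea, eb]
      simp only [map_mul]
      field_simp
      linear_combination hc'
    · by_cases ha : a = 0
      · left
        rw [ha, zero_div]
        exact zero_mem _
      right
      refine ⟨ha, ?_⟩
      have har : r ≠ 0 := by
        intro h0
        apply ha
        rw [ea, h0, C_0, zero_mul, map_zero, zero_div]
      refine ⟨y * u, C c * (w * v), hy.mul hu, ?_⟩
      have hc' := congrArg (fun z => ev K A t (C z)) hc
      simp only [map_mul] at hc'
      rw [ea, eb]
      simp only [map_mul]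
      have h6 := hC _ har
      field_simp
      linear_combination hc'
  obtain ⟨i0, hi0, he0⟩ := hs
  have hne : (s.filter fun i => e i ≠ 0).Nonempty := ⟨i0, Finset.mem_filter.2 ⟨hi0, he0⟩⟩
  suffices h : ∃ j ∈ s.filter fun i => e i ≠ 0, ∀ i ∈ s.filter fun i => e i ≠ 0,
      e i / e j ∈ GA K A t by
    obtain ⟨j, hj, h⟩ := h
    rw [Finset.mem_filter] at hj
    refine ⟨j, hj.1, hj.2, fun i hi => ?_⟩
    by_cases hei : e i = 0
    · rw [hei, zero_div]; exact zero_mem _
    · exact h i (Finset.mem_filter.2 ⟨hi, hei⟩)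
  have hall : ∀ i ∈ s.filter fun i => e i ≠ 0, e i ≠ 0 := fun i hi => (Finset.mem_filter.1 hi).2
  generalize (s.filter fun i => e i ≠ 0) = T at hne hall ⊢
  induction hne using Finset.Nonempty.cons_induction with
  | singleton a =>
    refine ⟨a, by simp, fun i hi => ?_⟩
    rw [Finset.mem_singleton] at hi
    subst hi
    rw [div_self (hall i (by simp))]
    exact one_mem _
  | cons a T ha hT ih =>
    obtain ⟨j, hj, h⟩ := ih fun i hi => hall i (Finset.mem_cons.2 (Or.inr hi))
    have hj0 : e j ≠ 0 := hall j (Finset.mem_cons.2 (Or.inr hj))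
    have ha0 : e a ≠ 0 := hall a (Finset.mem_cons_self _ _)
    rcases htot (e a) (e j) hj0 with h1 | ⟨-, h1⟩
    · refine ⟨j, Finset.mem_cons.2 (Or.inr hj), fun i hi => ?_⟩
      rcases Finset.mem_cons.1 hi with rfl | hi
      · exact h1
      · exact h i hi
    · refine ⟨a, Finset.mem_cons_self _ _, fun i hi => ?_⟩
      rcases Finset.mem_cons.1 hi with rfl | hi
      · rw [div_self ha0]; exact one_mem _
      · have h2 := mul_mem (h i hi) h1
        rwa [div_mul_div_cancel₀ hj0] at h2

include ht in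
/-- the centre of a valuation ring over the Gauss valuation is maximal. -/
theorem isMaximal_ctr {V : ValuationSubring L} (h : OverGauss K A (algebraMap E L t) V)
    (hV : BG K L A t ≤ V.toSubring) : (ctr K A t V hV).IsMaximal := by
  let f : GA K A t →+* BG K L A t :=
    ((algebraMap E L).comp (GA K A t).subtype).codRestrict _ fun z => algebraMap_GA_mem ht z.2
  have hcoe : ∀ z : GA K A t, ((f z : BG K L A t) : L) = algebraMap E L z := fun _ => rfl
  have hint : f.IsIntegral := by
    intro b
    obtain ⟨u, hu, hub⟩ := b.2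
    let g : A[X] →+* GA K A t := (ev K A t).codRestrict _ fun p => ⟨1, p, prim_one, by simp⟩
    have h1 : f.IsIntegralElem ⟨_, IC_le_BG t hub⟩ := by
      obtain ⟨p, hp, hpa⟩ := id hub
      refine ⟨p.map g, hp.map g, ?_⟩
      apply Subtype.ext
      have h3 : ((BG K L A t).subtype.comp f).comp g = (algebraMap E L).comp (ev K A t) := rfl
      have h2 : (BG K L A t).subtype (eval₂ f ⟨_, IC_le_BG t hub⟩ (p.map g)) = 0 := by
        rw [hom_eval₂, eval₂_map, h3]
        exact hpa
      exact h2
    have h2 : f.IsIntegralElem ⟨_, inv_mem_BG ht hu⟩ := by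
      have h3 : (ev K A t u)⁻¹ ∈ GA K A t := ⟨u, 1, hu, by
        rw [inv_mul_cancel₀ (ev_prim_ne_zero ht hu), map_one]⟩
      have h4 : (⟨_, inv_mem_BG ht hu⟩ : BG K L A t) = f ⟨_, h3⟩ := by
        apply Subtype.ext
        rw [hcoe, map_inv₀]
      rw [h4]
      exact RingHom.isIntegralElem_map f
    have h3 := RingHom.IsIntegralElem.mul f h1 h2
    have h6 : b = (⟨_, IC_le_BG t hub⟩ : BG K L A t) * ⟨_, inv_mem_BG ht hu⟩ := by
      apply Subtype.ext
      change (b : L) = (algebraMap E L (ev K A t u) * b) * (algebraMap E L (ev K A t u))⁻¹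
      have := ev_prim_ne_zero ht hu
      have h5 : algebraMap E L (ev K A t u) ≠ 0 := by rwa [Ne, map_eq_zero]
      field_simp
    rw [h6]
    exact h3
  refine Ideal.isMaximal_of_isIntegral_of_isMaximal_comap' f hint _ ?_
  have hunit : ∀ z : GA K A t, z ∉ (ctr K A t V hV).comap f → IsUnit z := by
    intro z hz
    obtain ⟨u, p, hu, hup⟩ := z.2
    rw [Ideal.mem_comap, mem_ctr, hcoe] at hz
    have hp : Prim p := by
      by_contra hp
      apply hz
      have h1 := h.ev_nonunits hp
      rw [← algebraMap_ev, ← hup, map_mul] at h1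
      have h2 := h.inv_mem u hu
      rw [← algebraMap_ev] at h2
      have h3 : algebraMap E L (z : E) = (algebraMap E L (z : E) * algebraMap E L (ev K A t u)) *
          (algebraMap E L (ev K A t u))⁻¹ := by
        have := ev_prim_ne_zero ht hu
        have h5 : algebraMap E L (ev K A t u) ≠ 0 := by rwa [Ne, map_eq_zero]
        field_simp
      rw [h3, ValuationSubring.mem_nonunits_iff, map_mul]
      rw [ValuationSubring.mem_nonunits_iff] at h1
      exact mul_lt_one_of_nonneg_of_lt_one_left zero_le h1 ((V.valuation_le_one_iff _).2 h2)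
    have h3 := ev_prim_ne_zero ht hu
    have h4 := ev_prim_ne_zero ht hp
    have hz0 : (z : E) ≠ 0 := by
      intro h0
      rw [h0, zero_mul] at hup
      exact h4 hup.symm
    refine IsUnit.of_mul_eq_one ⟨(z : E)⁻¹, p, u, hp, ?_⟩ (Subtype.ext (mul_inv_cancel₀ hz0))
    rw [← hup]
    field_simp
  rw [Ideal.isMaximal_iff]
  refine ⟨fun h1 => ?_, fun J x hJ hx hxJ => ?_⟩
  · have h2 : (1 : BG K L A t) ∈ ctr K A t V hV := by
      rw [Ideal.mem_comap, map_one] at h1
      exact h1
    exact (inferInstance : (ctr K A t V hV).IsPrime).ne_top ((Ideal.eq_top_iff_one _).2 h2)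
  · exact (Ideal.eq_top_iff_one _).1 (Ideal.eq_top_of_isUnit_mem _ hxJ (hunit x hx))

include ht in
/-- a family of elements of `BG` separating maximal ideals is linearly independent. -/
theorem card_le_finrank [FiniteDimensional E L] (s : Finset (Ideal (BG K L A t)))
    (hs : ∀ P ∈ s, P.IsMaximal) : s.card ≤ Module.finrank E L := by
  classical
  have hex : ∀ P ∈ s, ∃ a : BG K L A t, a ∉ P ∧ ∀ Q ∈ s, Q ≠ P → a ∈ Q := by
    intro P hP
    haveI := hs P hP
    have h1 : ¬ (s.erase P).inf id ≤ P := by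
      rw [Ideal.IsPrime.inf_le' (hs P hP).isPrime]
      rintro ⟨Q, hQ, hQP⟩
      rw [Finset.mem_erase] at hQ
      exact hQ.1 ((hs Q hQ.2).eq_of_le (hs P hP).ne_top hQP)
    obtain ⟨a, ha1, ha2⟩ := SetLike.not_le_iff_exists.1 h1
    refine ⟨a, ha2, fun Q hQ hQP => ?_⟩
    have h2 : (s.erase P).inf id ≤ Q := Finset.inf_le (Finset.mem_erase.2 ⟨hQP, hQ⟩)
    exact h2 ha1
  choose a ha1 ha2 using hex
  have hli : LinearIndependent E (fun P : s => ((a P P.2 : BG K L A t) : L)) := by
    rw [Fintype.linearIndependent_iff]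
    intro e he
    by_contra hne
    push Not at hne
    obtain ⟨i, hi⟩ := hne
    obtain ⟨j, -, hj0, hj⟩ := exists_div_mem_GA (K := K) (A := A) ht Finset.univ e ⟨i, Finset.mem_univ _, hi⟩
    have h1 : ∑ P : s, (⟨algebraMap E L (e P / e j), algebraMap_GA_mem ht (hj P (Finset.mem_univ _))⟩ :
        BG K L A t) * a P P.2 = 0 := by
      apply Subtype.ext
      push_cast
      have h2 := congrArg (fun z => (algebraMap E L (e j))⁻¹ * z) he
      simp only [mul_zero] at h2
      rw [← h2, Finset.mul_sum]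
      refine Finset.sum_congr rfl fun P _ => ?_
      rw [Algebra.smul_def, map_div₀]
      ring
    rw [← Finset.add_sum_erase _ _ (Finset.mem_univ j)] at h1
    have h3 : (⟨algebraMap E L (e j / e j), algebraMap_GA_mem ht (hj j (Finset.mem_univ _))⟩ :
        BG K L A t) = 1 := by
      apply Subtype.ext
      change algebraMap E L (e j / e j) = 1
      rw [div_self hj0, map_one]
    rw [h3, one_mul] at h1
    have h4 : ∑ P ∈ Finset.univ.erase j, (⟨algebraMap E L (e P / e j),
        algebraMap_GA_mem ht (hj P (Finset.mem_univ _))⟩ : BG K L A t) * a P P.2 ∈ (j : Ideal _) := by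
      refine Ideal.sum_mem _ fun P hP => Ideal.mul_mem_left _ _ ?_
      rw [Finset.mem_erase] at hP
      exact ha2 P P.2 j j.2 fun h => hP.1 (Subtype.ext h.symm)
    rw [← eq_neg_iff_add_eq_zero] at h1
    exact ha1 j j.2 (h1 ▸ (j : Ideal (BG K L A t)).neg_mem h4)
  have := hli.fintype_card_le_finrank
  rwa [Fintype.card_coe] at this

include ht in
theorem finite_maximal [FiniteDimensional E L] :
    {P : Ideal (BG K L A t) | P.IsMaximal}.Finite := by
  by_contra h
  obtain ⟨s, hs, hcard⟩ := Set.Infinite.exists_subset_card_eq h (Module.finrank E L + 1)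
  have := card_le_finrank (K := K) (A := A) (L := L) ht s fun P hP => hs hP
  omega

end Tower

end Fermat.Agent.QComp
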