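import Fermat.Agent.QComp.TwoReg
import Mathlib.GroupTheory.CosetCover

/-!
# Nodes: gluing data on two components, and divisor classes of finite order
-/

set_option autoImplicit false
set_option linter.unusedSectionVars false
set_option linter.style.haveILetI false

open AlgebraicCurve IntermediateField Module

namespace Fermat.Agent.QComp

open Fermat.Agent.FF Fermat.Agent.Red

/-- two linear functionals with equal `n`-th powers are proportional -/
theorem exists_root_smul {k E : Type*} [Field k] [IsAlgClosed k] [AddCommGroup E] [Module k E]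
    {n : ℕ} (hn : n ≠ 0) (l m : E →ₗ[k] k) (h : ∀ e, l e ^ n = m e ^ n) :
    ∃ ζ : k, ζ ≠ 0 ∧ l = ζ • m := by
  classical
  haveI : Infinite k := IsAlgClosed.instInfinite
  set s : Finset (Submodule k E) :=
    (Polynomial.nthRootsFinset n (1 : k)).image fun ζ => LinearMap.ker (l - ζ • m) with hs
  have h1 : (⋃ p ∈ s, (p : Set E)) = Set.univ := by
    rw [Set.eq_univ_iff_forall]
    intro e
    rw [Set.mem_iUnion₂]
    rcases eq_or_ne (m e) 0 with h0 | h0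
    · refine ⟨LinearMap.ker (l - (1 : k) • m), ?_, ?_⟩
      · rw [hs, Finset.mem_image]
        exact ⟨1, (Polynomial.mem_nthRootsFinset (Nat.pos_of_ne_zero hn) _).2 (one_pow n), rfl⟩
      · have h2 := h e
        rw [h0, zero_pow hn] at h2
        have h3 : l e = 0 := pow_eq_zero_iff hn |>.1 h2
        simp [h0, h3]
    · refine ⟨LinearMap.ker (l - (l e / m e) • m), ?_, ?_⟩
      · rw [hs, Finset.mem_image]
        refine ⟨l e / m e, (Polynomial.mem_nthRootsFinset (Nat.pos_of_ne_zero hn) _).2 ?_, rfl⟩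
        rw [div_pow, h e, div_self (pow_ne_zero _ h0)]
      · simp [div_mul_cancel₀ _ h0]
  have h2 := Subspace.top_mem_of_biUnion_eq_univ h1
  rw [hs, Finset.mem_image] at h2
  obtain ⟨ζ, hζ, h3⟩ := h2
  refine ⟨ζ, ?_, ?_⟩
  · rintro rfl
    rw [Polynomial.mem_nthRootsFinset (Nat.pos_of_ne_zero hn), zero_pow hn] at hζ
    exact zero_ne_one hζ
  · rw [LinearMap.ker_eq_top, sub_eq_zero] at h3
    exact h3

variable {K k : Type*} [Field K] [Field k] {A : ValuationSubring K} {π : A →+* k}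
  {F κ₁ κ₂ : Type*} [Field F] [Algebra K F] [Field κ₁] [Algebra k κ₁] [Field κ₂] [Algebra k κ₂]

/-- the gluing data of two components -/
structure Nodes (R₁ : ConstRed A π F κ₁) (R₂ : ConstRed A π F κ₂) (x : F) (x₁ : κ₁) (x₂ : κ₂)
    (S : Type*) [Fintype S] where
  /-- the branches on the first component -/
  e₁ : S → (regAlg k x₁ →ₐ[k] k)
  /-- the branches on the second component -/
  e₂ : S → (regAlg k x₂ →ₐ[k] k)
  glue : ∀ f ∈ regAlg K x, ∀ (b₁ : regAlg k x₁) (b₂ : regAlg k x₂), R₁.IsRed f b₁ →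
    R₂.IsRed f b₂ → ∀ s, e₁ s b₁ = e₂ s b₂
  surj : ∀ c : S → k, ∃ b : regAlg k x₂, ∀ s, e₂ s b = c s
  card : genusFF K F + 1 ≤ Fintype.card S + genusFF k κ₁ + genusFF k κ₂

variable {R₁ : ConstRed A π F κ₁} {R₂ : ConstRed A π F κ₂} {x : F} {x₁ : κ₁} {x₂ : κ₂}

section RR

variable [IsAlgClosed K] [IsFnField K F]

theorem ell_add_Lm [FiniteDimensional K⟮x⟯ F] (hx : Transcendental K x) {D : Divisor K F}
    (hD : Divisor.degree D = 0) {m : ℕ} (hm : 2 * genusFF K F ≤ m) :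
    (finrank K (riemannRochSpace (D + m • RR.poleDiv (K := K) x)) : ℤ) =
      m * finrank K⟮x⟯ F + 1 - genusFF K F := by
  have hn : 0 < finrank K⟮x⟯ F := finrank_pos
  have hd : Divisor.degree (D + m • RR.poleDiv (K := K) x) = m * finrank K⟮x⟯ F := by
    rw [map_add, hD, zero_add, map_nsmul, RR.degree_poleDiv hx, nsmul_eq_mul]
  have h1 : (m : ℤ) * 1 ≤ m * finrank K⟮x⟯ F :=
    mul_le_mul_of_nonneg_left (by exact_mod_cast hn) (by positivity)
  have h2 := RR.ell_eq_of_lt_degree (D := D + m • RR.poleDiv (K := K) x) (by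
    rw [hd]
    have : (2 * genusFF K F : ℤ) ≤ m := by exact_mod_cast hm
    linarith)
  rw [hd] at h2
  exact h2

theorem ell_Lm [FiniteDimensional K⟮x⟯ F] (hx : Transcendental K x)
    {m : ℕ} (hm : 2 * genusFF K F ≤ m) :
    (finrank K (riemannRochSpace (m • RR.poleDiv (K := K) x)) : ℤ) =
      m * finrank K⟮x⟯ F + 1 - genusFF K F := by
  have := ell_add_Lm (D := 0) hx (map_zero _) hm
  rwa [zero_add] at this

theorem mem_add_Lm_iff {n : ℕ} (hn : n ≠ 0) {y : F} (hy : y ≠ 0) {D : Divisor K F}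
    (hD : n • D = RR.divOf y) {m : ℕ} {u : F} :
    u ∈ riemannRochSpace (D + m • RR.poleDiv (K := K) x) ↔
      u ^ n * y ∈ riemannRochSpace ((n * m) • RR.poleDiv (K := K) x) := by
  rcases eq_or_ne u 0 with rfl | hu
  · simp [zero_pow hn]
  rw [mem_Lm, mem_riemannRochSpace_iff]
  refine forall_congr' fun P => ?_
  have h1 : (n : ℤ) * D P = P.ord y := by
    have := DFunLike.congr_fun hD P
    rwa [Finsupp.smul_apply, nsmul_eq_mul] at this
  have h2 : u ^ n * y ≠ 0 := mul_ne_zero (pow_ne_zero _ hu) hy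
  rw [Finsupp.add_apply, Finsupp.smul_apply, RR.poleDiv_apply, nsmul_eq_mul,
    P.ord_mul (pow_ne_zero _ hu) hy, ord_pow]
  simp only [hu, h2, false_or]
  have hn' : (0 : ℤ) < n := by positivity
  have e : (n : ℤ) * P.ord u + P.ord y + ((n * m : ℕ) : ℤ) * max 0 (-P.ord x) =
    n * (P.ord u + (D P + m * max 0 (-P.ord x))) := by
    rw [← h1]; push_cast; ring
  rw [e]
  constructor
  · intro h
    have : 0 ≤ P.ord u + (D P + m * max 0 (-P.ord x)) := by linarith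
    positivity
  · intro h
    by_contra h3
    push Not at h3
    have : P.ord u + (D P + m * max 0 (-P.ord x)) < 0 := by linarith
    nlinarith

end RR

variable (k) in
/-- the inclusion of a Riemann-Roch space in the regular functions -/
noncomputable def inclReg [IsAlgClosed k] [IsFnField k κ₁] (x₁ : κ₁) (m : ℕ) :
    riemannRochSpace (m • RR.poleDiv (K := k) x₁) →ₗ[k] regAlg k x₁ :=
  Submodule.inclusion (p := riemannRochSpace (m • RR.poleDiv (K := k) x₁))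
    (p' := Subalgebra.toSubmodule (regAlg k x₁)) fun _ h => mem_regAlg_of_mem_Lm h

@[simp] theorem coe_inclReg [IsAlgClosed k] [IsFnField k κ₁] (x₁ : κ₁) (m : ℕ)
    (b : riemannRochSpace (m • RR.poleDiv (K := k) x₁)) : ((inclReg k x₁ m b : regAlg k x₁) : κ₁) =
      b := rfl

/-- data describing a function whose divisor is divisible by `n`, and whose reductions
on both components are `n`-th powers, up to constants. -/
structure W1 (R₁ : ConstRed A π F κ₁) (R₂ : ConstRed A π F κ₂) (n : ℕ) (y : F)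
    (D : Divisor K F) (c₁ c₂ : K) (a₁ : κ₁) (a₂ : κ₂) : Prop where
  n0 : n ≠ 0
  deg : Divisor.degree D = 0
  ne : y ≠ 0
  div : ∀ P, (n : ℤ) * D P = P.ord y
  c1 : c₁ ≠ 0
  c2 : c₂ ≠ 0
  a1 : a₁ ≠ 0
  a2 : a₂ ≠ 0
  red1 : R₁.IsRed (algebraMap K F c₁ ^ n * y) (a₁ ^ n)
  red2 : R₂.IsRed (algebraMap K F c₂ ^ n * y) (a₂ ^ n)

namespace W1

variable {n : ℕ} {y : F} {D : Divisor K F} {c₁ c₂ : K} {a₁ : κ₁} {a₂ : κ₂}
  (w : W1 R₁ R₂ n y D c₁ c₂ a₁ a₂)
include w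

theorem red1_iff {u : F} {b : κ₁} (h : R₁.IsRed (algebraMap K F c₁⁻¹ * u) (b / a₁)) :
    R₁.IsRed (u ^ n * y) (b ^ n) := by
  have h1 := (h.pow n).mul w.red1
  have e1 : algebraMap K F c₁ ≠ 0 := by simpa using w.c1
  have e2 : algebraMap K F c₁⁻¹ * algebraMap K F c₁ = 1 := by
    rw [← map_mul, inv_mul_cancel₀ w.c1, map_one]
  have e3 : (algebraMap K F c₁⁻¹ * u) ^ n * (algebraMap K F c₁ ^ n * y) = u ^ n * y := by
    calc (algebraMap K F c₁⁻¹ * u) ^ n * (algebraMap K F c₁ ^ n * y)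
        = (algebraMap K F c₁⁻¹ * algebraMap K F c₁) ^ n * (u ^ n * y) := by ring
      _ = u ^ n * y := by rw [e2, one_pow, one_mul]
  rw [e3, ← mul_pow, div_mul_cancel₀ _ w.a1] at h1
  exact h1

theorem red2_iff {u : F} {b : κ₂} (h : R₂.IsRed (algebraMap K F c₂⁻¹ * u) (b / a₂)) :
    R₂.IsRed (u ^ n * y) (b ^ n) := by
  have h1 := (h.pow n).mul w.red2
  have e1 : algebraMap K F c₂ ≠ 0 := by simpa using w.c2
  have e2 : algebraMap K F c₂⁻¹ * algebraMap K F c₂ = 1 := by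
    rw [← map_mul, inv_mul_cancel₀ w.c2, map_one]
  have e3 : (algebraMap K F c₂⁻¹ * u) ^ n * (algebraMap K F c₂ ^ n * y) = u ^ n * y := by
    calc (algebraMap K F c₂⁻¹ * u) ^ n * (algebraMap K F c₂ ^ n * y)
        = (algebraMap K F c₂⁻¹ * algebraMap K F c₂) ^ n * (u ^ n * y) := by ring
      _ = u ^ n * y := by rw [e2, one_pow, one_mul]
  rw [e3, ← mul_pow, div_mul_cancel₀ _ w.a2] at h1
  exact h1

variable [IsAlgClosed K] [CharZero K] [IsAlgClosed k] [IsFnField K F] [IsFnField k κ₁]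
  [IsFnField k κ₂]

theorem div' : n • D = RR.divOf y := by
  ext P
  rw [Finsupp.smul_apply, nsmul_eq_mul, RR.divOf_apply, w.div P]

theorem mem_iff {m : ℕ} {u : F} :
    u ∈ riemannRochSpace (D + m • RR.poleDiv (K := K) x) ↔
      u ^ n * y ∈ riemannRochSpace ((n * m) • RR.poleDiv (K := K) x) :=
  mem_add_Lm_iff w.n0 w.ne w.div'

theorem mem_Lm1 (T : TwoRed R₁ R₂ x x₁ x₂) {m : ℕ} {u : F}
    (hu : u ∈ riemannRochSpace (D + m • RR.poleDiv (K := K) x)) {b₁ : κ₁} {b₂ : κ₂}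
    (h1 : R₁.IsRed (algebraMap K F c₁⁻¹ * u) (b₁ / a₁))
    (h2 : R₂.IsRed (algebraMap K F c₂⁻¹ * u) (b₂ / a₂)) :
    b₁ ∈ riemannRochSpace (m • RR.poleDiv (K := k) x₁) := by
  rw [w.mem_iff] at hu
  have h3 := T.mem_Lm1 hu (w.red1_iff h1) (w.red2_iff h2).mem
  rw [mem_Lm] at h3 ⊢
  intro P
  rcases h3 P with h4 | h4
  · left; exact pow_eq_zero_iff w.n0 |>.1 h4
  · right
    rw [ord_pow] at h4
    have hn' : (0 : ℤ) < n := by have := w.n0; positivity
    by_contra h5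
    push Not at h5
    push_cast at h4
    nlinarith

theorem mem_Lm2 (T : TwoRed R₁ R₂ x x₁ x₂) {m : ℕ} {u : F}
    (hu : u ∈ riemannRochSpace (D + m • RR.poleDiv (K := K) x)) {b₁ : κ₁} {b₂ : κ₂}
    (h1 : R₁.IsRed (algebraMap K F c₁⁻¹ * u) (b₁ / a₁))
    (h2 : R₂.IsRed (algebraMap K F c₂⁻¹ * u) (b₂ / a₂)) :
    b₂ ∈ riemannRochSpace (m • RR.poleDiv (K := k) x₂) := by
  rw [w.mem_iff] at hu
  have h3 := T.mem_Lm2 hu (w.red1_iff h1).mem (w.red2_iff h2)
  rw [mem_Lm] at h3 ⊢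
  intro P
  rcases h3 P with h4 | h4
  · left; exact pow_eq_zero_iff w.n0 |>.1 h4
  · right
    rw [ord_pow] at h4
    have hn' : (0 : ℤ) < n := by have := w.n0; positivity
    by_contra h5
    push Not at h5
    push_cast at h4
    nlinarith

end W1

section Main

variable [IsAlgClosed K] [CharZero K] [IsAlgClosed k] [IsFnField K F] [IsFnField k κ₁]
  [IsFnField k κ₂]

variable (k) in
/-- pairs of functions on the two components with bounded poles -/
abbrev PairL (x₁ : κ₁) (x₂ : κ₂) (m : ℕ) : Type _ :=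
  riemannRochSpace (m • RR.poleDiv (K := k) x₁) × riemannRochSpace (m • RR.poleDiv (K := k) x₂)

variable (k) in
/-- the inclusion of the pairs with bounded poles -/
noncomputable def pairIncl (x₁ : κ₁) (x₂ : κ₂) (m : ℕ) : PairL k x₁ x₂ m →ₗ[k] κ₁ × κ₂ :=
  LinearMap.prodMap (Submodule.subtype _) (Submodule.subtype _)

theorem pairIncl_injective (m : ℕ) : Function.Injective (pairIncl k x₁ x₂ m) := by
  rintro ⟨a, b⟩ ⟨a', b'⟩ h
  have h1 : (a : κ₁) = a' := congrArg Prod.fst h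
  have h2 : (b : κ₂) = b' := congrArg Prod.snd h
  exact Prod.ext (Subtype.ext h1) (Subtype.ext h2)

/-- the space attached to a function of type `W1` -/
noncomputable def esp (R₁ : ConstRed A π F κ₁) (R₂ : ConstRed A π F κ₂)
    (hπ : Function.Surjective π) (x : F) (x₁ : κ₁) (x₂ : κ₂)
    (D : Divisor K F) (c₁ c₂ : K) (a₁ : κ₁) (a₂ : κ₂) (m : ℕ) : Submodule k (PairL k x₁ x₂ m) :=
  (shiftSub R₁ R₂ hπ c₁⁻¹ c₂⁻¹ a₁ a₂
    (riemannRochSpace (D + m • RR.poleDiv (K := K) x))).comap (pairIncl k x₁ x₂ m)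

variable {hπ : Function.Surjective π}

theorem mem_esp {D : Divisor K F} {c₁ c₂ : K} {a₁ : κ₁} {a₂ : κ₂} {m : ℕ} {p : PairL k x₁ x₂ m} :
    p ∈ esp R₁ R₂ hπ x x₁ x₂ D c₁ c₂ a₁ a₂ m ↔
      ∃ u ∈ riemannRochSpace (D + m • RR.poleDiv (K := K) x),
        R₁.IsRed (algebraMap K F c₁⁻¹ * u) ((p.1 : κ₁) / a₁) ∧
        R₂.IsRed (algebraMap K F c₂⁻¹ * u) ((p.2 : κ₂) / a₂) := Iff.rfl

theorem W1.finrank_esp (T : TwoRed R₁ R₂ x x₁ x₂) (hA : IsArch A) {n : ℕ} {y : F}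
    {D : Divisor K F} {c₁ c₂ : K} {a₁ : κ₁} {a₂ : κ₂} (w : W1 R₁ R₂ n y D c₁ c₂ a₁ a₂) (m : ℕ) :
    finrank k (esp R₁ R₂ hπ x x₁ x₂ D c₁ c₂ a₁ a₂ m) =
      finrank K (riemannRochSpace (D + m • RR.poleDiv (K := K) x)) := by
  obtain ⟨h1, h2⟩ := T.shiftSub_finrank hA hπ (inv_ne_zero w.c1) (inv_ne_zero w.c2) w.a1 w.a2
    (riemannRochSpace (D + m • RR.poleDiv (K := K) x))
  rw [← h2, esp]
  have h3 : shiftSub R₁ R₂ hπ c₁⁻¹ c₂⁻¹ a₁ a₂
      (riemannRochSpace (D + m • RR.poleDiv (K := K) x)) ≤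
      LinearMap.range (pairIncl k x₁ x₂ m) := by
    rintro b ⟨u, hu, hu1, hu2⟩
    exact ⟨(⟨b.1, w.mem_Lm1 T hu hu1 hu2⟩, ⟨b.2, w.mem_Lm2 T hu hu1 hu2⟩), rfl⟩
  rw [← LinearMap.finrank_range_of_inj (f := (pairIncl k x₁ x₂ m).domRestrict
    (Submodule.comap (pairIncl k x₁ x₂ m) (shiftSub R₁ R₂ hπ c₁⁻¹ c₂⁻¹ a₁ a₂
      (riemannRochSpace (D + m • RR.poleDiv (K := K) x)))))
    ((pairIncl_injective m).comp Subtype.val_injective),
    LinearMap.range_domRestrict, Submodule.map_comap_eq_of_le h3]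

namespace Nodes

variable {S : Type*} [Fintype S] (N : Nodes R₁ R₂ x x₁ x₂ S)

/-- the gluing conditions, twisted by `w` -/
noncomputable def tw (w : S → k) (m : ℕ) : PairL k x₁ x₂ m →ₗ[k] (S → k) :=
  LinearMap.pi fun s => ((N.e₁ s).toLinearMap ∘ₗ inclReg k x₁ m) ∘ₗ LinearMap.fst k _ _ -
    w s • (((N.e₂ s).toLinearMap ∘ₗ inclReg k x₂ m) ∘ₗ LinearMap.snd k _ _)

theorem tw_apply (w : S → k) (m : ℕ) (p : PairL k x₁ x₂ m) (s : S) :
    N.tw w m p s = N.e₁ s (inclReg k x₁ m p.1) - w s * N.e₂ s (inclReg k x₂ m p.2) := rfl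

theorem exists_surj : ∃ m₀ : ℕ, ∀ m, m₀ ≤ m → ∀ c : S → k,
    ∃ b : riemannRochSpace (m • RR.poleDiv (K := k) x₂), ∀ s, N.e₂ s (inclReg k x₂ m b) = c s := by
  classical
  choose b hb using fun s : S => N.surj (Pi.single s 1)
  choose μ hμ using fun s : S => exists_mem_Lm (b s).2
  refine ⟨Finset.univ.sup μ, fun m hm c => ?_⟩
  have hb' : ∀ s, ((b s : κ₂)) ∈ riemannRochSpace (m • RR.poleDiv (K := k) x₂) := fun s =>
    Lm_mono ((Finset.le_sup (Finset.mem_univ s)).trans hm) (hμ s)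
  refine ⟨∑ s, (c s) • ⟨(b s : κ₂), hb' s⟩, fun s => ?_⟩
  have h1 : inclReg k x₂ m (∑ s, (c s) •
      (⟨(b s : κ₂), hb' s⟩ : riemannRochSpace (m • RR.poleDiv (K := k) x₂))) =
      ∑ s, (c s) • b s := by
    rw [map_sum]
    refine Finset.sum_congr rfl fun t _ => ?_
    rw [map_smul]
    rfl
  rw [h1, map_sum]
  simp only [map_smul, hb, smul_eq_mul]
  rw [Finset.sum_eq_single s]
  · rw [Pi.single_eq_same, mul_one]
  · intro t _ hts
    rw [Pi.single_eq_of_ne (Ne.symm hts), mul_zero]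
  · intro h; exact absurd (Finset.mem_univ s) h

theorem exists_surj_tw : ∃ m₀ : ℕ, ∀ m, m₀ ≤ m → ∀ w : S → k, (∀ s, w s ≠ 0) →
    LinearMap.range (N.tw w m) = ⊤ := by
  obtain ⟨m₀, hm₀⟩ := N.exists_surj
  refine ⟨m₀, fun m hm w hw => ?_⟩
  rw [LinearMap.range_eq_top]
  intro c
  obtain ⟨b, hb⟩ := hm₀ m hm (fun s => -(c s / w s))
  refine ⟨(0, b), ?_⟩
  funext s
  rw [N.tw_apply]
  change N.e₁ s (inclReg k x₁ m 0) - w s * N.e₂ s (inclReg k x₂ m b) = c s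
  rw [map_zero, map_zero, hb]
  have := hw s
  field_simp
  ring

theorem exists_finrank_ker (T : TwoRed R₁ R₂ x x₁ x₂) :
    ∃ m₀ : ℕ, ∀ m, m₀ ≤ m → ∀ w : S → k, (∀ s, w s ≠ 0) →
    (finrank k (LinearMap.ker (N.tw w m)) : ℤ) = m * finrank K⟮x⟯ F + 2 - genusFF k κ₁ -
      genusFF k κ₂ - Fintype.card S := by
  classical
  obtain ⟨m₀, hm₀⟩ := N.exists_surj_tw
  refine ⟨m₀ + 2 * genusFF k κ₁ + 2 * genusFF k κ₂, fun m hm w hw => ?_⟩
  have h1 := (N.tw w m).finrank_range_add_finrank_ker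
  rw [hm₀ m (by omega) w hw, finrank_top, Module.finrank_prod, Module.finrank_fintype_fun_eq_card]
    at h1
  haveI := T.fd1
  haveI := T.fd2
  have h2 := ell_Lm (K := k) (x := x₁) T.t1 (m := m) (by omega)
  have h3 := ell_Lm (K := k) (x := x₂) T.t2 (m := m) (by omega)
  rw [T.finrank_eq]
  push_cast
  have h4 : (Fintype.card S : ℤ) + finrank k (LinearMap.ker (N.tw w m)) =
    finrank k (riemannRochSpace (m • RR.poleDiv (K := k) x₁)) +
    finrank k (riemannRochSpace (m • RR.poleDiv (K := k) x₂)) := by exact_mod_cast h1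
  rw [h2, h3] at h4
  linarith

end Nodes

variable {S : Type*} [Fintype S] {n : ℕ} {y : F} {D : Divisor K F} {c₁ c₂ : K} {a₁ : κ₁} {a₂ : κ₂}

/-- gluing of `n`-th powers -/
theorem W1.glue (w : W1 R₁ R₂ n y D c₁ c₂ a₁ a₂)
    (N : Nodes R₁ R₂ x x₁ x₂ S) {m : ℕ}
    {p : PairL k x₁ x₂ m} (hp : p ∈ esp R₁ R₂ hπ x x₁ x₂ D c₁ c₂ a₁ a₂ m) (s : S) :
    N.e₁ s (inclReg k x₁ m p.1) ^ n = N.e₂ s (inclReg k x₂ m p.2) ^ n := by
  obtain ⟨u, hu, h1, h2⟩ := hp
  rw [w.mem_iff] at hu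
  rw [← map_pow (N.e₁ s), ← map_pow (N.e₂ s)]
  exact N.glue _ (mem_regAlg_of_mem_Lm hu) _ _ (w.red1_iff h1) (w.red2_iff h2) s

/-- the structure of the space attached to a function of type `W1` -/
theorem W1.exists_tw (w : W1 R₁ R₂ n y D c₁ c₂ a₁ a₂) (T : TwoRed R₁ R₂ x x₁ x₂) (hA : IsArch A)
    (N : Nodes R₁ R₂ x x₁ x₂ S) (hπ : Function.Surjective π) :
    ∃ m₀ : ℕ, ∀ m, m₀ ≤ m → ∃ t : S → k, (∀ s, t s ≠ 0) ∧
      esp R₁ R₂ hπ x x₁ x₂ D c₁ c₂ a₁ a₂ m = LinearMap.ker (N.tw t m) := by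
  classical
  obtain ⟨m₀, hm₀⟩ := N.exists_finrank_ker T
  refine ⟨m₀ + 2 * genusFF K F, fun m hm => ?_⟩
  set E := esp R₁ R₂ hπ x x₁ x₂ D c₁ c₂ a₁ a₂ m with hE
  choose t ht0 ht using fun s : S => exists_root_smul (k := k) (E := E) w.n0
    ((((N.e₁ s).toLinearMap ∘ₗ inclReg k x₁ m) ∘ₗ LinearMap.fst k _ _).domRestrict E)
    ((((N.e₂ s).toLinearMap ∘ₗ inclReg k x₂ m) ∘ₗ LinearMap.snd k _ _).domRestrict E)
    (fun e => w.glue N e.2 s)
  refine ⟨t, ht0, ?_⟩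
  have hle : E ≤ LinearMap.ker (N.tw t m) := by
    intro p hp
    rw [LinearMap.mem_ker]
    funext s
    rw [N.tw_apply, Pi.zero_apply, sub_eq_zero]
    exact LinearMap.congr_fun (ht s) ⟨p, hp⟩
  refine Submodule.eq_of_le_of_finrank_le hle ?_
  have h1 := hm₀ m (by omega) t ht0
  haveI := T.fd
  have h2 := ell_add_Lm (x := x) (K := K) (F := F) (transcendental_of_isRed T.r1 T.t1) w.deg
    (m := m) (by omega)
  rw [hE, w.finrank_esp T hA]
  have h3 := N.card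
  omega

end Main

end Fermat.Agent.QComp
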