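import Fermat.Agent.QComp.TwoReg
import Mathlib.FieldTheory.Galois.Basic
import Mathlib.RingTheory.RootsOfUnity.AlgebraicallyClosed

/-!
# Kummer theory on a curve whose reduction has two components
-/

set_option autoImplicit false
set_option linter.unusedSectionVars false
set_option linter.style.haveILetI false

open AlgebraicCurve IntermediateField Module

namespace Fermat.Agent.QComp

open Fermat.Agent.FF Fermat.Agent.Red

variable {K k : Type*} [Field K] [Field k] {A : ValuationSubring K} {π : A →+* k}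
  {F κ₁ κ₂ : Type*} [Field F] [Algebra K F] [Field κ₁] [Algebra k κ₁] [Field κ₂] [Algebra k κ₂]
  {R₁ : ConstRed A π F κ₁} {R₂ : ConstRed A π F κ₂} {x : F} {x₁ : κ₁} {x₂ : κ₂}

/-- primitive polynomials have nonzero reduction -/
theorem prim_iff_map (R : ConstRed A π F κ₁) (u : Polynomial A) : Prim u ↔ u.map π ≠ 0 := by
  rw [Prim, ne_eq, Polynomial.ext_iff, not_forall]
  refine exists_congr fun i => ?_
  rw [Polynomial.coeff_map, Polynomial.coeff_zero, R.pi_eq_zero_iff, not_not]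

section Over

variable {L : Type*} [Field L] [Algebra F L] [Algebra K L] [IsScalarTower K F L]

theorem ev_algebraMap (p : Polynomial A) :
    ev K A (algebraMap F L x) p = algebraMap F L (Polynomial.aeval x (p.map A.subtype)) := by
  rw [ev_eq_aeval, Polynomial.aeval_algebraMap_apply]
  rfl

/-- functions with integral Gauss norm are in all valuation rings over the Gauss ring -/
theorem OverGauss.mem_of_gauss {V : ValuationSubring L} (hV : OverGauss K A (algebraMap F L x) V)
    (r1 : R₁.IsRed x x₁) (t1 : Transcendental k x₁) {c : F} (hc : c ∈ K⟮x⟯) (h : c ∈ R₁.O) :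
    algebraMap F L c ∈ V := by
  rcases eq_or_ne c 0 with rfl | hc0
  · rw [map_zero]; exact zero_mem _
  obtain ⟨α, hα, p, q, hp, hq, hcpq⟩ := GoodRed.exists_rep r1 t1 hc hc0
  have h1 := (mem_O_iff_of_rep r1 t1 hp hq hcpq).1 h
  rw [hcpq, map_mul, map_div₀, div_eq_mul_inv, ← ev_algebraMap, ← ev_algebraMap]
  refine mul_mem ?_ (mul_mem (hV.ev_mem p) (hV.inv_mem _ ((prim_iff_map R₁ q).2 hq)))
  rw [← IsScalarTower.algebraMap_apply K F L]
  exact (hV.mem_iff α).2 ⟨⟨α, h1⟩, rfl⟩

theorem OverGauss.nonunits_of_gauss {V : ValuationSubring L}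
    (hV : OverGauss K A (algebraMap F L x) V)
    (r1 : R₁.IsRed x x₁) (t1 : Transcendental k x₁) {c : F} (hc : c ∈ K⟮x⟯) (h : R₁.IsRed c 0) :
    algebraMap F L c ∈ V.nonunits := by
  rcases eq_or_ne c 0 with rfl | hc0
  · rw [map_zero, ValuationSubring.mem_nonunits_iff_or]; left; rfl
  obtain ⟨α, hα, p, q, hp, hq, hcpq⟩ := GoodRed.exists_rep r1 t1 hc hc0
  have h1 := (mem_O_iff_of_rep r1 t1 hp hq hcpq).1 h.mem
  rw [hcpq, map_mul, map_div₀, div_eq_mul_inv, ← ev_algebraMap, ← ev_algebraMap]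
  refine nonunits_mul_mem ?_ (mul_mem (hV.ev_mem p) (hV.inv_mem _ ((prim_iff_map R₁ q).2 hq)))
  rw [← IsScalarTower.algebraMap_apply K F L]
  have h2 : (⟨α, h1⟩ : A) ∈ IsLocalRing.maximalIdeal A := by
    rw [IsLocalRing.mem_maximalIdeal, mem_nonunits_iff, ← R₁.pi_eq_zero_iff]
    have h3 := GoodRed.isRed_aeval r1 p
    have h4 := GoodRed.isRed_aeval r1 q
    have h5 := GoodRed.aeval_ne_zero t1 hp
    have h6 := GoodRed.aeval_ne_zero t1 hq
    have h7 := (R₁.isRed_algebraMap h1).mul (h3.div h4 h6)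
    rw [← hcpq] at h7
    have h8 := h7.unique h
    have h9 := (mul_eq_zero.1 h8).resolve_right (div_ne_zero h5 h6)
    exact (map_eq_zero _).1 h9
  exact (hV.nonunits_iff _).2 h2

/-- functions whose reductions on both components vanish are in all maximal ideals
over the Gauss valuation -/
theorem OverGauss.nonunits_of_isRed (T : TwoRed R₁ R₂ x x₁ x₂) {V : ValuationSubring L}
    (hV : OverGauss K A (algebraMap F L x) V) {f : F} (h1 : R₁.IsRed f 0) (h2 : R₂.IsRed f 0) :
    algebraMap F L f ∈ V.nonunits := by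
  classical
  obtain ⟨n₁, n₂, w, wb₁, wb₂, ho⟩ := T.exists_basis
  have hw1 : ∀ j, w j ∈ R₁.O := by
    rintro (j | j)
    · exact (ho.r11 j).mem
    · exact (ho.r21 j).mem
  have hw2 : ∀ j, w j ∈ R₂.O := by
    rintro (j | j)
    · exact (ho.r12 j).mem
    · exact (ho.r22 j).mem
  -- the basis elements are in `V`
  have hwV : ∀ j, algebraMap F L (w j) ∈ V := by
    intro j
    obtain ⟨p, hp, hpw⟩ := T.isIntegral_gaussRing (hw1 j) (hw2 j)
    let g : gaussRing R₁ x →+* V := ((algebraMap F L).comp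
      (algebraMap (gaussRing R₁ x) F)).codRestrict V.toSubring (fun c =>
        hV.mem_of_gauss T.r1 T.t1 c.1.2 c.2)
    have hint : IsIntegral V (algebraMap F L (w j)) := by
      refine ⟨p.map g, hp.map g, ?_⟩
      rw [Polynomial.eval₂_map]
      have : (algebraMap V L).comp g = (algebraMap F L).comp (algebraMap (gaussRing R₁ x) F) := rfl
      rw [this, ← Polynomial.hom_eval₂, hpw, map_zero]
    obtain ⟨y, hy⟩ := IsIntegrallyClosed.isIntegral_iff.1 hint
    rw [← hy]
    exact y.2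
  have hf := w.sum_repr f
  have hf' : ∑ i, algebraMap K⟮x⟯ F (w.repr f (Sum.inl i)) * w (Sum.inl i) +
      ∑ i, algebraMap K⟮x⟯ F (w.repr f (Sum.inr i)) * w (Sum.inr i) = f := by
    rw [← Fintype.sum_sum_type (f := fun i => algebraMap K⟮x⟯ F (w.repr f i) * w i)]
    conv_rhs => rw [← hf]
    exact Finset.sum_congr rfl fun i _ => (Algebra.smul_def _ _).symm
  have hmem := ho.mem_of_sum_mem (fun i => w.repr f (Sum.inl i)) (fun i => w.repr f (Sum.inr i))
    (by rw [hf']; exact h1.mem) (by rw [hf']; exact h2.mem)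
  have hzero := ho.coeff_eq_zero (fun i => ⟨w.repr f (Sum.inl i), hmem.1 i⟩)
    (fun i => ⟨w.repr f (Sum.inr i), hmem.2 i⟩) (by rw [hf']; exact h1) (by rw [hf']; exact h2)
  have hc : ∀ i, algebraMap F L (w.repr f i : K⟮x⟯) ∈ V.nonunits := by
    rintro (i | i)
    · refine hV.nonunits_of_gauss T.r1 T.t1 (w.repr f (Sum.inl i)).2 ?_
      have h3 := T.ext1.isRed_coe ⟨w.repr f (Sum.inl i), hmem.1 i⟩
      rw [hzero.1 i, map_zero] at h3
      exact h3
    · refine hV.nonunits_of_gauss T.r2 T.t2 (w.repr f (Sum.inr i)).2 ?_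
      have h3 := T.ext2.isRed_coe ⟨w.repr f (Sum.inr i), hmem.2 i⟩
      rw [hzero.2 i, map_zero] at h3
      exact h3
  rw [← hf, map_sum]
  refine sum_mem fun i _ => ?_
  rw [Algebra.smul_def, map_mul]
  exact nonunits_mul_mem (hc i) (hwV i)

/-- existence of valuation rings over the Gauss valuation -/
theorem exists_overGauss₂ (r1 : R₁.IsRed x x₁) (t1 : Transcendental k x₁) :
    ∃ V : ValuationSubring L, OverGauss K A (algebraMap F L x) V := by
  obtain ⟨V, h, hl⟩ := IsLocalRing.exists_factor_valuationRing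
    ((algebraMap F L).comp R₁.O.subtype)
  have hmem : ∀ f ∈ R₁.O, algebraMap F L f ∈ V := fun f hf => h ⟨f, hf⟩
  refine ⟨V, overGauss_of ?_ ?_ ?_ ?_⟩
  · intro a
    have h1 := hmem _ ((R₁.algebraMap_mem_iff (a : K)).2 a.2)
    rwa [← IsScalarTower.algebraMap_apply K F L] at h1
  · intro a ha
    rw [IsLocalRing.mem_maximalIdeal, mem_nonunits_iff, ← R₁.pi_eq_zero_iff] at ha
    have h1 := R₁.isRed_coe a
    rw [ha, map_zero] at h1
    rw [ValuationSubring.mem_nonunits_iff_or]
    by_cases ha0 : (a : K) = 0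
    · left
      change algebraMap K L (a : K) = 0
      rw [ha0, map_zero]
    right
    intro h2
    have h3 : IsUnit ((((algebraMap F L).comp R₁.O.subtype).codRestrict V.toSubring h)
        ⟨_, h1.mem⟩) := by
      refine isUnit_iff_exists_inv.2 ⟨⟨_, h2⟩, ?_⟩
      apply Subtype.ext
      change algebraMap F L (algebraMap K F a) * (algebraMap K L (a : K))⁻¹ = 1
      rw [← IsScalarTower.algebraMap_apply K F L, mul_inv_cancel₀]
      rw [ne_eq, map_eq_zero]
      exact ha0
    have h4 := hl.map_nonunit _ h3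
    obtain ⟨h5, h6⟩ := h1
    exact (R₁.red_eq_zero_iff _).1 h6 h4
  · exact hmem _ r1.mem
  · intro u hu
    rw [ev_algebraMap, ← map_inv₀]
    apply hmem
    have h3 := GoodRed.isRed_aeval r1 u
    exact (h3.inv (GoodRed.aeval_ne_zero t1 ((prim_iff_map R₁ u).1 hu))).mem

end Over

section Kummer

theorem isGen_gen {x : F} (hx : Transcendental K x) :
    IsGen K (AdjoinSimple.gen K x : K⟮x⟯) where
  trans := by
    intro h
    apply hx
    have := h.algHom (IntermediateField.val K⟮x⟯)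
    simpa using this
  gen z := by
    obtain ⟨p, r, hz⟩ := GoodRed.mem_adjoin_iff_div.1 z.2
    rcases eq_or_ne r 0 with rfl | hr
    · refine ⟨0, 1, one_ne_zero, ?_⟩
      apply Subtype.ext
      rw [hz]
      simp
    · refine ⟨p, r, hr, ?_⟩
      apply Subtype.ext
      rw [hz]
      change _ = ((Polynomial.aeval (AdjoinSimple.gen K x) p /
        Polynomial.aeval (AdjoinSimple.gen K x) r : K⟮x⟯) : F)
      rw [IntermediateField.coe_div]
      congr 1
      · rw [← IntermediateField.aeval_coe]; rfl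
      · rw [← IntermediateField.aeval_coe]; rfl

variable [IsAlgClosed K] [CharZero K] [IsAlgClosed k] [IsFnField K F] [IsFnField k κ₁]
  [IsFnField k κ₂]

theorem exists_const_of_isIntegral {L : Type*} [Field L] [Algebra K L] (a : L)
    (ha : IsIntegral K a) : ∃ c : K, algebraMap K L c = a := by
  have h1 := IsAlgClosed.degree_eq_one_of_irreducible K (minpoly.irreducible ha)
  obtain ⟨c, hc⟩ := minpoly.mem_range_of_degree_eq_one K a h1
  exact ⟨c, hc⟩

theorem exists_monic_IC {E L : Type*} [Field L] [Algebra F L] [Algebra K L] [IsScalarTower K F L]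
    [Field E] [Algebra K E] [Algebra E L] [IsScalarTower K E L]
    (T : TwoRed R₁ R₂ x x₁ x₂) {f : F} (h1 : f ∈ R₁.O) (h2 : f ∈ R₂.O) (hf : f ∈ regAlg K x)
    {t : E} (ht : algebraMap E L t = algebraMap F L x) {n : ℕ} (hn : n ≠ 0) {w : L}
    (hw : w ^ n = algebraMap F L f) :
    w ∈ IC K L A t := by
  haveI := T.fd
  obtain ⟨g, hg, hgf⟩ := T.exists_monic h1 h2 (isIntegral_of_mem_regAlg hf)
  change ((algebraMap E L).comp (ev K A t)).IsIntegralElem w
  letI : Algebra (Polynomial A) L := ((algebraMap E L).comp (ev K A t)).toAlgebra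
  have h3 : IsIntegral (Polynomial A) (w ^ n) := by
    refine ⟨g, hg, ?_⟩
    have h4 : algebraMap (Polynomial A) L = (algebraMap F L).comp (theta A x) := by
      apply RingHom.ext
      intro p
      change algebraMap E L (ev K A t p) = algebraMap F L (theta A x p)
      rw [theta_apply, algebraMap_ev, ht, ev_algebraMap]
    rw [h4, hw, ← Polynomial.hom_eval₂, hgf, map_zero]
  exact h3.of_pow (Nat.pos_of_ne_zero hn)

theorem nonunits_comap {L : Type*} [Field L] (V : ValuationSubring L) (σ : L →+* L) (a : L) :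
    a ∈ (V.comap σ).nonunits ↔ σ a ∈ V.nonunits := by
  rw [ValuationSubring.mem_nonunits_iff_or, ValuationSubring.mem_nonunits_iff_or,
    ValuationSubring.mem_comap, map_inv₀, map_eq_zero]

theorem OverGauss.comapSelf {L : Type*} [Field L] [Algebra F L] [Algebra K L] [IsScalarTower K F L]
    {V : ValuationSubring L} (hV : OverGauss K A (algebraMap F L x) V) (σ : L →ₐ[F] L) :
    OverGauss K A (algebraMap F L x) (V.comap (σ : L →+* L)) where
  mem_iff a := by
    rw [ValuationSubring.mem_comap, ← hV.mem_iff, IsScalarTower.algebraMap_apply K F L]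
    change σ _ ∈ V ↔ _
    rw [σ.commutes]
  mem := by
    rw [ValuationSubring.mem_comap]
    change σ _ ∈ V
    rw [σ.commutes]
    exact hV.mem
  inv_mem u hu := by
    rw [ValuationSubring.mem_comap]
    change σ _ ∈ V
    rw [map_inv₀, ev_algebraMap, σ.commutes, ← ev_algebraMap]
    exact hV.inv_mem u hu

theorem one_sub_unit (R₁ : ConstRed A π F κ₁) {n : ℕ} (hn : (n : k) ≠ 0) {η : K}
    (hη : η ^ n = 1) (hη1 : η ≠ 1) :
    η ∈ A ∧ ∀ h : 1 - η ∈ A, IsUnit (⟨1 - η, h⟩ : A) := by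
  have hn0 : n ≠ 0 := by rintro rfl; simp at hn
  have hmem : η ∈ A := by
    rcases A.mem_or_inv_mem η with h | h
    · exact h
    · have e : η = (η⁻¹) ^ (n - 1) := by
        have h0 : η ≠ 0 := by rintro rfl; rw [zero_pow hn0] at hη; exact zero_ne_one hη
        rw [inv_pow]
        apply eq_inv_of_mul_eq_one_left
        rw [← pow_succ', Nat.sub_add_cancel (Nat.pos_of_ne_zero hn0), hη]
      rw [e]; exact pow_mem h _
  refine ⟨hmem, fun h => ?_⟩
  by_contra hu
  rw [← R₁.pi_eq_zero_iff] at hu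
  have h1 : π ⟨η, hmem⟩ = 1 := by
    have h2 : (⟨1 - η, h⟩ : A) = 1 - ⟨η, hmem⟩ := rfl
    rw [h2, map_sub, map_one, sub_eq_zero] at hu
    exact hu.symm
  have h3 : (∑ i ∈ Finset.range n, η ^ i) = 0 := by
    have h4 := mul_geom_sum η n
    rw [hη, sub_self] at h4
    exact (mul_eq_zero.1 h4).resolve_left (sub_ne_zero.2 hη1)
  have h5 : (∑ i ∈ Finset.range n, (⟨η, hmem⟩ : A) ^ i) = 0 := by
    apply Subtype.ext
    push_cast
    exact h3
  have h6 := congrArg π h5
  rw [map_sum, map_zero] at h6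
  simp only [map_pow, h1, one_pow, Finset.sum_const, Finset.card_range, nsmul_eq_mul,
    mul_one] at h6
  exact hn h6

/-- **Kummer theory with two components.** -/
theorem kummer_aux {L : Type*} [Field L] [Algebra F L] [Algebra K L] [IsScalarTower K F L]
    [FiniteDimensional F L] [IsGalois F L]
    (T : TwoRed R₁ R₂ x x₁ x₂) (hA : IsArch A) (hA' : ∃ c : A, ¬ IsUnit c ∧ c ≠ 0)
    {n : ℕ} (hn : (n : k) ≠ 0) {y u u' : F} (hy : y ≠ 0)
    (h1 : R₁.IsRed (u ^ n * y) 1) (h2 : R₂.IsRed (u ^ n * y) 1)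
    (h1' : R₁.IsRed (u' ^ n * y) 1) (h2' : R₂.IsRed (u' ^ n * y) 1)
    (h1'' : R₁.IsRed (u' / u) 1) (h2'' : R₂.IsRed (u' / u) 1)
    (hu : u ^ n * y ∈ regAlg K x) (hu' : u' ^ n * y ∈ regAlg K x⁻¹) {z : L}
    (hz : z ^ n = algebraMap F L y) : ∃ f : F, algebraMap F L f = z := by
  classical
  have hn0 : n ≠ 0 := by rintro rfl; simp at hn
  haveI := T.fd
  haveI : FiniteDimensional K⟮x⟯ L := FiniteDimensional.trans K⟮x⟯ F L
  haveI : CharZero K⟮x⟯ := charZero_of_injective_algebraMap (algebraMap K K⟮x⟯).injective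
  haveI : IsScalarTower K K⟮x⟯ L := IsScalarTower.of_algebraMap_eq fun a => by
    rw [IsScalarTower.algebraMap_apply K F L]; rfl
  have hu0 : u ≠ 0 := by
    rintro rfl
    rw [zero_pow hn0, zero_mul] at h1
    exact zero_ne_one (R₁.isRed_zero.unique h1)
  have hz0 : z ≠ 0 := by
    rintro rfl
    rw [zero_pow hn0] at hz
    exact hy ((map_eq_zero _).1 hz.symm)
  obtain ⟨ϖ, hϖ, hϖ0⟩ := hA'
  set t : K⟮x⟯ := AdjoinSimple.gen K x with ht
  have htx : algebraMap K⟮x⟯ L t = algebraMap F L x := rfl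
  have htc : (t : F) = x := rfl
  set e : L := algebraMap F L u * z with he
  set e' : L := algebraMap F L u' * z with he'
  have hen : e ^ n = algebraMap F L (u ^ n * y) := by
    rw [he, mul_pow, hz, map_mul, map_pow]
  have hen' : e' ^ n = algebraMap F L (u' ^ n * y) := by
    rw [he', mul_pow, hz, map_mul, map_pow]
  -- the residue of `e`
  set c : ValuationSubring L → Set K := fun V =>
    {ζ | ζ ^ n = 1 ∧ e - algebraMap K L ζ ∈ V.nonunits} with hc
  have hzeta : ∀ ζ : K, ζ ^ n = 1 → ζ ∈ A := by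
    intro ζ hζ
    rcases eq_or_ne ζ 1 with rfl | h
    · exact one_mem _
    · exact (one_sub_unit R₁ hn hζ h).1
  have hzeta0 : ∀ ζ : K, ζ ^ n = 1 → ζ ≠ 0 := by
    rintro ζ hζ rfl; rw [zero_pow hn0] at hζ; exact zero_ne_one hζ
  -- differences of distinct roots of unity are units
  have hdiff : ∀ ζ ζ' : K, ζ ^ n = 1 → ζ' ^ n = 1 → ζ ≠ ζ' → (ζ - ζ')⁻¹ ∈ A := by
    intro ζ ζ' hζ hζ' hne
    have h3 : (ζ' / ζ) ^ n = 1 := by rw [div_pow, hζ, hζ', div_one]
    have h4 : ζ' / ζ ≠ 1 := by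
      intro h5
      rw [div_eq_one_iff_eq (hzeta0 ζ hζ)] at h5
      exact hne h5.symm
    obtain ⟨h5, h6⟩ := one_sub_unit R₁ hn h3 h4
    have h7 : 1 - ζ' / ζ ∈ A := sub_mem (one_mem _) h5
    have h8 := h6 h7
    obtain ⟨b, hb⟩ := h8.exists_right_inv
    have h9 : (1 - ζ' / ζ) * (b : K) = 1 := congrArg Subtype.val hb
    have h10 : (ζ - ζ')⁻¹ = ζ⁻¹ * b := by
      have e1 : ζ - ζ' = ζ * (1 - ζ' / ζ) := by
        field_simp [hzeta0 ζ hζ]
      rw [e1, mul_inv, ← eq_inv_of_mul_eq_one_right h9]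
    rw [h10]
    refine mul_mem (hzeta _ ?_) b.2
    rw [inv_pow, hζ, inv_one]
  -- existence and uniqueness of the residue
  have hex : ∀ V : ValuationSubring L, OverGauss K A (algebraMap F L x) V → ∃ ζ, ζ ∈ c V := by
    intro V hV
    have h3 : e ^ n - 1 ∈ V.nonunits := by
      have h4 : R₁.IsRed (u ^ n * y - 1) 0 := by simpa using h1.sub R₁.isRed_one
      have h5 : R₂.IsRed (u ^ n * y - 1) 0 := by simpa using h2.sub R₂.isRed_one
      have h6 := hV.nonunits_of_isRed T h4 h5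
      rwa [map_sub, map_one, ← hen] at h6
    have h4 : e ^ n - 1 = ∏ ζ ∈ Polynomial.nthRootsFinset n (1 : K), (e - algebraMap K L ζ) := by
      haveI : NeZero (n : K) := ⟨by exact_mod_cast hn0⟩
      obtain ⟨ζ, hζ⟩ : ∃ ζ : K, IsPrimitiveRoot ζ n := HasEnoughRootsOfUnity.exists_primitiveRoot K n
      have h5 := Polynomial.X_pow_sub_one_eq_prod (Nat.pos_of_ne_zero hn0) hζ
      have h6 := congrArg (Polynomial.aeval e) h5
      rw [map_sub, map_pow, Polynomial.aeval_X, map_one, map_prod] at h6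
      rw [h6]
      refine Finset.prod_congr rfl fun a _ => ?_
      rw [map_sub, Polynomial.aeval_X, Polynomial.aeval_C]
    by_contra hcon
    push Not at hcon
    have h5 : ∀ s : Finset K, (∀ ζ ∈ s, e - algebraMap K L ζ ∉ V.nonunits) →
        ∏ ζ ∈ s, (e - algebraMap K L ζ) ∉ V.nonunits := by
      intro s hs
      refine Finset.prod_induction (fun ζ => e - algebraMap K L ζ) (fun a => a ∉ V.nonunits)
        ?_ ?_ hs
      · intro a b ha hb
        rw [ValuationSubring.mem_nonunits_iff, not_lt] at ha hb ⊢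
        rw [map_mul]
        exact one_le_mul ha hb
      · rw [ValuationSubring.mem_nonunits_iff, map_one]; exact lt_irrefl _
    refine h5 _ (fun ζ hζ h6 => hcon ζ ⟨?_, h6⟩) (h4 ▸ h3)
    exact (Polynomial.mem_nthRootsFinset (Nat.pos_of_ne_zero hn0) _).1 hζ
  have huniq : ∀ V : ValuationSubring L, OverGauss K A (algebraMap F L x) V → ∀ ζ ζ',
      ζ ∈ c V → ζ' ∈ c V → ζ = ζ' := by
    intro V hV ζ ζ' hζ hζ'
    by_contra hne
    have h3 := hdiff ζ ζ' hζ.1 hζ'.1 hne
    have h4 : algebraMap K L (ζ - ζ') ∈ V.nonunits := by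
      have := sub_mem hζ'.2 hζ.2
      rwa [sub_sub_sub_cancel_left, ← map_sub] at this
    rw [ValuationSubring.mem_nonunits_iff_or] at h4
    rcases h4 with h4 | h4
    · rw [map_eq_zero, sub_eq_zero] at h4; exact hne h4
    · rw [← map_inv₀] at h4
      exact h4 ((hV.mem_iff _).2 ⟨⟨_, h3⟩, rfl⟩)
  have hsub : ∀ V V' : ValuationSubring L, OverGauss K A (algebraMap F L x) V →
      OverGauss K A (algebraMap F L x) V' → (∀ ζ ζ', ζ ∈ c V → ζ' ∈ c V' → ζ = ζ') →
      c V = c V' := by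
    intro V V' hV hV' h
    obtain ⟨ζ, hζ⟩ := hex V hV
    obtain ⟨ζ', hζ'⟩ := hex V' hV'
    ext a
    constructor
    · intro ha; rw [h a ζ' ha hζ']; exact hζ'
    · intro ha; rw [← h ζ a hζ ha]; exact hζ
  -- elements of a maximal ideal
  have hmax : ∀ (s : K⟮x⟯) (P : Ideal (IC K L A s)), P.IsMaximal → ∀ (a : L) (ha : a ∈ IC K L A s)
      (ζ ζ' : K), ζ ^ n = 1 → ζ' ^ n = 1 →
      (∀ h, (⟨a - algebraMap K L ζ, h⟩ : IC K L A s) ∈ P) →
      (∀ h, (⟨a - algebraMap K L ζ', h⟩ : IC K L A s) ∈ P) → ζ = ζ' := by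
    intro s P hP a ha ζ ζ' hζ hζ' h3 h4
    by_contra hne
    have hAmem : ∀ a ∈ A, algebraMap K L a ∈ IC K L A s := by
      intro a ha
      refine ⟨Polynomial.X - Polynomial.C (Polynomial.C ⟨a, ha⟩), Polynomial.monic_X_sub_C _, ?_⟩
      rw [Polynomial.eval₂_sub, Polynomial.eval₂_X, Polynomial.eval₂_C, RingHom.comp_apply, ev_C,
        ← IsScalarTower.algebraMap_apply K K⟮x⟯ L]
      exact sub_self _
    have h5 : a - algebraMap K L ζ ∈ IC K L A s := sub_mem ha (hAmem _ (hzeta _ hζ))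
    have h6 : a - algebraMap K L ζ' ∈ IC K L A s := sub_mem ha (hAmem _ (hzeta _ hζ'))
    have h7 := P.sub_mem (h4 h6) (h3 h5)
    have h8 := P.mul_mem_left (⟨algebraMap K L (ζ - ζ')⁻¹, hAmem _ (hdiff ζ ζ' hζ hζ' hne)⟩ :
      IC K L A s) h7
    have h9 : (⟨algebraMap K L (ζ - ζ')⁻¹, hAmem _ (hdiff ζ ζ' hζ hζ' hne)⟩ : IC K L A s) *
        (⟨a - algebraMap K L ζ', h6⟩ - ⟨a - algebraMap K L ζ, h5⟩) = 1 := by
      apply Subtype.ext
      change algebraMap K L (ζ - ζ')⁻¹ * ((a - algebraMap K L ζ') - (a - algebraMap K L ζ)) = 1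
      rw [sub_sub_sub_cancel_left, ← map_sub, ← map_mul, inv_mul_cancel₀ (sub_ne_zero.2 hne),
        map_one]
    rw [h9] at h8
    exact hP.ne_top ((Ideal.eq_top_iff_one _).2 h8)
  have hcV : ∀ V V', OverGauss K A (algebraMap K⟮x⟯ L t) V →
      OverGauss K A (algebraMap K⟮x⟯ L t) V' → c V = c V' := by
    intro V V' hV hV'
    refine connected (isGen_gen (transcendental_of_isRed T.r1 T.t1))
      exists_const_of_isIntegral (hA.isRankOne hϖ hϖ0) c ?_ ?_ V V' hV hV'
    · intro V V' hV hV' P hP hPV hPV'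
      rw [htx] at hV hV'
      refine hsub V V' hV hV' fun ζ ζ' hζ hζ' => ?_
      exact hmax t P hP e (exists_monic_IC T h1.mem h2.mem hu htx hn0 hen) ζ ζ' hζ.1 hζ'.1
        (fun h => hPV _ hζ.2) (fun h => hPV' _ hζ'.2)
    · intro V V' hV hV' P hP hPV hPV'
      rw [htx] at hV hV'
      refine hsub V V' hV hV' fun ζ ζ' hζ hζ' => ?_
      have h3 : ∀ V : ValuationSubring L, OverGauss K A (algebraMap F L x) V → ∀ ζ, ζ ∈ c V →
          e' - algebraMap K L ζ ∈ V.nonunits := by
        intro V hV ζ hζ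
        have h4 : e' - algebraMap K L ζ = (algebraMap F L (u' / u - 1)) * e +
            (e - algebraMap K L ζ) := by
          rw [he', he, map_sub, map_one, map_div₀]
          have : algebraMap F L u ≠ 0 := by simpa using hu0
          field_simp
          ring
        have h5 : R₁.IsRed (u' / u - 1) 0 := by simpa using h1''.sub R₁.isRed_one
        have h6 : R₂.IsRed (u' / u - 1) 0 := by simpa using h2''.sub R₂.isRed_one
        have h7 : e ∈ V := by
          have h8 := V.nonunits_subset hζ.2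
          have h9 : algebraMap K L ζ ∈ V := (hV.mem_iff _).2 ⟨⟨_, hzeta _ hζ.1⟩, rfl⟩
          have := add_mem h8 h9
          rwa [sub_add_cancel] at this
        rw [h4]
        exact add_mem (nonunits_mul_mem (hV.nonunits_of_isRed T h5 h6) h7) hζ.2
      have h5 : e' ∈ IC K L A t⁻¹ :=
        exists_monic_IC T.inv h1'.mem h2'.mem hu' (by rw [map_inv₀, map_inv₀]; rfl) hn0 hen'
      exact hmax t⁻¹ P hP e' h5 ζ ζ' hζ.1 hζ'.1
        (fun h => hPV _ (h3 V hV ζ hζ)) (fun h => hPV' _ (h3 V' hV' ζ' hζ'))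
  -- the Galois action
  change z ∈ Set.range (algebraMap F L)
  rw [← IntermediateField.mem_bot, IsGalois.mem_bot_iff_fixed]
  intro σ
  have h3 : (σ z / z) ^ n = 1 := by
    rw [div_pow, ← map_pow, hz, σ.commutes, div_self]
    simpa using hy
  obtain ⟨η, hη⟩ := exists_const_of_isIntegral (K := K) (σ z / z) (by
    refine ⟨Polynomial.X ^ n - 1, Polynomial.monic_X_pow_sub_C _ hn0, ?_⟩
    simp [h3])
  have hη1 : η ^ n = 1 := by
    apply (algebraMap K L).injective
    rw [map_pow, hη, h3, map_one]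
  have hσz : σ z = algebraMap K L η * z := by rw [hη, div_mul_cancel₀ _ hz0]
  obtain ⟨V, hV⟩ := exists_overGauss₂ (L := L) T.r1 T.t1
  have hV' := hV.comapSelf (σ : L →ₐ[F] L)
  obtain ⟨ζ, hζ⟩ := hex _ hV'
  have h4 : η⁻¹ * ζ ∈ c V := by
    refine ⟨by rw [mul_pow, inv_pow, hη1, hζ.1, inv_one, one_mul], ?_⟩
    have h5 := (nonunits_comap V _ _).1 hζ.2
    have h6 : ((σ : L →ₐ[F] L) : L →+* L) (e - algebraMap K L ζ) =
        algebraMap K L η * e - algebraMap K L ζ := by
      change σ _ = _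
      rw [map_sub, he, map_mul, σ.commutes, hσz, IsScalarTower.algebraMap_apply K F L ζ,
        σ.commutes]
      ring
    rw [h6] at h5
    have hηi : (η⁻¹) ^ n = 1 := by rw [inv_pow, hη1, inv_one]
    have h7 : algebraMap K L η⁻¹ ∈ V := (hV.mem_iff _).2 ⟨⟨_, hzeta _ hηi⟩, rfl⟩
    have h8 := nonunits_mul_mem h5 h7
    convert h8 using 1
    rw [sub_mul, mul_right_comm, ← map_mul, mul_inv_cancel₀ (hzeta0 _ hη1), map_one, one_mul,
      ← map_mul, mul_comm η⁻¹ ζ]
  rw [hcV V _ hV hV'] at h4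
  have h5 := huniq _ hV' _ _ h4 hζ
  have h6 : η = 1 := by
    have := hzeta0 _ hζ.1
    have h7 : η⁻¹ = 1 := by
      apply mul_right_cancel₀ this
      rw [h5, one_mul]
    rw [← inv_inv η, h7, inv_one]
  rw [hσz, h6, map_one, one_mul]

/-- **Kummer theory with two components.** -/
theorem TwoRed.kummer
    (T : TwoRed R₁ R₂ x x₁ x₂) (hA : IsArch A) (hA' : ∃ c : A, ¬ IsUnit c ∧ c ≠ 0)
    {n : ℕ} (hn : (n : k) ≠ 0) {y u u' : F} (hy : y ≠ 0)
    (h1 : R₁.IsRed (u ^ n * y) 1) (h2 : R₂.IsRed (u ^ n * y) 1)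
    (h1' : R₁.IsRed (u' ^ n * y) 1) (h2' : R₂.IsRed (u' ^ n * y) 1)
    (h1'' : R₁.IsRed (u' / u) 1) (h2'' : R₂.IsRed (u' / u) 1)
    (hu : u ^ n * y ∈ regAlg K x) (hu' : u' ^ n * y ∈ regAlg K x⁻¹) :
    ∃ f : F, f ^ n = y := by
  have hn0 : n ≠ 0 := by rintro rfl; simp at hn
  haveI : CharZero F := charZero_of_injective_algebraMap (algebraMap K F).injective
  set P : Polynomial F := Polynomial.X ^ n - Polynomial.C y with hP
  have hsep : P.Separable := Polynomial.separable_X_pow_sub_C y (by exact_mod_cast hn0) hy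
  haveI : IsGalois F P.SplittingField := IsGalois.of_separable_splitting_field hsep
  obtain ⟨z, hz⟩ := Polynomial.Splits.exists_eval_eq_zero
    (Polynomial.SplittingField.splits P) (by
      rw [Polynomial.degree_map, hP, Polynomial.degree_X_pow_sub_C (Nat.pos_of_ne_zero hn0)]
      exact_mod_cast hn0)
  have hz' : z ^ n = algebraMap F P.SplittingField y := by
    have h3 : ∀ Q : Polynomial F, Q = P → Polynomial.eval₂ (algebraMap F P.SplittingField) z Q =
        0 := by
      rintro Q rfl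
      rw [Polynomial.eval_map] at hz
      exact hz
    have h4 := h3 _ hP.symm
    rw [Polynomial.eval₂_sub, Polynomial.eval₂_X_pow, Polynomial.eval₂_C, sub_eq_zero] at h4
    exact h4
  obtain ⟨f, hf⟩ := kummer_aux (L := P.SplittingField) T hA hA' hn hy h1 h2 h1' h2' h1'' h2''
    hu hu' hz'
  refine ⟨f, (algebraMap F P.SplittingField).injective ?_⟩
  rw [map_pow, hf, hz']

end Kummer

end Fermat.Agent.QComp
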