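import Fermat.Agent.QComp.TwoNodes
import Fermat.Agent.QComp.TwoKummer

/-!
# Divisor classes of finite order on a curve whose reduction has two components
-/

set_option autoImplicit false
set_option linter.unusedSectionVars false
set_option linter.style.haveILetI false

open AlgebraicCurve IntermediateField Module

namespace Fermat.Agent.QComp

open Fermat.Agent.FF Fermat.Agent.Red

section Lm

variable {K F : Type*} [Field K] [Field F] [Algebra K F] [IsAlgClosed K] [IsFnField K F]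

theorem one_mem_Lm (x : F) (m : ℕ) : (1 : F) ∈ riemannRochSpace (m • RR.poleDiv (K := K) x) := by
  rw [mem_Lm]
  intro P
  right
  rw [P.ord_one, zero_add]
  have h2 : (0 : ℤ) ≤ max 0 (-P.ord x) := le_max_left _ _
  positivity

theorem mul_mem_Lm {x : F} {m m' : ℕ} {f g : F}
    (hf : f ∈ riemannRochSpace (m • RR.poleDiv (K := K) x))
    (hg : g ∈ riemannRochSpace (m' • RR.poleDiv (K := K) x)) :
    f * g ∈ riemannRochSpace ((m + m') • RR.poleDiv (K := K) x) := by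
  rw [add_smul]
  exact RR.mul_mem_riemannRochSpace hf hg

theorem pow_mem_Lm {x : F} {m : ℕ} {f : F}
    (hf : f ∈ riemannRochSpace (m • RR.poleDiv (K := K) x)) (n : ℕ) :
    f ^ n ∈ riemannRochSpace ((n * m) • RR.poleDiv (K := K) x) := by
  rw [mul_smul]
  exact RR.pow_mem_riemannRochSpace hf n

theorem self_pow_mem_Lm (x : F) (m : ℕ) :
    x ^ m ∈ riemannRochSpace (m • RR.poleDiv (K := K) x) := by
  have := pow_mem_Lm (self_mem_Lm (K := K) x) m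
  rwa [mul_one] at this

end Lm

variable {K k : Type*} [Field K] [Field k] {A : ValuationSubring K} {π : A →+* k}
  {F κ₁ κ₂ : Type*} [Field F] [Algebra K F] [Field κ₁] [Algebra k κ₁] [Field κ₂] [Algebra k κ₂]
  {R₁ : ConstRed A π F κ₁} {R₂ : ConstRed A π F κ₂} {x : F} {x₁ : κ₁} {x₂ : κ₂}

variable [IsAlgClosed K] [CharZero K] [IsAlgClosed k] [IsFnField K F] [IsFnField k κ₁]
  [IsFnField k κ₂] {S : Type*} [Fintype S] {n : ℕ} {y : F} {D : Divisor K F} {c₁ c₂ : K}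
  {a₁ : κ₁} {a₂ : κ₂} {hπ : Function.Surjective π}

theorem W1.isPow (w : W1 R₁ R₂ n y D c₁ c₂ a₁ a₂) (T : TwoRed R₁ R₂ x x₁ x₂) (hA : IsArch A)
    (hA' : ∃ c : A, ¬ IsUnit c ∧ c ≠ 0) (hn : (n : k) ≠ 0)
    (N : Nodes R₁ R₂ x x₁ x₂ S) {m' : ℕ} {p : PairL k x₁ x₂ m'}
    (hp : p ∈ esp R₁ R₂ hπ x x₁ x₂ D c₁ c₂ a₁ a₂ m')
    (hp1 : ∀ s, N.e₁ s (inclReg k x₁ m' p.1) = N.e₂ s (inclReg k x₂ m' p.2))
    (hp2 : ∀ s, N.e₂ s (inclReg k x₂ m' p.2) ≠ 0) : ∃ f : F, f ^ n = y := by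
  classical
  obtain ⟨m₀, hm₀⟩ := w.exists_tw T hA N hπ
  obtain ⟨t, ht0, ht⟩ := hm₀ (m₀ + m') (by omega)
  set m := m₀ + m' with hm
  have hle : m' ≤ m := by omega
  have ht1 : ∀ s, t s = 1 := by
    intro s
    obtain ⟨u, hu, h1, h2⟩ := hp
    have h3 : ((⟨p.1, Lm_mono hle p.1.2⟩, ⟨p.2, Lm_mono hle p.2.2⟩) : PairL k x₁ x₂ m) ∈
        esp R₁ R₂ hπ x x₁ x₂ D c₁ c₂ a₁ a₂ m := by
      refine ⟨u, ?_, h1, h2⟩
      rw [w.mem_iff] at hu ⊢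
      exact Lm_mono (Nat.mul_le_mul_left n hle) hu
    rw [ht, LinearMap.mem_ker] at h3
    have h4 := congrFun h3 s
    rw [N.tw_apply, Pi.zero_apply] at h4
    have h5 : N.e₁ s (inclReg k x₁ m' p.1) - t s * N.e₂ s (inclReg k x₂ m' p.2) = 0 := h4
    rw [hp1 s] at h5
    have h6 : (1 - t s) * N.e₂ s (inclReg k x₂ m' p.2) = 0 := by rw [sub_mul, one_mul]; exact h5
    have h7 := (mul_eq_zero.1 h6).resolve_right (hp2 s)
    exact (sub_eq_zero.1 h7).symm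
  -- the pair (1, 1)
  have hq1 : ((⟨1, one_mem_Lm x₁ m⟩, ⟨1, one_mem_Lm x₂ m⟩) : PairL k x₁ x₂ m) ∈
      esp R₁ R₂ hπ x x₁ x₂ D c₁ c₂ a₁ a₂ m := by
    rw [ht, LinearMap.mem_ker]
    funext s
    rw [N.tw_apply, ht1, one_mul]
    have e1 : inclReg k x₁ m ⟨1, one_mem_Lm x₁ m⟩ = 1 := rfl
    have e2 : inclReg k x₂ m ⟨1, one_mem_Lm x₂ m⟩ = 1 := rfl
    change N.e₁ s (inclReg k x₁ m ⟨1, one_mem_Lm x₁ m⟩) -
      N.e₂ s (inclReg k x₂ m ⟨1, one_mem_Lm x₂ m⟩) = 0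
    rw [e1, e2, map_one, map_one, sub_self]
  have hq2 : ((⟨x₁ ^ m, self_pow_mem_Lm x₁ m⟩, ⟨x₂ ^ m, self_pow_mem_Lm x₂ m⟩) :
      PairL k x₁ x₂ m) ∈ esp R₁ R₂ hπ x x₁ x₂ D c₁ c₂ a₁ a₂ m := by
    rw [ht, LinearMap.mem_ker]
    funext s
    rw [N.tw_apply, ht1, one_mul, Pi.zero_apply, sub_eq_zero]
    exact N.glue (x ^ m) (pow_mem (self_mem_regAlg x) m) _ _ (T.r1.pow m) (T.r2.pow m) s
  obtain ⟨u, hu, h1, h2⟩ := hq1
  obtain ⟨v, hv, h3, h4⟩ := hq2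
  have hu' := w.mem_iff.1 hu
  have hv' := w.mem_iff.1 hv
  have g1 := w.red1_iff h1
  have g2 := w.red2_iff h2
  have g3 := w.red1_iff h3
  have g4 := w.red2_iff h4
  have hx := T.ne
  have hx1 := T.ne1
  have hx2 := T.ne2
  have e1 : algebraMap K F c₁⁻¹ ≠ 0 := by simpa using w.c1
  have e2 : algebraMap K F c₂⁻¹ ≠ 0 := by simpa using w.c2
  have i1 : R₁.IsRed ((x⁻¹) ^ m) ((x₁⁻¹) ^ m) := (T.r1.inv hx1).pow m
  have i2 : R₂.IsRed ((x⁻¹) ^ m) ((x₂⁻¹) ^ m) := (T.r2.inv hx2).pow m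
  refine T.kummer hA hA' hn (y := y) (u := u) (u' := (x⁻¹) ^ m * v) w.ne ?_ ?_ ?_ ?_ ?_ ?_ ?_ ?_
  · simpa [pairIncl] using g1
  · simpa [pairIncl] using g2
  · have h5 := (i1.pow n).mul g3
    convert h5 using 1
    · ring
    · change (1 : κ₁) = (x₁⁻¹ ^ m) ^ n * (x₁ ^ m) ^ n
      rw [← mul_pow, ← mul_pow, inv_mul_cancel₀ hx1, one_pow, one_pow]
  · have h5 := (i2.pow n).mul g4
    convert h5 using 1
    · ring
    · change (1 : κ₂) = (x₂⁻¹ ^ m) ^ n * (x₂ ^ m) ^ n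
      rw [← mul_pow, ← mul_pow, inv_mul_cancel₀ hx2, one_pow, one_pow]
  · have h5 := (i1.mul h3).div h1 (by
      change (1 : κ₁) / a₁ ≠ 0
      exact div_ne_zero one_ne_zero w.a1)
    convert h5 using 1
    · rw [mul_left_comm, mul_div_mul_left _ _ e1]
    · change (1 : κ₁) = x₁⁻¹ ^ m * (x₁ ^ m / a₁) / (1 / a₁)
      rw [inv_pow, ← mul_div_assoc, inv_mul_cancel₀ (pow_ne_zero m hx1),
        div_self (div_ne_zero one_ne_zero w.a1)]
  · have h5 := (i2.mul h4).div h2 (by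
      change (1 : κ₂) / a₂ ≠ 0
      exact div_ne_zero one_ne_zero w.a2)
    convert h5 using 1
    · rw [mul_left_comm, mul_div_mul_left _ _ e2]
    · change (1 : κ₂) = x₂⁻¹ ^ m * (x₂ ^ m / a₂) / (1 / a₂)
      rw [inv_pow, ← mul_div_assoc, inv_mul_cancel₀ (pow_ne_zero m hx2),
        div_self (div_ne_zero one_ne_zero w.a2)]
  · exact mem_regAlg_of_mem_Lm hu'
  · have h5 := ((mem_Lm_iff hx).1 hv').2
    convert h5 using 1
    ring

/-- the inverse of a function of type `W1` -/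
theorem W1.symm' (w : W1 R₁ R₂ n y D c₁ c₂ a₁ a₂) :
    W1 R₁ R₂ n y⁻¹ (-D) c₁⁻¹ c₂⁻¹ a₁⁻¹ a₂⁻¹ where
  n0 := w.n0
  deg := by rw [map_neg, w.deg, neg_zero]
  ne := inv_ne_zero w.ne
  div P := by rw [Finsupp.neg_apply, P.ord_inv, ← w.div P, mul_neg]
  c1 := inv_ne_zero w.c1
  c2 := inv_ne_zero w.c2
  a1 := inv_ne_zero w.a1
  a2 := inv_ne_zero w.a2
  red1 := by
    have h := w.red1.inv (pow_ne_zero n w.a1)
    rwa [mul_inv, ← inv_pow, ← inv_pow, ← map_inv₀] at h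
  red2 := by
    have h := w.red2.inv (pow_ne_zero n w.a2)
    rwa [mul_inv, ← inv_pow, ← inv_pow, ← map_inv₀] at h

/-- a semilinear endomorphism of `F` compatible with the two reductions, acting on the
branches of the nodes by `Q`-th powers -/
structure SemiEnd (N : Nodes R₁ R₂ x x₁ x₂ S) (Q : ℕ) (τ : F →+* F) (σ : K →+* K)
    (φ₁ : κ₁ →+* κ₁) (φ₂ : κ₂ →+* κ₂) : Prop where
  comm : ∀ c, τ (algebraMap K F c) = algebraMap K F (σ c)
  fix : τ x = x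
  red1 : ∀ f b, R₁.IsRed f b → R₁.IsRed (τ f) (φ₁ b)
  red2 : ∀ f b, R₂.IsRed f b → R₂.IsRed (τ f) (φ₂ b)
  reg2 : ∀ b ∈ regAlg k x₂, φ₂ b ∈ regAlg k x₂
  e2 : ∀ s (b b' : regAlg k x₂), (b' : κ₂) = φ₂ b → N.e₂ s b' = N.e₂ s b ^ Q

theorem isIntegral_semi {τ : F →+* F} {σ : K →+* K}
    (h : ∀ c, τ (algebraMap K F c) = algebraMap K F (σ c)) {x : F} (hx : τ x = x) {f : F}
    (hf : IsIntegral (Algebra.adjoin K {x}) f) : IsIntegral (Algebra.adjoin K {x}) (τ f) := by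
  have h1 : ∀ a ∈ Algebra.adjoin K {x}, τ a ∈ Algebra.adjoin K {x} := by
    intro a ha
    induction ha using Algebra.adjoin_induction with
    | mem y hy =>
      rw [Set.mem_singleton_iff] at hy
      rw [hy, hx]
      exact Algebra.self_mem_adjoin_singleton K x
    | algebraMap r => rw [h]; exact Subalgebra.algebraMap_mem _ _
    | add a b _ _ ha hb => rw [map_add]; exact add_mem ha hb
    | mul a b _ _ ha hb => rw [map_mul]; exact mul_mem ha hb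
  let g : Algebra.adjoin K {x} →+* Algebra.adjoin K {x} :=
    (τ.comp (Algebra.adjoin K {x}).val.toRingHom).codRestrict (Algebra.adjoin K {x}).toSubring
      (fun a => h1 _ a.2)
  obtain ⟨p, hp, hpf⟩ := hf
  refine ⟨p.map g, hp.map g, ?_⟩
  rw [Polynomial.eval₂_map]
  have h2 : (algebraMap (Algebra.adjoin K {x}) F).comp g =
    τ.comp (algebraMap (Algebra.adjoin K {x}) F) := rfl
  rw [h2, ← Polynomial.hom_eval₂, hpf, map_zero]

theorem mem_Lm_semi [FiniteDimensional K⟮x⟯ F] {τ : F →+* F} {σ : K →+* K}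
    (h : ∀ c, τ (algebraMap K F c) = algebraMap K F (σ c)) (hx0 : x ≠ 0) (hx : τ x = x) {f : F}
    {m : ℕ} (hf : f ∈ riemannRochSpace (m • RR.poleDiv (K := K) x)) :
    τ f ∈ riemannRochSpace (m • RR.poleDiv (K := K) x) := by
  haveI : FiniteDimensional K⟮x⁻¹⟯ F := by
    rw [RR.adjoin_simple_inv' (K := K) x]; infer_instance
  rw [mem_Lm_iff hx0] at hf ⊢
  refine ⟨mem_regAlg_of_isIntegral (isIntegral_semi h hx (isIntegral_of_mem_regAlg hf.1)), ?_⟩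
  have h1 : τ x⁻¹ = x⁻¹ := by rw [map_inv₀, hx]
  have h2 := mem_regAlg_of_isIntegral (isIntegral_semi h h1 (isIntegral_of_mem_regAlg hf.2))
  rwa [map_mul, map_pow, h1] at h2

/-- **Semilinear maps act on classes of type `W1` by multiplication by `Q`.** -/
theorem W1.semi (w : W1 R₁ R₂ n y D c₁ c₂ a₁ a₂) (T : TwoRed R₁ R₂ x x₁ x₂) (hA : IsArch A)
    (hA' : ∃ c : A, ¬ IsUnit c ∧ c ≠ 0) (hn : (n : k) ≠ 0) (hπ : Function.Surjective π)
    (N : Nodes R₁ R₂ x x₁ x₂ S) {Q : ℕ} {τ : F →+* F} {σ : K →+* K}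
    {φ₁ : κ₁ →+* κ₁} {φ₂ : κ₂ →+* κ₂} (H : SemiEnd N Q τ σ φ₁ φ₂) {D₁ : Divisor K F}
    (hD₁ : Divisor.degree D₁ = 0) (hdiv : ∀ P, (n : ℤ) * D₁ P = P.ord (τ y / y ^ Q)) :
    ∃ f : F, f ^ n = τ y / y ^ Q := by
  classical
  have ea1 := w.a1
  have ea2 := w.a2
  have hy := w.ne
  have hw : W1 R₁ R₂ n (τ y / y ^ Q) D₁ (σ c₁ / c₁ ^ Q) (σ c₂ / c₂ ^ Q) (φ₁ a₁ / a₁ ^ Q)
      (φ₂ a₂ / a₂ ^ Q) := by
    refine ⟨w.n0, hD₁, ?_, hdiv, ?_, ?_, ?_, ?_, ?_, ?_⟩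
    · exact div_ne_zero (by simpa using w.ne) (pow_ne_zero _ w.ne)
    · exact div_ne_zero (by simpa using w.c1) (pow_ne_zero _ w.c1)
    · exact div_ne_zero (by simpa using w.c2) (pow_ne_zero _ w.c2)
    · exact div_ne_zero (by simpa using w.a1) (pow_ne_zero _ w.a1)
    · exact div_ne_zero (by simpa using w.a2) (pow_ne_zero _ w.a2)
    · have h1 := (H.red1 _ _ w.red1).div (w.red1.pow Q) (pow_ne_zero _ (pow_ne_zero _ w.a1))
      rw [map_mul, map_pow, H.comm, map_pow] at h1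
      convert h1 using 1
      · rw [map_div₀, map_pow]; ring
      · ring
    · have h1 := (H.red2 _ _ w.red2).div (w.red2.pow Q) (pow_ne_zero _ (pow_ne_zero _ w.a2))
      rw [map_mul, map_pow, H.comm, map_pow] at h1
      convert h1 using 1
      · rw [map_div₀, map_pow]; ring
      · ring
  obtain ⟨m₁, hm₁⟩ := w.exists_tw T hA N hπ
  obtain ⟨m₂, hm₂⟩ := w.symm'.exists_tw T hA N hπ
  obtain ⟨m₃, hm₃⟩ := N.exists_surj
  set m := m₁ + m₂ + m₃ with hm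
  obtain ⟨t, ht0, ht⟩ := hm₁ m (by omega)
  obtain ⟨t', ht0', ht'⟩ := hm₂ m (by omega)
  obtain ⟨b, hb⟩ := hm₃ m (by omega) (fun s => (t s)⁻¹)
  obtain ⟨b', hb'⟩ := hm₃ m (by omega) (fun s => (t' s)⁻¹)
  have e1 : inclReg k x₁ m ⟨1, one_mem_Lm x₁ m⟩ = 1 := rfl
  have hq : ((⟨1, one_mem_Lm x₁ m⟩, b) : PairL k x₁ x₂ m) ∈
      esp R₁ R₂ hπ x x₁ x₂ D c₁ c₂ a₁ a₂ m := by
    rw [ht, LinearMap.mem_ker]
    funext s
    rw [N.tw_apply]
    change N.e₁ s (inclReg k x₁ m ⟨1, one_mem_Lm x₁ m⟩) - t s * N.e₂ s (inclReg k x₂ m b) = 0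
    rw [e1, map_one, hb, mul_inv_cancel₀ (ht0 s), sub_self]
  have hq' : ((⟨1, one_mem_Lm x₁ m⟩, b') : PairL k x₁ x₂ m) ∈
      esp R₁ R₂ hπ x x₁ x₂ (-D) c₁⁻¹ c₂⁻¹ a₁⁻¹ a₂⁻¹ m := by
    rw [ht', LinearMap.mem_ker]
    funext s
    rw [N.tw_apply]
    change N.e₁ s (inclReg k x₁ m ⟨1, one_mem_Lm x₁ m⟩) - t' s * N.e₂ s (inclReg k x₂ m b') = 0
    rw [e1, map_one, hb', mul_inv_cancel₀ (ht0' s), sub_self]
  obtain ⟨u, hu, hu1, hu2⟩ := hq
  obtain ⟨v, hv, hv1, hv2⟩ := hq'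
  have gu := w.mem_iff.1 hu
  have gv := w.symm'.mem_iff.1 hv
  change R₁.IsRed (algebraMap K F c₁⁻¹ * u) (1 / a₁) at hu1
  change R₂.IsRed (algebraMap K F c₂⁻¹ * u) ((b : κ₂) / a₂) at hu2
  change R₁.IsRed (algebraMap K F c₁⁻¹⁻¹ * v) (1 / a₁⁻¹) at hv1
  change R₂.IsRed (algebraMap K F c₂⁻¹⁻¹ * v) ((b' : κ₂) / a₂⁻¹) at hv2
  have ec1 : algebraMap K F c₁ ≠ 0 := by simpa using w.c1
  have ec2 : algebraMap K F c₂ ≠ 0 := by simpa using w.c2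
  -- the product `u * v`
  have huv1 : R₁.IsRed (u * v) 1 := by
    have h1 := hu1.mul hv1
    convert h1 using 1
    · rw [inv_inv, map_inv₀]; field_simp
    · field_simp
  have huv2 : R₂.IsRed (u * v) (b * b' : κ₂) := by
    have h1 := hu2.mul hv2
    convert h1 using 1
    · rw [inv_inv, map_inv₀]; field_simp
    · field_simp
  have huvr : u * v ∈ regAlg K x := by
    rw [← pow_mem_regAlg_iff w.n0]
    have h1 := mul_mem (mem_regAlg_of_mem_Lm gu) (mem_regAlg_of_mem_Lm gv)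
    convert h1 using 1
    rw [mul_pow]; field_simp
  have hglue : ∀ s, N.e₂ s (inclReg k x₂ m b) * N.e₂ s (inclReg k x₂ m b') = 1 := by
    intro s
    have h1 := N.glue _ huvr (1 : regAlg k x₁) (inclReg k x₂ m b * inclReg k x₂ m b') huv1 huv2 s
    rw [map_one, map_mul] at h1
    exact h1.symm
  -- the function `U`
  set U : F := τ u * v ^ Q with hU
  have hb2 : φ₂ b ∈ regAlg k x₂ := H.reg2 _ (mem_regAlg_of_mem_Lm b.2)
  set M := m + Q * m with hM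
  haveI := T.fd
  have hUM : U ^ n * (τ y / y ^ Q) ∈ riemannRochSpace ((n * M) • RR.poleDiv (K := K) x) := by
    have h1 := mul_mem_Lm (mem_Lm_semi H.comm T.ne H.fix gu) (pow_mem_Lm gv Q)
    have h2 : n * m + Q * (n * m) = n * M := by rw [hM]; ring
    rw [h2] at h1
    convert h1 using 1
    rw [hU, map_mul, map_pow, mul_pow (v ^ n) _ Q, inv_pow]
    ring
  have hcU1 : R₁.IsRed (algebraMap K F (σ c₁ / c₁ ^ Q)⁻¹ * U) (1 / (φ₁ a₁ / a₁ ^ Q)) := by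
    have h1 := (H.red1 _ _ hu1).mul (hv1.pow Q)
    rw [map_mul, H.comm] at h1
    convert h1 using 1
    · rw [hU, inv_inv, inv_div, map_div₀, map_pow, map_inv₀ σ, map_inv₀, mul_pow]
      ring
    · rw [map_div₀, map_one]
      field_simp
  have hcU2 : R₂.IsRed (algebraMap K F (σ c₂ / c₂ ^ Q)⁻¹ * U)
      ((φ₂ b * (b' : κ₂) ^ Q) / (φ₂ a₂ / a₂ ^ Q)) := by
    have h1 := (H.red2 _ _ hu2).mul (hv2.pow Q)
    rw [map_mul, H.comm] at h1
    convert h1 using 1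
    · rw [hU, inv_inv, inv_div, map_div₀, map_pow, map_inv₀ σ, map_inv₀, mul_pow]
      ring
    · rw [map_div₀]
      field_simp
      ring
  have hUm : U ∈ riemannRochSpace (D₁ + M • RR.poleDiv (K := K) x) := hw.mem_iff.2 hUM
  have hbM : (φ₂ b * (b' : κ₂) ^ Q) ∈ riemannRochSpace (M • RR.poleDiv (K := k) x₂) :=
    hw.mem_Lm2 T hUm hcU1 hcU2
  refine hw.isPow (hπ := hπ) T hA hA' hn N (m' := M)
    (p := (⟨1, one_mem_Lm x₁ M⟩, ⟨_, hbM⟩)) ⟨U, hUm, hcU1, hcU2⟩ ?_ ?_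
  · intro s
    have e2 : inclReg k x₁ M ⟨1, one_mem_Lm x₁ M⟩ = 1 := rfl
    have e3 : inclReg k x₂ M ⟨_, hbM⟩ = (⟨φ₂ b, hb2⟩ : regAlg k x₂) * inclReg k x₂ m b' ^ Q := rfl
    change N.e₁ s (inclReg k x₁ M ⟨1, one_mem_Lm x₁ M⟩) = N.e₂ s (inclReg k x₂ M ⟨_, hbM⟩)
    rw [e2, e3, map_one, map_mul, map_pow, H.e2 s (inclReg k x₂ m b) ⟨φ₂ b, hb2⟩ rfl, ← mul_pow,
      hglue s, one_pow]
  · intro s
    have e3 : inclReg k x₂ M ⟨_, hbM⟩ = (⟨φ₂ b, hb2⟩ : regAlg k x₂) * inclReg k x₂ m b' ^ Q := rfl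
    change N.e₂ s (inclReg k x₂ M ⟨_, hbM⟩) ≠ 0
    rw [e3, map_mul, map_pow, H.e2 s (inclReg k x₂ m b) ⟨φ₂ b, hb2⟩ rfl, ← mul_pow,
      hglue s, one_pow]
    exact one_ne_zero

end Fermat.Agent.QComp
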