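import Fermat.Agent.QComp.InstH
import Fermat.Agent.QComp.DivDescent2
import Fermat.Agent.QComp.ModMain

/-!
# Level `M q²`: normalisation of the function of an inertia invariant class
-/

set_option autoImplicit false
set_option linter.unusedSectionVars false
set_option linter.style.haveILetI false
set_option linter.unusedVariables false

noncomputable section

open AlgebraicCurve ModularCurve IntermediateField Module Polynomial IsLocalRing

namespace Fermat.Agent.QComp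

open Fermat.Agent.FF Fermat.Agent.Red Fermat.Agent.QVal Fermat.Agent.JZ

local notation "Qb" => AlgebraicClosure ℚ
local notation "Γℚ" => (AlgebraicClosure ℚ ≃ₐ[ℚ] AlgebraicClosure ℚ)

/-! ### Values and leading reductions -/

/-- a reduction relation in which `q` reduces to zero. -/
structure RS (q : ℕ) (F κ : Type*) [Field F] [Field κ] where
  /-- the field in which inverses reduce -/
  P : Subfield F
  /-- the reduction relation -/
  Is : F → κ → Prop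
  uniq' : ∀ {f z z'}, Is f z → Is f z' → z = z'
  one' : Is 1 1
  mul' : ∀ {f g z w}, Is f z → Is g w → Is (f * g) (z * w)
  inv' : ∀ {f z}, f ∈ P → Is f z → z ≠ 0 → Is f⁻¹ z⁻¹
  q_zero' : Is (q : F) 0
  q_ne : (q : F) ≠ 0

namespace RS

variable {q : ℕ} {F κ : Type*} [Field F] [Field κ] {R : RS q F κ}

variable (R) in
/-- value `a` and leading reduction `z` -/
def HV (f : F) (a : ℤ) (z : κ) : Prop := z ≠ 0 ∧ R.Is ((q : F) ^ (-a) * f) z

theorem q_zpow_mem (a : ℤ) : (q : F) ^ a ∈ R.P := zpow_mem (natCast_mem R.P q) a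

theorem HV.ne {f : F} {a : ℤ} {z : κ} (h : R.HV f a z) : z ≠ 0 := h.1

theorem HV.mul {f g : F} {a b : ℤ} {z w : κ} (h : R.HV f a z) (h' : R.HV g b w) :
    R.HV (f * g) (a + b) (z * w) := by
  refine ⟨mul_ne_zero h.1 h'.1, ?_⟩
  have e : (q : F) ^ (-(a + b)) * (f * g) = ((q : F) ^ (-a) * f) * ((q : F) ^ (-b) * g) := by
    rw [neg_add, zpow_add₀ R.q_ne]; ring
  rw [e]
  exact R.mul' h.2 h'.2

theorem HV.inv {f : F} {a : ℤ} {z : κ} (h : R.HV f a z) (hf : f ∈ R.P) :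
    R.HV f⁻¹ (-a) z⁻¹ := by
  refine ⟨inv_ne_zero h.1, ?_⟩
  have e : (q : F) ^ (-(-a)) * f⁻¹ = ((q : F) ^ (-a) * f)⁻¹ := by
    rw [mul_inv, ← zpow_neg]
  rw [e]
  exact R.inv' (mul_mem (q_zpow_mem _) hf) h.2 h.1

theorem hv_one : R.HV 1 0 1 := ⟨one_ne_zero, by rw [neg_zero, zpow_zero, one_mul]; exact R.one'⟩

theorem HV.pow {f : F} {a : ℤ} {z : κ} (h : R.HV f a z) (n : ℕ) :
    R.HV (f ^ n) (n * a) (z ^ n) := by
  induction n with
  | zero =>
    rw [pow_zero, pow_zero, Nat.cast_zero, zero_mul]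
    exact hv_one
  | succ n ih =>
    rw [pow_succ, pow_succ]
    have e : ((n + 1 : ℕ) : ℤ) * a = n * a + a := by push_cast; ring
    rw [e]
    exact ih.mul h

theorem HV.zpow {f : F} {a : ℤ} {z : κ} (h : R.HV f a z) (hf : f ∈ R.P) (n : ℤ) :
    R.HV (f ^ n) (n * a) (z ^ n) := by
  cases n with
  | ofNat n =>
    rw [Int.ofNat_eq_natCast, zpow_natCast, zpow_natCast]
    exact h.pow n
  | negSucc n =>
    rw [zpow_negSucc, zpow_negSucc]
    have h1 := (h.pow (n + 1)).inv (pow_mem hf _)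
    have e : -(((n + 1 : ℕ) : ℤ) * a) = Int.negSucc n * a := by
      rw [Int.negSucc_eq]; push_cast; ring
    rwa [e] at h1

theorem HV.q_mul {f : F} {a : ℤ} {z : κ} (h : R.HV f a z) (m : ℤ) :
    R.HV ((q : F) ^ m * f) (a + m) z := by
  refine ⟨h.1, ?_⟩
  have e : (q : F) ^ (-(a + m)) * ((q : F) ^ m * f) = (q : F) ^ (-a) * f := by
    rw [← mul_assoc, ← zpow_add₀ R.q_ne]
    congr 2
    ring
  rw [e]
  exact h.2

theorem hv_of_is {f : F} {z : κ} (h : R.Is f z) (hz : z ≠ 0) : R.HV f 0 z :=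
  ⟨hz, by rw [neg_zero, zpow_zero, one_mul]; exact h⟩

theorem HV.is {f : F} {z : κ} (h : R.HV f 0 z) : R.Is f z := by
  have h1 := h.2
  rwa [neg_zero, zpow_zero, one_mul] at h1

theorem HV.le_of {f : F} {a b : ℤ} {z w : κ} (h : R.HV f a z) (h' : R.HV f b w) : a ≤ b := by
  by_contra hcon
  push Not at hcon
  obtain ⟨m, hm⟩ : ∃ m : ℕ, a = b + (m + 1 : ℕ) := ⟨(a - b - 1).toNat, by omega⟩
  have h1 : R.Is ((q : F) ^ (-b) * f) 0 := by
    have h2 : ∀ m : ℕ, R.Is ((q : F) ^ (m + 1)) 0 := by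
      intro m
      induction m with
      | zero => rw [zero_add, pow_one]; exact R.q_zero'
      | succ m ih =>
        rw [pow_succ]
        have := R.mul' ih R.q_zero'
        rwa [mul_zero] at this
    have h3 := R.mul' (h2 m) h.2
    rw [zero_mul] at h3
    have e : (q : F) ^ (m + 1) * ((q : F) ^ (-a) * f) = (q : F) ^ (-b) * f := by
      rw [← mul_assoc, ← zpow_natCast, ← zpow_add₀ R.q_ne, hm]
      congr 2
      ring
    rwa [e] at h3
  exact h'.1 (R.uniq' h'.2 h1)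

theorem HV.uniq {f : F} {a b : ℤ} {z w : κ} (h : R.HV f a z) (h' : R.HV f b w) :
    a = b ∧ z = w := by
  obtain rfl := le_antisymm (h.le_of h') (h'.le_of h)
  exact ⟨rfl, R.uniq' h.2 h'.2⟩

end RS

open RS

section Inst

/-- from a reduction -/
def RS.ofRed {q : ℕ} {k : Type*} [Field k] {A : ValuationSubring Qb} {π : A →+* k}
    {F Fk : Type*} [Field F] [Algebra Qb F] [Field Fk] [Algebra k Fk] (R : ConstRed A π F Fk)
    [hqf : Fact q.Prime] (hA : A.LiesOverPrime q) : RS q F Fk where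
  P := ⊤
  Is := R.IsRed
  uniq' h h' := h.unique h'
  one' := R.isRed_one
  mul' h h' := h.mul h'
  inv' _ h hz := h.inv hz
  q_zero' := by
    have h1 := natCast_mem_nonunits hqf.out hA R
    obtain ⟨z, hz⟩ := ConstRed.exists_isRed_of_mem R (ValuationSubring.nonunits_subset h1)
    rw [isRed_nonunits_iff hz] at h1
    rwa [h1] at hz
  q_ne := by
    have h := algebraMap_ne_zero' (q := q) (F := F)
    rwa [map_natCast] at h

/-- from a component -/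
def RS.ofComp {q : ℕ} {L : Type*} [Field L] {F0 : Subfield L} {κ : Type*} [Field κ]
    (c : Comp F0 κ) (hq : (q : L) ∈ c.V.nonunits) (hq0 : (q : L) ≠ 0) : RS q L κ where
  P := F0
  Is := c.Is
  uniq' h h' := c.uniq h h'
  one' := Comp.Is.one c
  mul' h h' := h.mul h'
  inv' hf h hz := h.inv hz hf
  q_zero' := Comp.is_zero_of_nonunit (natCast_mem F0 q) hq
  q_ne := hq0

end Inst

variable {k : Type*} [Field k] {A : ValuationSubring Qb} {π : A →+* k} {M q : ℕ} [NeZero M]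
  [NeZero q] [hqf : Fact q.Prime] (hA : A.LiesOverPrime q) (hπ : ∀ a : A, π a = 0 ↔ ¬ IsUnit a)
  (hs : Function.Surjective π) (hM : ¬ q ∣ M)

theorem q_ne_FB {N : ℕ} : (q : FB N) ≠ 0 := by
  have h := algebraMap_ne_zero' (q := q) (F := FB N)
  rwa [map_natCast] at h

/-- `∞` at level `M q` -/
def rs1I : RS q (FB (M * q)) (modularFunctionFieldFullC k M) := RS.ofRed (rInf1 M q hA hπ hs hM) hA

/-- `0` at level `M q` -/
def rs1Z : RS q (FB (M * q)) (modularFunctionFieldFullC k M) :=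
  RS.ofRed (rZero1 M q hA hπ hs hM) hA

/-- `∞` at level `M q²` -/
def rsI : RS q (FB (M * q * q)) (modularFunctionFieldFullC k M) :=
  RS.ofComp (cI hA hπ hs hM) (natCast_mem_nonunits hqf.out hA _) q_ne_FB

/-- `0` at level `M q²` -/
def rsZ : RS q (FB (M * q * q)) (modularFunctionFieldFullC k M) :=
  RS.ofComp (cZ hA hπ hs hM) (natCast_mem_nonunits hqf.out hA _) q_ne_FB

/-- the middle component at level `M q²` -/
def rsM {ζ0 : RU q} (h0 : ζ0 ≠ 1) : RS q (FB (M * q * q)) (modularFunctionFieldFullC k M) :=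
  RS.ofComp (cM hA hπ hs hM h0) (natCast_mem_nonunits hqf.out hA _) q_ne_FB

theorem algebraMap_zpow {N : ℕ} (n : ℤ) :
    algebraMap Qb (FB N) ((q : Qb) ^ n) = (q : FB N) ^ n := by
  rw [map_zpow₀, map_natCast]

theorem rs1I_exists {f : FB (M * q)} (hf : IFix A f) (hf0 : f ≠ 0) :
    ∃ a z, (rs1I hA hπ hs hM).HV f a z := by
  obtain ⟨n, z, hz, h⟩ := value_inf1 (hA := hA) (hπ := hπ) (hs := hs) (hM := hM) hf hf0
  refine ⟨-n, z, hz, ?_⟩
  rw [neg_neg, ← algebraMap_zpow]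
  exact h

theorem rs1Z_exists {f : FB (M * q)} (hf : IFix A f) (hf0 : f ≠ 0) :
    ∃ a z, (rs1Z hA hπ hs hM).HV f a z := by
  obtain ⟨n, z, hz, h⟩ := value_zero1 (hA := hA) (hπ := hπ) (hs := hs) (hM := hM) hf hf0
  refine ⟨-n, z, hz, ?_⟩
  rw [neg_neg, ← algebraMap_zpow]
  exact h

theorem rsI_exists {f : FB (M * q * q)} (hf : IFix A f) (hf0 : f ≠ 0) :
    ∃ a z, (rsI hA hπ hs hM).HV f a z := by
  obtain ⟨n, z, hz, h⟩ := value_inf2 (hA := hA) (hπ := hπ) (hs := hs) (hM := hM) hf hf0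
  refine ⟨-n, z, hz, ?_⟩
  rw [neg_neg, ← algebraMap_zpow]
  exact h

theorem rsZ_exists {f : FB (M * q * q)} (hf : IFix A f) (hf0 : f ≠ 0) :
    ∃ a z, (rsZ hA hπ hs hM).HV f a z := by
  obtain ⟨n, z, hz, h⟩ := value_zero2 (hA := hA) (hπ := hπ) (hs := hs) (hM := hM) hf hf0
  refine ⟨-n, z, hz, ?_⟩
  rw [neg_neg, ← algebraMap_zpow]
  exact h

theorem rsM_exists {ζ0 : RU q} (h0 : ζ0 ≠ 1) {f : FB (M * q * q)} (hf : IFix A f) (hf0 : f ≠ 0) :
    ∃ a z, (rsM hA hπ hs hM h0).HV (f ^ (q - 1)) a z := by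
  obtain ⟨n, z, hz, h⟩ := value_mid hA hπ hM hf hf0
  have hzm : z ∈ modularFunctionFieldFullC k M := mid_mem_kap hA hπ hs hM h
  refine ⟨-n, ⟨z, hzm⟩, fun h1 => hz (congrArg Subtype.val h1), ?_⟩
  rw [neg_neg, ← algebraMap_zpow]
  exact h

/-! ### Norms -/

theorem norm_al2_const (hM : ¬ q ∣ M) (c : Qb) :
    normAlong (al2 M q) (algebraMap Qb (FB (M * q * q)) c) = algebraMap Qb _ (c ^ q) := by
  classical
  apply Subtype.ext
  rw [norm_al2' hM]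
  have h1 : ∀ ζ : {ζ : RU q // ζ ≠ 1}, epsU hM ζ.2 (algebraMap Qb (FB (M * q * q)) c) =
      algebraMap Qb (LaurentSeries Qb) c := fun ζ => (epsU hM ζ.2).commutes c
  rw [Finset.prod_congr rfl fun ζ _ => h1 ζ, Finset.prod_const, Finset.card_univ, card_RU_ne]
  change algebraMap Qb (LaurentSeries Qb) c * algebraMap Qb (LaurentSeries Qb) c ^ (q - 1) =
    algebraMap Qb (LaurentSeries Qb) (c ^ q)
  rw [← pow_succ', Nat.sub_add_cancel hqf.out.one_lt.le, map_pow]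

theorem norm_be2_eq (f : FB (M * q * q)) : normAlong (be2 M q) f =
    w1 hqf.out hM (normAlong (al2 M q) (w2 hqf.out hM f)) := by
  rw [← normAlong_be2, w2_w2]

theorem norm_be2_const (hM : ¬ q ∣ M) (c : Qb) :
    normAlong (be2 M q) (algebraMap Qb (FB (M * q * q)) c) = algebraMap Qb _ (c ^ q) := by
  rw [norm_be2_eq hM, AlgEquiv.commutes, norm_al2_const hM, AlgEquiv.commutes]

theorem norm_al2_ne {f : FB (M * q * q)} (hf : f ≠ 0) : normAlong (al2 M q) f ≠ 0 :=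
  normAlong_ne_zero _ (finiteAlong _) hf

theorem eq_const_mul [IsAlgClosed k] {κ : Type*} [Field κ] [Algebra k κ] {z w : κ} {n : ℕ}
    (hn : 0 < n) (hw : w ≠ 0) (h : z ^ n = w ^ n) : ∃ ε : k, z = algebraMap k κ ε * w := by
  have h1 : IsAlgebraic k (z / w) := by
    refine ⟨Polynomial.X ^ n - 1, ?_, ?_⟩
    · exact (Polynomial.monic_X_pow_sub_C (1 : k) hn.ne').ne_zero
    · rw [map_sub, map_pow, Polynomial.aeval_X, map_one, div_pow, h,
        div_self (pow_ne_zero _ hw), sub_self]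
  obtain ⟨ε, hε⟩ := RR.mem_range_of_isAlgebraic h1
  exact ⟨ε, by rw [hε, div_mul_cancel₀ _ hw]⟩

variable [IsAlgClosed k]

theorem hv_norm_inf {ζ0 : RU q} (h0 : ζ0 ≠ 1) {f : FB (M * q * q)} (hf : IFix A f) (hf0 : f ≠ 0)
    {a B : ℤ} {z w : modularFunctionFieldFullC k M} (h1 : (rsI hA hπ hs hM).HV f a z)
    (h2 : (rsM hA hπ hs hM h0).HV (f ^ (q - 1)) B w) :
    ∃ y0, (rs1I hA hπ hs hM).HV (normAlong (al2 M q) f) (a + B) y0 ∧
      ∃ ε : k, z * w = algebraMap k _ ε * y0 := by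
  classical
  have hN0 := norm_al2_ne (M := M) (q := q) hf0
  obtain ⟨s, y0, hs0⟩ := rs1I_exists hA hπ hs hM (IFix.norm_al2 hf) hN0
  have hp := hs0.pow (q - 1)
  rw [← map_pow] at hp
  have hq1 : 0 < q - 1 := by have := hqf.out.one_lt; omega
  -- the norm of `f ^ (q - 1)`
  have h3 : (rs1I hA hπ hs hM).HV (normAlong (al2 M q) (f ^ (q - 1)))
      (((q - 1 : ℕ) : ℤ) * (a + B)) ((z * w) ^ (q - 1)) := by
    refine ⟨pow_ne_zero _ (mul_ne_zero h1.1 h2.1), ?_⟩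
    have e1 := h1.pow (q - 1)
    have g1 : GRed π ((((q : FB (M * q * q)) ^ (-(((q - 1 : ℕ) : ℤ) * a)) * f ^ (q - 1) :
        FB (M * q * q)) : LaurentSeries Qb)) ((z ^ (q - 1) : modularFunctionFieldFullC k M) :
        LaurentSeries k) := isRed_rInf2.1 e1.2
    have g2 : ∀ (ζ : RU q) (h : ζ ≠ 1), GRed π (epsU hM h ((q : FB (M * q * q)) ^ (-B) *
        f ^ (q - 1))) (w : LaurentSeries k) := h2.2
    have g3 := g1.mul (gRed_prod (Finset.univ : Finset {ζ : RU q // ζ ≠ 1})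
      fun ζ _ => g2 ζ.1 ζ.2)
    refine isRed_rInf1.2 ?_
    have e2 : ((z ^ (q - 1) : modularFunctionFieldFullC k M) : LaurentSeries k) *
        ∏ ζ : {ζ : RU q // ζ ≠ 1}, (w : LaurentSeries k) =
        (((z * w) ^ (q - 1) : modularFunctionFieldFullC k M) : LaurentSeries k) := by
      rw [Finset.prod_const, Finset.card_univ, card_RU_ne, mul_pow]
      rfl
    rw [e2] at g3
    have e3 : ((((q : FB (M * q * q)) ^ (-(((q - 1 : ℕ) : ℤ) * a)) * f ^ (q - 1) :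
        FB (M * q * q)) : LaurentSeries Qb)) * ∏ ζ : {ζ : RU q // ζ ≠ 1},
          epsU hM ζ.2 ((q : FB (M * q * q)) ^ (-B) * f ^ (q - 1)) =
        (((q : FB (M * q)) ^ (-(((q - 1 : ℕ) : ℤ) * (a + B))) *
          normAlong (al2 M q) (f ^ (q - 1)) : FB (M * q)) : LaurentSeries Qb) := by
      have c1 : ∀ (N : ℕ) (m : ℤ) (x : FB N), (((q : FB N) ^ m * x : FB N) : LaurentSeries Qb) =
          (q : LaurentSeries Qb) ^ m * (x : LaurentSeries Qb) := by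
        intro N m x
        have : (((q : FB N) ^ m : FB N) : LaurentSeries Qb) = (q : LaurentSeries Qb) ^ m :=
          map_zpow₀ (FB N).val _ _
        rw [← this]
        rfl
      have c2 : ∀ ζ : {ζ : RU q // ζ ≠ 1}, epsU hM ζ.2 ((q : FB (M * q * q)) ^ (-B) *
          f ^ (q - 1)) = (q : LaurentSeries Qb) ^ (-B) * epsU hM ζ.2 (f ^ (q - 1)) := by
        intro ζ
        rw [map_mul, map_zpow₀, map_natCast]
      have hqL : (q : LaurentSeries Qb) ≠ 0 := by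
        have h := algebraMap_ne_zero' (q := q) (F := LaurentSeries Qb)
        rwa [map_natCast] at h
      rw [c1, c1, Finset.prod_congr rfl fun ζ _ => c2 ζ, Finset.prod_mul_distrib,
        Finset.prod_const, Finset.card_univ, card_RU_ne, norm_al2' hM]
      have e4 : -(((q - 1 : ℕ) : ℤ) * (a + B)) = -(((q - 1 : ℕ) : ℤ) * a) +
        -B * ((q - 1 : ℕ) : ℤ) := by ring
      rw [e4, zpow_add₀ hqL, zpow_mul _ (-B), zpow_natCast]
      ring
    rw [e3] at g3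
    exact g3
  obtain ⟨e1, e2⟩ := hp.uniq h3
  have e3 : s = a + B := by
    have h4 : (((q - 1 : ℕ) : ℤ)) ≠ 0 := by exact_mod_cast hq1.ne'
    exact mul_left_cancel₀ h4 e1
  rw [e3] at hs0
  exact ⟨y0, hs0, eq_const_mul hq1 hs0.1 e2.symm⟩

theorem hv_norm_zero [CharP k q] {f : FB (M * q * q)} {c : ℤ} {z : modularFunctionFieldFullC k M}
    (h1 : (rsZ hA hπ hs hM).HV f c z) :
    (rs1Z hA hπ hs hM).HV (normAlong (al2 M q) f) (q * c) (phiK q M z) := by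
  refine ⟨(_root_.map_ne_zero _).2 h1.1, ?_⟩
  have h2 := isRed_norm_al2_zero (hA := hA) (hπ := hπ) (hs := hs) (hM := hM) h1.2
  rw [map_mul, ← algebraMap_zpow, norm_al2_const hM, ← zpow_natCast, ← zpow_mul,
    algebraMap_zpow] at h2
  have e : -((q : ℤ) * c) = -c * (q : ℤ) := by ring
  rw [e]
  exact h2

theorem hv_const {c : Qb} (hc : c ≠ 0) (hI : ∀ σ ∈ A.inertiaSubgroupIn ℚ, σ c = c) :
    ∃ (e : ℤ) (u : k), u ≠ 0 ∧
      (rs1I hA hπ hs hM).HV (algebraMap Qb (FB (M * q)) c) e (algebraMap k _ u) ∧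
      (rs1Z hA hπ hs hM).HV (algebraMap Qb (FB (M * q)) c) e (algebraMap k _ u) := by
  obtain ⟨n, hn, hn'⟩ := CFT.Loc.exists_zpow_of_inertia hqf.out hA hc hI
  have hu : π ⟨c * (q : Qb) ^ (-n), hn⟩ ≠ 0 := by
    rw [Ne, hπ, not_not]
    refine IsUnit.of_mul_eq_one ⟨_, hn'⟩ (Subtype.ext ?_)
    exact mul_inv_cancel₀ (mul_ne_zero hc (zpow_ne_zero _ (q_ne_zero_Qb q)))
  have e : (q : FB (M * q)) ^ (-n) * algebraMap Qb (FB (M * q)) c =
      algebraMap Qb (FB (M * q)) (c * (q : Qb) ^ (-n)) := by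
    rw [map_mul, algebraMap_zpow]
    exact mul_comm _ _
  refine ⟨n, _, hu, ⟨(_root_.map_ne_zero _).2 hu, ?_⟩, ⟨(_root_.map_ne_zero _).2 hu, ?_⟩⟩
  · rw [e]
    exact (rInf1 M q hA hπ hs hM).isRed_algebraMap hn
  · rw [e]
    exact (rZero1 M q hA hπ hs hM).isRed_algebraMap hn

theorem exists_root_const {n : ℕ} (hn : n ≠ 0) {κ : Type*} [Field κ] [Algebra k κ] {u ε : k}
    (hu : u ≠ 0) {x y z : κ} (h : x ^ n = algebraMap k κ u * y) (h' : z = algebraMap k κ ε * y) :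
    ∃ w : κ, w ^ n = z := by
  obtain ⟨δ, hδ⟩ := IsAlgClosed.exists_pow_nat_eq (ε / u) (Nat.pos_of_ne_zero hn)
  refine ⟨algebraMap k κ δ * x, ?_⟩
  rw [mul_pow, ← map_pow, hδ, h, h', ← mul_assoc, ← map_mul, div_mul_cancel₀ _ hu]

variable [CharP k q] [PerfectRing k q]

theorem key_al {n : ℕ} (hn : n ≠ 0) {ζ0 : RU q} (h0 : ζ0 ≠ 1) {f : FB (M * q * q)}
    (hf : IFix A f) (hf0 : f ≠ 0) {a B c : ℤ} {zI zM zZ : modularFunctionFieldFullC k M}
    (h1 : (rsI hA hπ hs hM).HV f a zI) (h2 : (rsM hA hπ hs hM h0).HV (f ^ (q - 1)) B zM)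
    (h3 : (rsZ hA hπ hs hM).HV f c zZ) {y : FB (M * q)} (hy : y ^ n = normAlong (al2 M q) f) :
    (n : ℤ) ∣ a + B - q * c ∧ (∃ x, x ^ n = zI * zM) ∧ ∃ x, x ^ n = zZ := by
  obtain ⟨y0, hy0, ε, hε⟩ := hv_norm_inf hA hπ hs hM h0 hf hf0 h1 h2
  have hz0 := hv_norm_zero hA hπ hs hM h3
  have hN0 := norm_al2_ne (M := M) (q := q) hf0
  obtain ⟨c', hc', hI, hcI⟩ := exists_const_ifix A hN0 (IFix.norm_al2 hf) hn hy
  obtain ⟨e, u, hu, he1, he2⟩ := hv_const hA hπ hs hM (pow_ne_zero n hc') hcI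
  have hy1 : algebraMap Qb (FB (M * q)) c' * y ≠ 0 := by
    refine mul_ne_zero ((_root_.map_ne_zero _).2 hc') ?_
    rintro rfl
    rw [zero_pow hn] at hy
    exact hN0 hy.symm
  have hpow : (algebraMap Qb (FB (M * q)) c' * y) ^ n =
      algebraMap Qb (FB (M * q)) (c' ^ n) * normAlong (al2 M q) f := by
    rw [mul_pow, hy, map_pow]
  obtain ⟨s, r, hs1⟩ := rs1I_exists hA hπ hs hM hI hy1
  obtain ⟨t, r', ht1⟩ := rs1Z_exists hA hπ hs hM hI hy1
  have hs2 := hs1.pow n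
  have ht2 := ht1.pow n
  rw [hpow] at hs2 ht2
  obtain ⟨e1, e2⟩ := hs2.uniq (he1.mul hy0)
  obtain ⟨e3, e4⟩ := ht2.uniq (he2.mul hz0)
  refine ⟨⟨s - t, by linear_combination e3 - e1⟩, exists_root_const hn hu e2 hε, ?_⟩
  obtain ⟨w, hw⟩ := exists_root_const (ε := 1) hn hu e4 (by rw [map_one, one_mul])
  refine ⟨(phiE q M).symm w, ?_⟩
  apply (phiK q M).injective
  rw [map_pow, phiK_symm, hw]

theorem hv_w2_I {f : FB (M * q * q)} {c : ℤ} {z : modularFunctionFieldFullC k M}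
    (h : (rsZ hA hπ hs hM).HV f c z) : (rsI hA hπ hs hM).HV (w2 hqf.out hM f) c z := by
  refine ⟨h.1, ?_⟩
  have h1 := isRed_rZero2.1 h.2
  rw [map_mul, map_zpow₀, map_natCast] at h1
  exact h1

theorem hv_w2_Z {f : FB (M * q * q)} {c : ℤ} {z : modularFunctionFieldFullC k M}
    (h : (rsI hA hπ hs hM).HV f c z) : (rsZ hA hπ hs hM).HV (w2 hqf.out hM f) c z := by
  refine ⟨h.1, ?_⟩
  have h1 := isRed_rZero2_w2.2 h.2
  rw [map_mul, map_zpow₀, map_natCast] at h1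
  exact h1

theorem hv_w2_M {ζ0 : RU q} (h0 : ζ0 ≠ 1) {f : FB (M * q * q)} {c : ℤ}
    {z : modularFunctionFieldFullC k M}
    (h : (rsM hA hπ hs hM h0).HV f c z) : (rsM hA hπ hs hM h0).HV (w2 hqf.out hM f) c z := by
  refine ⟨h.1, fun ζ hζ => ?_⟩
  have h1 := gRed_eps_w2 hA hπ hζ (h.2 ζ⁻¹ (inv_ne_one' hζ))
  rw [map_mul, map_zpow₀, map_natCast] at h1
  exact h1

theorem w1_eq_norm {n : ℕ} {f : FB (M * q * q)} {y : FB (M * q)}
    (hy : y ^ n = normAlong (be2 M q) f) :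
    (w1 hqf.out hM y) ^ n = normAlong (al2 M q) (w2 hqf.out hM f) := by
  rw [← map_pow, hy, norm_be2_eq hM, w1_w1]

theorem key_be {n : ℕ} (hn : n ≠ 0) {ζ0 : RU q} (h0 : ζ0 ≠ 1) {f : FB (M * q * q)}
    (hf : IFix A f) (hf0 : f ≠ 0) {a B c : ℤ} {zI zM zZ : modularFunctionFieldFullC k M}
    (h1 : (rsI hA hπ hs hM).HV f a zI) (h2 : (rsM hA hπ hs hM h0).HV (f ^ (q - 1)) B zM)
    (h3 : (rsZ hA hπ hs hM).HV f c zZ) {y : FB (M * q)} (hy : y ^ n = normAlong (be2 M q) f) :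
    (n : ℤ) ∣ c + B - q * a ∧ (∃ x, x ^ n = zZ * zM) ∧ ∃ x, x ^ n = zI := by
  refine key_al hA hπ hs hM hn h0 (IFix.w2 (hM := hM) hf) ?_ (hv_w2_I hA hπ hs hM h3) ?_
    (hv_w2_Z hA hπ hs hM h1) (w1_eq_norm hM hy)
  · rw [Ne, map_eq_zero]; exact hf0
  · have h4 := hv_w2_M hA hπ hs hM h0 h2
    rwa [map_pow] at h4

/-- all reductions are `n`-th powers and the values are related. -/
theorem key_all {n : ℕ} (hn : n ≠ 0) {ζ0 : RU q} (h0 : ζ0 ≠ 1) {f : FB (M * q * q)}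
    (hf : IFix A f) (hf0 : f ≠ 0) {a B c : ℤ} {zI zM zZ : modularFunctionFieldFullC k M}
    (h1 : (rsI hA hπ hs hM).HV f a zI) (h2 : (rsM hA hπ hs hM h0).HV (f ^ (q - 1)) B zM)
    (h3 : (rsZ hA hπ hs hM).HV f c zZ) {y y' : FB (M * q)} (hy : y ^ n = normAlong (al2 M q) f)
    (hy' : y' ^ n = normAlong (be2 M q) f) :
    (∃ s : ℤ, (q + 1) * (B - (q - 1) * a) = n * s) ∧ (∃ s : ℤ, (q + 1) * (c - a) = n * s) ∧
      (∃ x, x ^ n = zI) ∧ (∃ x, x ^ n = zM) ∧ ∃ x, x ^ n = zZ := by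
  obtain ⟨⟨s, hs1⟩, ⟨x, hx⟩, hZ⟩ := key_al hA hπ hs hM hn h0 hf hf0 h1 h2 h3 hy
  obtain ⟨⟨t, ht1⟩, -, ⟨w, hw⟩⟩ := key_be hA hπ hs hM hn h0 hf hf0 h1 h2 h3 hy'
  refine ⟨⟨s + q * t, ?_⟩, ⟨t - s, by linear_combination ht1 - hs1⟩, ⟨w, hw⟩, ⟨x / w, ?_⟩, hZ⟩
  · linear_combination hs1 + q * ht1
  · rw [div_pow, hx, hw, mul_div_cancel_left₀ _ h1.1]

/-! ### Special functions -/

theorem theta_xj_ne : theta k ((RedQ.xj k M : modularFunctionFieldFullC k M) : LaurentSeries k) ≠ 0 := by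
  intro h
  have h1 := congrArg (fun f : LaurentSeries k => f.coeff (-1)) h
  simp only [HahnSeries.coeff_zero] at h1
  change (theta k (jqModC k)).coeff (-1) = 0 at h1
  rw [theta_coeff, coeff_jqModC_neg_one] at h1
  simp at h1

theorem Th_xj_ne : Th hA hπ hs hM (RedQ.xj k M) ≠ 0 := by
  intro h
  exact theta_xj_ne (pow_eq_zero_iff (n := q - 1) (by have := hqf.out.one_lt; omega) |>.1
    (congrArg Subtype.val h))

theorem xj_sub_ne : RedQ.xj k M - RedQ.xj k M ^ (q * q) ≠ 0 := by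
  intro h
  have htr := RedQ.transcendental_xj k M
  apply htr
  refine ⟨Polynomial.X - Polynomial.X ^ (q * q), ?_, ?_⟩
  · intro h1
    have h2 := congrArg (fun p : Polynomial k => p.coeff 1) h1
    have h3 : (1 : ℕ) ≠ q * q := by
      have := hqf.out.one_lt
      nlinarith
    simp only [Polynomial.coeff_sub, Polynomial.coeff_X_one, Polynomial.coeff_X_pow, if_neg h3,
      sub_zero, Polynomial.coeff_zero] at h2
    exact one_ne_zero h2
  · rw [map_sub, map_pow, Polynomial.aeval_X]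
    exact h

theorem is_q_I : (cI hA hπ hs hM).Is (q : FB (M * q * q)) 0 := (rsI hA hπ hs hM).q_zero'
theorem is_q_Z : (cZ hA hπ hs hM).Is (q : FB (M * q * q)) 0 := (rsZ hA hπ hs hM).q_zero'
theorem is_q_M {ζ0 : RU q} (h0 : ζ0 ≠ 1) : (cM hA hπ hs hM h0).Is (q : FB (M * q * q)) 0 :=
  (rsM hA hπ hs hM h0).q_zero'

/-- `t = j(τ) - j(q²τ)`, at `∞` -/
theorem hv_tt_I : (rsI hA hπ hs hM).HV (tt M q (jB M)) 0
    (RedQ.xj k M - RedQ.xj k M ^ (q * q)) :=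
  hv_of_is ((cI_jL hA hπ hs hM).sub (cI_jL2 hA hπ hs hM)) xj_sub_ne

theorem hv_tt_Z : (rsZ hA hπ hs hM).HV (tt M q (jB M)) 0
    (RedQ.xj k M ^ (q * q) - RedQ.xj k M) :=
  hv_of_is ((cZ_jL hA hπ hs hM).sub (cZ_jL2 hA hπ hs hM)) (fun h => xj_sub_ne (M := M) (k := k)
    (q := q) (by rw [← neg_sub, h, neg_zero]))

theorem hv_tt_M {ζ0 : RU q} (h0 : ζ0 ≠ 1) :
    (rsM hA hπ hs hM h0).HV (tt M q (jB M) ^ (q - 1)) 1 (-Th hA hπ hs hM (RedQ.xj k M)) := by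
  refine ⟨neg_ne_zero.2 (Th_xj_ne hA hπ hs hM), ?_⟩
  have h := cM_tt hA hπ hs hM h0 (isRed_jB (hA := hA) (hπ := hπ) (hs := hs) (hM := hM))
  have e : (q : FB (M * q * q)) ^ (-1 : ℤ) * tt M q (jB M) ^ (q - 1) =
      (upA M q (jB M) - upB M q (jB M)) ^ (q - 1) / (q : FB (M * q * q)) := by
    rw [zpow_neg_one, div_eq_mul_inv]
    exact mul_comm _ _
  rw [e]
  exact h

theorem is_tt_M {ζ0 : RU q} (h0 : ζ0 ≠ 1) : (cM hA hπ hs hM h0).Is (tt M q (jB M)) 0 := by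
  have h := (cM_jL hA hπ hs hM h0).sub (cM_jL2 hA hπ hs hM h0)
  rwa [sub_self] at h

section Delta

variable {h : modularFunctionFieldFullC k M}
  (hh : (h : LaurentSeries k) * (Igusa.deltaC k) ^ (q - 1) = 1)

include hh in
theorem hasse_ne' : h ≠ 0 := fun h0 => hasse_ne hh (congrArg Subtype.val h0)

include hh in
theorem is_D1_I : (cI hA hπ hs hM).Is (D1 M q) h := isRed_inf2_D1 hh

include hh in
theorem is_D1_M {ζ0 : RU q} (h0 : ζ0 ≠ 1) : (cM hA hπ hs hM h0).Is (D1 M q) h :=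
  fun _ _ => gRed_mid_D1 hh

include hh in
theorem is_D2_Z : (cZ hA hπ hs hM).Is (D2 M q) h := isRed_zero2_D2 hh

include hh in
theorem is_D2_M {ζ0 : RU q} (h0 : ζ0 ≠ 1) : (cM hA hπ hs hM h0).Is (D2 M q) h :=
  fun _ _ => gRed_mid_D2 hA hπ hh

include hh in
theorem is_D1_Z' : (cZ hA hπ hs hM).Is ((q : FB (M * q * q))⁻¹ * D1 M q) 0 := by
  have h1 : (cZ hA hπ hs hM).Is _ _ := isRed_zero2_D1 (hA := hA) (hπ := hπ) (hs := hs) (hM := hM) hh
  have h2 := ((is_q_Z hA hπ hs hM).pow 11).mul h1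
  rw [zero_pow (by norm_num), zero_mul, map_inv₀, map_pow, map_natCast] at h2
  have hq0 := q_ne_FB (q := q) (N := M * q * q)
  have e : (q : FB (M * q * q)) ^ 11 * (((q : FB (M * q * q)) ^ 12)⁻¹ * D1 M q) =
      (q : FB (M * q * q))⁻¹ * D1 M q := by
    field_simp
  rwa [e] at h2

include hh in
theorem is_D1_Z : (cZ hA hπ hs hM).Is (D1 M q) 0 := by
  have h2 := (is_q_Z hA hπ hs hM).mul (is_D1_Z' hA hπ hs hM hh)
  rw [zero_mul, ← mul_assoc, mul_inv_cancel₀ (q_ne_FB (q := q)), one_mul] at h2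
  exact h2

include hh in
theorem is_D2_I : (cI hA hπ hs hM).Is (D2 M q) 0 := by
  have h1 : (cI hA hπ hs hM).Is _ _ := isRed_inf2_D2 (hA := hA) (hπ := hπ) (hs := hs) (hM := hM) hh
  have h2 := ((is_q_I hA hπ hs hM).pow 12).mul h1
  rw [zero_pow (by norm_num), zero_mul, map_inv₀, map_pow, map_natCast] at h2
  have hq0 := q_ne_FB (q := q) (N := M * q * q)
  have e : (q : FB (M * q * q)) ^ 12 * (((q : FB (M * q * q)) ^ 12)⁻¹ * D2 M q) = D2 M q := by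
    field_simp
  rwa [e] at h2

variable (M q) in
/-- `q + Δ(τ)/Δ(qτ)` -/
def x0 : FB (M * q * q) := (q : FB (M * q * q)) + D1 M q

theorem IFix_x0 : IFix A (x0 M q) := by
  refine IFix.add ?_ IFix_D1
  have h := IFix.algebraMap (A := A) (N := M * q * q) (c := (q : Qb)) (fun σ _ => map_natCast _ _)
  rwa [map_natCast] at h

include hh in
theorem hv_x0_I : (rsI hA hπ hs hM).HV (x0 M q) 0 h := by
  refine hv_of_is ?_ (hasse_ne' hh)
  have h1 := (is_q_I hA hπ hs hM).add (is_D1_I hA hπ hs hM hh)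
  rwa [zero_add] at h1

include hh in
theorem hv_x0_M {ζ0 : RU q} (h0 : ζ0 ≠ 1) : (rsM hA hπ hs hM h0).HV (x0 M q) 0 h := by
  refine hv_of_is ?_ (hasse_ne' hh)
  have h1 := (is_q_M hA hπ hs hM h0).add (is_D1_M hA hπ hs hM hh h0)
  rwa [zero_add] at h1

include hh in
theorem hv_x0_Z : (rsZ hA hπ hs hM).HV (x0 M q) 1 1 := by
  refine ⟨one_ne_zero, ?_⟩
  have h1 := (Comp.Is.one (cZ hA hπ hs hM)).add (is_D1_Z' hA hπ hs hM hh)
  rw [add_zero] at h1
  rw [zpow_neg_one, x0, mul_add, inv_mul_cancel₀ (q_ne_FB (q := q))]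
  exact h1

end Delta

theorem IFix_tt : IFix A (tt M q (jB M)) := (IFix_jL (M := M) (q := q)).sub IFix_jL2

section Approx

variable [IsFnField k (modularFunctionFieldFullC k M)]

/-- lifts to level `M` fixed by inertia -/
theorem exists_lift_kap {ζ0 : RU q} (h0 : ζ0 ≠ 1) (z : modularFunctionFieldFullC k M) :
    ∃ u : FB M, IFix A u ∧ (redX M hA hπ hs hM).IsRed u z := by
  obtain ⟨a, b, hb, rfl⟩ := div_x (RedQ.transcendental_xj k M) z
  obtain ⟨u, hu1, hu2, -, -⟩ := lift_x hA hπ hs hM h0 a.2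
  obtain ⟨v, hv1, hv2, -, -⟩ := lift_x hA hπ hs hM h0 b.2
  refine ⟨u / v, ?_, hu2.div hv2 hb⟩
  rw [div_eq_mul_inv]
  exact hu1.mul hv1.inv

/-- **approximation** on the three components. -/
theorem exists_approx {ζ0 : RU q} (h0 : ζ0 ≠ 1) (αI αM αZ : modularFunctionFieldFullC k M) :
    ∃ a : FB (M * q * q), IFix A a ∧ (cI hA hπ hs hM).Is a αI ∧ (cM hA hπ hs hM h0).Is a αM ∧
      (cZ hA hπ hs hM).Is a αZ := by
  obtain ⟨h, hh, -⟩ := exists_hasse M hA hπ hs hM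
  have hne := hasse_ne' hh
  have tI := (hv_tt_I hA hπ hs hM).is
  have tZ := (hv_tt_Z hA hπ hs hM).is
  have tM := is_tt_M hA hπ hs hM h0
  set T := tt M q (jB M)
  set zI := RedQ.xj k M - RedQ.xj k M ^ (q * q) with hzI
  have hzI0 : zI ≠ 0 := xj_sub_ne
  set zZ := RedQ.xj k M ^ (q * q) - RedQ.xj k M with hzZ
  have hzZ0 : zZ ≠ 0 := fun h1 => hzI0 (by rw [hzI, ← neg_sub, ← hzZ, h1, neg_zero])
  obtain ⟨uI, hI1, hI2⟩ := exists_lift_kap hA hπ hs hM h0 (αI / (h * zI))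
  obtain ⟨uM, hM1, hM2⟩ := exists_lift_kap hA hπ hs hM h0 (αM / (h * h))
  obtain ⟨uZ, hZ1, hZ2⟩ := exists_lift_kap hA hπ hs hM h0 (αZ / (h * zZ))
  have dI1 := is_D1_I hA hπ hs hM hh
  have dM1 := is_D1_M hA hπ hs hM hh h0
  have dZ1 := is_D1_Z hA hπ hs hM hh
  have dI2 := is_D2_I hA hπ hs hM hh
  have dM2 := is_D2_M hA hπ hs hM hh h0
  have dZ2 := is_D2_Z hA hπ hs hM hh
  refine ⟨D1 M q * T * upA M q uI + D1 M q * D2 M q * upA M q uM + D2 M q * T * upB M q uZ,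
    ?_, ?_, ?_, ?_⟩
  · exact (((IFix_D1.mul IFix_tt).mul (IFix_upA hI1)).add
      ((IFix_D1.mul IFix_D2).mul (IFix_upA hM1))).add ((IFix_D2.mul IFix_tt).mul (IFix_upB hZ1))
  · have h1 := (((dI1.mul tI).mul (cI_upA hI2)).add ((dI1.mul dI2).mul (cI_upA hM2))).add
      ((dI2.mul tI).mul (cI_upB hZ2))
    have e : h * zI * (αI / (h * zI)) + h * 0 * (αM / (h * h)) +
        0 * zI * psi q M (αZ / (h * zZ)) = αI := by
      field_simp
      ring
    rwa [e] at h1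
  · have h1 := (((dM1.mul tM).mul (cM_upA hI2)).add ((dM1.mul dM2).mul (cM_upA hM2))).add
      ((dM2.mul tM).mul (cM_upB hZ2))
    have e : h * 0 * (αI / (h * zI)) + h * h * (αM / (h * h)) +
        h * 0 * (αZ / (h * zZ)) = αM := by
      field_simp
      ring
    rwa [e] at h1
  · have h1 := (((dZ1.mul tZ).mul (cZ_upA hI2)).add ((dZ1.mul dZ2).mul (cZ_upA hM2))).add
      ((dZ2.mul tZ).mul (cZ_upB hZ2))
    have e : 0 * zZ * psi q M (αI / (h * zI)) + 0 * h * psi q M (αM / (h * h)) +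
        h * zZ * (αZ / (h * zZ)) = αZ := by
      field_simp
      ring
    rwa [e] at h1

end Approx

/-! ### The normalisation -/

section Main

variable [IsFnField k (modularFunctionFieldFullC k M)]

/-- **(F)** the normalised function of an inertia invariant class killed by the traces. -/
theorem exists_norm_form {n : ℕ} (hn : n ≠ 0) (x : JZero (M * q * q)) (hx : n • x = 0)
    (hfix : ∀ s ∈ A.inertiaSubgroupIn ℚ, s • x = x) (htrA : trA (M * q) q x = 0)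
    (htrB : trB (M * q) q x = 0) :
    ∃ D : Divisor.degZero (K := Qb) (F := FB (M * q * q)), Pic0.mk D = x ∧
      ∃ f : FB (M * q * q), f ≠ 0 ∧
        (∀ P, (n : ℤ) * (D : Divisor Qb (FB (M * q * q))) P = P.ord f) ∧
        ∃ (f1 g : FB (M * q * q)) (c : Qb), c ≠ 0 ∧ g ≠ 0 ∧
          f1 = algebraMap Qb _ c * f ^ ((q + 1) * (q - 1)) * g ^ n ∧ IFix A f1 ∧
          (rInf2 M q hA hπ hs hM).IsRed f1 1 ∧ (rZero2 M q hA hπ hs hM).IsRed f1 1 ∧
          (∀ (ζ : RU q) (h : ζ ≠ 1), GRed π (epsU hM h f1) 1) ∧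
          (∃ y, y ^ n = normAlong (al2 M q) f1) ∧ ∃ y, y ^ n = normAlong (be2 M q) f1 := by
  obtain ⟨ζ0, h0⟩ := exists_RU_ne q
  obtain ⟨D, rfl, f, hf0, hf, hdiv⟩ := div_descent A x n hn hx hfix
  refine ⟨D, rfl, f, hf0, hdiv, ?_⟩
  rw [trA_mk, Red.pic0_mk_eq_zero, coe_degZeroPush] at htrA
  rw [trB_mk, Red.pic0_mk_eq_zero, coe_degZeroPush] at htrB
  obtain ⟨y, hy⟩ := exists_norm_root _ _ (finiteAlong _) (nInputs.norm _ _ _ _) hn htrA hf0 hdiv
  obtain ⟨y', hy'⟩ := exists_norm_root _ _ (finiteAlong _) (nInputs.norm _ _ _ _) hn htrB hf0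
    hdiv
  obtain ⟨a, zI, h1⟩ := rsI_exists hA hπ hs hM hf hf0
  obtain ⟨B, zM, h2⟩ := rsM_exists hA hπ hs hM h0 hf hf0
  obtain ⟨c, zZ, h3⟩ := rsZ_exists hA hπ hs hM hf hf0
  obtain ⟨⟨s, hs'⟩, ⟨t, ht'⟩, ⟨wI, hwI⟩, ⟨wM, hwM⟩, ⟨wZ, hwZ⟩⟩ :=
    key_all hA hπ hs hM hn h0 hf hf0 h1 h2 h3 hy hy'
  obtain ⟨h, hh, -⟩ := exists_hasse M hA hπ hs hM
  have hq1 : ((q - 1 : ℕ) : ℤ) = (q : ℤ) - 1 := by
    have := hqf.out.one_lt
    push_cast [Nat.cast_sub this.le]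
    rfl
  -- the correcting functions
  have hxF : x0 M q ∈ (rsI hA hπ hs hM).P := IFix_x0
  have htF : tt M q (jB M) ∈ (rsI hA hπ hs hM).P := IFix_tt
  set T := tt M q (jB M) with hT
  set X := x0 M q with hX
  have hT0 : T ≠ 0 := by
    intro h4
    have h5 := (hv_tt_I hA hπ hs hM).is
    rw [← hT, h4] at h5
    exact (hv_tt_I hA hπ hs hM).1 ((cI hA hπ hs hM).uniq h5 (Comp.Is.zero _))
  have hX0 : X ≠ 0 := by
    intro h4
    have h5 := (hv_x0_I hA hπ hs hM hh).is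
    rw [← hX, h4] at h5
    exact (hasse_ne' hh) ((cI hA hπ hs hM).uniq h5 (Comp.Is.zero _))
  set g0 : FB (M * q * q) := (T ^ (q - 1)) ^ (-s) * X ^ (-((q - 1 : ℕ) : ℤ) * t) with hg0
  have hg00 : g0 ≠ 0 := mul_ne_zero (zpow_ne_zero _ (pow_ne_zero _ hT0)) (zpow_ne_zero _ hX0)
  have hTF' : T ^ (q - 1) ∈ (FI A (M * q * q)).toSubfield := pow_mem htF _
  have hgF : g0 ∈ (FI A (M * q * q)).toSubfield :=
    mul_mem (zpow_mem hTF' _) (zpow_mem hxF _)
  obtain ⟨gI, hgI⟩ : ∃ z, (rsI hA hπ hs hM).HV g0 0 z := by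
    have h4 := (((hv_tt_I hA hπ hs hM).pow (q - 1)).zpow hTF' (-s)).mul
      ((hv_x0_I hA hπ hs hM hh).zpow hxF (-((q - 1 : ℕ) : ℤ) * t))
    have e : (-s * (((q - 1 : ℕ) : ℤ) * 0) + -((q - 1 : ℕ) : ℤ) * t * 0) = 0 := by ring
    rw [e] at h4
    exact ⟨_, h4⟩
  obtain ⟨gZ, hgZ⟩ : ∃ z, (rsZ hA hπ hs hM).HV g0 (-((q - 1 : ℕ) : ℤ) * t) z := by
    have h4 := (((hv_tt_Z hA hπ hs hM).pow (q - 1)).zpow hTF' (-s)).mul
      ((hv_x0_Z hA hπ hs hM hh).zpow hxF (-((q - 1 : ℕ) : ℤ) * t))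
    have e : (-s * (((q - 1 : ℕ) : ℤ) * 0) + -((q - 1 : ℕ) : ℤ) * t * 1) =
        -((q - 1 : ℕ) : ℤ) * t := by ring
    rw [e] at h4
    exact ⟨_, h4⟩
  obtain ⟨gM, hgM⟩ : ∃ z, (rsM hA hπ hs hM h0).HV g0 (-s) z := by
    have h4 := ((hv_tt_M hA hπ hs hM h0).zpow hTF' (-s)).mul
      ((hv_x0_M hA hπ hs hM hh h0).zpow hxF (-((q - 1 : ℕ) : ℤ) * t))
    have e : (-s * 1 + -((q - 1 : ℕ) : ℤ) * t * 0) = -s := by ring
    rw [e] at h4
    exact ⟨_, h4⟩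
  -- the intermediate function
  set m : ℤ := -(((q + 1 : ℕ) : ℤ) * ((q - 1 : ℕ) : ℤ) * a) with hm
  set F2 : FB (M * q * q) := (q : FB (M * q * q)) ^ m * (f ^ ((q + 1) * (q - 1)) * g0 ^ n)
    with hF2
  have hqQ : (q : FB (M * q * q)) ≠ 0 := q_ne_FB
  have kI : (rsI hA hπ hs hM).HV F2 0 ((wI ^ ((q + 1) * (q - 1)) * gI) ^ n) := by
    have h4 := ((h1.pow ((q + 1) * (q - 1))).mul (hgI.pow n)).q_mul m
    convert h4 using 1
    · rw [hm]; push_cast; ring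
    · rw [mul_pow, ← pow_mul, mul_comm _ n, pow_mul, hwI]
  have kZ : (rsZ hA hπ hs hM).HV F2 0 ((wZ ^ ((q + 1) * (q - 1)) * gZ) ^ n) := by
    have h4 := ((h3.pow ((q + 1) * (q - 1))).mul (hgZ.pow n)).q_mul m
    convert h4 using 1
    · rw [hm, Nat.cast_mul, hq1]
      push_cast
      linear_combination (1 - (q : ℤ)) * ht'
    · rw [mul_pow, ← pow_mul, mul_comm _ n, pow_mul, hwZ]
  have kM : (rsM hA hπ hs hM h0).HV F2 0 ((wM ^ (q + 1) * gM) ^ n) := by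
    have h4 := ((h2.pow (q + 1)).mul (hgM.pow n)).q_mul m
    rw [← pow_mul, mul_comm (q - 1) (q + 1)] at h4
    convert h4 using 1
    · rw [hm, hq1]
      push_cast
      linear_combination -hs'
    · rw [mul_pow, ← pow_mul, mul_comm _ n, pow_mul, hwM]
  set αI := wI ^ ((q + 1) * (q - 1)) * gI
  set αZ := wZ ^ ((q + 1) * (q - 1)) * gZ
  set αM := wM ^ (q + 1) * gM
  have hαI : αI ≠ 0 := fun h4 => kI.1 (by rw [h4, zero_pow hn])
  have hαZ : αZ ≠ 0 := fun h4 => kZ.1 (by rw [h4, zero_pow hn])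
  have hαM : αM ≠ 0 := fun h4 => kM.1 (by rw [h4, zero_pow hn])
  obtain ⟨b, hb, bI, bM, bZ⟩ := exists_approx hA hπ hs hM h0 αI αM αZ
  have hb0 : b ≠ 0 := bI.ne_zero hαI
  have hbF : b ^ n ∈ (FI A (M * q * q)).toSubfield := pow_mem (show b ∈ _ from hb) n
  have hF2F : F2 ∈ (FI A (M * q * q)).toSubfield :=
    mul_mem (zpow_mem (_root_.natCast_mem _ q) _) (mul_mem (pow_mem (show f ∈ _ from hf) _)
      (pow_mem hgF n))
  have eF1 : F2 / b ^ n = algebraMap Qb _ ((q : Qb) ^ m) * f ^ ((q + 1) * (q - 1)) *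
      (g0 / b) ^ n := by
    rw [hF2, algebraMap_zpow, div_pow]
    ring
  refine ⟨F2 / b ^ n, g0 / b, (q : Qb) ^ m, zpow_ne_zero _ (q_ne_zero_Qb q),
    div_ne_zero hg00 hb0, eF1, ?_, ?_, ?_, ?_, ?_, ?_⟩
  · exact (div_mem hF2F hbF : F2 / b ^ n ∈ (FI A (M * q * q)).toSubfield)
  · have h4 := kI.is.div (bI.pow n) (pow_ne_zero n hαI) hbF
    rw [div_self (pow_ne_zero n hαI)] at h4
    exact h4
  · have h4 := kZ.is.div (bZ.pow n) (pow_ne_zero n hαZ) hbF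
    rw [div_self (pow_ne_zero n hαZ)] at h4
    exact h4
  · have h4 := kM.is.div (bM.pow n) (pow_ne_zero n hαM) hbF
    rw [div_self (pow_ne_zero n hαM)] at h4
    exact h4
  · obtain ⟨d, hd⟩ := IsAlgClosed.exists_pow_nat_eq (((q : Qb) ^ m) ^ q) (Nat.pos_of_ne_zero hn)
    refine ⟨algebraMap Qb _ d * y ^ ((q + 1) * (q - 1)) * normAlong (al2 M q) (g0 / b), ?_⟩
    rw [eF1, map_mul, map_mul, norm_al2_const hM, map_pow (normAlong (al2 M q)) f,
      map_pow (normAlong (al2 M q)) (g0 / b), ← hy, mul_pow, mul_pow, ← map_pow, hd, ← pow_mul,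
      ← pow_mul, mul_comm n]
  · obtain ⟨d, hd⟩ := IsAlgClosed.exists_pow_nat_eq (((q : Qb) ^ m) ^ q) (Nat.pos_of_ne_zero hn)
    refine ⟨algebraMap Qb _ d * y' ^ ((q + 1) * (q - 1)) * normAlong (be2 M q) (g0 / b), ?_⟩
    rw [eF1, map_mul, map_mul, norm_be2_const hM, map_pow (normAlong (be2 M q)) f,
      map_pow (normAlong (be2 M q)) (g0 / b), ← hy', mul_pow, mul_pow, ← map_pow, hd, ← pow_mul,
      ← pow_mul, mul_comm n]

end Main

end Fermat.Agent.QComp
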