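import Fermat.Agent.QComp.InstN
import Fermat.Agent.QComp.NormF
import Fermat.Agent.QComp.S36Final
import Fermat.Agent.QComp.ModMain
import Fermat.Agent.Frob.Basic

/-!
# (A36)
-/

set_option autoImplicit false
set_option linter.unusedSectionVars false
set_option linter.style.haveILetI false
set_option linter.unusedVariables false

noncomputable section

open AlgebraicCurve ModularCurve IntermediateField Module Polynomial IsLocalRing

namespace Fermat.Agent.QComp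

open Fermat.Agent.FF Fermat.Agent.Red Fermat.Agent.QVal Fermat.Agent.JZ Fermat.Agent.ESh

local notation "Qb" => AlgebraicClosure ℚ
local notation "Γℚ" => (AlgebraicClosure ℚ ≃ₐ[ℚ] AlgebraicClosure ℚ)

/-- The classification of the points at the cusps. -/
def CuspStmt : Prop :=
  ∀ {k : Type} [Field k] {A : ValuationSubring Qb} {π : A →+* k} {M q : ℕ} [NeZero M]
    [NeZero q] [hqf : Fact q.Prime] (hA : A.LiesOverPrime q) (hπ : ∀ a : A, π a = 0 ↔ ¬ IsUnit a)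
    (hs : Function.Surjective π) (hM : ¬ q ∣ M) [CharP k q] [PerfectRing k q]
    [IsFnField k (modularFunctionFieldFullC k M)] [IsAlgClosed k] {ζ0 : RU q} (h0 : ζ0 ≠ 1),
    ∀ P : Ideal (SX A (xL M q)⁻¹), P.IsPrime →
      (⟨_, xL_inv_mem A⟩ : SX A (xL M q)⁻¹) ∈ P →
      (∃ b ∈ P, (b : FB (M * q * q)) ∉ (cI hA hπ hs hM).V.nonunits) →
      (∃ b ∈ P, (b : FB (M * q * q)) ∉ (cM hA hπ hs hM h0).V.nonunits) →
      (∃ b ∈ P, (b : FB (M * q * q)) ∉ (cZ hA hπ hs hM).V.nonunits) →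
      (Thru (cI hA hπ hs hM).V (SX A (xL M q)⁻¹) P ∨
        Thru (cM hA hπ hs hM h0).V (SX A (xL M q)⁻¹) P ∨
        Thru (cZ hA hπ hs hM).V (SX A (xL M q)⁻¹) P) →
      OneComp k (SX A (xL M q)⁻¹) (cI hA hπ hs hM) (cM hA hπ hs hM h0) (cZ hA hπ hs hM)
      (q : FB (M * q * q)) (q - 1) (kx (RedQ.xj k M)⁻¹) P

section Div

variable {K F : Type*} [Field K] [Field F] [Algebra K F]

theorem ord_alg {v : Place K F} {f g h : F} {c : K} (hf : f ≠ 0) (hg : g ≠ 0) (hh : h ≠ 0)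
    (hc : c ≠ 0) {n e r : ℕ} (hn : n ≠ 0) {d : ℤ} (hd : (n : ℤ) * d = v.ord f)
    (hrel : h ^ n = (algebraMap K F c * f ^ e * g ^ n) ^ r) :
    (r * e : ℤ) * d = v.ord (h / g ^ r) := by
  have hc' : algebraMap K F c ≠ 0 := by simpa using hc
  have hoc : v.ord (algebraMap K F c) = 0 := FF.ord_algebraMap v c
  have h1 := congrArg v.ord hrel
  rw [ord_pow, ord_pow, v.ord_mul (mul_ne_zero hc' (pow_ne_zero _ hf)) (pow_ne_zero _ hg),
    v.ord_mul hc' (pow_ne_zero _ hf), hoc, ord_pow, ord_pow, ← hd, zero_add] at h1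
  rw [div_eq_mul_inv, v.ord_mul hh (inv_ne_zero (pow_ne_zero _ hg)), v.ord_inv, ord_pow]
  have hn' : (n : ℤ) ≠ 0 := by exact_mod_cast hn
  apply mul_left_cancel₀ hn'
  linear_combination -h1

end Div

section Level

variable {k : Type} [Field k] {A : ValuationSubring Qb} {π : A →+* k} {M q : ℕ} [NeZero M]
  [NeZero q] [hqf : Fact q.Prime] (hA : A.LiesOverPrime q) (hπ : ∀ a : A, π a = 0 ↔ ¬ IsUnit a)
  (hs : Function.Surjective π) (hM : ¬ q ∣ M)

variable [CharP k q] [PerfectRing k q] [IsFnField k (modularFunctionFieldFullC k M)]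
  [IsAlgClosed k]

include hA hπ hs hM in
theorem a36_aux (hC : CuspStmt) (hr : ∃ r : ℕ, r.Prime ∧ r ∣ M ∧ r % 12 = 11)
    {ℓ : ℕ} (hℓ : ℓ.Prime) (hℓq : ℓ ≠ q) (a : ℕ) (x : JZero (M * q * q)) (hx : ℓ ^ a • x = 0)
    (hfix : ∀ s ∈ A.inertiaSubgroupIn ℚ, s • x = x) (htrA : trA (M * q) q x = 0)
    (htrB : trB (M * q) q x = 0) : ((q ^ 2 - 1) * ((q + 1) * (q - 1))) • x = 0 := by
  obtain ⟨ζ0, h0⟩ := exists_RU_ne q
  have hn : ℓ ^ a ≠ 0 := pow_ne_zero _ hℓ.ne_zero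
  obtain ⟨D, rfl, f, hf0, hdiv, f1, g, c, hc, hg, hf1, hfI, h1, h2, h3, ⟨y, hy⟩, y', hy'⟩ :=
    exists_norm_form hA hπ hs hM hn x hx hfix htrA htrB
  have hf1div : ∀ P : Place Qb (FB (M * q * q)), ((ℓ ^ a : ℕ) : ℤ) ∣ P.ord f1 := by
    intro P
    have hc' : algebraMap Qb (FB (M * q * q)) c ≠ 0 := by simpa using hc
    rw [hf1, P.ord_mul (mul_ne_zero hc' (pow_ne_zero _ hf0)) (pow_ne_zero _ hg),
      P.ord_mul hc' (pow_ne_zero _ hf0), FF.ord_algebraMap P c, FF.ord_pow, FF.ord_pow, ← hdiv P]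
    exact dvd_add (dvd_add (dvd_zero _) ((dvd_mul_right _ _).mul_left _)) (dvd_mul_right _ _)
  obtain ⟨h, hh⟩ := exists_root hA hπ hs hM h0 hr hℓ hℓq a hfI h1 h3 h2 hf1div hy hy'
    (hC hA hπ hs hM h0)
  have hf10 : f1 ≠ 0 := by
    rw [hf1]
    have hc' : algebraMap Qb (FB (M * q * q)) c ≠ 0 := by simpa using hc
    exact mul_ne_zero (mul_ne_zero hc' (pow_ne_zero _ hf0)) (pow_ne_zero _ hg)
  have hh0 : h ≠ 0 := by
    rintro rfl
    rw [zero_pow hn] at hh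
    exact pow_ne_zero _ hf10 hh.symm
  have hgoal : Pic0.mk (((q ^ 2 - 1) * ((q + 1) * (q - 1))) • D) = 0 := by
    rw [Red.pic0_mk_eq_zero]
    refine ⟨h / g ^ (q ^ 2 - 1), div_ne_zero hh0 (pow_ne_zero _ hg), fun P => ?_⟩
    rw [hf1] at hh
    have h4 := ord_alg (v := P) hf0 hg hh0 hc hn (hdiv P) hh
    rw [← h4]
    change (((q ^ 2 - 1) * ((q + 1) * (q - 1))) • (D : Divisor Qb (FB (M * q * q)))) P = _
    rw [Finsupp.smul_apply, nsmul_eq_mul]
    push_cast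
    rfl
  exact hgoal

end Level

/-- **(A36)** -/
theorem a36Rigid_of_cusp (hC : CuspStmt) {lam : ℕ} (hlam : lam.Prime) : A36Rigid lam := by
  intro M q i1 i2 hM0 hq hqM hqlam hr _ _
  haveI : NeZero M := ⟨hM0⟩
  haveI : Fact q.Prime := ⟨hq⟩
  obtain ⟨A, hA⟩ := Frob.exists_liesOverPrime Qb hq
  have hπ := residue_eq_zero_iff' A
  have hsur : Function.Surjective (IsLocalRing.residue A) := IsLocalRing.residue_surjective
  haveI : CharP (IsLocalRing.ResidueField A) q := charP_of_liesOverPrime hA hπ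
  haveI : IsAlgClosed (IsLocalRing.ResidueField A) := isAlgClosed_of_surjective hsur
  haveI : PerfectRing (IsLocalRing.ResidueField A) q := PerfectField.toPerfectRing q
  haveI := isFnField_fullC (k := IsLocalRing.ResidueField A) M q hqM
  have hq2 := hq.two_le
  refine ⟨A, hA, (q ^ 2 - 1) * ((q + 1) * (q - 1)), ?_, fun x ⟨n, hn⟩ hfix htrA htrB => ?_⟩
  · have h1 : 4 ≤ q ^ 2 := by nlinarith
    have h2 : q ^ 2 - 1 ≠ 0 := by omega
    have h3 : q - 1 ≠ 0 := by omega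
    exact mul_ne_zero h2 (mul_ne_zero (by omega) h3)
  · exact a36_aux hA hπ hsur hqM hC hr hlam (fun h => hqlam h.symm) n x hn hfix htrA htrB



end Fermat.Agent.QComp
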