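import Mathlib.LinearAlgebra.Basis.VectorSpace
import Mathlib.LinearAlgebra.Finsupp.LinearCombination
import Mathlib.LinearAlgebra.LinearIndependent.Basic

/-!
# Graded bases (abstract Birkhoff–Grothendieck lemma)
-/

set_option autoImplicit false
set_option linter.unusedSectionVars false

open Submodule

namespace Fermat.Agent.QComp

universe v u

variable {K : Type v} {M : Type u} [Field K] [AddCommGroup M] [Module K M]

/-- `V (m-1)`. -/
def prevV (V : ℕ → Submodule K M) : ℕ → Submodule K M
  | 0 => ⊥
  | m + 1 => V m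

/-- `V (m-1) + x V (m-1)` -/
def prevX (x : M →ₗ[K] M) (V : ℕ → Submodule K M) (m : ℕ) : Submodule K M :=
  prevV V m ⊔ (prevV V m).map x

theorem exists_compl_in (P V : Submodule K M) (h : P ≤ V) :
    ∃ W : Submodule K M, W ≤ V ∧ W ⊓ P = ⊥ ∧ V ≤ W ⊔ P := by
  obtain ⟨C, hC⟩ := P.exists_isCompl
  refine ⟨C ⊓ V, inf_le_right, ?_, ?_⟩
  · rw [inf_right_comm, inf_comm C P, hC.inf_eq_bot, bot_inf_eq]
  · rw [sup_comm, ← sup_inf_assoc_of_le C h, hC.sup_eq_top, top_inf_eq]

theorem birkhoff (x : M →ₗ[K] M) (V : ℕ → Submodule K M)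
    (hmono : Monotone V) (hxV : ∀ m, (V m).map x ≤ V (m + 1))
    (hs : ∀ m, ∀ a ∈ V m, x a ∈ V m → a ∈ prevV V m) :
    ∃ (ι : Type u) (b : ι → M) (d : ι → ℕ), (∀ i, b i ∈ V (d i)) ∧
      (∀ m, V m ≤ span K {y | ∃ (i : ι) (k : ℕ), k + d i ≤ m ∧ y = (x ^ k) (b i)}) ∧
      LinearIndependent K (fun p : ι × ℕ => (x ^ p.2) (b p.1)) := by
  classical
  have hprev : ∀ m, prevV V m ≤ V m := by
    intro m
    cases m with
    | zero => exact bot_le
    | succ m => exact hmono (Nat.le_succ m)
  have hprevX : ∀ m, prevX x V m ≤ V m := by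
    intro m
    refine sup_le (hprev m) ?_
    cases m with
    | zero => simp [prevV]
    | succ m => exact hxV m
  choose W hW1 hW2 hW3 using fun m => exists_compl_in (prevX x V m) (V m) (hprevX m)
  let B : ∀ m, Module.Basis (Module.Basis.ofVectorSpaceIndex K (W m)) K (W m) :=
    fun m => Module.Basis.ofVectorSpace K (W m)
  let ι : Type u := Σ m, Module.Basis.ofVectorSpaceIndex K (W m)
  let b : ι → M := fun i => ((B i.1 i.2 : W i.1) : M)
  let d : ι → ℕ := fun i => i.1
  have hb : ∀ i, b i ∈ V (d i) := fun i => hW1 _ (B i.1 i.2).2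
  have hbW : ∀ i, b i ∈ W (d i) := fun i => (B i.1 i.2).2
  have hxk : ∀ (k m : ℕ) (a : M), a ∈ V m → (x ^ k) a ∈ V (k + m) := by
    intro k
    induction k with
    | zero => intro m a ha; simpa using ha
    | succ k ih =>
      intro m a ha
      rw [pow_succ', Module.End.mul_apply, show k + 1 + m = (k + m) + 1 by ring]
      exact hxV _ ⟨_, ih m a ha, rfl⟩
  let Φ : (ι × ℕ →₀ K) →ₗ[K] M :=
    Finsupp.linearCombination K (fun p : ι × ℕ => (x ^ p.2) (b p.1))
  have hΦ : ∀ c, Φ c = c.sum fun p a => a • (x ^ p.2) (b p.1) := fun c =>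
    Finsupp.linearCombination_apply K c
  -- spanning
  have hspan : ∀ m, V m ≤ span K {y | ∃ (i : ι) (k : ℕ), k + d i ≤ m ∧ y = (x ^ k) (b i)} := by
    intro m
    induction m with
    | zero =>
      refine (hW3 0).trans (sup_le ?_ ?_)
      · intro a ha
        have h1 := (B 0).mem_span ⟨a, ha⟩
        have h2 := Submodule.mem_map_of_mem (f := (W 0).subtype) h1
        rw [Submodule.map_span] at h2
        refine Submodule.span_mono ?_ h2
        rintro _ ⟨_, ⟨j, rfl⟩, rfl⟩
        exact ⟨⟨0, j⟩, 0, by simp [d], by simp [b]⟩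
      · simp [prevX, prevV]
    | succ m ih =>
      refine (hW3 (m + 1)).trans (sup_le ?_ (sup_le ?_ ?_))
      · intro a ha
        have h1 := (B (m + 1)).mem_span ⟨a, ha⟩
        have h2 := Submodule.mem_map_of_mem (f := (W (m + 1)).subtype) h1
        rw [Submodule.map_span] at h2
        refine Submodule.span_mono ?_ h2
        rintro _ ⟨_, ⟨j, rfl⟩, rfl⟩
        exact ⟨⟨m + 1, j⟩, 0, by simp [d], by simp [b]⟩
      · refine ih.trans (Submodule.span_mono ?_)
        rintro _ ⟨i, k, h, rfl⟩
        exact ⟨i, k, by omega, rfl⟩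
      · change (V m).map x ≤ _
        refine (Submodule.map_mono ih).trans ?_
        rw [Submodule.map_span]
        refine Submodule.span_mono ?_
        rintro _ ⟨_, ⟨i, k, h, rfl⟩, rfl⟩
        exact ⟨i, k + 1, by omega, by rw [pow_succ', Module.End.mul_apply]⟩
  -- independence in top degree
  have hind : ∀ m, ∀ c : ι × ℕ →₀ K, (∀ p ∈ c.support, p.2 + d p.1 = m) →
      Φ c ∈ prevV V m → c = 0 := by
    intro m
    induction m with
    | zero =>
      intro c hc h0
      rw [prevV, Submodule.mem_bot] at h0
      -- reduce to the basis of `W 0`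
      let g : Module.Basis.ofVectorSpaceIndex K (W 0) ↪ ι × ℕ :=
        ⟨fun j => (⟨0, j⟩, 0), fun j j' h =>
          eq_of_heq (Sigma.mk.inj (congrArg Prod.fst h)).2⟩
      have hc' : ∃ e : Module.Basis.ofVectorSpaceIndex K (W 0) →₀ K, c = e.embDomain g := by
        refine ⟨c.comapDomain g g.injective.injOn, ?_⟩
        ext p
        by_cases hp : p ∈ Set.range g
        · obtain ⟨j, rfl⟩ := hp
          rw [Finsupp.embDomain_apply_self, Finsupp.comapDomain_apply]
        · rw [Finsupp.embDomain_of_notMem_range _ _ _ hp]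
          by_contra hne
          have := hc p (Finsupp.mem_support_iff.2 hne)
          apply hp
          obtain ⟨⟨m, j⟩, k⟩ := p
          have h1 : k + m = 0 := this
          obtain ⟨rfl, rfl⟩ : k = 0 ∧ m = 0 := by omega
          exact ⟨j, rfl⟩
      obtain ⟨e, rfl⟩ := hc'
      have h1 : Φ (e.embDomain g) = ((Finsupp.linearCombination K (B 0) e : W 0) : M) := by
        rw [hΦ, Finsupp.sum_embDomain, Finsupp.linearCombination_apply, Finsupp.sum, Finsupp.sum,
          Submodule.coe_sum]
        refine Finset.sum_congr rfl fun j _ => ?_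
        change e j • ((x ^ 0) ((B 0 j : W 0) : M)) = e j • ((B 0 j : W 0) : M)
        rw [pow_zero, Module.End.one_apply]
      rw [h1, ZeroMemClass.coe_eq_zero] at h0
      have h2 := linearIndependent_iff.1 (B 0).linearIndependent e h0
      rw [h2, Finsupp.embDomain_zero]
    | succ m ih =>
      intro c hc h0
      change Φ c ∈ V m at h0
      let g : Module.Basis.ofVectorSpaceIndex K (W (m + 1)) ↪ ι × ℕ :=
        ⟨fun j => (⟨m + 1, j⟩, 0), fun j j' h =>
          eq_of_heq (Sigma.mk.inj (congrArg Prod.fst h)).2⟩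
      let s : ι × ℕ ↪ ι × ℕ := ⟨fun p => (p.1, p.2 + 1), fun p p' h => by
        simp only [Prod.mk.injEq, Nat.add_right_cancel_iff] at h
        exact Prod.ext h.1 h.2⟩
      set e := c.comapDomain g g.injective.injOn with he
      set c' := c.comapDomain s s.injective.injOn with hc'
      have hdec : c = e.embDomain g + c'.embDomain s := by
        ext p
        rw [Finsupp.add_apply]
        by_cases hp : p ∈ Set.range g
        · obtain ⟨j, rfl⟩ := hp
          have h1 : g j ∉ Set.range s := by
            rintro ⟨p, hp⟩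
            have := congrArg Prod.snd hp
            simp [s, g] at this
          rw [Finsupp.embDomain_apply_self, Finsupp.comapDomain_apply,
            Finsupp.embDomain_of_notMem_range _ _ _ h1, add_zero]
        · rw [Finsupp.embDomain_of_notMem_range _ _ _ hp, zero_add]
          by_cases hp' : p ∈ Set.range s
          · obtain ⟨p', rfl⟩ := hp'
            rw [Finsupp.embDomain_apply_self, Finsupp.comapDomain_apply]
          · rw [Finsupp.embDomain_of_notMem_range _ _ _ hp']
            by_contra hne
            have := hc p (Finsupp.mem_support_iff.2 hne)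
            obtain ⟨⟨m', j⟩, k⟩ := p
            have h1 : k + m' = m + 1 := this
            cases k with
            | zero =>
              obtain rfl : m' = m + 1 := by omega
              exact hp ⟨j, rfl⟩
            | succ k => exact hp' ⟨(⟨m', j⟩, k), rfl⟩
      have h1 : Φ (e.embDomain g) =
          ((Finsupp.linearCombination K (B (m + 1)) e : W (m + 1)) : M) := by
        rw [hΦ, Finsupp.sum_embDomain, Finsupp.linearCombination_apply, Finsupp.sum, Finsupp.sum,
          Submodule.coe_sum]
        refine Finset.sum_congr rfl fun j _ => ?_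
        change e j • ((x ^ 0) ((B (m + 1) j : W (m + 1)) : M)) = e j • ((B (m + 1) j : W (m + 1)) : M)
        rw [pow_zero, Module.End.one_apply]
      have h2 : Φ (c'.embDomain s) = x (Φ c') := by
        rw [hΦ, hΦ, Finsupp.sum_embDomain, Finsupp.sum, Finsupp.sum, map_sum]
        refine Finset.sum_congr rfl fun p _ => ?_
        change c' p • ((x ^ (p.2 + 1)) (b p.1)) = x (c' p • ((x ^ p.2) (b p.1)))
        rw [map_smul, pow_succ', Module.End.mul_apply]
      have hc'supp : ∀ p ∈ c'.support, p.2 + d p.1 = m := by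
        intro p hp
        have h3 : s p ∈ c.support := by
          rw [hc', Finsupp.mem_support_iff, Finsupp.comapDomain_apply] at hp
          exact Finsupp.mem_support_iff.2 hp
        have h4 := hc _ h3
        have h5 : p.2 + 1 + d p.1 = m + 1 := h4
        omega
      have hc'V : Φ c' ∈ V m := by
        rw [hΦ, Finsupp.sum]
        refine Submodule.sum_mem _ fun p hp => Submodule.smul_mem _ _ ?_
        rw [← hc'supp p hp]
        exact hxk _ _ _ (hb _)
      have hW : Φ (e.embDomain g) ∈ W (m + 1) := by rw [h1]; exact Subtype.property _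
      have hP : Φ (e.embDomain g) ∈ prevX x V (m + 1) := by
        have h3 : Φ (e.embDomain g) = Φ c - x (Φ c') := by
          rw [← h2, ← map_sub]
          congr 1
          rw [eq_sub_iff_add_eq, ← hdec]
        rw [h3]
        exact Submodule.sub_mem _ (Submodule.mem_sup_left h0)
          (Submodule.mem_sup_right ⟨_, hc'V, rfl⟩)
      have h3 : Φ (e.embDomain g) = 0 := by
        have : Φ (e.embDomain g) ∈ W (m + 1) ⊓ prevX x V (m + 1) := ⟨hW, hP⟩
        rwa [hW2, Submodule.mem_bot] at this
      have he0 : e = 0 := by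
        rw [h1, ZeroMemClass.coe_eq_zero] at h3
        exact linearIndependent_iff.1 (B (m + 1)).linearIndependent e h3
      have h4 : Φ c = x (Φ c') := by
        rw [hdec, map_add, h3, zero_add, h2]
      have h5 : Φ c' ∈ prevV V m := hs m _ hc'V (h4 ▸ h0)
      have h6 := ih c' hc'supp h5
      rw [hdec, he0, h6, Finsupp.embDomain_zero, Finsupp.embDomain_zero, add_zero]
  refine ⟨ι, b, d, hb, hspan, ?_⟩
  rw [linearIndependent_iff]
  intro c hc
  by_contra hne
  have hsupp : c.support.Nonempty := Finsupp.support_nonempty_iff.2 hne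
  obtain ⟨p0, hp0, hmax⟩ := Finset.exists_max_image c.support (fun p => p.2 + d p.1) hsupp
  set m := p0.2 + d p0.1 with hm
  have hsplit := Finsupp.filter_pos_add_filter_neg c (fun p => p.2 + d p.1 = m)
  have h1 : c.filter (fun p => p.2 + d p.1 = m) = 0 := by
    refine hind m _ ?_ ?_
    · intro p hp
      rw [Finsupp.support_filter, Finset.mem_filter] at hp
      exact hp.2
    · have h2 : Φ (c.filter (fun p => p.2 + d p.1 = m)) =
          - Φ (c.filter (fun p => ¬ p.2 + d p.1 = m)) := by
        rw [eq_neg_iff_add_eq_zero, ← map_add, hsplit]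
        exact hc
      rw [h2]
      refine Submodule.neg_mem _ ?_
      rw [hΦ, Finsupp.sum]
      refine Submodule.sum_mem _ fun p hp => Submodule.smul_mem _ _ ?_
      rw [Finsupp.support_filter, Finset.mem_filter] at hp
      have h3 := hmax p hp.1
      have h4 : p.2 + d p.1 < m := lt_of_le_of_ne h3 hp.2
      obtain ⟨m', hm'⟩ : ∃ m', m = m' + 1 := ⟨m - 1, by omega⟩
      rw [hm']
      change _ ∈ V m'
      exact hmono (show p.2 + d p.1 ≤ m' by omega) (hxk _ _ _ (hb _))
  have h2 := Finsupp.filter_apply_pos (fun p => p.2 + d p.1 = m) c (a := p0) hm.symm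
  rw [h1, Finsupp.zero_apply] at h2
  exact (Finsupp.mem_support_iff.1 hp0) h2.symm

end Fermat.Agent.QComp
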