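import Fermat.Agent.QComp.ICAux

/-!
# The symmetric coordinate `x = j j₂`
-/

set_option autoImplicit false
set_option linter.unusedSectionVars false
set_option linter.style.haveILetI false

open Polynomial IsLocalRing AlgebraicCurve IntermediateField

namespace Fermat.Agent.QComp

section Coord

variable {K L : Type*} [Field K] [Field L] [Algebra K L]
variable {R : Type*} [CommRing R] [Algebra R K]
variable {j j2 : L} (h2 : j2 ∈ IC K L R j) (h1 : j ∈ IC K L R j2)

include h1 in
theorem left_mem_IC_mul : j ∈ IC K L R (j * j2) := by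
  rw [mem_IC_iff_valuation] at h1 ⊢
  intro V hc hx
  by_contra hj
  have hj0 : j ≠ 0 := by rintro rfl; exact hj (zero_mem _)
  have hji : j⁻¹ ∈ V := (V.mem_or_inv_mem j).resolve_left hj
  apply hj
  apply h1 V hc
  have : j2 = j⁻¹ * (j * j2) := by field_simp
  rw [this]
  exact mul_mem hji hx

include h2 in
theorem left_inv_mem_IC_mul (hj0 : j ≠ 0) (hj20 : j2 ≠ 0) : j⁻¹ ∈ IC K L R (j * j2)⁻¹ := by
  rw [mem_IC_iff_valuation] at h2 ⊢
  intro V hc hx
  by_contra hj
  have hjV : j ∈ V := by
    have := (V.mem_or_inv_mem j⁻¹).resolve_left hj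
    rwa [inv_inv] at this
  have hj2V := h2 V hc hjV
  apply hj
  have : j⁻¹ = (j * j2)⁻¹ * j2 := by field_simp
  rw [this]
  exact mul_mem hx hj2V

include h1 h2 in
theorem right_mem_IC_mul : j2 ∈ IC K L R (j * j2) := by
  rw [mul_comm]
  exact left_mem_IC_mul h2

include h1 h2 in
theorem right_inv_mem_IC_mul (hj0 : j ≠ 0) (hj20 : j2 ≠ 0) : j2⁻¹ ∈ IC K L R (j * j2)⁻¹ := by
  rw [mul_comm]
  exact left_inv_mem_IC_mul h1 hj20 hj0

include h2 in
theorem mul_mem_IC_left : j * j2 ∈ IC K L R j := mul_mem (self_mem_IC j) h2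

include h1 h2 in
theorem IC_mul_eq : IC K L R (j * j2) = IC K L R j :=
  le_antisymm (IC_le_of_mem (mul_mem_IC_left h2)) (IC_le_of_mem (left_mem_IC_mul h1))

end Coord

section OverG

variable {K L : Type*} [Field K] [Field L] [Algebra K L]
variable {A : Type*} [CommRing A] [IsDomain A] [ValuationRing A] [Algebra A K] [IsFractionRing A K]
variable {j j2 : L} (h2 : j2 ∈ IC K L A j) (h1 : j ∈ IC K L A j2)

include h1 h2 in
theorem overGauss_mul_iff (hj : Transcendental K j) (hx : Transcendental K (j * j2))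
    {V : ValuationSubring L} : OverGauss K A (j * j2) V ↔ OverGauss K A j V := by
  constructor
  · intro h
    refine h.of_mem_IC hx ?_ (mul_mem_IC_left h2)
    exact mem_IC_iff_valuation.1 (left_mem_IC_mul h1) V h.const_mem h.mem
  · intro h
    refine h.of_mem_IC hj ?_ (left_mem_IC_mul h1)
    exact mem_IC_iff_valuation.1 (mul_mem_IC_left h2) V h.const_mem h.mem

end OverG

end Fermat.Agent.QComp
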