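import Fermat.Agent.QComp.InstI

/-!
# The derivative of `j` at the cusps
-/

set_option autoImplicit false
set_option linter.unusedSectionVars false
set_option linter.style.haveILetI false
set_option linter.unusedVariables false

noncomputable section

open AlgebraicCurve ModularCurve IntermediateField Module Polynomial IsLocalRing

namespace Fermat.Agent.QComp

open Fermat.Agent.FF Fermat.Agent.Red Fermat.Agent.QVal

local notation "Qb" => AlgebraicClosure ℚ

theorem ord_aeval_of_neg {k κ : Type*} [Field k] [Field κ] [Algebra k κ] (v : Place k κ) {x : κ}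
    (hx : v.ord x < 0) : ∀ (d : ℕ) (H : k[X]), H ≠ 0 → H.natDegree = d →
      aeval x H ≠ 0 ∧ v.ord (aeval x H) = d * v.ord x := by
  have hx0 : x ≠ 0 := by rintro rfl; rw [v.ord_zero] at hx; omega
  intro d
  induction d with
  | zero =>
    intro H hH hd
    obtain ⟨a, rfl⟩ := natDegree_eq_zero.1 hd
    have ha : a ≠ 0 := by rintro rfl; simp at hH
    rw [aeval_C, FF.ord_algebraMap]
    exact ⟨by simpa using ha, by norm_num⟩
  | succ d ih =>
    intro H hH hd
    have h1 : H.divX ≠ 0 := by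
      intro h
      rw [divX_eq_zero_iff] at h
      rw [h, natDegree_C] at hd
      omega
    obtain ⟨h2, h3⟩ := ih H.divX h1 (by rw [natDegree_divX_eq_natDegree_tsub_one, hd]; omega)
    have e : aeval x H = aeval x H.divX * x + algebraMap k κ (H.coeff 0) := by
      conv_lhs => rw [← divX_mul_X_add H]
      rw [map_add, map_mul, aeval_X, aeval_C]
    have hne : aeval x H.divX * x ≠ 0 := mul_ne_zero h2 hx0
    have h4 : v.ord (aeval x H.divX * x) = (d + 1 : ℕ) * v.ord x := by
      rw [v.ord_mul h2 hx0, h3]; push_cast; ring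
    have h5 : v.ord (aeval x H.divX * x) < 0 := by
      rw [h4]
      exact mul_neg_of_pos_of_neg (by positivity) hx
    have h6 : v.ord (aeval x H) = v.ord (aeval x H.divX * x) := by
      rw [e]
      exact FF.ord_add_eq_of_lt v hne (Or.inr (by rw [FF.ord_algebraMap]; exact h5))
    refine ⟨fun h => ?_, by rw [h6, h4]⟩
    rw [h, v.ord_zero] at h6
    omega

variable {k : Type*} [Field k] {A : ValuationSubring Qb} {π : A →+* k} {M q : ℕ} [NeZero M]
  [NeZero q] [hqf : Fact q.Prime] (hA : A.LiesOverPrime q) (hπ : ∀ a : A, π a = 0 ↔ ¬ IsUnit a)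
  (hs : Function.Surjective π) (hM : ¬ q ∣ M)

variable [CharP k q] [PerfectRing k q]

/-- The order of `(θ j)^(q-1)` at the cusps. -/
theorem ord_Th_cusp (v : Place k (modularFunctionFieldFullC k M)) (hv : v.ord (RedQ.xj k M) < 0) :
    Th hA hπ hs hM (RedQ.xj k M) ≠ 0 ∧
      v.ord (Th hA hπ hs hM (RedQ.xj k M)) = (q - 1 : ℕ) * v.ord (RedQ.xj k M) := by
  obtain ⟨h, hh, -⟩ := exists_hasse M hA hπ hs hM
  set x := RedQ.xj k M with hx
  set T := Th hA hπ hs hM x with hT
  have hx0 : x ≠ 0 := by intro h0; rw [h0, v.ord_zero] at hv; omega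
  -- the relation
  have h1 : h * T ^ 6 = (x ^ 4 * (x - 1728) ^ 3) ^ (q - 1) := by
    apply Subtype.ext
    have h2 : (h : LaurentSeries k) * (T : LaurentSeries k) ^ 6 =
        ((x : LaurentSeries k) ^ 4 * ((x : LaurentSeries k) - 1728) ^ 3) ^ (q - 1) := by
      rw [hT, coe_Th, ← pow_mul, mul_comm (q - 1) 6, pow_mul]
      change (h : LaurentSeries k) * ((theta k (jqModC k)) ^ 6) ^ (q - 1) = _
      rw [theta_j_pow_six]
      change (h : LaurentSeries k) * (Igusa.deltaC k * (x : LaurentSeries k) ^ 4 *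
        ((x : LaurentSeries k) - 1728) ^ 3) ^ (q - 1) = _
      rw [mul_assoc, mul_pow (Igusa.deltaC k), ← mul_assoc, hh, one_mul]
    have h3 : ((1728 : modularFunctionFieldFullC k M) : LaurentSeries k) = 1728 :=
      map_ofNat (algebraMap (modularFunctionFieldFullC k M) (LaurentSeries k)) 1728
    push_cast
    rw [h2]
    rfl
  have e1728 : (1728 : modularFunctionFieldFullC k M) = algebraMap k _ 1728 :=
    (map_ofNat (algebraMap k (modularFunctionFieldFullC k M)) 1728).symm
  have h2 : v.ord (x - 1728) = v.ord x := by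
    rw [sub_eq_add_neg]
    refine FF.ord_add_eq_of_lt v hx0 (Or.inr ?_)
    rw [FF.ord_neg, e1728, FF.ord_algebraMap]
    exact hv
  have hx1 : x - 1728 ≠ 0 := by
    intro h0
    rw [h0, v.ord_zero] at h2
    omega
  obtain ⟨H, hHd, hHh⟩ := exists_poly_hasse hA hπ hs hh
  have hH0 : H ≠ 0 := by
    rintro rfl
    rw [map_zero] at hHh
    exact hasse_ne hh (by rw [hHh]; rfl)
  obtain ⟨h3, h4⟩ := ord_aeval_of_neg v hv (q - 1) H hH0 hHd
  rw [← hHh] at h3 h4
  have hr : (x ^ 4 * (x - 1728) ^ 3) ^ (q - 1) ≠ 0 :=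
    pow_ne_zero _ (mul_ne_zero (pow_ne_zero _ hx0) (pow_ne_zero _ hx1))
  have hT0 : T ≠ 0 := by
    intro h0
    rw [h0] at h1
    simp only [ne_eq, OfNat.ofNat_ne_zero, not_false_eq_true, zero_pow, mul_zero] at h1
    exact hr h1.symm
  refine ⟨hT0, ?_⟩
  have h5 := congrArg v.ord h1
  rw [v.ord_mul h3 (pow_ne_zero _ hT0), FF.ord_pow, FF.ord_pow,
    v.ord_mul (pow_ne_zero _ hx0) (pow_ne_zero _ hx1), FF.ord_pow, FF.ord_pow, h2, h4] at h5
  push_cast at h5 ⊢
  linarith

end Fermat.Agent.QComp
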