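import Fermat.Agent.QComp.NoethIC
import Fermat.Agent.RR.Approx
import Fermat.Prelude.Def_AlgebraicCurve_BaseChangeGalois
import Mathlib.Algebra.Polynomial.Basis
import Mathlib.RingTheory.AlgebraTower

/-!
# Descent to the fixed field of a group of semilinear automorphisms
-/

set_option autoImplicit false
set_option linter.unusedSectionVars false
set_option linter.style.haveILetI false

open Polynomial IsLocalRing AlgebraicCurve IsDedekindDomain WithZero

namespace Fermat.Agent.QComp

section Artin

variable {K0 K L : Type*} [Field K0] [Field K] [Field L] [Algebra K0 K] [Algebra K L]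
  [Algebra K0 L] [IsScalarTower K0 K L]

/-- `K0` is the field of constants fixed by `G`, and `F0` is the fixed field of `G`. -/
structure IsFixed (G : Subgroup (SemilinearAut K L)) (F0 : IntermediateField K0 L) : Prop where
  base : ∀ a : K, (∀ g ∈ G, SemilinearAut.baseAut g a = a) → a ∈ (algebraMap K0 K).range
  base' : ∀ g ∈ G, ∀ a : K0, SemilinearAut.baseAut g (algebraMap K0 K a) = algebraMap K0 K a
  mem_iff : ∀ z : L, z ∈ F0 ↔ ∀ g ∈ G, g • z = z

variable {G : Subgroup (SemilinearAut K L)} {F0 : IntermediateField K0 L}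

theorem smul_algebraMap_mul (g : SemilinearAut K L) (a : K) (z : L) :
    g • (algebraMap K L a * z) = algebraMap K L (SemilinearAut.baseAut g a) * g • z := by
  rw [smul_mul', SemilinearAut.smul_algebraMap]

/-- Artin's lemma: `F0` and `K` are linearly disjoint over `K0`. -/
theorem IsFixed.linearIndependent (H : IsFixed (K0 := K0) G F0) {ι : Type*} {e : ι → F0}
    (he : LinearIndependent K0 e) : LinearIndependent K (fun i => (e i : L)) := by
  classical
  rw [linearIndependent_iff'] at he ⊢
  intro s
  induction s using Finset.induction_on with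
  | empty => intro c _ i hi; exact absurd hi (Finset.notMem_empty i)
  | insert a s has ih =>
    intro c hc
    by_cases hca : c a = 0
    · rw [Finset.sum_insert has, hca, zero_smul, zero_add] at hc
      intro i hi
      rcases Finset.mem_insert.1 hi with rfl | hi
      · exact hca
      · exact ih c hc i hi
    exfalso
    set d : ι → K := fun i => c i / c a with hd
    have hda : d a = 1 := div_self hca
    have hsum : ∑ i ∈ insert a s, algebraMap K L (d i) * (e i : L) = 0 := by
      have h1 : ∑ i ∈ insert a s, algebraMap K L (d i) * (e i : L) =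
          algebraMap K L (c a)⁻¹ * ∑ i ∈ insert a s, c i • (e i : L) := by
        rw [Finset.mul_sum]
        refine Finset.sum_congr rfl fun i _ => ?_
        rw [Algebra.smul_def, ← mul_assoc, ← map_mul, hd]
        congr 2
        exact div_eq_inv_mul _ _
      rw [h1, hc, mul_zero]
    rw [Finset.sum_insert has, hda, map_one, one_mul] at hsum
    have hfix : ∀ i ∈ s, d i ∈ (algebraMap K0 K).range := by
      intro i hi
      refine H.base _ fun g hg => ?_
      have hei : ∀ j, g • (e j : L) = e j := fun j => (H.mem_iff _).1 (e j).2 g hg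
      have h1 : g • ((e a : L) + ∑ i ∈ s, algebraMap K L (d i) * (e i : L)) = 0 := by
        rw [hsum, smul_zero]
      rw [smul_add, hei, Finset.smul_sum] at h1
      have h2 : ∑ i ∈ s, (SemilinearAut.baseAut g (d i) - d i) • (e i : L) = 0 := by
        have h3 : ∑ i ∈ s, g • (algebraMap K L (d i) * (e i : L)) =
            ∑ i ∈ s, algebraMap K L (d i) * (e i : L) := by
          have := h1.trans hsum.symm
          exact add_left_cancel this
        have h4 : ∀ i ∈ s, (SemilinearAut.baseAut g (d i) - d i) • (e i : L) =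
            g • (algebraMap K L (d i) * (e i : L)) - algebraMap K L (d i) * (e i : L) := by
          intro i _
          rw [smul_algebraMap_mul, hei, Algebra.smul_def, map_sub, sub_mul]
        rw [Finset.sum_congr rfl h4, Finset.sum_sub_distrib, h3, sub_self]
      exact sub_eq_zero.1 (ih _ h2 i hi)
    choose! d0 hd0 using hfix
    have h5 := he (insert a s) (fun i => if i = a then 1 else d0 i) (by
      rw [Finset.sum_insert has]
      apply (algebraMap F0 L).injective
      have h6 : ∀ i ∈ s, algebraMap F0 L ((if i = a then (1 : K0) else d0 i) • e i) =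
          algebraMap K L (d i) * (e i : L) := by
        intro i hi
        have hia : i ≠ a := fun h => has (h ▸ hi)
        rw [if_neg hia, ← hd0 i hi, ← IsScalarTower.algebraMap_apply, Algebra.smul_def, map_mul,
          ← IsScalarTower.algebraMap_apply]
        rfl
      rw [map_add, map_sum, Finset.sum_congr rfl h6, if_pos rfl, one_smul, map_zero]
      exact hsum) a (Finset.mem_insert_self a s)
    simp at h5

variable {E0 E : Type*} [Field E0] [Field E] [Algebra K0 E0] [Algebra E0 F0] [Algebra K E]
  [Algebra E L]  [IsScalarTower K0 E0 F0] [IsScalarTower K E L]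

/-- linear independence over `K0(x)` implies linear independence over `K(x)`. -/
theorem IsFixed.linearIndependent_adjoin (H : IsFixed (K0 := K0) G F0) {t0 : E0} {t : E}
    (ht0 : IsGen K0 t0) (ht : IsGen K t)
    (hx : algebraMap E L t = (algebraMap E0 F0 t0 : F0)) {ι : Type*} {e : ι → F0}
    (he : LinearIndependent E0 e) : LinearIndependent E (fun i => (e i : L)) := by
  classical
  letI i1 := (ev K0 K0 t0).toAlgebra
  letI i2 := ((algebraMap E0 F0).comp (ev K0 K0 t0)).toAlgebra
  letI i3 := (ev K K t).toAlgebra
  letI i4 := ((algebraMap E L).comp (ev K K t)).toAlgebra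
  haveI : IsScalarTower K0[X] E0 F0 := IsScalarTower.of_algebraMap_eq fun _ => rfl
  haveI : IsScalarTower K[X] E L := IsScalarTower.of_algebraMap_eq fun _ => rfl
  haveI := isFractionRing_ev K0 K0 ht0
  haveI := isFractionRing_ev K K ht
  rw [← LinearIndependent.iff_fractionRing K0[X] E0] at he
  rw [← LinearIndependent.iff_fractionRing K[X] E]
  haveI : IsScalarTower K0 K0[X] F0 := IsScalarTower.of_algebraMap_eq fun a => by
    change algebraMap K0 F0 a = algebraMap E0 F0 (ev K0 K0 t0 (C a))
    rw [ev_C]
    exact IsScalarTower.algebraMap_apply K0 E0 F0 a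
  have h1 := linearIndependent_smul (basisMonomials K0).linearIndependent he
  have h2 := H.linearIndependent h1
  have h3 : ∀ p : ℕ × ι, (((basisMonomials K0) p.1 • e p.2 : F0) : L) =
      (algebraMap E L t) ^ p.1 * (e p.2 : L) := by
    intro p
    rw [Algebra.smul_def]
    change ((algebraMap E0 F0 (ev K0 K0 t0 (basisMonomials K0 p.1)) * e p.2 : F0) : L) = _
    have h4 : basisMonomials K0 p.1 = X ^ p.1 := by
      rw [coe_basisMonomials]
      exact monomial_one_right_eq_X_pow _
    rw [h4, map_pow, ev_X, hx, map_pow]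
    rfl
  simp only [h3] at h2
  rw [linearIndependent_iff'] at h2 ⊢
  intro s c hc i hi
  set N := (s.sup fun i => (c i).natDegree) + 1 with hN
  have hdeg : ∀ i ∈ s, (c i).natDegree < N := fun i hi => by
    have := Finset.le_sup (f := fun i => (c i).natDegree) hi
    change (c i).natDegree ≤ _ at this
    omega
  have h4 := h2 (Finset.range N ×ˢ s) (fun p => (c p.2).coeff p.1) (by
    rw [Finset.sum_product_right, ← hc]
    refine Finset.sum_congr rfl fun i hi => ?_
    rw [Algebra.smul_def (c i)]
    change _ = algebraMap E L (ev K K t (c i)) * (e i : L)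
    conv_rhs => rw [(c i).as_sum_range' N (hdeg i hi)]
    rw [map_sum, map_sum, Finset.sum_mul]
    refine Finset.sum_congr rfl fun n _ => ?_
    rw [← C_mul_X_pow_eq_monomial, map_mul, ev_C, map_pow, ev_X, map_mul, map_pow, Algebra.smul_def,
      mul_assoc, ← IsScalarTower.algebraMap_apply]
    rfl)
  ext n
  rw [coeff_zero]
  by_cases hn : n < N
  · exact h4 (n, i) (Finset.mem_product.2 ⟨Finset.mem_range.2 hn, hi⟩)
  · exact coeff_eq_zero_of_natDegree_lt (by have := hdeg i hi; omega)

theorem IsFixed.finiteDimensional (H : IsFixed (K0 := K0) G F0) {t0 : E0} {t : E}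
    (ht0 : IsGen K0 t0) (ht : IsGen K t)
    (hx : algebraMap E L t = (algebraMap E0 F0 t0 : F0)) [FiniteDimensional E L] :
    FiniteDimensional E0 F0 := by
  have h1 := H.linearIndependent_adjoin ht0 ht hx (Module.Basis.ofVectorSpace E0 F0).linearIndependent
  haveI := h1.finite
  exact Module.Finite.of_basis (Module.Basis.ofVectorSpace E0 F0)

variable {A0 A : Type*} [CommRing A0] [CommRing A] [Algebra A0 K0] [Algebra A K]

theorem isIntegral_mapRingHom {ι : A0 →+* A} (hι : ι.IsIntegral) :
    (mapRingHom ι).IsIntegral := by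
  intro p
  induction p using Polynomial.induction_on' with
  | add p q hp hq => exact hp.add _ hq
  | monomial n a =>
    rw [← C_mul_X_pow_eq_monomial]
    refine RingHom.IsIntegralElem.mul _ ?_ ?_
    · obtain ⟨r, hr, hra⟩ := hι a
      refine ⟨r.map C, hr.map C, ?_⟩
      have h1 : (mapRingHom ι).comp C = C.comp ι := by
        ext x
        simp
      rw [eval₂_map, h1, ← hom_eval₂, hra, map_zero]
    · have h1 : (X : A[X]) ^ n = mapRingHom ι (X ^ n) := by simp
      rw [h1]
      exact RingHom.isIntegralElem_map _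

theorem mem_IC_iff_of_fixed {t0 : E0} {t : E}
    (hx : algebraMap E L t = (algebraMap E0 F0 t0 : F0)) {ι : A0 →+* A} (hι : ι.IsIntegral)
    (hcomp : ∀ a, algebraMap A K (ι a) = algebraMap K0 K (algebraMap A0 K0 a)) (a : F0) :
    (a : L) ∈ IC K L A t ↔ a ∈ IC K0 F0 A0 t0 := by
  have key : (((algebraMap E L).comp (ev K A t)).comp (mapRingHom ι)) =
      (algebraMap F0 L).comp ((algebraMap E0 F0).comp (ev K0 A0 t0)) := by
    refine Polynomial.ringHom_ext (fun r => ?_) ?_
    · change algebraMap E L (ev K A t (mapRingHom ι (C r))) =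
        algebraMap F0 L (algebraMap E0 F0 (ev K0 A0 t0 (C r)))
      rw [coe_mapRingHom, map_C, ev_C, ev_C, hcomp, ← IsScalarTower.algebraMap_apply K E L,
        ← IsScalarTower.algebraMap_apply K0 E0 F0, ← IsScalarTower.algebraMap_apply K0 F0 L,
        ← IsScalarTower.algebraMap_apply K0 K L]
    · change algebraMap E L (ev K A t (mapRingHom ι X)) =
        algebraMap F0 L (algebraMap E0 F0 (ev K0 A0 t0 X))
      rw [coe_mapRingHom, map_X, ev_X, ev_X, hx]
      rfl
  constructor
  · intro h
    letI i1 := (mapRingHom ι).toAlgebra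
    letI i2 := ((algebraMap E L).comp (ev K A t)).toAlgebra
    letI i3 := (((algebraMap E L).comp (ev K A t)).comp (mapRingHom ι)).toAlgebra
    letI i4 := ((algebraMap E0 F0).comp (ev K0 A0 t0)).toAlgebra
    haveI : IsScalarTower A0[X] A[X] L := IsScalarTower.of_algebraMap_eq fun _ => rfl
    haveI : IsScalarTower A0[X] F0 L := IsScalarTower.of_algebraMap_eq fun p =>
      congrArg (fun f : A0[X] →+* L => f p) key
    haveI : Algebra.IsIntegral A0[X] A[X] := ⟨isIntegral_mapRingHom hι⟩
    have h1 : IsIntegral A[X] (a : L) := h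
    have h2 : IsIntegral A0[X] (algebraMap F0 L a) := isIntegral_trans (R := A0[X]) _ h1
    exact (isIntegral_algebraMap_iff (algebraMap F0 L).injective).1 h2
  · rintro ⟨p, hp, hpa⟩
    refine ⟨p.map (mapRingHom ι), hp.map _, ?_⟩
    rw [eval₂_map, key]
    change eval₂ _ (algebraMap F0 L a) p = 0
    rw [← hom_eval₂, hpa, map_zero]

/-- the ring of `K0`-rational integral elements -/
noncomputable def SF (K L A : Type*) {E : Type*} [Field K] [Field E] [Field L] [Algebra K E]
    [Algebra E L] [CommRing A] [Algebra A K] {K0 : Type*} [Field K0] [Algebra K0 L]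
    (F0 : IntermediateField K0 L) (t : E) : Subring L :=
  IC K L A t ⊓ F0.toSubfield.toSubring

theorem mem_SF {t : E} {z : L} : z ∈ SF K L A F0 t ↔ z ∈ IC K L A t ∧ z ∈ F0 := Iff.rfl

theorem isNoetherianRing_SF [IsDomain A0] [IsFractionRing A0 K0] [IsIntegrallyClosed A0]
    [IsNoetherianRing A0] [CharZero K0] [FiniteDimensional E0 F0] {t0 : E0} {t : E}
    (ht0 : IsGen K0 t0) (hx : algebraMap E L t = (algebraMap E0 F0 t0 : F0)) {ι : A0 →+* A}
    (hι : ι.IsIntegral)
    (hcomp : ∀ a, algebraMap A K (ι a) = algebraMap K0 K (algebraMap A0 K0 a)) :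
    IsNoetherianRing (SF K L A F0 t) := by
  haveI : CharZero E0 := charZero_of_injective_algebraMap (algebraMap K0 E0).injective
  haveI := isNoetherianRing_IC (R := A0) (L := F0) ht0
  have hmem := mem_IC_iff_of_fixed (K := K) (L := L) (F0 := F0) hx hι hcomp
  let φ : IC K0 F0 A0 t0 →+* SF K L A F0 t :=
    ((algebraMap F0 L).comp (IC K0 F0 A0 t0).subtype).codRestrict _ fun a =>
      ⟨(hmem a).2 a.2, (a : F0).2⟩
  refine isNoetherianRing_of_surjective _ _ φ fun z => ?_
  obtain ⟨hz1, hz2⟩ := z.2
  exact ⟨⟨⟨z, hz2⟩, (hmem ⟨z, hz2⟩).1 hz1⟩, Subtype.ext rfl⟩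

theorem exists_div_SF [IsDomain A0] [IsFractionRing A0 K0] [FiniteDimensional E0 F0]
    {t0 : E0} {t : E}
    (ht0 : IsGen K0 t0) (hx : algebraMap E L t = (algebraMap E0 F0 t0 : F0)) {ι : A0 →+* A}
    (hι : ι.IsIntegral)
    (hcomp : ∀ a, algebraMap A K (ι a) = algebraMap K0 K (algebraMap A0 K0 a)) {z : L}
    (hz : z ∈ F0) : ∃ b1 b2 : SF K L A F0 t, (b2 : L) ≠ 0 ∧ z = b1 / b2 := by
  have hmem := mem_IC_iff_of_fixed (K := K) (L := L) (F0 := F0) hx hι hcomp
  obtain ⟨b1, b2, hb2, hb⟩ := exists_div_IC (R := A0) (L := F0) ht0 (⟨z, hz⟩ : F0)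
  refine ⟨⟨((b1 : F0) : L), (hmem _).2 b1.2, (b1 : F0).2⟩,
    ⟨((b2 : F0) : L), (hmem _).2 b2.2, (b2 : F0).2⟩, fun h => hb2 (Subtype.ext h), ?_⟩
  exact congrArg (fun w : F0 => (w : L)) hb

omit [Field E0] [Field E] [Algebra K0 E0] [Algebra E0 F0] [Algebra K E] [Algebra E L]
  [IsScalarTower K0 E0 F0] [IsScalarTower K E L] [CommRing A0] [CommRing A] [Algebra A0 K0]
  [Algebra A K] in
theorem IsFixed.exists_basis (H : IsFixed (K0 := K0) G F0)
    (hspan : ∀ z : L, z ∈ Submodule.span K (F0 : Set L)) :
    ∃ B : Module.Basis (Module.Basis.ofVectorSpaceIndex K0 F0) K L, ∀ i, B i ∈ F0 := by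
  have h1 := H.linearIndependent (Module.Basis.ofVectorSpace K0 F0).linearIndependent
  refine ⟨Module.Basis.mk h1 ?_, fun i => ?_⟩
  · intro z _
    refine Submodule.span_le.2 ?_ (hspan z)
    intro w hw
    have h2 := (Module.Basis.ofVectorSpace K0 F0).mem_span ⟨w, hw⟩
    have h3 : ∀ y ∈ Submodule.span K0 (Set.range (Module.Basis.ofVectorSpace K0 F0)),
        (y : L) ∈ Submodule.span K (Set.range fun i =>
          ((Module.Basis.ofVectorSpace K0 F0) i : L)) := by
      intro y hy
      induction hy using Submodule.span_induction with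
      | mem x hx =>
        obtain ⟨i, rfl⟩ := hx
        exact Submodule.subset_span ⟨i, rfl⟩
      | zero => exact zero_mem _
      | add x y _ _ hx hy => exact add_mem hx hy
      | smul a x _ hx =>
        have h4 : ((a • x : F0) : L) = algebraMap K0 K a • (x : L) := by
          rw [Algebra.smul_def, Algebra.smul_def, ← IsScalarTower.algebraMap_apply]
          rfl
        rw [h4]
        exact Submodule.smul_mem _ _ hx
    exact h3 _ h2
  · rw [Module.Basis.mk_apply]
    exact ((Module.Basis.ofVectorSpace K0 F0) i).2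

omit [Field E0] [Field E] [Algebra K0 E0] [Algebra E0 F0] [Algebra K E] [Algebra E L]
  [IsScalarTower K0 E0 F0] [IsScalarTower K E L] [CommRing A0] [CommRing A] [Algebra A0 K0]
  [Algebra A K] in
theorem IsFixed.repr_smul (H : IsFixed (K0 := K0) G F0) {ι : Type*} {B : Module.Basis ι K L}
    (hB : ∀ i, B i ∈ F0) {g : SemilinearAut K L} (hg : g ∈ G) (z : L) (i : ι) :
    B.repr (g • z) i = SemilinearAut.baseAut g (B.repr z i) := by
  set c' : ι →₀ K := (B.repr z).mapRange (SemilinearAut.baseAut g) (map_zero _) with hc'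
  have h1 : Finsupp.linearCombination K B c' = g • z := by
    conv_rhs => rw [← B.linearCombination_repr z]
    rw [Finsupp.linearCombination_apply, Finsupp.linearCombination_apply, hc',
      Finsupp.sum_mapRange_index (fun i => zero_smul K (B i)), Finsupp.sum, Finsupp.sum,
      Finset.smul_sum]
    refine Finset.sum_congr rfl fun i _ => ?_
    rw [Algebra.smul_def, Algebra.smul_def, smul_algebraMap_mul, (H.mem_iff _).1 (hB i) g hg]
  rw [← h1, B.repr_linearCombination]
  rfl

omit [Field E0] [Field E] [Algebra K0 E0] [Algebra E0 F0] [Algebra K E] [Algebra E L]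
  [IsScalarTower K0 E0 F0] [IsScalarTower K E L] [CommRing A0] [CommRing A] [Algebra A0 K0]
  [Algebra A K] in
/-- A `G`-stable subspace is generated by its fixed vectors. -/
theorem IsFixed.span_of_stable (H : IsFixed (K0 := K0) G F0)
    (hspan : ∀ z : L, z ∈ Submodule.span K (F0 : Set L)) (W : Submodule K L)
    (hW : ∀ g ∈ G, ∀ z ∈ W, g • z ∈ W) {z : L} (hz : z ∈ W) :
    z ∈ Submodule.span K ((W : Set L) ∩ F0) := by
  classical
  obtain ⟨B, hB⟩ := H.exists_basis hspan
  have key : ∀ n : ℕ, ∀ z ∈ W, (B.repr z).support.card = n →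
      z ∈ Submodule.span K ((W : Set L) ∩ F0) := by
    intro n
    induction n using Nat.strong_induction_on with
    | _ n ih =>
    intro z hz hn
    by_cases hz0 : z = 0
    · rw [hz0]; exact zero_mem _
    have hne : (B.repr z).support.Nonempty := by
      rw [Finsupp.support_nonempty_iff]
      intro h
      exact hz0 (B.repr.map_eq_zero_iff.1 h)
    -- removing one coordinate with the help of `w`
    by_cases hex : ∃ w ∈ W, w ≠ 0 ∧ (B.repr w).support ⊂ (B.repr z).support
    · obtain ⟨w, hw, hw0, hws⟩ := hex
      have hwspan := ih _ (by rw [← hn]; exact Finset.card_lt_card hws) w hw rfl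
      have hwne : (B.repr w).support.Nonempty := by
        rw [Finsupp.support_nonempty_iff]
        intro h
        exact hw0 (B.repr.map_eq_zero_iff.1 h)
      obtain ⟨i0, hi0⟩ := hwne
      set z' := z - (B.repr z i0 / B.repr w i0) • w with hz'
      have hz'W : z' ∈ W := sub_mem hz (Submodule.smul_mem _ _ hw)
      have hrep : ∀ i, B.repr z' i = B.repr z i - (B.repr z i0 / B.repr w i0) * B.repr w i := by
        intro i
        rw [hz', map_sub, map_smul]
        rfl
      have hsub : (B.repr z').support ⊂ (B.repr z).support := by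
        rw [Finset.ssubset_iff_of_subset]
        · refine ⟨i0, hws.1 hi0, ?_⟩
          rw [Finsupp.notMem_support_iff, hrep, div_mul_cancel₀ _ (Finsupp.mem_support_iff.1 hi0),
            sub_self]
        · intro i hi
          rw [Finsupp.mem_support_iff] at hi ⊢
          intro h
          apply hi
          have h2 : B.repr w i = 0 := by
            by_contra h3
            have := hws.1 (Finsupp.mem_support_iff.2 h3)
            rw [Finsupp.mem_support_iff] at this
            exact this h
          rw [hrep, h, h2, mul_zero, sub_zero]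
      have h3 := ih _ (by rw [← hn]; exact Finset.card_lt_card hsub) z' hz'W rfl
      have h4 : z = z' + (B.repr z i0 / B.repr w i0) • w := by rw [hz']; ring
      rw [h4]
      exact add_mem h3 (Submodule.smul_mem _ _ hwspan)
    · push Not at hex
      obtain ⟨i0, hi0⟩ := hne
      have hc0 := Finsupp.mem_support_iff.1 hi0
      set z' := (B.repr z i0)⁻¹ • z with hz'
      have hz'W : z' ∈ W := Submodule.smul_mem _ _ hz
      have hrep : ∀ i, B.repr z' i = (B.repr z i0)⁻¹ * B.repr z i := by
        intro i
        rw [hz', map_smul]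
        rfl
      have hfix : z' ∈ F0 := by
        rw [H.mem_iff]
        intro g hg
        by_contra hgz
        have h5 : g • z' - z' ≠ 0 := sub_ne_zero.2 hgz
        have hrep2 : ∀ i, B.repr (g • z' - z') i =
            SemilinearAut.baseAut g (B.repr z' i) - B.repr z' i := by
          intro i
          rw [map_sub, Finsupp.sub_apply, H.repr_smul hB hg]
        refine hex _ (sub_mem (hW g hg _ hz'W) hz'W) h5 ?_
        rw [Finset.ssubset_iff_of_subset]
        · refine ⟨i0, hi0, ?_⟩
          rw [Finsupp.notMem_support_iff, hrep2, hrep, inv_mul_cancel₀ hc0, map_one, sub_self]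
        · intro i hi
          rw [Finsupp.mem_support_iff] at hi ⊢
          intro h
          apply hi
          rw [hrep2, hrep, h, mul_zero, map_zero, sub_zero]
      have h6 : z = B.repr z i0 • z' := by
        rw [hz', smul_smul, mul_inv_cancel₀ hc0, one_smul]
      rw [h6]
      exact Submodule.smul_mem _ _ (Submodule.subset_span ⟨hz'W, hfix⟩)
  exact key _ z hz rfl

end Artin

end Fermat.Agent.QComp
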