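import Mathlib.RingTheory.Polynomial.IsIntegral
import Mathlib.RingTheory.Valuation.ValuationSubring
import Mathlib.RingTheory.Trace.Basic
import Mathlib.FieldTheory.Minpoly.IsIntegrallyClosed
import Mathlib.RingTheory.Polynomial.ScaleRoots
import Mathlib.RingTheory.Localization.FractionRing
import Mathlib.RingTheory.Algebraic.Basic

/-!
# Integral closures of `R[t]` in a finite extension of the rational function field
-/

set_option autoImplicit false
set_option linter.unusedSectionVars false
set_option linter.style.haveILetI false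

open Polynomial

namespace Fermat.Agent.QComp

variable {K E L : Type*} [Field K] [Field E] [Field L] [Algebra K E]

/-- `t` generates the rational function field `E` over `K`. -/
structure IsGen (K : Type*) {E : Type*} [Field K] [Field E] [Algebra K E] (t : E) : Prop where
  trans : Transcendental K t
  gen : ∀ z : E, ∃ p r : K[X], r ≠ 0 ∧ z = aeval t p / aeval t r

theorem IsGen.ne_zero {t : E} (ht : IsGen K t) : t ≠ 0 := by
  rintro rfl
  exact ht.trans isAlgebraic_zero

theorem IsGen.aeval_ne_zero {t : E} (ht : IsGen K t) {p : K[X]} (hp : p ≠ 0) :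
    aeval t p ≠ 0 := by
  intro h
  exact ht.trans ⟨p, hp, h⟩

theorem aeval_inv_reverse {t : E} (h0 : t ≠ 0) (p : K[X]) :
    aeval t p = t ^ p.natDegree * aeval t⁻¹ p.reverse := by
  letI : Invertible (t : E) := invertibleOfNonzero h0
  have h4 := eval₂_reverse_mul_pow (algebraMap K E) t p
  rw [invOf_eq_inv] at h4
  rw [aeval_def, aeval_def, ← h4, mul_comm]

theorem IsGen.inv {t : E} (ht : IsGen K t) : IsGen K t⁻¹ where
  trans := by
    intro h
    exact ht.trans (by simpa using h.inv)
  gen z := by
    obtain ⟨p, r, hr, hz⟩ := ht.gen z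
    have h0 := ht.ne_zero
    rw [aeval_inv_reverse h0 p, aeval_inv_reverse h0 r] at hz
    have hrev : r.reverse ≠ 0 := by
      rwa [Ne, reverse_eq_zero]
    refine ⟨p.reverse * X ^ r.natDegree, r.reverse * X ^ p.natDegree,
      mul_ne_zero hrev (pow_ne_zero _ X_ne_zero), ?_⟩
    rw [hz, map_mul, map_mul, map_pow, map_pow, aeval_X]
    have ha : (t ^ p.natDegree : E) ≠ 0 := pow_ne_zero _ h0
    have hb : (t ^ r.natDegree : E) ≠ 0 := pow_ne_zero _ h0
    rw [inv_pow, inv_pow]
    generalize aeval t⁻¹ p.reverse = u at *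
    generalize aeval t⁻¹ r.reverse = v at *
    by_cases hv : v = 0
    · rw [hv]; simp
    · field_simp

section Ev

variable (K)
variable (R : Type*) [CommRing R] [Algebra R K]

/-- evaluation at `t` -/
noncomputable def ev (t : E) : R[X] →+* E :=
  eval₂RingHom ((algebraMap K E).comp (algebraMap R K)) t

@[simp] theorem ev_X (t : E) : ev K R t X = t := by simp [ev]

@[simp] theorem ev_C (t : E) (r : R) : ev K R t (C r) = algebraMap K E (algebraMap R K r) := by
  simp [ev]

theorem ev_eq_aeval (t : E) (p : R[X]) : ev K R t p = aeval t (p.map (algebraMap R K)) := by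
  rw [ev, coe_eval₂RingHom, aeval_def, eval₂_map]

theorem ev_injective [IsDomain R] [FaithfulSMul R K] {t : E} (ht : Transcendental K t) :
    Function.Injective (ev K R t) := by
  rw [injective_iff_map_eq_zero]
  intro p hp
  rw [ev_eq_aeval] at hp
  by_contra h
  refine ht ⟨_, ?_, hp⟩
  rwa [Ne, Polynomial.map_eq_zero_iff (FaithfulSMul.algebraMap_injective R K)]

/-- clearing denominators -/
theorem exists_ev_mul [IsDomain R] [IsFractionRing R K] (p : K[X]) :
    ∃ r : R, r ≠ 0 ∧ ∃ q : R[X], q.map (algebraMap R K) = C (algebraMap R K r) * p := by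
  obtain ⟨b, hb0, hb⟩ := IsLocalization.integerNormalization_spec (nonZeroDivisors R) p
  refine ⟨b, nonZeroDivisors.ne_zero hb0, IsLocalization.integerNormalization
    (nonZeroDivisors R) p, ?_⟩
  rw [hb, Algebra.smul_def]
  rfl

theorem isFractionRing_ev [IsDomain R] [IsFractionRing R K] {t : E} (ht : IsGen K t) :
    letI := (ev K R t).toAlgebra
    IsFractionRing R[X] E := by
  letI := (ev K R t).toAlgebra
  have hinj : Function.Injective (algebraMap R[X] E) := ev_injective K R ht.trans
  haveI : FaithfulSMul R[X] E := (faithfulSMul_iff_algebraMap_injective _ _).2 hinj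
  refine IsFractionRing.of_field R[X] E fun z => ?_
  obtain ⟨p, r, hr, hz⟩ := ht.gen z
  obtain ⟨a, ha, p', hp'⟩ := exists_ev_mul K R p
  obtain ⟨b, hb, r', hr'⟩ := exists_ev_mul K R r
  refine ⟨p' * C b, r' * C a, ?_⟩
  change z = ev K R t _ / ev K R t _
  rw [ev_eq_aeval, ev_eq_aeval, Polynomial.map_mul, Polynomial.map_mul, hp', hr', map_C, map_C,
    map_mul, map_mul, map_mul, map_mul, aeval_C, aeval_C, hz]
  have ha' : algebraMap K E (algebraMap R K a) ≠ 0 := by
    rw [Ne, map_eq_zero]
    exact (map_ne_zero_iff _ (IsFractionRing.injective R K)).2 ha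
  have hb' : algebraMap K E (algebraMap R K b) ≠ 0 := by
    rw [Ne, map_eq_zero]
    exact (map_ne_zero_iff _ (IsFractionRing.injective R K)).2 hb
  have hr0 := ht.aeval_ne_zero hr
  field_simp

end Ev

section IC

variable [Algebra E L]

variable (K)
variable (R : Type*) [CommRing R] [Algebra R K]

variable (L) in
/-- The integral closure of `R[t]` in `L`. -/
noncomputable def IC (t : E) : Subring L where
  carrier := {a | ((algebraMap E L).comp (ev K R t)).IsIntegralElem a}
  mul_mem' ha hb := RingHom.IsIntegralElem.mul _ ha hb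
  one_mem' := RingHom.isIntegralElem_one _
  add_mem' ha hb := RingHom.IsIntegralElem.add _ ha hb
  zero_mem' := RingHom.isIntegralElem_zero _
  neg_mem' ha := RingHom.IsIntegralElem.neg _ ha

variable {K R}

theorem mem_IC {t : E} {a : L} :
    a ∈ IC K L R t ↔ ((algebraMap E L).comp (ev K R t)).IsIntegralElem a := Iff.rfl

theorem ev_mem_IC (t : E) (p : R[X]) : algebraMap E L (ev K R t p) ∈ IC K L R t :=
  RingHom.isIntegralElem_map ((algebraMap E L).comp (ev K R t))

theorem IC_isIntegral {t : E} {a : L} :
    letI := ((algebraMap E L).comp (ev K R t)).toAlgebra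
    a ∈ IC K L R t ↔ IsIntegral R[X] a := Iff.rfl

theorem minpoly_coeff_mem [IsDomain R] [IsFractionRing R K] [IsIntegrallyClosed R]
    {t : E} (ht : IsGen K t) {a : L} (ha : a ∈ IC K L R t) (i : ℕ) :
    (minpoly E a).coeff i ∈ (ev K R t).range := by
  letI i1 := (ev K R t).toAlgebra
  letI i2 := ((algebraMap E L).comp (ev K R t)).toAlgebra
  haveI := isFractionRing_ev K R ht
  haveI : IsScalarTower R[X] E L := IsScalarTower.of_algebraMap_eq fun _ => rfl
  have hint : IsIntegral R[X] a := ha
  rw [minpoly.isIntegrallyClosed_eq_field_fractions' E hint, coeff_map]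
  exact ⟨_, rfl⟩

theorem mem_IC_of_minpoly {t : E} {a : L} (hint : IsIntegral E a)
    (h : ∀ i, (minpoly E a).coeff i ∈ (ev K R t).range) : a ∈ IC K L R t := by
  have h1 : minpoly E a ∈ lifts (ev K R t) := by
    rw [lifts_iff_coeff_lifts]
    exact fun i => h i
  obtain ⟨q, hq, hq2, hq3⟩ := lifts_and_natDegree_eq_and_monic h1 (minpoly.monic hint)
  refine ⟨q, hq3, ?_⟩
  rw [← eval₂_map, hq, ← aeval_def, minpoly.aeval]

theorem trace_mem [IsDomain R] [IsFractionRing R K] [IsIntegrallyClosed R]
    [FiniteDimensional E L] {t : E} (ht : IsGen K t) {a : L} (ha : a ∈ IC K L R t) :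
    Algebra.trace E L a ∈ (ev K R t).range := by
  letI i1 := (ev K R t).toAlgebra
  letI i2 := ((algebraMap E L).comp (ev K R t)).toAlgebra
  haveI := isFractionRing_ev K R ht
  haveI : IsScalarTower R[X] E L := IsScalarTower.of_algebraMap_eq fun _ => rfl
  have hint : IsIntegral R[X] a := ha
  have h := Algebra.isIntegral_trace (L := E) (F := L) hint
  obtain ⟨q, hq⟩ := IsIntegrallyClosed.isIntegral_iff.1 h
  exact ⟨q, hq⟩

theorem mem_range_of_mem_IC [IsDomain R] [IsFractionRing R K] [IsIntegrallyClosed R]
    {t : E} (ht : IsGen K t) {a : E} (ha : algebraMap E L a ∈ IC K L R t) :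
    a ∈ (ev K R t).range := by
  have h := minpoly_coeff_mem ht ha 0
  rw [minpoly.eq_X_sub_C L a] at h
  simp only [coeff_sub, coeff_X_zero, coeff_C_zero, zero_sub] at h
  have := (ev K R t).range.neg_mem h
  rwa [neg_neg] at this

/-- every element of `L` becomes integral after multiplication by a nonzero polynomial. -/
theorem exists_mul_mem_IC [IsDomain R] [IsFractionRing R K] [FiniteDimensional E L]
    {t : E} (ht : IsGen K t) (a : L) :
    ∃ p : R[X], p ≠ 0 ∧ algebraMap E L (ev K R t p) * a ∈ IC K L R t := by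
  letI i1 := (ev K R t).toAlgebra
  letI i2 := ((algebraMap E L).comp (ev K R t)).toAlgebra
  haveI := isFractionRing_ev K R ht
  haveI : IsScalarTower R[X] E L := IsScalarTower.of_algebraMap_eq fun _ => rfl
  have h1 : IsAlgebraic R[X] a := by
    rw [IsFractionRing.isAlgebraic_iff R[X] E L]
    exact Algebra.IsAlgebraic.isAlgebraic a
  obtain ⟨p, hp, h⟩ := h1.exists_integral_multiple
  refine ⟨p, hp, ?_⟩
  rw [Algebra.smul_def] at h
  exact h

end IC

end Fermat.Agent.QComp
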