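import Fermat.Agent.QComp.GenSX

/-!
# The function field of a component
-/

set_option autoImplicit false
set_option linter.unusedSectionVars false
set_option linter.style.haveILetI false
set_option linter.unusedVariables false

open AlgebraicCurve IntermediateField Module Polynomial IsLocalRing

namespace Fermat.Agent.QComp

variable {k κ : Type*} [Field k] [Field κ] [Algebra k κ] [FF.IsFnField k κ] {x : κ}

theorem place_x (hx : Transcendental k x) [Algebra.IsSeparable k⟮x⟯ κ] (P : Ideal (IC k κ k x))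
    [hP : P.IsPrime] (hP0 : P ≠ ⊥) :
    ∃ v : Place k κ, (∀ z ∈ IC k κ k x, z ∈ v.toValuationSubring) ∧
      ∀ z : IC k κ k x, z ∈ P ↔ (z : κ) ∈ v.toValuationSubring.nonunits := by
  haveI := FF.IsFnField.finiteDimensional hx
  have key : ∀ (R : Subring κ) (hR : R = IC k κ k (tg k x)) (P : Ideal R) [P.IsPrime], P ≠ ⊥ →
      ∃ v : Place k κ, (∀ z ∈ R, z ∈ v.toValuationSubring) ∧
        ∀ z : R, z ∈ P ↔ (z : κ) ∈ v.toValuationSubring.nonunits := by
    rintro R rfl P hP hP0
    exact exists_place_of_ideal (isGen_tg hx) P hP0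
  exact key _ (IC_tg x).symm P hP0

theorem frac_x (hx : Transcendental k x) [Algebra.IsSeparable k⟮x⟯ κ] (v : Place k κ)
    (hv : ∀ z ∈ IC k κ k x, z ∈ v.toValuationSubring) {z : κ} (hz : z ∈ v.toValuationSubring) :
    ∃ a b : IC k κ k x, (b : κ) ∉ v.toValuationSubring.nonunits ∧ z = a / b := by
  haveI := FF.IsFnField.finiteDimensional hx
  have key : ∀ (R : Subring κ) (hR : R = IC k κ k (tg k x)),
      (∀ z ∈ R, z ∈ v.toValuationSubring) → z ∈ v.toValuationSubring →
      ∃ a b : R, (b : κ) ∉ v.toValuationSubring.nonunits ∧ z = a / b := by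
    rintro R rfl hv hz
    exact exists_div_of_mem (isGen_tg hx) v hv hz
  exact key _ (IC_tg x).symm hv hz

theorem div_x (hx : Transcendental k x) (z : κ) :
    ∃ a b : IC k κ k x, (b : κ) ≠ 0 ∧ z = a / b := by
  haveI := FF.IsFnField.finiteDimensional hx
  have key : ∀ (R : Subring κ) (hR : R = IC k κ k (tg k x)),
      ∃ a b : R, (b : κ) ≠ 0 ∧ z = a / b := by
    rintro R rfl
    obtain ⟨b1, b2, hb2, hb⟩ := exists_div_IC (R := k) (L := κ) (isGen_tg hx) z
    exact ⟨b1, b2, hb2, hb⟩
  exact key _ (IC_tg x).symm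

theorem exists_zero_x (hx : Transcendental k x) [Algebra.IsSeparable k⟮x⟯ κ] :
    ∃ v : Place k κ, 0 < v.ord x := by
  haveI := FF.IsFnField.finiteDimensional hx
  have h1 := FF.sum_zeros (K := k) hx
  by_contra hcon
  push Not at hcon
  have h2 : FF.zeros (K := k) x = ∅ := by
    ext v
    simp only [FF.zeros, Set.mem_ofPred_eq, Set.mem_empty_iff_false, iff_false, not_lt]
    exact hcon v
  rw [h2, finsum_mem_empty] at h1
  have h3 : 0 < Module.finrank k⟮x⟯ κ := Module.finrank_pos
  omega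

theorem isSeparable_inv [h : Algebra.IsSeparable k⟮x⟯ κ] : Algebra.IsSeparable k⟮x⁻¹⟯ κ := by
  have e : k⟮x⁻¹⟯ = k⟮x⟯ := by
    apply le_antisymm
    · rw [IntermediateField.adjoin_simple_le_iff]
      exact inv_mem (IntermediateField.mem_adjoin_simple_self k x)
    · rw [IntermediateField.adjoin_simple_le_iff]
      have := inv_mem (IntermediateField.mem_adjoin_simple_self k x⁻¹)
      rwa [inv_inv] at this
  rw [e]
  exact h

theorem not_field_x [Algebra.IsSeparable k⟮x⟯ κ] (hx : Transcendental k x) :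
    ∃ z ∈ IC k κ k x, z ≠ 0 ∧ z⁻¹ ∉ IC k κ k x := by
  refine ⟨x, self_mem_IC x, FF.transcendental_ne_zero hx, fun h => ?_⟩
  obtain ⟨v, hv⟩ := exists_zero_x hx
  have h1 := ord_nonneg_of_mem_IC_K (R := k) h (v := v) hv.le
  rw [v.ord_inv] at h1
  omega

theorem mem_place_iff_x (v : Place k κ) :
    (∀ z ∈ IC k κ k x, z ∈ v.toValuationSubring) ↔ 0 ≤ v.ord x := by
  constructor
  · intro h
    exact (FF.mem_iff_ord_nonneg v).1 (h x (self_mem_IC x))
  · intro h z hz
    exact (FF.mem_iff_ord_nonneg v).2 (ord_nonneg_of_mem_IC_K (R := k) hz h)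

end Fermat.Agent.QComp
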