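import Fermat.Agent.QComp.ICAux
import Fermat.Agent.JZ.BaseChange

/-!
# Norms and integral closures
-/

set_option autoImplicit false
set_option linter.unusedSectionVars false
set_option linter.style.haveILetI false
set_option linter.unusedVariables false

open Polynomial IsLocalRing AlgebraicCurve IntermediateField

namespace Fermat.Agent.QComp

open Fermat.Agent.JZ

variable {K L1 L : Type*} [Field K] [Field L1] [Field L] [Algebra K L1] [Algebra K L]
  {R : Type*} [CommRing R] [Algebra R K]

theorem map_ev (φ : L1 →ₐ[K] L) (x : L1) :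
    (algebraMap L L).comp (ev K R (φ x)) = (φ : L1 →+* L).comp ((algebraMap L1 L1).comp (ev K R x)) := by
  refine Polynomial.ringHom_ext (fun a => ?_) ?_
  · simp
  · simp

theorem mem_IC_of_map_mem (φ : L1 →ₐ[K] L) {x z : L1} (h : φ z ∈ IC K L R (φ x)) :
    z ∈ IC K L1 R x := by
  obtain ⟨p, hp, hpz⟩ := h
  refine ⟨p, hp, ?_⟩
  rw [map_ev] at hpz
  apply (φ : L1 →+* L).injective
  rw [hom_eval₂, map_zero]
  exact hpz

theorem normAlong_mem_IC (φ : L1 →ₐ[K] L) {x : L1} {b : L} (hb : b ∈ IC K L R (φ x)) :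
    normAlong φ b ∈ IC K L1 R x := by
  letI i0 := algebraAlong φ
  letI i1 := ((algebraMap L1 L1).comp (ev K R x)).toAlgebra
  letI i2 := ((algebraMap L L).comp (ev K R (φ x))).toAlgebra
  haveI : IsScalarTower R[X] L1 L := IsScalarTower.of_algebraMap_eq fun p =>
    congrArg (fun f : R[X] →+* L => f p) (map_ev φ x)
  have h1 : IsIntegral R[X] b := hb
  exact Algebra.isIntegral_norm L1 h1

theorem isIntegral_comap (φ : L1 →ₐ[K] L) (x : L1) (Sh : Subring L) (hSh : Sh = IC K L R (φ x)) :
    (((φ : L1 →+* L).comp (Sh.comap (φ : L1 →+* L)).subtype).codRestrict Sh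
      fun w => w.2).IsIntegral := by
  subst hSh
  intro b
  obtain ⟨p, hp, hpb⟩ := b.2
  let g : R[X] →+* ((IC K L R (φ x)).comap (φ : L1 →+* L)) :=
    ((algebraMap L1 L1).comp (ev K R x)).codRestrict _ fun q => by
      rw [Subring.mem_comap]
      exact map_mem_IC φ (by
        have := ev_mem_IC (K := K) (L := L1) (R := R) x q
        exact this)
  refine ⟨p.map g, hp.map g, Subtype.ext ?_⟩
  change (IC K L R (φ x)).subtype (eval₂ _ b (p.map g)) = 0
  rw [hom_eval₂, eval₂_map]
  have h3 : ((IC K L R (φ x)).subtype.comp (((φ : L1 →+* L).comp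
      ((IC K L R (φ x)).comap (φ : L1 →+* L)).subtype).codRestrict (IC K L R (φ x))
      fun w => w.2)).comp g = (algebraMap L L).comp (ev K R (φ x)) := by
    rw [map_ev]
    rfl
  rw [h3]
  exact hpb

end Fermat.Agent.QComp
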