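import Fermat.Agent.QComp.RedIC
import Fermat.Agent.QComp.NormIC

/-!
# Statements in terms of an element `x` of the function field
-/

set_option autoImplicit false
set_option linter.unusedSectionVars false
set_option linter.style.haveILetI false
set_option linter.unusedVariables false

open AlgebraicCurve IntermediateField Module Polynomial IsLocalRing

namespace Fermat.Agent.QComp

section KL

variable {K L : Type*} [Field K] [Field L] [Algebra K L]
variable {A : Type*} [CommRing A] [IsDomain A] [ValuationRing A] [Algebra A K] [IsFractionRing A K]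

theorem PtCond_tg {x f : L} {n : ℕ} {r : ValuationSubring L → L} :
    PtCond K A (tg K x) f n r ↔ PtCond K A x f n r := by
  unfold PtCond
  rw [IC_tg, algebraMap_tg]
  rfl

theorem PtCond_tg_inv {x f : L} {n : ℕ} {r : ValuationSubring L → L} :
    PtCond K A (tg K x)⁻¹ f n r ↔ PtCond K A x⁻¹ f n r := by
  unfold PtCond
  rw [IC_tg_inv, map_inv₀, algebraMap_tg]
  rfl

theorem exists_pow_of_local_x [IsAlgClosed K] [CharZero K] [FF.IsFnField K L] {x : L}
    (hx : Transcendental K x) {ϖ : A} (hϖ : IsRankOne A ϖ) {ℓ : ℕ} (hℓ : ℓ.Prime)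
    (hℓA : IsUnit (ℓ : A)) (a : ℕ) {f : L} {r : ValuationSubring L → L}
    (hr : ∀ V : ValuationSubring L, OverGauss K A x V → f / (r V) ^ (ℓ ^ a) - 1 ∈ V.nonunits)
    (hP : PtCond K A x f (ℓ ^ a) r) (hP' : PtCond K A x⁻¹ f (ℓ ^ a) r) :
    ∃ h : L, h ^ (ℓ ^ a) = f := by
  haveI := FF.IsFnField.finiteDimensional hx
  refine exists_pow_of_local (K := K) (A := A) (isGen_tg hx) hϖ hℓ hℓA a (r := r) ?_
    (PtCond_tg.2 hP) (PtCond_tg_inv.2 hP')
  rw [algebraMap_tg]
  exact hr

theorem mem_IC_of_forall_x [FF.IsFnField K L] {x : L} (hx : Transcendental K x) {ϖ : A}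
    (hϖ : IsRankOne A ϖ) {z : L} (hz : z ∈ IC K L K x)
    (h : ∀ V : ValuationSubring L, OverGauss K A x V → z ∈ V) : z ∈ IC K L A x := by
  haveI := FF.IsFnField.finiteDimensional hx
  rw [← IC_tg]
  refine mem_IC_of_forall (isGen_tg hx) hϖ (by rw [IC_tg]; exact hz) fun V hV => ?_
  rw [algebraMap_tg] at hV
  exact h V hV

theorem exists_inv_pow_mul_mem_x [FF.IsFnField K L] [IsIntegrallyClosed A] {x : L}
    (hx : Transcendental K x) {a : L} (ha : a ∈ IC K L A x) :
    ∃ n0 : ℕ, ∀ n ≥ n0, (x⁻¹) ^ n * a ∈ IC K L A x⁻¹ := by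
  haveI := FF.IsFnField.finiteDimensional hx
  obtain ⟨n0, hn0⟩ := exists_inv_pow_mul_mem (R := A) (L := L) (isGen_tg hx) (a := a)
    (by rw [IC_tg]; exact ha)
  refine ⟨n0, fun n hn => ?_⟩
  have h1 := hn0 n hn
  rw [IC_tg_inv, map_inv₀, algebraMap_tg] at h1
  exact h1

theorem exists_overGauss_thru_x [FF.IsFnField K L] [CharZero K] {x : L} (hx : Transcendental K x)
    (P : Ideal (IC K L A x)) [hP : P.IsPrime]
    (hm : ∀ a ∈ maximalIdeal A, ∀ b : IC K L A x, (b : L) = algebraMap K L (algebraMap A K a) →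
      b ∈ P) :
    ∃ V : ValuationSubring L, OverGauss K A x V ∧ Thru V (IC K L A x) P := by
  haveI := FF.IsFnField.finiteDimensional hx
  haveI : CharZero K⟮x⟯ := charZero_of_injective_algebraMap (algebraMap K K⟮x⟯).injective
  have key : ∀ (R : Subring L) (hR : R = IC K L A (tg K x)) (P : Ideal R) [P.IsPrime],
      (∀ a ∈ maximalIdeal A, ∀ b : R, (b : L) = algebraMap K L (algebraMap A K a) → b ∈ P) →
      ∃ V : ValuationSubring L, OverGauss K A (algebraMap K⟮x⟯ L (tg K x)) V ∧ Thru V R P := by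
    rintro R rfl P hP hm
    exact exists_overGauss_thru (isGen_tg hx) P fun c hc => hm c hc _ rfl
  rw [algebraMap_tg] at key
  exact key _ (IC_tg x).symm P hm

end KL

section Fixed

variable {K0 K L : Type*} [Field K0] [Field K] [Field L] [Algebra K0 K] [Algebra K L]
  [Algebra K0 L] [IsScalarTower K0 K L]
variable {F0 : IntermediateField K0 L} {G : Subgroup (SemilinearAut K L)}
variable {A0 A : Type*} [CommRing A0] [CommRing A] [Algebra A0 K0] [Algebra A K]

theorem SF_tg (x : L) : SF K L A F0 (tg K x) = SF K L A F0 x := by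
  rw [SF, SF, IC_tg]

variable {x : L} (hxF : x ∈ F0)

theorem transcendental_sub (x0 : F0) (hx : Transcendental K (x0 : L)) : Transcendental K0 x0 := by
  intro h
  apply hx
  have h1 : IsAlgebraic K0 (algebraMap F0 L x0) :=
    (isAlgebraic_algebraMap_iff (algebraMap F0 L).injective).2 h
  exact h1.extendScalars (algebraMap K0 K).injective

theorem hx_eq (x0 : F0) : algebraMap K⟮(x0 : L)⟯ L (tg K (x0 : L)) =
    (algebraMap K0⟮x0⟯ F0 (tg K0 x0) : F0) :=
  (algebraMap_tg (K := K) (x0 : L)).trans (congrArg Subtype.val (algebraMap_tg (K := K0) x0)).symm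

variable (H : IsFixed (K0 := K0) G F0) {ι : A0 →+* A} (hι : ι.IsIntegral)
  (hcomp : ∀ a, algebraMap A K (ι a) = algebraMap K0 K (algebraMap A0 K0 a))

include H hxF in
theorem finiteDimensional_E0 [FF.IsFnField K L] (hx : Transcendental K x) :
    FiniteDimensional K0⟮(⟨x, hxF⟩ : F0)⟯ F0 := by
  haveI := FF.IsFnField.finiteDimensional hx
  exact H.finiteDimensional (isGen_tg (transcendental_sub ⟨x, hxF⟩ hx)) (isGen_tg hx)
    (hx_eq (K := K) (⟨x, hxF⟩ : F0))

include H hxF hι hcomp in
theorem isNoetherianRing_SFx [FF.IsFnField K L] [IsDomain A0] [IsFractionRing A0 K0]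
    [IsIntegrallyClosed A0] [IsNoetherianRing A0] [CharZero K0] (hx : Transcendental K x) :
    IsNoetherianRing (SF K L A F0 x) := by
  haveI := finiteDimensional_E0 hxF H hx
  rw [← SF_tg]
  exact isNoetherianRing_SF (isGen_tg (transcendental_sub ⟨x, hxF⟩ hx)) (hx_eq (K := K) (⟨x, hxF⟩ : F0)) hι hcomp

include H hxF hι hcomp in
theorem exists_div_SFx [FF.IsFnField K L] [IsDomain A0] [IsFractionRing A0 K0]
    (hx : Transcendental K x) {z : L} (hz : z ∈ F0) :
    ∃ b1 b2 : SF K L A F0 x, (b2 : L) ≠ 0 ∧ z = b1 / b2 := by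
  haveI := finiteDimensional_E0 hxF H hx
  have h1 := exists_div_SF (isGen_tg (transcendental_sub ⟨x, hxF⟩ hx)) (hx_eq (K := K) (⟨x, hxF⟩ : F0)) hι hcomp hz
  rwa [SF_tg] at h1

include hxF hι hcomp in
theorem isMaximal_comap_SFx [IsDomain A] [ValuationRing A] [IsFractionRing A K]
    (P : Ideal (IC K L A x)) [hP : P.IsMaximal] :
    (P.comap (Subring.inclusion (SF_le (K := K) (A := A) F0 x))).IsMaximal := by
  have h1 : IC K L A (tg K x) = IC K L A x := IC_tg x
  have hint := isIntegral_SF (A := A) (hx_eq (K := K) (⟨x, hxF⟩ : F0)) hι hcomp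
  have hint' : (Subring.inclusion (SF_le (K := K) (A := A) F0 x)).IsIntegral := by
    have key : ∀ (R S : Subring L) (h : S ≤ R), R = IC K L A (tg K x) →
        S = SF K L A F0 (tg K x) → (Subring.inclusion h).IsIntegral := by
      rintro R S h rfl rfl
      exact hint
    exact key _ _ _ h1.symm (SF_tg x).symm
  exact Ideal.isMaximal_comap_of_isIntegral_of_isMaximal' _ hint' P

end Fixed

end Fermat.Agent.QComp
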