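import Fermat.Agent.QComp.Over
import Fermat.Agent.QComp.Birkhoff
import Mathlib.RingTheory.Localization.Module
import Mathlib.LinearAlgebra.Dimension.Localization

/-!
# A graded basis of a function field
-/

set_option autoImplicit false
set_option linter.unusedSectionVars false
set_option linter.style.haveILetI false

open Polynomial IsLocalRing

namespace Fermat.Agent.QComp

variable {K E L : Type*} [Field K] [Field E] [Field L] [Algebra K E] [Algebra E L]
  [Algebra K L] [IsScalarTower K E L]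

section

variable {R : Type*} [CommRing R] [IsDomain R] [Algebra R K]

theorem ev_mul_inv_pow {t : E} (h0 : t ≠ 0) (p : R[X]) {k : ℕ} (hk : p.natDegree ≤ k) :
    ev K R t p * (t⁻¹) ^ k = ev K R t⁻¹ (p.reflect k) := by
  letI : Invertible (t : E) := invertibleOfNonzero h0
  have h4 := eval₂_reflect_mul_pow ((algebraMap K E).comp (algebraMap R K)) t k p hk
  rw [invOf_eq_inv] at h4
  rw [ev, ev, coe_eval₂RingHom, coe_eval₂RingHom, ← h4, inv_pow, mul_assoc, mul_inv_cancel₀, mul_one]
  exact pow_ne_zero _ h0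

theorem exists_inv_pow_mul_mem [IsFractionRing R K] [IsIntegrallyClosed R]
    [FiniteDimensional E L] {t : E} (ht : IsGen K t) {a : L} (ha : a ∈ IC K L R t) :
    ∃ n0 : ℕ, ∀ n ≥ n0, (algebraMap E L t⁻¹) ^ n * a ∈ IC K L R t⁻¹ := by
  classical
  have h1 := minpoly_coeff_mem ht ha
  choose p hp using h1
  set m := (minpoly E a).natDegree with hm
  refine ⟨(Finset.range m).sup fun i => (p i).natDegree, fun n hn => ?_⟩
  have ht0 := ht.ne_zero
  have he0 : (t⁻¹ : E) ^ n ≠ 0 := pow_ne_zero _ (inv_ne_zero ht0)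
  have hmin := minpoly_mul ((t⁻¹) ^ n) he0 a
  rw [map_pow] at hmin
  refine mem_IC_of_minpoly (Algebra.IsIntegral.isIntegral _) fun i => ?_
  rw [hmin, coeff_scaleRoots, ← hm]
  rcases lt_trichotomy i m with hi | hi | hi
  · rw [← hp i, ← pow_mul]
    have h2 : (p i).natDegree ≤ n :=
      (Finset.le_sup (f := fun i => (p i).natDegree) (Finset.mem_range.2 hi)).trans hn
    have h3 : (p i).natDegree ≤ n * (m - i) :=
      h2.trans (Nat.le_mul_of_pos_right n (by omega))
    exact ⟨_, (ev_mul_inv_pow ht0 (p i) h3).symm⟩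
  · subst hi
    rw [Nat.sub_self, pow_zero, mul_one]
    have : (minpoly E a).coeff m = 1 := (minpoly.monic (Algebra.IsIntegral.isIntegral a))
    rw [this]
    exact ⟨1, map_one _⟩
  · rw [coeff_eq_zero_of_natDegree_lt (hm ▸ hi), zero_mul]
    exact ⟨0, map_zero _⟩

end

theorem eq_C_of_ev_eq {t : E} (ht : IsGen K t) {p q : K[X]} (h : ev K K t p = ev K K t⁻¹ q) :
    ∃ κ : K, ev K K t p = algebraMap K E κ := by
  have ht0 := ht.ne_zero
  have h1 := ev_mul_inv_pow (R := K) (K := K) (inv_ne_zero ht0) q le_rfl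
  rw [inv_inv, ← h] at h1
  have h2 : ev K K t (p * X ^ q.natDegree) = ev K K t (q.reflect q.natDegree) := by
    rw [map_mul, map_pow, ev_X, h1]
  have h3 := ev_injective K K ht.trans h2
  have h4 : p.natDegree = 0 := by
    by_cases hp : p = 0
    · rw [hp, natDegree_zero]
    have h5 := natDegree_reflect_le (N := q.natDegree) (p := q)
    have h6 : (p * X ^ q.natDegree).natDegree = p.natDegree + q.natDegree := by
      rw [natDegree_mul_X_pow]
      exact hp
    rw [← h3, h6, max_self] at h5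
    omega
  rw [eq_C_of_natDegree_eq_zero h4]
  exact ⟨_, ev_C K K t _⟩

theorem mem_algebraMap_of_mem_IC [FiniteDimensional E L] {t : E} (ht : IsGen K t)
    (hK : ∀ a : L, IsIntegral K a → ∃ κ : K, algebraMap K L κ = a) {a : L}
    (h1 : a ∈ IC K L K t) (h2 : a ∈ IC K L K t⁻¹) : ∃ κ : K, algebraMap K L κ = a := by
  apply hK
  have hint : IsIntegral E a := Algebra.IsIntegral.isIntegral a
  have h3 : minpoly E a ∈ lifts (algebraMap K E) := by
    rw [lifts_iff_coeff_lifts]
    intro i
    obtain ⟨p, hp⟩ := minpoly_coeff_mem ht h1 i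
    obtain ⟨q, hq⟩ := minpoly_coeff_mem ht.inv h2 i
    obtain ⟨κ, hκ⟩ := eq_C_of_ev_eq ht (hp.trans hq.symm)
    exact ⟨κ, by rw [← hκ, hp]⟩
  obtain ⟨r, hr, hr2, hr3⟩ := lifts_and_natDegree_eq_and_monic h3 (minpoly.monic hint)
  refine ⟨r, hr3, ?_⟩
  rw [IsScalarTower.algebraMap_eq K E L, ← eval₂_map, hr, ← aeval_def, minpoly.aeval]

variable (K L) in
/-- functions regular outside the poles of `t`, with poles of order at most `m`. -/
noncomputable def Vm (t : E) (m : ℕ) : Submodule K L where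
  carrier := {a | a ∈ IC K L K t ∧ (algebraMap E L t⁻¹) ^ m * a ∈ IC K L K t⁻¹}
  zero_mem' := ⟨zero_mem _, by rw [mul_zero]; exact zero_mem _⟩
  add_mem' := by
    rintro a b ⟨h1, h2⟩ ⟨h3, h4⟩
    refine ⟨add_mem h1 h3, ?_⟩
    rw [mul_add]
    exact add_mem h2 h4
  smul_mem' := by
    rintro κ a ⟨h1, h2⟩
    have hκ : ∀ t : E, algebraMap K L κ ∈ IC K L K t := by
      intro t
      have := ev_mem_IC (K := K) (L := L) (R := K) t (C κ)
      rwa [ev_C, ← IsScalarTower.algebraMap_apply] at this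
    rw [Algebra.smul_def]
    refine ⟨mul_mem (hκ t) h1, ?_⟩
    rw [mul_left_comm]
    exact mul_mem (hκ _) h2

theorem mem_Vm {t : E} {m : ℕ} {a : L} : a ∈ Vm K L t m ↔
    a ∈ IC K L K t ∧ (algebraMap E L t⁻¹) ^ m * a ∈ IC K L K t⁻¹ := Iff.rfl

theorem algebraMap_t_mem {R : Type*} [CommRing R] [Algebra R K] (t : E) :
    algebraMap E L t ∈ IC K L R t := by
  have := ev_mem_IC (K := K) (L := L) (R := R) t X
  rwa [ev_X] at this

theorem Vm_mono (t : E) : Monotone (Vm K L t) := by
  intro m n hmn a ha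
  refine ⟨ha.1, ?_⟩
  obtain ⟨k, rfl⟩ := Nat.exists_eq_add_of_le hmn
  rw [pow_add, mul_comm (_ ^ m), mul_assoc]
  exact mul_mem (pow_mem (algebraMap_t_mem _) _) ha.2

theorem mul_mem_Vm_succ {t : E} (h0 : t ≠ 0) {m : ℕ} {a : L} :
    algebraMap E L t * a ∈ Vm K L t (m + 1) ↔ (algebraMap E L t * a ∈ IC K L K t ∧
      (algebraMap E L t⁻¹) ^ m * a ∈ IC K L K t⁻¹) := by
  rw [mem_Vm, pow_succ, mul_assoc, ← mul_assoc (algebraMap E L t⁻¹), ← map_mul,
    inv_mul_cancel₀ h0, map_one, one_mul]

theorem exists_mem_Vm [FiniteDimensional E L] {t : E} (ht : IsGen K t) {a : L}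
    (ha : a ∈ IC K L K t) : ∃ n0, ∀ n ≥ n0, a ∈ Vm K L t n := by
  obtain ⟨n0, hn0⟩ := exists_inv_pow_mul_mem ht ha
  exact ⟨n0, fun n hn => ⟨ha, hn0 n hn⟩⟩

theorem exists_pow_mul_mem_Vm [FiniteDimensional E L] {t : E} (ht : IsGen K t) {a : L}
    (ha : a ∈ IC K L K t⁻¹) : ∃ n0, ∀ n ≥ n0, (algebraMap E L t) ^ n * a ∈ Vm K L t n := by
  obtain ⟨n0, hn0⟩ := exists_inv_pow_mul_mem ht.inv ha
  refine ⟨n0, fun n hn => ⟨?_, ?_⟩⟩
  · have := hn0 n hn
    rwa [inv_inv] at this
  · rw [← mul_assoc, ← mul_pow, ← map_mul, inv_mul_cancel₀ ht.ne_zero, map_one, one_pow, one_mul]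
    exact ha

theorem mulLeft_pow_apply (x : L) (k : ℕ) (a : L) :
    ((LinearMap.mulLeft K x) ^ k) a = x ^ k * a := by
  rw [LinearMap.pow_mulLeft, LinearMap.mulLeft_apply]

universe u

theorem exists_graded_basis {K : Type*} {E : Type*} {L : Type u} [Field K] [Field E] [Field L]
    [Algebra K E] [Algebra E L] [Algebra K L] [IsScalarTower K E L]
    [FiniteDimensional E L] {t : E} (ht : IsGen K t)
    (hK : ∀ a : L, IsIntegral K a → ∃ κ : K, algebraMap K L κ = a) :
    ∃ (ι : Type u) (_ : Fintype ι) (B : Module.Basis ι E L) (d : ι → ℕ),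
      (∀ i, d i = 0 → ∃ κ : K, algebraMap K L κ = B i) ∧
      (∀ n, ∀ a ∈ Vm K L t n, ∀ i, ∃ p : K[X], B.repr a i = ev K K t p ∧
        (∀ k, p.coeff k ≠ 0 → k + d i ≤ n)) := by
  classical
  have ht0 := ht.ne_zero
  set x : L := algebraMap E L t with hx
  have hxtr : ∀ κ : K, algebraMap K L κ ≠ x := by
    intro κ h
    apply ht.trans
    have : t = algebraMap K E κ := by
      apply (algebraMap E L).injective
      rw [← hx, ← h, ← IsScalarTower.algebraMap_apply]
    rw [this]
    exact isAlgebraic_algebraMap κ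
  obtain ⟨ι, b, d, hb, hspan, hli⟩ := birkhoff (LinearMap.mulLeft K x) (Vm K L t) (Vm_mono t)
    (by
      rintro m _ ⟨a, ha, rfl⟩
      rw [LinearMap.mulLeft_apply, hx, mul_mem_Vm_succ ht0]
      exact ⟨mul_mem (algebraMap_t_mem t) ha.1, ha.2⟩)
    (by
      intro m a ha hxa
      rw [LinearMap.mulLeft_apply] at hxa
      cases m with
      | zero =>
        rw [prevV, Submodule.mem_bot]
        obtain ⟨h1, h2⟩ := ha
        obtain ⟨h3, h4⟩ := hxa
        rw [pow_zero, one_mul] at h2 h4
        obtain ⟨κ, hκ⟩ := mem_algebraMap_of_mem_IC ht hK h1 h2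
        obtain ⟨κ', hκ'⟩ := mem_algebraMap_of_mem_IC ht hK h3 h4
        by_contra ha0
        apply hxtr (κ' / κ)
        rw [map_div₀, hκ', hκ]
        field_simp
      | succ m =>
        rw [hx, mul_mem_Vm_succ ht0] at hxa
        exact ⟨ha.1, hxa.2⟩)
  letI := (ev K K t).toAlgebra
  haveI := isFractionRing_ev K K ht
  letI i2 : Algebra K[X] L := ((algebraMap E L).comp (ev K K t)).toAlgebra
  haveI : IsScalarTower K[X] E L := IsScalarTower.of_algebraMap_eq fun _ => rfl
  have hevsum : ∀ (p : K[X]) (N : ℕ), p.natDegree < N → ∀ a : L,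
      algebraMap E L (ev K K t p) * a = ∑ k ∈ Finset.range N, p.coeff k • (x ^ k * a) := by
    intro p N hN a
    rw [algebraMap_ev, ev, coe_eval₂RingHom, eval₂_eq_sum_range' _ hN, Finset.sum_mul]
    refine Finset.sum_congr rfl fun k _ => ?_
    rw [Algebra.smul_def, mul_assoc]
    rfl
  have hliX : LinearIndependent K[X] b := by
    rw [linearIndependent_iff']
    intro s g hg i hi
    set N := (s.sup fun i => (g i).natDegree) + 1 with hN
    have hNi : ∀ i ∈ s, (g i).natDegree < N := fun i hi =>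
      Nat.lt_succ_of_le (Finset.le_sup (f := fun i => (g i).natDegree) hi)
    rw [linearIndependent_iff'] at hli
    have h1 := hli (s ×ˢ Finset.range N) (fun p => (g p.1).coeff p.2) (by
      rw [Finset.sum_product, ← hg]
      refine Finset.sum_congr rfl fun j hj => ?_
      rw [Algebra.smul_def]
      refine Eq.trans ?_ (hevsum (g j) N (hNi j hj) (b j)).symm
      refine Finset.sum_congr rfl fun k _ => ?_
      rw [mulLeft_pow_apply])
    ext k
    rw [coeff_zero]
    by_cases hk : k < N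
    · exact h1 (i, k) (Finset.mem_product.2 ⟨hi, Finset.mem_range.2 hk⟩)
    · exact coeff_eq_zero_of_natDegree_lt (lt_of_lt_of_le (hNi i hi) (not_lt.1 hk))
  have hliE : LinearIndependent E b := (LinearIndependent.iff_fractionRing K[X] E).1 hliX
  have hspE : ⊤ ≤ Submodule.span E (Set.range b) := by
    rintro a -
    obtain ⟨p, hp, hpa⟩ := exists_mul_mem_IC (R := K) ht a
    obtain ⟨n, hn⟩ := exists_mem_Vm ht hpa
    have h1 := hspan n (hn n le_rfl)
    have h2 : algebraMap E L (ev K K t p) * a ∈ Submodule.span E (Set.range b) := by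
      refine (Submodule.span_le (p := (Submodule.span E (Set.range b)).restrictScalars K)).2 ?_ h1
      rintro _ ⟨i, k, -, rfl⟩
      rw [mulLeft_pow_apply, hx, ← map_pow, ← Algebra.smul_def]
      exact Submodule.smul_mem (Submodule.span E (Set.range b)) _
        (Submodule.subset_span (Set.mem_range_self i))
    have hp0 : ev K K t p ≠ 0 := by
      rwa [Ne, map_eq_zero_iff _ (ev_injective K K ht.trans)]
    have h3 := Submodule.smul_mem _ (ev K K t p)⁻¹ h2
    rwa [Algebra.smul_def, ← mul_assoc, ← map_mul, inv_mul_cancel₀ hp0, map_one, one_mul] at h3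
  let B : Module.Basis ι E L := Module.Basis.mk hliE hspE
  haveI : Finite ι := Module.Finite.finite_basis B
  letI : Fintype ι := Fintype.ofFinite ι
  refine ⟨ι, inferInstance, B, d, ?_, ?_⟩
  · intro i hi
    have h1 := hb i
    rw [hi] at h1
    obtain ⟨h2, h3⟩ := h1
    rw [pow_zero, one_mul] at h3
    rw [Module.Basis.mk_apply]
    exact mem_algebraMap_of_mem_IC ht hK h2 h3
  · intro n a ha
    have h1 := hspan n ha
    clear ha
    induction h1 using Submodule.span_induction with
    | mem y hy =>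
      intro i
      obtain ⟨j, k, hk, rfl⟩ := hy
      rw [mulLeft_pow_apply, hx, ← map_pow, ← Algebra.smul_def, map_smul]
      have h2 : b j = B j := (Module.Basis.mk_apply hliE hspE j).symm
      rw [h2, B.repr_self]
      by_cases hij : j = i
      · subst hij
        refine ⟨X ^ k, ?_, fun m hm => ?_⟩
        · rw [Finsupp.smul_apply, Finsupp.single_eq_same, smul_eq_mul, mul_one, map_pow, ev_X]
        · rw [coeff_X_pow] at hm
          have : m = k := by by_contra h; exact hm (if_neg h)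
          rw [this]; exact hk
      · refine ⟨0, ?_, fun m hm => absurd (coeff_zero m) hm⟩
        rw [Finsupp.smul_apply, Finsupp.single_eq_of_ne (Ne.symm hij), smul_zero, map_zero]
    | zero => exact fun i => ⟨0, by simp, fun m hm => absurd (coeff_zero m) hm⟩
    | add y z hy hz ihy ihz =>
      intro i
      obtain ⟨p, hp, hp'⟩ := ihy i
      obtain ⟨q, hq, hq'⟩ := ihz i
      refine ⟨p + q, by rw [map_add, Finsupp.add_apply, hp, hq, map_add], fun m hm => ?_⟩
      by_cases hpm : p.coeff m = 0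
      · rw [coeff_add, hpm, zero_add] at hm
        exact hq' m hm
      · exact hp' m hpm
    | smul c y hy ih =>
      intro i
      obtain ⟨p, hp, hp'⟩ := ih i
      refine ⟨C c * p, ?_, fun m hm => ?_⟩
      · rw [← algebraMap_smul E c y, map_smul, Finsupp.smul_apply, hp, map_mul, ev_C, smul_eq_mul]
        rfl
      · rw [coeff_C_mul] at hm
        exact hp' m (right_ne_zero_of_mul hm)

end Fermat.Agent.QComp
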