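import Fermat.Agent.QComp.Descent
import Fermat.Agent.FF.Valuations
import Fermat.Agent.Red.Eval
import Fermat.Prelude.Def_AlgebraicCurve_Repartitions

/-!
# The constant field extension `K / K0` is unramified
-/

set_option autoImplicit false
set_option linter.unusedSectionVars false
set_option linter.style.haveILetI false

open Polynomial IsLocalRing AlgebraicCurve IsDedekindDomain WithZero

namespace Fermat.Agent.QComp

section Ord

variable {K L : Type*} [Field K] [Field L] [Algebra K L]

theorem mem_nonunits_iff_ord (v : Place K L) {f : L} :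
    f ∈ v.toValuationSubring.nonunits ↔ f = 0 ∨ 0 < v.ord f := by
  rw [ValuationSubring.mem_nonunits_iff_or, FF.mem_iff_ord_nonneg, v.ord_inv]
  constructor
  · rintro (h | h)
    · exact Or.inl h
    · right; omega
  · rintro (h | h)
    · exact Or.inl h
    · right; omega

theorem exists_const_nonunits [IsAlgClosed K] [FF.IsFnField K L] (v : Place K L)
    {z : L} (hz : z ∈ v.toValuationSubring) :
    ∃ c : K, z - algebraMap K L c ∈ v.toValuationSubring.nonunits := by
  obtain ⟨c, hc⟩ := Red.exists_hasVal (P := v) ((FF.mem_iff_ord_nonneg v).1 hz)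
  have h1 := hc.sub (Red.hasVal_algebraMap v c)
  rw [sub_self, Red.hasVal_zero_iff] at h1
  exact ⟨c, by rw [mem_nonunits_iff_ord]; exact h1⟩

end Ord

section Unram

variable {K0 K L : Type*} [Field K0] [Field K] [Field L] [Algebra K0 K] [Algebra K L]
  [Algebra K0 L] [IsScalarTower K0 K L]
variable {G : Subgroup (SemilinearAut K L)} {F0 : IntermediateField K0 L}

theorem exists_fixed_pos [IsAlgClosed K] [FF.IsFnField K L] [CharZero K] [Algebra.IsAlgebraic K0 K]
    {x : L} (hx : x ∈ F0) (hxt : Transcendental K x) (v : Place K L) :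
    ∃ f ∈ F0, f ≠ 0 ∧ 0 < v.ord f := by
  have hx0 : x ≠ 0 := by
    rintro rfl
    exact hxt (isAlgebraic_zero)
  by_cases hv : v.ord x < 0
  · exact ⟨x⁻¹, F0.inv_mem hx, inv_ne_zero hx0, by rw [v.ord_inv]; omega⟩
  have hxv : x ∈ v.toValuationSubring := by
    rw [FF.mem_iff_ord_nonneg]; omega
  obtain ⟨c, hc⟩ := exists_const_nonunits v hxv
  have hcint : IsIntegral K0 c := Algebra.IsIntegral.isIntegral c
  set m := minpoly K0 c with hm
  obtain ⟨r, hr⟩ := dvd_iff_isRoot.2 (show IsRoot (m.map (algebraMap K0 K)) c by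
    rw [IsRoot.def, eval_map, ← aeval_def, hm, minpoly.aeval])
  have h1 : aeval x m = (x - algebraMap K L c) * aeval x r := by
    have h2 : aeval x m = aeval x (m.map (algebraMap K0 K)) := (aeval_map_algebraMap K x m).symm
    rw [h2, hr, map_mul]
    simp
  have h0 : aeval x m ≠ 0 := by
    intro h
    apply hxt
    refine ⟨m.map (algebraMap K0 K), ?_, by rwa [aeval_map_algebraMap]⟩
    rw [Ne, Polynomial.map_eq_zero]
    exact minpoly.ne_zero hcint
  refine ⟨aeval x m, ?_, h0, ?_⟩
  · have h3 : aeval x m = ((aeval (⟨x, hx⟩ : F0) m : F0) : L) := by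
      exact (aeval_algebraMap_apply L (⟨x, hx⟩ : F0) m)
    rw [h3]
    exact SetLike.coe_mem _
  · have h4 : aeval x r ∈ v.toValuationSubring := by
      rw [aeval_def, eval₂_eq_sum_range]
      exact sum_mem fun i _ => mul_mem (v.algebraMap_mem' _) (pow_mem hxv i)
    have h5 := nonunits_mul_mem hc h4
    rw [← h1, mem_nonunits_iff_ord] at h5
    exact h5.resolve_left h0

/-- places of `L / K` are unramified over `F0`. -/
theorem IsFixed.exists_ord_eq_one (H : IsFixed (K0 := K0) G F0)
    (hspan : ∀ z : L, z ∈ Submodule.span K (F0 : Set L))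
    [IsAlgClosed K] [FF.IsFnField K L] [CharZero K] [Algebra.IsAlgebraic K0 K]
    {x : L} (hx : x ∈ F0) (hxt : Transcendental K x) (v : Place K L) :
    ∃ f ∈ F0, v.ord f = 1 := by
  classical
  obtain ⟨f0, hf0, hf00, hf0v⟩ := exists_fixed_pos hx hxt v
  have hfin := FF.finite_zeros_of_fnField (K := K) f0
  have horb : {w : Place K L | ∃ g ∈ G, w = g • v}.Finite := by
    refine hfin.subset ?_
    rintro _ ⟨g, hg, rfl⟩
    change 0 < (g • v).ord f0
    have h1 := SemilinearAut.ord_smul g v f0
    rw [(H.mem_iff _).1 hf0 g hg] at h1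
    rw [h1]
    exact hf0v
  set S := horb.toFinset with hS
  have hmemS : ∀ w, w ∈ S ↔ ∃ g ∈ G, w = g • v := fun w => by
    rw [hS, Set.Finite.mem_toFinset]; rfl
  have hvS : v ∈ S := (hmemS v).2 ⟨1, one_mem _, (one_smul _ v).symm⟩
  obtain ⟨t, ht0, htv⟩ := FF.exists_ord_eq_one v
  obtain ⟨h, hh⟩ := RR.exists_approx S (fun w => if w = v then t else 0)
    (fun w => if w = v then -2 else -1)
  -- the value of `h`
  have hval : ∀ (w : Place K L) (z : L) (n : ℤ), w.adicValuation z ≤ exp (-n) →
      z = 0 ∨ n ≤ w.ord z := by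
    intro w z n hz
    by_cases hz0 : z = 0
    · exact Or.inl hz0
    right
    have h1 := (w.adicValuation_le_exp_iff).1 hz
    rcases h1 with h1 | h1
    · exact absurd h1 hz0
    · omega
  have hhv : v.ord h = 1 := by
    have h1 := hh v hvS
    rw [if_pos rfl, if_pos rfl] at h1
    have h2 := hval v (h - t) 2 h1
    have h3 : h = t + (h - t) := by ring
    rw [h3, FF.ord_add_eq_of_lt v ht0 (by
      rcases h2 with h2 | h2
      · exact Or.inl h2
      · right; omega), htv]
  have hhw : ∀ w ∈ S, h = 0 ∨ 1 ≤ w.ord h := by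
    intro w hw
    by_cases hwv : w = v
    · right; rw [hwv, hhv]
    have h1 := hh w hw
    rw [if_neg hwv, if_neg hwv, sub_zero] at h1
    exact hval w h 1 h1
  -- the stable subspace
  let W : Submodule K L :=
    { carrier := {z | ∀ w ∈ S, z ∈ w.toValuationSubring.nonunits}
      add_mem' := fun ha hb w hw => add_mem (ha w hw) (hb w hw)
      zero_mem' := fun w _ => by
        rw [mem_nonunits_iff_ord]; exact Or.inl rfl
      smul_mem' := fun c z hz w hw => by
        rw [Algebra.smul_def, mul_comm]
        exact nonunits_mul_mem (hz w hw) (w.algebraMap_mem' c) }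
  have hWG : ∀ g ∈ G, ∀ z ∈ W, g • z ∈ W := by
    intro g hg z hz w hw
    obtain ⟨g', hg', rfl⟩ := (hmemS w).1 hw
    have h1 : (g⁻¹ * g') • v ∈ S := (hmemS _).2 ⟨_, mul_mem (inv_mem hg) hg', rfl⟩
    have h2 := hz _ h1
    rw [mem_nonunits_iff_ord] at h2 ⊢
    rcases h2 with h2 | h2
    · left; rw [h2, smul_zero]
    · right
      have h3 := SemilinearAut.ord_smul g ((g⁻¹ * g') • v) z
      rw [← mul_smul, mul_inv_cancel_left] at h3
      rw [h3]
      exact h2
  have hhW : h ∈ W := fun w hw => by
    rw [mem_nonunits_iff_ord]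
    rcases hhw w hw with h1 | h1
    · exact Or.inl h1
    · right; omega
  have hspan' := H.span_of_stable hspan W hWG hhW
  by_contra hcon
  push Not at hcon
  have key : ∀ z ∈ Submodule.span K ((W : Set L) ∩ F0), z = 0 ∨ 2 ≤ v.ord z := by
    intro z hz
    induction hz using Submodule.span_induction with
    | mem z hz =>
      by_cases hz0 : z = 0
      · exact Or.inl hz0
      right
      have h1 := hz.1 v hvS
      rw [mem_nonunits_iff_ord] at h1
      have h2 := h1.resolve_left hz0
      have h3 := hcon z hz.2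
      omega
    | zero => exact Or.inl rfl
    | add a b _ _ ha hb =>
      by_cases hab : a + b = 0
      · exact Or.inl hab
      · right
        exact (FF.le_ord_add v ha hb).resolve_left hab
    | smul c z _ hz =>
      rcases hz with hz | hz
      · left; rw [hz, smul_zero]
      · by_cases hc : c = 0
        · left; rw [hc, zero_smul]
        · have hz0 : z ≠ 0 := by rintro rfl; rw [v.ord_zero] at hz; omega
          right
          rw [Algebra.smul_def, v.ord_mul (by simpa using hc) hz0, FF.ord_algebraMap]
          omega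
  rcases key h hspan' with h1 | h1
  · rw [h1, v.ord_zero] at hhv
    omega
  · omega

end Unram

end Fermat.Agent.QComp
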