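import Fermat.Agent.QComp.Tri
import Fermat.Agent.QComp.Unram

/-!
# The local structure at the points of the noncuspidal chart
-/

set_option autoImplicit false
set_option linter.unusedSectionVars false
set_option linter.style.haveILetI false

open IsLocalRing AlgebraicCurve

namespace Fermat.Agent.QComp

section Chart

variable {L : Type*} [Field L] {F0 : Subfield L} {κ : Type*} [Field κ]

/-- a chart of the three component configuration -/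
structure TriChart (k : Type*) [Field k] [Algebra k κ] (S : Subring L) (cI cM cZ : Comp F0 κ)
    (ϖ : L) (N : ℕ) (κ0 : Subring κ) (ψ : κ →+* κ) (Θ : κ → κ) : Prop where
  tri : TriVal S cI.V cM.V cZ.V ϖ N
  le : S ≤ F0.toSubring
  redI : ∀ b ∈ S, ∀ z, cI.Is b z → z ∈ κ0
  redM : ∀ b ∈ S, ∀ z, cM.Is b z → z ∈ κ0
  redZ : ∀ b ∈ S, ∀ z, cZ.Is b z → z ∈ κ0
  ψ_mem : ∀ z ∈ κ0, ψ z ∈ κ0
  lift : ∀ z ∈ κ0, ∃ a ∈ S, ∃ b ∈ S, cI.Is a z ∧ cM.Is a z ∧ cZ.Is a (ψ z) ∧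
    cI.Is b (ψ z) ∧ cM.Is b z ∧ cZ.Is b z ∧ cM.Is ((a - b) ^ N / ϖ) (-Θ z)
  place : ∀ (P : Ideal κ0) [P.IsPrime], P ≠ ⊥ → ∃ v : Place k κ,
    (∀ z ∈ κ0, z ∈ v.toValuationSubring) ∧
      ∀ z : κ0, z ∈ P ↔ (z : κ) ∈ v.toValuationSubring.nonunits
  frac : ∀ v : Place k κ, (∀ z ∈ κ0, z ∈ v.toValuationSubring) → ∀ z ∈ v.toValuationSubring,
    ∃ a b : κ0, (b : κ) ∉ v.toValuationSubring.nonunits ∧ z = a / b
  not_field : ∃ z ∈ κ0, z ≠ 0 ∧ z⁻¹ ∉ κ0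

/-- `P` is the point `v` of the component `c`. -/
def AtPl {k : Type*} [Field k] [Algebra k κ] {S : Subring L} (c : Comp F0 κ) (P : Ideal S)
    (v : Place k κ) : Prop :=
  ∀ b : S, ∀ z, c.Is b z → (b ∈ P ↔ z ∈ v.toValuationSubring.nonunits)

variable {k : Type*} [Field k] [Algebra k κ] {S : Subring L} {cI cM cZ : Comp F0 κ} {ϖ : L} {N : ℕ}
  {κ0 : Subring κ} {ψ : κ →+* κ} {Θ : κ → κ}

theorem AtPl.eq {c : Comp F0 κ} {P P' : Ideal S} {v : Place k κ} (h : AtPl c P v)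
    (h' : AtPl c P' v) (hS : S ≤ F0.toSubring) (hS' : S ≤ c.V.toSubring) : P = P' := by
  ext b
  obtain ⟨z, hz⟩ := c.ex (hS b.2) (hS' b.2)
  rw [h b z hz, h' b z hz]

/-- a component is a "good" component of the chart if `S` maps onto `κ0`. -/
structure OntoChart (S : Subring L) (c : Comp F0 κ) (κ0 : Subring κ) : Prop where
  leF : S ≤ F0.toSubring
  le : S ≤ c.V.toSubring
  red : ∀ b ∈ S, ∀ z, c.Is b z → z ∈ κ0
  lift : ∀ z ∈ κ0, ∃ a ∈ S, c.Is a z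

theorem TriChart.ontoI (H : TriChart k S cI cM cZ ϖ N κ0 ψ Θ) : OntoChart S cI κ0 :=
  ⟨H.le, H.tri.leI, H.redI, fun z hz => by
    obtain ⟨a, ha, b, hb, h1, h2, h3, h4, h5, h6, h7⟩ := H.lift z hz
    exact ⟨a, ha, h1⟩⟩

theorem TriChart.ontoM (H : TriChart k S cI cM cZ ϖ N κ0 ψ Θ) : OntoChart S cM κ0 :=
  ⟨H.le, H.tri.leM, H.redM, fun z hz => by
    obtain ⟨a, ha, b, hb, h1, h2, h3, h4, h5, h6, h7⟩ := H.lift z hz
    exact ⟨a, ha, h2⟩⟩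

theorem TriChart.ontoZ (H : TriChart k S cI cM cZ ϖ N κ0 ψ Θ) : OntoChart S cZ κ0 :=
  ⟨H.le, H.tri.leZ, H.redZ, fun z hz => by
    obtain ⟨a, ha, b, hb, h1, h2, h3, h4, h5, h6, h7⟩ := H.lift z hz
    exact ⟨b, hb, h6⟩⟩

/-- a maximal ideal is not the ideal of a component -/
theorem OntoChart.nongen {c : Comp F0 κ} (H : OntoChart S c κ0)
    (hnf : ∃ z ∈ κ0, z ≠ 0 ∧ z⁻¹ ∉ κ0) {P : Ideal S} (hP : P.IsMaximal) :
    ∃ b ∈ P, (b : L) ∉ c.V.nonunits := by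
  by_contra hcon
  push Not at hcon
  obtain ⟨ρ, hρ, hρ0⟩ := Comp.exists_hom c S H.leF H.le
  obtain ⟨z, hz, hz0, hzinv⟩ := hnf
  obtain ⟨b, hb, hbz⟩ := H.lift z hz
  have hbP : (⟨b, hb⟩ : S) ∉ P := fun h => hz0 (hbz.nonunit_iff.1 (hcon _ h))
  obtain ⟨x, i, hi, hx⟩ := hP.exists_inv hbP
  have h1 : ρ i = 0 := (hρ0 i).2 (hcon i hi)
  have h2 : ρ x * z = 1 := by
    have h3 := congrArg ρ hx
    rw [map_add, map_mul, h1, add_zero, map_one, c.uniq (hρ ⟨b, hb⟩) hbz] at h3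
    exact h3
  apply hzinv
  rw [inv_eq_of_mul_eq_one_left h2]
  exact H.red x x.2 _ (hρ x)

theorem OntoChart.exists_place {c : Comp F0 κ} (H : OntoChart S c κ0)
    (hplace : ∀ (P : Ideal κ0) [P.IsPrime], P ≠ ⊥ → ∃ v : Place k κ,
      (∀ z ∈ κ0, z ∈ v.toValuationSubring) ∧
        ∀ z : κ0, z ∈ P ↔ (z : κ) ∈ v.toValuationSubring.nonunits)
    {P : Ideal S} [hP : P.IsPrime] (hng : ∃ b ∈ P, (b : L) ∉ c.V.nonunits) (hc : Thru c.V S P) :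
    ∃ v : Place k κ, (∀ z ∈ κ0, z ∈ v.toValuationSubring) ∧ AtPl c P v := by
  obtain ⟨ρ, hρ, hρ0⟩ := Comp.exists_hom c S H.leF H.le
  let ρ0 : S →+* κ0 := ρ.codRestrict κ0 fun b => H.red b b.2 _ (hρ b)
  have hsurj : Function.Surjective ρ0 := by
    intro z
    obtain ⟨a, ha, haz⟩ := H.lift z z.2
    exact ⟨⟨a, ha⟩, Subtype.ext (c.uniq (hρ ⟨a, ha⟩) haz)⟩
  have hker : RingHom.ker ρ0 ≤ P := by
    intro b hb
    apply hc
    rw [← hρ0]
    exact congrArg Subtype.val (RingHom.mem_ker.1 hb)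
  haveI hprime : (P.map ρ0).IsPrime := Ideal.map_isPrime_of_surjective hsurj hker
  have hcomap : (P.map ρ0).comap ρ0 = P := by
    rw [Ideal.comap_map_of_surjective ρ0 hsurj]
    exact sup_eq_left.2 hker
  have hne : P.map ρ0 ≠ ⊥ := by
    intro h
    obtain ⟨b, hb, hbn⟩ := hng
    have h1 : ρ0 b ∈ P.map ρ0 := Ideal.mem_map_of_mem _ hb
    rw [h, Ideal.mem_bot] at h1
    apply hbn
    rw [← hρ0]
    exact congrArg Subtype.val h1
  obtain ⟨v, hv, hvP⟩ := hplace (P.map ρ0) hne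
  refine ⟨v, hv, fun b z hz => ?_⟩
  have h1 : ((ρ0 b : κ0) : κ) = z := c.uniq (hρ b) hz
  rw [← h1, ← hvP, ← Ideal.mem_comap, hcomap]

theorem OntoChart.res {c : Comp F0 κ} (H : OntoChart S c κ0) {v : Place k κ}
    (hv : ∀ z ∈ κ0, z ∈ v.toValuationSubring)
    (hfrac : ∀ z ∈ v.toValuationSubring,
      ∃ a b : κ0, (b : κ) ∉ v.toValuationSubring.nonunits ∧ z = a / b)
    {P : Ideal S} (hP : AtPl c P v) {ρ : S →+* κ} (hρ : ∀ b : S, c.Is b (ρ b)) (b b' : S) :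
    ∃ x s : S, s ∉ P ∧ (ρ (s * b) = ρ (x * b') ∨ ρ (s * b') = ρ (x * b)) := by
  have h1P : (1 : S) ∉ P := by
    rw [hP 1 1 (Comp.Is.one c)]
    exact one_notMem_nonunits
  by_cases hb : ρ b = 0
  · exact ⟨0, 1, h1P, Or.inl (by simp [hb])⟩
  by_cases hb' : ρ b' = 0
  · exact ⟨0, 1, h1P, Or.inr (by simp [hb'])⟩
  have key : ∀ b b' : S, ρ b ≠ 0 → ρ b' ≠ 0 → ρ b / ρ b' ∈ v.toValuationSubring →
      ∃ x s : S, s ∉ P ∧ ρ (s * b) = ρ (x * b') := by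
    intro b b' hb hb' hmem
    obtain ⟨n, d, hd, hnd⟩ := hfrac _ hmem
    obtain ⟨x, hx, hxn⟩ := H.lift n n.2
    obtain ⟨s, hs, hsd⟩ := H.lift d d.2
    have hd0 : (d : κ) ≠ 0 := (notMem_nonunits_iff.1 hd).1
    refine ⟨⟨x, hx⟩, ⟨s, hs⟩, ?_, ?_⟩
    · rwa [hP ⟨s, hs⟩ d hsd]
    · have h1 : ρ ⟨x, hx⟩ = n := c.uniq (hρ _) hxn
      have h2 : ρ ⟨s, hs⟩ = d := c.uniq (hρ _) hsd
      rw [map_mul, map_mul, h1, h2]
      field_simp at hnd
      linear_combination hnd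
  rcases v.toValuationSubring.mem_or_inv_mem (ρ b / ρ b') with h | h
  · obtain ⟨x, s, hs, hx⟩ := key b b' hb hb' h
    exact ⟨x, s, hs, Or.inl hx⟩
  · rw [inv_div] at h
    obtain ⟨x, s, hs, hx⟩ := key b' b hb' hb h
    exact ⟨x, s, hs, Or.inr hx⟩

theorem AtPl.thru {c : Comp F0 κ} {P : Ideal S} {v : Place k κ} (h : AtPl c P v)
    (hS : S ≤ F0.toSubring) : Thru c.V S P := by
  intro b hb
  have h1 := Comp.is_zero_of_nonunit (c := c) (hS b.2) hb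
  rw [h b 0 h1, ValuationSubring.mem_nonunits_iff_or]
  exact Or.inl rfl

namespace TriChart

variable (H : TriChart k S cI cM cZ ϖ N κ0 ψ Θ)

include H

theorem mem_iff_of_sub {c : Comp F0 κ} {P : Ideal S} (hc : Thru c.V S P) {a b : S} {z : κ}
    (ha : c.Is a z) (hb : c.Is b z) : a ∈ P ↔ b ∈ P := by
  have h1 : c.Is ((a - b : S) : L) 0 := by
    have := ha.sub hb
    rw [sub_self] at this
    exact this
  have h2 : a - b ∈ P := hc _ (h1.nonunit_iff.2 rfl)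
  constructor
  · intro h
    have := sub_mem h h2
    rwa [sub_sub_cancel] at this
  · intro h
    have := add_mem h2 h
    rwa [sub_add_cancel] at this

theorem atPlI_of_M {P : Ideal S} {v : Place k κ} (hM : AtPl cM P v) (hI : Thru cI.V S P) :
    AtPl cI P v := by
  intro b z hz
  obtain ⟨a, ha, _, _, h1, h2, _⟩ := H.lift z (H.redI b b.2 z hz)
  rw [H.mem_iff_of_sub hI (b := ⟨a, ha⟩) hz h1, hM ⟨a, ha⟩ z h2]

theorem atPlM_of_I {P : Ideal S} {v : Place k κ} (hI : AtPl cI P v) (hM : Thru cM.V S P) :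
    AtPl cM P v := by
  intro b z hz
  obtain ⟨a, ha, _, _, h1, h2, _⟩ := H.lift z (H.redM b b.2 z hz)
  rw [H.mem_iff_of_sub hM (b := ⟨a, ha⟩) hz h2, hI ⟨a, ha⟩ z h1]

theorem atPlZ_of_M {P : Ideal S} {v : Place k κ} (hM : AtPl cM P v) (hZ : Thru cZ.V S P) :
    AtPl cZ P v := by
  intro b z hz
  obtain ⟨_, _, a, ha, _, _, _, _, h5, h6, _⟩ := H.lift z (H.redZ b b.2 z hz)
  rw [H.mem_iff_of_sub hZ (b := ⟨a, ha⟩) hz h6, hM ⟨a, ha⟩ z h5]

/-- uniformizers -/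
theorem exists_unif (v : Place k κ) (hv : ∀ z ∈ κ0, z ∈ v.toValuationSubring) :
    ∃ a ∈ κ0, v.ord a = 1 := by
  obtain ⟨t, ht0, ht⟩ := FF.exists_ord_eq_one v
  obtain ⟨a, b, hb, hab⟩ := H.frac v hv t (by rw [FF.mem_iff_ord_nonneg]; omega)
  refine ⟨a, a.2, ?_⟩
  obtain ⟨hb0, hb1⟩ := notMem_nonunits_iff.1 hb
  rw [FF.mem_iff_ord_nonneg, v.ord_inv] at hb1
  have hb2 : 0 ≤ v.ord (b : κ) := (FF.mem_iff_ord_nonneg v).1 (hv b b.2)
  have ha : (a : κ) = t * b := by rw [hab, div_mul_cancel₀ _ hb0]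
  rw [ha, v.ord_mul ht0 hb0, ht]
  omega

end TriChart

/-- the noncuspidal chart -/
structure SSChart (k : Type*) [Field k] [Algebra k κ] (S : Subring L) (cI cM cZ : Comp F0 κ)
    (ϖ : L) (N : ℕ) (κ0 : Subring κ) (ψ : κ →+* κ) (Θ : κ → κ) (h : κ) : Prop extends
    TriChart k S cI cM cZ ϖ N κ0 ψ Θ where
  ord_psi : ∀ v : Place k κ, (∀ z ∈ κ0, z ∈ v.toValuationSubring) → ∀ a ∈ κ0, v.ord (ψ a) ≠ 1
  h_mem : h ∈ κ0
  h_ne : h ≠ 0
  ord_theta : ∀ v : Place k κ, (∀ z ∈ κ0, z ∈ v.toValuationSubring) → ∀ a ∈ κ0, v.ord a = 1 →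
    Θ a ≠ 0 ∧ 6 * v.ord (Θ a) = -v.ord h ∧ v.ord (Θ a) ≠ -1
  d : ∃ d1 ∈ S, ∃ d2 ∈ S, cI.Is d1 h ∧ cM.Is d1 h ∧ cZ.Is d1 0 ∧
    cI.Is d2 0 ∧ cM.Is d2 h ∧ cZ.Is d2 h

namespace SSChart

variable {h : κ} (H : SSChart k S cI cM cZ ϖ N κ0 ψ Θ h)

include H

theorem mem_div {z : L} (hz : z ∈ S) (h1 : z / ϖ ∈ cI.V) (h2 : z / ϖ ∈ cM.V)
    (h3 : z / ϖ ∈ cZ.V) : z / ϖ ∈ S := H.tri.int z hz h1 h2 h3

/-- the quotient `aI * aM ^ N * aZ / ϖ` -/
theorem exists_eta {aI aM aZ : S} (hI : (aI : L) ∈ cI.V.nonunits) (hM : (aM : L) ∈ cM.V.nonunits)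
    (hZ : (aZ : L) ∈ cZ.V.nonunits) :
    ∃ η : S, (aI : L) * (aM : L) ^ N * aZ = ϖ * η ∧ (η : L) = aI * ((aM : L) ^ N / ϖ) * aZ := by
  have h1 : (aI : L) * (aM : L) ^ N * aZ ∈ S := mul_mem (mul_mem aI.2 (pow_mem aM.2 N)) aZ.2
  have hϖ := H.tri.ne_zero
  have h2 : (aI : L) * (aM : L) ^ N * aZ / ϖ ∈ S := by
    refine H.tri.int _ h1 ?_ ?_ ?_
    · have : (aI : L) * (aM : L) ^ N * aZ / ϖ = (aI : L) / ϖ * ((aM : L) ^ N * aZ) := by ring
      rw [this]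
      exact mul_mem (H.tri.valI _ aI.2 hI) (H.tri.leI (mul_mem (pow_mem aM.2 N) aZ.2))
    · have : (aI : L) * (aM : L) ^ N * aZ / ϖ = (aM : L) ^ N / ϖ * ((aI : L) * aZ) := by ring
      rw [this]
      exact mul_mem (H.tri.valM _ aM.2 hM) (H.tri.leM (mul_mem aI.2 aZ.2))
    · have : (aI : L) * (aM : L) ^ N * aZ / ϖ = (aZ : L) / ϖ * ((aI : L) * (aM : L) ^ N) := by ring
      rw [this]
      exact mul_mem (H.tri.valZ _ aZ.2 hZ) (H.tri.leZ (mul_mem aI.2 (pow_mem aM.2 N)))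
  refine ⟨⟨_, h2⟩, ?_, ?_⟩
  · change (aI : L) * (aM : L) ^ N * aZ = ϖ * ((aI : L) * (aM : L) ^ N * aZ / ϖ)
    field_simp
  · change (aI : L) * (aM : L) ^ N * aZ / ϖ = _
    ring

/-- points on the middle component -/
theorem midCase {P : Ideal S} [hP : P.IsPrime] {v : Place k κ}
    (hv : ∀ z ∈ κ0, z ∈ v.toValuationSubring) (hPM : AtPl cM P v) :
    (∃ aI aM aZ η : S, (aI : L) ∈ cI.V.nonunits ∧ (aM : L) ∈ cM.V.nonunits ∧
      (aZ : L) ∈ cZ.V.nonunits ∧ η ∉ P ∧ η ≠ 0 ∧ (aI : L) * (aM : L) ^ N * aZ = ϖ * η) ∧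
    ((v.ord h = 0 ∧ ¬ Thru cI.V S P ∧ ¬ Thru cZ.V S P) ∨
      (0 < v.ord h ∧ AtPl cI P v ∧ AtPl cZ P v)) := by
  have h0 : ∀ z : κ, z ∈ v.toValuationSubring.nonunits ↔ z = 0 ∨ 0 < v.ord z := fun z =>
    mem_nonunits_iff_ord v
  obtain ⟨a, ha, hav⟩ := H.exists_unif v hv
  have ha0 : a ≠ 0 := by rintro rfl; rw [v.ord_zero] at hav; omega
  obtain ⟨hΘ0, hΘh, hΘ1⟩ := H.ord_theta v hv a ha hav
  have hh0 : 0 ≤ v.ord h := (FF.mem_iff_ord_nonneg v).1 (hv h H.h_mem)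
  obtain ⟨α, hα, β, hβ, hα1, hα2, hα3, hβ1, hβ2, hβ3, hαβ⟩ := H.lift a ha
  set aM : S := ⟨α - β, sub_mem hα hβ⟩ with haM
  have haMm : (aM : L) ∈ cM.V.nonunits := by
    have := hα2.sub hβ2
    rw [sub_self] at this
    exact this.nonunit_iff.2 rfl
  have hne0 : ∀ η : S, ∀ z : κ, cM.Is (η : L) z → z ≠ 0 → η ≠ 0 := by
    rintro η z hz hz0 rfl
    exact hz0 (cM.uniq hz (Comp.Is.zero cM))
  by_cases hΘ : v.ord (Θ a) = 0
  · -- ordinary points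
    have hh : v.ord h = 0 := by omega
    obtain ⟨d1, hd1, d2, hd2, h11, h12, h13, h21, h22, h23⟩ := H.d
    have hnu : h ∉ v.toValuationSubring.nonunits := by
      rw [h0]; push Not; exact ⟨H.h_ne, by omega⟩
    obtain ⟨η, hη, hη'⟩ := H.exists_eta (aI := ⟨d2, hd2⟩) (aM := aM) (aZ := ⟨d1, hd1⟩)
      (h21.nonunit_iff.2 rfl) haMm (h13.nonunit_iff.2 rfl)
    have hηr : cM.Is (η : L) (h * (-Θ a) * h) := by
      rw [hη']; exact (h22.mul hαβ).mul h12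
    have hηne : h * (-Θ a) * h ≠ 0 := mul_ne_zero (mul_ne_zero H.h_ne (neg_ne_zero.2 hΘ0)) H.h_ne
    have hηord : v.ord (h * (-Θ a) * h) = 0 := by
      rw [v.ord_mul (mul_ne_zero H.h_ne (neg_ne_zero.2 hΘ0)) H.h_ne,
        v.ord_mul H.h_ne (neg_ne_zero.2 hΘ0), FF.ord_neg, hh, hΘ]
      norm_num
    refine ⟨⟨⟨d2, hd2⟩, aM, ⟨d1, hd1⟩, η, h21.nonunit_iff.2 rfl, haMm, h13.nonunit_iff.2 rfl, ?_,
      hne0 η _ hηr hηne, hη⟩, Or.inl ⟨hh, fun hth => ?_, fun hth => ?_⟩⟩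
    · rw [hPM η _ hηr, h0]
      push Not
      exact ⟨hηne, by omega⟩
    · have h1 := hth ⟨d2, hd2⟩ (h21.nonunit_iff.2 rfl)
      rw [hPM _ _ h22] at h1
      exact hnu h1
    · have h1 := hth ⟨d1, hd1⟩ (h13.nonunit_iff.2 rfl)
      rw [hPM _ _ h12] at h1
      exact hnu h1
  · -- supersingular points
    have hψa := H.ψ_mem a ha
    obtain ⟨α', hα', β', hβ', hα1', hα2', hα3', hβ1', hβ2', hβ3', -⟩ := H.lift (ψ a) hψa
    set aI : S := ⟨β - α', sub_mem hβ hα'⟩ with haI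
    set aZ : S := ⟨α - β', sub_mem hα hβ'⟩ with haZ
    have haIm : (aI : L) ∈ cI.V.nonunits := by
      have := hβ1.sub hα1'
      rw [sub_self] at this
      exact this.nonunit_iff.2 rfl
    have haZm : (aZ : L) ∈ cZ.V.nonunits := by
      have := hα3.sub hβ3'
      rw [sub_self] at this
      exact this.nonunit_iff.2 rfl
    have haIM : cM.Is (aI : L) (a - ψ a) := hβ2.sub hα2'
    have haZM : cM.Is (aZ : L) (a - ψ a) := hα2.sub hβ2'
    obtain ⟨η, hη, hη'⟩ := H.exists_eta haIm haMm haZm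
    have hηr : cM.Is (η : L) ((a - ψ a) * (-Θ a) * (a - ψ a)) := by
      rw [hη']; exact (haIM.mul hαβ).mul haZM
    have hψ1 := H.ord_psi v hv a ha
    have hψ0 : 0 ≤ v.ord (ψ a) := (FF.mem_iff_ord_nonneg v).1 (hv _ hψa)
    -- the order of `a - ψ a`
    have hord : a - ψ a ≠ 0 ∧ ((v.ord (a - ψ a) = 0) ∨ (v.ord (a - ψ a) = 1)) := by
      by_cases hψz : ψ a = 0
      · rw [hψz, sub_zero]
        exact ⟨ha0, Or.inr hav⟩
      by_cases hψo : v.ord (ψ a) = 0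
      · have h1 : v.ord (-ψ a + a) = v.ord (-ψ a) :=
          FF.ord_add_eq_of_lt v (neg_ne_zero.2 hψz) (Or.inr (by rw [FF.ord_neg]; omega))
        rw [FF.ord_neg, hψo] at h1
        have h2 : a - ψ a = -ψ a + a := by ring
        rw [h2]
        refine ⟨fun h3 => ?_, Or.inl h1⟩
        have h4 : a = ψ a := by linear_combination h3
        rw [← h4] at hψo
        omega
      · have h1 : v.ord (a + -ψ a) = v.ord a :=
          FF.ord_add_eq_of_lt v ha0 (Or.inr (by rw [FF.ord_neg]; omega))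
        have h2 : a - ψ a = a + -ψ a := by ring
        rw [h2]
        refine ⟨fun h3 => ?_, Or.inr (by rw [h1, hav])⟩
        have h4 : a = ψ a := by linear_combination h3
        rw [← h4] at hψ1
        exact hψ1 hav
    obtain ⟨hne, hord⟩ := hord
    have hηne : (a - ψ a) * (-Θ a) * (a - ψ a) ≠ 0 :=
      mul_ne_zero (mul_ne_zero hne (neg_ne_zero.2 hΘ0)) hne
    have hηo : v.ord ((a - ψ a) * (-Θ a) * (a - ψ a)) = 2 * v.ord (a - ψ a) + v.ord (Θ a) := by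
      rw [v.ord_mul (mul_ne_zero hne (neg_ne_zero.2 hΘ0)) hne,
        v.ord_mul hne (neg_ne_zero.2 hΘ0), FF.ord_neg]
      ring
    have hηn : 0 ≤ v.ord ((a - ψ a) * (-Θ a) * (a - ψ a)) :=
      (FF.mem_iff_ord_nonneg v).1 (hv _ (H.redM η η.2 _ hηr))
    have hΘneg : v.ord (Θ a) < 0 := by omega
    have h1 : v.ord (a - ψ a) = 1 := by
      rcases hord with h1 | h1 <;> omega
    have h2 : v.ord (Θ a) = -2 := by omega
    have hηP : η ∉ P := by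
      rw [hPM η _ hηr, h0]
      push Not
      exact ⟨hηne, by rw [hηo, h1, h2]; norm_num⟩
    have hη0 := hne0 η _ hηr hηne
    have hsys := H.tri.locSys haIm haMm haZm hηP hη0 hη
    have haIP : aI ∈ P := by
      rw [hPM aI _ haIM, h0]; right; omega
    have haZP : aZ ∈ P := by
      rw [hPM aZ _ haZM, h0]; right; omega
    have hnot : ∀ b : S, b ∈ P → ¬ IsUnit (algebraMap S (LB S P) b) := by
      intro b hb
      rw [IsLocalization.AtPrime.isUnit_to_map_iff _ P]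
      exact fun h => h hb
    have hthI : Thru cI.V S P := by
      by_contra hcon
      exact hnot _ haIP (hsys.isUnit_of_not_thru (c := 0) hcon)
    have hthZ : Thru cZ.V S P := by
      by_contra hcon
      exact hnot _ haZP (hsys.isUnit_of_not_thru (c := 2) hcon)
    exact ⟨⟨aI, aM, aZ, η, haIm, haMm, haZm, hηP, hη0, hη⟩,
      Or.inr ⟨by omega, H.atPlI_of_M hPM hthI, H.atPlZ_of_M hPM hthZ⟩⟩

/-- the point `v` of the middle component -/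
theorem exists_midPoint (v : Place k κ) (hv : ∀ z ∈ κ0, z ∈ v.toValuationSubring) :
    ∃ P : Ideal S, P.IsPrime ∧ AtPl cM P v := by
  obtain ⟨ρ, hρ, -⟩ := Comp.exists_hom cM S H.le H.tri.leM
  let ρ' : S →+* v.toValuationSubring := ρ.codRestrict v.toValuationSubring.toSubring
    fun b => hv _ (H.redM b b.2 _ (hρ b))
  refine ⟨(maximalIdeal v.toValuationSubring).comap ρ', Ideal.IsPrime.comap _, fun b z hz => ?_⟩
  have h1 : ((ρ' b : v.toValuationSubring) : κ) = z := cM.uniq (hρ b) hz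
  rw [Ideal.mem_comap, ← h1, ValuationSubring.coe_mem_nonunits_iff]

/-- **Classification of the points of the special fibre in the noncuspidal chart.** -/
theorem classify {P : Ideal S} [hPp : P.IsPrime] (hngI : ∃ b ∈ P, (b : L) ∉ cI.V.nonunits)
    (hngM : ∃ b ∈ P, (b : L) ∉ cM.V.nonunits) (hngZ : ∃ b ∈ P, (b : L) ∉ cZ.V.nonunits)
    (hc : Thru cI.V S P ∨ Thru cM.V S P ∨ Thru cZ.V S P) :
    ∃ v : Place k κ, (∀ z ∈ κ0, z ∈ v.toValuationSubring) ∧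
      (Thru cI.V S P → AtPl cI P v) ∧ (Thru cM.V S P → AtPl cM P v) ∧
      (Thru cZ.V S P → AtPl cZ P v) ∧
      (∃ aI aM aZ η : S, (aI : L) ∈ cI.V.nonunits ∧ (aM : L) ∈ cM.V.nonunits ∧
        (aZ : L) ∈ cZ.V.nonunits ∧ η ∉ P ∧ η ≠ 0 ∧ (aI : L) * (aM : L) ^ N * aZ = ϖ * η) ∧
      ((Thru cI.V S P ∧ Thru cM.V S P ∧ Thru cZ.V S P) ∨
        (Thru cI.V S P ∧ ¬ Thru cM.V S P ∧ ¬ Thru cZ.V S P) ∨
        (¬ Thru cI.V S P ∧ Thru cM.V S P ∧ ¬ Thru cZ.V S P) ∨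
        (¬ Thru cI.V S P ∧ ¬ Thru cM.V S P ∧ Thru cZ.V S P)) := by
  have h0 : ∀ (v : Place k κ) (z : κ), z ∈ v.toValuationSubring.nonunits ↔ z = 0 ∨ 0 < v.ord z :=
    fun v z => mem_nonunits_iff_ord v
  by_cases hM : Thru cM.V S P
  · obtain ⟨v, hv, hvM⟩ := H.ontoM.exists_place H.place hngM hM
    obtain ⟨hsys, hcase⟩ := H.midCase hv hvM
    rcases hcase with ⟨-, hI, hZ⟩ | ⟨-, hI, hZ⟩
    · exact ⟨v, hv, fun h => absurd h hI, fun _ => hvM, fun h => absurd h hZ, hsys,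
        Or.inr (Or.inr (Or.inl ⟨hI, hM, hZ⟩))⟩
    · exact ⟨v, hv, fun _ => hI, fun _ => hvM, fun _ => hZ, hsys,
        Or.inl ⟨hI.thru H.le, hM, hZ.thru H.le⟩⟩
  -- not on the middle component: not on both others
  have hnot : ¬ (Thru cI.V S P ∧ Thru cZ.V S P) := by
    rintro ⟨hI, hZ⟩
    obtain ⟨v, hv, hvI⟩ := H.ontoI.exists_place H.place hngI hI
    obtain ⟨d1, hd1, d2, hd2, h11, h12, h13, h21, h22, h23⟩ := H.d
    have h1 := hZ ⟨d1, hd1⟩ (h13.nonunit_iff.2 rfl)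
    rw [hvI _ _ h11, h0] at h1
    have h2 := h1.resolve_left H.h_ne
    obtain ⟨P', hP', hP'M⟩ := H.exists_midPoint v hv
    obtain ⟨-, hcase⟩ := H.midCase hv hP'M
    rcases hcase with ⟨h3, -, -⟩ | ⟨-, h4, -⟩
    · omega
    · have h5 := hvI.eq h4 H.le H.tri.leI
      apply hM
      rw [h5]
      exact hP'M.thru H.le
  have hex : ∀ {V : ValuationSubring L}, ¬ Thru V S P → ∃ b : S, (b : L) ∈ V.nonunits ∧ b ∉ P := by
    intro V hV
    unfold Thru at hV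
    push Not at hV
    exact hV
  obtain ⟨bM, hbM, hbMP⟩ := hex hM
  have hϖP : ∀ b : S, b ∉ P → b ≠ 0 := fun b hb h => hb (h ▸ zero_mem _)
  by_cases hI : Thru cI.V S P
  · have hZ : ¬ Thru cZ.V S P := fun h => hnot ⟨hI, h⟩
    obtain ⟨v, hv, hvI⟩ := H.ontoI.exists_place H.place hngI hI
    obtain ⟨bZ, hbZ, hbZP⟩ := hex hZ
    have hη : bM ^ N * bZ ∉ P := fun h => by
      rcases hPp.mem_or_mem h with h | h
      · exact hbMP (hPp.mem_of_pow_mem _ h)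
      · exact hbZP h
    refine ⟨v, hv, fun _ => hvI, fun h => absurd h hM, fun h => absurd h hZ,
      ⟨⟨ϖ, H.tri.mem⟩, bM, bZ, bM ^ N * bZ, ?_, hbM, hbZ, hη, hϖP _ hη, ?_⟩,
      Or.inr (Or.inl ⟨hI, hM, hZ⟩)⟩
    · exact H.tri.nuI
    · push_cast; ring
  · have hZ : Thru cZ.V S P := by tauto
    obtain ⟨v, hv, hvZ⟩ := H.ontoZ.exists_place H.place hngZ hZ
    obtain ⟨bI, hbI, hbIP⟩ := hex hI
    have hη : bI * bM ^ N ∉ P := fun h => by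
      rcases hPp.mem_or_mem h with h | h
      · exact hbIP h
      · exact hbMP (hPp.mem_of_pow_mem _ h)
    refine ⟨v, hv, fun h => absurd h hI, fun h => absurd h hM, fun _ => hvZ,
      ⟨bI, bM, ⟨ϖ, H.tri.mem⟩, bI * bM ^ N, hbI, hbM, ?_, hη, hϖP _ hη, ?_⟩,
      Or.inr (Or.inr (Or.inr ⟨hI, hM, hZ⟩))⟩
    · exact H.tri.nuZ
    · push_cast; ring

end SSChart

end Chart

end Fermat.Agent.QComp
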