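import Fermat.Agent.QComp.Orbit
import Fermat.Agent.QComp.SS

/-!
# Coherence of values for elements with finite orbits
-/

set_option autoImplicit false
set_option linter.unusedSectionVars false

open Polynomial IsLocalRing AlgebraicCurve

namespace Fermat.Agent.QComp

variable {L : Type*} [Field L] {F0 : Subfield L} {κ : Type*} [Field κ]

theorem Comp.is_prod_coeff (c : Comp F0 κ) {z : κ} (s : Finset L) (hs : ∀ b ∈ s, c.Is b z) (i : ℕ) :
    c.Is ((∏ b ∈ s, (X - C b)).coeff i) (((X - C z) ^ s.card).coeff i) := by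
  classical
  induction s using Finset.induction_on generalizing i with
  | empty =>
    rw [Finset.prod_empty, Finset.card_empty, pow_zero, coeff_one, coeff_one]
    split_ifs
    · exact Comp.Is.one c
    · exact Comp.Is.zero c
  | insert a s ha ih =>
    have h1 := ih fun b hb => hs b (Finset.mem_insert_of_mem hb)
    rw [Finset.prod_insert ha, Finset.card_insert_of_notMem ha, pow_succ', sub_mul, coeff_sub,
      coeff_C_mul, sub_mul, coeff_sub, coeff_C_mul]
    refine Comp.Is.sub ?_ ((hs a (Finset.mem_insert_self _ _)).mul (h1 i))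
    cases i with
    | zero => rw [coeff_X_mul_zero, coeff_X_mul_zero]; exact Comp.Is.zero c
    | succ n => rw [coeff_X_mul, coeff_X_mul]; exact h1 n

variable {k : Type*} [Field k] [Algebra k κ] {G : Type*} [Group G] [MulSemiringAction G L]

theorem sub_nonunits_of_orbit {c1 c2 : Comp F0 κ} {S : Subring L} {v : Place k κ}
    (hS : ∀ b ∈ S, ∀ z1 z2, c1.Is b z1 → c2.Is b z2 → z1 - z2 ∈ v.toValuationSubring.nonunits)
    {b : L} (hfin : (MulAction.orbit G b).Finite) (hcoef : ∀ i, (orbPoly hfin).coeff i ∈ S)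
    {z1 z2 : κ} (h1 : ∀ g : G, c1.Is (g • b) z1) (h2 : ∀ g : G, c2.Is (g • b) z2)
    (hz1 : z1 ∈ v.toValuationSubring) (hz2 : z2 ∈ v.toValuationSubring) :
    z1 - z2 ∈ v.toValuationSubring.nonunits := by
  set m := hfin.toFinset.card with hm
  have hm0 : m ≠ 0 := by
    rw [hm, Finset.card_ne_zero]
    exact ⟨b, by rw [Set.Finite.mem_toFinset]; exact MulAction.mem_orbit_self b⟩
  have e1 : ∀ i, c1.Is ((orbPoly hfin).coeff i) (((X - C z1) ^ m).coeff i) := fun i =>
    c1.is_prod_coeff _ (fun b' hb' => by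
      rw [Set.Finite.mem_toFinset] at hb'
      obtain ⟨g, rfl⟩ := hb'
      exact h1 g) i
  have e2 : ∀ i, c2.Is ((orbPoly hfin).coeff i) (((X - C z2) ^ m).coeff i) := fun i =>
    c2.is_prod_coeff _ (fun b' hb' => by
      rw [Set.Finite.mem_toFinset] at hb'
      obtain ⟨g, rfl⟩ := hb'
      exact h2 g) i
  have e3 : ∀ i, ((X - C z1) ^ m).coeff i - ((X - C z2) ^ m).coeff i ∈
      v.toValuationSubring.nonunits := fun i => hS _ (hcoef i) _ _ (e1 i) (e2 i)
  let O := v.toValuationSubring
  let Z1 : O := ⟨z1, hz1⟩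
  let Z2 : O := ⟨z2, hz2⟩
  have e4 : ((X - C Z1) ^ m).map (residue O) = ((X - C Z2) ^ m).map (residue O) := by
    ext i
    rw [coeff_map, coeff_map, ← sub_eq_zero, ← map_sub, residue_eq_zero_iff,
      ← ValuationSubring.coe_mem_nonunits_iff]
    have h3 : ((((X - C Z1) ^ m).coeff i - ((X - C Z2) ^ m).coeff i : O) : κ) =
        ((X - C z1) ^ m).coeff i - ((X - C z2) ^ m).coeff i := by
      have h4 : ∀ Z : O, ((X - C (Z : κ)) ^ m) = ((X - C Z) ^ m).map O.subtype := by
        intro Z
        rw [Polynomial.map_pow, Polynomial.map_sub, map_X, map_C]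
        rfl
      have h5 : ∀ Z : O, ((X - C (Z : κ)) ^ m).coeff i = ((((X - C Z) ^ m).coeff i : O) : κ) := by
        intro Z
        rw [h4 Z, coeff_map]
        rfl
      have h6 := h5 Z1
      have h7 := h5 Z2
      change ((X - C z1) ^ m).coeff i = _ at h6
      change ((X - C z2) ^ m).coeff i = _ at h7
      rw [h6, h7]
      rfl
    rw [h3]
    exact e3 i
  have e5 := congrArg (fun p => p.eval (residue O Z1)) e4
  simp only [Polynomial.map_pow, Polynomial.map_sub, map_X, map_C, eval_pow, eval_sub, eval_X,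
    eval_C, sub_self, zero_pow hm0] at e5
  have e6 : residue O Z1 - residue O Z2 = 0 := by
    by_contra h
    exact pow_ne_zero m h e5.symm
  rw [← map_sub, residue_eq_zero_iff, ← ValuationSubring.coe_mem_nonunits_iff] at e6
  exact e6

end Fermat.Agent.QComp
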