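import Fermat.Agent.QVal.Units
import Fermat.Agent.QComp.OrdT
import Fermat.Agent.QComp.RatLift
import Fermat.Agent.QComp.Inert
import Fermat.Agent.QComp.Coord
import Fermat.Agent.QComp.OrbitEv

/-!
# Level `M q²`: the fixed field of inertia
-/

set_option autoImplicit false
set_option linter.unusedSectionVars false
set_option linter.style.haveILetI false
set_option linter.unusedVariables false

noncomputable section

open AlgebraicCurve ModularCurve IntermediateField Module Polynomial IsLocalRing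

namespace Fermat.Agent.QComp

open Fermat.Agent.FF Fermat.Agent.Red Fermat.Agent.QVal

local notation "Qb" => AlgebraicClosure ℚ
local notation "Γℚ" => (AlgebraicClosure ℚ ≃ₐ[ℚ] AlgebraicClosure ℚ)

section Fixed

variable (A : ValuationSubring Qb) (N : ℕ)

/-- the field of inertia-invariant functions -/
def FI : IntermediateField (KI A) (FB N) where
  carrier := {f | IFix A f}
  mul_mem' := fun ha hb => ha.mul hb
  add_mem' := fun ha hb => ha.add hb
  algebraMap_mem' := fun a => IFix.algebraMap (mem_KI.1 a.2)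
  inv_mem' := fun f hf => hf.inv

variable {A N}

theorem mem_FI {f : FB N} : f ∈ FI A N ↔ IFix A f := Iff.rfl

theorem mem_FIs {f : FB N} : f ∈ (FI A N).toSubfield ↔ IFix A f := Iff.rfl

variable (A N)

/-- the inertia group acting on `FB N`. -/
def GI : Subgroup (SemilinearAut Qb (FB N)) :=
  (A.inertiaSubgroupIn ℚ).map (arithmeticGalois (modularFunctionFieldFull N))

variable {A N}

theorem smul_arith (σ : Γℚ) (z : FB N) :
    (arithmeticGalois (modularFunctionFieldFull N) σ : SemilinearAut Qb (FB N)) • z = gal N σ z :=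
  rfl

theorem isFixed_GI : IsFixed (K0 := KI A) (GI A N) (FI A N) where
  base a ha := by
    refine ⟨⟨a, mem_KI.2 fun σ hσ => ?_⟩, rfl⟩
    exact ha _ ⟨σ, hσ, rfl⟩
  base' := by
    rintro _ ⟨σ, hσ, rfl⟩ a
    exact mem_KI.1 a.2 σ hσ
  mem_iff z := by
    constructor
    · rintro hz _ ⟨σ, hσ, rfl⟩
      exact hz σ hσ
    · intro h σ hσ
      exact h _ ⟨σ, hσ, rfl⟩

/-- the inclusion of valuation rings -/
def iotaRI (A : ValuationSubring Qb) : RI A →+* A :=
  ((algebraMap (KI A) Qb).comp (RI A).subtype).codRestrict A.toSubring fun x => x.2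

theorem coe_iotaRI (x : RI A) : (iotaRI A x : Qb) = ((x : KI A) : Qb) := rfl

theorem orbit_finite (a : Qb) : (MulAction.orbit (A.inertiaSubgroupIn ℚ) a).Finite := by
  have h1 : IsIntegral ℚ a := Algebra.IsIntegral.isIntegral a
  refine Set.Finite.subset ((minpoly ℚ a).rootSet_finite Qb) ?_
  rintro _ ⟨σ, rfl⟩
  rw [mem_rootSet]
  refine ⟨minpoly.ne_zero h1, ?_⟩
  change aeval ((σ : Γℚ) a) (minpoly ℚ a) = 0
  rw [aeval_algHom_apply, minpoly.aeval, map_zero]

theorem iotaRI_isIntegral : (iotaRI A).IsIntegral := by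
  intro a
  have hfin := orbit_finite (A := A) (a : Qb)
  set p := orbPoly hfin with hp
  have h1 : ∀ i, p.coeff i ∈ A := orbPoly_coeff_mem hfin A.toSubring fun g => inertia_mem g.2 a.2
  have h2 : ∀ i, p.coeff i ∈ KI A := fun i => mem_KI.2 fun σ hσ =>
    smul_orbPoly_coeff hfin (⟨σ, hσ⟩ : A.inertiaSubgroupIn ℚ) i
  have hlift : p ∈ Polynomial.lifts ((algebraMap (KI A) Qb).comp (RI A).subtype) := by
    rw [Polynomial.lifts_iff_coeff_lifts]
    intro i
    exact ⟨⟨⟨p.coeff i, h2 i⟩, h1 i⟩, rfl⟩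
  obtain ⟨p', hp', -, hm⟩ := Polynomial.lifts_and_degree_eq_and_monic hlift (orbPoly_monic hfin)
  refine ⟨p', hm, Subtype.ext ?_⟩
  change A.subtype (eval₂ (iotaRI A) a p') = 0
  rw [hom_eval₂]
  have h3 : A.subtype.comp (iotaRI A) = (algebraMap (KI A) Qb).comp (RI A).subtype := rfl
  rw [h3, ← eval_map, hp']
  exact orbPoly_root hfin

end Fixed

end Fermat.Agent.QComp
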