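import Fermat.Agent.QComp.InstA
import Fermat.Agent.QComp.GenSX

/-!
# The ring of inertia-invariant functions integral over `A[x]`
-/

set_option autoImplicit false
set_option linter.unusedSectionVars false
set_option linter.style.haveILetI false
set_option linter.unusedVariables false

noncomputable section

open AlgebraicCurve ModularCurve IntermediateField Module Polynomial IsLocalRing

namespace Fermat.Agent.QComp

open Fermat.Agent.FF Fermat.Agent.Red Fermat.Agent.QVal

local notation "Qb" => AlgebraicClosure ℚ
local notation "Γℚ" => (AlgebraicClosure ℚ ≃ₐ[ℚ] AlgebraicClosure ℚ)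

/-- inertia-invariant functions integral over `A[x]`. -/
def SX (A : ValuationSubring Qb) {N : ℕ} (x : FB N) : Subring (FB N) :=
  IC Qb (FB N) A x ⊓ (FI A N).toSubfield.toSubring

variable {A : ValuationSubring Qb} {N : ℕ}

theorem mem_SX {x z : FB N} : z ∈ SX A x ↔ z ∈ IC Qb (FB N) A x ∧ IFix A z := Iff.rfl

theorem SX_le_F (x : FB N) : SX A x ≤ (FI A N).toSubfield.toSubring := inf_le_right

theorem SX_le_IC (x : FB N) : SX A x ≤ IC Qb (FB N) A x := inf_le_left

theorem SX_eq_SF (x : FB N) : SX A x = SF Qb (FB N) A (FI A N) x := rfl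

theorem hcompRI (a : RI A) : algebraMap A Qb (iotaRI A a) =
    algebraMap (KI A) Qb (algebraMap (RI A) (KI A) a) := rfl

section Main

variable {x : FB N} (hxI : IFix A x) {q : ℕ} [hqf : Fact q.Prime] [NeZero N]

include hxI in
theorem isNoetherianRing_SX (hA : A.LiesOverPrime q) (hx : Transcendental Qb x) :
    IsNoetherianRing (SX A x) := by
  haveI := isDiscreteValuationRing_RI hA
  haveI : IsFnField Qb (FB N) := isFnField_bar N
  exact isNoetherianRing_SFx (F0 := FI A N) hxI isFixed_GI iotaRI_isIntegral hcompRI hx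

include hxI in
theorem exists_div_SX (hx : Transcendental Qb x) {z : FB N} (hz : IFix A z) :
    ∃ b1 b2 : SX A x, (b2 : FB N) ≠ 0 ∧ z = b1 / b2 := by
  haveI : IsFnField Qb (FB N) := isFnField_bar N
  exact exists_div_SFx (F0 := FI A N) hxI isFixed_GI iotaRI_isIntegral hcompRI hx hz

include hxI in
theorem isMaximal_comap_SX (P : Ideal (IC Qb (FB N) A x)) [hP : P.IsMaximal] :
    (P.comap (Subring.inclusion (SX_le_IC (A := A) x))).IsMaximal :=
  isMaximal_comap_SFx (F0 := FI A N) hxI iotaRI_isIntegral hcompRI P

end Main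

end Fermat.Agent.QComp
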