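import Fermat.Agent.QComp.InstD

/-!
# Level `M q²`: reductions of lifts, criterion for integrality
-/

set_option autoImplicit false
set_option linter.unusedSectionVars false
set_option linter.style.haveILetI false
set_option linter.unusedVariables false

noncomputable section

open AlgebraicCurve ModularCurve IntermediateField Module Polynomial IsLocalRing

namespace Fermat.Agent.QComp

open Fermat.Agent.FF Fermat.Agent.Red Fermat.Agent.QVal

local notation "Qb" => AlgebraicClosure ℚ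
local notation "Γℚ" => (AlgebraicClosure ℚ ≃ₐ[ℚ] AlgebraicClosure ℚ)

variable {k : Type*} [Field k] {A : ValuationSubring Qb} {π : A →+* k} {M q : ℕ} [NeZero M]
  [NeZero q] [hqf : Fact q.Prime] {hA : A.LiesOverPrime q} {hπ : ∀ a : A, π a = 0 ↔ ¬ IsUnit a}
  {hs : Function.Surjective π} {hM : ¬ q ∣ M}

section Lifts

/-- the first lift of level one functions -/
def upA (M q : ℕ) [NeZero M] [NeZero q] (u : FB M) : FB (M * q * q) := al2 M q (al1 M q u)

/-- the second lift of level one functions -/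
def upB (M q : ℕ) [NeZero M] [NeZero q] (u : FB M) : FB (M * q * q) := be2 M q (be1 M q u)

theorem cI_upA {u : FB M} {z : modularFunctionFieldFullC k M} (h : (redX M hA hπ hs hM).IsRed u z) :
    (cI hA hπ hs hM).Is (upA M q u) z := isRed_inf2_al2 (isRed_inf_al1 h)

theorem cZ_upB {u : FB M} {z : modularFunctionFieldFullC k M} (h : (redX M hA hπ hs hM).IsRed u z) :
    (cZ hA hπ hs hM).Is (upB M q u) z := isRed_zero2_be2 (isRed_zero_be1 h)

theorem cM_upA {ζ0 : RU q} {h0 : ζ0 ≠ 1} {u : FB M} {z : modularFunctionFieldFullC k M}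
    (h : (redX M hA hπ hs hM).IsRed u z) : (cM hA hπ hs hM h0).Is (upA M q u) z := by
  intro ζ hζ
  rw [upA, epsU_al_al]
  exact isRed_redX.1 h

theorem cM_upB {ζ0 : RU q} {h0 : ζ0 ≠ 1} {u : FB M} {z : modularFunctionFieldFullC k M}
    (h : (redX M hA hπ hs hM).IsRed u z) : (cM hA hπ hs hM h0).Is (upB M q u) z := by
  intro ζ hζ
  rw [upB, epsU_be_be]
  exact gRed_twist_root hA hπ (RU.pow ζ) (isRed_redX.1 h)

section Psi

variable [CharP k q] [PerfectRing k q]

theorem psi_apply (z : modularFunctionFieldFullC k M) :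
    psi q M z = ((phiE q M).symm ((phiE q M).symm z)) ^ q ^ 2 := rfl

theorem psi_eq {z w w' : modularFunctionFieldFullC k M} (h : phiK q M w' = z)
    (h' : phiK q M w = w' ^ q) : w ^ q = psi q M z := by
  have h1 : (phiE q M).symm z = w' := by rw [← h]; exact (phiE q M).symm_apply_apply w'
  have h2 : phiK q M ((phiE q M).symm w' ^ q) = w' ^ q := by rw [map_pow, phiK_symm]
  have h3 : w = (phiE q M).symm w' ^ q := (phiK q M).injective (h'.trans h2.symm)
  rw [psi_apply, h1, h3, ← pow_mul]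
  congr 1
  ring

theorem cI_upB {u : FB M} {z : modularFunctionFieldFullC k M} (h : (redX M hA hπ hs hM).IsRed u z) :
    (cI hA hπ hs hM).Is (upB M q u) (psi q M z) := by
  obtain ⟨w', hw'⟩ := phiK_surjective q M z
  obtain ⟨w, hw⟩ := phiK_surjective q M (w' ^ q)
  rw [← psi_eq hw' hw]
  apply isRed_inf2_be2
  rw [hw]
  apply isRed_inf_be1
  rwa [hw']

theorem cZ_upA {u : FB M} {z : modularFunctionFieldFullC k M} (h : (redX M hA hπ hs hM).IsRed u z) :
    (cZ hA hπ hs hM).Is (upA M q u) (psi q M z) := by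
  obtain ⟨w', hw'⟩ := phiK_surjective q M z
  obtain ⟨w, hw⟩ := phiK_surjective q M (w' ^ q)
  rw [← psi_eq hw' hw]
  apply isRed_zero2_al2
  rw [hw]
  apply isRed_zero_al1
  rwa [hw']

end Psi

end Lifts

section Coord

/-- `j(τ)` -/
def jL (M q : ℕ) [NeZero M] [NeZero q] : FB (M * q * q) := upA M q (jB M)

/-- `j(q² τ)` -/
def jL2 (M q : ℕ) [NeZero M] [NeZero q] : FB (M * q * q) := upB M q (jB M)

theorem IFix_jB (A : ValuationSubring Qb) (N : ℕ) [NeZero N] : IFix A (jB N) := by
  intro σ _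
  have h : galB N σ (jB N) = jB N := Subtype.ext (ModFn.coeffMap_jqModC _)
  exact h

theorem IFix_jL : IFix A (jL M q) := ((IFix_jB A M).al1).al2

theorem IFix_jL2 : IFix A (jL2 M q) := ((IFix_jB A M).be1).be2

theorem psi_xj [CharP k q] [PerfectRing k q] :
    psi q M (RedQ.xj k M) = RedQ.xj k M ^ (q * q) := by
  have h1 : (phiE q M).symm (RedQ.xj k M) = RedQ.xj k M := by
    rw [RingEquiv.symm_apply_eq, phiE_apply, phiK_xj]
  rw [psi_apply, h1, h1]
  congr 1
  ring

theorem order_jL : (jL M q : LaurentSeries Qb).order = -1 := by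
  rw [jL, upA, coe_al2, coe_al1]
  have h := Cusp.order_j (L := Qb)
  have e : coeffEmb Qb jq = jqModC Qb := ModFn.coeffMap_jqModC (algebraMap ℚ Qb)
  rw [e] at h
  exact h

end Coord

/-- integrality criterion -/
theorem mem_SX_of {x : FB (M * q * q)} (hx : Transcendental Qb x)
    (hOG : ∀ V : ValuationSubring (FB (M * q * q)), QComp.OverGauss Qb A x V →
      QComp.OverGauss Qb A (al2 M q (al1 M q (jB M))) V) {ζ0 : RU q} {h0 : ζ0 ≠ 1}
    {z : FB (M * q * q)}
    (hz : IFix A z) (hK : z ∈ IC Qb (FB (M * q * q)) Qb x) (h1 : z ∈ (cI hA hπ hs hM).V)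
    (h2 : z ∈ (cM hA hπ hs hM h0).V) (h3 : z ∈ (cZ hA hπ hs hM).V) : z ∈ SX A x := by
  haveI : IsFnField Qb (FB (M * q * q)) := isFnField_bar _
  refine ⟨mem_IC_of_forall_x hx (isRankOne_q hA) hK fun V hV => ?_, hz⟩
  rcases eq_level2 (hA := hA) (hπ := hπ) (hs := hs) (hM := hM) (hOG V hV) with rfl | rfl |
    ⟨ζ, h, rfl⟩
  · exact h1
  · exact h3
  · obtain ⟨b, hb⟩ := exists_mid_kap hA hπ hs hM hz h2
    exact mem_rMid.2 ⟨_, hb ζ h⟩

end Fermat.Agent.QComp
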