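import Fermat.Agent.QComp.InstE

/-!
# Level `M q²`: the coordinate `x = j(τ) j(q²τ)`
-/

set_option autoImplicit false
set_option linter.unusedSectionVars false
set_option linter.style.haveILetI false
set_option linter.unusedVariables false

noncomputable section

open AlgebraicCurve ModularCurve IntermediateField Module Polynomial IsLocalRing

namespace Fermat.Agent.QComp

open Fermat.Agent.FF Fermat.Agent.Red Fermat.Agent.QVal

local notation "Qb" => AlgebraicClosure ℚ
local notation "Γℚ" => (AlgebraicClosure ℚ ≃ₐ[ℚ] AlgebraicClosure ℚ)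

theorem exists_order_neg_one' (N : ℕ) [NeZero N] : ∃ x : FB N, (x : LaurentSeries Qb).order = -1 :=
  Cusp.exists_order_neg_one N

theorem transcendental_of_order {N : ℕ} [NeZero N] {f : FB N} (hf : (f : LaurentSeries Qb).order ≠ 0) :
    Transcendental Qb f := by
  haveI : IsFnField Qb (FB N) := isFnField_bar N
  have h1 := Cusp.ord_placeInf (FB N) (exists_order_neg_one' N) f
  refine transcendental_of_ord_ne_zero (Cusp.placeInf (FB N) (exists_order_neg_one' N)) ?_
  rw [h1]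
  exact hf

variable {k : Type*} [Field k] {A : ValuationSubring Qb} {π : A →+* k} {M q : ℕ} [NeZero M]
  [NeZero q] [hqf : Fact q.Prime] {hA : A.LiesOverPrime q} {hπ : ∀ a : A, π a = 0 ↔ ¬ IsUnit a}
  {hs : Function.Surjective π} {hM : ¬ q ∣ M}

theorem order_jL2 : (jL2 M q : LaurentSeries Qb).order = -(q * q : ℕ) := by
  rw [jL2, upB, coe_be2, coe_be1, ModFn.order_qExpand, ModFn.order_qExpand]
  have h := Cusp.order_j (L := Qb)
  have e : coeffEmb Qb jq = jqModC Qb := ModFn.coeffMap_jqModC (algebraMap ℚ Qb)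
  rw [e] at h
  change (q : ℤ) * ((q : ℤ) * (jqModC Qb).order) = _
  rw [h]
  push_cast
  ring

theorem jL_ne_zero : jL M q ≠ 0 := by
  intro h
  have h1 := order_jL (M := M) (q := q)
  rw [h, ZeroMemClass.coe_zero, HahnSeries.order_zero] at h1
  omega

theorem jL2_ne_zero : jL2 M q ≠ 0 := by
  intro h
  have h1 := order_jL2 (M := M) (q := q)
  rw [h, ZeroMemClass.coe_zero, HahnSeries.order_zero] at h1
  have : q * q ≠ 0 := mul_ne_zero (NeZero.ne q) (NeZero.ne q)
  omega

/-- the symmetric coordinate -/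
def xL (M q : ℕ) [NeZero M] [NeZero q] : FB (M * q * q) := jL M q * jL2 M q

theorem order_xL : (xL M q : LaurentSeries Qb).order = -(1 + q * q : ℕ) := by
  have h1 : (jL M q : LaurentSeries Qb) ≠ 0 := fun h => jL_ne_zero (M := M) (q := q) (Subtype.ext h)
  have h2 : (jL2 M q : LaurentSeries Qb) ≠ 0 :=
    fun h => jL2_ne_zero (M := M) (q := q) (Subtype.ext h)
  change ((jL M q : LaurentSeries Qb) * (jL2 M q : LaurentSeries Qb)).order = _
  rw [HahnSeries.order_mul h1 h2, order_jL, order_jL2]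
  push_cast
  ring

theorem transcendental_jL : Transcendental Qb (jL M q) :=
  transcendental_of_order (by rw [order_jL]; norm_num)

theorem transcendental_jL2 : Transcendental Qb (jL2 M q) :=
  transcendental_of_order (by
    rw [order_jL2]
    have : q * q ≠ 0 := mul_ne_zero (NeZero.ne q) (NeZero.ne q)
    omega)

theorem transcendental_xL : Transcendental Qb (xL M q) :=
  transcendental_of_order (by rw [order_xL]; omega)

theorem transcendental_xL_inv : Transcendental Qb (xL M q)⁻¹ := by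
  haveI : IsFnField Qb (FB (M * q * q)) := isFnField_bar _
  exact transcendental_inv transcendental_xL

theorem IFix_xL : IFix A (xL M q) := IFix_jL.mul IFix_jL2

theorem IFix_xL_inv : IFix A (xL M q)⁻¹ := IFix_xL.inv

theorem w2_upA (hM : ¬ q ∣ M) (u : FB M) : w2 hqf.out hM (upA M q u) = upB M q u := by
  rw [upA, w2_al, w1_al]; rfl

theorem w2_upB (hM : ¬ q ∣ M) (u : FB M) : w2 hqf.out hM (upB M q u) = upA M q u := by
  rw [upB, w2_be, w1_be]; rfl

theorem w2_jL (hM : ¬ q ∣ M) : w2 hqf.out hM (jL M q) = jL2 M q := w2_upA hM _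

theorem w2_jL2 (hM : ¬ q ∣ M) : w2 hqf.out hM (jL2 M q) = jL M q := w2_upB hM _

theorem w2_xL (hM : ¬ q ∣ M) : w2 hqf.out hM (xL M q) = xL M q := by
  rw [xL, map_mul, w2_jL, w2_jL2]
  exact mul_comm (jL2 M q) (jL M q)

include hA hπ hs hM in
theorem jL2_mem_IC : jL2 M q ∈ IC Qb (FB (M * q * q)) A (jL M q) := by
  haveI : IsFnField Qb (FB (M * q * q)) := isFnField_bar _
  haveI hch : CharP k q := charP_of_liesOverPrime hA hπ
  haveI : IsAlgClosed k := isAlgClosed_of_surjective hs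
  haveI : PerfectRing k q := PerfectField.toPerfectRing q
  have hj := isRed_jB (hA := hA) (hπ := hπ) (hs := hs) (hM := hM)
  refine mem_IC_of_forall_x transcendental_jL (isRankOne_q hA)
    (mem_IC_K_of_isIntegral isInt_be2_be1_jB) fun V hV => ?_
  rcases eq_level2 (hA := hA) (hπ := hπ) (hs := hs) (hM := hM) hV with rfl | rfl | ⟨ζ, h, rfl⟩
  · exact (cI_upB hj).mem
  · exact (cZ_upB hj).mem
  · exact mem_rMid.2 ⟨_, cM_upB (h0 := h) hj ζ h⟩

include hA hπ hs hM in
theorem jL_mem_IC : jL M q ∈ IC Qb (FB (M * q * q)) A (jL2 M q) := by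
  have h1 := map_mem_IC (w2 hqf.out hM : FB (M * q * q) →ₐ[Qb] FB (M * q * q))
    (jL2_mem_IC (hA := hA) (hπ := hπ) (hs := hs) (hM := hM))
  have h2 : (w2 hqf.out hM : FB (M * q * q) →ₐ[Qb] FB (M * q * q)) (jL2 M q) = jL M q := w2_jL2 hM
  have h3 : (w2 hqf.out hM : FB (M * q * q) →ₐ[Qb] FB (M * q * q)) (jL M q) = jL2 M q := w2_jL hM
  rw [h2, h3] at h1
  exact h1

include hA hπ hs hM in
theorem IC_xL : IC Qb (FB (M * q * q)) A (xL M q) = IC Qb (FB (M * q * q)) A (jL M q) :=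
  IC_mul_eq (jL2_mem_IC (hA := hA) (hπ := hπ) (hs := hs) (hM := hM))
    (jL_mem_IC (hA := hA) (hπ := hπ) (hs := hs) (hM := hM))

include hA hπ hs hM in
theorem overGauss_xL_iff {V : ValuationSubring (FB (M * q * q))} :
    OverGauss Qb A (xL M q) V ↔ OverGauss Qb A (jL M q) V :=
  overGauss_mul_iff (jL2_mem_IC (hA := hA) (hπ := hπ) (hs := hs) (hM := hM))
    (jL_mem_IC (hA := hA) (hπ := hπ) (hs := hs) (hM := hM)) transcendental_jL transcendental_xL

include hA hπ hs hM in
theorem overGauss_xL_inv_iff {V : ValuationSubring (FB (M * q * q))} :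
    OverGauss Qb A (xL M q)⁻¹ V ↔ OverGauss Qb A (jL M q) V := by
  rw [OverGauss.inv_iff (show xL M q ≠ 0 from mul_ne_zero jL_ne_zero jL2_ne_zero)]
  exact overGauss_xL_iff (hA := hA) (hπ := hπ) (hs := hs) (hM := hM)

/-- criterion for the chart of `x`. -/
theorem mem_SX_x {ζ0 : RU q} {h0 : ζ0 ≠ 1} {z : FB (M * q * q)}
    (hz : IFix A z) (hK : z ∈ IC Qb (FB (M * q * q)) Qb (xL M q)) (h1 : z ∈ (cI hA hπ hs hM).V)
    (h2 : z ∈ (cM hA hπ hs hM h0).V) (h3 : z ∈ (cZ hA hπ hs hM).V) : z ∈ SX A (xL M q) :=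
  mem_SX_of transcendental_xL (fun V hV => (overGauss_xL_iff (hA := hA) (hπ := hπ) (hs := hs)
    (hM := hM)).1 hV) hz hK h1 h2 h3

/-- criterion for the chart of `x⁻¹`. -/
theorem mem_SX_x_inv {ζ0 : RU q} {h0 : ζ0 ≠ 1} {z : FB (M * q * q)}
    (hz : IFix A z) (hK : z ∈ IC Qb (FB (M * q * q)) Qb (xL M q)⁻¹) (h1 : z ∈ (cI hA hπ hs hM).V)
    (h2 : z ∈ (cM hA hπ hs hM h0).V) (h3 : z ∈ (cZ hA hπ hs hM).V) : z ∈ SX A (xL M q)⁻¹ :=
  mem_SX_of transcendental_xL_inv (fun V hV => (overGauss_xL_inv_iff (hA := hA) (hπ := hπ)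
    (hs := hs) (hM := hM)).1 hV) hz hK h1 h2 h3

end Fermat.Agent.QComp
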