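import Fermat.Agent.QComp.InstF
import Fermat.Agent.QComp.GenKap

/-!
# Level `M q²`: the valuation theoretic data
-/

set_option autoImplicit false
set_option linter.unusedSectionVars false
set_option linter.style.haveILetI false
set_option linter.unusedVariables false

noncomputable section

open AlgebraicCurve ModularCurve IntermediateField Module Polynomial IsLocalRing

namespace Fermat.Agent.QComp

open Fermat.Agent.FF Fermat.Agent.Red Fermat.Agent.QVal

local notation "Qb" => AlgebraicClosure ℚ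
local notation "Γℚ" => (AlgebraicClosure ℚ ≃ₐ[ℚ] AlgebraicClosure ℚ)

section Val

variable {k : Type*} [Field k] {A : ValuationSubring Qb} {π : A →+* k} {q : ℕ} [hqf : Fact q.Prime]
  {F Fk : Type*} [Field F] [Algebra Qb F] [Field Fk] [Algebra k Fk] {R : ConstRed A π F Fk}

theorem zpow_mem_of_nonneg {n : ℤ} (hn : 0 ≤ n) : (q : Qb) ^ n ∈ A := by
  obtain ⟨m, rfl⟩ := Int.eq_ofNat_of_zero_le hn
  rw [zpow_natCast]
  exact pow_mem (natCast_mem A q) m

theorem algebraMap_ne_zero' : (algebraMap Qb F (q : Qb)) ≠ 0 := by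
  rw [Ne, map_eq_zero]; exact q_ne_zero_Qb q

/-- nonunits with an integral value are divisible by `q` -/
theorem div_q_mem {f : F} {n : ℤ} {z : Fk} (hz : z ≠ 0)
    (h : R.IsRed (algebraMap Qb F ((q : Qb) ^ n) * f) z) (hf : f ∈ R.O.nonunits) :
    f / (q : F) ∈ R.O := by
  have hn : n < 0 := by
    by_contra hcon
    push Not at hcon
    apply hz
    rw [← isRed_nonunits_iff h, mul_comm]
    exact nonunits_mul_mem hf ((R.algebraMap_mem_iff _).2 (zpow_mem_of_nonneg hcon))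
  have h1 : f / (q : F) = algebraMap Qb F ((q : Qb) ^ (-1 - n)) *
      (algebraMap Qb F ((q : Qb) ^ n) * f) := by
    rw [← mul_assoc, ← map_mul, ← zpow_add₀ (q_ne_zero_Qb q)]
    have e : (-1 - n + n : ℤ) = -1 := by ring
    rw [e, zpow_neg_one, map_inv₀, map_natCast]
    ring
  rw [h1]
  exact mul_mem ((R.algebraMap_mem_iff _).2 (zpow_mem_of_nonneg (by omega))) h.mem

end Val

variable {k : Type*} [Field k] {A : ValuationSubring Qb} {π : A →+* k} {M q : ℕ} [NeZero M]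
  [NeZero q] [hqf : Fact q.Prime] (hA : A.LiesOverPrime q) (hπ : ∀ a : A, π a = 0 ↔ ¬ IsUnit a)
  (hs : Function.Surjective π) (hM : ¬ q ∣ M)

theorem valI_aux {f : FB (M * q * q)} (hf : IFix A f) (hfn : f ∈ (cI hA hπ hs hM).V.nonunits) :
    f / (q : FB (M * q * q)) ∈ (cI hA hπ hs hM).V := by
  by_cases h0 : f = 0
  · rw [h0, zero_div]; exact zero_mem _
  obtain ⟨n, z, hz, h⟩ := value_inf2 (hA := hA) (hπ := hπ) (hs := hs) (hM := hM) hf h0
  exact div_q_mem hz h hfn

theorem valZ_aux {f : FB (M * q * q)} (hf : IFix A f) (hfn : f ∈ (cZ hA hπ hs hM).V.nonunits) :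
    f / (q : FB (M * q * q)) ∈ (cZ hA hπ hs hM).V := by
  by_cases h0 : f = 0
  · rw [h0, zero_div]; exact zero_mem _
  obtain ⟨n, z, hz, h⟩ := value_zero2 (hA := hA) (hπ := hπ) (hs := hs) (hM := hM) hf h0
  exact div_q_mem hz h hfn

theorem valM_aux {ζ0 : RU q} {h0 : ζ0 ≠ 1} {f : FB (M * q * q)} (hf : IFix A f)
    (hfn : f ∈ (cM hA hπ hs hM h0).V.nonunits) :
    f ^ (q - 1) / (q : FB (M * q * q)) ∈ (cM hA hπ hs hM h0).V := by
  by_cases hf0 : f = 0
  · rw [hf0, zero_pow (by have := hqf.out.two_le; omega), zero_div]; exact zero_mem _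
  obtain ⟨n, z, hz, h⟩ := value_mid hA hπ hM hf hf0
  have hzm : z ∈ modularFunctionFieldFullC k M := mid_mem_kap hA hπ hs hM h
  have h1 := isRed_rMid_of (hA := hA) (hπ := hπ) (hs := hs) (b := ⟨z, hzm⟩) (h ζ0 h0)
  refine div_q_mem (fun h2 => hz ?_) h1 ?_
  · exact congrArg (fun t => ((t : kapMid π hs hM h0) : LaurentSeries k)) h2
  · obtain ⟨m, hm⟩ : ∃ m, q - 1 = m + 1 := ⟨q - 2, by have := hqf.out.two_le; omega⟩
    rw [hm, pow_succ']
    exact nonunits_mul_mem hfn (pow_mem (ValuationSubring.nonunits_subset hfn) m)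

theorem const_mem_cI (a : A) : algebraMap Qb (FB (M * q * q)) a ∈ (cI hA hπ hs hM).V :=
  ((rInf2 M q hA hπ hs hM).algebraMap_mem_iff _).2 a.2

theorem const_mem_cZ (a : A) : algebraMap Qb (FB (M * q * q)) a ∈ (cZ hA hπ hs hM).V :=
  ((rZero2 M q hA hπ hs hM).algebraMap_mem_iff _).2 a.2

theorem const_mem_cM {ζ0 : RU q} (h0 : ζ0 ≠ 1) (a : A) :
    algebraMap Qb (FB (M * q * q)) a ∈ (cM hA hπ hs hM h0).V :=
  ((rMid hA hπ hs hM h0).algebraMap_mem_iff _).2 a.2

theorem SX_le_of_mem {y : FB (M * q * q)} {V : ValuationSubring (FB (M * q * q))}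
    (hc : ∀ a : A, algebraMap Qb (FB (M * q * q)) a ∈ V) (hy : y ∈ V) : SX A y ≤ V.toSubring :=
  fun z hz => mem_IC_iff_valuation.1 hz.1 V hc hy

/-- the valuation theoretic data in a chart. -/
theorem triVal_y {ζ0 : RU q} (h0 : ζ0 ≠ 1) {y : FB (M * q * q)}
    (hI : y ∈ (cI hA hπ hs hM).V) (hMid : y ∈ (cM hA hπ hs hM h0).V)
    (hZ : y ∈ (cZ hA hπ hs hM).V)
    (hcrit : ∀ z : FB (M * q * q), IFix A z → z ∈ IC Qb (FB (M * q * q)) Qb y →
      z ∈ (cI hA hπ hs hM).V → z ∈ (cM hA hπ hs hM h0).V → z ∈ (cZ hA hπ hs hM).V →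
      z ∈ SX A y) :
    TriVal (SX A y) (cI hA hπ hs hM).V (cM hA hπ hs hM h0).V (cZ hA hπ hs hM).V
      (q : FB (M * q * q)) (q - 1) where
  leI := SX_le_of_mem (const_mem_cI hA hπ hs hM) hI
  leM := SX_le_of_mem (const_mem_cM hA hπ hs hM h0) hMid
  leZ := SX_le_of_mem (const_mem_cZ hA hπ hs hM) hZ
  mem := q_mem_SX y
  ne_zero := by
    have h := algebraMap_ne_zero' (q := q) (F := FB (M * q * q))
    rwa [map_natCast] at h
  pos := by have := hqf.out.two_le; omega
  nuI := natCast_mem_nonunits hqf.out hA _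
  nuM := natCast_mem_nonunits hqf.out hA _
  nuZ := natCast_mem_nonunits hqf.out hA _
  valI z hz h := valI_aux hA hπ hs hM hz.2 h
  valM z hz h := valM_aux hA hπ hs hM hz.2 h
  valZ z hz h := valZ_aux hA hπ hs hM hz.2 h
  int z hz h1 h2 h3 := by
    refine hcrit _ ?_ ?_ h1 h2 h3
    · rw [div_eq_mul_inv]
      exact IFix.mul hz.2 (IFix.inv (q_mem_SX y).2)
    · rw [div_eq_mul_inv]
      refine mul_mem (IC_le_IC_K y hz.1) ?_
      have h := const_mem_IC (K := Qb) (R := Qb) y ((q : Qb)⁻¹)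
      have e : algebraMap Qb (FB (M * q * q)) (algebraMap Qb Qb (q : Qb)⁻¹) =
          (q : FB (M * q * q))⁻¹ := by
        rw [Algebra.algebraMap_self, RingHom.id_apply, map_inv₀, map_natCast]
      rwa [e] at h

end Fermat.Agent.QComp
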