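import Fermat.Agent.QComp.InstG

/-!
# Level `M q²`: the chart of `x`
-/

set_option autoImplicit false
set_option linter.unusedSectionVars false
set_option linter.style.haveILetI false
set_option linter.unusedVariables false

noncomputable section

open AlgebraicCurve ModularCurve IntermediateField Module Polynomial IsLocalRing

namespace Fermat.Agent.QComp

open Fermat.Agent.FF Fermat.Agent.Red Fermat.Agent.QVal

local notation "Qb" => AlgebraicClosure ℚ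
local notation "Γℚ" => (AlgebraicClosure ℚ ≃ₐ[ℚ] AlgebraicClosure ℚ)

variable {k : Type*} [Field k] {A : ValuationSubring Qb} {π : A →+* k} {M q : ℕ} [NeZero M]
  [NeZero q] [hqf : Fact q.Prime] (hA : A.LiesOverPrime q) (hπ : ∀ a : A, π a = 0 ↔ ¬ IsUnit a)
  (hs : Function.Surjective π) (hM : ¬ q ∣ M)

theorem transcendental_inv' {K L : Type*} [Field K] [Field L] [Algebra K L] {x : L}
    (hx : Transcendental K x) : Transcendental K x⁻¹ := by
  intro h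
  apply hx
  have := h.inv
  rwa [inv_inv] at this

/-- the ring of functions on the component, regular where `x` is. -/
abbrev kx {M : ℕ} (x : modularFunctionFieldFullC k M) : Subring (modularFunctionFieldFullC k M) :=
  IC k (modularFunctionFieldFullC k M) k x

section Red

variable {y b : FB (M * q * q)} {yb z : modularFunctionFieldFullC k M} {n : ℕ}

theorem redI_aux (hn : 0 < n) (hy : (cI hA hπ hs hM).Is y (yb ^ n)) (hb : b ∈ IC Qb _ A y)
    (hz : (cI hA hπ hs hM).Is b z) : z ∈ kx yb := by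
  have h := isRed_mem_IC (R := rInf2 M q hA hπ hs hM) hy hb hz
  rwa [IC_pow_eq yb hn] at h

theorem redZ_aux (hn : 0 < n) (hy : (cZ hA hπ hs hM).Is y (yb ^ n)) (hb : b ∈ IC Qb _ A y)
    (hz : (cZ hA hπ hs hM).Is b z) : z ∈ kx yb := by
  have h := isRed_mem_IC (R := rZero2 M q hA hπ hs hM) hy hb hz
  rwa [IC_pow_eq yb hn] at h

theorem redM_aux {ζ0 : RU q} {h0 : ζ0 ≠ 1} (hn : 0 < n) (hy : (cM hA hπ hs hM h0).Is y (yb ^ n))
    (hb : b ∈ IC Qb _ A y) (hz : (cM hA hπ hs hM h0).Is b z) : z ∈ kx yb := by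
  have h1 := isRed_rMid_of (hA := hA) (hπ := hπ) (hs := hs) (hy ζ0 h0)
  have h2 := isRed_rMid_of (hA := hA) (hπ := hπ) (hs := hs) (hz ζ0 h0)
  have h3 := isRed_mem_IC h1 hb h2
  have h4 := map_mem_IC (kapMid π hs hM h0).val h3
  have h5 : z ∈ IC k (modularFunctionFieldFullC k M) k (yb ^ n) :=
    mem_IC_of_map_mem (modularFunctionFieldFullC k M).val h4
  rwa [IC_pow_eq yb hn] at h5

end Red

section Coords

variable [CharP k q] [PerfectRing k q]

theorem cI_jL : (cI hA hπ hs hM).Is (jL M q) (RedQ.xj k M) := cI_upA isRed_jB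
theorem cM_jL {ζ0 : RU q} (h0 : ζ0 ≠ 1) : (cM hA hπ hs hM h0).Is (jL M q) (RedQ.xj k M) :=
  cM_upA isRed_jB
theorem cZ_jL : (cZ hA hπ hs hM).Is (jL M q) (RedQ.xj k M ^ (q * q)) := by
  rw [← psi_xj]; exact cZ_upA isRed_jB
theorem cI_jL2 : (cI hA hπ hs hM).Is (jL2 M q) (RedQ.xj k M ^ (q * q)) := by
  rw [← psi_xj]; exact cI_upB isRed_jB
theorem cM_jL2 {ζ0 : RU q} (h0 : ζ0 ≠ 1) : (cM hA hπ hs hM h0).Is (jL2 M q) (RedQ.xj k M) :=
  cM_upB isRed_jB
theorem cZ_jL2 : (cZ hA hπ hs hM).Is (jL2 M q) (RedQ.xj k M) := cZ_upB isRed_jB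

theorem cI_xL : (cI hA hπ hs hM).Is (xL M q) (RedQ.xj k M ^ (1 + q * q)) := by
  rw [pow_add, pow_one]
  exact (cI_jL hA hπ hs hM).mul (cI_jL2 hA hπ hs hM)
theorem cM_xL {ζ0 : RU q} (h0 : ζ0 ≠ 1) :
    (cM hA hπ hs hM h0).Is (xL M q) (RedQ.xj k M ^ 2) := by
  rw [pow_two]
  exact (cM_jL hA hπ hs hM h0).mul (cM_jL2 hA hπ hs hM h0)
theorem cZ_xL : (cZ hA hπ hs hM).Is (xL M q) (RedQ.xj k M ^ (q * q + 1)) := by
  rw [pow_add, pow_one]
  exact (cZ_jL hA hπ hs hM).mul (cZ_jL2 hA hπ hs hM)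

theorem xj_ne_zero : RedQ.xj k M ≠ 0 := FF.transcendental_ne_zero (RedQ.transcendental_xj k M)

theorem cI_xL_inv : (cI hA hπ hs hM).Is (xL M q)⁻¹ ((RedQ.xj k M)⁻¹ ^ (1 + q * q)) := by
  rw [inv_pow]
  exact (cI_xL hA hπ hs hM).inv (pow_ne_zero _ xj_ne_zero) IFix_xL
theorem cM_xL_inv {ζ0 : RU q} (h0 : ζ0 ≠ 1) :
    (cM hA hπ hs hM h0).Is (xL M q)⁻¹ ((RedQ.xj k M)⁻¹ ^ 2) := by
  rw [inv_pow]
  exact (cM_xL hA hπ hs hM h0).inv (pow_ne_zero _ xj_ne_zero) IFix_xL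
theorem cZ_xL_inv : (cZ hA hπ hs hM).Is (xL M q)⁻¹ ((RedQ.xj k M)⁻¹ ^ (q * q + 1)) := by
  rw [inv_pow]
  exact (cZ_xL hA hπ hs hM).inv (pow_ne_zero _ xj_ne_zero) IFix_xL

theorem triVal_x {ζ0 : RU q} (h0 : ζ0 ≠ 1) :
    TriVal (SX A (xL M q)) (cI hA hπ hs hM).V (cM hA hπ hs hM h0).V (cZ hA hπ hs hM).V
      (q : FB (M * q * q)) (q - 1) :=
  triVal_y hA hπ hs hM h0 (cI_xL hA hπ hs hM).mem (Comp.mem (cM_xL hA hπ hs hM h0))
    (cZ_xL hA hπ hs hM).mem fun z h1 h2 h3 h4 h5 => mem_SX_x h1 h2 h3 h4 h5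

theorem triVal_x_inv {ζ0 : RU q} (h0 : ζ0 ≠ 1) :
    TriVal (SX A (xL M q)⁻¹) (cI hA hπ hs hM).V (cM hA hπ hs hM h0).V (cZ hA hπ hs hM).V
      (q : FB (M * q * q)) (q - 1) :=
  triVal_y hA hπ hs hM h0 (cI_xL_inv hA hπ hs hM).mem (Comp.mem (cM_xL_inv hA hπ hs hM h0))
    (cZ_xL_inv hA hπ hs hM).mem fun z h1 h2 h3 h4 h5 => mem_SX_x_inv h1 h2 h3 h4 h5

theorem upA_mem_IC_K {u v : FB M} (hu : IsIntegral (Algebra.adjoin Qb {v}) u) :
    upA M q u ∈ IC Qb (FB (M * q * q)) Qb (upA M q v) :=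
  map_mem_IC ((al2 M q).comp (al1 M q)) (mem_IC_K_of_isIntegral hu)

theorem upB_mem_IC_K {u v : FB M} (hu : IsIntegral (Algebra.adjoin Qb {v}) u) :
    upB M q u ∈ IC Qb (FB (M * q * q)) Qb (upB M q v) :=
  map_mem_IC ((be2 M q).comp (be1 M q)) (mem_IC_K_of_isIntegral hu)

theorem IFix_upA {u : FB M} (h : IFix A u) : IFix A (upA M q u) := h.al1.al2

theorem IFix_upB {u : FB M} (h : IFix A u) : IFix A (upB M q u) := h.be1.be2

theorem upA_mem_SX {ζ0 : RU q} (h0 : ζ0 ≠ 1) {u : FB M} {z : modularFunctionFieldFullC k M}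
    (hI : IFix A u) (hz : (redX M hA hπ hs hM).IsRed u z)
    (hu : IsIntegral (Algebra.adjoin Qb {jB M}) u) : upA M q u ∈ SX A (xL M q) := by
  refine mem_SX_x (hA := hA) (hπ := hπ) (hs := hs) (hM := hM) (h0 := h0) (IFix_upA hI) ?_
    (cI_upA hz).mem (Comp.mem (cM_upA hz)) (cZ_upA hz).mem
  refine IC_le_of_mem ?_ (upA_mem_IC_K hu)
  exact IC_le_IC_K (R := A) _ (left_mem_IC_mul (jL_mem_IC (hA := hA) (hπ := hπ) (hs := hs) (hM := hM)))

theorem upB_mem_SX {ζ0 : RU q} (h0 : ζ0 ≠ 1) {u : FB M} {z : modularFunctionFieldFullC k M}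
    (hI : IFix A u) (hz : (redX M hA hπ hs hM).IsRed u z)
    (hu : IsIntegral (Algebra.adjoin Qb {jB M}) u) : upB M q u ∈ SX A (xL M q) := by
  refine mem_SX_x (hA := hA) (hπ := hπ) (hs := hs) (hM := hM) (h0 := h0) (IFix_upB hI) ?_
    (cI_upB hz).mem (Comp.mem (cM_upB hz)) (cZ_upB hz).mem
  refine IC_le_of_mem ?_ (upB_mem_IC_K hu)
  exact IC_le_IC_K (R := A) _ (right_mem_IC_mul
    (jL2_mem_IC (hA := hA) (hπ := hπ) (hs := hs) (hM := hM))
    (jL_mem_IC (hA := hA) (hπ := hπ) (hs := hs) (hM := hM)))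

theorem upA_mem_SX_inv {ζ0 : RU q} (h0 : ζ0 ≠ 1) {u : FB M} {z : modularFunctionFieldFullC k M}
    (hI : IFix A u) (hz : (redX M hA hπ hs hM).IsRed u z)
    (hu : IsIntegral (Algebra.adjoin Qb {(jB M)⁻¹}) u) : upA M q u ∈ SX A (xL M q)⁻¹ := by
  refine mem_SX_x_inv (hA := hA) (hπ := hπ) (hs := hs) (hM := hM) (h0 := h0) (IFix_upA hI) ?_
    (cI_upA hz).mem (Comp.mem (cM_upA hz)) (cZ_upA hz).mem
  refine IC_le_of_mem ?_ (upA_mem_IC_K hu)
  have e : upA M q (jB M)⁻¹ = (jL M q)⁻¹ := by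
    rw [jL, upA, upA, map_inv₀, map_inv₀]
  rw [e]
  exact IC_le_IC_K (R := A) _ (left_inv_mem_IC_mul (jL2_mem_IC (hA := hA) (hπ := hπ) (hs := hs)
    (hM := hM)) jL_ne_zero jL2_ne_zero)

theorem upB_mem_SX_inv {ζ0 : RU q} (h0 : ζ0 ≠ 1) {u : FB M} {z : modularFunctionFieldFullC k M}
    (hI : IFix A u) (hz : (redX M hA hπ hs hM).IsRed u z)
    (hu : IsIntegral (Algebra.adjoin Qb {(jB M)⁻¹}) u) : upB M q u ∈ SX A (xL M q)⁻¹ := by
  refine mem_SX_x_inv (hA := hA) (hπ := hπ) (hs := hs) (hM := hM) (h0 := h0) (IFix_upB hI) ?_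
    (cI_upB hz).mem (Comp.mem (cM_upB hz)) (cZ_upB hz).mem
  refine IC_le_of_mem ?_ (upB_mem_IC_K hu)
  have e : upB M q (jB M)⁻¹ = (jL2 M q)⁻¹ := by
    rw [jL2, upB, upB, map_inv₀, map_inv₀]
  rw [e]
  exact IC_le_IC_K (R := A) _ (right_inv_mem_IC_mul
    (jL2_mem_IC (hA := hA) (hπ := hπ) (hs := hs) (hM := hM))
    (jL_mem_IC (hA := hA) (hπ := hπ) (hs := hs) (hM := hM)) jL_ne_zero jL2_ne_zero)

/-- the `(q-1)`-st power of the derivative, in `κ`. -/
def Th (z : modularFunctionFieldFullC k M) : modularFunctionFieldFullC k M :=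
  ⟨(theta k (z : LaurentSeries k)) ^ (q - 1), theta_pow_mem hA hπ hs hM z.2⟩

theorem coe_Th (z : modularFunctionFieldFullC k M) :
    (Th hA hπ hs hM z : LaurentSeries k) = (theta k (z : LaurentSeries k)) ^ (q - 1) := rfl

theorem cM_tt {ζ0 : RU q} (h0 : ζ0 ≠ 1) {u : FB M} {z : modularFunctionFieldFullC k M}
    (hz : (redX M hA hπ hs hM).IsRed u z) :
    (cM hA hπ hs hM h0).Is ((upA M q u - upB M q u) ^ (q - 1) / (q : FB (M * q * q)))
      (-Th hA hπ hs hM z) := by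
  intro ζ h
  have h1 := gRed_mid_tt_pow hA hπ (hM := hM) (h := h) (isRed_redX.1 hz)
  have e : algebraMap Qb (FB (M * q * q)) (q : Qb)⁻¹ * (tt M q u) ^ (q - 1) =
      (upA M q u - upB M q u) ^ (q - 1) / (q : FB (M * q * q)) := by
    rw [map_inv₀, map_natCast, div_eq_mul_inv]
    exact mul_comm _ _
  rw [e] at h1
  exact h1

theorem psi_mem_kx {z x : modularFunctionFieldFullC k M} (hx : phiK q M x = x) (hz : z ∈ kx x) :
    psi q M z ∈ kx x := by
  rw [psi_apply]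
  apply pow_mem
  have key : ∀ w ∈ kx x, (phiE (k := k) q M).symm w ∈ kx x := by
    intro w hw
    rw [mem_IC_iff_valuation] at hw ⊢
    intro V h1 h2
    have h3 := hw (V.comap ((phiE (k := k) q M).symm : modularFunctionFieldFullC k M →+*
      modularFunctionFieldFullC k M)) (fun a => ?_) ?_
    · exact h3
    · rw [ValuationSubring.mem_comap]
      obtain ⟨b, hb⟩ := (PerfectRing.bijective_frobenius (R := k) (p := q)).2 a
      have e : phiK q M (algebraMap k (modularFunctionFieldFullC k M) b) =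
          algebraMap k (modularFunctionFieldFullC k M) a := by
        apply Subtype.ext
        rw [coe_phiK]
        change coeffMap (frobenius k q) (algebraMap k (LaurentSeries k) b) = _
        have hb' : frobenius k q b = a := hb
        rw [coeffMap_algebraMap', hb']
        rfl
      have e2 : (phiE (k := k) q M).symm (algebraMap k (modularFunctionFieldFullC k M) a) =
          algebraMap k (modularFunctionFieldFullC k M) b := by
        rw [RingEquiv.symm_apply_eq, phiE_apply, e]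
      change (phiE (k := k) q M).symm (algebraMap k (modularFunctionFieldFullC k M) a) ∈ V
      rw [e2]
      exact h1 b
    · rw [ValuationSubring.mem_comap]
      have e2 : (phiE (k := k) q M).symm x = x := by
        rw [RingEquiv.symm_apply_eq, phiE_apply, hx]
      change (phiE (k := k) q M).symm x ∈ V
      rw [e2]
      exact h2
  exact key _ (key z hz)

theorem lift_x {ζ0 : RU q} (h0 : ζ0 ≠ 1) {z : modularFunctionFieldFullC k M}
    (hz : z ∈ kx (RedQ.xj k M)) : ∃ u : FB M, IFix A u ∧ (redX M hA hπ hs hM).IsRed u z ∧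
      upA M q u ∈ SX A (xL M q) ∧ upB M q u ∈ SX A (xL M q) := by
  obtain ⟨u, hu1, hu2, -, hu4⟩ := exists_fixed_lift_jB hA hπ hs hM (isIntegral_of_mem_IC_K hz)
  exact ⟨u, hu4, hu1, upA_mem_SX hA hπ hs hM h0 hu4 hu1 hu2,
    upB_mem_SX hA hπ hs hM h0 hu4 hu1 hu2⟩

theorem lift_x_inv {ζ0 : RU q} (h0 : ζ0 ≠ 1) {z : modularFunctionFieldFullC k M}
    (hz : z ∈ kx (RedQ.xj k M)⁻¹) : ∃ u : FB M, IFix A u ∧ (redX M hA hπ hs hM).IsRed u z ∧
      upA M q u ∈ SX A (xL M q)⁻¹ ∧ upB M q u ∈ SX A (xL M q)⁻¹ := by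
  obtain ⟨u, hu1, hu2, -, hu4⟩ := exists_fixed_lift_jB_inv hA hπ hs hM (isIntegral_of_mem_IC_K hz)
  exact ⟨u, hu4, hu1, upA_mem_SX_inv hA hπ hs hM h0 hu4 hu1 hu2,
    upB_mem_SX_inv hA hπ hs hM h0 hu4 hu1 hu2⟩

variable [IsFnField k (modularFunctionFieldFullC k M)]

theorem sep_xj (hM : ¬ q ∣ M) :
    Algebra.IsSeparable k⟮RedQ.xj k M⟯ (modularFunctionFieldFullC k M) :=
  RedQ.isSeparable_charP (k := k) (N := M) q hM

theorem sep_xj_inv (hM : ¬ q ∣ M) :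
    Algebra.IsSeparable k⟮(RedQ.xj k M)⁻¹⟯ (modularFunctionFieldFullC k M) := by
  haveI := sep_xj (k := k) (q := q) hM
  exact isSeparable_inv

theorem triChart_x {ζ0 : RU q} (h0 : ζ0 ≠ 1) :
    TriChart k (SX A (xL M q)) (cI hA hπ hs hM) (cM hA hπ hs hM h0) (cZ hA hπ hs hM)
      (q : FB (M * q * q)) (q - 1) (kx (RedQ.xj k M)) (psi q M) (Th hA hπ hs hM) where
  tri := triVal_x hA hπ hs hM h0
  le := SX_le_F _
  redI b hb z hz := redI_aux hA hπ hs hM (by omega) (cI_xL hA hπ hs hM) hb.1 hz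
  redM b hb z hz := redM_aux hA hπ hs hM (by norm_num) (cM_xL hA hπ hs hM h0) hb.1 hz
  redZ b hb z hz := redZ_aux hA hπ hs hM (by omega) (cZ_xL hA hπ hs hM) hb.1 hz
  ψ_mem z hz := psi_mem_kx (phiK_xj q M) hz
  lift z hz := by
    obtain ⟨u, hu1, hu2, hu3, hu4⟩ := lift_x hA hπ hs hM h0 hz
    exact ⟨upA M q u, hu3, upB M q u, hu4, cI_upA hu2, cM_upA hu2, cZ_upA hu2, cI_upB hu2,
      cM_upB hu2, cZ_upB hu2, cM_tt hA hπ hs hM h0 hu2⟩
  place P hP hP0 := by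
    haveI := sep_xj (k := k) (q := q) hM
    exact place_x (RedQ.transcendental_xj k M) P hP0
  frac v hv z hz := by
    haveI := sep_xj (k := k) (q := q) hM
    exact frac_x (RedQ.transcendental_xj k M) v hv hz
  not_field := by
    haveI := sep_xj (k := k) (q := q) hM
    exact not_field_x (RedQ.transcendental_xj k M)

theorem psi_inv_xj : phiK q M (RedQ.xj k M)⁻¹ = (RedQ.xj k M)⁻¹ := by
  rw [map_inv₀, phiK_xj]

theorem triChart_x_inv {ζ0 : RU q} (h0 : ζ0 ≠ 1) :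
    TriChart k (SX A (xL M q)⁻¹) (cI hA hπ hs hM) (cM hA hπ hs hM h0) (cZ hA hπ hs hM)
      (q : FB (M * q * q)) (q - 1) (kx (RedQ.xj k M)⁻¹) (psi q M) (Th hA hπ hs hM) where
  tri := triVal_x_inv hA hπ hs hM h0
  le := SX_le_F _
  redI b hb z hz := redI_aux hA hπ hs hM (by omega) (cI_xL_inv hA hπ hs hM) hb.1 hz
  redM b hb z hz := redM_aux hA hπ hs hM (by norm_num) (cM_xL_inv hA hπ hs hM h0) hb.1 hz
  redZ b hb z hz := redZ_aux hA hπ hs hM (by omega) (cZ_xL_inv hA hπ hs hM) hb.1 hz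
  ψ_mem z hz := psi_mem_kx psi_inv_xj hz
  lift z hz := by
    obtain ⟨u, hu1, hu2, hu3, hu4⟩ := lift_x_inv hA hπ hs hM h0 hz
    exact ⟨upA M q u, hu3, upB M q u, hu4, cI_upA hu2, cM_upA hu2, cZ_upA hu2, cI_upB hu2,
      cM_upB hu2, cZ_upB hu2, cM_tt hA hπ hs hM h0 hu2⟩
  place P hP hP0 := by
    haveI := sep_xj_inv (k := k) (q := q) hM
    exact place_x (transcendental_inv' (RedQ.transcendental_xj k M)) P hP0
  frac v hv z hz := by
    haveI := sep_xj_inv (k := k) (q := q) hM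
    exact frac_x (transcendental_inv' (RedQ.transcendental_xj k M)) v hv hz
  not_field := by
    haveI := sep_xj_inv (k := k) (q := q) hM
    exact not_field_x (transcendental_inv' (RedQ.transcendental_xj k M))

end Coords

end Fermat.Agent.QComp
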