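import Fermat.Agent.QComp.InstH
import Fermat.Agent.QComp.OrdT
import Fermat.Agent.QVal.Units

/-!
# Level `M q²`: the noncuspidal chart
-/

set_option autoImplicit false
set_option linter.unusedSectionVars false
set_option linter.style.haveILetI false
set_option linter.unusedVariables false

noncomputable section

open AlgebraicCurve ModularCurve IntermediateField Module Polynomial IsLocalRing

namespace Fermat.Agent.QComp

open Fermat.Agent.FF Fermat.Agent.Red Fermat.Agent.QVal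

local notation "Qb" => AlgebraicClosure ℚ
local notation "Γℚ" => (AlgebraicClosure ℚ ≃ₐ[ℚ] AlgebraicClosure ℚ)

theorem theta_j_ne (k : Type*) [Field k] : theta k (jqModC k) ≠ 0 := by
  intro h
  have h1 : (theta k (jqModC k)).coeff (-1) = 0 := by rw [h]; exact HahnSeries.coeff_zero
  rw [theta_coeff] at h1
  have h2 : (jqModC k).coeff (-1) = 1 := by
    have := coeff_jqModC_pow_self k 1
    simpa using this
  rw [h2] at h1
  simp at h1

variable {k : Type*} [Field k] {A : ValuationSubring Qb} {π : A →+* k} {M q : ℕ} [NeZero M]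
  [NeZero q] [hqf : Fact q.Prime] (hA : A.LiesOverPrime q) (hπ : ∀ a : A, π a = 0 ↔ ¬ IsUnit a)
  (hs : Function.Surjective π) (hM : ¬ q ∣ M)

variable [CharP k q] [PerfectRing k q] [IsFnField k (modularFunctionFieldFullC k M)]

theorem mem_SX_of_isInt {ζ0 : RU q} (h0 : ζ0 ≠ 1) {f : FB (M * q * q)} (hI : IFix A f)
    (hi : IsIntegral (Algebra.adjoin Qb {al2 M q (al1 M q (jB M))}) f)
    (h1 : f ∈ (cI hA hπ hs hM).V) (h2 : f ∈ (cM hA hπ hs hM h0).V)
    (h3 : f ∈ (cZ hA hπ hs hM).V) : f ∈ SX A (xL M q) := by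
  refine mem_SX_x (hA := hA) (hπ := hπ) (hs := hs) (hM := hM) (h0 := h0) hI ?_ h1 h2 h3
  refine IC_le_of_mem ?_ (mem_IC_K_of_isIntegral hi)
  exact IC_le_IC_K (R := A) _ (left_mem_IC_mul (jL_mem_IC (hA := hA) (hπ := hπ) (hs := hs)
    (hM := hM)))

theorem const_pow_isRed_zero {F Fk : Type*} [Field F] [Algebra Qb F] [Field Fk] [Algebra k Fk]
    {R : ConstRed A π F Fk} (hA : A.LiesOverPrime q) (hπ : ∀ a : A, π a = 0 ↔ ¬ IsUnit a) {f : F}
    {z : Fk} (h : R.IsRed (algebraMap Qb F (((q : Qb) ^ 12)⁻¹) * f) z) : R.IsRed f 0 := by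
  have hq : (q : Qb) ^ 12 ∈ A := pow_mem (natCast_mem A q) 12
  have h1 : R.IsRed (algebraMap Qb F ((q : Qb) ^ 12)) 0 := by
    have h2 := R.isRed_algebraMap hq
    have h3 : π ⟨(q : Qb) ^ 12, hq⟩ = 0 := by
      rw [hπ]
      intro hu
      have h4 : (⟨(q : Qb) ^ 12, hq⟩ : A) ∈ maximalIdeal A := by
        rw [← ValuationSubring.coe_mem_nonunits_iff]
        change (q : Qb) ^ 12 ∈ A.nonunits
        rw [pow_succ']
        exact nonunits_mul_mem (q_mem_nonunits hA) (pow_mem (natCast_mem A q) 11)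
      exact h4 hu
    rw [h3, map_zero] at h2
    exact h2
  have h2 := h1.mul h
  rw [zero_mul, ← mul_assoc, ← map_mul, mul_inv_cancel₀ (pow_ne_zero _ (q_ne_zero_Qb q)), map_one,
    one_mul] at h2
  exact h2

theorem ssChart_x {ζ0 : RU q} (h0 : ζ0 ≠ 1)
    (hr : ∃ r : ℕ, r.Prime ∧ r ∣ M ∧ r % 12 = 11) {h : modularFunctionFieldFullC k M}
    (hh : (h : LaurentSeries k) * (Igusa.deltaC k) ^ (q - 1) = 1) :
    SSChart k (SX A (xL M q)) (cI hA hπ hs hM) (cM hA hπ hs hM h0) (cZ hA hπ hs hM)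
      (q : FB (M * q * q)) (q - 1) (kx (RedQ.xj k M)) (psi q M) (Th hA hπ hs hM) h where
  toTriChart := triChart_x hA hπ hs hM h0
  ord_psi v hv a ha := by
    rw [psi_apply, ord_pow]
    intro h1
    have h2 : ((q ^ 2 : ℕ) : ℤ) ∣ 1 := ⟨_, h1.symm⟩
    have h3 := Int.le_of_dvd one_pos h2
    have h4 := hqf.out.two_le
    have h5 : 4 ≤ q ^ 2 := by nlinarith
    have h6 : (4 : ℤ) ≤ ((q ^ 2 : ℕ) : ℤ) := by exact_mod_cast h5
    omega
  h_mem := by
    obtain ⟨H, -, rfl⟩ := exists_poly_hasse hA hπ hs hh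
    refine mem_IC_K_of_isIntegral ?_
    exact isIntegral_of_mem_adjoin (Polynomial.aeval_mem_adjoin_singleton k (RedQ.xj k M))
  h_ne := fun e => hasse_ne hh (by rw [e]; rfl)
  ord_theta v hv a ha hva := by
    haveI := sep_xj (k := k) (q := q) hM
    haveI : IsAlgClosed k := isAlgClosed_of_surjective hs
    have hQ : 0 ≤ v.ord (RedQ.xj k M) := (FF.mem_iff_ord_nonneg v).1 (hv _ (self_mem_IC _))
    obtain ⟨h1, h2⟩ := six_ord_theta_pow hA hπ hs hM hr hh v hQ hva (coe_Th hA hπ hs hM a)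
    refine ⟨h1, h2, fun h3 => ?_⟩
    have h4 := not_dvd_ord_theta_pow_add_one q (RedQ.transcendental_xj k M) (theta_j_ne k) v hva
      (coe_Th hA hπ hs hM a) (by omega)
    apply h4
    rw [h3]
    norm_num
  d := by
    haveI := sep_xj (k := k) (q := q) hM
    have a1 : (cI hA hπ hs hM).Is (D1 M q) h := isRed_inf2_D1 hh
    have a2 : (cM hA hπ hs hM h0).Is (D1 M q) h := fun ζ hζ => gRed_mid_D1 hh
    have a3 : (cZ hA hπ hs hM).Is (D1 M q) 0 := const_pow_isRed_zero hA hπ (isRed_zero2_D1 hh)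
    have b1 : (cI hA hπ hs hM).Is (D2 M q) 0 := const_pow_isRed_zero hA hπ (isRed_inf2_D2 hh)
    have b2 : (cM hA hπ hs hM h0).Is (D2 M q) h := fun ζ hζ => gRed_mid_D2 hA hπ hh
    have b3 : (cZ hA hπ hs hM).Is (D2 M q) h := isRed_zero2_D2 hh
    exact ⟨D1 M q, mem_SX_of_isInt hA hπ hs hM h0 IFix_D1 isInt_D1 a1.mem (Comp.mem a2) a3.mem,
      D2 M q, mem_SX_of_isInt hA hπ hs hM h0 IFix_D2 isInt_D2 b1.mem (Comp.mem b2) b3.mem,
      a1, a2, a3, b1, b2, b3⟩

end Fermat.Agent.QComp
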