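import Fermat.Agent.QComp.InstI
import Fermat.Agent.QComp.DivDescent2

/-!
# Level `M q²`: norms and coherence of values
-/

set_option autoImplicit false
set_option linter.unusedSectionVars false
set_option linter.style.haveILetI false
set_option linter.unusedVariables false

noncomputable section

open AlgebraicCurve ModularCurve IntermediateField Module Polynomial IsLocalRing

namespace Fermat.Agent.QComp

open Fermat.Agent.FF Fermat.Agent.Red Fermat.Agent.QVal Fermat.Agent.JZ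

local notation "Qb" => AlgebraicClosure ℚ
local notation "Γℚ" => (AlgebraicClosure ℚ ≃ₐ[ℚ] AlgebraicClosure ℚ)

section Gal

variable {A : ValuationSubring Qb} {N : ℕ} [NeZero N]

/-- the Galois action preserves `IC` -/
theorem gal_mem_IC {x z : FB N} {σ : Γℚ} (hσ : σ ∈ A.inertiaSubgroupIn ℚ)
    (hx : gal N σ x = x) (hz : z ∈ IC Qb (FB N) A x) : gal N σ z ∈ IC Qb (FB N) A x := by
  rw [mem_IC_iff_valuation] at hz ⊢
  intro V h1 h2
  have h3 := hz (V.comap (gal N σ : FB N →+* FB N)) (fun a => ?_) ?_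
  · exact h3
  · rw [ValuationSubring.mem_comap]
    have e : (gal N σ : FB N →+* FB N) (algebraMap Qb (FB N) (algebraMap A Qb a)) =
        algebraMap Qb (FB N) (algebraMap A Qb ⟨σ a, inertia_mem hσ a.2⟩) := by
      have h := (arithmeticGalois (modularFunctionFieldFull N) σ).2 (a : Qb)
      exact h
    rw [e]
    exact h1 _
  · rw [ValuationSubring.mem_comap]
    change gal N σ x ∈ V
    rw [hx]
    exact h2

theorem finite_orbit_GI (z : FB N) : (MulAction.orbit (GI A N) z).Finite := by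
  refine (finite_orbit_inertia A z).subset ?_
  rintro _ ⟨⟨_, ⟨σ, hσ, rfl⟩⟩, rfl⟩
  exact ⟨σ, hσ, rfl⟩

theorem orbPoly_coeff_mem_SX {x z : FB N} (hx : IFix A x) (hz : z ∈ IC Qb (FB N) A x) (i : ℕ) :
    (orbPoly (finite_orbit_GI (A := A) z)).coeff i ∈ SX A x := by
  constructor
  · apply orbPoly_coeff_mem
    rintro ⟨_, ⟨σ, hσ, rfl⟩⟩
    exact gal_mem_IC hσ (hx σ hσ) hz
  · intro σ hσ
    exact smul_orbPoly_coeff (finite_orbit_GI (A := A) z) ⟨_, ⟨σ, hσ, rfl⟩⟩ i

end Gal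

variable {k : Type*} [Field k] {A : ValuationSubring Qb} {π : A →+* k} {M q : ℕ} [NeZero M]
  [NeZero q] [hqf : Fact q.Prime] (hA : A.LiesOverPrime q) (hπ : ∀ a : A, π a = 0 ↔ ¬ IsUnit a)
  (hs : Function.Surjective π) (hM : ¬ q ∣ M)

section Consts

theorem const_isI (a : A) : (cI hA hπ hs hM).Is (algebraMap Qb (FB (M * q * q)) a)
    (algebraMap k (modularFunctionFieldFullC k M) (π a)) :=
  (rInf2 M q hA hπ hs hM).isRed_algebraMap a.2

theorem const_isZ (a : A) : (cZ hA hπ hs hM).Is (algebraMap Qb (FB (M * q * q)) a)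
    (algebraMap k (modularFunctionFieldFullC k M) (π a)) :=
  (rZero2 M q hA hπ hs hM).isRed_algebraMap a.2

theorem const_isM {ζ0 : RU q} (h0 : ζ0 ≠ 1) (a : A) :
    (cM hA hπ hs hM h0).Is (algebraMap Qb (FB (M * q * q)) a)
    (algebraMap k (modularFunctionFieldFullC k M) (π a)) := by
  intro ζ h
  have h1 := isRed_rMid.1 ((rMid hA hπ hs hM h).isRed_algebraMap a.2)
  have h2 : ((algebraMap k (kapMid π hs hM h) (π ⟨a, a.2⟩) : kapMid π hs hM h) : LaurentSeries k) =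
      ((algebraMap k (modularFunctionFieldFullC k M) (π a) : modularFunctionFieldFullC k M) :
        LaurentSeries k) := rfl
  rw [h2] at h1
  exact h1

theorem cM_nonunits_iff {ζ0 : RU q} (h0 : ζ0 ≠ 1) {ζ : RU q} (h : ζ ≠ 1) {f : FB (M * q * q)}
    (hf : IFix A f) : f ∈ (cM hA hπ hs hM h0).V.nonunits ↔ f ∈ (rMid hA hπ hs hM h).O.nonunits := by
  have key : ∀ {ζ ζ' : RU q} (h : ζ ≠ 1) (h' : ζ' ≠ 1), f ∈ (rMid hA hπ hs hM h).O.nonunits →
      f ∈ (rMid hA hπ hs hM h').O.nonunits := by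
    intro ζ ζ' h h' hn
    obtain ⟨b, hb⟩ := exists_mid_kap hA hπ hs hM hf (ValuationSubring.nonunits_subset hn)
    have h1 := isRed_rMid_of (hA := hA) (hπ := hπ) (hs := hs) (hb ζ h)
    have h2 := isRed_rMid_of (hA := hA) (hπ := hπ) (hs := hs) (hb ζ' h')
    rw [isRed_nonunits_iff h1] at hn
    rw [isRed_nonunits_iff h2]
    exact Subtype.ext (congrArg (fun t => ((t : kapMid π hs hM h) : LaurentSeries k)) hn)
  exact ⟨key h0 h, key h h0⟩

end Consts

section Coh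

variable {L : Type*} [Field L] {F0 : Subfield L} {κ : Type*} [Field κ] [Algebra k κ]
  [IsFnField k κ] [IsAlgClosed k]

theorem coh_of_atPl {S : Subring L} {c1 c2 : Comp F0 κ} {P : Ideal S} {v : Place k κ}
    (h1 : AtPl c1 P v) (h2 : AtPl c2 P v)
    (hconst : ∀ c : k, ∃ C ∈ S, c1.Is C (algebraMap k κ c) ∧ c2.Is C (algebraMap k κ c))
    (hred : ∀ b ∈ S, ∀ z, c1.Is b z → z ∈ v.toValuationSubring) :
    ∀ b ∈ S, ∀ z1 z2, c1.Is b z1 → c2.Is b z2 → z1 - z2 ∈ v.toValuationSubring.nonunits := by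
  intro b hb z1 z2 hz1 hz2
  obtain ⟨c, hc⟩ := exists_const_nonunits v (hred b hb z1 hz1)
  obtain ⟨C, hC, hC1, hC2⟩ := hconst c
  have h3 := (h1 ⟨_, sub_mem hb hC⟩ _ (hz1.sub hC1)).2 hc
  have h4 := (h2 ⟨_, sub_mem hb hC⟩ _ (hz2.sub hC2)).1 h3
  have h5 := sub_mem hc h4
  rwa [sub_sub_sub_cancel_right] at h5

end Coh

section Norm

variable [CharP k q] [PerfectRing k q] [IsFnField k (modularFunctionFieldFullC k M)]

theorem phiK_mem_kx {z x : modularFunctionFieldFullC k M} (hx : phiK q M x = x) (hz : z ∈ kx x) :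
    phiK q M z ∈ kx x := by
  rw [mem_IC_iff_valuation] at hz ⊢
  intro V h1 h2
  have h3 := hz (V.comap (phiK (k := k) q M : modularFunctionFieldFullC k M →+*
    modularFunctionFieldFullC k M)) (fun a => ?_) ?_
  · exact h3
  · rw [ValuationSubring.mem_comap]
    have e : phiK q M (algebraMap k (modularFunctionFieldFullC k M) a) =
        algebraMap k (modularFunctionFieldFullC k M) (a ^ q) := by
      apply Subtype.ext
      rw [coe_phiK]
      change coeffMap (frobenius k q) (algebraMap k (LaurentSeries k) a) = _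
      rw [coeffMap_algebraMap']
      rfl
    change phiK q M (algebraMap k (modularFunctionFieldFullC k M) a) ∈ V
    rw [e]
    exact h1 _
  · rw [ValuationSubring.mem_comap]
    rw [hx]
    exact h2

/-- the integral closure of `A[x]`. -/
def ShX (A : ValuationSubring Qb) (M q : ℕ) [NeZero M] [NeZero q] : Subring (FB (M * q * q)) :=
  IC Qb (FB (M * q * q)) A (xL M q)

include hA hπ hs hM in
theorem ShX_eq : ShX A M q = IC Qb (FB (M * q * q)) A (al2 M q (al1 M q (jB M))) :=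
  IC_xL (hA := hA) (hπ := hπ) (hs := hs) (hM := hM)

theorem hexI_x {v : Place k (modularFunctionFieldFullC k M)}
    (hv : ∀ z ∈ kx (RedQ.xj k M), z ∈ v.toValuationSubring) {b : FB (M * q * q)}
    (hb : b ∈ ShX A M q) : ∃ z, (cI hA hπ hs hM).Is b z ∧ z ∈ v.toValuationSubring := by
  have h1 : b ∈ (cI hA hπ hs hM).V :=
    mem_IC_iff_valuation.1 hb _ (const_mem_cI hA hπ hs hM) (cI_xL hA hπ hs hM).mem
  obtain ⟨z, hz⟩ := ConstRed.exists_isRed_of_mem (R := rInf2 M q hA hπ hs hM) h1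
  exact ⟨z, hz, hv z (redI_aux hA hπ hs hM (by omega) (cI_xL hA hπ hs hM) hb hz)⟩

theorem hexZ_x {v : Place k (modularFunctionFieldFullC k M)}
    (hv : ∀ z ∈ kx (RedQ.xj k M), z ∈ v.toValuationSubring) {b : FB (M * q * q)}
    (hb : b ∈ ShX A M q) : ∃ z, (cZ hA hπ hs hM).Is b z ∧ z ∈ v.toValuationSubring := by
  have h1 : b ∈ (cZ hA hπ hs hM).V :=
    mem_IC_iff_valuation.1 hb _ (const_mem_cZ hA hπ hs hM) (cZ_xL hA hπ hs hM).mem
  obtain ⟨z, hz⟩ := ConstRed.exists_isRed_of_mem (R := rZero2 M q hA hπ hs hM) h1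
  exact ⟨z, hz, hv z (redZ_aux hA hπ hs hM (by omega) (cZ_xL hA hπ hs hM) hb hz)⟩

theorem const_x (c : k) : ∃ C ∈ SX A (xL M q),
    (cI hA hπ hs hM).Is C (algebraMap k (modularFunctionFieldFullC k M) c) ∧
    (cZ hA hπ hs hM).Is C (algebraMap k (modularFunctionFieldFullC k M) c) := by
  obtain ⟨a, rfl, ha⟩ := exists_fixed_lift hA hπ hs c
  exact ⟨_, const_mem_SX a.2 ha, const_isI hA hπ hs hM a, const_isZ hA hπ hs hM a⟩

theorem is_galI {b : FB (M * q * q)} {z : modularFunctionFieldFullC k M} {σ : Γℚ}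
    (hσ : σ ∈ A.inertiaSubgroupIn ℚ) (h : (cI hA hπ hs hM).Is b z) :
    (cI hA hπ hs hM).Is (gal (M * q * q) σ b) z := by
  have h1 := isRed_rInf2.1 h
  refine isRed_rInf2.2 ?_
  rw [coe_gal]
  exact gRed_inertia hπ hσ h1

theorem is_galZ {b : FB (M * q * q)} {z : modularFunctionFieldFullC k M} {σ : Γℚ}
    (hσ : σ ∈ A.inertiaSubgroupIn ℚ) (h : (cZ hA hπ hs hM).Is b z) :
    (cZ hA hπ hs hM).Is (gal (M * q * q) σ b) z := by
  have h1 := isRed_rInf2.1 (isRed_rZero2.1 h)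
  refine isRed_rZero2.2 (isRed_rInf2.2 ?_)
  rw [w2_gal, coe_gal]
  exact gRed_inertia hπ hσ h1

theorem hev_x [IsAlgClosed k] {P : Ideal (SX A (xL M q))} {v : Place k (modularFunctionFieldFullC k M)}
    (hv : ∀ z ∈ kx (RedQ.xj k M), z ∈ v.toValuationSubring)
    (hPI : AtPl (cI hA hπ hs hM) P v) (hPZ : AtPl (cZ hA hπ hs hM) P v) :
    ∀ b ∈ ShX A M q, ∀ zI zZ, (cI hA hπ hs hM).Is b zI → (cZ hA hπ hs hM).Is b zZ →
      zI - zZ ∈ v.toValuationSubring.nonunits := by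
  intro b hb zI zZ hI hZ
  have hS := coh_of_atPl hPI hPZ (const_x hA hπ hs hM) fun b hb z hz => by
    obtain ⟨z', hz', hzv⟩ := hexI_x hA hπ hs hM hv (SX_le_IC _ hb)
    rwa [← (cI hA hπ hs hM).uniq hz' hz]
  obtain ⟨zI', hzI', hzIv⟩ := hexI_x hA hπ hs hM hv hb
  obtain ⟨zZ', hzZ', hzZv⟩ := hexZ_x hA hπ hs hM hv hb
  rw [(cI hA hπ hs hM).uniq hzI' hI] at hzIv
  rw [(cZ hA hπ hs hM).uniq hzZ' hZ] at hzZv
  refine sub_nonunits_of_orbit (G := GI A (M * q * q)) hS (finite_orbit_GI b)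
    (orbPoly_coeff_mem_SX IFix_xL hb) ?_ ?_ hzIv hzZv
  · rintro ⟨_, ⟨σ, hσ, rfl⟩⟩
    exact is_galI hA hπ hs hM hσ hI
  · rintro ⟨_, ⟨σ, hσ, rfl⟩⟩
    exact is_galZ hA hπ hs hM hσ hZ

theorem normAlong_self (w : FB (M * q)) : normAlong (al2 M q) (al2 M q w) = w ^ q := by
  letI := algebraAlong (al2 M q)
  have h1 := Algebra.norm_algebraMap (R := FB (M * q)) (S := FB (M * q * q)) w
  have h2 : Module.finrank (FB (M * q)) (FB (M * q * q)) = q := finrank_al2 hqf.out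
  rw [h2] at h1
  exact h1

include hA in
theorem maximal_const_mem {P' : Ideal (ShX A M q)} (hP' : P'.IsPrime)
    (hq : ∀ x : ShX A M q, (x : FB (M * q * q)) = q → x ∈ P') :
    ∀ a ∈ maximalIdeal A, ∀ b : ShX A M q,
      (b : FB (M * q * q)) = algebraMap Qb (FB (M * q * q)) (algebraMap A Qb a) → b ∈ P' := by
  intro a ha b hb
  obtain ⟨n, c, hc⟩ := (isRankOne_q hA).pow_dvd a ha
  have h1 : b ^ n ∈ P' := by
    have hqm : (q : FB (M * q * q)) ∈ ShX A M q := natCast_mem _ q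
    have hcm : algebraMap Qb (FB (M * q * q)) (algebraMap A Qb c) ∈ ShX A M q := const_mem_IC _ c
    have h2 : b ^ n = ⟨_, hqm⟩ * ⟨_, hcm⟩ := by
      apply Subtype.ext
      push_cast
      rw [hb, ← map_pow, ← map_pow, hc, map_mul, map_mul, map_natCast, map_natCast]
    rw [h2]
    exact Ideal.mul_mem_right _ _ (hq _ rfl)
  exact hP'.mem_of_pow_mem n h1

theorem normData_x {ζ0 : RU q} (h0 : ζ0 ≠ 1) :
    NormData (al2 M q : FB (M * q) →+* FB (M * q * q)) (normAlong (al2 M q)) q (ShX A M q)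
      (SX A (xL M q)) (cI hA hπ hs hM) (cM hA hπ hs hM h0) (cZ hA hπ hs hM)
      (q : FB (M * q * q)) (kx (RedQ.xj k M)) (psi q M) (q ^ 2) where
  le := SX_le_IC _
  leF := SX_le_F _
  leI := (triChart_x hA hπ hs hM h0).tri.leI
  leM := (triChart_x hA hπ hs hM h0).tri.leM
  leZ := (triChart_x hA hπ hs hM h0).tri.leZ
  hd := hqf.out.pos
  norm_al := normAlong_self
  norm_mem b hb := by
    rw [ShX_eq hA hπ hs hM] at hb ⊢
    exact map_mem_IC (al2 M q) (normAlong_mem_IC (al2 M q) hb)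
  integral := isIntegral_comap (al2 M q) (al1 M q (jB M)) _ (ShX_eq hA hπ hs hM)
  root_mem z n hn hz := by
    rw [ShX, mem_IC_iff_valuation] at hz ⊢
    intro V h1 h2
    exact mem_of_pow_mem hn (hz V h1 h2)
  hϖ := ⟨(q : FB (M * q)), map_natCast _ q, q_mem_SX _, (triChart_x hA hπ hs hM h0).tri.nuI⟩
  lift z hz := by
    obtain ⟨u, hu1, hu2, hu3, hu4⟩ := lift_x hA hπ hs hM h0 hz
    exact ⟨al1 M q u, hu3, cI_upA hu2, cM_upA hu2, cZ_upA hu2⟩
  redI := (triChart_x hA hπ hs hM h0).redI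
  redM := (triChart_x hA hπ hs hM h0).redM
  redZ := (triChart_x hA hπ hs hM h0).redZ
  hQ := pow_pos hqf.out.pos 2
  frob z hz := ⟨phiK q M (phiK q M z), phiK_mem_kx (phiK_xj q M) (phiK_mem_kx (phiK_xj q M) hz), by
    rw [psi_apply, ← phiE_apply, ← phiE_apply, RingEquiv.symm_apply_apply,
      RingEquiv.symm_apply_apply]⟩
  thru P' hP' hq := by
    haveI : IsFnField Qb (FB (M * q * q)) := isFnField_bar _
    obtain ⟨V, hV, hth⟩ := exists_overGauss_thru_x (K := Qb) (A := A) transcendental_xL P'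
      (hP := hP') (maximal_const_mem hA hP' hq)
    rcases eq_level2 (hA := hA) (hπ := hπ) (hs := hs) (hM := hM)
      ((overGauss_xL_iff (hA := hA) (hπ := hπ) (hs := hs) (hM := hM)).1 hV) with rfl | rfl |
      ⟨ζ, h, rfl⟩
    · exact Or.inl fun x _ hx => hth x hx
    · exact Or.inr (Or.inr fun x _ hx => hth x hx)
    · exact Or.inr (Or.inl fun x hxS hx => hth x
        ((cM_nonunits_iff hA hπ hs hM h0 h hxS.2).1 hx))

end Norm

end Fermat.Agent.QComp
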