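import Fermat.Agent.QComp.Transfer

/-!
# The point condition from the local factorisation
-/

set_option autoImplicit false
set_option linter.unusedSectionVars false
set_option linter.style.haveILetI false

open IsLocalRing AlgebraicCurve

namespace Fermat.Agent.QComp

open Fermat.Agent.Red

section PtMain

variable {L : Type*} [Field L] {F0 : Subfield L} {κ : Type*} [Field κ] {k : Type*} [Field k]
  [Algebra k κ] [IsAlgClosed k] [FF.IsFnField k κ]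

theorem hasVal_of_nonunits {v : Place k κ} {z : κ} {c : k}
    (h : z - algebraMap k κ c ∈ v.toValuationSubring.nonunits) : HasVal v z c := by
  rw [mem_nonunits_iff_ord] at h
  have h1 := (hasVal_zero_iff.2 h).add (hasVal_algebraMap v c)
  rwa [sub_add_cancel, zero_add] at h1

theorem HasVal.sub_nonunits {v : Place k κ} {z : κ} {c : k} (h : HasVal v z c) :
    z - algebraMap k κ c ∈ v.toValuationSubring.nonunits := by
  have h1 := h.sub (hasVal_algebraMap v c)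
  rw [sub_self, hasVal_zero_iff] at h1
  rwa [mem_nonunits_iff_ord]

theorem hasVal_ne_zero {v : Place k κ} {z : κ} {c : k} (h : HasVal v z c)
    (hz : z ∉ v.toValuationSubring.nonunits) : c ≠ 0 := by
  rintro rfl
  apply hz
  rw [mem_nonunits_iff_ord]
  exact hasVal_zero_iff.1 h

variable {S : Subring L} {cI cM cZ : Comp F0 κ} {ϖ : L} {N : ℕ}
  {κ0 : Subring κ} {ψ : κ →+* κ} {Θ : κ → κ}

/-- the reduction of `g` at a point -/
theorem exists_val_of_fac {c : Comp F0 κ} (honto : OntoChart S c κ0) {P : Ideal S}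
    [hP : P.IsPrime] {v : Place k κ} (hv : ∀ z ∈ κ0, z ∈ v.toValuationSubring) (hat : AtPl c P v) {f g : L} {b s : S} (hb : b ∉ P) (hs : s ∉ P)
    (hgF : g ∈ F0) {n : ℕ} (hn : 0 < n) (hf : f = b / s * g ^ n) (hf1 : c.Is f 1) :
    ∃ γ : κ, c.Is g γ ∧ γ ≠ 0 ∧ ∃ t : k, t ≠ 0 ∧ HasVal v γ⁻¹ t := by
  have hb0 := ne_zero_of_notMem hb
  have hs0 := ne_zero_of_notMem hs
  obtain ⟨β, hβ⟩ := c.ex (honto.leF b.2) (honto.le b.2)
  obtain ⟨σ, hσ⟩ := c.ex (honto.leF s.2) (honto.le s.2)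
  have hβn : β ∉ v.toValuationSubring.nonunits := by rw [← hat b β hβ]; exact hb
  have hσn : σ ∉ v.toValuationSubring.nonunits := by rw [← hat s σ hσ]; exact hs
  obtain ⟨hβ0, hβi⟩ := notMem_nonunits_iff.1 hβn
  obtain ⟨hσ0, hσi⟩ := notMem_nonunits_iff.1 hσn
  have hgn : g ^ n = f * (s / b) := by
    rw [hf]; field_simp
  have hgV : g ∈ c.V := by
    apply mem_of_pow_mem hn
    rw [hgn, div_eq_mul_inv]
    exact mul_mem (Comp.mem hf1) (mul_mem (honto.le s.2) (hβ.inv_mem hβ0))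
  obtain ⟨γ, hγ⟩ := c.ex hgF hgV
  have h1 : c.Is (f * s) (1 * σ) := hf1.mul hσ
  have h2 : c.Is (b * g ^ n) (β * γ ^ n) := hβ.mul (hγ.pow n)
  have h3 : f * s = b * g ^ n := by rw [hf]; field_simp
  rw [h3, one_mul] at h1
  have h4 := c.uniq h1 h2
  have hγ0 : γ ≠ 0 := by
    rintro rfl
    rw [zero_pow hn.ne', mul_zero] at h4
    exact hσ0 h4
  refine ⟨γ, hγ, hγ0, ?_⟩
  -- orders
  have hordβ : v.ord β = 0 := by
    rw [mem_nonunits_iff_ord, not_or] at hβn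
    have h5 : 0 ≤ v.ord β := (FF.mem_iff_ord_nonneg v).1 (hv _ (honto.red b b.2 β hβ))
    omega
  have hordσ : v.ord σ = 0 := by
    rw [mem_nonunits_iff_ord, not_or] at hσn
    have h5 : 0 ≤ v.ord σ := (FF.mem_iff_ord_nonneg v).1 (hv _ (honto.red s s.2 σ hσ))
    omega
  have hordγ : v.ord γ = 0 := by
    have h5 := congrArg v.ord h4
    rw [v.ord_mul hβ0 (pow_ne_zero _ hγ0), FF.ord_pow, hordβ, hordσ, zero_add] at h5
    have hn' : (n : ℤ) ≠ 0 := by exact_mod_cast hn.ne'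
    rcases mul_eq_zero.1 h5.symm with h6 | h6
    · exact absurd h6 hn'
    · exact h6
  obtain ⟨t, ht⟩ := exists_hasVal (P := v) (f := γ⁻¹) (by rw [v.ord_inv, hordγ]; rfl)
  refine ⟨t, hasVal_ne_zero ht ?_, ht⟩
  rw [mem_nonunits_iff_ord, v.ord_inv, hordγ]
  push Not
  exact ⟨inv_ne_zero hγ0, le_rfl⟩

theorem ptData_main (H : TriChart k S cI cM cZ ϖ N κ0 ψ Θ) [IsNoetherianRing S] {P : Ideal S}
    [hP : P.IsPrime] {v : Place k κ} (hv : ∀ z ∈ κ0, z ∈ v.toValuationSubring)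
    (hI : Thru cI.V S P → AtPl cI P v) (hM : Thru cM.V S P → AtPl cM P v)
    (hZ : Thru cZ.V S P → AtPl cZ P v)
    (hsys : ∃ aI aM aZ η : S, (aI : L) ∈ cI.V.nonunits ∧ (aM : L) ∈ cM.V.nonunits ∧
        (aZ : L) ∈ cZ.V.nonunits ∧ η ∉ P ∧ η ≠ 0 ∧ (aI : L) * (aM : L) ^ N * aZ = ϖ * η)
    (hcase : (Thru cI.V S P ∧ Thru cM.V S P ∧ Thru cZ.V S P) ∨
        (Thru cI.V S P ∧ ¬ Thru cM.V S P ∧ ¬ Thru cZ.V S P) ∨
        (¬ Thru cI.V S P ∧ Thru cM.V S P ∧ ¬ Thru cZ.V S P) ∨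
        (¬ Thru cI.V S P ∧ ¬ Thru cM.V S P ∧ Thru cZ.V S P))
    {f : L} (hf0 : f ≠ 0) (hfS : ∃ b1 b2 : S, (b2 : L) ≠ 0 ∧ f = b1 / b2)
    (hfI : cI.Is f 1) (hfM : cM.Is f 1) (hfZ : cZ.Is f 1) {n : ℕ} (hn : 0 < n)
    (hhor : ∀ W : ValuationSubring L, S ≤ W.toSubring → ϖ⁻¹ ∈ W → W ≠ ⊤ →
      ∃ v : L → ℤ, (∀ x y, x ≠ 0 → y ≠ 0 → v (x * y) = v x + v y) ∧
        (∀ x, x ≠ 0 → (x ∈ W.nonunits ↔ 0 < v x)) ∧
        (∃ h1 h2 : S, (h1 : L) ≠ 0 ∧ (h2 : L) ≠ 0 ∧ v h1 = v h2 + 1) ∧ (n : ℤ) ∣ v f)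
    (hconst : ∀ c : k, ∃ C : L, C ∈ S ∧ (c ≠ 0 → C⁻¹ ∈ S) ∧ cI.Is C (algebraMap k κ c) ∧
      cM.Is C (algebraMap k κ c) ∧ cZ.Is C (algebraMap k κ c))
    {e : ℕ} {ω : Fin 3 → L} {ωb : Fin 3 → k}
    (hω : ∀ i, ((![cI, cM, cZ] : Fin 3 → Comp F0 κ) i).Is (ω i) (algebraMap k κ (ωb i)))
    (hωn : ∀ i, ωb i ^ n = 1)
    (hrel : Thru cI.V S P → Thru cM.V S P → Thru cZ.V S P → ∀ b s : S, b ∉ P → s ∉ P →
      ∀ g ∈ F0, g ≠ 0 → f = b / s * g ^ n → ∀ γI γM γZ : κ, cI.Is g γI → cM.Is g γM → cZ.Is g γZ →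
      ∀ tI tM tZ : k, HasVal v γI⁻¹ tI → HasVal v γM⁻¹ tM → HasVal v γZ⁻¹ tZ →
      ωb 0 * tI ^ e = ωb 2 * tZ ^ e ∧ ωb 1 * tM ^ e = ωb 2 * tZ ^ e) :
    PtData S F0 (fun i => ((![cI, cM, cZ] : Fin 3 → Comp F0 κ) i).V) ω P (f ^ e) n := by
  set c : Fin 3 → Comp F0 κ := ![cI, cM, cZ] with hcdef
  have honto : ∀ i, OntoChart S (c i) κ0 := by
    intro i
    fin_cases i
    · exact H.ontoI
    · exact H.ontoM
    · exact H.ontoZ
  have hthru : ∀ i, Thru (c i).V S P → AtPl (c i) P v := by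
    intro i
    fin_cases i
    · exact hI
    · exact hM
    · exact hZ
  have hf1 : ∀ i, (c i).Is f 1 := by
    intro i
    fin_cases i
    · exact hfI
    · exact hfM
    · exact hfZ
  have hex : ∃ i, Thru (c i).V S P := by
    rcases hcase with ⟨h, -, -⟩ | ⟨h, -, -⟩ | ⟨-, h, -⟩ | ⟨-, -, h⟩
    · exact ⟨0, h⟩
    · exact ⟨0, h⟩
    · exact ⟨1, h⟩
    · exact ⟨2, h⟩
  obtain ⟨i0, hi0⟩ := hex
  -- the local factorisation
  obtain ⟨aI, aM, aZ, η, haI, haM, haZ, hη, hη0, hprod⟩ := hsys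
  have hsys := H.tri.locSys haI haM haZ hη hη0 hprod
  have hV : ∀ i, (![cI.V, cM.V, cZ.V] : Fin 3 → ValuationSubring L) i = (c i).V := by
    intro i
    fin_cases i <;> rfl
  obtain ⟨ρ, hρ, hρ0⟩ := Comp.exists_hom (c i0) S (honto i0).leF (honto i0).le
  have hfV : ∀ i, f ∈ (c i).V ∧ f⁻¹ ∈ (c i).V := fun i =>
    ⟨Comp.mem (hf1 i), (hf1 i).inv_mem one_ne_zero⟩
  obtain ⟨b, s, g, hb, hs, hg0, ⟨g1, g2, hg2, hgg⟩, hf⟩ := hsys.exists_pow (c := i0)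
    (by rw [hV]; exact hi0) ρ (by rw [hV]; exact hρ0)
    ((honto i0).res hv (H.frac v hv) (hthru i0 hi0) hρ) hf0 hfS
    (fun i _ => by rw [hV]; exact hfV i) hn hhor
  have hgF : g ∈ F0 := by
    rw [hgg]
    exact F0.div_mem ((honto i0).leF g1.2) ((honto i0).leF g2.2)
  -- values
  have hval : ∀ i, Thru (c i).V S P → ∃ γ : κ, (c i).Is g γ ∧ γ ≠ 0 ∧ ∃ t : k, t ≠ 0 ∧
      HasVal v γ⁻¹ t := fun i hi =>
    exists_val_of_fac (honto i) hv (hthru i hi) hb hs hgF hn hf (hf1 i)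
  have hωb0 : ∀ i, ωb i ≠ 0 := by
    intro i h
    have := hωn i
    rw [h, zero_pow hn.ne'] at this
    exact zero_ne_one this
  have huniq : ∀ i γ γ' t t', (c i).Is g γ → (c i).Is g γ' → HasVal v γ⁻¹ t → HasVal v γ'⁻¹ t' →
      t = t' := by
    intro i γ γ' t t' h1 h2 h3 h4
    rw [(c i).uniq h1 h2] at h3
    exact h3.unique h4
  have hCb : ∃ Cb : k, Cb ≠ 0 ∧ ∀ i, Thru (c i).V S P → ∀ γ t, (c i).Is g γ → HasVal v γ⁻¹ t →
      ωb i * t ^ e = Cb := by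
    have single : ∀ j : Fin 3, Thru (c j).V S P → (∀ i, i ≠ j → ¬ Thru (c i).V S P) →
        ∃ Cb : k, Cb ≠ 0 ∧ ∀ i, Thru (c i).V S P → ∀ γ t, (c i).Is g γ → HasVal v γ⁻¹ t →
          ωb i * t ^ e = Cb := by
      intro j hj hne
      obtain ⟨γ, hγ, hγ0, t, ht0, ht⟩ := hval j hj
      refine ⟨ωb j * t ^ e, mul_ne_zero (hωb0 j) (pow_ne_zero _ ht0), fun i hi γ' t' hγ' ht' => ?_⟩
      have hij : i = j := by
        by_contra h
        exact hne i h hi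
      subst hij
      rw [huniq i γ γ' t t' hγ hγ' ht ht']
    rcases hcase with ⟨h1, h2, h3⟩ | ⟨h1, h2, h3⟩ | ⟨h1, h2, h3⟩ | ⟨h1, h2, h3⟩
    · obtain ⟨γI, hγI, hγI0, tI, htI0, htI⟩ := hval 0 h1
      obtain ⟨γM, hγM, hγM0, tM, htM0, htM⟩ := hval 1 h2
      obtain ⟨γZ, hγZ, hγZ0, tZ, htZ0, htZ⟩ := hval 2 h3
      obtain ⟨r1, r2⟩ := hrel h1 h2 h3 b s hb hs g hgF hg0 hf γI γM γZ hγI hγM hγZ tI tM tZ
        htI htM htZ
      refine ⟨ωb 2 * tZ ^ e, mul_ne_zero (hωb0 2) (pow_ne_zero _ htZ0), fun i hi γ t hγ ht => ?_⟩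
      fin_cases i
      · rw [← r1, huniq 0 γ γI t tI hγ hγI ht htI]
        rfl
      · rw [← r2, huniq 1 γ γM t tM hγ hγM ht htM]
        rfl
      · rw [huniq 2 γ γZ t tZ hγ hγZ ht htZ]
        rfl
    · refine single 0 h1 fun i hi => ?_
      fin_cases i
      · exact absurd rfl hi
      · exact h2
      · exact h3
    · refine single 1 h2 fun i hi => ?_
      fin_cases i
      · exact h1
      · exact absurd rfl hi
      · exact h3
    · refine single 2 h3 fun i hi => ?_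
      fin_cases i
      · exact h1
      · exact h2
      · exact absurd rfl hi
  obtain ⟨Cb, hCb0, hCbr⟩ := hCb
  obtain ⟨C, hCS, hCS', hCI, hCM, hCZ⟩ := hconst Cb
  have hC : ∀ i, (c i).Is C (algebraMap k κ Cb) := by
    intro i
    fin_cases i
    · exact hCI
    · exact hCM
    · exact hCZ
  have hbe : b ^ e ∉ P := fun h => hb (hP.mem_of_pow_mem _ h)
  have hse : s ^ e ∉ P := fun h => hs (hP.mem_of_pow_mem _ h)
  refine point_cond (c := c) (κ0 := κ0) (v := v) hthru ⟨i0, hi0⟩ honto hv (H.frac v hv) hbe hse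
    (pow_ne_zero e hg0) (F0.pow_mem hgF e) hn ?_ (fun i _ => ?_) hω hωn hC hCb0 hCS (hCS' hCb0) ?_
  · rw [hf, mul_pow, div_pow]
    push_cast
    ring
  · have := (hf1 i).pow e
    rwa [one_pow] at this
  · intro i hi γ hγ
    obtain ⟨γ', hγ', hγ'0, t, ht0, ht⟩ := hval i hi
    have h1 : γ = γ' ^ e := (c i).uniq hγ (hγ'.pow e)
    have h2 : HasVal v (algebraMap k κ (ωb i) / γ) (ωb i * t ^ e) := by
      have h3 := (hasVal_algebraMap v (ωb i)).mul (ht.pow e)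
      rw [h1, div_eq_mul_inv, ← inv_pow]
      exact h3
    rw [hCbr i hi γ' t hγ' ht] at h2
    exact HasVal.sub_nonunits h2

end PtMain

end Fermat.Agent.QComp
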