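import Fermat.Agent.QComp.InstJ
import Fermat.Agent.QComp.PtMain

/-!
# Level `M q²`: the relations at the supersingular points
-/

set_option autoImplicit false
set_option linter.unusedSectionVars false
set_option linter.style.haveILetI false
set_option linter.unusedVariables false

noncomputable section

open AlgebraicCurve ModularCurve IntermediateField Module Polynomial IsLocalRing

namespace Fermat.Agent.QComp

open Fermat.Agent.FF Fermat.Agent.Red Fermat.Agent.QVal Fermat.Agent.JZ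

local notation "Qb" => AlgebraicClosure ℚ
local notation "Γℚ" => (AlgebraicClosure ℚ ≃ₐ[ℚ] AlgebraicClosure ℚ)

section Root

theorem mem_range_of_pow_one {k κ : Type*} [Field k] [Field κ] [Algebra k κ] [IsAlgClosed k]
    {z : κ} {n : ℕ} (hn : 0 < n) (hz : z ^ n = 1) : ∃ ε : k, ε ^ n = 1 ∧ algebraMap k κ ε = z := by
  have hint : IsIntegral k z := by
    refine ⟨X ^ n - C 1, monic_X_pow_sub_C _ hn.ne', ?_⟩
    simp [hz]
  have h1 := IsAlgClosed.degree_eq_one_of_irreducible k (minpoly.irreducible hint)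
  obtain ⟨ε, hε⟩ := minpoly.mem_range_of_degree_eq_one k z h1
  refine ⟨ε, ?_, hε⟩
  apply (algebraMap k κ).injective
  rw [map_pow, hε, hz, map_one]

variable {K k : Type*} [Field K] [Field k] {A : ValuationSubring K} {π : A →+* k}
  {F Fk : Type*} [Field F] [Algebra K F] [Field Fk] [Algebra k Fk] {R : ConstRed A π F Fk}

theorem isRed_root_one [IsAlgClosed k] {y : F} {n : ℕ} (hn : 0 < n) (hy : R.IsRed (y ^ n) 1) :
    ∃ ε : k, ε ^ n = 1 ∧ R.IsRed y (algebraMap k Fk ε) := by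
  have h1 : y ∈ R.O := mem_of_pow_mem hn hy.mem
  obtain ⟨z, hz⟩ := ConstRed.exists_isRed_of_mem (R := R) h1
  obtain ⟨ε, hε, rfl⟩ := mem_range_of_pow_one (k := k) hn ((hz.pow n).unique hy)
  exact ⟨ε, hε, hz⟩

end Root

theorem normAlong_ne_zero_of_pos {K F F' : Type*} [Field K] [Field F] [Field F'] [Algebra K F]
    [Algebra K F'] (φ : F →ₐ[K] F') (h : 0 < finrankAlong K φ) {f : F'} (hf : f ≠ 0) :
    normAlong φ f ≠ 0 := by
  refine normAlong_ne_zero φ ?_ hf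
  letI := algebraAlong φ
  exact Module.finite_of_finrank_pos h

section Alg

/-- the algebra of the constants -/
theorem const_alg {k : Type*} [Field k] {q : ℕ} (hq : 2 ≤ q) {εI εZ εI' εZ' tI tM tZ : k}
    (hεI : εI ≠ 0) (hεZ : εZ ≠ 0) (hεI' : εI' ≠ 0) (hεZ' : εZ' ≠ 0)
    (htI : tI ≠ 0) (htM : tM ≠ 0) (htZ : tZ ≠ 0)
    (h1 : εI * (tI * tM ^ (q - 1)) = εZ * tZ ^ q) (h2 : εI' * (tZ * tM ^ (q - 1)) = εZ' * tI ^ q) :
    ((εZ' / εI') / (εZ / εI)) ^ (q - 1) * tI ^ (q ^ 2 - 1) = 1 * tZ ^ (q ^ 2 - 1) ∧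
    ((εZ / εI) ^ q * (εZ' / εI'))⁻¹ * tM ^ (q ^ 2 - 1) = 1 * tZ ^ (q ^ 2 - 1) := by
  obtain ⟨r, rfl⟩ : ∃ r, q = r + 1 := ⟨q - 1, by omega⟩
  set e1 := εZ / εI with he1
  set e2 := εZ' / εI' with he2
  have he10 : e1 ≠ 0 := div_ne_zero hεZ hεI
  have he20 : e2 ≠ 0 := div_ne_zero hεZ' hεI'
  have h1' : tI * tM ^ r = e1 * tZ ^ (r + 1) := by
    rw [he1]; field_simp; rw [Nat.add_sub_cancel] at h1; linear_combination h1
  have h2' : tZ * tM ^ r = e2 * tI ^ (r + 1) := by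
    rw [he2]; field_simp; rw [Nat.add_sub_cancel] at h2; linear_combination h2
  have e : (r + 1) ^ 2 - 1 = (r + 2) * r := by
    have : (r + 1) ^ 2 = (r + 2) * r + 1 := by ring
    omega
  rw [Nat.add_sub_cancel, e]
  -- `e2 * tI ^ (r+2) = e1 * tZ ^ (r+2)`
  have h3 : e2 * tI ^ (r + 2) = e1 * tZ ^ (r + 2) := by
    have : tI * tZ * tM ^ r = e1 * tZ ^ (r + 2) := by linear_combination tZ * h1'
    rw [← this]
    linear_combination -tI * h2'
  have h4 : (e2 / e1) * tI ^ (r + 2) = tZ ^ (r + 2) := by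
    field_simp
    linear_combination h3
  have h5 : tM ^ r = e1 * tZ ^ (r + 1) / tI := by
    rw [eq_div_iff htI]
    linear_combination h1'
  constructor
  · rw [pow_mul, ← mul_pow, h4, one_mul, pow_mul]
  · rw [mul_comm (r + 2) r, pow_mul tM, h5, one_mul]
    rw [inv_mul_eq_iff_eq_mul₀ (mul_ne_zero (pow_ne_zero _ he10) he20), div_pow, div_eq_iff
      (pow_ne_zero _ htI)]
    have h6 : tI ^ (r + 2) = e1 * tZ ^ (r + 2) / e2 := by
      rw [eq_div_iff he20]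
      linear_combination h3
    rw [h6]
    field_simp
    ring

end Alg

variable {k : Type*} [Field k] {A : ValuationSubring Qb} {π : A →+* k} {M q : ℕ} [NeZero M]
  [NeZero q] [hqf : Fact q.Prime] (hA : A.LiesOverPrime q) (hπ : ∀ a : A, π a = 0 ↔ ¬ IsUnit a)
  (hs : Function.Surjective π) (hM : ¬ q ∣ M)

variable [CharP k q] [PerfectRing k q] [IsFnField k (modularFunctionFieldFullC k M)]
  [IsAlgClosed k]

theorem rel_al {ζ0 : RU q} (h0 : ζ0 ≠ 1) {f g : FB (M * q * q)} {n : ℕ} (hn : 0 < n)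
    {y : FB (M * q)} (hy : y ^ n = normAlong (al2 M q) f) {εI εZ : k}
    (hεI : (cI hA hπ hs hM).Is (al2 M q y) (algebraMap k (modularFunctionFieldFullC k M) εI))
    (hεZ : (cZ hA hπ hs hM).Is (al2 M q y) (algebraMap k (modularFunctionFieldFullC k M) εZ))
    {P : Ideal (SX A (xL M q))} [hP : P.IsPrime] {v : Place k (modularFunctionFieldFullC k M)}
    (hv : ∀ z ∈ kx (RedQ.xj k M), z ∈ v.toValuationSubring)
    (hPI : AtPl (cI hA hπ hs hM) P v) (hPM : AtPl (cM hA hπ hs hM h0) P v)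
    (hPZ : AtPl (cZ hA hπ hs hM) P v) {b s : SX A (xL M q)} (hb : b ∉ P) (hs' : s ∉ P)
    (hg0 : g ≠ 0) (hf : f = b / s * g ^ n) {γI γM γZ : modularFunctionFieldFullC k M}
    (hγI : (cI hA hπ hs hM).Is g γI) (hγM : (cM hA hπ hs hM h0).Is g γM)
    (hγZ : (cZ hA hπ hs hM).Is g γZ) (hγI0 : γI ≠ 0) (hγM0 : γM ≠ 0) (hγZ0 : γZ ≠ 0)
    {tI tM tZ : k} (htI : HasVal v γI⁻¹ tI) (htM : HasVal v γM⁻¹ tM) (htZ : HasVal v γZ⁻¹ tZ) :
    εI * (tI * tM ^ (q - 1)) = εZ * tZ ^ q := by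
  have hb0 := ne_zero_of_notMem hb
  have hs0 := ne_zero_of_notMem hs'
  -- the norm of `g`
  have hgI1 : (rInf1 M q hA hπ hs hM).IsRed (normAlong (al2 M q) g) (γI * γM ^ (q - 1)) :=
    isRed_norm_al2_inf hγI hγM
  have hgI : (cI hA hπ hs hM).Is (al2 M q (normAlong (al2 M q) g)) (γI * γM ^ (q - 1)) :=
    isRed_inf2_al2 hgI1
  have hgZ : (cZ hA hπ hs hM).Is (al2 M q (normAlong (al2 M q) g)) (γZ ^ q) :=
    isRed_zero2_al2 (isRed_norm_al2_zero hγZ)
  have hN0 : normAlong (al2 M q) g ≠ 0 := by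
    intro h
    rw [h, map_zero] at hgZ
    exact hγZ0 (pow_eq_zero_iff (NeZero.ne q) |>.1
      ((cZ hA hπ hs hM).uniq hgZ (Comp.Is.zero _)))
  set w : FB (M * q) := y / normAlong (al2 M q) g with hw
  have hwn : w ^ n = normAlong (al2 M q) (b : FB (M * q * q)) / normAlong (al2 M q) (s : FB (M * q * q)) := by
    have h1 : normAlong (al2 M q) f * normAlong (al2 M q) (s : FB (M * q * q)) =
        normAlong (al2 M q) (b : FB (M * q * q)) * normAlong (al2 M q) g ^ n := by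
      rw [← map_mul, ← map_pow, ← map_mul, hf]
      congr 1
      field_simp
    have h2 : normAlong (al2 M q) (s : FB (M * q * q)) ≠ 0 :=
      normAlong_ne_zero_of_pos _ (by rw [finrank_al2 hqf.out]; exact hqf.out.pos) hs0
    rw [hw, div_pow, hy, div_eq_div_iff (pow_ne_zero _ hN0) h2, h1]
  have hwI : (cI hA hπ hs hM).Is (al2 M q w)
      (algebraMap k (modularFunctionFieldFullC k M) εI / (γI * γM ^ (q - 1))) := by
    rw [hw, map_div₀]
    exact ConstRed.IsRed.div hεI hgI (mul_ne_zero hγI0 (pow_ne_zero _ hγM0))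
  have hwZ : (cZ hA hπ hs hM).Is (al2 M q w)
      (algebraMap k (modularFunctionFieldFullC k M) εZ / γZ ^ q) := by
    rw [hw, map_div₀]
    exact ConstRed.IsRed.div hεZ hgZ (pow_ne_zero _ hγZ0)
  obtain ⟨-, h1⟩ := (normData_x hA hπ hs hM h0).rel hPI hPM hPZ (fun b hb => hexI_x hA hπ hs hM hv hb)
    (fun b hb => hexZ_x hA hπ hs hM hv hb) (hev_x hA hπ hs hM hv hPI hPZ) hb hs' hn hwn hwI hwZ
  have h2 : HasVal v (algebraMap k (modularFunctionFieldFullC k M) εI / (γI * γM ^ (q - 1)))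
      (εI * (tI * tM ^ (q - 1))) := by
    rw [div_eq_mul_inv, mul_inv, ← inv_pow]
    exact (hasVal_algebraMap v εI).mul (htI.mul (htM.pow _))
  have h3 : HasVal v (algebraMap k (modularFunctionFieldFullC k M) εZ / γZ ^ q) (εZ * tZ ^ q) := by
    rw [div_eq_mul_inv, ← inv_pow]
    exact (hasVal_algebraMap v εZ).mul (htZ.pow _)
  have h4 := h2.sub h3
  rw [mem_nonunits_iff_ord, ← hasVal_zero_iff] at h1
  exact sub_eq_zero.1 (h4.unique h1)

/-! ### the symmetry -/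

theorem w2_mem_SX (hM : ¬ q ∣ M) {z : FB (M * q * q)} (hz : z ∈ SX A (xL M q)) :
    w2 hqf.out hM z ∈ SX A (xL M q) := by
  refine ⟨?_, IFix.w2 hz.2⟩
  have h1 := map_mem_IC (w2 hqf.out hM : FB (M * q * q) →ₐ[Qb] FB (M * q * q)) hz.1
  have h2 : (w2 hqf.out hM : FB (M * q * q) →ₐ[Qb] FB (M * q * q)) (xL M q) = xL M q := w2_xL hM
  rw [h2] at h1
  exact h1

/-- `w2` on the chart -/
def w2S (A : ValuationSubring Qb) (hM : ¬ q ∣ M) : SX A (xL M q) →+* SX A (xL M q) :=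
  ((w2 hqf.out hM : FB (M * q * q) →+* FB (M * q * q)).comp (SX A (xL M q)).subtype).codRestrict _
    fun z => w2_mem_SX hM z.2

theorem coe_w2S (z : SX A (xL M q)) : (w2S A hM z : FB (M * q * q)) = w2 hqf.out hM z := rfl

theorem w2S_w2S (z : SX A (xL M q)) : w2S A hM (w2S A hM z) = z := Subtype.ext (w2_w2 _ _ _)

theorem cI_w2 {f : FB (M * q * q)} {z : modularFunctionFieldFullC k M} :
    (cI hA hπ hs hM).Is (w2 hqf.out hM f) z ↔ (cZ hA hπ hs hM).Is f z := isRed_rZero2.symm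

theorem cZ_w2 {f : FB (M * q * q)} {z : modularFunctionFieldFullC k M} :
    (cZ hA hπ hs hM).Is (w2 hqf.out hM f) z ↔ (cI hA hπ hs hM).Is f z := by
  rw [← cI_w2, w2_w2]

theorem cM_w2 {ζ0 : RU q} (h0 : ζ0 ≠ 1) {f : FB (M * q * q)} {z : modularFunctionFieldFullC k M} :
    (cM hA hπ hs hM h0).Is (w2 hqf.out hM f) z ↔ (cM hA hπ hs hM h0).Is f z := by
  have key : ∀ {f : FB (M * q * q)}, (cM hA hπ hs hM h0).Is f z →
      (cM hA hπ hs hM h0).Is (w2 hqf.out hM f) z := fun h ζ hζ =>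
    gRed_eps_w2 hA hπ hζ (h _ _)
  refine ⟨fun h => ?_, key⟩
  have := key h
  rwa [w2_w2] at this

theorem atPlI_w2 {P : Ideal (SX A (xL M q))} {v : Place k (modularFunctionFieldFullC k M)}
    (h : AtPl (cZ hA hπ hs hM) P v) : AtPl (cI hA hπ hs hM) (P.comap (w2S A hM)) v := by
  intro b z hz
  rw [Ideal.mem_comap]
  exact h _ z ((cZ_w2 hA hπ hs hM).2 hz)

theorem atPlZ_w2 {P : Ideal (SX A (xL M q))} {v : Place k (modularFunctionFieldFullC k M)}
    (h : AtPl (cI hA hπ hs hM) P v) : AtPl (cZ hA hπ hs hM) (P.comap (w2S A hM)) v := by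
  intro b z hz
  rw [Ideal.mem_comap]
  exact h _ z ((cI_w2 hA hπ hs hM).2 hz)

theorem atPlM_w2 {ζ0 : RU q} (h0 : ζ0 ≠ 1) {P : Ideal (SX A (xL M q))}
    {v : Place k (modularFunctionFieldFullC k M)} (h : AtPl (cM hA hπ hs hM h0) P v) :
    AtPl (cM hA hπ hs hM h0) (P.comap (w2S A hM)) v := by
  intro b z hz
  rw [Ideal.mem_comap]
  exact h _ z ((cM_w2 hA hπ hs hM h0).2 hz)

theorem rel_be {ζ0 : RU q} (h0 : ζ0 ≠ 1) {f g : FB (M * q * q)} {n : ℕ} (hn : 0 < n)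
    {y : FB (M * q)} (hy : y ^ n = normAlong (be2 M q) f) {εI εZ : k}
    (hεI : (cI hA hπ hs hM).Is (al2 M q (w1 hqf.out hM y))
      (algebraMap k (modularFunctionFieldFullC k M) εI))
    (hεZ : (cZ hA hπ hs hM).Is (al2 M q (w1 hqf.out hM y))
      (algebraMap k (modularFunctionFieldFullC k M) εZ))
    {P : Ideal (SX A (xL M q))} [hP : P.IsPrime] {v : Place k (modularFunctionFieldFullC k M)}
    (hv : ∀ z ∈ kx (RedQ.xj k M), z ∈ v.toValuationSubring)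
    (hPI : AtPl (cI hA hπ hs hM) P v) (hPM : AtPl (cM hA hπ hs hM h0) P v)
    (hPZ : AtPl (cZ hA hπ hs hM) P v) {b s : SX A (xL M q)} (hb : b ∉ P) (hs' : s ∉ P)
    (hg0 : g ≠ 0) (hf : f = b / s * g ^ n) {γI γM γZ : modularFunctionFieldFullC k M}
    (hγI : (cI hA hπ hs hM).Is g γI) (hγM : (cM hA hπ hs hM h0).Is g γM)
    (hγZ : (cZ hA hπ hs hM).Is g γZ) (hγI0 : γI ≠ 0) (hγM0 : γM ≠ 0) (hγZ0 : γZ ≠ 0)
    {tI tM tZ : k} (htI : HasVal v γI⁻¹ tI) (htM : HasVal v γM⁻¹ tM) (htZ : HasVal v γZ⁻¹ tZ) :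
    εI * (tZ * tM ^ (q - 1)) = εZ * tI ^ q := by
  haveI : (P.comap (w2S A hM)).IsPrime := Ideal.IsPrime.comap _
  have hy' : (w1 hqf.out hM y) ^ n = normAlong (al2 M q) (w2 hqf.out hM f) := by
    rw [← w1_norm_be2, ← hy, map_pow]
  refine rel_al hA hπ hs hM h0 hn hy' hεI hεZ (P := P.comap (w2S A hM)) hv
    (atPlI_w2 hA hπ hs hM hPZ) (atPlM_w2 hA hπ hs hM h0 hPM) (atPlZ_w2 hA hπ hs hM hPI)
    (b := w2S A hM b) (s := w2S A hM s) (g := w2 hqf.out hM g) ?_ ?_ ?_ ?_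
    ((cI_w2 hA hπ hs hM).2 hγZ) ((cM_w2 hA hπ hs hM h0).2 hγM) ((cZ_w2 hA hπ hs hM).2 hγI)
    hγZ0 hγM0 hγI0 htZ htM htI
  · rw [Ideal.mem_comap, w2S_w2S]; exact hb
  · rw [Ideal.mem_comap, w2S_w2S]; exact hs'
  · rwa [Ne, map_eq_zero]
  · rw [hf, map_mul, map_div₀, map_pow, coe_w2S, coe_w2S]

end Fermat.Agent.QComp
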