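import Fermat.Agent.QComp.InstK

/-!
# Level `M q²`: the point conditions
-/

set_option autoImplicit false
set_option linter.unusedSectionVars false
set_option linter.style.haveILetI false
set_option linter.unusedVariables false

noncomputable section

open AlgebraicCurve ModularCurve IntermediateField Module Polynomial IsLocalRing

namespace Fermat.Agent.QComp

open Fermat.Agent.FF Fermat.Agent.Red Fermat.Agent.QVal Fermat.Agent.JZ

local notation "Qb" => AlgebraicClosure ℚ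
local notation "Γℚ" => (AlgebraicClosure ℚ ≃ₐ[ℚ] AlgebraicClosure ℚ)

/-- Classification of a point lying on a single component. -/
def OneComp (k : Type*) [Field k] {L : Type*} [Field L] {F0 : Subfield L} {κ : Type*} [Field κ]
    [Algebra k κ] (S : Subring L) (cI cM cZ : Comp F0 κ) (ϖ : L) (N : ℕ) (κ0 : Subring κ)
    (P : Ideal S) : Prop :=
  ∃ v : Place k κ, (∀ z ∈ κ0, z ∈ v.toValuationSubring) ∧
      (Thru cI.V S P → AtPl cI P v) ∧ (Thru cM.V S P → AtPl cM P v) ∧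
      (Thru cZ.V S P → AtPl cZ P v) ∧
      (∃ aI aM aZ η : S, (aI : L) ∈ cI.V.nonunits ∧ (aM : L) ∈ cM.V.nonunits ∧
        (aZ : L) ∈ cZ.V.nonunits ∧ η ∉ P ∧ η ≠ 0 ∧ (aI : L) * (aM : L) ^ N * aZ = ϖ * η) ∧
      ((Thru cI.V S P ∧ ¬ Thru cM.V S P ∧ ¬ Thru cZ.V S P) ∨
        (¬ Thru cI.V S P ∧ Thru cM.V S P ∧ ¬ Thru cZ.V S P) ∨
        (¬ Thru cI.V S P ∧ ¬ Thru cM.V S P ∧ Thru cZ.V S P))

variable {k : Type*} [Field k] {A : ValuationSubring Qb} {π : A →+* k} {M q : ℕ} [NeZero M]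
  [NeZero q] [hqf : Fact q.Prime] (hA : A.LiesOverPrime q) (hπ : ∀ a : A, π a = 0 ↔ ¬ IsUnit a)
  (hs : Function.Surjective π) (hM : ¬ q ∣ M)

/-- the three components -/
def comps {ζ0 : RU q} (h0 : ζ0 ≠ 1) :
    Fin 3 → Comp (FI A (M * q * q)).toSubfield (modularFunctionFieldFullC k M) :=
  ![cI hA hπ hs hM, cM hA hπ hs hM h0, cZ hA hπ hs hM]

variable [CharP k q] [PerfectRing k q] [IsFnField k (modularFunctionFieldFullC k M)]
  [IsAlgClosed k]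

include hA hπ hs in
theorem hconst_gen {ζ0 : RU q} (h0 : ζ0 ≠ 1) (x : FB (M * q * q)) (c : k) :
    ∃ C : FB (M * q * q), C ∈ SX A x ∧ (c ≠ 0 → C⁻¹ ∈ SX A x) ∧
      (cI hA hπ hs hM).Is C (algebraMap k (modularFunctionFieldFullC k M) c) ∧
      (cM hA hπ hs hM h0).Is C (algebraMap k (modularFunctionFieldFullC k M) c) ∧
      (cZ hA hπ hs hM).Is C (algebraMap k (modularFunctionFieldFullC k M) c) := by
  obtain ⟨a, rfl, ha⟩ := exists_fixed_lift hA hπ hs c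
  refine ⟨_, const_mem_SX a.2 ha, fun hc => ?_, const_isI hA hπ hs hM a,
    const_isM hA hπ hs hM h0 a, const_isZ hA hπ hs hM a⟩
  have hu : IsUnit a := by
    by_contra h
    exact hc ((hπ a).2 h)
  obtain ⟨u, hu⟩ := hu
  have h1 : ((u⁻¹ : Aˣ) : Qb) = (a : Qb)⁻¹ := by
    rw [← hu]
    refine eq_inv_of_mul_eq_one_left ?_
    exact congrArg Subtype.val (Units.inv_mul u)
  rw [← map_inv₀, ← h1]
  refine const_mem_SX (u⁻¹ : Aˣ).1.2 fun σ hσ => ?_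
  rw [h1, map_inv₀, ha σ hσ]

/-- the data of the normalised function -/
structure NFun {ζ0 : RU q} (h0 : ζ0 ≠ 1) (f : FB (M * q * q)) (n : ℕ) (ω : Fin 3 → FB (M * q * q))
    (ωb : Fin 3 → k) : Prop where
  fix : IFix A f
  redI : (cI hA hπ hs hM).Is f 1
  redM : (cM hA hπ hs hM h0).Is f 1
  redZ : (cZ hA hπ hs hM).Is f 1
  pos : 0 < n
  div : ∀ P : Place Qb (FB (M * q * q)), (n : ℤ) ∣ P.ord f
  hω : ∀ i, (comps hA hπ hs hM h0 i).Is (ω i)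
    (algebraMap k (modularFunctionFieldFullC k M) (ωb i))
  hωn : ∀ i, ωb i ^ n = 1
  hωF : ∀ i, IFix A (ω i)
  rel : ∀ (P : Ideal (SX A (xL M q))) [P.IsPrime] (v : Place k (modularFunctionFieldFullC k M)),
    (∀ z ∈ kx (RedQ.xj k M), z ∈ v.toValuationSubring) →
    AtPl (cI hA hπ hs hM) P v → AtPl (cM hA hπ hs hM h0) P v → AtPl (cZ hA hπ hs hM) P v →
    ∀ b s : SX A (xL M q), b ∉ P → s ∉ P → ∀ g ∈ (FI A (M * q * q)).toSubfield, g ≠ 0 →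
      f = b / s * g ^ n → ∀ γI γM γZ : modularFunctionFieldFullC k M, (cI hA hπ hs hM).Is g γI →
      (cM hA hπ hs hM h0).Is g γM → (cZ hA hπ hs hM).Is g γZ →
      ∀ tI tM tZ : k, HasVal v γI⁻¹ tI → HasVal v γM⁻¹ tM → HasVal v γZ⁻¹ tZ →
      ωb 0 * tI ^ (q ^ 2 - 1) = ωb 2 * tZ ^ (q ^ 2 - 1) ∧
        ωb 1 * tM ^ (q ^ 2 - 1) = ωb 2 * tZ ^ (q ^ 2 - 1)

section Pt

variable {ζ0 : RU q} {h0 : ζ0 ≠ 1} {f : FB (M * q * q)} {n : ℕ} {ω : Fin 3 → FB (M * q * q)}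
  {ωb : Fin 3 → k} (H : NFun hA hπ hs hM h0 f n ω ωb)

include H

theorem NFun.ne_zero : f ≠ 0 := H.redI.ne_zero one_ne_zero

theorem NFun.ptData_x (hr : ∃ r : ℕ, r.Prime ∧ r ∣ M ∧ r % 12 = 11)
    {P : Ideal (SX A (xL M q))} [hP : P.IsPrime]
    (hngI : ∃ b ∈ P, (b : FB (M * q * q)) ∉ (cI hA hπ hs hM).V.nonunits)
    (hngM : ∃ b ∈ P, (b : FB (M * q * q)) ∉ (cM hA hπ hs hM h0).V.nonunits)
    (hngZ : ∃ b ∈ P, (b : FB (M * q * q)) ∉ (cZ hA hπ hs hM).V.nonunits)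
    (hex : ∃ i, Thru (comps hA hπ hs hM h0 i).V (SX A (xL M q)) P) :
    PtData (SX A (xL M q)) (FI A (M * q * q)).toSubfield
      (fun i => (comps hA hπ hs hM h0 i).V) ω P (f ^ (q ^ 2 - 1)) n := by
  obtain ⟨h, hh, -⟩ := exists_hasse M hA hπ hs hM
  have SSC := ssChart_x hA hπ hs hM h0 hr hh
  have hex' : Thru (cI hA hπ hs hM).V (SX A (xL M q)) P ∨
      Thru (cM hA hπ hs hM h0).V (SX A (xL M q)) P ∨ Thru (cZ hA hπ hs hM).V (SX A (xL M q)) P := by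
    obtain ⟨i, hi⟩ := hex
    fin_cases i
    · exact Or.inl hi
    · exact Or.inr (Or.inl hi)
    · exact Or.inr (Or.inr hi)
  obtain ⟨v, hv, hI, hMid, hZ, hsys, hcase⟩ := SSC.classify hngI hngM hngZ hex'
  haveI : IsNoetherianRing (SX A (xL M q)) := isNoetherianRing_SX IFix_xL hA transcendental_xL
  refine ptData_main SSC.toTriChart hv hI hMid hZ hsys hcase H.ne_zero
    (exists_div_SX IFix_xL transcendental_xL H.fix) H.redI H.redM H.redZ H.pos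
    (hhor_SX hA (mem_span_ifix A) IFix_xL transcendental_xL H.div)
    (hconst_gen hA hπ hs hM h0 _) H.hω H.hωn ?_
  intro h1 h2 h3
  exact H.rel P v hv (hI h1) (hMid h2) (hZ h3)

theorem NFun.ptData_cusp {P : Ideal (SX A (xL M q)⁻¹)} [hP : P.IsPrime]
    (hc : OneComp k (SX A (xL M q)⁻¹) (cI hA hπ hs hM) (cM hA hπ hs hM h0) (cZ hA hπ hs hM)
      (q : FB (M * q * q)) (q - 1) (kx (RedQ.xj k M)⁻¹) P) :
    PtData (SX A (xL M q)⁻¹) (FI A (M * q * q)).toSubfield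
      (fun i => (comps hA hπ hs hM h0 i).V) ω P (f ^ (q ^ 2 - 1)) n := by
  obtain ⟨v, hv, hI, hMid, hZ, hsys, hcase⟩ := hc
  haveI : IsNoetherianRing (SX A (xL M q)⁻¹) :=
    isNoetherianRing_SX IFix_xL_inv hA transcendental_xL_inv
  refine ptData_main (triChart_x_inv hA hπ hs hM h0) hv hI hMid hZ hsys (Or.inr hcase) H.ne_zero
    (exists_div_SX IFix_xL_inv transcendental_xL_inv H.fix) H.redI H.redM H.redZ H.pos
    (hhor_SX hA (mem_span_ifix A) IFix_xL_inv transcendental_xL_inv H.div)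
    (hconst_gen hA hπ hs hM h0 _) H.hω H.hωn ?_
  intro h1 h2 h3
  exfalso
  rcases hcase with ⟨-, h4, -⟩ | ⟨h4, -, -⟩ | ⟨h4, -, -⟩
  · exact h4 h2
  · exact h4 h1
  · exact h4 h1

end Pt

section Glue

theorem hSS' (A : ValuationSubring Qb) : ∀ b ∈ SX A (xL M q), ∃ n0 : ℕ, ∀ n ≥ n0,
    ((xL M q)⁻¹) ^ n * b ∈ SX A (xL M q)⁻¹ := by
  intro b hb
  haveI : IsFnField Qb (FB (M * q * q)) := isFnField_bar _
  obtain ⟨n0, hn0⟩ := exists_inv_pow_mul_mem_x (A := A) transcendental_xL hb.1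
  exact ⟨n0, fun n hn => ⟨hn0 n hn, (IFix_xL_inv.pow n).mul hb.2⟩⟩

theorem hS'S (A : ValuationSubring Qb) : ∀ b ∈ SX A (xL M q)⁻¹, ∃ n0 : ℕ, ∀ n ≥ n0,
    (xL M q) ^ n * b ∈ SX A (xL M q) := by
  intro b hb
  haveI : IsFnField Qb (FB (M * q * q)) := isFnField_bar _
  obtain ⟨n0, hn0⟩ := exists_inv_pow_mul_mem_x (A := A) transcendental_xL_inv hb.1
  refine ⟨n0, fun n hn => ⟨?_, (IFix_xL.pow n).mul hb.2⟩⟩
  have h1 := hn0 n hn
  rwa [inv_inv] at h1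

theorem xL_inv_mem (A : ValuationSubring Qb) : (xL M q)⁻¹ ∈ SX A (xL M q)⁻¹ :=
  ⟨self_mem_IC _, IFix_xL_inv⟩

variable {ζ0 : RU q} {h0 : ζ0 ≠ 1} {f : FB (M * q * q)} {n : ℕ} {ω : Fin 3 → FB (M * q * q)}
  {ωb : Fin 3 → k} (H : NFun hA hπ hs hM h0 f n ω ωb)

theorem xL_inv_mem_comps (i : Fin 3) : (xL M q)⁻¹ ∈ (comps hA hπ hs hM h0 i).V := by
  fin_cases i
  · exact (cI_xL_inv hA hπ hs hM).mem
  · exact Comp.mem (cM_xL_inv hA hπ hs hM h0)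
  · exact (cZ_xL_inv hA hπ hs hM).mem

include H in
theorem NFun.ptData_x_inv (hr : ∃ r : ℕ, r.Prime ∧ r ∣ M ∧ r % 12 = 11)
    {P : Ideal (SX A (xL M q)⁻¹)} [hP : P.IsPrime] (hxP : (⟨_, xL_inv_mem A⟩ : SX A (xL M q)⁻¹) ∉ P)
    (hngI : ∃ b ∈ P, (b : FB (M * q * q)) ∉ (cI hA hπ hs hM).V.nonunits)
    (hngM : ∃ b ∈ P, (b : FB (M * q * q)) ∉ (cM hA hπ hs hM h0).V.nonunits)
    (hngZ : ∃ b ∈ P, (b : FB (M * q * q)) ∉ (cZ hA hπ hs hM).V.nonunits)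
    (hex : ∃ i, Thru (comps hA hπ hs hM h0 i).V (SX A (xL M q)⁻¹) P) :
    PtData (SX A (xL M q)⁻¹) (FI A (M * q * q)).toSubfield
      (fun i => (comps hA hπ hs hM h0 i).V) ω P (f ^ (q ^ 2 - 1)) n := by
  refine PtData.transfer (xL_inv_mem A) (hSS' A) hxP (xL_inv_mem_comps hA hπ hs hM) ?_
  refine H.ptData_x hA hπ hs hM hr ?_ ?_ ?_ ?_
  · exact nongen_trP (xL_inv_mem A) (hSS' A) (hS'S A) hxP (cI_xL_inv hA hπ hs hM).mem hngI
  · exact nongen_trP (xL_inv_mem A) (hSS' A) (hS'S A) hxP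
      (Comp.mem (cM_xL_inv hA hπ hs hM h0)) hngM
  · exact nongen_trP (xL_inv_mem A) (hSS' A) (hS'S A) hxP (cZ_xL_inv hA hπ hs hM).mem hngZ
  · obtain ⟨i, hi⟩ := hex
    exact ⟨i, thru_trP (xL_inv_mem A) (hSS' A) hxP (xL_inv_mem_comps hA hπ hs hM i) hi⟩

end Glue

end Fermat.Agent.QComp
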