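import Fermat.Agent.QComp.InstL

/-!
# Level `M q²`: extraction of the root
-/

set_option autoImplicit false
set_option linter.unusedSectionVars false
set_option linter.style.haveILetI false
set_option linter.unusedVariables false

noncomputable section

open AlgebraicCurve ModularCurve IntermediateField Module Polynomial IsLocalRing

namespace Fermat.Agent.QComp

open Fermat.Agent.FF Fermat.Agent.Red Fermat.Agent.QVal Fermat.Agent.JZ

local notation "Qb" => AlgebraicClosure ℚ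
local notation "Γℚ" => (AlgebraicClosure ℚ ≃ₐ[ℚ] AlgebraicClosure ℚ)

variable {k : Type*} [Field k] {A : ValuationSubring Qb} {π : A →+* k} {M q : ℕ} [NeZero M]
  [NeZero q] [hqf : Fact q.Prime] (hA : A.LiesOverPrime q) (hπ : ∀ a : A, π a = 0 ↔ ¬ IsUnit a)
  (hs : Function.Surjective π) (hM : ¬ q ∣ M)

variable [CharP k q] [PerfectRing k q] [IsFnField k (modularFunctionFieldFullC k M)]
  [IsAlgClosed k]

open Classical in
/-- the function `r` of the criterion. -/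
def rW (ω : Fin 3 → FB (M * q * q)) (W : ValuationSubring (FB (M * q * q))) : FB (M * q * q) :=
  if W = (rInf2 M q hA hπ hs hM).O then ω 0
  else if W = (rZero2 M q hA hπ hs hM).O then ω 2 else ω 1

theorem rW_cls {ζ0 : RU q} (h0 : ζ0 ≠ 1) (ω : Fin 3 → FB (M * q * q))
    {W : ValuationSubring (FB (M * q * q))}
    (hW : OverGauss Qb A (al2 M q (al1 M q (jB M))) W) :
    ∃ i, rW hA hπ hs hM ω W = ω i ∧ ∀ z ∈ FI A (M * q * q),
      (z ∈ (comps hA hπ hs hM h0 i).V.nonunits ↔ z ∈ W.nonunits) := by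
  by_cases h1 : W = (rInf2 M q hA hπ hs hM).O
  · refine ⟨0, by rw [rW, if_pos h1], fun z _ => ?_⟩
    rw [h1]; rfl
  by_cases h2 : W = (rZero2 M q hA hπ hs hM).O
  · refine ⟨2, by rw [rW, if_neg h1, if_pos h2], fun z _ => ?_⟩
    rw [h2]; rfl
  refine ⟨1, by rw [rW, if_neg h1, if_neg h2], fun z hz => ?_⟩
  rcases eq_level2 (hA := hA) (hπ := hπ) (hs := hs) (hM := hM) hW with h | h | ⟨ζ, h, rfl⟩
  · exact absurd h h1
  · exact absurd h h2
  · exact cM_nonunits_iff hA hπ hs hM h0 h hz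

variable {ζ0 : RU q} {h0 : ζ0 ≠ 1} {f : FB (M * q * q)} {n : ℕ} {ω : Fin 3 → FB (M * q * q)}
  {ωb : Fin 3 → k} (H : NFun hA hπ hs hM h0 f n ω ωb)

include H

theorem NFun.ptCond_x (hr : ∃ r : ℕ, r.Prime ∧ r ∣ M ∧ r % 12 = 11) :
    PtCond Qb A (xL M q) (f ^ (q ^ 2 - 1)) n (rW hA hπ hs hM ω) := by
  refine ptCond_of_data (K0 := KI A) (F0 := FI A (M * q * q)) (E := FB (M * q * q))
    (V := fun i => (comps hA hπ hs hM h0 i).V) (ω := ω) (fun W hW => ?_) H.hωF fun P hP hex => ?_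
  · exact rW_cls hA hπ hs hM h0 ω ((overGauss_xL_iff (hA := hA) (hπ := hπ) (hs := hs)
      (hM := hM)).1 hW)
  · have hPm := isMaximal_comap_SX (A := A) IFix_xL P (hP := hP)
    have hTC := triChart_x hA hπ hs hM h0
    exact H.ptData_x hA hπ hs hM hr (hP := hPm.isPrime) (hTC.ontoI.nongen hTC.not_field hPm)
      (hTC.ontoM.nongen hTC.not_field hPm) (hTC.ontoZ.nongen hTC.not_field hPm) hex

theorem NFun.ptCond_x_inv (hr : ∃ r : ℕ, r.Prime ∧ r ∣ M ∧ r % 12 = 11)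
    (hcusp : ∀ P : Ideal (SX A (xL M q)⁻¹), P.IsPrime →
      (⟨_, xL_inv_mem A⟩ : SX A (xL M q)⁻¹) ∈ P →
      (∃ b ∈ P, (b : FB (M * q * q)) ∉ (cI hA hπ hs hM).V.nonunits) →
      (∃ b ∈ P, (b : FB (M * q * q)) ∉ (cM hA hπ hs hM h0).V.nonunits) →
      (∃ b ∈ P, (b : FB (M * q * q)) ∉ (cZ hA hπ hs hM).V.nonunits) →
      (Thru (cI hA hπ hs hM).V (SX A (xL M q)⁻¹) P ∨
        Thru (cM hA hπ hs hM h0).V (SX A (xL M q)⁻¹) P ∨
        Thru (cZ hA hπ hs hM).V (SX A (xL M q)⁻¹) P) →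
      OneComp k (SX A (xL M q)⁻¹) (cI hA hπ hs hM) (cM hA hπ hs hM h0) (cZ hA hπ hs hM)
      (q : FB (M * q * q)) (q - 1) (kx (RedQ.xj k M)⁻¹) P) :
    PtCond Qb A (xL M q)⁻¹ (f ^ (q ^ 2 - 1)) n (rW hA hπ hs hM ω) := by
  refine ptCond_of_data (K0 := KI A) (F0 := FI A (M * q * q)) (E := FB (M * q * q))
    (V := fun i => (comps hA hπ hs hM h0 i).V) (ω := ω) (fun W hW => ?_) H.hωF fun P hP hex => ?_
  · exact rW_cls hA hπ hs hM h0 ω ((overGauss_xL_inv_iff (hA := hA) (hπ := hπ) (hs := hs)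
      (hM := hM)).1 hW)
  · have hPm := isMaximal_comap_SX (A := A) IFix_xL_inv P (hP := hP)
    have hTC := triChart_x_inv hA hπ hs hM h0
    have hI := hTC.ontoI.nongen hTC.not_field hPm
    have hMid := hTC.ontoM.nongen hTC.not_field hPm
    have hZ := hTC.ontoZ.nongen hTC.not_field hPm
    by_cases hxP : (⟨_, xL_inv_mem A⟩ : SX A (xL M q)⁻¹) ∈
        P.comap (Subring.inclusion (SX_le_IC (A := A) (xL M q)⁻¹))
    · refine H.ptData_cusp hA hπ hs hM (hP := hPm.isPrime) ?_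
      refine hcusp _ hPm.isPrime hxP hI hMid hZ ?_
      obtain ⟨i, hi⟩ := hex
      fin_cases i
      · exact Or.inl hi
      · exact Or.inr (Or.inl hi)
      · exact Or.inr (Or.inr hi)
    · exact H.ptData_x_inv hA hπ hs hM hr (hP := hPm.isPrime) hxP hI hMid hZ hex

theorem NFun.hr {W : ValuationSubring (FB (M * q * q))}
    (hW : OverGauss Qb A (al2 M q (al1 M q (jB M))) W) :
    f ^ (q ^ 2 - 1) / (rW hA hπ hs hM ω W) ^ n - 1 ∈ W.nonunits := by
  obtain ⟨i, hi, hi'⟩ := rW_cls hA hπ hs hM h0 ω hW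
  have hfi : (comps hA hπ hs hM h0 i).Is f 1 := by
    fin_cases i
    · exact H.redI
    · exact H.redM
    · exact H.redZ
  have hωn := (H.hω i).pow n
  rw [← map_pow, H.hωn, map_one] at hωn
  have h1 := (hfi.pow (q ^ 2 - 1)).div hωn one_ne_zero (IFix.pow (H.hωF i) n)
  rw [one_pow, div_one] at h1
  have h2 := h1.sub (Comp.Is.one _)
  rw [sub_self] at h2
  rw [hi, ← hi']
  · exact h2.nonunit_iff.2 rfl
  · refine IFix.sub ?_ ?_
    · rw [div_eq_mul_inv]
      exact (H.fix.pow _).mul ((H.hωF i).pow n).inv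
    · intro σ hσ
      exact map_one _

end Fermat.Agent.QComp
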