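import Fermat.Agent.QComp.InstM

/-!
# Level `M q²`: normalised functions with trivial norms are powers
-/

set_option autoImplicit false
set_option linter.unusedSectionVars false
set_option linter.style.haveILetI false
set_option linter.unusedVariables false

noncomputable section

open AlgebraicCurve ModularCurve IntermediateField Module Polynomial IsLocalRing

namespace Fermat.Agent.QComp

open Fermat.Agent.FF Fermat.Agent.Red Fermat.Agent.QVal Fermat.Agent.JZ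

local notation "Qb" => AlgebraicClosure ℚ
local notation "Γℚ" => (AlgebraicClosure ℚ ≃ₐ[ℚ] AlgebraicClosure ℚ)

variable {k : Type*} [Field k] {A : ValuationSubring Qb} {π : A →+* k} {M q : ℕ} [NeZero M]
  [NeZero q] [hqf : Fact q.Prime] (hA : A.LiesOverPrime q) (hπ : ∀ a : A, π a = 0 ↔ ¬ IsUnit a)
  (hs : Function.Surjective π) (hM : ¬ q ∣ M)

variable [CharP k q] [PerfectRing k q] [IsFnField k (modularFunctionFieldFullC k M)]
  [IsAlgClosed k]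

theorem exists_eps {ζ0 : RU q} (h0 : ζ0 ≠ 1) {f : FB (M * q * q)}
    (hI : (cI hA hπ hs hM).Is f 1) (hMid : (cM hA hπ hs hM h0).Is f 1)
    (hZ : (cZ hA hπ hs hM).Is f 1) {n : ℕ} (hn : 0 < n) {y : FB (M * q)}
    (hy : y ^ n = normAlong (al2 M q) f) : ∃ εI εZ : k, εI ^ n = 1 ∧ εZ ^ n = 1 ∧
      (cI hA hπ hs hM).Is (al2 M q y) (algebraMap k (modularFunctionFieldFullC k M) εI) ∧
      (cZ hA hπ hs hM).Is (al2 M q y) (algebraMap k (modularFunctionFieldFullC k M) εZ) := by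
  have h1 : (rInf2 M q hA hπ hs hM).IsRed (al2 M q y ^ n) 1 := by
    rw [← map_pow, hy]
    have h2 : (rInf1 M q hA hπ hs hM).IsRed (normAlong (al2 M q) f) (1 * 1 ^ (q - 1)) :=
      isRed_norm_al2_inf hI hMid
    rw [one_pow, one_mul] at h2
    exact isRed_inf2_al2 h2
  have h2 : (rZero2 M q hA hπ hs hM).IsRed (al2 M q y ^ n) 1 := by
    rw [← map_pow, hy]
    have h3 := isRed_zero2_al2 (isRed_norm_al2_zero hZ)
    rwa [one_pow] at h3
  obtain ⟨εI, hεI, hI'⟩ := isRed_root_one hn h1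
  obtain ⟨εZ, hεZ, hZ'⟩ := isRed_root_one hn h2
  exact ⟨εI, εZ, hεI, hεZ, hI', hZ'⟩

theorem ne_zero_of_pow_one {K : Type*} [Field K] {x : K} {n : ℕ} (hn : 0 < n) (h : x ^ n = 1) :
    x ≠ 0 := by
  rintro rfl
  rw [zero_pow hn.ne'] at h
  exact zero_ne_one h

theorem exists_nfun {ζ0 : RU q} (h0 : ζ0 ≠ 1) {f : FB (M * q * q)} (hf : IFix A f)
    (hI : (cI hA hπ hs hM).Is f 1) (hMid : (cM hA hπ hs hM h0).Is f 1)
    (hZ : (cZ hA hπ hs hM).Is f 1) {n : ℕ} (hn : 0 < n)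
    (hdiv : ∀ P : Place Qb (FB (M * q * q)), (n : ℤ) ∣ P.ord f)
    {y y' : FB (M * q)} (hy : y ^ n = normAlong (al2 M q) f)
    (hy' : y' ^ n = normAlong (be2 M q) f) :
    ∃ (ω : Fin 3 → FB (M * q * q)) (ωb : Fin 3 → k), NFun hA hπ hs hM h0 f n ω ωb := by
  obtain ⟨εI, εZ, hεI, hεZ, hyI, hyZ⟩ := exists_eps hA hπ hs hM h0 hI hMid hZ hn hy
  have hy1 : (w1 hqf.out hM y') ^ n = normAlong (al2 M q) (w2 hqf.out hM f) := by
    rw [← w1_norm_be2, ← hy', map_pow]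
  obtain ⟨εI', εZ', hεI', hεZ', hyI', hyZ'⟩ := exists_eps hA hπ hs hM h0
    ((cI_w2 hA hπ hs hM).2 hZ) ((cM_w2 hA hπ hs hM h0).2 hMid) ((cZ_w2 hA hπ hs hM).2 hI) hn hy1
  have hεI0 := ne_zero_of_pow_one hn hεI
  have hεZ0 := ne_zero_of_pow_one hn hεZ
  have hεI'0 := ne_zero_of_pow_one hn hεI'
  have hεZ'0 := ne_zero_of_pow_one hn hεZ'
  set ωb : Fin 3 → k := ![((εZ' / εI') / (εZ / εI)) ^ (q - 1), ((εZ / εI) ^ q * (εZ' / εI'))⁻¹, 1]
    with hωb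
  have hωbn : ∀ i, ωb i ^ n = 1 := by
    intro i
    fin_cases i
    · change (((εZ' / εI') / (εZ / εI)) ^ (q - 1)) ^ n = 1
      have e : ((εZ' / εI') / (εZ / εI)) ^ n = 1 := by
        rw [div_pow, div_pow, div_pow, hεI, hεZ, hεI', hεZ']
        norm_num
      rw [pow_right_comm, e, one_pow]
    · change (((εZ / εI) ^ q * (εZ' / εI'))⁻¹) ^ n = 1
      have e1 : (εZ / εI) ^ n = 1 := by rw [div_pow, hεI, hεZ, div_one]
      have e2 : (εZ' / εI') ^ n = 1 := by rw [div_pow, hεI', hεZ', div_one]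
      rw [inv_pow, mul_pow, pow_right_comm, e1, e2, one_pow, one_mul, inv_one]
    · change (1 : k) ^ n = 1
      exact one_pow n
  have hlift : ∀ i, ∃ a : A, π a = ωb i ∧ ∀ σ ∈ A.inertiaSubgroupIn ℚ, σ (a : Qb) = a :=
    fun i => exists_fixed_lift hA hπ hs (ωb i)
  choose a ha haσ using hlift
  refine ⟨fun i => algebraMap Qb _ (a i), ωb, ⟨hf, hI, hMid, hZ, hn, hdiv, fun i => ?_, hωbn,
    fun i => IFix.algebraMap (haσ i), ?_⟩⟩
  · rw [← ha i]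
    fin_cases i
    · exact const_isI hA hπ hs hM _
    · exact const_isM hA hπ hs hM h0 _
    · exact const_isZ hA hπ hs hM _
  · intro P hP v hv hPI hPM hPZ b s hb hs' g hgF hg0 hfg γI γM γZ hγI hγM hγZ tI tM tZ htI htM htZ
    have hTC := triChart_x hA hπ hs hM h0
    obtain ⟨γI1, hγI1, hγI0, tI1, htI0, htI1⟩ :=
      exists_val_of_fac hTC.ontoI hv hPI hb hs' hgF hn hfg hI
    obtain ⟨γM1, hγM1, hγM0, tM1, htM0, htM1⟩ :=
      exists_val_of_fac hTC.ontoM hv hPM hb hs' hgF hn hfg hMid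
    obtain ⟨γZ1, hγZ1, hγZ0, tZ1, htZ0, htZ1⟩ :=
      exists_val_of_fac hTC.ontoZ hv hPZ hb hs' hgF hn hfg hZ
    obtain rfl := (cI hA hπ hs hM).uniq hγI hγI1
    obtain rfl := (cM hA hπ hs hM h0).uniq hγM hγM1
    obtain rfl := (cZ hA hπ hs hM).uniq hγZ hγZ1
    obtain rfl := htI.unique htI1
    obtain rfl := htM.unique htM1
    obtain rfl := htZ.unique htZ1
    have r1 := rel_al hA hπ hs hM h0 hn hy hyI hyZ hv hPI hPM hPZ hb hs' hg0 hfg hγI hγM hγZ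
      hγI0 hγM0 hγZ0 htI htM htZ
    have r2 := rel_be hA hπ hs hM h0 hn hy' hyI' hyZ' hv hPI hPM hPZ hb hs' hg0 hfg hγI hγM hγZ
      hγI0 hγM0 hγZ0 htI htM htZ
    exact const_alg hqf.out.two_le hεI0 hεZ0 hεI'0 hεZ'0 htI0 htM0 htZ0 r1 r2

/-- **Extraction of the root.** -/
theorem exists_root {ζ0 : RU q} (h0 : ζ0 ≠ 1) (hr : ∃ r : ℕ, r.Prime ∧ r ∣ M ∧ r % 12 = 11)
    {ℓ : ℕ} (hℓ : ℓ.Prime) (hℓq : ℓ ≠ q) (a : ℕ) {f : FB (M * q * q)} (hf : IFix A f)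
    (hI : (cI hA hπ hs hM).Is f 1) (hMid : (cM hA hπ hs hM h0).Is f 1)
    (hZ : (cZ hA hπ hs hM).Is f 1)
    (hdiv : ∀ P : Place Qb (FB (M * q * q)), ((ℓ ^ a : ℕ) : ℤ) ∣ P.ord f)
    {y y' : FB (M * q)} (hy : y ^ (ℓ ^ a) = normAlong (al2 M q) f)
    (hy' : y' ^ (ℓ ^ a) = normAlong (be2 M q) f)
    (hcusp : ∀ P : Ideal (SX A (xL M q)⁻¹), P.IsPrime →
      (⟨_, xL_inv_mem A⟩ : SX A (xL M q)⁻¹) ∈ P →
      (∃ b ∈ P, (b : FB (M * q * q)) ∉ (cI hA hπ hs hM).V.nonunits) →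
      (∃ b ∈ P, (b : FB (M * q * q)) ∉ (cM hA hπ hs hM h0).V.nonunits) →
      (∃ b ∈ P, (b : FB (M * q * q)) ∉ (cZ hA hπ hs hM).V.nonunits) →
      (Thru (cI hA hπ hs hM).V (SX A (xL M q)⁻¹) P ∨
        Thru (cM hA hπ hs hM h0).V (SX A (xL M q)⁻¹) P ∨
        Thru (cZ hA hπ hs hM).V (SX A (xL M q)⁻¹) P) →
      OneComp k (SX A (xL M q)⁻¹) (cI hA hπ hs hM) (cM hA hπ hs hM h0) (cZ hA hπ hs hM)
      (q : FB (M * q * q)) (q - 1) (kx (RedQ.xj k M)⁻¹) P) :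
    ∃ h : FB (M * q * q), h ^ (ℓ ^ a) = f ^ (q ^ 2 - 1) := by
  haveI : IsFnField Qb (FB (M * q * q)) := isFnField_bar _
  obtain ⟨ω, ωb, H⟩ := exists_nfun hA hπ hs hM h0 hf hI hMid hZ (pow_pos hℓ.pos a) hdiv hy hy'
  have hℓA : IsUnit (ℓ : A) := by
    by_contra h
    have h1 := (hπ _).2 h
    rw [map_natCast, CharP.cast_eq_zero_iff k q] at h1
    exact hℓq ((Nat.prime_dvd_prime_iff_eq hqf.out hℓ).1 h1).symm
  refine exists_pow_of_local_x (K := Qb) (A := A) transcendental_xL (isRankOne_q hA) hℓ hℓA a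
    (r := rW hA hπ hs hM ω) (fun V hV => ?_) (H.ptCond_x hA hπ hs hM hr)
    (H.ptCond_x_inv hA hπ hs hM hr hcusp)
  exact H.hr hA hπ hs hM ((overGauss_xL_iff (hA := hA) (hπ := hπ) (hs := hs) (hM := hM)).1 hV)

end Fermat.Agent.QComp
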