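import Fermat.Agent.QComp.Connected
import Fermat.Agent.QComp.LocB

/-!
# Elements integral over `K[x]` and at all components are integral over `A[x]`
-/

set_option autoImplicit false
set_option linter.unusedSectionVars false
set_option linter.style.haveILetI false

open Polynomial IsLocalRing

namespace Fermat.Agent.QComp

attribute [local instance] isIntegrallyClosed_of_valuationRing

variable {K E L : Type*} [Field K] [Field E] [Field L] [Algebra K E] [Algebra E L]
  [Algebra K L] [IsScalarTower K E L]
variable {A : Type*} [CommRing A] [IsDomain A] [ValuationRing A] [Algebra A K] [IsFractionRing A K]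

theorem ev_K_map (t : E) (p : A[X]) : ev K K t (p.map (algebraMap A K)) = ev K A t p := ev_map t p

theorem exists_ratio {t : E} (ht : IsGen K t) (z : E) :
    ∃ (r : A) (u v : A[X]), Prim u ∧ Prim v ∧ ∃ r' : A, r' ≠ 0 ∧
      z = ev K A t (C r * u) / ev K A t (C r' * v) := by
  letI := (ev K A t).toAlgebra
  haveI := isFractionRing_ev K A ht
  obtain ⟨p, q, hq, hz⟩ := IsFractionRing.div_surjective (A := A[X]) z
  have hq0 : q ≠ 0 := nonZeroDivisors.ne_zero hq
  obtain ⟨r', hr', v, hv, rfl⟩ := exists_prim hq0
  by_cases hp : p = 0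
  · refine ⟨0, 1, v, prim_one, hv, r', hr', ?_⟩
    rw [← hz, hp, map_zero, zero_div, map_zero, zero_mul, map_zero, zero_div]
  · obtain ⟨r, hr, u, hu, rfl⟩ := exists_prim hp
    exact ⟨r, u, v, hu, hv, r', hr', hz.symm⟩

/-- the Gauss valuation ring of `E`. -/
theorem mem_GA_or_inv {t : E} (ht : IsGen K t) (z : E) : z ∈ GA K A t ∨ z⁻¹ ∈ GA K A t := by
  obtain ⟨r, u, v, hu, hv, r', hr', hz⟩ := exists_ratio (A := A) ht z
  have hinj := ev_injective K A ht.trans
  have hC : ∀ c : A, c ≠ 0 → ev K A t (C c) ≠ 0 := fun c hc => by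
    rw [Ne, map_eq_zero_iff _ hinj, C_eq_zero]; exact hc
  have hprim : ∀ w : A[X], Prim w → ev K A t w ≠ 0 := fun w hw => by
    rw [Ne, map_eq_zero_iff _ hinj]; exact hw.ne_zero
  have hvn := hprim v hv
  have hun := hprim u hu
  have hr'n := hC r' hr'
  by_cases hr : r = 0
  · left
    have : z = 0 := by rw [hz, hr, map_zero, zero_mul, map_zero, zero_div]
    rw [this]
    exact zero_mem _
  have hrn := hC r hr
  rcases ValuationRing.dvd_total r' r with ⟨c, hc⟩ | ⟨c, hc⟩
  · left
    refine ⟨v, C c * u, hv, ?_⟩
    rw [hz, hc, map_mul, map_mul, map_mul, map_mul, map_mul]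
    field_simp
  · right
    refine ⟨u, C c * v, hu, ?_⟩
    have hcn : ev K A t (C c) ≠ 0 := hC c (by rintro rfl; apply hr'; rw [hc, mul_zero])
    rw [hz, hc, map_mul, map_mul, map_mul, map_mul, map_mul]
    field_simp

/-- **Integrality can be checked generically and on the components.** -/
theorem mem_IC_of_forall [FiniteDimensional E L] {t : E} (ht : IsGen K t) {ϖ : A}
    (hϖ : IsRankOne A ϖ) {z : L} (hz : z ∈ IC K L K t)
    (h : ∀ V : ValuationSubring L, OverGauss K A (algebraMap E L t) V → z ∈ V) :
    z ∈ IC K L A t := by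
  have hinj := ev_injective K A ht.trans
  have hC : ∀ c : A, c ≠ 0 → ev K A t (C c) ≠ 0 := fun c hc => by
    rw [Ne, map_eq_zero_iff _ hinj, C_eq_zero]; exact hc
  have hprim : ∀ w : A[X], Prim w → ev K A t w ≠ 0 := fun w hw => by
    rw [Ne, map_eq_zero_iff _ hinj]; exact hw.ne_zero
  let VG : ValuationSubring E := { GA K A t with mem_or_inv_mem' := mem_GA_or_inv ht }
  have hVG : ∀ e, e ∈ VG ↔ e ∈ GA K A t := fun _ => Iff.rfl
  -- every valuation ring containing the Gauss ring contains `z`
  have hall : ∀ W : ValuationSubring L, (∀ e ∈ GA K A t, algebraMap E L e ∈ W) → z ∈ W := by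
    intro W hW
    have hWC : ∀ c : A, algebraMap K L (algebraMap A K c) ∈ W := by
      intro c
      have h1 := hW (ev K A t (C c)) ⟨1, C c, prim_one, by simp⟩
      rwa [ev_C, ← IsScalarTower.algebraMap_apply] at h1
    by_cases hm : ∀ c ∈ maximalIdeal A, algebraMap K L (algebraMap A K c) ∈ W.nonunits
    · refine h W (overGauss_of hWC hm ?_ fun u hu => ?_)
      · exact hW t ⟨1, X, prim_one, by simp⟩
      · have h1 : (ev K A t u)⁻¹ ∈ GA K A t := ⟨u, 1, hu, by
          rw [inv_mul_cancel₀ (hprim u hu), map_one]⟩
        have h2 := hW _ h1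
        rw [map_inv₀] at h2
        have h3 : algebraMap E L (ev K A t u) = ev K A (algebraMap E L t) u := by
          rw [ev_eq_aeval, ev_eq_aeval, aeval_algebraMap_apply]
        rwa [h3] at h2
    · push Not at hm
      obtain ⟨c, hcm, hc⟩ := hm
      have hc' := notMem_nonunits_iff.1 hc
      have hc0 : c ≠ 0 := by
        rintro rfl
        exact hc'.1 (by simp)
      -- all nonzero elements of `A` are invertible in `W`
      have hinvϖ : (algebraMap K L (algebraMap A K ϖ))⁻¹ ∈ W := by
        obtain ⟨n, d, hd⟩ := hϖ.pow_dvd c hcm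
        have hcn : (algebraMap K L (algebraMap A K (c ^ n)))⁻¹ ∈ W := by
          rw [map_pow, map_pow, ← inv_pow]
          exact pow_mem hc'.2 n
        have hϖ0 : algebraMap K L (algebraMap A K ϖ) ≠ 0 := by
          rw [Ne, map_eq_zero, map_eq_zero_iff _ (IsFractionRing.injective A K)]
          exact hϖ.ne_zero
        have hd0 : algebraMap K L (algebraMap A K d) ≠ 0 := by
          rw [Ne, map_eq_zero, map_eq_zero_iff _ (IsFractionRing.injective A K)]
          rintro rfl
          exact pow_ne_zero n hc0 (by rw [hd, mul_zero])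
        have h1 : (algebraMap K L (algebraMap A K ϖ))⁻¹ =
            (algebraMap K L (algebraMap A K (c ^ n)))⁻¹ * algebraMap K L (algebraMap A K d) := by
          rw [hd, map_mul, map_mul]
          field_simp
        rw [h1]
        exact mul_mem hcn (hWC d)
      have hinv : ∀ a : A, a ≠ 0 → (algebraMap K L (algebraMap A K a))⁻¹ ∈ W := by
        intro a ha
        obtain ⟨n, d, hd⟩ := hϖ.dvd_pow a ha
        have ha0 : algebraMap K L (algebraMap A K a) ≠ 0 := by
          rw [Ne, map_eq_zero, map_eq_zero_iff _ (IsFractionRing.injective A K)]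
          exact ha
        have hd0 : algebraMap K L (algebraMap A K d) ≠ 0 := by
          rw [Ne, map_eq_zero, map_eq_zero_iff _ (IsFractionRing.injective A K)]
          rintro rfl
          exact pow_ne_zero n hϖ.ne_zero (by rw [hd, mul_zero])
        have h1 : (algebraMap K L (algebraMap A K a))⁻¹ =
            ((algebraMap K L (algebraMap A K ϖ))⁻¹) ^ n * algebraMap K L (algebraMap A K d) := by
          have h2 : (algebraMap K L (algebraMap A K ϖ)) ^ n =
              algebraMap K L (algebraMap A K a) * algebraMap K L (algebraMap A K d) := by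
            rw [← map_pow, ← map_pow, hd, map_mul, map_mul]
          rw [inv_pow, h2]
          field_simp
        rw [h1]
        exact mul_mem (pow_mem hinvϖ n) (hWC d)
      have hE : ∀ e : E, algebraMap E L e ∈ W := by
        intro e
        obtain ⟨r, u, v, hu, hv, r', hr', he⟩ := exists_ratio (A := A) ht e
        have h1 : e = (ev K A t (C r'))⁻¹ * (ev K A t (C r * u) / ev K A t v) := by
          have := hprim v hv
          have := hC r' hr'
          rw [he, map_mul (ev K A t) (C r') v]
          field_simp
        rw [h1, map_mul]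
        refine mul_mem ?_ (hW _ ⟨v, C r * u, hv, div_mul_cancel₀ _ (hprim v hv)⟩)
        rw [map_inv₀, ev_C, ← IsScalarTower.algebraMap_apply]
        exact hinv r' hr'
      -- `W` contains everything integral over `E`
      letI : Algebra E W := ((algebraMap E L).codRestrict W.toSubring hE).toAlgebra
      haveI : IsScalarTower E W L := IsScalarTower.of_algebraMap_eq fun _ => rfl
      have h1 : IsIntegral E z := Algebra.IsIntegral.isIntegral z
      have h2 : IsIntegral W z := h1.tower_top
      obtain ⟨y, hy⟩ := IsIntegrallyClosed.isIntegral_iff.1 h2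
      rw [← hy]
      exact y.2
  -- `z` is integral over the Gauss ring
  have hint : IsIntegral VG z := by
    set S' : Subring L := (VG.toSubring).map (algebraMap E L) with hS'
    have h1 : z ∈ (integralClosure (Subring.closure (S' : Set L)) L).toSubring := by
      rw [← iInf_valuationSubring_superset, Subring.mem_iInf]
      rintro ⟨W, hW⟩
      refine hall W fun e he => hW ?_
      exact ⟨e, he, rfl⟩
    have h2 : IsIntegral (Subring.closure (S' : Set L)) z := h1
    have h3 : ∀ w : L, w ∈ Subring.closure (S' : Set L) → w ∈ S' := fun w hw => by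
      rwa [Subring.closure_eq] at hw
    let φ : VG →+* Subring.closure (S' : Set L) :=
      ((algebraMap E L).comp VG.subtype).codRestrict _ fun e =>
        Subring.subset_closure ⟨e, e.2, rfl⟩
    have hφ : Function.Surjective φ := by
      rintro ⟨w, hw⟩
      obtain ⟨e, he, rfl⟩ := h3 w hw
      exact ⟨⟨e, he⟩, rfl⟩
    letI := φ.toAlgebra
    haveI : IsScalarTower VG (Subring.closure (S' : Set L)) L :=
      IsScalarTower.of_algebraMap_eq fun _ => rfl
    haveI : Algebra.IsIntegral VG (Subring.closure (S' : Set L)) :=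
      ⟨RingHom.isIntegral_of_surjective φ hφ⟩
    exact isIntegral_trans (R := VG) z h2
  -- the coefficients
  refine mem_IC_of_minpoly (Algebra.IsIntegral.isIntegral z) fun i => ?_
  have h1 : (minpoly E z).coeff i ∈ GA K A t := by
    rw [minpoly.isIntegrallyClosed_eq_field_fractions' E hint, coeff_map]
    exact ((minpoly VG z).coeff i).2
  obtain ⟨p, hp⟩ := minpoly_coeff_mem ht hz i
  obtain ⟨u, q, hu, huq⟩ := h1
  rw [← hp] at huq
  have h2 : u.map (algebraMap A K) * p = q.map (algebraMap A K) := by
    apply ev_injective K K ht.trans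
    rw [map_mul, ev_K_map, ev_K_map, ← huq]
    ring
  obtain ⟨r, hr⟩ := gauss_map hu h2
  exact ⟨r, by rw [← hp, hr, ev_K_map]⟩

end Fermat.Agent.QComp
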