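import Fermat.Agent.LevelOne.Ramanujan
import Fermat.Agent.Igusa.JFun
import Fermat.Agent.QComp.Theta

/-!
# The derivative of `j`: `(θ j)^6 = Δ j^4 (j - 1728)^3` in `R((q))`
-/

set_option autoImplicit false
set_option linter.unusedSectionVars false
set_option linter.style.haveILetI false

noncomputable section

open UpperHalfPlane Function Filter ModularCurve Derivative ModularForm EisensteinSeries
open scoped Topology Manifold MatrixGroups ModularForm
open Fermat.Agent.Igusa Fermat.Agent.LevelOne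

namespace Fermat.Agent.QComp

local notation "𝕢" => Periodic.qParam

/-- `θ` on power series -/
def thetaP (p : PowerSeries ℂ) : PowerSeries ℂ := PowerSeries.mk fun n => (n : ℂ) * p.coeff n

theorem ofPS_thetaP (p : PowerSeries ℂ) : HahnSeries.ofPowerSeries ℤ ℂ (thetaP p) =
    theta ℂ (HahnSeries.ofPowerSeries ℤ ℂ p) := by
  ext n
  rw [theta_coeff]
  rcases lt_or_ge n 0 with hn | hn
  · rw [ofPowerSeries_coeff_of_neg _ hn, ofPowerSeries_coeff_of_neg _ hn, mul_zero]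
  · obtain ⟨m, rfl⟩ := Int.eq_ofNat_of_zero_le hn
    rw [HahnSeries.ofPowerSeries_apply_coeff, HahnSeries.ofPowerSeries_apply_coeff, thetaP,
      PowerSeries.coeff_mk]
    push_cast
    rfl

theorem psConv_deriv {f : ℍ → ℂ} {p : PowerSeries ℂ} (hf : PSConv 1 f p) :
    PSConv 1 (fun τ => deriv (psFun p) (𝕢 1 (τ : ℂ)))
      (PowerSeries.mk fun n => ((n + 1 : ℕ) : ℂ) * p.coeff (n + 1)) := by
  have h1 : DifferentiableOn ℂ (deriv (psFun p)) (Metric.ball 0 1) :=
    hf.differentiableOn.deriv Metric.isOpen_ball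
  have h2 := psConv_of_differentiableOn h1 1
  simp only [Nat.cast_one] at h2
  convert h2 using 2
  funext n
  rw [← iteratedDeriv_succ', hf.iteratedDeriv, Nat.factorial_succ]
  have : (n.factorial : ℂ) ≠ 0 := by exact_mod_cast Nat.factorial_ne_zero n
  push_cast
  field_simp

theorem D_eq {f : ℍ → ℂ} {p : PowerSeries ℂ} (hf : PSConv 1 f p) (τ : ℍ) :
    normalizedDerivOfComplex f τ = 𝕢 1 (τ : ℂ) * deriv (psFun p) (𝕢 1 (τ : ℂ)) := by
  have h1 : f ∘ ofComplex =ᶠ[𝓝 (τ : ℂ)] psFun p ∘ 𝕢 1 := by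
    filter_upwards [isOpen_upperHalfPlaneSet.mem_nhds τ.im_pos] with w hw
    have := hf.eq_psFun ⟨w, hw⟩
    simp only [Function.comp_apply]
    rw [ofComplex_apply_of_im_pos hw, this]
    simp
  have hq : ‖𝕢 1 (τ : ℂ)‖ < 1 := by
    simpa using norm_q_lt_one (h := 1) τ
  have h2 : DifferentiableAt ℂ (psFun p) (𝕢 1 τ) :=
    hf.differentiableOn.differentiableAt (Metric.isOpen_ball.mem_nhds (by simpa using hq))
  have h3 : HasDerivAt (𝕢 1) (2 * Real.pi * Complex.I * 𝕢 1 τ) (τ : ℂ) := by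
    have h4 : HasDerivAt (fun z : ℂ ↦ 2 * Real.pi * Complex.I * z / (1 : ℝ))
        (2 * Real.pi * Complex.I) (τ : ℂ) := by
      simpa using (hasDerivAt_id (τ : ℂ)).const_mul (2 * Real.pi * Complex.I)
    have h5 := h4.cexp
    have h6 : Complex.exp (2 * Real.pi * Complex.I * τ / (1 : ℝ)) * (2 * Real.pi * Complex.I) =
        2 * Real.pi * Complex.I * 𝕢 1 τ := by
      rw [mul_comm]; rfl
    rw [h6] at h5
    exact h5
  rw [normalizedDerivOfComplex, h1.deriv_eq, (h2.hasDerivAt.comp (τ : ℂ) h3).deriv]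
  have : (Real.pi : ℂ) ≠ 0 := by exact_mod_cast Real.pi_ne_zero
  field_simp

theorem psConv_D {f : ℍ → ℂ} {p : PowerSeries ℂ} (hf : PSConv 1 f p) :
    PSConv 1 (normalizedDerivOfComplex f) (thetaP p) := by
  have h1 := (PSConv.qvar (h := 1)).mul (psConv_deriv hf)
  have h2 : (PowerSeries.X : PowerSeries ℂ) *
      (PowerSeries.mk fun n => ((n + 1 : ℕ) : ℂ) * p.coeff (n + 1)) = thetaP p := by
    ext n
    rcases n with _ | n
    · simp [thetaP]
    · rw [PowerSeries.coeff_succ_X_mul, PowerSeries.coeff_mk, thetaP, PowerSeries.coeff_mk]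
  rw [h2] at h1
  have h3 : ((fun τ : ℍ => 𝕢 ((1 : ℕ) : ℝ) (τ : ℂ)) * fun τ : ℍ => deriv (psFun p) (𝕢 1 (τ : ℂ))) =
      normalizedDerivOfComplex f := by
    funext τ
    rw [Pi.mul_apply, D_eq hf]
    simp
  rwa [h3] at h1

/-- the `q`-expansion of `E₄` over `ℂ` -/
def eA : PowerSeries ℂ := eisenstein4.map (Int.castRingHom ℂ)
/-- the `q`-expansion of `E₆` over `ℂ` -/
def eB : PowerSeries ℂ := qExpansion 1 (E₆ : ℍ → ℂ)
/-- the `q`-expansion of `Δ` over `ℂ` -/
def eD : PowerSeries ℂ := PowerSeries.X * dedekindEtaUnit.map (Int.castRingHom ℂ)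

theorem convA : PSConv 1 (E₄ : ℍ → ℂ) eA := E4_conv

theorem convB : PSConv 1 (E₆ : ℍ → ℂ) eB := by
  intro τ
  have : Fact (IsCusp .infty 𝒮ℒ) :=
    ⟨Subgroup.isCusp_of_mem_strictPeriods one_pos one_mem_strictPeriods_SL⟩
  have h1 := ModularForm.hasSum_qExpansion ModularForm.E₆ one_pos one_mem_strictPeriods_SL τ
  simpa [eB] using h1

theorem convD : PSConv 1 (discriminant : ℍ → ℂ) eD := discriminant_conv

theorem eD_eq : PowerSeries.C (1728 : ℂ) * eD = eA ^ 3 - eB ^ 2 := by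
  have h1 := (PSConv.const (h := 1) (1728 : ℂ)).mul convD
  have h2 := (convA.pow 3).add (convB.pow 2).neg
  have h3 : ((fun _ : ℍ => (1728 : ℂ)) * (discriminant : ℍ → ℂ)) =
      (E₄ : ℍ → ℂ) ^ 3 + -(E₆ : ℍ → ℂ) ^ 2 := by
    funext z
    simp only [Pi.mul_apply, Pi.add_apply, Pi.neg_apply, Pi.pow_apply]
    rw [discriminant_eq_E₄_cube_sub_E₆_sq]
    ring
  rw [h3] at h1
  rw [h1.unique h2, sub_eq_add_neg]

theorem ramanujan : PowerSeries.C (3 : ℂ) * (eB * thetaP eA) - PowerSeries.C (2 : ℂ) * (eA * thetaP eB) =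
    eA ^ 3 - eB ^ 2 := by
  have h1 := ((PSConv.const (h := 1) (3 : ℂ)).mul (convB.mul (psConv_D convA))).add
    ((PSConv.const (h := 1) (2 : ℂ)).mul (convA.mul (psConv_D convB))).neg
  have h2 := (convA.pow 3).add (convB.pow 2).neg
  have h3 : ((fun _ : ℍ => (3 : ℂ)) * ((E₆ : ℍ → ℂ) * normalizedDerivOfComplex (E₄ : ℍ → ℂ))) +
      -((fun _ : ℍ => (2 : ℂ)) * ((E₄ : ℍ → ℂ) * normalizedDerivOfComplex (E₆ : ℍ → ℂ))) =
      (E₄ : ℍ → ℂ) ^ 3 + -(E₆ : ℍ → ℂ) ^ 2 := by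
    funext z
    simp only [Pi.mul_apply, Pi.add_apply, Pi.neg_apply, Pi.pow_apply]
    have e4 := congrFun serre_E₄ z
    have e6 := congrFun serre_E₆ z
    rw [serreDerivative_apply] at e4 e6
    simp only [Pi.smul_apply, Pi.mul_apply, smul_eq_mul] at e4 e6
    push_cast at e4 e6
    linear_combination 3 * E₆ z * e4 - 2 * E₄ z * e6
  rw [h3] at h1
  have h4 := h1.unique h2
  rw [← sub_eq_add_neg, ← sub_eq_add_neg] at h4
  exact h4

/-- the algebraic identity behind `θ j = - E₄² E₆ / Δ` -/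
theorem theta_j_alg {R : Type*} [CommRing R] [IsDomain R] {a b d j ta tb td tj : R}
    (h1728 : (1728 : R) ≠ 0) (hd : d ≠ 0) (h1 : j * d = a ^ 3) (h2 : 1728 * d = a ^ 3 - b ^ 2)
    (h3 : 3 * (b * ta) - 2 * (a * tb) = a ^ 3 - b ^ 2) (hj : j * td + d * tj = 3 * (a ^ 2 * ta))
    (hd' : 1728 * td = 3 * (a ^ 2 * ta) - 2 * (b * tb)) : d * tj = - (a ^ 2 * b) := by
  -- multiply by `1728 d`
  have key : 1728 * d * (d * tj) = 1728 * d * (-(a ^ 2 * b)) := by
    have e1 : 1728 * d * (d * tj) = 1728 * d * (3 * (a ^ 2 * ta)) - a ^ 3 * (1728 * td) := by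
      rw [← h1]; linear_combination 1728 * d * hj
    rw [e1, hd', h2]
    linear_combination (-a ^ 2 * b) * h3
  exact mul_left_cancel₀ (mul_ne_zero h1728 hd) key

theorem six_alg {R : Type*} [CommRing R] [IsDomain R] {a b d j tj : R}
    (hd : d ≠ 0) (h1 : j * d = a ^ 3) (h2 : 1728 * d = a ^ 3 - b ^ 2)
    (h3 : d * tj = - (a ^ 2 * b)) : tj ^ 6 = d * j ^ 4 * (j - 1728) ^ 3 := by
  have hb : b ^ 2 = (j - 1728) * d := by linear_combination h2 - h1
  have key : d ^ 6 * tj ^ 6 = d ^ 6 * (d * j ^ 4 * (j - 1728) ^ 3) := by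
    have e1 : d ^ 6 * tj ^ 6 = (a ^ 3) ^ 4 * (b ^ 2) ^ 3 := by
      rw [← mul_pow, h3]; ring
    rw [e1, hb, ← h1]; ring
  exact mul_left_cancel₀ (pow_ne_zero 6 hd) key

local notation "ofPS" => HahnSeries.ofPowerSeries ℤ ℂ

theorem theta_ofNat {R : Type*} [CommRing R] (n : ℕ) (f : LaurentSeries R) :
    theta R ((n : LaurentSeries R) * f) = (n : LaurentSeries R) * theta R f := by
  have h5 : ((n : LaurentSeries R)) = HahnSeries.C (n : R) :=
    (map_natCast (HahnSeries.C : R →+* LaurentSeries R) n).symm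
  rw [h5, theta_C_mul]

theorem theta_j_complex : (theta ℂ (jqModC ℂ)) ^ 6 =
    deltaC ℂ * (jqModC ℂ) ^ 4 * (jqModC ℂ - 1728) ^ 3 := by
  have hd : deltaC ℂ ≠ 0 := deltaC_ne_zero ℂ
  have hD : ofPS eD = deltaC ℂ := (deltaC_eq ℂ).symm
  have h1 : jqModC ℂ * deltaC ℂ = (ofPS eA) ^ 3 := by
    rw [jqModC_mul_deltaC]; exact map_pow ofPS _ 3
  have h2 : 1728 * deltaC ℂ = (ofPS eA) ^ 3 - (ofPS eB) ^ 2 := by
    have := congrArg ofPS eD_eq
    rw [map_mul, map_sub, map_pow, map_pow, hD] at this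
    rw [← this]
    congr 1
    rw [HahnSeries.ofPowerSeries_C]
    exact (map_ofNat (HahnSeries.C : ℂ →+* LaurentSeries ℂ) 1728).symm
  have h3 : 3 * (ofPS eB * theta ℂ (ofPS eA)) - 2 * (ofPS eA * theta ℂ (ofPS eB)) =
      (ofPS eA) ^ 3 - (ofPS eB) ^ 2 := by
    have := congrArg ofPS ramanujan
    simp only [map_mul, map_sub, map_pow, ofPS_thetaP, HahnSeries.ofPowerSeries_C] at this
    rw [← this]
    have e3 : (HahnSeries.C (3 : ℂ) : LaurentSeries ℂ) = 3 :=
      map_ofNat (HahnSeries.C : ℂ →+* LaurentSeries ℂ) 3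
    have e2 : (HahnSeries.C (2 : ℂ) : LaurentSeries ℂ) = 2 :=
      map_ofNat (HahnSeries.C : ℂ →+* LaurentSeries ℂ) 2
    rw [e3, e2]
  have hj : jqModC ℂ * theta ℂ (deltaC ℂ) + deltaC ℂ * theta ℂ (jqModC ℂ) =
      3 * ((ofPS eA) ^ 2 * theta ℂ (ofPS eA)) := by
    rw [← theta_mul, h1, theta_pow]
    norm_num
  have hd' : 1728 * theta ℂ (deltaC ℂ) = 3 * ((ofPS eA) ^ 2 * theta ℂ (ofPS eA)) -
      2 * (ofPS eB * theta ℂ (ofPS eB)) := by
    have e1 := congrArg (theta ℂ) h2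
    have e2 : theta ℂ (1728 * deltaC ℂ) = 1728 * theta ℂ (deltaC ℂ) := by
      have := theta_ofNat 1728 (deltaC ℂ)
      exact_mod_cast this
    rw [e2, map_sub, theta_pow, theta_pow] at e1
    rw [e1]
    norm_num
  have h1728 : (1728 : LaurentSeries ℂ) ≠ 0 := by
    rw [← map_ofNat (HahnSeries.C : ℂ →+* LaurentSeries ℂ) 1728]
    exact (map_ne_zero _).2 (by norm_num)
  exact six_alg hd h1 h2 (theta_j_alg h1728 hd h1 h2 h3 hj hd')

theorem coeffMap_inj {R S : Type*} [CommRing R] [CommRing S] (f : R →+* S) (hf : Injective f) :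
    Injective (coeffMap f) := by
  intro x y h
  ext n
  have := congrArg (fun z => HahnSeries.coeff z n) h
  simp only [coeffMap_coeff] at this
  exact hf this

theorem theta_j_int : (theta ℤ (jqModC ℤ)) ^ 6 =
    deltaC ℤ * (jqModC ℤ) ^ 4 * (jqModC ℤ - 1728) ^ 3 := by
  apply coeffMap_inj (Int.castRingHom ℂ) Int.cast_injective
  rw [map_pow, ← theta_coeffMap, map_mul, map_mul, map_pow, map_pow, map_sub, coeffMap_jqModC,
    coeffMap_deltaC, map_ofNat]
  exact theta_j_complex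

/-- **The derivative of `j`** -/
theorem theta_j_pow_six (R : Type*) [CommRing R] : (theta R (jqModC R)) ^ 6 =
    deltaC R * (jqModC R) ^ 4 * (jqModC R - 1728) ^ 3 := by
  have h := congrArg (coeffMap (Int.castRingHom R)) theta_j_int
  rwa [map_pow, ← theta_coeffMap, map_mul, map_mul, map_pow, map_pow, map_sub, coeffMap_jqModC,
    coeffMap_deltaC, map_ofNat] at h

end Fermat.Agent.QComp
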