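import Fermat.Agent.QComp.LevelPar

set_option autoImplicit false

namespace Fermat.Agent.QComp

open CongruenceSubgroup ModularCurve ModularCurve.Period Fermat.Agent.Period Fermat.Agent.Top
  CuspForm ModularFormClass Fermat.Agent.Newform Fermat.Agent.Petersson Fermat.Agent.Eigenform
  Fermat.Agent.RepTwo
open scoped TensorProduct

/-- extension of scalars of integral parabolic homomorphisms -/
noncomputable def parLift (N : ℕ) : ℂ ⊗[ℤ] (parM N ℤ) →ₗ[ℂ] (Additive (Gamma0 N) →+ ℂ) :=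
  LinearMap.liftBaseChange ℂ (AddMonoidHom.toIntLinearMap
    ((AddMonoidHom.compHom (Int.castAddHom ℂ)).comp (parM N ℤ).subtype))

theorem parLift_tmul (N : ℕ) (c : ℂ) (φ : parM N ℤ) :
    parLift N (c ⊗ₜ φ) = c • (Int.castAddHom ℂ).comp φ.1 := by
  rw [parLift, LinearMap.liftBaseChange_tmul]
  rfl

theorem parLift_hop (N : ℕ) (ℓ : Nat.Primes) (x : ℂ ⊗[ℤ] (parM N ℤ)) :
    parLift N ((hopPar N ℤ ℓ).baseChange ℂ x) = hop N ℓ (parLift N x) := by
  induction x using TensorProduct.induction_on with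
  | zero => simp
  | tmul c φ =>
    rw [LinearMap.baseChange_tmul, parLift_tmul, parLift_tmul, hop_smul, hop_comp_left]
    rfl
  | add x y hx hy => rw [map_add, map_add, map_add, map_add, hx, hy]

theorem parLift_parabolic (N : ℕ) (x : ℂ ⊗[ℤ] (parM N ℤ)) :
    IsParabolicHom (Gamma0 N) (parLift N x) := by
  change parLift N x ∈ parM N ℂ
  induction x using TensorProduct.induction_on with
  | zero => rw [map_zero]; exact zero_mem _
  | tmul c φ =>
    rw [parLift_tmul]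
    intro γ hγ
    change c * (((φ.1 (Additive.ofMul γ) : ℤ)) : ℂ) = 0
    rw [φ.2 γ hγ, Int.cast_zero, mul_zero]
  | add x y hx hy => rw [map_add]; exact add_mem hx hy

theorem parLift_injective (N : ℕ) [NeZero N] : Function.Injective (parLift N) := by
  classical
  rw [injective_iff_map_eq_zero]
  intro x hx
  obtain ⟨s, hs⟩ := Group.fg_def.mp (inferInstance : Group.FG (Gamma0 N))
  let r : parM N ℤ →ₗ[ℤ] (s → ℤ) :=
    AddMonoidHom.toIntLinearMap
    { toFun := fun φ x ↦ φ.1 (Additive.ofMul (x : Gamma0 N))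
      map_zero' := rfl
      map_add' := fun _ _ ↦ rfl }
  have hr : Function.Injective r := by
    intro φ ψ h
    have h1 : Subgroup.closure (s : Set (Gamma0 N)) ≤
        (AddMonoidHom.toMultiplicativeRight φ.1).eqLocus
        (AddMonoidHom.toMultiplicativeRight ψ.1) := by
      rw [Subgroup.closure_le]
      intro x hx
      exact congrFun h ⟨x, hx⟩
    apply Subtype.ext
    ext x
    have h2 : x ∈ Subgroup.closure (s : Set (Gamma0 N)) := by rw [hs]; trivial
    exact h1 h2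
  have hrK : Function.Injective (r.baseChange ℂ) :=
    Module.Flat.lTensor_preserves_injective_linearMap (M := ℂ) r hr
  apply hrK
  rw [map_zero]
  let e : ℂ ⊗[ℤ] (s → ℤ) ≃ₗ[ℂ] (s → ℂ ⊗[ℤ] ℤ) := TensorProduct.piRight ℤ ℂ ℂ _
  apply e.injective
  rw [map_zero]
  ext i
  let ρ : ℂ ⊗[ℤ] ℤ ≃ₗ[ℂ] ℂ := TensorProduct.AlgebraTensorModule.rid ℤ ℂ ℂ
  apply ρ.injective
  have h1 : ∀ z : ℂ ⊗[ℤ] (parM N ℤ), ρ (e (r.baseChange ℂ z) i) =
      parLift N z (Additive.ofMul (i : Gamma0 N)) := by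
    intro z
    induction z using TensorProduct.induction_on with
    | zero => simp
    | tmul c φ =>
      rw [LinearMap.baseChange_tmul, parLift_tmul]
      change ρ (c ⊗ₜ (r φ i)) = _
      rw [TensorProduct.AlgebraTensorModule.rid_tmul]
      change (r φ i) • c = c * (((φ.1 (Additive.ofMul (i : Gamma0 N)) : ℤ)) : ℂ)
      rw [zsmul_eq_mul, mul_comm]
      rfl
    | add x y hx hy => rw [map_add, map_add, Pi.add_apply, map_add, hx, hy, map_add]; rfl
  rw [h1, hx, Pi.zero_apply, map_zero]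
  rfl

/-- **Strong multiplicity one across levels, algebraic form.** A polynomial in the good Hecke
operators which kills the parabolic cohomology of level `N` but not a newform of level `M`,
`M ∤ N`. -/
theorem exists_killing {M : ℕ} [NeZero M] {g : CuspForm (Gamma0 M) 2}
    (hg : g.IsNewform) (N : ℕ) [NeZero N] (hMN : ¬ M ∣ N) (N' : ℕ) (S' : Set ℕ) (s : Finset ℕ)
    (hs : ∀ q : ℕ, q.Prime → q ∣ M → q ∈ s)
    (hs' : ∀ ℓ : ℕ, ℓ.Prime → ℓ ∉ s → ¬ ℓ ∣ N' ∧ ℓ ∉ S') :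
    ∃ t : HeckePoly N' S', evalPar N ℤ (polyIncl N' S' t) = 0 ∧
      MvPolynomial.aeval (fun i : GoodPrime N' S' => qCoeff g i) t ≠ (0 : ℂ) := by
  by_contra hcon
  push Not at hcon
  let φ : HeckePoly N' S' →+* Module.End ℤ (parM N ℤ) :=
    ((evalPar N ℤ).comp (polyIncl N' S')).toRingHom
  let χ : HeckePoly N' S' →+* ℂ :=
    (MvPolynomial.aeval (fun i : GoodPrime N' S' => qCoeff g i) :
      HeckePoly N' S' →ₐ[ℤ] ℂ).toRingHom
  have hfree : Module.Free ℤ (parM N ℤ) := inferInstance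
  obtain ⟨x, hx0, hx⟩ := exists_eigenvector_of_ker_le_int φ χ (fun t ht => hcon t ht)
  apply hMN
  refine level_dvd_of_eigen_parabolic hg N s hs (parLift_parabolic N x) ?_ fun ℓ hℓ => ?_
  · intro h0
    exact hx0 (parLift_injective N (h0.trans (map_zero _).symm))
  · have h1 := hx (MvPolynomial.X ⟨ℓ, ℓ.2, (hs' ℓ ℓ.2 hℓ).1, (hs' ℓ ℓ.2 hℓ).2⟩)
    have h2 : φ (MvPolynomial.X ⟨ℓ, ℓ.2, (hs' ℓ ℓ.2 hℓ).1, (hs' ℓ ℓ.2 hℓ).2⟩) =
        hopPar N ℤ ℓ := by
      change evalPar N ℤ (polyIncl N' S' _) = _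
      rw [polyIncl_X]
      exact evalEnd_X _ (hopPar_comm N ℤ) ℓ
    have h3 : χ (MvPolynomial.X ⟨ℓ, ℓ.2, (hs' ℓ ℓ.2 hℓ).1, (hs' ℓ ℓ.2 hℓ).2⟩) = qCoeff g ℓ :=
      MvPolynomial.aeval_X _ _
    rw [h2, h3] at h1
    rw [← parLift_hop, h1, map_smul]

end Fermat.Agent.QComp
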