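import Fermat.Agent.Newform.Eigenspaces
import Fermat.Agent.RepTwo.ESData

/-!
# The homomorphism between Hecke algebras of different levels
-/

set_option autoImplicit false

namespace Fermat.Agent.QComp

open CongruenceSubgroup CuspForm Fermat.Agent.Newform ModularFormClass

theorem VLin_one_injective {M N : ℕ} [NeZero M] [NeZero N] (h : M * 1 ∣ N) :
    Function.Injective (VLin (M := M) (N := N) 2 one_ne_zero h) := by
  intro f g hfg
  have h1 := congrArg (fun F : CuspForm (Gamma0 N) 2 => (F : UpperHalfPlane → ℂ)) hfg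
  simp only [coe_VLin, V_one] at h1
  exact DFunLike.coe_injective h1

/-- **Restriction of Hecke operators to a lower level.** -/
theorem exists_levelMap (M N : ℕ) [NeZero M] [NeZero N] (h : M ∣ N) (S S' : Set ℕ) (hS : S ⊆ S')
    (hN : ∀ q : ℕ, q.Prime → q ∣ N → q ∈ S') :
    ∃ π : heckeAlgebra N 2 S' →+* heckeAlgebra M 2 S,
      ∀ (ℓ : ℕ) (hℓ : ℓ.Prime) (hℓN : ¬ ℓ ∣ N) (hℓS' : ℓ ∉ S') (hℓM : ¬ ℓ ∣ M) (hℓS : ℓ ∉ S),
        π (heckeAlgebra.T hℓ hℓN hℓS') = heckeAlgebra.T hℓ hℓM hℓS := by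
  classical
  have h1 : M * 1 ∣ N := by rwa [mul_one]
  set ι := VLin (M := M) (N := N) 2 one_ne_zero h1 with hι
  have hinj : Function.Injective ι := VLin_one_injective h1
  have hT : ∀ (ℓ : ℕ) (hℓ : ℓ.Prime) (hℓN : ¬ ℓ ∣ N) (hℓM : ¬ ℓ ∣ M) (f : CuspForm (Gamma0 M) 2),
      heckeTLin 2 hℓ hℓN (ι f) = ι (heckeTLin 2 hℓ hℓM f) := by
    intro ℓ hℓ hℓN hℓM f
    have h2 := hOp_VLin one_ne_zero h1 ⟨ℓ, hℓ⟩
      (fun hd => hℓ.one_lt.ne' (Nat.dvd_one.mp hd)) (iff_of_false hℓM hℓN) f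
    rw [hOp_of_not_dvd (q := ⟨ℓ, hℓ⟩) hℓN, hOp_of_not_dvd (q := ⟨ℓ, hℓ⟩) hℓM] at h2
    exact h2
  have hex : ∀ (t : Module.End ℂ (CuspForm (Gamma0 N) 2)), t ∈ heckeAlgebra N 2 S' →
      ∃ t' : Module.End ℂ (CuspForm (Gamma0 M) 2), t' ∈ heckeAlgebra M 2 S ∧
        ∀ f : CuspForm (Gamma0 M) 2, t (ι f) = ι (t' f) := by
    intro t ht
    induction ht using Algebra.adjoin_induction with
    | mem x hx =>
      rcases hx with ⟨ℓ, hℓ, hℓN, hℓS, rfl⟩ | ⟨q, hqN, hq, hqS, rfl⟩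
      · have hℓM : ¬ ℓ ∣ M := fun hd => hℓN (hd.trans h)
        exact ⟨heckeTLin 2 hℓ hℓM, heckeTLin_mem_heckeAlgebra hℓ hℓM (fun hh => hℓS (hS hh)),
          fun f => hT ℓ hℓ hℓN hℓM f⟩
      · exact absurd (hN q hq hqN) hqS
    | algebraMap c => exact ⟨algebraMap ℤ _ c, Subalgebra.algebraMap_mem _ c, fun f => by simp⟩
    | add x y _ _ hx hy =>
      obtain ⟨a, ha', ha⟩ := hx
      obtain ⟨b, hb', hb⟩ := hy
      exact ⟨a + b, add_mem ha' hb', fun f => by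
        rw [LinearMap.add_apply, LinearMap.add_apply, map_add, ← ha, ← hb]⟩
    | mul x y _ _ hx hy =>
      obtain ⟨a, ha', ha⟩ := hx
      obtain ⟨b, hb', hb⟩ := hy
      exact ⟨a * b, mul_mem ha' hb', fun f => by
        rw [Module.End.mul_apply, Module.End.mul_apply, ← ha, ← hb]⟩
  choose! π hπ1 hπ2 using hex
  have huniq : ∀ a b : Module.End ℂ (CuspForm (Gamma0 M) 2),
      (∀ f, ι (a f) = ι (b f)) → a = b := fun a b hab =>
    LinearMap.ext fun f => hinj (hab f)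
  refine ⟨{ toFun := fun t => ⟨π t, hπ1 t t.2⟩
            map_one' := Subtype.ext ?_
            map_mul' := fun x y => Subtype.ext ?_
            map_zero' := Subtype.ext ?_
            map_add' := fun x y => Subtype.ext ?_ }, ?_⟩
  · refine huniq _ _ fun f => ?_
    exact (hπ2 _ (one_mem _) f).symm
  · refine huniq _ _ fun f => ?_
    change ι (π (x * y : Module.End ℂ (CuspForm (Gamma0 N) 2)) f) = ι (π x (π y f))
    rw [← hπ2 _ (mul_mem x.2 y.2), ← hπ2 _ x.2, ← hπ2 _ y.2]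
    rfl
  · refine huniq _ _ fun f => ?_
    exact (hπ2 _ (zero_mem _) f).symm.trans (map_zero ι).symm
  · refine huniq _ _ fun f => ?_
    change ι (π (x + y : Module.End ℂ (CuspForm (Gamma0 N) 2)) f) = ι (π x f + π y f)
    rw [← hπ2 _ (add_mem x.2 y.2), map_add, ← hπ2 _ x.2, ← hπ2 _ y.2]
    rfl
  · intro ℓ hℓ hℓN hℓS' hℓM hℓS
    refine Subtype.ext (huniq _ _ fun f => ?_)
    change ι (π (heckeTLin 2 hℓ hℓN) f) = ι (heckeTLin 2 hℓ hℓM f)
    rw [← hπ2 _ (heckeTLin_mem_heckeAlgebra hℓ hℓN hℓS'), hT ℓ hℓ hℓN hℓM]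

end Fermat.Agent.QComp
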