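import Fermat.Agent.JZ.ModularComm
import Fermat.Agent.JZ.FieldInputs
import Fermat.Agent.S24Lib.NormInputs

/-!
# The two trace maps `J₀(N * q) → J₀(N)` and their compatibility with Hecke operators
-/

set_option autoImplicit false

namespace Fermat.Agent.QComp

open AlgebraicCurve ModularCurve Fermat.Agent.FF Fermat.Agent.JZ IntermediateField

section Push

variable {K F F' F'' : Type*} [Field K] [Field F] [Field F'] [Field F''] [Algebra K F]
  [Algebra K F'] [Algebra K F'']

/-- push-forward of degree zero divisors -/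
noncomputable def degZeroPush (φ : F →ₐ[K] F') (hφ : φ.toRingHom.IsIntegral) :
    Divisor.degZero (K := K) (F := F') →+ Divisor.degZero (K := K) (F := F) :=
  ((Divisor.pushforwardAlong φ hφ).domRestrict (Divisor.degZero (K := K) (F := F'))).codRestrict _
    (fun D => Divisor.pushforwardAlong_mem_degZero φ hφ D.2)

@[simp] theorem coe_degZeroPush (φ : F →ₐ[K] F') (hφ : φ.toRingHom.IsIntegral)
    (D : Divisor.degZero (K := K) (F := F')) :
    (degZeroPush φ hφ D : Divisor K F) = Divisor.pushforwardAlong φ hφ (D : Divisor K F') := rfl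

/-- push-forward of divisor classes along a finite morphism -/
noncomputable def pushPic0 [HasPrincipalDivisors K F'] (φ : F →ₐ[K] F')
    (hφ : φ.toRingHom.IsIntegral) (hfin : FiniteAlong K φ) (hN : NormFormulaAlong K φ hfin) :
    Pic0 K F' →+ Pic0 K F :=
  QuotientAddGroup.map _ _ (degZeroPush φ hφ) (by
    rintro ⟨D, hD0⟩ hD
    simp only [AddSubgroup.mem_addSubgroupOf] at hD ⊢
    exact Divisor.isPrincipal_pushforwardAlong φ hφ hfin hN hD)

theorem pushPic0_mk [HasPrincipalDivisors K F'] (φ : F →ₐ[K] F')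
    (hφ : φ.toRingHom.IsIntegral) (hfin : FiniteAlong K φ) (hN : NormFormulaAlong K φ hfin)
    (D : Divisor.degZero (K := K) (F := F')) :
    pushPic0 φ hφ hfin hN (Pic0.mk D) = Pic0.mk (degZeroPush φ hφ D) := rfl

/-- **Push-forward commutes with correspondences**, given the commuting squares. -/
theorem push_correspondence {F₁ F₂ F₃ : Type*} [Field F₁] [Field F₂] [Field F₃] [Algebra K F₁]
    [Algebra K F₂] [Algebra K F₃] [HasPrincipalDivisors K F₁]
    [HasPrincipalDivisors K F₂] [HasPrincipalDivisors K F₃]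
    (hdeg : ∀ v : Place K F, v.deg ≠ 0) (happ₁ : SimpleApprox K F₁)
    {π : F →ₐ[K] F₁} {π' : F₂ →ₐ[K] F₃} {α₂ β₂ : F →ₐ[K] F₂} {α₂' β₂' : F₁ →ₐ[K] F₃}
    (hπ : π.toRingHom.IsIntegral) (hπ' : π'.toRingHom.IsIntegral)
    (hα₂ : α₂.toRingHom.IsIntegral) (hβ₂ : β₂.toRingHom.IsIntegral)
    (hα₂' : α₂'.toRingHom.IsIntegral) (hβ₂' : β₂'.toRingHom.IsIntegral)
    (hαπ : α₂'.comp π = π'.comp α₂) (hβπ : β₂'.comp π = π'.comp β₂)
    (hf : FiniteAlong K π) (hf' : FiniteAlong K π')
    (hN : NormFormulaAlong K π hf) (hN' : NormFormulaAlong K π' hf')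
    (hr : finrankAlong K π = finrankAlong K π')
    (hgen : ∀ S : Subfield F₃, (∀ x, π' x ∈ S) → (∀ x, β₂' x ∈ S) → S = ⊤)
    (D : Divisor K F₁) :
    Divisor.pushforwardAlong π hπ (Divisor.correspondence β₂' α₂' hβ₂' hα₂' D) =
      Divisor.correspondence β₂ α₂ hβ₂ hα₂ (Divisor.pushforwardAlong π hπ D) := by
  have h1 : (π'.comp α₂).toRingHom.IsIntegral := RingHom.IsIntegral.trans _ _ hα₂ hπ'
  have h2 : (α₂'.comp π).toRingHom.IsIntegral := RingHom.IsIntegral.trans _ _ hπ hα₂'
  rw [Divisor.correspondence_apply, Divisor.correspondence_apply,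
    pullbackAlong_pushforwardAlong hβπ hπ hβ₂ hβ₂' hπ' hf hf' hN hN'
      (normAlong_baseChange hβπ hf hf' hr hgen) happ₁,
    pushforwardAlong_comp α₂ hα₂ π' hπ' h1 hdeg, pushforwardAlong_comp π hπ α₂' hα₂' h2 hdeg]
  congr 1
  congr 1

end Push

section Modular

local notation "Qb" => AlgebraicClosure ℚ

theorem modInputs : ModularFieldInputs Qb := modularFieldInputsBar

theorem nInputs : NormInputs Qb := normInputs Qb

variable (N q : ℕ) [NeZero N] [NeZero q]

instance instIsFnFieldFN (M : ℕ) [NeZero M] : IsFnField Qb (FN Qb M) := modInputs.fnField M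

instance instHasPrincipalDivisorsFN (M : ℕ) [NeZero M] : HasPrincipalDivisors Qb (FN Qb M) :=
  FF.hasPrincipalDivisors Qb (FN Qb M)

/-- the trace `α_* : J₀(N q) → J₀(N)` along the forgetful map -/
noncomputable def trA : JZero (N * q) →+ JZero N :=
  pushPic0 (heckeAlphaBar Qb N q) (isIntegralAlong _) (finiteAlong _) (nInputs.norm _ _ _ _)

/-- the trace `β_* : J₀(N q) → J₀(N)` along the second degeneracy map -/
noncomputable def trB : JZero (N * q) →+ JZero N :=
  pushPic0 (heckeBetaBar Qb N q) (isIntegralAlong _) (finiteAlong _) (nInputs.norm _ _ _ _)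

theorem trA_mk (D : Divisor.degZero (K := Qb) (F := FN Qb (N * q))) :
    trA N q (Pic0.mk D) = Pic0.mk (degZeroPush (heckeAlphaBar Qb N q) (isIntegralAlong _) D) := rfl

theorem trB_mk (D : Divisor.degZero (K := Qb) (F := FN Qb (N * q))) :
    trB N q (Pic0.mk D) = Pic0.mk (degZeroPush (heckeBetaBar Qb N q) (isIntegralAlong _) D) := rfl

end Modular

end Fermat.Agent.QComp
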