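import Fermat.Agent.QComp.TwoClass
import Fermat.Agent.QComp.Traces
import Fermat.Agent.QVal.LevelOneB
import Fermat.Agent.Cusp.Fricke
import Fermat.Agent.Red.GenusEq

/-!
# The two components of `X₀(M q)` modulo `q`
-/

set_option autoImplicit false
set_option linter.unusedSectionVars false
set_option linter.style.haveILetI false

noncomputable section

open AlgebraicCurve ModularCurve IntermediateField Module

namespace Fermat.Agent.QComp

open Fermat.Agent.FF Fermat.Agent.Red Fermat.Agent.QVal Fermat.Agent.JZ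

local notation "Qb" => AlgebraicClosure ℚ

section Lift

variable {K k : Type*} [Field K] [Field k] {A : ValuationSubring K} {π : A →+* k}
  {F Fk : Type*} [Field F] [Algebra K F] [Field Fk] [Algebra k Fk]
  {R : ConstRed A π F Fk} {x : F} {xb : Fk}
  [IsAlgClosed K] [CharZero K] [IsAlgClosed k] [IsFnField K F] [IsFnField k Fk]

theorem exists_lift_riemannRochSpace (hc : GoodRed.IsCoord R x xb)
    (hC : ∀ z, IsIntegral (Algebra.adjoin k {xb}) z →
      ∃ f : F, R.IsRed f z ∧ IsIntegral (Algebra.adjoin K {x}) f)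
    (hC' : ∀ z, IsIntegral (Algebra.adjoin k {xb⁻¹}) z →
      ∃ f : F, R.IsRed f z ∧ IsIntegral (Algebra.adjoin K {x⁻¹}) f)
    (hπ : Function.Surjective π) (hsep : Algebra.IsSeparable k⟮xb⟯ Fk) :
    ∃ m₀ : ℕ, ∀ m, m₀ ≤ m → ∀ c ∈ riemannRochSpace (m • RR.poleDiv (K := k) xb),
      ∃ f ∈ riemannRochSpace (m • RR.poleDiv (K := K) x), R.IsRed f c := by
  obtain ⟨m₀, hm₀⟩ := exists_redSpace_Lm hc hC hC' hπ
  refine ⟨m₀, fun m hm c hm' => ?_⟩
  haveI := hc.finite
  haveI := hc.finite'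
  haveI : CharZero K⟮x⟯ := charZero_of_injective_algebraMap (algebraMap K K⟮x⟯).injective
  rw [← Lm_eq_riemannRochSpace hc.ne_zero'] at hm'
  obtain ⟨f, hf, hfc⟩ := hm₀ m hm hm'
  rw [Lm_eq_riemannRochSpace hc.ne_zero] at hf
  exact ⟨f, hf, hfc⟩

end Lift

section Base

variable {q : ℕ} [hqf : Fact q.Prime] {A : ValuationSubring Qb}

theorem isArch_of_liesOverPrime (hA : A.LiesOverPrime q) : IsArch A := by
  intro a ha c
  have h1 : (a : Qb) ∈ A.nonunits := A.coe_mem_nonunits_iff.2 ((IsLocalRing.mem_maximalIdeal _).2 ha)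
  obtain ⟨N, hN⟩ := exists_pow_mul_mem hA h1 c
  refine ⟨N, ?_⟩
  rw [mul_comm]
  exact A.nonunits_le (hN N le_rfl)

theorem exists_nonunit (hA : A.LiesOverPrime q) : ∃ c : A, ¬ IsUnit c ∧ c ≠ 0 := by
  refine ⟨(q : A), ?_, ?_⟩
  · have h1 : ((q : A) : Qb) ∈ A.nonunits := by
      have := hA
      rw [ValuationSubring.LiesOverPrime] at this
      simpa using this
    exact (IsLocalRing.mem_maximalIdeal _).1 (A.coe_mem_nonunits_iff.1 h1)
  · intro h
    have h1 : ((q : A) : Qb) = 0 := by rw [h]; rfl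
    have h2 : (q : Qb) = 0 := by simpa using h1
    exact hqf.out.ne_zero (by exact_mod_cast h2)

end Base

section Fields

instance instIsFnFieldFB (N : ℕ) [NeZero N] : IsFnField Qb (FB N) := isFnField_bar N

variable (M q : ℕ) [NeZero M] [NeZero q] [hqf : Fact q.Prime]

/-- `j ∈ L(q (j_q)_∞)` on `X₀(q)` -/
theorem pole_prime : Cusp.jE Qb q ∈
    riemannRochSpace (q • RR.poleDiv (K := Qb) (Cusp.jEN Qb q)) := by
  rw [mem_Lm]
  intro P
  right
  rcases lt_or_ge (P.ord (Cusp.jE Qb q)) 0 with hP | hP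
  · rcases Cusp.eq_cusp q P hP with rfl | rfl
    · rw [Cusp.cuspInf_j, Cusp.cuspInf_jN]
      have : (0 : ℤ) ≤ max 0 (- -(q : ℤ)) := le_max_left _ _
      rw [neg_neg, max_eq_right (by positivity)]
      have h1 : (1 : ℤ) ≤ q := by exact_mod_cast hqf.out.one_lt.le
      nlinarith
    · rw [Cusp.cuspZero_j, Cusp.cuspZero_jN]
      simp
  · have : (0 : ℤ) ≤ max 0 (-P.ord (Cusp.jEN Qb q)) := le_max_left _ _
    positivity

/-- `j ∈ L(q (j_q)_∞)` on `X₀(M q)` -/
theorem pole_al1 : al1 M q (jB M) ∈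
    riemannRochSpace (q • RR.poleDiv (K := Qb) (be1 M q (jB M))) := by
  have hle : FN Qb q ≤ FN Qb (M * q) := FN_mono (dvd_mul_left q M)
  have h := mem_Lm_of_algHom (IntermediateField.inclusion hle) (x := Cusp.jEN Qb q) (by
    have h1 := Cusp.transcendental_jE q
    intro h2
    apply h1
    have h3 := h2.algHom (Cusp.fricke q : FN Qb q →ₐ[Qb] FN Qb q)
    have h4 : (Cusp.fricke q : FN Qb q →ₐ[Qb] FN Qb q) (Cusp.jEN Qb q) = Cusp.jE Qb q :=
      Cusp.fricke_jN q
    rwa [h4] at h3) (pole_prime q)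
  have e1 : IntermediateField.inclusion hle (Cusp.jE Qb q) = al1 M q (jB M) := by
    apply Subtype.ext
    have h0 : ((Cusp.jE Qb q : FN Qb q) : LaurentSeries Qb) = jqModC Qb :=
      ModFn.coeffMap_jqModC (algebraMap ℚ Qb)
    rw [coe_al1, coe_jB, ← h0]
    rfl
  have e2 : IntermediateField.inclusion hle (Cusp.jEN Qb q) = be1 M q (jB M) := by
    apply Subtype.ext
    have h0 : ((Cusp.jE Qb q : FN Qb q) : LaurentSeries Qb) = jqModC Qb :=
      ModFn.coeffMap_jqModC (algebraMap ℚ Qb)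
    rw [coe_be1, coe_jB, ← h0]
    rfl
  rw [e1, e2] at h
  exact h

end Fields

section Level

variable {k : Type*} [Field k] {A : ValuationSubring Qb} {π : A →+* k} {M q : ℕ} [NeZero M]
  [NeZero q] [hqf : Fact q.Prime]

/-- `f ↦ f(X^q)` on the function field modulo `q` -/
def FrK [CharP k q] [PerfectRing k q] :
    modularFunctionFieldFullC k M →ₐ[k] modularFunctionFieldFullC k M where
  toFun z := ⟨qExpand k q z, by
    obtain ⟨w, hw⟩ := phiK_surjective (k := k) q M z
    rw [← hw, ← pow_eq_phiK]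
    exact pow_mem w.2 q⟩
  map_one' := Subtype.ext (map_one _)
  map_mul' a b := Subtype.ext (map_mul _ _ _)
  map_zero' := Subtype.ext (map_zero _)
  map_add' a b := Subtype.ext (map_add _ _ _)
  commutes' a := Subtype.ext (QVal.qExpand_algebraMap q a)

theorem coe_FrK [CharP k q] [PerfectRing k q] (z : modularFunctionFieldFullC k M) :
    (FrK (q := q) z : LaurentSeries k) = qExpand k q (z : LaurentSeries k) := rfl

theorem FrK_phiK [CharP k q] [PerfectRing k q] (z : modularFunctionFieldFullC k M) :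
    FrK (q := q) (phiK q M z) = z ^ q := by
  apply Subtype.ext
  rw [coe_FrK, ← pow_eq_phiK]
  rfl

theorem FrK_xj [CharP k q] [PerfectRing k q] :
    FrK (q := q) (RedQ.xj k M) = RedQ.xj k M ^ q := by
  rw [← FrK_phiK, phiK_xj]

theorem finrank_deg (hM : ¬ q ∣ M) [CharP k q] :
    finrank Qb⟮al1 M q (jB M)⟯ (FB (M * q)) =
      (q + 1) * finrank k⟮RedQ.xj k M⟯ (modularFunctionFieldFullC k M) := by
  have h1 : al1 M q (jB M) = jB (M * q) := Subtype.ext (coe_al1 M q _)
  have h2 := finrank_jB (M * q)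
  rw [h1, h2, RedQ.finrank_charP M k q hM, Gam0.dedekindPsi_mul_of_not_dvd (Nat.pos_of_ne_zero
    (NeZero.ne M)) hqf.out hM, mul_comm]

variable (hA : A.LiesOverPrime q) (hπ : ∀ a : A, π a = 0 ↔ ¬ IsUnit a)
  (hs : Function.Surjective π) (hM : ¬ q ∣ M)

theorem twoLevel [CharP k q] [PerfectRing k q] [IsAlgClosed k]
    [IsFnField k (modularFunctionFieldFullC k M)] :
    TwoLevel (redX M hA hπ hs hM) (rInf1 M q hA hπ hs hM) (rZero1 M q hA hπ hs hM) (jB M)
      (RedQ.xj k M) (al1 M q) (w1 hqf.out hM : FB (M * q) →ₐ[Qb] FB (M * q)) (FrK (q := q)) q where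
  hq := hqf.out.two_le
  ww := w1_w1 hqf.out hM
  r0 := isRed_jB
  t0 := (isCoord_jB hA hπ hs hM).trans
  redα f z h := isRed_inf_al1 h
  redβ f z h := by
    change (rInf1 M q hA hπ hs hM).IsRed (w1 hqf.out hM (al1 M q f)) _
    rw [w1_al, isRed_rInf1, coe_FrK]
    exact gRed_be1 (isRed_redX.1 h)
  red2 f z := isRed_rZero1
  Frj := FrK_xj
  pole := by
    have h := pole_al1 M q
    rwa [← w1_al hqf.out hM] at h
  deg := finrank_deg hM
  lift := exists_lift_riemannRochSpace (isCoord_jB hA hπ hs hM) (chart_jB hA hπ hs hM).lift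
    (chart_jB_inv hA hπ hs hM).lift hs (RedQ.isSeparable_charP M k q hM)

end Level

end Fermat.Agent.QComp
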