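import Mathlib.Algebra.Polynomial.GroupRingAction
import Mathlib.GroupTheory.GroupAction.Basic
import Mathlib.Algebra.Polynomial.Monic
import Mathlib.Algebra.Ring.Action.Basic
import Mathlib.Algebra.Polynomial.Eval.Defs

/-!
# Orbit polynomials
-/

set_option autoImplicit false
set_option linter.unusedSectionVars false

open Polynomial

namespace Fermat.Agent.QComp

variable {G : Type*} [Group G] {B : Type*} [CommRing B] [MulSemiringAction G B]

/-- the orbit polynomial of an element with finite orbit. -/
noncomputable def orbPoly {b : B} (hfin : (MulAction.orbit G b).Finite) : B[X] :=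
  ∏ c ∈ hfin.toFinset, (X - C c)

theorem orbPoly_monic {b : B} (hfin : (MulAction.orbit G b).Finite) : (orbPoly hfin).Monic :=
  monic_prod_of_monic _ _ fun _ _ => monic_X_sub_C _

theorem orbPoly_root {b : B} (hfin : (MulAction.orbit G b).Finite) :
    (orbPoly hfin).eval b = 0 := by
  rw [orbPoly, eval_prod]
  apply Finset.prod_eq_zero (i := b)
  · rw [Set.Finite.mem_toFinset]; exact MulAction.mem_orbit_self b
  · simp

theorem smul_orbPoly {b : B} (hfin : (MulAction.orbit G b).Finite) (g : G) :
    g • orbPoly hfin = orbPoly hfin := by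
  classical
  rw [orbPoly, Finset.smul_prod']
  refine Finset.prod_bij (fun c _ => g • c) (fun c hc => ?_) (fun a _ b _ h => ?_) (fun c hc => ?_)
    (fun c _ => ?_)
  · rw [Set.Finite.mem_toFinset] at hc ⊢
    obtain ⟨g', rfl⟩ := hc
    exact ⟨g * g', mul_smul _ _ _⟩
  · exact smul_left_cancel g h
  · refine ⟨g⁻¹ • c, ?_, smul_inv_smul _ _⟩
    rw [Set.Finite.mem_toFinset] at hc ⊢
    obtain ⟨g', rfl⟩ := hc
    exact ⟨g⁻¹ * g', mul_smul _ _ _⟩
  · rw [smul_sub, smul_X, smul_C]

theorem smul_orbPoly_coeff {b : B} (hfin : (MulAction.orbit G b).Finite) (g : G) (i : ℕ) :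
    g • (orbPoly hfin).coeff i = (orbPoly hfin).coeff i := by
  conv_rhs => rw [← smul_orbPoly hfin g]
  rw [Polynomial.coeff_smul]

theorem orbPoly_coeff_mem {b : B} (hfin : (MulAction.orbit G b).Finite) (S : Subring B)
    (hS : ∀ g : G, g • b ∈ S) (i : ℕ) : (orbPoly hfin).coeff i ∈ S := by
  have h : ∀ s : Finset B, (∀ c ∈ s, c ∈ S) → ∀ i, (∏ c ∈ s, (X - C c)).coeff i ∈ S := by
    classical
    intro s
    induction s using Finset.induction_on with
    | empty =>
      intro _ i
      rw [Finset.prod_empty, coeff_one]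
      split_ifs
      · exact one_mem _
      · exact zero_mem _
    | insert a s ha ih =>
      intro hs i
      rw [Finset.prod_insert ha, sub_mul, coeff_sub, coeff_C_mul]
      have h1 := ih fun c hc => hs c (Finset.mem_insert_of_mem hc)
      refine sub_mem ?_ (mul_mem (hs a (Finset.mem_insert_self _ _)) (h1 i))
      cases i with
      | zero => rw [coeff_X_mul_zero]; exact zero_mem _
      | succ n => rw [coeff_X_mul]; exact h1 n
  refine h _ (fun c hc => ?_) i
  rw [Set.Finite.mem_toFinset] at hc
  obtain ⟨g, rfl⟩ := hc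
  exact hS g

end Fermat.Agent.QComp
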