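import Fermat.Agent.QComp.Rel
import Fermat.Agent.QComp.GoDown

/-!
# The point condition
-/

set_option autoImplicit false
set_option linter.unusedSectionVars false
set_option linter.style.haveILetI false

open IsLocalRing AlgebraicCurve

namespace Fermat.Agent.QComp

section Point

variable {L : Type*} [Field L] {F0 : Subfield L} {κ : Type*} [Field κ] {k : Type*} [Field k]
  [Algebra k κ]

theorem const_notMem_nonunits (v : Place k κ) {c : k} (hc : c ≠ 0) :
    algebraMap k κ c ∉ v.toValuationSubring.nonunits := by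
  rw [notMem_nonunits_iff, ← map_inv₀]
  exact ⟨by simpa using hc, v.algebraMap_mem' _⟩

theorem unit_div {V : ValuationSubring L} {a b : L} (h : a - b ∈ V.nonunits)
    (hb : b ∉ V.nonunits) : a / b - 1 ∈ V.nonunits := by
  obtain ⟨hb0, hb1⟩ := notMem_nonunits_iff.1 hb
  have h1 : a / b - 1 = (a - b) * b⁻¹ := by field_simp
  rw [h1]
  exact nonunits_mul_mem h hb1

variable {S : Subring L} {κ0 : Subring κ}

theorem point_cond {ι : Type*} {c : ι → Comp F0 κ} {P : Ideal S} [hP : P.IsPrime] {v : Place k κ}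
    (hthru : ∀ i, Thru (c i).V S P → AtPl (c i) P v) (hex : ∃ i, Thru (c i).V S P)
    (honto : ∀ i, OntoChart S (c i) κ0) (hv : ∀ z ∈ κ0, z ∈ v.toValuationSubring)
    (hfrac : ∀ z ∈ v.toValuationSubring,
      ∃ a b : κ0, (b : κ) ∉ v.toValuationSubring.nonunits ∧ z = a / b)
    {f g : L} {b s : S} (hb : b ∉ P) (hs : s ∉ P) (hg0 : g ≠ 0) (hgF : g ∈ F0) {n : ℕ}
    (hn : 0 < n) (hf : f = b / s * g ^ n) (hf1 : ∀ i, Thru (c i).V S P → (c i).Is f 1)
    {ω : ι → L} {ωb : ι → k} (hω : ∀ i, (c i).Is (ω i) (algebraMap k κ (ωb i)))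
    (hωn : ∀ i, ωb i ^ n = 1) {C : L} {Cb : k} (hC : ∀ i, (c i).Is C (algebraMap k κ Cb))
    (hCb : Cb ≠ 0) (hCS : C ∈ S) (hCS' : C⁻¹ ∈ S)
    (hcoh : ∀ i, Thru (c i).V S P → ∀ γ, (c i).Is g γ →
      algebraMap k κ (ωb i) / γ - algebraMap k κ Cb ∈ v.toValuationSubring.nonunits) :
    ∃ g' : L, g' ∈ F0 ∧ Loc1 S P (f / g' ^ n) ∧ ∀ i, Thru (c i).V S P →
      ∃ z, Loc1 S P z ∧ ω i / g' - z ∈ (c i).V.nonunits := by
  obtain ⟨i0, hi0⟩ := hex
  have hC0 : C ≠ 0 := (hC i0).ne_zero (by simpa using hCb)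
  have hCP : (⟨C, hCS⟩ : S) ∉ P := by
    intro h
    apply hP.ne_top
    rw [Ideal.eq_top_iff_one]
    have h1 : (1 : S) = ⟨C⁻¹, hCS'⟩ * ⟨C, hCS⟩ := Subtype.ext (by
      push_cast
      exact (inv_mul_cancel₀ hC0).symm)
    rw [h1]
    exact Ideal.mul_mem_left _ _ h
  have hb0 := ne_zero_of_notMem hb
  have hs0 := ne_zero_of_notMem hs
  -- reductions
  have hred : ∀ i, Thru (c i).V S P → ∃ β σ γ : κ, (c i).Is b β ∧ (c i).Is s σ ∧ (c i).Is g γ ∧
      β ∉ v.toValuationSubring.nonunits ∧ σ ∉ v.toValuationSubring.nonunits ∧ γ ≠ 0 ∧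
      β ∈ v.toValuationSubring ∧ σ ∈ v.toValuationSubring ∧ σ = β * γ ^ n := by
    intro i hi
    have hat := hthru i hi
    obtain ⟨β, hβ⟩ := (c i).ex ((honto i).leF b.2) ((honto i).le b.2)
    obtain ⟨σ, hσ⟩ := (c i).ex ((honto i).leF s.2) ((honto i).le s.2)
    have hβn : β ∉ v.toValuationSubring.nonunits := by rw [← hat b β hβ]; exact hb
    have hσn : σ ∉ v.toValuationSubring.nonunits := by rw [← hat s σ hσ]; exact hs
    have hβ0 := (notMem_nonunits_iff.1 hβn).1
    have hσ0 := (notMem_nonunits_iff.1 hσn).1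
    have hgn : g ^ n = f * (s / b) := by
      rw [hf]; field_simp
    have hgV : g ∈ (c i).V := by
      apply mem_of_pow_mem hn
      rw [hgn, div_eq_mul_inv]
      exact mul_mem (Comp.mem (hf1 i hi)) (mul_mem ((honto i).le s.2) (hβ.inv_mem hβ0))
    obtain ⟨γ, hγ⟩ := (c i).ex hgF hgV
    have h1 : (c i).Is (f * s) (1 * σ) := (hf1 i hi).mul hσ
    have h2 : (c i).Is (b * g ^ n) (β * γ ^ n) := hβ.mul (hγ.pow n)
    have h3 : f * s = b * g ^ n := by rw [hf]; field_simp
    rw [h3, one_mul] at h1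
    have h4 := (c i).uniq h1 h2
    refine ⟨β, σ, γ, hβ, hσ, hγ, hβn, hσn, ?_, hv _ ((honto i).red b b.2 β hβ),
      hv _ ((honto i).red s s.2 σ hσ), h4⟩
    rintro rfl
    rw [zero_pow hn.ne', mul_zero] at h4
    exact hσ0 h4
  have hCbn := const_notMem_nonunits v hCb
  have hωb0 : ∀ i, ωb i ≠ 0 := by
    intro i h
    have := hωn i
    rw [h, zero_pow hn.ne'] at this
    exact zero_ne_one this
  refine ⟨C * g, F0.mul_mem ((honto i0).leF hCS) hgF, ⟨s * ⟨C, hCS⟩ ^ n, b, ?_, ?_, ?_⟩,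
    fun i hi => ?_⟩
  · intro h
    rcases hP.mem_or_mem h with h | h
    · exact hs h
    · exact hCP (hP.mem_of_pow_mem _ h)
  · rw [hf]
    push_cast
    field_simp
    ring
  · obtain ⟨β, σ, γ, hβ, hσ, hγ, hβn, hσn, hγ0, hβv, hσv, hrel⟩ := hred i0 hi0
    have h1 : (c i0).Is ((b - s * ⟨C, hCS⟩ ^ n : S) : L) (β - σ * (algebraMap k κ Cb) ^ n) := by
      push_cast
      exact hβ.sub (hσ.mul ((hC i0).pow n))
    rw [hthru i0 hi0 _ _ h1]
    have hu := hcoh i0 hi0 γ hγ
    set u := algebraMap k κ (ωb i0) / γ with hudef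
    have huv : u ∈ v.toValuationSubring := by
      have := add_mem (ValuationSubring.nonunits_subset hu) (v.algebraMap_mem' Cb)
      rwa [sub_add_cancel] at this
    have hun : u ∉ v.toValuationSubring.nonunits := by
      intro h
      apply hCbn
      have := sub_mem h hu
      rwa [sub_sub_cancel] at this
    have hu0 : u ≠ 0 := (notMem_nonunits_iff.1 hun).1
    have h2 : algebraMap k κ Cb / u - 1 ∈ v.toValuationSubring.nonunits :=
      unit_div (by rw [← neg_mem_iff, neg_sub]; exact hu) hun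
    have h3 := pow_sub_pow_nonunits (one_mem _) h2 n
    rw [one_pow] at h3
    have h4 : (algebraMap k κ Cb / u) ^ n = (γ * algebraMap k κ Cb) ^ n := by
      have h5 : γ * algebraMap k κ Cb = algebraMap k κ (ωb i0) * (algebraMap k κ Cb / u) := by
        rw [hudef]
        have : algebraMap k κ (ωb i0) ≠ 0 := by simpa using hωb0 i0
        field_simp
      rw [h5, mul_pow, ← map_pow, hωn, map_one, one_mul]
    rw [h4] at h3
    have h6 : β - σ * (algebraMap k κ Cb) ^ n = -((γ * algebraMap k κ Cb) ^ n - 1) * β := by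
      rw [hrel]; ring
    rw [h6]
    exact nonunits_mul_mem (neg_mem h3) hβv
  · obtain ⟨β, σ, γ, hβ, hσ, hγ, hβn, hσn, hγ0, hβv, hσv, hrel⟩ := hred i hi
    have hu := hcoh i hi γ hγ
    set u := algebraMap k κ (ωb i) / γ with hudef
    have huv : u ∈ v.toValuationSubring := by
      have := add_mem (ValuationSubring.nonunits_subset hu) (v.algebraMap_mem' Cb)
      rwa [sub_add_cancel] at this
    have hx : u / algebraMap k κ Cb - 1 ∈ v.toValuationSubring.nonunits := unit_div hu hCbn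
    have hxv : u / algebraMap k κ Cb ∈ v.toValuationSubring := by
      have := add_mem (ValuationSubring.nonunits_subset hx) (one_mem _)
      rwa [sub_add_cancel] at this
    obtain ⟨a', d', hd', had⟩ := hfrac _ hxv
    obtain ⟨xa, hxa, hxa'⟩ := (honto i).lift a' a'.2
    obtain ⟨xd, hxd, hxd'⟩ := (honto i).lift d' d'.2
    have hd0 := (notMem_nonunits_iff.1 hd').1
    have hxd0 := hxd'.ne_zero hd0
    refine ⟨xa / xd, ⟨⟨xd, hxd⟩, ⟨xa, hxa⟩, ?_, ?_, ?_⟩, ?_⟩
    · rw [hthru i hi ⟨xd, hxd⟩ _ hxd']; exact hd'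
    · change xd * (xa / xd) = xa
      field_simp
    · rw [hthru i hi _ _ (show (c i).Is ((⟨xa, hxa⟩ - ⟨xd, hxd⟩ : S) : L) ((a' : κ) - d') from
        hxa'.sub hxd')]
      have h1 : (a' : κ) - d' = (u / algebraMap k κ Cb - 1) * d' := by
        rw [had]; field_simp
      rw [h1]
      exact nonunits_mul_mem hx (hv _ d'.2)
    · have h1 : (c i).Is (ω i / (C * g)) (algebraMap k κ (ωb i) / (algebraMap k κ Cb * γ)) :=
        (hω i).div ((hC i).mul hγ) (mul_ne_zero (by simpa using hCb) hγ0)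
          (F0.mul_mem ((honto i).leF hCS) hgF)
      have h2 : (c i).Is (xa / xd) ((a' : κ) / d') :=
        hxa'.div hxd' hd0 ((honto i).leF hxd)
      have h3 : algebraMap k κ (ωb i) / (algebraMap k κ Cb * γ) = (a' : κ) / d' := by
        rw [← had, hudef]
        have : algebraMap k κ Cb ≠ 0 := by simpa using hCb
        field_simp
      rw [h3] at h1
      have h4 := h1.sub h2
      rw [sub_self] at h4
      exact h4.nonunit_iff.2 rfl

end Point

end Fermat.Agent.QComp
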