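import Fermat.Agent.QComp.ICAux
import Fermat.Agent.Red.Basic

/-!
# Reductions of integral elements
-/

set_option autoImplicit false
set_option linter.unusedSectionVars false
set_option linter.style.haveILetI false
set_option linter.unusedVariables false

open Polynomial IsLocalRing AlgebraicCurve IntermediateField

namespace Fermat.Agent.QComp

open Fermat.Agent.Red

variable {K k : Type*} [Field K] [Field k] {A : ValuationSubring K} {π : A →+* k}
  {F Fk : Type*} [Field F] [Algebra K F] [Field Fk] [Algebra k Fk] {R : ConstRed A π F Fk}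

theorem isRed_mem_IC {x b : F} {xb z : Fk} (hx : R.IsRed x xb) (hb : b ∈ IC K F A x)
    (hz : R.IsRed b z) : z ∈ IC k Fk k xb := by
  obtain ⟨p, hp, hpb⟩ := hb
  obtain ⟨hxO, hxr⟩ := hx
  obtain ⟨hbO, hbr⟩ := hz
  let φ : A →+* R.O := ((algebraMap K F).comp A.subtype).codRestrict R.O.toSubring
    fun a => (R.algebraMap_mem_iff a).2 a.2
  let g : A[X] →+* R.O := eval₂RingHom φ ⟨x, hxO⟩
  have hg : R.O.subtype.comp g = (algebraMap F F).comp (ev K A x) := by
    refine Polynomial.ringHom_ext (fun a => ?_) ?_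
    · change ((eval₂ φ ⟨x, hxO⟩ (C a) : R.O) : F) = ev K A x (C a)
      rw [eval₂_C, ev_C]; rfl
    · change ((eval₂ φ ⟨x, hxO⟩ X : R.O) : F) = ev K A x X
      rw [eval₂_X, ev_X]
  have h1 : eval₂ g ⟨b, hbO⟩ p = 0 := by
    apply Subtype.ext
    change R.O.subtype (eval₂ g ⟨b, hbO⟩ p) = 0
    rw [hom_eval₂, hg]
    exact hpb
  refine ⟨p.map (mapRingHom π), hp.map _, ?_⟩
  have h2 : R.red.comp g = ((algebraMap Fk Fk).comp (ev k k xb)).comp (mapRingHom π) := by
    refine Polynomial.ringHom_ext (fun a => ?_) ?_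
    · change R.red (eval₂ φ ⟨x, hxO⟩ (C a)) = ev k k xb ((C a).map π)
      rw [eval₂_C, map_C, ev_C]
      exact R.red_algebraMap a
    · change R.red (eval₂ φ ⟨x, hxO⟩ X) = ev k k xb (X.map π)
      rw [eval₂_X, map_X, ev_X]
      exact hxr
  rw [eval₂_map, ← h2, ← hbr, ← hom_eval₂, h1, map_zero]

/-- powers of the coordinate give the same integral closure -/
theorem IC_pow_eq {k L : Type*} [Field k] [Field L] [Algebra k L] (x : L) {n : ℕ} (hn : 0 < n) :
    IC k L k (x ^ n) = IC k L k x := by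
  apply le_antisymm
  · exact IC_le_of_mem (pow_mem (self_mem_IC x) n)
  · apply IC_le_of_mem
    rw [mem_IC_iff_valuation]
    intro V h1 h2
    exact mem_of_pow_mem hn h2

end Fermat.Agent.QComp
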