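import Fermat.Agent.QComp.SS
import Mathlib.RingTheory.Ideal.GoingUp

/-!
# Norms of local units at a point common to all components
-/

set_option autoImplicit false
set_option linter.unusedSectionVars false
set_option linter.style.haveILetI false

open IsLocalRing AlgebraicCurve

namespace Fermat.Agent.QComp

section Rel

variable {L : Type*} [Field L] {F0 : Subfield L} {κ : Type*} [Field κ] {k : Type*} [Field k]
  [Algebra k κ]

theorem nonunits_of_mul_inv {V : ValuationSubring L} {a b : L} (h : a * b ∈ V.nonunits)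
    (hb : b ∉ V.nonunits) : a ∈ V.nonunits := by
  obtain ⟨hb0, hb1⟩ := notMem_nonunits_iff.1 hb
  have := nonunits_mul_mem h hb1
  rwa [mul_assoc, mul_inv_cancel₀ hb0, mul_one] at this

/-- the evaluation of the integral closure at the point `v` of the component `c`. -/
theorem Comp.exists_hom_place (c : Comp F0 κ) {Sh : Subring L} {v : Place k κ}
    (hex : ∀ b ∈ Sh, ∃ z, c.Is b z ∧ z ∈ v.toValuationSubring) :
    ∃ ρ : Sh →+* v.toValuationSubring, ∀ b : Sh, c.Is b (ρ b : κ) := by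
  have h1 : ∀ b : Sh, ∃ z : v.toValuationSubring, c.Is (b : L) z := fun b => by
    obtain ⟨z, hz, hz'⟩ := hex b b.2
    exact ⟨⟨z, hz'⟩, hz⟩
  choose r hr using h1
  exact ⟨{ toFun := r
           map_one' := Subtype.ext (c.uniq (hr 1) (Comp.Is.one c))
           map_mul' := fun x y => Subtype.ext (c.uniq (hr (x * y)) ((hr x).mul (hr y)))
           map_zero' := Subtype.ext (c.uniq (hr 0) (Comp.Is.zero c))
           map_add' := fun x y => Subtype.ext (c.uniq (hr (x + y)) ((hr x).add (hr y))) },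
    fun b => hr b⟩

/-- The data of a finite morphism needed for the comparison of norms. -/
structure NormData {L1 : Type*} [Field L1] (al : L1 →+* L) (Nm : L →* L1) (d : ℕ)
    (Sh S : Subring L) (cI cM cZ : Comp F0 κ) (ϖ : L) (κ0 : Subring κ) (ψ : κ →+* κ) (Q : ℕ) :
    Prop where
  le : S ≤ Sh
  leF : S ≤ F0.toSubring
  leI : S ≤ cI.V.toSubring
  leM : S ≤ cM.V.toSubring
  leZ : S ≤ cZ.V.toSubring
  hd : 0 < d
  norm_al : ∀ w, Nm (al w) = w ^ d
  norm_mem : ∀ b ∈ Sh, al (Nm b) ∈ Sh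
  integral : ((al.comp (Sh.comap al).subtype).codRestrict Sh fun w => w.2).IsIntegral
  root_mem : ∀ z : L, ∀ n : ℕ, 0 < n → z ^ n ∈ Sh → z ∈ Sh
  hϖ : ∃ w, al w = ϖ ∧ ϖ ∈ S ∧ ϖ ∈ cI.V.nonunits
  lift : ∀ z ∈ κ0, ∃ w : L1, al w ∈ S ∧ cI.Is (al w) z ∧ cM.Is (al w) z ∧ cZ.Is (al w) (ψ z)
  redI : ∀ b ∈ S, ∀ z, cI.Is b z → z ∈ κ0
  redM : ∀ b ∈ S, ∀ z, cM.Is b z → z ∈ κ0
  redZ : ∀ b ∈ S, ∀ z, cZ.Is b z → z ∈ κ0
  hQ : 0 < Q
  frob : ∀ z ∈ κ0, ∃ z' ∈ κ0, ψ z' = z ^ Q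
  thru : ∀ (P' : Ideal Sh), P'.IsPrime → (∀ x : Sh, (x : L) = ϖ → x ∈ P') →
    (∀ x : Sh, (x : L) ∈ S → (x : L) ∈ cI.V.nonunits → x ∈ P') ∨
    (∀ x : Sh, (x : L) ∈ S → (x : L) ∈ cM.V.nonunits → x ∈ P') ∨
    (∀ x : Sh, (x : L) ∈ S → (x : L) ∈ cZ.V.nonunits → x ∈ P')

variable {L1 : Type*} [Field L1] {al : L1 →+* L} {Nm : L →* L1} {d : ℕ}
  {Sh S : Subring L} {cI cM cZ : Comp F0 κ} {ϖ : L} {κ0 : Subring κ} {ψ : κ →+* κ} {Q : ℕ}

theorem mem_iff_of_lift {S1 : Subring L1} {i : S1 →+* Sh} (hi : ∀ w : S1, (i w : L) = al w)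
    (hmemS1 : ∀ w : L1, al w ∈ Sh → w ∈ S1) (hle : S ≤ Sh) {c : Comp F0 κ} {P : Ideal S}
    {v : Place k κ} (hP : AtPl c P v) (hleF : S ≤ F0.toSubring) (hlec : S ≤ c.V.toSubring)
    (hred : ∀ b ∈ S, ∀ z, c.Is b z → z ∈ κ0) {m : ℕ} (hm : 0 < m)
    (hlift : ∀ z ∈ κ0, ∃ w : L1, al w ∈ S ∧ c.Is (al w) (z ^ m)) {Ph P' : Ideal Sh}
    [hPh : Ph.IsPrime] [hP' : P'.IsPrime] (hcomap : ∀ x : S, Subring.inclusion hle x ∈ Ph ↔ x ∈ P)
    (hpp : ∀ w : S1, i w ∈ P' ↔ i w ∈ Ph)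
    (hth : ∀ x : Sh, (x : L) ∈ S → (x : L) ∈ c.V.nonunits → x ∈ P') (b : S) :
    Subring.inclusion hle b ∈ P' ↔ b ∈ P := by
  obtain ⟨z, hz⟩ := c.ex (hleF b.2) (hlec b.2)
  obtain ⟨w, hwS, hw⟩ := hlift z (hred b b.2 z hz)
  set a : S := ⟨al w, hwS⟩ with ha
  have h1 : Subring.inclusion hle (b ^ m - a) ∈ P' := by
    refine hth _ (b ^ m - a).2 ?_
    have h2 : c.Is ((b ^ m - a : S) : L) 0 := by
      have := (hz.pow m).sub hw
      rw [sub_self] at this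
      exact this
    exact h2.nonunit_iff.2 rfl
  have h3 : Subring.inclusion hle b ∈ P' ↔ Subring.inclusion hle a ∈ P' := by
    have h4 : Subring.inclusion hle b ∈ P' ↔ (Subring.inclusion hle b) ^ m ∈ P' :=
      ⟨fun h => P'.pow_mem_of_mem h m hm, fun h => hP'.mem_of_pow_mem m h⟩
    rw [h4, ← map_pow]
    rw [map_sub] at h1
    constructor
    · intro h
      have := sub_mem h h1
      rwa [sub_sub_cancel] at this
    · intro h
      have := add_mem h1 h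
      rwa [sub_add_cancel] at this
  have hwS1 : w ∈ S1 := hmemS1 w (hle hwS)
  have h5 : i ⟨w, hwS1⟩ = Subring.inclusion hle a := Subtype.ext (hi _)
  have h6 := hpp ⟨w, hwS1⟩
  rw [h5] at h6
  have hnu : z ∈ v.toValuationSubring.nonunits ↔ z ^ m ∈ v.toValuationSubring.nonunits := by
    rw [mem_nonunits_iff_ord, mem_nonunits_iff_ord, FF.ord_pow, pow_eq_zero_iff hm.ne']
    have : 0 < (m : ℤ) := by exact_mod_cast hm
    constructor
    · rintro (h | h)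
      · exact Or.inl h
      · exact Or.inr (mul_pos this h)
    · rintro (h | h)
      · exact Or.inl h
      · right
        exact (mul_pos_iff_of_pos_left this).1 h
  rw [h3, h6, hcomap, hP a _ hw, hP b z hz, hnu]

theorem NormData.notMem (H : NormData al Nm d Sh S cI cM cZ ϖ κ0 ψ Q)
    {P : Ideal S} [hP : P.IsPrime] {v : Place k κ} (hPI : AtPl cI P v) (hPM : AtPl cM P v)
    (hPZ : AtPl cZ P v)
    (Ph : Ideal Sh) [hPh : Ph.IsPrime] (hcomap : ∀ x : S, Subring.inclusion H.le x ∈ Ph ↔ x ∈ P)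
    {b : S} (hb : b ∉ P) : (⟨_, H.norm_mem _ (H.le b.2)⟩ : Sh) ∉ Ph := by
  intro hNb
  let S1 : Subring L1 := Sh.comap al
  let i : S1 →+* Sh := (al.comp (Sh.comap al).subtype).codRestrict Sh fun w => w.2
  letI := i.toAlgebra
  haveI : Algebra.IsIntegral S1 Sh := ⟨H.integral⟩
  let p : Ideal S1 := Ph.comap i
  haveI : p.IsPrime := Ideal.IsPrime.comap i
  let b' : Sh := ⟨b, H.le b.2⟩
  by_cases hI : (Ideal.span {b'}).comap (algebraMap S1 Sh) ≤ p
  · obtain ⟨P', hP'b, hP'prime, hP'⟩ := Ideal.exists_ideal_over_prime_of_isIntegral p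
      (Ideal.span {b'}) hI
    have hmemp : ∀ w : S1, i w ∈ P' ↔ i w ∈ Ph := by
      intro w
      have h1 : w ∈ P'.comap (algebraMap S1 Sh) ↔ w ∈ p := by rw [hP']
      exact h1
    have hϖ : ∀ x : Sh, (x : L) = ϖ → x ∈ P' := by
      intro x hx
      obtain ⟨w, hw, hϖS, hϖI⟩ := H.hϖ
      have hwS1 : w ∈ S1 := by
        change al w ∈ Sh
        rw [hw]; exact H.le hϖS
      have h1 : i ⟨w, hwS1⟩ = x := Subtype.ext (hw.trans hx.symm)
      rw [← h1, hmemp, h1]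
      have h2 : (⟨ϖ, hϖS⟩ : S) ∈ P := hPI.thru H.leF _ hϖI
      have h3 : Subring.inclusion H.le (⟨ϖ, hϖS⟩ : S) = x := Subtype.ext hx.symm
      rw [← h3, hcomap]
      exact h2
    have hbP' : b' ∈ P' := hP'b (Ideal.mem_span_singleton_self b')
    have hi : ∀ w : S1, (i w : L) = al w := fun _ => rfl
    have hmem1 : ∀ w : L1, al w ∈ Sh → w ∈ S1 := fun _ h => h
    apply hb
    rcases H.thru P' hP'prime hϖ with hth | hth | hth
    · refine (mem_iff_of_lift hi hmem1 H.le hPI H.leF H.leI H.redI one_pos (fun z hz => ?_)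
        hcomap hmemp hth b).1 hbP'
      obtain ⟨w, hw, h1, h2, h3⟩ := H.lift z hz
      exact ⟨w, hw, by rwa [pow_one]⟩
    · refine (mem_iff_of_lift hi hmem1 H.le hPM H.leF H.leM H.redM one_pos (fun z hz => ?_)
        hcomap hmemp hth b).1 hbP'
      obtain ⟨w, hw, h1, h2, h3⟩ := H.lift z hz
      exact ⟨w, hw, by rwa [pow_one]⟩
    · refine (mem_iff_of_lift hi hmem1 H.le hPZ H.leF H.leZ H.redZ H.hQ (fun z hz => ?_)
        hcomap hmemp hth b).1 hbP'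
      obtain ⟨z', hz', hψ⟩ := H.frob z hz
      obtain ⟨w, hw, h1, h2, h3⟩ := H.lift z' hz'
      exact ⟨w, hw, by rwa [← hψ]⟩
  · obtain ⟨d1, hd1, hd1p⟩ := SetLike.not_le_iff_exists.1 hI
    rw [Ideal.mem_comap, Ideal.mem_span_singleton'] at hd1
    obtain ⟨s', hs'⟩ := hd1
    apply hd1p
    have h1 : al (d1 : L1) = (s' : L) * b := (congrArg Subtype.val hs').symm
    have h2 : (d1 : L1) ^ d = Nm s' * Nm b := by
      rw [← H.norm_al, h1, map_mul]
    have hnb : Nm (b : L) ∈ S1 := H.norm_mem _ (H.le b.2)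
    have hns : Nm (s' : L) ∈ S1 := H.norm_mem _ s'.2
    have h3 : d1 ^ d = (⟨_, hns⟩ : S1) * ⟨_, hnb⟩ := Subtype.ext (by push_cast; exact h2)
    have h4 : (⟨_, hnb⟩ : S1) ∈ p := hNb
    have h5 : d1 ^ d ∈ p := by rw [h3]; exact Ideal.mul_mem_left _ _ h4
    exact (inferInstance : p.IsPrime).mem_of_pow_mem d h5

/-- **Comparison of the values at a point of the two components of the norm.** -/
theorem NormData.rel (H : NormData al Nm d Sh S cI cM cZ ϖ κ0 ψ Q)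
    {P : Ideal S} [hP : P.IsPrime] {v : Place k κ} (hPI : AtPl cI P v) (hPM : AtPl cM P v)
    (hPZ : AtPl cZ P v)
    (hexI : ∀ b ∈ Sh, ∃ z, cI.Is b z ∧ z ∈ v.toValuationSubring)
    (hexZ : ∀ b ∈ Sh, ∃ z, cZ.Is b z ∧ z ∈ v.toValuationSubring)
    (hev : ∀ b ∈ Sh, ∀ zI zZ, cI.Is b zI → cZ.Is b zZ → zI - zZ ∈ v.toValuationSubring.nonunits)
    {b s : S} (hb : b ∉ P) (hs : s ∉ P) {w : L1} {n : ℕ} (hn : 0 < n)
    (hw : w ^ n = Nm b / Nm s) {zI zZ : κ} (hzI : cI.Is (al w) zI) (hzZ : cZ.Is (al w) zZ) :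
    zI ∈ v.toValuationSubring ∧ zI - zZ ∈ v.toValuationSubring.nonunits := by
  obtain ⟨ρ, hρ⟩ := cI.exists_hom_place hexI
  let Ph : Ideal Sh := (maximalIdeal v.toValuationSubring).comap ρ
  have hPhmem : ∀ (x : Sh) z, cI.Is x z → (x ∈ Ph ↔ z ∈ v.toValuationSubring.nonunits) := by
    intro x z hz
    have h1 : ((ρ x : v.toValuationSubring) : κ) = z := cI.uniq (hρ x) hz
    change ρ x ∈ maximalIdeal _ ↔ _
    rw [← h1, ValuationSubring.coe_mem_nonunits_iff]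
  haveI : Ph.IsPrime := Ideal.IsPrime.comap _
  have hcomap : ∀ x : S, Subring.inclusion H.le x ∈ Ph ↔ x ∈ P := by
    intro x
    obtain ⟨z, hz⟩ := cI.ex (H.leF x.2) (H.leI x.2)
    rw [hPhmem (Subring.inclusion H.le x) z hz, hPI x z hz]
  have hNb := H.notMem hPI hPM hPZ Ph hcomap hb
  have hNs := H.notMem hPI hPM hPZ Ph hcomap hs
  set Nb : Sh := ⟨_, H.norm_mem _ (H.le b.2)⟩ with hNbdef
  set Ns : Sh := ⟨_, H.norm_mem _ (H.le s.2)⟩ with hNsdef
  have hNs0 : Nm (s : L) ≠ 0 := by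
    intro h
    apply hNs
    have : Ns = 0 := Subtype.ext (by change al (Nm (s : L)) = 0; rw [h, map_zero])
    rw [this]; exact zero_mem _
  obtain ⟨m, rfl⟩ : ∃ m, n = m + 1 := ⟨n - 1, by omega⟩
  have hB : al w * al (Nm s) ∈ Sh := by
    refine H.root_mem _ (m + 1) hn ?_
    have h1 : (al w * al (Nm s)) ^ (m + 1) = (Nb : L) * (Ns : L) ^ m := by
      change _ = al (Nm b) * al (Nm s) ^ m
      have e1 : (al w * al (Nm s)) ^ (m + 1) = al (w ^ (m + 1) * (Nm s) ^ (m + 1)) := by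
        rw [map_mul, map_pow al w, map_pow al (Nm (s : L)), mul_pow]
      have e2 : al (Nm b) * al (Nm s) ^ m = al (Nm b * (Nm s) ^ m) := by
        rw [map_mul, map_pow al (Nm (s : L))]
      rw [e1, e2, hw]
      congr 1
      field_simp
      ring
    rw [h1]
    exact mul_mem Nb.2 (pow_mem Ns.2 m)
  obtain ⟨σI, hσI, hσIv⟩ := hexI _ Ns.2
  obtain ⟨σZ, hσZ, hσZv⟩ := hexZ _ Ns.2
  have hσIn : σI ∉ v.toValuationSubring.nonunits := by
    rw [← hPhmem Ns σI hσI]; exact hNs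
  have hBI := hzI.mul hσI
  have hBZ := hzZ.mul hσZ
  have h1 := hev _ hB _ _ hBI hBZ
  have h2 := hev _ Ns.2 _ _ hσI hσZ
  have hσZn : σZ ∉ v.toValuationSubring.nonunits := by
    intro h
    apply hσIn
    have := add_mem h2 h
    rwa [sub_add_cancel] at this
  have hzIv : zI ∈ v.toValuationSubring := by
    obtain ⟨z', hz', hz'v⟩ := hexI _ hB
    have h3 := cI.uniq hz' hBI
    obtain ⟨hσ0, hσi⟩ := notMem_nonunits_iff.1 hσIn
    have h4 : zI = z' * σI⁻¹ := by rw [h3, mul_assoc, mul_inv_cancel₀ hσ0, mul_one]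
    rw [h4]
    exact mul_mem hz'v hσi
  refine ⟨hzIv, nonunits_of_mul_inv (b := σZ) ?_ hσZn⟩
  have h3 : (zI - zZ) * σZ = (zI * σI - zZ * σZ) - (σI - σZ) * zI := by ring
  rw [h3]
  exact sub_mem h1 (nonunits_mul_mem h2 hzIv)

end Rel

end Fermat.Agent.QComp
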