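import Mathlib

/-!
# Quadratic unipotent actions, and flat base change of invariants
-/

set_option autoImplicit false

namespace Fermat.Agent.QComp

open TensorProduct

section Triple

variable {G E : Type*} [Group G] [Ring E] (ρ : G →* E)

theorem rho_mul_sub_one (s t : G) :
    ρ (s * t) - 1 = (ρ s - 1) + (ρ t - 1) + (ρ s - 1) * (ρ t - 1) := by
  rw [map_mul]; noncomm_ring

theorem sandwich_eq_zero (h : ∀ s, (ρ s - 1) * (ρ s - 1) = 0) (s t : G) :
    (ρ s - 1) * (ρ t - 1) * (ρ s - 1) = 0 := by
  set x := ρ s - 1 with hx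
  set y := ρ t - 1 with hy
  have hxx : x * x = 0 := h s
  have hyy : y * y = 0 := h t
  have h1 := h (s * t)
  rw [rho_mul_sub_one, ← hx, ← hy] at h1
  have h2 : (x + y + x * y) * (x + y + x * y) =
      x * x + x * y + x * x * y + y * x + y * y + y * x * y + x * y * x + x * (y * y) +
        x * y * x * y := by noncomm_ring
  rw [h2, hxx, hyy] at h1
  have h3 : x * y + y * x + y * x * y + x * y * x + x * y * x * y = 0 := by
    rw [← h1]; noncomm_ring
  have h4 := congrArg (fun z => x * z) h3
  simp only [mul_zero] at h4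
  have h5 : x * (x * y + y * x + y * x * y + x * y * x + x * y * x * y) =
      x * x * y + x * y * x + x * y * x * y + x * x * y * x + x * x * y * x * y := by noncomm_ring
  rw [h5, hxx] at h4
  have h6 : x * y * x * (1 + y) = 0 := by rw [← h4]; noncomm_ring
  have h7 : 1 + y = ρ t := by rw [hy]; abel
  rw [h7] at h6
  have h8 := congrArg (fun z => z * ρ t⁻¹) h6
  simp only [zero_mul] at h8
  rwa [mul_assoc, ← map_mul, mul_inv_cancel, map_one, mul_one] at h8

theorem anticomm (h : ∀ s, (ρ s - 1) * (ρ s - 1) = 0) (s t : G) :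
    (ρ s - 1) * (ρ t - 1) = -((ρ t - 1) * (ρ s - 1)) := by
  have e1 := sandwich_eq_zero ρ h s t
  have e2 := sandwich_eq_zero ρ h t s
  set x := ρ s - 1 with hx
  set y := ρ t - 1 with hy
  have hxx : x * x = 0 := h s
  have hyy : y * y = 0 := h t
  have h1 := h (s * t)
  rw [rho_mul_sub_one, ← hx, ← hy] at h1
  have h2 : (x + y + x * y) * (x + y + x * y) =
      x * x + x * y + x * x * y + y * x + y * y + y * x * y + x * y * x + x * (y * y) +
        x * y * x * y := by noncomm_ring
  rw [h2, hxx, hyy, e1, e2] at h1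
  rw [eq_neg_iff_add_eq_zero, ← h1]
  noncomm_ring

/-- **Triple products vanish.** -/
theorem triple_eq_zero (h : ∀ s, (ρ s - 1) * (ρ s - 1) = 0) (h2 : ∀ x : E, x + x = 0 → x = 0)
    (s t u : G) : (ρ s - 1) * (ρ t - 1) * (ρ u - 1) = 0 := by
  have e1 := anticomm ρ h (s * t) u
  rw [rho_mul_sub_one] at e1
  have e2 := anticomm ρ h s u
  have e3 := anticomm ρ h t u
  set x := ρ s - 1 with hx
  set y := ρ t - 1 with hy
  set z := ρ u - 1 with hz
  have e4 : x * y * z = -(z * x * y) := by
    have : x * z + y * z + x * y * z = -(z * x) - z * y - z * x * y := by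
      have e5 : (x + y + x * y) * z = x * z + y * z + x * y * z := by noncomm_ring
      have e6 : -(z * (x + y + x * y)) = -(z * x) - z * y - z * x * y := by noncomm_ring
      rw [← e5, ← e6, e1]
    rw [e2, e3] at this
    have h3 : x * y * z = (-(z * x) + -(z * y) + x * y * z) + (z * x + z * y) := by abel
    rw [h3, this]; abel
  have e7 : z * x * y = x * y * z := by
    have : z * x = -(x * z) := by rw [e2, neg_neg]
    rw [this]
    have h4 : z * y = -(y * z) := by rw [e3, neg_neg]
    calc -(x * z) * y = -(x * (z * y)) := by noncomm_ring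
      _ = x * y * z := by rw [h4]; noncomm_ring
  apply h2
  nth_rewrite 1 [e4]
  rw [e7]
  abel

end Triple

section Steps

variable {O M I : Type*} [CommRing O] [AddCommGroup M] [Module O M] [Group I]

/-- If inertia acts quadratically on a stable submodule of a module of odd exponent and `t` kills
the invariants then `t ^ 3` kills the submodule. -/
theorem three_steps (A : I →* Module.End O M) (t : Module.End O M)
    (hcomm : ∀ s, A s * t = t * A s) (W : Submodule O M) (hAW : ∀ s, ∀ w ∈ W, A s w ∈ W)
    (htW : ∀ w ∈ W, t w ∈ W) (pm : ℕ) (hodd : Odd pm) (hpm : ∀ m : M, pm • m = 0)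
    (hquad : ∀ s, ∀ w ∈ W, (A s - 1) ((A s - 1) w) = 0)
    (hfix : ∀ m, (∀ s, A s m = m) → t m = 0) : ∀ w ∈ W, t (t (t w)) = 0 := by
  let ρ : I →* Module.End O W :=
    { toFun := fun s => (A s).restrict (hAW s)
      map_one' := by
        refine LinearMap.ext fun w => Subtype.ext ?_
        rw [LinearMap.coe_restrict_apply, map_one]
        rfl
      map_mul' := fun s t => by
        refine LinearMap.ext fun w => Subtype.ext ?_
        rw [LinearMap.coe_restrict_apply, map_mul]
        rfl }
  have hρ : ∀ s (w : W), ((ρ s w : W) : M) = A s w := fun s w => rfl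
  have hρ1 : ∀ s (w : W), (((ρ s - 1) w : W) : M) = (A s - 1) (w : M) := fun s w => rfl
  have hsq : ∀ s, (ρ s - 1) * (ρ s - 1) = 0 := by
    intro s
    refine LinearMap.ext fun w => Subtype.ext ?_
    exact hquad s w w.2
  have h2inj : ∀ f : Module.End O W, f + f = 0 → f = 0 := by
    intro f hf
    obtain ⟨k, hk⟩ := hodd
    refine LinearMap.ext fun w => ?_
    have h1 : f w + f w = 0 := LinearMap.congr_fun hf w
    have h2 : pm • f w = 0 := Subtype.ext (hpm (f w))
    rw [hk, add_smul, one_smul, mul_comm, mul_smul, two_smul, h1, smul_zero, zero_add] at h2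
    exact h2
  have htriple := triple_eq_zero ρ hsq h2inj
  -- three steps
  have step1 : ∀ w : W, ∀ s u, t ((ρ s - 1) ((ρ u - 1) w) : W) = 0 := by
    intro w s u
    apply hfix
    intro v
    have h1 := LinearMap.congr_fun (htriple v s u) w
    rw [Module.End.mul_apply, Module.End.mul_apply, LinearMap.sub_apply, Module.End.one_apply,
      LinearMap.zero_apply, sub_eq_zero] at h1
    exact congrArg Subtype.val h1
  have hcomm' : ∀ s m, A s (t m) = t (A s m) := by
    intro s m
    rw [← Module.End.mul_apply, hcomm, Module.End.mul_apply]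
  have hTρ : ∀ (w : W) s, t (((ρ s - 1) w : W) : M) =
      (((ρ s - 1) (⟨t w, htW w w.2⟩ : W) : W) : M) := by
    intro w s
    rw [hρ1, hρ1, LinearMap.sub_apply, LinearMap.sub_apply, Module.End.one_apply,
      Module.End.one_apply, map_sub, hcomm']
  have step2 : ∀ w : W, ∀ u, t (t (((ρ u - 1) w : W) : M)) = 0 := by
    intro w u
    apply hfix
    intro s
    have h1 := step1 w s u
    rw [hTρ] at h1
    have h2 : ((ρ s - 1) (⟨t ((ρ u - 1) w : W), htW _ ((ρ u - 1) w).2⟩ : W) : W) = 0 :=
      Subtype.ext h1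
    rw [LinearMap.sub_apply, Module.End.one_apply, sub_eq_zero] at h2
    exact congrArg Subtype.val h2
  intro w hw
  apply hfix
  intro s
  have h1 := step2 ⟨w, hw⟩ s
  rw [hTρ, hTρ] at h1
  have h2 := Subtype.ext (a2 := (0 : W)) h1
  rw [LinearMap.sub_apply, Module.End.one_apply, sub_eq_zero] at h2
  exact congrArg Subtype.val h2

end Steps

section Flat

variable {O : Type*} [CommRing O] [Module.Flat ℤ O]

omit [Module.Flat ℤ O] in
/-- the `i`-th component of the base change of a map to a product -/
theorem piRight_baseChange {V : Type*} [AddCommGroup V] {ι : Type*} [Fintype ι] [DecidableEq ι]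
    (D : ι → (V →ₗ[ℤ] V)) (w : O ⊗[ℤ] V) (i : ι) :
    TensorProduct.piRight ℤ O O (fun _ : ι => V) ((LinearMap.pi D).baseChange O w) i =
      (D i).baseChange O w := by
  induction w using TensorProduct.induction_on with
  | zero => simp
  | tmul c a =>
    rw [LinearMap.baseChange_tmul, LinearMap.baseChange_tmul]
    rfl
  | add x y hx hy => rw [map_add, map_add, Pi.add_apply, hx, hy, map_add]

/-- **Flat base change of invariants.** If an endomorphism kills the invariants of a family of
endomorphisms of a finite group then this remains true after flat base change. -/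
theorem baseChange_eq_zero_of_invariants {V : Type*} [AddCommGroup V] [Finite V] {I : Type*}
    (A : I → Module.End ℤ V) (T : Module.End ℤ V)
    (h : ∀ v, (∀ s, A s v = v) → T v = 0) (w : O ⊗[ℤ] V)
    (hw : ∀ s, (A s).baseChange O w = w) : T.baseChange O w = 0 := by
  classical
  have : Finite (Module.End ℤ V) := Finite.of_injective (fun f : Module.End ℤ V => (f : V → V))
    DFunLike.coe_injective
  let J := Set.range A
  have : Fintype J := Fintype.ofFinite J
  let D : V →ₗ[ℤ] (J → V) := LinearMap.pi fun a => (a : Module.End ℤ V) - LinearMap.id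
  have hex : Function.Exact (LinearMap.ker D).subtype D := LinearMap.exact_subtype_ker_map D
  have hexO := Module.Flat.lTensor_exact O hex
  have hDw : D.lTensor O w = 0 := by
    let e := TensorProduct.piRight ℤ O O (fun _ : J => V)
    apply e.injective
    rw [map_zero]
    ext a
    obtain ⟨_, s, rfl⟩ := a
    have h1 := piRight_baseChange (O := O)
      (fun a : J => (a : Module.End ℤ V) - LinearMap.id) w ⟨A s, s, rfl⟩
    have h2 : ((A s - LinearMap.id : Module.End ℤ V)).baseChange O w = 0 := by
      rw [LinearMap.baseChange_sub, LinearMap.sub_apply, hw, LinearMap.baseChange_id,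
        LinearMap.id_apply, sub_self]
    exact h1.trans h2
  obtain ⟨y, hy⟩ := (hexO w).mp hDw
  have h3 : T ∘ₗ (LinearMap.ker D).subtype = 0 := by
    refine LinearMap.ext fun v => h v fun s => ?_
    have h4 : D (v : V) = 0 := v.2
    have h5 := congrFun h4 ⟨A s, s, rfl⟩
    exact sub_eq_zero.mp h5
  have h6 : T.lTensor O ((LinearMap.ker D).subtype.lTensor O y) =
      (T ∘ₗ (LinearMap.ker D).subtype).lTensor O y := by
    rw [LinearMap.lTensor_comp]; rfl
  change T.lTensor O w = 0
  rw [← hy, h6, h3, LinearMap.lTensor_zero, LinearMap.zero_apply]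

set_option maxHeartbeats 1000000 in
/-- **The core of the argument at a prime whose inertia acts quadratically.** -/
theorem tame_core {R V P I : Type*} [CommRing R] [AddCommGroup V] [Finite V] [AddCommGroup P]
    [Group I] (A : I →* Module.End ℤ V) (T : R →+* Module.End ℤ V)
    (hcomm : ∀ s r, A s * T r = T r * A s) (ρs : I → R)
    (hquad : ∀ s, (A s - 1) * (A s - 1) = T (ρs s) * A s)
    (t₁ : R) (hfix : ∀ v, (∀ s, A s v = v) → T t₁ v = 0)
    (Φ : R →+* Module.End ℤ P) (j : P →+ V) (hj : ∀ r φ, j (Φ r φ) = T r (j φ))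
    (pm : ℕ) (hodd : Odd pm) (hpm : ∀ v : V, pm • v = 0)
    (hker : ∀ φ, j φ = 0 → ∃ φ', φ = pm • φ')
    (χ : R →+* O) (x : O ⊗[ℤ] P) (hx : ∀ r, (Φ r).baseChange O x = χ r • x)
    (d : O) (hd : ∀ s, ∃ y, d * χ (ρs s) = pm * y) :
    ∃ y : O ⊗[ℤ] P, (χ t₁ ^ 3 * d) • x = (pm : O) • y := by
  classical
  let B : Module.End ℤ V →+* Module.End O (O ⊗[ℤ] V) := (Module.End.baseChangeHom ℤ O V).toRingHom
  have hB : ∀ f, B f = f.baseChange O := fun f => rfl
  -- torsion
  have hpmO : ∀ w : O ⊗[ℤ] V, (pm : O) • w = 0 := by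
    intro w
    induction w using TensorProduct.induction_on with
    | zero => simp
    | tmul c v =>
      rw [Nat.cast_smul_eq_nsmul, ← TensorProduct.tmul_smul, hpm, TensorProduct.tmul_zero]
    | add x y hx hy => rw [smul_add, hx, hy, add_zero]
  let jO : O ⊗[ℤ] P →ₗ[O] O ⊗[ℤ] V := j.toIntLinearMap.baseChange O
  have hjO : ∀ r z, jO ((Φ r).baseChange O z) = B (T r) (jO z) := by
    intro r z
    induction z using TensorProduct.induction_on with
    | zero => simp
    | tmul c φ =>
      rw [hB, LinearMap.baseChange_tmul]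
      change c ⊗ₜ (j (Φ r φ)) = (T r).baseChange O (c ⊗ₜ (j φ))
      rw [LinearMap.baseChange_tmul, hj]
    | add x y hx hy => rw [map_add, map_add, map_add, map_add, hx, hy]
  have hjx : ∀ r, B (T r) (jO x) = χ r • jO x := fun r => by rw [← hjO, hx, map_smul]
  -- the submodule killed by the `T (ρs s)`
  let W : Submodule O (O ⊗[ℤ] V) := ⨅ s, LinearMap.ker (B (T (ρs s)))
  have hW : ∀ w, w ∈ W ↔ ∀ s, B (T (ρs s)) w = 0 := by
    intro w
    rw [Submodule.mem_iInf]
    rfl
  have hAW : ∀ s, ∀ w ∈ W, B (A s) w ∈ W := by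
    intro s w hw
    rw [hW] at hw ⊢
    intro u
    rw [← Module.End.mul_apply, ← map_mul, ← hcomm, map_mul, Module.End.mul_apply, hw, map_zero]
  have hTW : ∀ w ∈ W, B (T t₁) w ∈ W := by
    intro w hw
    rw [hW] at hw ⊢
    intro s
    rw [← Module.End.mul_apply, ← map_mul, ← map_mul, mul_comm, map_mul, map_mul,
      Module.End.mul_apply, hw, map_zero]
  have hsq : ∀ s, ∀ w ∈ W, ((B.toMonoidHom.comp A) s - 1) (((B.toMonoidHom.comp A) s - 1) w) = 0 := by
    intro s w hw
    have h1 := congrArg B (hquad s)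
    rw [map_mul, map_mul, map_sub, map_one] at h1
    have h2 := LinearMap.congr_fun h1 w
    rw [Module.End.mul_apply, Module.End.mul_apply] at h2
    have h3 : B (T (ρs s)) (B (A s) w) = 0 := (hW _).mp (hAW s w hw) s
    rw [h3] at h2
    exact h2
  have step3 := three_steps (B.toMonoidHom.comp A) (B (T t₁))
    (fun s => by
      change B (A s) * B (T t₁) = B (T t₁) * B (A s)
      rw [← map_mul, hcomm, map_mul]) W hAW hTW pm hodd
    (fun m => by rw [← Nat.cast_smul_eq_nsmul O]; exact hpmO m) hsq
    (fun w hw => baseChange_eq_zero_of_invariants (fun s => A s) (T t₁) hfix w hw)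
  -- apply to the eigenvector
  have hmem : d • jO x ∈ W := by
    rw [hW]
    intro s
    obtain ⟨y, hy⟩ := hd s
    rw [map_smul, hjx, smul_smul, hy, mul_smul, hpmO]
  have h1 := step3 (d • jO x) hmem
  have h2 : jO ((χ t₁ ^ 3 * d) • x) = 0 := by
    rw [map_smul, ← h1]
    change _ = B (T t₁) (B (T t₁) (B (T t₁) (d • jO x)))
    have e1 : B (T t₁) (d • jO x) = (d * χ t₁) • jO x := by rw [map_smul, hjx, smul_smul]
    have e2 : B (T t₁) ((d * χ t₁) • jO x) = (d * χ t₁ * χ t₁) • jO x := by
      rw [map_smul, hjx, smul_smul]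
    have e3 : B (T t₁) ((d * χ t₁ * χ t₁) • jO x) = (d * χ t₁ * χ t₁ * χ t₁) • jO x := by
      rw [map_smul, hjx, smul_smul]
    rw [e1, e2, e3]
    congr 1
    ring
  -- exactness
  have hex : Function.Exact ((pm : ℤ) • (LinearMap.id : P →ₗ[ℤ] P)) j.toIntLinearMap := by
    intro φ
    constructor
    · intro hφ
      obtain ⟨φ', h'⟩ := hker φ hφ
      exact ⟨φ', by rw [h', LinearMap.smul_apply, LinearMap.id_apply, natCast_zsmul]⟩
    · rintro ⟨φ', rfl⟩
      rw [LinearMap.smul_apply, LinearMap.id_apply, natCast_zsmul, map_nsmul, hpm]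
  have hexO := Module.Flat.lTensor_exact O hex
  obtain ⟨y, hy⟩ := (hexO _).mp h2
  refine ⟨y, ?_⟩
  rw [← hy, LinearMap.lTensor_smul, LinearMap.lTensor_id, LinearMap.smul_apply, LinearMap.id_apply,
    natCast_zsmul, Nat.cast_smul_eq_nsmul]

end Flat

end Fermat.Agent.QComp
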