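import Fermat.Agent.QComp.S35Final
import Fermat.Agent.QComp.Tame
import Fermat.Agent.QComp.LevelMap
import Fermat.Agent.RepTwo.EigenDomain

/-!
# The core of S36
-/

set_option autoImplicit false

namespace Fermat.Agent.QComp

open IsLocalRing Fermat.Agent.RepTwo Polynomial ModularFormClass TensorProduct Fermat.Agent.Top

section Restrict

variable {R V : Type*} [CommRing R] [AddCommGroup V] [Module R V]

/-- restriction of scalars of endomorphisms to `ℤ` -/
def endInt : Module.End R V →+* Module.End ℤ V where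
  toFun f := f.toAddMonoidHom.toIntLinearMap
  map_one' := rfl
  map_mul' _ _ := rfl
  map_zero' := rfl
  map_add' _ _ := rfl

@[simp] theorem endInt_apply (f : Module.End R V) (v : V) : endInt f v = f v := rfl

end Restrict

/-- powers of the maximal ideal and powers of `p` -/
theorem exists_mul_pow {O : Type*} [CommRing O] [IsDomain O] [IsDiscreteValuationRing O] {p : ℕ}
    (hp : (p : O) ∈ maximalIdeal O) (hp0 : (p : O) ≠ 0) (n m : ℕ) (hnm : n ≤ m) :
    ∃ d : O, d ≠ 0 ∧ (∀ y ∈ maximalIdeal O ^ n, ∃ z, d * y = (p ^ m : ℕ) * z) ∧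
      ∀ y z, d * y = (p ^ m : ℕ) * z → y ∈ maximalIdeal O ^ n := by
  obtain ⟨ϖ, hϖ⟩ := IsDiscreteValuationRing.exists_irreducible O
  obtain ⟨e, u, he⟩ := IsDiscreteValuationRing.eq_unit_mul_pow_irreducible hp0 hϖ
  have he0 : e ≠ 0 := by
    rintro rfl
    rw [pow_zero, mul_one] at he
    rw [mem_maximalIdeal, mem_nonunits_iff] at hp
    exact hp (he ▸ u.isUnit)
  have hle : n ≤ e * m := hnm.trans (Nat.le_mul_of_pos_left m (Nat.pos_of_ne_zero he0))
  have hmax : maximalIdeal O ^ n = Ideal.span {ϖ ^ n} := by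
    rw [(IsDiscreteValuationRing.irreducible_iff_uniformizer ϖ).mp hϖ, Ideal.span_singleton_pow]
  have hpm : ((p ^ m : ℕ) : O) = (u : O) ^ m * ϖ ^ (e * m) := by
    push_cast
    rw [he, mul_pow, ← pow_mul]
  have hsplit : ϖ ^ (e * m) = ϖ ^ (e * m - n) * ϖ ^ n := by
    rw [← pow_add, Nat.sub_add_cancel hle]
  refine ⟨ϖ ^ (e * m - n), pow_ne_zero _ hϖ.ne_zero, ?_, ?_⟩
  · intro y hy
    rw [hmax, Ideal.mem_span_singleton] at hy
    obtain ⟨y', rfl⟩ := hy
    refine ⟨((u⁻¹ : Oˣ) : O) ^ m * y', ?_⟩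
    rw [hpm, hsplit]
    have : (u : O) ^ m * ((u⁻¹ : Oˣ) : O) ^ m = 1 := by
      rw [← mul_pow, Units.mul_inv, one_pow]
    linear_combination (-(ϖ ^ (e * m - n) * ϖ ^ n * y')) * this
  · intro y z h
    rw [hmax, Ideal.mem_span_singleton]
    rw [hpm, hsplit] at h
    refine ⟨(u : O) ^ m * z, ?_⟩
    apply mul_left_cancel₀ (pow_ne_zero (e * m - n) hϖ.ne_zero)
    rw [h]; ring

theorem odd_pow_prime {p : ℕ} (hp : p.Prime) (h2 : p ≠ 2) (m : ℕ) : Odd (p ^ m) :=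
  (hp.odd_of_ne_two h2).pow


/-- a nonzero element of a free module is detected by a functional -/
theorem exists_functional_ne_zero {O L : Type*} [CommRing O] [AddCommGroup L] [Module.Finite ℤ L]
    [Module.Free ℤ L] (x : O ⊗[ℤ] L) (hx : x ≠ 0) : ∃ f : O ⊗[ℤ] L →ₗ[O] O, f x ≠ 0 := by
  classical
  let β := Module.Free.chooseBasis ℤ L
  let βO := β.baseChange O
  by_contra hcon
  push Not at hcon
  apply hx
  apply βO.repr.injective
  rw [map_zero]
  ext i
  exact hcon (βO.coord i)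

/-- the action of Hecke polynomials on parabolic homomorphisms -/
noncomputable def parEv (N : ℕ) (S : Set ℕ) : HeckePoly N S →+* Module.End ℤ (parM N ℤ) :=
  ((evalPar N ℤ).comp (polyIncl N S)).toRingHom

theorem parEv_apply (N : ℕ) (S : Set ℕ) (t : HeckePoly N S) :
    parEv N S t = evalPar N ℤ (polyIncl N S t) := rfl

theorem evalHecke_eq_zero {N : ℕ} [NeZero N] {S : Set ℕ} {t : HeckePoly N S}
    (ht : evalPar N ℤ (polyIncl N S t) = 0) : evalHecke N S t = 0 := by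
  have h2 : CuspForm.heckeEvalForms N 2 (polyIncl N S t) = 0 :=
    RingHom.mem_ker.mp (ker_evalPar_le N (RingHom.mem_ker.mpr ht))
  have h3 := coe_evalHecke N S t
  rw [h2, ZeroMemClass.coe_zero] at h3
  exact Subtype.ext (h3.trans (ZeroMemClass.coe_zero _).symm)

theorem parEv_X (N : ℕ) (S : Set ℕ) (i : GoodPrime N S) :
    parEv N S (MvPolynomial.X i) = hopPar N ℤ ⟨i.1, i.2.1⟩ := by
  rw [parEv_apply, polyIncl_X]
  exact evalEnd_X _ (hopPar_comm N ℤ) (⟨i.1, i.2.1⟩ : Nat.Primes)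

theorem support_ev {N : ℕ} [NeZero N] {S : Set ℕ} (H : HeckeOps N S (ModularCurve.JZero N))
    (ι : parM N ℤ →+ ModularCurve.JZero N)
    (hι : ∀ (i : GoodPrime N S) φ, ι (hopPar N ℤ ⟨i.1, i.2.1⟩ φ) = H.T i (ι φ))
    (t : HeckePoly N S) (φ : parM N ℤ) : ι (parEv N S t φ) = H.ev t (ι φ) := by
  have hT'' : ∀ i j : GoodPrime N S, hopPar N ℤ ⟨i.1, i.2.1⟩ * hopPar N ℤ ⟨j.1, j.2.1⟩ =
    hopPar N ℤ ⟨j.1, j.2.1⟩ * hopPar N ℤ ⟨i.1, i.2.1⟩ := fun i j => hopPar_comm N ℤ _ _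
  have e1 : parEv N S t = evalEnd (fun i : GoodPrime N S => hopPar N ℤ ⟨i.1, i.2.1⟩) hT'' t :=
    eq_evalEnd hT'' (parEv N S) (fun i => parEv_X N S i) t
  rw [e1]
  exact evalEnd_natural hT'' H.comm ι hι t φ

/-- the support map with values in a realised Eichler–Shimura module -/
theorem exists_support_realized {p N : ℕ} [NeZero N] {S : Set ℕ}
    {H : HeckeOps N S (ModularCurve.JZero N)} (G : H.IsES p) {n : ℕ} {E : ESModule N p S n} {m : ℕ}
    (R : Realized H E m) :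
    ∃ j : parM N ℤ →+ E.V, (∀ t φ, j (parEv N S t φ) = t • j φ) ∧
      ∀ φ, j φ = 0 → ∃ φ', φ = p ^ m • φ' := by
  obtain ⟨ι, hι1, hι2, hι3⟩ := G.support m
  have hex : ∀ φ, ∃ v, R.j v = ι φ := fun φ => (R.mem_range _).mp (hι1 φ)
  choose j hj using hex
  have hadd : ∀ a b, j (a + b) = j a + j b := fun a b => R.inj
    ((hj (a + b)).trans ((map_add ι a b).trans
      ((congrArg₂ (· + ·) (hj a) (hj b)).symm.trans (map_add R.j (j a) (j b)).symm)))
  refine ⟨AddMonoidHom.mk' j hadd, fun t φ => R.inj ?_, fun φ hφ => ?_⟩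
  · exact (hj _).trans ((support_ev H ι hι3 t φ).trans
      ((congrArg (H.ev t) (hj φ)).symm.trans (R.smul t (j φ)).symm))
  · exact hι2 φ ((hj φ).symm.trans ((congrArg R.j hφ).trans (map_zero R.j)))

theorem finite_of_realized {p N : ℕ} [NeZero N] {S : Set ℕ}
    {H : HeckeOps N S (ModularCurve.JZero N)} (G : H.IsES p) {n : ℕ} {E : ESModule N p S n} {m : ℕ}
    (R : Realized H E m) : Finite E.V := by
  have := G.finite m
  refine Finite.of_injective (fun v : E.V => (⟨R.j v, by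
    rw [mem_pTor]
    exact (R.mem_range _).mpr ⟨v, rfl⟩⟩ : pTor (ModularCurve.JZero N) (p ^ m))) ?_
  intro v w hvw
  exact R.inj (congrArg Subtype.val hvw)

/-- the estimate at a fixed level -/
theorem level_estimate {p N : ℕ} [NeZero N] {S : Finset ℕ} (hp : p.Prime)
    (hp2 : p ≠ 2) (hpS : p ∈ S) (hNS : ∀ q : ℕ, q.Prime → q ∣ N → q ∈ S)
    {O : Type} [CommRing O] [Module.Flat ℤ O] (χ' : HeckePoly N (↑S : Set ℕ) →+* O)
    {q : ℕ} (hq : q.Prime) (hqp : q ≠ p) {A : ValuationSubring (AlgebraicClosure ℚ)}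
    (hA : A.LiesOverPrime q) (t₁ : HeckePoly N (↑S : Set ℕ))
    {H : HeckeOps N (↑S : Set ℕ) (ModularCurve.JZero N)} (G : H.IsES p)
    (hkill : ∀ x : ModularCurve.JZero N, (∃ m : ℕ, p ^ m • x = 0) →
      (∀ s ∈ A.inertiaSubgroupIn ℚ, s • x = x) → H.ev t₁ x = 0)
    (x : O ⊗[ℤ] (parM N ℤ))
    (hx : ∀ r : HeckePoly N (↑S : Set ℕ), (parEv N (↑S : Set ℕ) r).baseChange O x = χ' r • x)
    {n : ℕ} (Λ : Level N p (↑S : Set ℕ) n) {m : ℕ} (R : Realized H Λ.E m) (d : O)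
    (hd : ∀ s ∈ A.inertiaSubgroupIn ℚ, ∀ r, Λ.Quad s r 1 →
      ∃ z, d * χ' (r - 2) = (p ^ m : ℕ) * z) :
    ∃ y : O ⊗[ℤ] (parM N ℤ), (χ' t₁ ^ 3 * d) • x = ((p ^ m : ℕ) : O) • y := by
  classical
  have hpmV : ∀ v : Λ.E.V, p ^ m • v = 0 := by
    intro v
    apply R.inj
    rw [map_nsmul, map_zero]
    exact (R.mem_range _).mpr ⟨v, rfl⟩
  have hfinV : Finite Λ.E.V := finite_of_realized G R
  let eI : Module.End (HeckePoly N (↑S : Set ℕ)) Λ.E.V →+* Module.End ℤ Λ.E.V := endInt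
  let T : HeckePoly N (↑S : Set ℕ) →+* Module.End ℤ Λ.E.V :=
    eI.comp (algebraMap (HeckePoly N (↑S : Set ℕ)) (Module.End (HeckePoly N (↑S : Set ℕ)) Λ.E.V))
  have hT : ∀ r v, T r v = r • v := fun r v => rfl
  let Aact : A.inertiaSubgroupIn ℚ →* Module.End ℤ Λ.E.V :=
    eI.toMonoidHom.comp (Λ.E.act.comp (A.inertiaSubgroupIn ℚ).subtype)
  have hAact : ∀ (s : A.inertiaSubgroupIn ℚ) v, Aact s v = Λ.E.act (s : GQ) v := fun s v => rfl
  -- the quadratic relations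
  have hquad : ∀ s : A.inertiaSubgroupIn ℚ, ∃ r, Λ.Quad (s : GQ) r 1 := by
    intro s
    obtain ⟨r, c', hr⟩ := exists_quad' hp hpS hNS Λ (s : GQ)
    refine ⟨r, quad_replace hp Λ hr ?_⟩
    rw [pow_one]
    exact inertia_apply_root hq hp hqp hA s.2 Λ.prim.pow_eq_one
  choose r hr using hquad
  obtain ⟨j, hj1, hj2⟩ := exists_support_realized G R
  refine tame_core Aact T (fun s r => ?_) (fun s => r s - 2) (fun s => ?_) t₁ (fun v hv => ?_)
    (parEv N (↑S : Set ℕ)) j hj1 (p ^ m) (odd_pow_prime hp hp2 m) hpmV hj2 χ' x hx d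
    (fun s => hd s s.2 (r s) (hr s))
  · refine LinearMap.ext fun v => ?_
    rw [Module.End.mul_apply, Module.End.mul_apply, hT, hT, hAact, hAact, map_smul]
  · refine LinearMap.ext fun v => ?_
    have h1 := LinearMap.congr_fun (hr s).1 v
    simp only [LinearMap.add_apply, LinearMap.sub_apply, Module.End.mul_apply,
      Module.algebraMap_end_apply, LinearMap.zero_apply, Nat.cast_one, one_smul] at h1
    rw [Module.End.mul_apply, Module.End.mul_apply, LinearMap.sub_apply, LinearMap.sub_apply,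
      Module.End.one_apply, Module.End.one_apply, hT, map_sub, hAact, hAact, sub_smul, two_smul]
    have h2 : r s • Λ.E.act (s : GQ) v = Λ.E.act s (Λ.E.act s v) + v := by
      rw [← sub_eq_zero, ← neg_eq_zero, ← h1]; abel
    rw [h2]
    abel
  · apply R.inj
    rw [map_zero, hT, R.smul]
    refine hkill _ ⟨m, (R.mem_range _).mpr ⟨v, rfl⟩⟩ fun s hs => ?_
    rw [← R.act]
    exact congrArg R.j (hv ⟨s, hs⟩)

/-- **The core of S36.** Suppose that inertia at `q` acts on the `p`-adic representation attached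
to a point `χ` of the Hecke algebra with trace two. If a Hecke polynomial `t₁` kills the
inertia-invariants of the `p`-power torsion of `J₀(N)`, then `χ(t₁) = 0`. -/
theorem chi_eq_zero_of_kills_invariants {p N : ℕ} [NeZero N] {S : Finset ℕ} (hp : p.Prime)
    (hp2 : p ≠ 2) (hpS : p ∈ S) (hNS : ∀ q : ℕ, q.Prime → q ∣ N → q ∈ S)
    (O : Type) [CommRing O] [IsDomain O] [IsDiscreteValuationRing O]
    [IsAdicComplete (maximalIdeal O) O] [CharZero O] (hpO : (p : O) ∈ maximalIdeal O)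
    (χ : CuspForm.heckeAlgebra N 2 (↑S : Set ℕ) →+* O) (ρ : GaloisRepAdic O)
    (hρ : ∀ (ℓ : ℕ) (hℓ : ℓ.Prime) (hℓN : ¬ ℓ ∣ N) (hℓS : ℓ ∉ (↑S : Set ℕ)),
      ∀ A : ValuationSubring (AlgebraicClosure ℚ), A.LiesOverPrime ℓ →
      ∀ σ : AlgebraicClosure ℚ ≃ₐ[ℚ] AlgebraicClosure ℚ, A.IsFrobeniusAt σ ℓ →
        LinearMap.charpoly (ρ.ρ σ) =
          X ^ 2 - C (χ (CuspForm.heckeAlgebra.T hℓ hℓN hℓS)) * X + C ((ℓ : O)))
    {q : ℕ} (hq : q.Prime) (hqp : q ≠ p) {A : ValuationSubring (AlgebraicClosure ℚ)}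
    (hA : A.LiesOverPrime q) (htr : ∀ s ∈ A.inertiaSubgroupIn ℚ, ρ.trace s = 2)
    (t₁ : HeckePoly N (↑S : Set ℕ))
    (hkill : ∀ x : ModularCurve.JZero N, (∃ m : ℕ, p ^ m • x = 0) →
      (∀ s ∈ A.inertiaSubgroupIn ℚ, s • x = x) → (opsJ N N (↑S : Set ℕ)).ev t₁ x = 0) :
    χ (evalHecke N (↑S : Set ℕ) t₁) = 0 := by
  classical
  haveI : Fact p.Prime := ⟨hp⟩
  let χ' : HeckePoly N (↑S : Set ℕ) →+* O := χ.comp (evalHecke N (↑S : Set ℕ)).toRingHom
  have hχ'a : ∀ t, χ' t = χ (evalHecke N (↑S : Set ℕ) t) := fun t => rfl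
  have hker : RingHom.ker (parEv N (↑S : Set ℕ)) ≤ RingHom.ker χ' := by
    intro t ht
    rw [RingHom.mem_ker, hχ'a, evalHecke_eq_zero (RingHom.mem_ker.mp ht), map_zero]
  obtain ⟨x, hx0, hx⟩ := exists_eigenvector_of_ker_le_domain (parEv N (↑S : Set ℕ)) χ' hker
  have hflat : Module.Flat ℤ O := inferInstance
  have G := (jZeroGeom N p).isES (↑S : Set ℕ)
  obtain ⟨c, hc⟩ := G.exists_realized
  obtain ⟨f, hf⟩ := exists_functional_ne_zero x hx0
  have hp0 : (p : O) ≠ 0 := by exact_mod_cast hp.ne_zero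
  have h3 : χ' t₁ ^ 3 * f x = 0 := by
    apply IsHausdorff.haus (I := maximalIdeal O) inferInstance
    intro n
    rw [SModEq.zero, smul_eq_mul, Ideal.mul_top]
    obtain ⟨E, ⟨R⟩⟩ := hc n
    obtain ⟨Λ, rfl⟩ := exists_level' hp E
    obtain ⟨d, hd0, hd1, hd2⟩ := exists_mul_pow hpO hp0 n (n + c) (Nat.le_add_right n c)
    obtain ⟨y, hy⟩ := level_estimate hp hp2 hpS hNS χ' hq hqp hA t₁ G hkill x hx Λ R d
      (fun s hs r hr => hd1 _ (by
        have h1 := (trace_det_sub_mem_of_quad hp hpO hpS hNS χ ρ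
          (fun ℓ hℓ hℓN hℓS _ => hρ ℓ hℓ hℓN hℓS) Λ hr).1
        rw [htr s hs] at h1
        rw [map_sub, map_ofNat, hχ'a, ← neg_sub]
        exact neg_mem h1))
    apply hd2 _ (f y)
    have h4 := congrArg f hy
    rw [map_smul, map_smul, smul_eq_mul, smul_eq_mul] at h4
    rw [← h4]
    ring
  rcases mul_eq_zero.mp h3 with h | h
  · exact pow_eq_zero_iff (n := 3) (by norm_num) |>.mp h
  · exact absurd h hf

end Fermat.Agent.QComp
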