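import Fermat.Agent.QComp.LocB

/-!
# Three component configurations
-/

set_option autoImplicit false
set_option linter.unusedSectionVars false
set_option linter.style.haveILetI false

open IsLocalRing

namespace Fermat.Agent.QComp

/-- A component of the special fibre: a valuation ring of `L` with a residue map on the subfield
`F0`, with values in `κ`, presented as a relation. -/
structure Comp {L : Type*} [Field L] (F0 : Subfield L) (κ : Type*) [Field κ] where
  /-- the valuation ring -/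
  V : ValuationSubring L
  /-- `Is f z`: the function `f` reduces to `z` -/
  Is : L → κ → Prop
  mem' : ∀ {f z}, Is f z → f ∈ V
  ex' : ∀ {f}, f ∈ F0 → f ∈ V → ∃ z, Is f z
  uniq' : ∀ {f z z'}, Is f z → Is f z' → z = z'
  zero' : Is 0 0
  one' : Is 1 1
  add' : ∀ {f g z w}, Is f z → Is g w → Is (f + g) (z + w)
  mul' : ∀ {f g z w}, Is f z → Is g w → Is (f * g) (z * w)
  neg' : ∀ {f z}, Is f z → Is (-f) (-z)
  nonunit_iff' : ∀ {f z}, Is f z → (f ∈ V.nonunits ↔ z = 0)

namespace Comp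

variable {L : Type*} [Field L] {F0 : Subfield L} {κ : Type*} [Field κ] {c : Comp F0 κ}

theorem mem {f : L} {z : κ} (h : c.Is f z) : f ∈ c.V := c.mem' h

theorem ex {f : L} (h : f ∈ F0) (h' : f ∈ c.V) : ∃ z, c.Is f z := c.ex' h h'

theorem uniq {f : L} {z z' : κ} (h : c.Is f z) (h' : c.Is f z') : z = z' := c.uniq' h h'

theorem Is.zero (c : Comp F0 κ) : c.Is 0 0 := c.zero'

theorem Is.one (c : Comp F0 κ) : c.Is 1 1 := c.one'

theorem Is.add {f g : L} {z w : κ} (h : c.Is f z) (h' : c.Is g w) : c.Is (f + g) (z + w) :=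
  c.add' h h'

theorem Is.mul {f g : L} {z w : κ} (h : c.Is f z) (h' : c.Is g w) : c.Is (f * g) (z * w) :=
  c.mul' h h'

theorem Is.neg {f : L} {z : κ} (h : c.Is f z) : c.Is (-f) (-z) := c.neg' h

theorem Is.sub {f g : L} {z w : κ} (h : c.Is f z) (h' : c.Is g w) : c.Is (f - g) (z - w) := by
  rw [sub_eq_add_neg, sub_eq_add_neg]; exact h.add h'.neg

theorem Is.pow {f : L} {z : κ} (h : c.Is f z) (n : ℕ) : c.Is (f ^ n) (z ^ n) := by
  induction n with
  | zero => rw [pow_zero, pow_zero]; exact Is.one c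
  | succ n ih => rw [pow_succ, pow_succ]; exact ih.mul h

theorem Is.nonunit_iff {f : L} {z : κ} (h : c.Is f z) : f ∈ c.V.nonunits ↔ z = 0 :=
  c.nonunit_iff' h

theorem is_zero_of_nonunit {f : L} (hf : f ∈ F0) (h : f ∈ c.V.nonunits) : c.Is f 0 := by
  obtain ⟨z, hz⟩ := c.ex hf (ValuationSubring.nonunits_subset h)
  rw [hz.nonunit_iff] at h
  rwa [h] at hz

theorem Is.ne_zero {f : L} {z : κ} (h : c.Is f z) (hz : z ≠ 0) : f ≠ 0 := by
  rintro rfl
  exact hz (c.uniq h (Is.zero c))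

theorem Is.inv_mem {f : L} {z : κ} (h : c.Is f z) (hz : z ≠ 0) : f⁻¹ ∈ c.V :=
  inv_mem_of_notMem_nonunits (fun h' => hz (h.nonunit_iff.1 h'))

theorem Is.inv {f : L} {z : κ} (h : c.Is f z) (hz : z ≠ 0) (hf : f ∈ F0) : c.Is f⁻¹ z⁻¹ := by
  obtain ⟨w, hw⟩ := c.ex (F0.inv_mem hf) (h.inv_mem hz)
  have h1 := h.mul hw
  rw [mul_inv_cancel₀ (h.ne_zero hz)] at h1
  have h2 := c.uniq h1 (Is.one c)
  rw [← eq_inv_of_mul_eq_one_right h2]
  exact hw

theorem Is.div {f g : L} {z w : κ} (h : c.Is f z) (h' : c.Is g w) (hw : w ≠ 0) (hg : g ∈ F0) :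
    c.Is (f / g) (z / w) := by
  rw [div_eq_mul_inv, div_eq_mul_inv]; exact h.mul (h'.inv hw hg)

/-- the residue map on a subring -/
theorem exists_hom (c : Comp F0 κ) (S : Subring L) (hS : S ≤ F0.toSubring)
    (hS' : S ≤ c.V.toSubring) : ∃ ρ : S →+* κ, (∀ b : S, c.Is b (ρ b)) ∧
      ∀ b : S, ρ b = 0 ↔ (b : L) ∈ c.V.nonunits := by
  have h1 : ∀ b : S, ∃ z, c.Is (b : L) z := fun b => c.ex (hS b.2) (hS' b.2)
  choose r hr using h1
  refine ⟨{ toFun := r
            map_one' := c.uniq (hr 1) (Is.one c)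
            map_mul' := fun x y => c.uniq (hr (x * y)) ((hr x).mul (hr y))
            map_zero' := c.uniq (hr 0) (Is.zero c)
            map_add' := fun x y => c.uniq (hr (x + y)) ((hr x).add (hr y)) },
    fun b => hr b, fun b => (hr b).nonunit_iff.symm⟩

end Comp

section Tri

variable {L : Type*} [Field L]

theorem mem_of_pow_mem {V : ValuationSubring L} {x : L} {n : ℕ} (hn : 0 < n) (h : x ^ n ∈ V) :
    x ∈ V := by
  rw [← V.valuation_le_one_iff] at h ⊢
  rw [map_pow] at h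
  by_contra hx
  push Not at hx
  exact absurd h (not_le.2 (one_lt_pow₀ hx hn.ne'))

/-- the valuation-theoretic data of the three components needed for the local analysis. -/
structure TriVal (S : Subring L) (VI VM VZ : ValuationSubring L) (ϖ : L) (N : ℕ) : Prop where
  leI : S ≤ VI.toSubring
  leM : S ≤ VM.toSubring
  leZ : S ≤ VZ.toSubring
  mem : ϖ ∈ S
  ne_zero : ϖ ≠ 0
  pos : 0 < N
  nuI : ϖ ∈ VI.nonunits
  nuM : ϖ ∈ VM.nonunits
  nuZ : ϖ ∈ VZ.nonunits
  valI : ∀ z ∈ S, z ∈ VI.nonunits → z / ϖ ∈ VI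
  valM : ∀ z ∈ S, z ∈ VM.nonunits → z ^ N / ϖ ∈ VM
  valZ : ∀ z ∈ S, z ∈ VZ.nonunits → z / ϖ ∈ VZ
  int : ∀ z ∈ S, z / ϖ ∈ VI → z / ϖ ∈ VM → z / ϖ ∈ VZ → z / ϖ ∈ S

variable {S : Subring L} {VI VM VZ : ValuationSubring L} {ϖ : L} {N : ℕ}

theorem TriVal.locSys (H : TriVal S VI VM VZ ϖ N) {P : Ideal S} {aI aM aZ η : S}
    (hI : (aI : L) ∈ VI.nonunits) (hM : (aM : L) ∈ VM.nonunits) (hZ : (aZ : L) ∈ VZ.nonunits)
    (hη : η ∉ P) (hη0 : η ≠ 0) (hprod : (aI : L) * (aM : L) ^ N * aZ = ϖ * η) :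
    LocSys S P ![VI, VM, VZ] ⟨ϖ, H.mem⟩ ![aI, aM, aZ] ![1, N, 1] η := by
  have hϖ0 := H.ne_zero
  have hne : (aI : L) * (aM : L) ^ N * aZ ≠ 0 := by
    rw [hprod]
    exact mul_ne_zero hϖ0 (fun h => hη0 (Subtype.ext h))
  have haZ : aZ ≠ 0 := by rintro rfl; exact hne (by simp)
  have haI : aI ≠ 0 := by rintro rfl; exact hne (by simp)
  have haM : aM ≠ 0 := by
    rintro rfl
    apply hne
    have : ((0 : S) : L) ^ N = 0 := by simp [H.pos.ne']
    rw [this]; simp
  have hIϖ := H.valI _ aI.2 hI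
  have hMϖ := H.valM _ aM.2 hM
  have hZϖ := H.valZ _ aZ.2 hZ
  refine ⟨fun c => ?_, fun c => ?_, fun c => ?_, hη, ?_, fun c => ?_⟩
  · fin_cases c
    · exact H.leI
    · exact H.leM
    · exact H.leZ
  · fin_cases c
    · exact hI
    · exact hM
    · exact hZ
  · fin_cases c
    · exact haI
    · exact haM
    · exact haZ
  · rw [Fin.prod_univ_three]
    apply Subtype.ext
    simpa using hprod
  · fin_cases c
    · -- `∞`
      intro b hb
      have hbϖ := H.valI _ b.2 hb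
      have h1 : (b : L) * (aM : L) ^ N * aZ ∈ S := mul_mem (mul_mem b.2 (pow_mem aM.2 N)) aZ.2
      have h2 : (b : L) * (aM : L) ^ N * aZ / ϖ ∈ S := by
        refine H.int _ h1 ?_ ?_ ?_
        · have : (b : L) * (aM : L) ^ N * aZ / ϖ = (b : L) / ϖ * ((aM : L) ^ N * aZ) := by ring
          rw [this]
          exact mul_mem hbϖ (H.leI (mul_mem (pow_mem aM.2 N) aZ.2))
        · have : (b : L) * (aM : L) ^ N * aZ / ϖ = (aM : L) ^ N / ϖ * ((b : L) * aZ) := by ring
          rw [this]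
          exact mul_mem hMϖ (H.leM (mul_mem b.2 aZ.2))
        · have : (b : L) * (aM : L) ^ N * aZ / ϖ = (aZ : L) / ϖ * ((b : L) * (aM : L) ^ N) := by ring
          rw [this]
          exact mul_mem hZϖ (H.leZ (mul_mem b.2 (pow_mem aM.2 N)))
      refine ⟨⟨_, h2⟩, Subtype.ext ?_⟩
      change (aI : L) * ((b : L) * (aM : L) ^ N * aZ / ϖ) = b * η
      field_simp
      linear_combination (b : L) * hprod
    · -- middle
      intro b hb
      have hbϖ := H.valM _ b.2 hb
      obtain ⟨m, hm⟩ : ∃ m, N = m + 1 := ⟨N - 1, by have := H.pos; omega⟩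
      have h1 : (b : L) * (aM : L) ^ m * (aI * aZ) ∈ S :=
        mul_mem (mul_mem b.2 (pow_mem aM.2 m)) (mul_mem aI.2 aZ.2)
      have h3 : (b : L) * (aM : L) ^ m / ϖ ∈ VM := by
        apply mem_of_pow_mem H.pos
        have h4 : ((b : L) * (aM : L) ^ m / ϖ) ^ N = ((b : L) ^ N / ϖ) * ((aM : L) ^ N / ϖ) ^ m := by
          rw [div_pow, div_pow, mul_pow, ← pow_mul, ← pow_mul, mul_comm m N,
            div_mul_div_comm, ← pow_succ' ϖ m, ← hm]
        rw [h4]
        exact mul_mem hbϖ (pow_mem hMϖ m)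
      have h2 : (b : L) * (aM : L) ^ m * (aI * aZ) / ϖ ∈ S := by
        refine H.int _ h1 ?_ ?_ ?_
        · have : (b : L) * (aM : L) ^ m * (aI * aZ) / ϖ =
              (aI : L) / ϖ * ((b : L) * (aM : L) ^ m * aZ) := by ring
          rw [this]
          exact mul_mem hIϖ (H.leI (mul_mem (mul_mem b.2 (pow_mem aM.2 m)) aZ.2))
        · have : (b : L) * (aM : L) ^ m * (aI * aZ) / ϖ =
              (b : L) * (aM : L) ^ m / ϖ * (aI * aZ) := by ring
          rw [this]
          exact mul_mem h3 (H.leM (mul_mem aI.2 aZ.2))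
        · have : (b : L) * (aM : L) ^ m * (aI * aZ) / ϖ =
              (aZ : L) / ϖ * ((b : L) * (aM : L) ^ m * aI) := by ring
          rw [this]
          exact mul_mem hZϖ (H.leZ (mul_mem (mul_mem b.2 (pow_mem aM.2 m)) aI.2))
      refine ⟨⟨_, h2⟩, Subtype.ext ?_⟩
      change (aM : L) * ((b : L) * (aM : L) ^ m * (aI * aZ) / ϖ) = b * η
      rw [hm] at hprod
      field_simp
      linear_combination (b : L) * hprod
    · -- `0`
      intro b hb
      have hbϖ := H.valZ _ b.2 hb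
      have h1 : (b : L) * (aM : L) ^ N * aI ∈ S := mul_mem (mul_mem b.2 (pow_mem aM.2 N)) aI.2
      have h2 : (b : L) * (aM : L) ^ N * aI / ϖ ∈ S := by
        refine H.int _ h1 ?_ ?_ ?_
        · have : (b : L) * (aM : L) ^ N * aI / ϖ = (aI : L) / ϖ * ((b : L) * (aM : L) ^ N) := by ring
          rw [this]
          exact mul_mem hIϖ (H.leI (mul_mem b.2 (pow_mem aM.2 N)))
        · have : (b : L) * (aM : L) ^ N * aI / ϖ = (aM : L) ^ N / ϖ * ((b : L) * aI) := by ring
          rw [this]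
          exact mul_mem hMϖ (H.leM (mul_mem b.2 aI.2))
        · have : (b : L) * (aM : L) ^ N * aI / ϖ = (b : L) / ϖ * ((aM : L) ^ N * aI) := by ring
          rw [this]
          exact mul_mem hbϖ (H.leZ (mul_mem (pow_mem aM.2 N) aI.2))
      refine ⟨⟨_, h2⟩, Subtype.ext ?_⟩
      change (aZ : L) * ((b : L) * (aM : L) ^ N * aI / ϖ) = b * η
      field_simp
      linear_combination (b : L) * hprod

end Tri

end Fermat.Agent.QComp
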