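import Fermat.Agent.QComp.TwoLevel

/-!
# Filling the polar parts
-/

set_option autoImplicit false
set_option linter.unusedSectionVars false
set_option linter.style.haveILetI false

open AlgebraicCurve IntermediateField Module

namespace Fermat.Agent.QComp

open Fermat.Agent.FF Fermat.Agent.Red

variable {K k : Type*} [Field K] [Field k] {A : ValuationSubring K} {π : A →+* k}
  {F₀ F κ : Type*} [Field F₀] [Algebra K F₀] [Field F] [Algebra K F] [Field κ] [Algebra k κ]
  [IsAlgClosed K] [CharZero K] [IsAlgClosed k] [IsFnField K F₀] [IsFnField K F] [IsFnField k κ]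

namespace TwoLevel

variable {R₀ : ConstRed A π F₀ κ} {R₁ R₂ : ConstRed A π F κ} {j : F₀} {jb : κ}
    {α : F₀ →ₐ[K] F} {w : F →ₐ[K] F} {Fr : κ →ₐ[k] κ} {q : ℕ}
    (H : TwoLevel R₀ R₁ R₂ j jb α w Fr q)

omit [IsFnField k κ] [IsAlgClosed k] in
theorem mem_Lm_pow [IsFnField k κ] [IsAlgClosed k] {b : κ} {m : ℕ} :
    b ∈ riemannRochSpace (m • RR.poleDiv (K := k) (jb ^ (q + 1))) ↔
      b ∈ riemannRochSpace (((q + 1) * m) • RR.poleDiv (K := k) jb) := by
  rw [poleDiv_pow, smul_smul, mul_comm m]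

/-- the multiplier used to fill polar parts -/
def om (jb : κ) (q M : ℕ) : κ := jb ^ (q * (M - q)) * (jb - jb ^ (q ^ 2))

include H

theorem om_ne (M : ℕ) : om jb q M ≠ 0 :=
  mul_ne_zero (pow_ne_zero _ (transcendental_ne_zero H.t0)) H.jb_ne

theorem ord_om {M : ℕ} (hM : q ≤ M) {P : Place k κ} (hP : P.ord jb < 0) :
    P.ord (om jb q M) = (q * M : ℕ) * P.ord jb := by
  have hq := H.hq
  rw [om, P.ord_mul (pow_ne_zero _ (transcendental_ne_zero H.t0)) H.jb_ne, ord_pow,
    ord_sub_pow hP (by nlinarith), ← add_mul]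
  congr 1
  obtain ⟨r, rfl⟩ := Nat.exists_eq_add_of_le hM
  rw [Nat.add_sub_cancel_left]
  push_cast
  ring

/-- multiplication by `om` -/
theorem om_mul_mem {M : ℕ} (hM : q ≤ M) {c : κ}
    (hc : c ∈ riemannRochSpace (M • RR.poleDiv (K := k) jb)) :
    om jb q M * c ∈ riemannRochSpace (M • RR.poleDiv (K := k) (jb ^ (q + 1))) := by
  rw [mem_Lm_pow]
  have h1 : om jb q M ∈ riemannRochSpace ((q * M) • RR.poleDiv (K := k) jb) := by
    rw [mem_Lm]
    intro P
    right
    rcases lt_or_ge (P.ord jb) 0 with hP | hP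
    · rw [H.ord_om hM hP, max_eq_right (by omega)]
      have : ((q * M : ℕ) : ℤ) * P.ord jb + ((q * M : ℕ) : ℤ) * -P.ord jb = 0 := by ring
      omega
    · rw [max_eq_left (by omega), mul_zero, add_zero]
      have h2 : om jb q M ∈ regAlg k jb :=
        mul_mem (pow_mem (self_mem_regAlg _) _)
          (sub_mem (self_mem_regAlg _) (pow_mem (self_mem_regAlg _) _))
      exact mem_regAlg_iff.1 h2 P hP
  have h2 := mul_mem_Lm h1 hc
  have e : q * M + M = (q + 1) * M := by ring
  rwa [e] at h2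

theorem of_om_mul_mem {M : ℕ} (hM : q + 1 ≤ M) {c : κ}
    (hc : c ∈ riemannRochSpace (M • RR.poleDiv (K := k) jb))
    (h : om jb q M * c ∈ riemannRochSpace ((M - 1) • RR.poleDiv (K := k) (jb ^ (q + 1)))) :
    c ∈ riemannRochSpace ((M - (q + 1)) • RR.poleDiv (K := k) jb) := by
  rcases eq_or_ne c 0 with rfl | hc0
  · exact zero_mem _
  rw [mem_Lm_pow] at h
  have hreg := mem_regAlg_iff.1 (mem_regAlg_of_mem_Lm hc)
  rw [mem_Lm] at h ⊢
  intro P
  right
  rcases lt_or_ge (P.ord jb) 0 with hP | hP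
  · have h1 := (h P).resolve_left (mul_ne_zero (H.om_ne M) hc0)
    rw [P.ord_mul (H.om_ne M) hc0, H.ord_om (by omega) hP, max_eq_right (by omega)] at h1
    rw [max_eq_right (by omega)]
    obtain ⟨r, rfl⟩ := Nat.exists_eq_add_of_le hM
    have e1 : q + 1 + r - 1 = q + r := by omega
    have e2 : q + 1 + r - (q + 1) = r := by omega
    rw [e1] at h1
    rw [e2]
    have e3 : ((q * (q + 1 + r) : ℕ) : ℤ) * P.ord jb + P.ord c +
        (((q + 1) * (q + r) : ℕ) : ℤ) * -P.ord jb = P.ord c + (r : ℤ) * -P.ord jb := by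
      push_cast
      ring
    omega
  · rw [max_eq_left (by omega), mul_zero, add_zero]
    exact hreg P hP

/-- filling polar parts on the level `M` curve -/
theorem exists_fill : ∃ M₀ : ℕ, ∀ M, M₀ ≤ M → ∀ g ∈ riemannRochSpace
    (M • RR.poleDiv (K := k) (jb ^ (q + 1))), ∃ c ∈ riemannRochSpace (M • RR.poleDiv (K := k) jb),
      g - om jb q M * c ∈ riemannRochSpace ((M - 1) • RR.poleDiv (K := k) (jb ^ (q + 1))) := by
  refine ⟨2 * genusFF k κ + q + 1, fun M hM => ?_⟩
  set W : Submodule k κ := riemannRochSpace (M • RR.poleDiv (K := k) (jb ^ (q + 1))) with hW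
  set W' : Submodule k κ := riemannRochSpace ((M - 1) • RR.poleDiv (K := k) (jb ^ (q + 1))) with hW'
  set V : Submodule k κ := riemannRochSpace (M • RR.poleDiv (K := k) jb) with hV
  set V' : Submodule k κ := riemannRochSpace ((M - (q + 1)) • RR.poleDiv (K := k) jb) with hV'
  have hinj : Function.Injective (LinearMap.mulLeft k (om jb q M)) :=
    mul_right_injective₀ (H.om_ne M)
  set U : Submodule k κ := V.map (LinearMap.mulLeft k (om jb q M)) with hU
  have h1 : finrank k U = finrank k V := (Submodule.equivMapOfInjective _ hinj V).finrank_eq.symm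
  have h2 : U ≤ W := by
    rintro _ ⟨c, hc, rfl⟩
    exact H.om_mul_mem (by omega) hc
  have h3 : W' ≤ W := Lm_mono (by omega)
  have h4 : U ⊓ W' ≤ V'.map (LinearMap.mulLeft k (om jb q M)) := by
    rintro _ ⟨⟨c, hc, rfl⟩, h⟩
    exact ⟨c, H.of_om_mul_mem (by omega) hc h, rfl⟩
  have h5 : finrank k (U ⊓ W' : Submodule k κ) ≤ finrank k V' := by
    have := Submodule.finrank_mono h4
    rwa [← (Submodule.equivMapOfInjective _ hinj V').finrank_eq] at this
  have h6 := Submodule.finrank_sup_add_finrank_inf_eq U W'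
  haveI := IsFnField.finiteDimensional (K := k) H.t0
  haveI := IsFnField.finiteDimensional (K := k) H.txb
  have hd : (finrank k⟮jb ^ (q + 1)⟯ κ : ℤ) = (q + 1) * finrank k⟮jb⟯ κ := by
    rw [← RR.degree_poleDiv H.txb, poleDiv_pow, map_nsmul, RR.degree_poleDiv H.t0, nsmul_eq_mul]
    push_cast
    ring
  have e1 := ell_Lm (K := k) H.t0 (m := M) (by omega)
  have e2 := ell_Lm (K := k) H.t0 (m := M - (q + 1)) (by omega)
  have e3 := ell_Lm (K := k) H.txb (m := M) (by omega)
  have e4 := ell_Lm (K := k) H.txb (m := M - 1) (by omega)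
  rw [hd] at e3 e4
  have h7 : finrank k W ≤ finrank k (U ⊔ W' : Submodule k κ) := by
    have h9 : (finrank k W : ℤ) = finrank k V + finrank k W' - finrank k V' := by
      rw [hW, hV, hW', hV', e1, e2, e3, e4, Nat.cast_sub (show q + 1 ≤ M by omega),
        Nat.cast_sub (show 1 ≤ M by omega)]
      push_cast
      ring
    omega
  have h8 : U ⊔ W' = W := Submodule.eq_of_le_of_finrank_le (sup_le h2 h3) h7
  intro g hg
  rw [← h8, Submodule.mem_sup] at hg
  obtain ⟨_, ⟨c, hc, rfl⟩, z, hz, rfl⟩ := hg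
  refine ⟨c, hc, ?_⟩
  rwa [LinearMap.mulLeft_apply, add_sub_cancel_left]

/-- lifting the filling functions -/
theorem exists_om_lift : ∃ M₀ : ℕ, ∀ M, M₀ ≤ M → ∀ c ∈ riemannRochSpace
    (M • RR.poleDiv (K := k) jb), ∃ f ∈ riemannRochSpace
      (M • RR.poleDiv (K := K) (α j * w (α j))), R₁.IsRed f (om jb q M * c) ∧ R₂.IsRed f 0 := by
  obtain ⟨m₀, hm₀⟩ := H.lift
  refine ⟨m₀ + q, fun M hM c hc => ?_⟩
  obtain ⟨f, hf, hfc⟩ := hm₀ M (by omega) c hc
  refine ⟨α f * (w (α j) ^ (M - q) * (α j - w (α j) ^ q)), ?_, ?_, ?_⟩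
  · have h1 := mem_Lm_of_algHom α H.tj hf
    have h2 := self_pow_mem_Lm (K := K) (w (α j)) (M - q)
    have h3 : α j - w (α j) ^ q ∈ riemannRochSpace (q • RR.poleDiv (K := K) (w (α j))) :=
      Submodule.sub_mem _ H.pole (self_pow_mem_Lm (K := K) (w (α j)) q)
    have h4 := RR.mul_mem_riemannRochSpace h1 (RR.mul_mem_riemannRochSpace h2 h3)
    convert h4 using 2
    rw [H.poleDiv_x, smul_add, ← add_smul, Nat.sub_add_cancel (by omega)]
  · have h1 := (H.redα _ _ hfc).mul (((H.redβ _ _ H.r0).pow (M - q)).mul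
      ((H.redα _ _ H.r0).sub ((H.redβ _ _ H.r0).pow q)))
    rw [H.Frj] at h1
    convert h1 using 1
    rw [om, ← pow_mul, ← pow_mul, sq]
    ring
  · have h1 := (H.redα2 hfc).mul (((H.redβ2 H.r0).pow (M - q)).mul
      ((H.redα2 H.r0).sub ((H.redβ2 H.r0).pow q)))
    rw [H.Frj, sub_self, mul_zero, mul_zero] at h1
    exact h1

/-- `w` preserves the bounds on poles -/
theorem w_mem {f : F} {m : ℕ}
    (hf : f ∈ riemannRochSpace (m • RR.poleDiv (K := K) (α j * w (α j)))) :
    w f ∈ riemannRochSpace (m • RR.poleDiv (K := K) (α j * w (α j))) := by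
  have htx : Transcendental K (α j * w (α j)) := transcendental_of_isRed H.r1 H.txb
  have h := mem_Lm_of_algHom w htx hf
  rwa [H.fixx] at h

end TwoLevel

end Fermat.Agent.QComp
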