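import Fermat.Agent.QComp.TwoGlue

/-!
# The nodes and the Frobenius action
-/

set_option autoImplicit false
set_option linter.unusedSectionVars false
set_option linter.style.haveILetI false

open AlgebraicCurve IntermediateField Module

namespace Fermat.Agent.QComp

open Fermat.Agent.FF Fermat.Agent.Red

variable {K k : Type*} [Field K] [Field k] {A : ValuationSubring K} {π : A →+* k}
  {F₀ F κ : Type*} [Field F₀] [Algebra K F₀] [Field F] [Algebra K F] [Field κ] [Algebra k κ]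
  [IsAlgClosed K] [CharZero K] [IsAlgClosed k] [IsFnField K F₀] [IsFnField K F] [IsFnField k κ]

/-- a semilinear endomorphism of `F` compatible with both reductions -/
structure SemiRed (R₁ R₂ : ConstRed A π F κ) (x : F) (τ : F →+* F) (σ : K →+* K)
    (ψ : κ →+* κ) : Prop where
  comm : ∀ c, τ (algebraMap K F c) = algebraMap K F (σ c)
  fix : τ x = x
  red1 : ∀ f b, R₁.IsRed f b → R₁.IsRed (τ f) (ψ b)
  red2 : ∀ f b, R₂.IsRed f b → R₂.IsRed (τ f) (ψ b)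

namespace TwoLevel

variable {R₀ : ConstRed A π F₀ κ} {R₁ R₂ : ConstRed A π F κ} {j : F₀} {jb : κ}
    {α : F₀ →ₐ[K] F} {w : F →ₐ[K] F} {Fr : κ →ₐ[k] κ} {q : ℕ}

theorem Glued.semi {x : F} [FiniteDimensional K⟮x⟯ F] {τ : F →+* F} {σ : K →+* K}
    {ψ : κ →+* κ} (h : SemiRed R₁ R₂ x τ σ ψ)
    {b₁ b₂ : κ} (hb : Glued R₁ R₂ x b₁ b₂) : Glued R₁ R₂ x (ψ b₁) (ψ b₂) := by
  obtain ⟨f, hf, h1, h2⟩ := hb
  exact ⟨τ f, mem_regAlg_of_isIntegral (isIntegral_semi h.comm h.fix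
    (isIntegral_of_mem_regAlg hf)), h.red1 _ _ h1, h.red2 _ _ h2⟩

/-- a Frobenius structure on a two level situation -/
structure Frob (R₁ R₂ : ConstRed A π F κ) (x : F) (Fr : κ →ₐ[k] κ) (Q : ℕ)
    (τ τ' : F →+* F) (σ σ' : K →+* K) (ψ ψ' : κ →+* κ) : Prop where
  hQ : 1 < Q
  semi : SemiRed R₁ R₂ x τ σ ψ
  semi' : SemiRed R₁ R₂ x τ' σ' ψ'
  inv : ∀ b, ψ' (ψ b) = b
  frob : ∀ b, Fr (Fr (ψ b)) = b ^ Q

variable (H : TwoLevel R₀ R₁ R₂ j jb α w Fr q)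
include H

theorem psi_mem {τ : F →+* F} {σ : K →+* K} {ψ : κ →+* κ}
    (h : SemiRed R₁ R₂ (α j * w (α j)) τ σ ψ) {b : κ}
    (hb : b ∈ regAlg k (jb ^ (q + 1))) : ψ b ∈ regAlg k (jb ^ (q + 1)) := by
  haveI := H.twoRed.fd
  exact Glued.mem2 H (Glued.semi h (H.glued_Fr' hb))

variable {Q : ℕ} {τ τ' : F →+* F} {σ σ' : K →+* K} {ψ ψ' : κ →+* κ}

theorem psi_sub_pow_mem (Φ : Frob R₁ R₂ (α j * w (α j)) Fr Q τ τ' σ σ' ψ ψ')
    {b : κ} (hb : b ∈ regAlg k (jb ^ (q + 1))) :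
    (⟨ψ b, H.psi_mem Φ.semi hb⟩ - ⟨b, hb⟩ ^ Q : regAlg k (jb ^ (q + 1))) ∈ H.cond := by
  have h1 := H.Fr_Fr_mem (H.psi_mem Φ.semi hb)
  convert h1 using 2
  apply Subtype.ext
  change b ^ Q = Fr (Fr (ψ b))
  rw [Φ.frob]

theorem isReduced_quot (Φ : Frob R₁ R₂ (α j * w (α j)) Fr Q τ τ' σ σ' ψ ψ') :
    IsReduced (regAlg k (jb ^ (q + 1)) ⧸ H.cond) := by
  haveI := H.twoRed.fd
  rw [isReduced_iff_pow_one_lt Q Φ.hQ]
  intro c hc
  obtain ⟨b, rfl⟩ := Ideal.Quotient.mk_surjective c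
  rw [← map_pow, Ideal.Quotient.eq_zero_iff_mem] at hc
  have h1 := H.cond.add_mem (H.psi_sub_pow_mem Φ b.2) hc
  rw [sub_add_cancel, mem_cond] at h1
  have h2 := Glued.semi Φ.semi' h1
  rw [Ideal.Quotient.eq_zero_iff_mem, mem_cond]
  change Glued R₁ R₂ _ (ψ' 0) (ψ' (ψ b)) at h2
  rwa [map_zero, Φ.inv] at h2

/-- **The nodes of the reduction.** -/
noncomputable def nodes (hπ : Function.Surjective π)
    (Φ : Frob R₁ R₂ (α j * w (α j)) Fr Q τ τ' σ σ' ψ ψ')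
    [Fintype ((regAlg k (jb ^ (q + 1)) ⧸ H.cond) →ₐ[k] k)] :
    Nodes R₁ R₂ (α j * w (α j)) (jb ^ (q + 1)) (jb ^ (q + 1))
      ((regAlg k (jb ^ (q + 1)) ⧸ H.cond) →ₐ[k] k) where
  e₁ s := (s.comp (Ideal.Quotient.mkₐ k H.cond)).comp H.FrB
  e₂ s := s.comp (Ideal.Quotient.mkₐ k H.cond)
  glue f hf b₁ b₂ h1 h2 s := by
    have h3 := (H.glued_iff b₁.2 b₂.2).1 ⟨f, hf, h1, h2⟩
    rw [← Ideal.Quotient.eq_zero_iff_mem, map_sub, sub_eq_zero] at h3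
    exact congrArg s h3.symm
  surj c := by
    haveI := (H.finrank_quot hπ).1
    haveI := H.isReduced_quot Φ
    obtain ⟨x, hx⟩ := (card_points (k := k) (C := regAlg k (jb ^ (q + 1)) ⧸ H.cond)).2 c
    obtain ⟨b, rfl⟩ := Ideal.Quotient.mk_surjective x
    exact ⟨b, hx⟩
  card := by
    haveI := (H.finrank_quot hπ).1
    haveI := H.isReduced_quot Φ
    rw [(card_points (k := k) (C := regAlg k (jb ^ (q + 1)) ⧸ H.cond)).1]
    have := (H.finrank_quot hπ).2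
    omega

theorem semiEnd_frob (hπ : Function.Surjective π)
    (Φ : Frob R₁ R₂ (α j * w (α j)) Fr Q τ τ' σ σ' ψ ψ')
    [Fintype ((regAlg k (jb ^ (q + 1)) ⧸ H.cond) →ₐ[k] k)] :
    SemiEnd (H.nodes hπ Φ) Q τ σ ψ ψ where
  comm := Φ.semi.comm
  fix := Φ.semi.fix
  red1 := Φ.semi.red1
  red2 := Φ.semi.red2
  reg2 b hb := H.psi_mem Φ.semi hb
  e2 s b b' hb' := by
    have h1 := H.psi_sub_pow_mem Φ b.2
    rw [← Ideal.Quotient.eq_zero_iff_mem, map_sub, sub_eq_zero, map_pow] at h1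
    have h2 : b' = ⟨ψ b, H.psi_mem Φ.semi b.2⟩ := Subtype.ext hb'
    rw [h2, ← map_pow]
    have h3 := congrArg s h1
    rw [map_pow] at h3
    rw [map_pow]
    exact h3

theorem semiEnd_inertia (hπ : Function.Surjective π)
    (Φ : Frob R₁ R₂ (α j * w (α j)) Fr Q τ τ' σ σ' ψ ψ')
    [Fintype ((regAlg k (jb ^ (q + 1)) ⧸ H.cond) →ₐ[k] k)] {s : F →+* F} {s₀ : K →+* K}
    (hs : SemiRed R₁ R₂ (α j * w (α j)) s s₀ (RingHom.id κ)) :
    SemiEnd (H.nodes hπ Φ) 1 s s₀ (RingHom.id κ) (RingHom.id κ) where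
  comm := hs.comm
  fix := hs.fix
  red1 := hs.red1
  red2 := hs.red2
  reg2 b hb := hb
  e2 s b b' hb' := by
    have h2 : b' = b := Subtype.ext hb'
    rw [h2, pow_one]

end TwoLevel

/-! ### Consequences -/

variable {R₀ : ConstRed A π F₀ κ} {R₁ R₂ : ConstRed A π F κ} {j : F₀} {jb : κ}
    {α : F₀ →ₐ[K] F} {w : F →ₐ[K] F} {Fr : κ →ₐ[k] κ} {q : ℕ}
    (H : TwoLevel R₀ R₁ R₂ j jb α w Fr q)
    {Q : ℕ} {τ τ' : F →+* F} {σ σ' : K →+* K} {ψ ψ' : κ →+* κ}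
    {n : ℕ} {y : F} {D : Divisor K F} {c₁ c₂ : K} {a₁ a₂ : κ}

include H

/-- inertia acts trivially on classes of type `W1` -/
theorem W1.inertia (W : W1 R₁ R₂ n y D c₁ c₂ a₁ a₂) (hA : IsArch A)
    (hA' : ∃ c : A, ¬ IsUnit c ∧ c ≠ 0) (hn : (n : k) ≠ 0) (hπ : Function.Surjective π)
    (Φ : TwoLevel.Frob R₁ R₂ (α j * w (α j)) Fr Q τ τ' σ σ' ψ ψ')
    {s : F →+* F} {s₀ : K →+* K}
    (hs : SemiRed R₁ R₂ (α j * w (α j)) s s₀ (RingHom.id κ)) {D₁ : Divisor K F}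
    (hD₁ : Divisor.degree D₁ = 0) (hdiv : ∀ P, (n : ℤ) * D₁ P = P.ord (s y / y)) :
    ∃ f : F, f ^ n = s y / y := by
  haveI := (H.finrank_quot hπ).1
  haveI : Fintype ((regAlg k (jb ^ (q + 1)) ⧸ H.cond) →ₐ[k] k) := Fintype.ofFinite _
  have h := W.semi H.twoRed hA hA' hn hπ (H.nodes hπ Φ) (H.semiEnd_inertia hπ Φ hs) hD₁
    (by rw [pow_one]; exact hdiv)
  rwa [pow_one] at h

/-- the square of Frobenius acts on classes of type `W1` as multiplication by `Q = q²` -/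
theorem W1.frobenius (W : W1 R₁ R₂ n y D c₁ c₂ a₁ a₂) (hA : IsArch A)
    (hA' : ∃ c : A, ¬ IsUnit c ∧ c ≠ 0) (hn : (n : k) ≠ 0) (hπ : Function.Surjective π)
    (Φ : TwoLevel.Frob R₁ R₂ (α j * w (α j)) Fr Q τ τ' σ σ' ψ ψ') {D₁ : Divisor K F}
    (hD₁ : Divisor.degree D₁ = 0) (hdiv : ∀ P, (n : ℤ) * D₁ P = P.ord (τ y / y ^ Q)) :
    ∃ f : F, f ^ n = τ y / y ^ Q := by
  haveI := (H.finrank_quot hπ).1
  haveI : Fintype ((regAlg k (jb ^ (q + 1)) ⧸ H.cond) →ₐ[k] k) := Fintype.ofFinite _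
  exact W.semi H.twoRed hA hA' hn hπ (H.nodes hπ Φ) (H.semiEnd_frob hπ Φ) hD₁ hdiv

end Fermat.Agent.QComp
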