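import Fermat.Agent.QComp.TwoFill

/-!
# Construction of the nodes
-/

set_option autoImplicit false
set_option linter.unusedSectionVars false
set_option linter.style.haveILetI false

open AlgebraicCurve IntermediateField Module

namespace Fermat.Agent.QComp

open Fermat.Agent.FF Fermat.Agent.Red

variable {K k : Type*} [Field K] [Field k] {A : ValuationSubring K} {π : A →+* k}
  {F₀ F κ : Type*} [Field F₀] [Algebra K F₀] [Field F] [Algebra K F] [Field κ] [Algebra k κ]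
  [IsAlgClosed K] [CharZero K] [IsAlgClosed k] [IsFnField K F₀] [IsFnField K F] [IsFnField k κ]

/-- the product of two submodules as a product of modules -/
def prodEquiv' {V W : Type*} [AddCommGroup V] [Module k V] [AddCommGroup W] [Module k W]
    (P : Submodule k V) (Q : Submodule k W) : (P.prod Q) ≃ₗ[k] (P × Q) where
  toFun x := (⟨x.1.1, x.2.1⟩, ⟨x.1.2, x.2.2⟩)
  invFun y := ⟨(y.1, y.2), y.1.2, y.2.2⟩
  left_inv _ := rfl
  right_inv _ := rfl
  map_add' _ _ := rfl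
  map_smul' _ _ := rfl

namespace TwoLevel

variable {R₀ : ConstRed A π F₀ κ} {R₁ R₂ : ConstRed A π F κ} {j : F₀} {jb : κ}
    {α : F₀ →ₐ[K] F} {w : F →ₐ[K] F} {Fr : κ →ₐ[k] κ} {q : ℕ}

/-- a pair of functions on the two components which comes from a regular function -/
def Glued (R₁ R₂ : ConstRed A π F κ) (x : F) (b₁ b₂ : κ) : Prop :=
  ∃ f ∈ regAlg K x, R₁.IsRed f b₁ ∧ R₂.IsRed f b₂

theorem Glued.add {x : F} {b₁ b₂ c₁ c₂ : κ} (h : Glued R₁ R₂ x b₁ b₂)
    (h' : Glued R₁ R₂ x c₁ c₂) : Glued R₁ R₂ x (b₁ + c₁) (b₂ + c₂) := by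
  obtain ⟨f, hf, h1, h2⟩ := h
  obtain ⟨g, hg, h3, h4⟩ := h'
  exact ⟨f + g, add_mem hf hg, h1.add h3, h2.add h4⟩

theorem Glued.sub {x : F} {b₁ b₂ c₁ c₂ : κ} (h : Glued R₁ R₂ x b₁ b₂)
    (h' : Glued R₁ R₂ x c₁ c₂) : Glued R₁ R₂ x (b₁ - c₁) (b₂ - c₂) := by
  obtain ⟨f, hf, h1, h2⟩ := h
  obtain ⟨g, hg, h3, h4⟩ := h'
  exact ⟨f - g, sub_mem hf hg, h1.sub h3, h2.sub h4⟩

theorem Glued.mul {x : F} {b₁ b₂ c₁ c₂ : κ} (h : Glued R₁ R₂ x b₁ b₂)
    (h' : Glued R₁ R₂ x c₁ c₂) : Glued R₁ R₂ x (b₁ * c₁) (b₂ * c₂) := by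
  obtain ⟨f, hf, h1, h2⟩ := h
  obtain ⟨g, hg, h3, h4⟩ := h'
  exact ⟨f * g, mul_mem hf hg, h1.mul h3, h2.mul h4⟩

theorem glued_zero {x : F} : Glued R₁ R₂ x 0 0 := ⟨0, zero_mem _, R₁.isRed_zero, R₂.isRed_zero⟩

variable (H : TwoLevel R₀ R₁ R₂ j jb α w Fr q)
include H

theorem regAlg_eq : regAlg K (α j * w (α j)) = regAlg K (α j) := by
  have hJ := transcendental_ne_zero H.tJ
  have hJ' := transcendental_ne_zero H.tJ'
  have key : ∀ P : Place K F, 0 ≤ P.ord (α j * w (α j)) ↔ 0 ≤ P.ord (α j) := by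
    intro P
    have h1 := H.pole
    have h2 := H.pole'
    rw [mem_Lm] at h1 h2
    have h3 := (h1 P).resolve_left hJ
    have h4 := (h2 P).resolve_left hJ'
    rw [P.ord_mul hJ hJ']
    constructor
    · intro h5
      by_contra h6
      push Not at h6
      rw [max_eq_left (by omega), mul_zero, add_zero] at h3
      omega
    · intro h5
      rw [max_eq_left (a := (0 : ℤ)) (b := -P.ord (α j)) (by omega), mul_zero, add_zero] at h4
      omega
  ext f
  rw [mem_regAlg_iff, mem_regAlg_iff]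
  exact forall_congr' fun P => by rw [key P]

omit H in
theorem regAlg_pow {x : κ} {n : ℕ} (hn : n ≠ 0) : regAlg k (x ^ n) = regAlg k x := by
  ext f
  rw [mem_regAlg_iff, mem_regAlg_iff]
  refine forall_congr' fun P => ?_
  rw [ord_pow]
  have : (0 : ℤ) < n := by positivity
  constructor
  · intro h h1; exact h (by positivity)
  · intro h h1
    apply h
    by_contra h2
    push Not at h2
    nlinarith

theorem Glued.mem1 {b₁ b₂ : κ} (h : Glued R₁ R₂ (α j * w (α j)) b₁ b₂) :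
    b₁ ∈ regAlg k (jb ^ (q + 1)) := by
  obtain ⟨f, hf, h1, h2⟩ := h
  exact H.twoRed.mem_regAlg1 hf h1 h2.mem

theorem Glued.mem2 {b₁ b₂ : κ} (h : Glued R₁ R₂ (α j * w (α j)) b₁ b₂) :
    b₂ ∈ regAlg k (jb ^ (q + 1)) := by
  obtain ⟨f, hf, h1, h2⟩ := h
  exact H.twoRed.mem_regAlg2 hf h1.mem h2

theorem Glued.swap {b₁ b₂ : κ} (h : Glued R₁ R₂ (α j * w (α j)) b₁ b₂) :
    Glued R₁ R₂ (α j * w (α j)) b₂ b₁ := by
  obtain ⟨f, hf, h1, h2⟩ := h
  obtain ⟨m, hm⟩ := exists_mem_Lm hf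
  exact ⟨w f, mem_regAlg_of_mem_Lm (H.w_mem hm), (H.red2 _ _).1 h2, H.swap.2 h1⟩

/-- pairs `(b, Fr b)` -/
theorem glued_Fr {b : κ} (hb : b ∈ regAlg k (jb ^ (q + 1))) :
    Glued R₁ R₂ (α j * w (α j)) b (Fr b) := by
  rw [regAlg_pow (Nat.succ_ne_zero q)] at hb
  obtain ⟨m, hm⟩ := exists_mem_Lm hb
  obtain ⟨m₀, hm₀⟩ := H.lift
  obtain ⟨f, hf, hfb⟩ := hm₀ (m + m₀) (by omega) b (Lm_mono (by omega) hm)
  refine ⟨α f, ?_, H.redα _ _ hfb, H.redα2 hfb⟩
  rw [H.regAlg_eq]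
  exact mem_regAlg_of_mem_Lm (mem_Lm_of_algHom α H.tj hf)

theorem Fr_mem {b : κ} (hb : b ∈ regAlg k (jb ^ (q + 1))) : Fr b ∈ regAlg k (jb ^ (q + 1)) :=
  Glued.mem2 H (H.glued_Fr hb)

theorem glued_Fr' {b : κ} (hb : b ∈ regAlg k (jb ^ (q + 1))) :
    Glued R₁ R₂ (α j * w (α j)) (Fr b) b := Glued.swap H (H.glued_Fr hb)

/-- the conductor ideal of the second component -/
def cond : Ideal (regAlg k (jb ^ (q + 1))) where
  carrier := {b | Glued R₁ R₂ (α j * w (α j)) 0 b}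
  zero_mem' := glued_zero
  add_mem' := by
    intro a b ha hb
    have := Glued.add ha hb
    rwa [add_zero] at this
  smul_mem' := by
    intro c b hb
    have := Glued.mul (H.glued_Fr' c.2) hb
    rw [mul_zero] at this
    exact this

theorem mem_cond {b : regAlg k (jb ^ (q + 1))} :
    b ∈ H.cond ↔ Glued R₁ R₂ (α j * w (α j)) 0 (b : κ) := Iff.rfl

/-- gluing is `b₂ = Fr b₁` modulo the conductor -/
theorem glued_iff {b₁ b₂ : κ} (h1 : b₁ ∈ regAlg k (jb ^ (q + 1)))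
    (h2 : b₂ ∈ regAlg k (jb ^ (q + 1))) : Glued R₁ R₂ (α j * w (α j)) b₁ b₂ ↔
      (⟨b₂, h2⟩ - ⟨Fr b₁, H.Fr_mem h1⟩ : regAlg k (jb ^ (q + 1))) ∈ H.cond := by
  rw [mem_cond]
  change _ ↔ Glued R₁ R₂ (α j * w (α j)) 0 (b₂ - Fr b₁)
  constructor
  · intro h
    have := Glued.sub h (H.glued_Fr h1)
    rwa [sub_self] at this
  · intro h
    have := Glued.add h (H.glued_Fr h1)
    rwa [zero_add, sub_add_cancel] at this

/-- `Fr²` is trivial modulo the conductor -/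
theorem Fr_Fr_mem {b : κ} (h : b ∈ regAlg k (jb ^ (q + 1))) :
    (⟨b, h⟩ - ⟨Fr (Fr b), H.Fr_mem (H.Fr_mem h)⟩ : regAlg k (jb ^ (q + 1))) ∈ H.cond := by
  rw [mem_cond]
  have := Glued.sub (H.glued_Fr' h) (H.glued_Fr (H.Fr_mem h))
  rwa [sub_self] at this

/-! ### The dimension of the quotient -/

theorem redSub_le (hπ : Function.Surjective π) (m : ℕ) :
    redSub R₁ R₂ hπ (riemannRochSpace (m • RR.poleDiv (K := K) (α j * w (α j)))) ≤
      (riemannRochSpace (m • RR.poleDiv (K := k) (jb ^ (q + 1)))).prod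
        (riemannRochSpace (m • RR.poleDiv (K := k) (jb ^ (q + 1)))) := by
  rintro b ⟨f, hf, h1, h2⟩
  exact ⟨H.twoRed.mem_Lm1 hf h1 h2.mem, H.twoRed.mem_Lm2 hf h1.mem h2⟩

theorem exists_prod_le (hπ : Function.Surjective π) : ∃ M₀ : ℕ, ∀ m, M₀ ≤ m → ∀ m', m ≤ m' →
    (riemannRochSpace (m' • RR.poleDiv (K := k) (jb ^ (q + 1)))).prod
        (riemannRochSpace (m' • RR.poleDiv (K := k) (jb ^ (q + 1)))) ≤
    (riemannRochSpace (m • RR.poleDiv (K := k) (jb ^ (q + 1)))).prod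
        (riemannRochSpace (m • RR.poleDiv (K := k) (jb ^ (q + 1)))) ⊔
    redSub R₁ R₂ hπ (riemannRochSpace (m' • RR.poleDiv (K := K) (α j * w (α j)))) := by
  obtain ⟨M₁, hM₁⟩ := H.exists_fill
  obtain ⟨M₂, hM₂⟩ := H.exists_om_lift
  refine ⟨M₁ + M₂, fun m hm m' hm' => ?_⟩
  induction m', hm' using Nat.le_induction with
  | base => exact le_sup_left
  | succ r hr ih =>
    have h1 : redSub R₁ R₂ hπ (riemannRochSpace (r • RR.poleDiv (K := K) (α j * w (α j)))) ≤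
        redSub R₁ R₂ hπ (riemannRochSpace ((r + 1) • RR.poleDiv (K := K) (α j * w (α j)))) :=
      redSub_mono (Lm_mono (by omega))
    have h2 := ih.trans (sup_le_sup_left h1 _)
    rintro ⟨g₁, g₂⟩ ⟨hg₁, hg₂⟩
    change g₁ ∈ _ at hg₁
    change g₂ ∈ _ at hg₂
    obtain ⟨c₁, hc₁, hc₁'⟩ := hM₁ (r + 1) (by omega) g₁ hg₁
    obtain ⟨c₂, hc₂, hc₂'⟩ := hM₁ (r + 1) (by omega) g₂ hg₂
    obtain ⟨f₁, hf₁, hf₁1, hf₁2⟩ := hM₂ (r + 1) (by omega) c₁ hc₁
    obtain ⟨f₂, hf₂, hf₂1, hf₂2⟩ := hM₂ (r + 1) (by omega) c₂ hc₂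
    have e : ((g₁, g₂) : κ × κ) = (g₁ - om jb q (r + 1) * c₁, g₂ - om jb q (r + 1) * c₂) +
        ((om jb q (r + 1) * c₁, 0) + (0, om jb q (r + 1) * c₂)) := by
      ext <;> simp
    rw [e]
    refine Submodule.add_mem _ (h2 ⟨hc₁', hc₂'⟩) (le_sup_right (α := Submodule k (κ × κ))
      (Submodule.add_mem _ ⟨f₁, hf₁, hf₁1, hf₁2⟩ ⟨w f₂, H.w_mem hf₂, ?_, ?_⟩))
    · exact (H.red2 _ _).1 hf₂2
    · exact H.swap.2 hf₂1

theorem exists_finrank_redSub (hπ : Function.Surjective π) : ∃ M₀ : ℕ, ∀ m, M₀ ≤ m →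
    (finrank k ((riemannRochSpace (m • RR.poleDiv (K := k) (jb ^ (q + 1)))).prod
        (riemannRochSpace (m • RR.poleDiv (K := k) (jb ^ (q + 1))))) : ℤ) =
    finrank k (redSub R₁ R₂ hπ (riemannRochSpace (m • RR.poleDiv (K := K) (α j * w (α j))))) +
      (genusFF K F + 1 - 2 * genusFF k κ) := by
  refine ⟨2 * genusFF k κ + 2 * genusFF K F, fun m hm => ?_⟩
  have T := H.twoRed
  haveI := T.fd
  haveI := T.fd1
  rw [(T.redSub_finrank hπ _).2, ell_Lm (transcendental_of_isRed H.r1 H.txb) (by omega),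
    T.finrank_eq]
  have h1 : finrank k ((riemannRochSpace (m • RR.poleDiv (K := k) (jb ^ (q + 1)))).prod
        (riemannRochSpace (m • RR.poleDiv (K := k) (jb ^ (q + 1))))) =
      finrank k (riemannRochSpace (m • RR.poleDiv (K := k) (jb ^ (q + 1)))) +
      finrank k (riemannRochSpace (m • RR.poleDiv (K := k) (jb ^ (q + 1)))) := by
    rw [← Module.finrank_prod]
    exact (prodEquiv' _ _).finrank_eq
  rw [h1]
  push_cast
  rw [ell_Lm H.txb (by omega)]
  ring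

/-- `Fr` on regular functions -/
def FrB : regAlg k (jb ^ (q + 1)) →ₐ[k] regAlg k (jb ^ (q + 1)) :=
  (Fr.comp (regAlg k (jb ^ (q + 1))).val).codRestrict _ fun b => H.Fr_mem b.2

@[simp] theorem coe_FrB (b : regAlg k (jb ^ (q + 1))) : ((H.FrB b : regAlg k (jb ^ (q + 1))) : κ) =
    Fr b := rfl

/-- the gluing map -/
noncomputable def theta' (m : ℕ) : ((riemannRochSpace (m • RR.poleDiv (K := k) (jb ^ (q + 1)))).prod
        (riemannRochSpace (m • RR.poleDiv (K := k) (jb ^ (q + 1))))) →ₗ[k]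
        (regAlg k (jb ^ (q + 1)) ⧸ H.cond) where
  toFun p := Ideal.Quotient.mk H.cond
      (⟨p.1.2, mem_regAlg_of_mem_Lm p.2.2⟩ - ⟨Fr p.1.1, H.Fr_mem (mem_regAlg_of_mem_Lm p.2.1)⟩)
  map_add' a b := by
    rw [← map_add]
    congr 1
    apply Subtype.ext
    change (a.1.2 + b.1.2) - Fr (a.1.1 + b.1.1) = (a.1.2 - Fr a.1.1) + (b.1.2 - Fr b.1.1)
    rw [map_add]
    ring
  map_smul' c a := by
    change _ = c • (Ideal.Quotient.mkₐ k H.cond) _
    rw [← map_smul]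
    change (Ideal.Quotient.mkₐ k H.cond) _ = _
    congr 1
    apply Subtype.ext
    change (c • a.1.2) - Fr (c • a.1.1) = c • (a.1.2 - Fr a.1.1)
    rw [map_smul, smul_sub]

theorem theta'_apply (m : ℕ) (p : ((riemannRochSpace (m • RR.poleDiv (K := k)
    (jb ^ (q + 1)))).prod (riemannRochSpace (m • RR.poleDiv (K := k) (jb ^ (q + 1)))))) :
    H.theta' m p = Ideal.Quotient.mk H.cond
      (⟨p.1.2, mem_regAlg_of_mem_Lm p.2.2⟩ - ⟨Fr p.1.1, H.Fr_mem (mem_regAlg_of_mem_Lm p.2.1)⟩) :=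
  rfl

theorem theta'_eq_zero_iff (m : ℕ) (p : ((riemannRochSpace (m • RR.poleDiv (K := k)
    (jb ^ (q + 1)))).prod (riemannRochSpace (m • RR.poleDiv (K := k) (jb ^ (q + 1)))))) :
    H.theta' m p = 0 ↔ Glued R₁ R₂ (α j * w (α j)) p.1.1 p.1.2 := by
  rw [theta'_apply, Ideal.Quotient.eq_zero_iff_mem,
    H.glued_iff (mem_regAlg_of_mem_Lm p.2.1) (mem_regAlg_of_mem_Lm p.2.2)]

theorem exists_theta (hπ : Function.Surjective π) : ∃ m : ℕ,
    Function.Surjective (H.theta' m) ∧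
    finrank k (LinearMap.ker (H.theta' m)) =
      finrank k (redSub R₁ R₂ hπ (riemannRochSpace (m • RR.poleDiv (K := K) (α j * w (α j))))) ∧
    (finrank k ((riemannRochSpace (m • RR.poleDiv (K := k) (jb ^ (q + 1)))).prod
        (riemannRochSpace (m • RR.poleDiv (K := k) (jb ^ (q + 1))))) : ℤ) =
    finrank k (redSub R₁ R₂ hπ (riemannRochSpace (m • RR.poleDiv (K := K) (α j * w (α j))))) +
      (genusFF K F + 1 - 2 * genusFF k κ) := by
  obtain ⟨M₁, hM₁⟩ := H.exists_prod_le hπ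
  obtain ⟨M₂, hM₂⟩ := H.exists_finrank_redSub hπ
  set m := M₁ + M₂ with hm
  set Lam : ℕ → Submodule k (κ × κ) := fun m =>
    (riemannRochSpace (m • RR.poleDiv (K := k) (jb ^ (q + 1)))).prod
        (riemannRochSpace (m • RR.poleDiv (K := k) (jb ^ (q + 1)))) with hLam
  set Lb : ℕ → Submodule k (κ × κ) := fun m =>
    redSub R₁ R₂ hπ (riemannRochSpace (m • RR.poleDiv (K := K) (α j * w (α j)))) with hLb
  have hfin : ∀ m, FiniteDimensional k (Lam m) := fun m => by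
    haveI : FiniteDimensional k (riemannRochSpace (m • RR.poleDiv (K := k) (jb ^ (q + 1))) ×
      riemannRochSpace (m • RR.poleDiv (K := k) (jb ^ (q + 1)))) := inferInstance
    exact Module.Finite.equiv (prodEquiv' _ _).symm
  have hle : ∀ m, Lb m ≤ Lam m := fun m => H.redSub_le hπ m
  have hmono : ∀ a b, a ≤ b → Lam a ≤ Lam b := fun a b hab =>
    Submodule.prod_mono (Lm_mono hab) (Lm_mono hab)
  have hmono' : ∀ a b, a ≤ b → Lb a ≤ Lb b := fun a b hab => redSub_mono (Lm_mono hab)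
  -- the intersection property
  have hint : ∀ m', m ≤ m' → Lb m' ⊓ Lam m ≤ Lb m := by
    intro m' hm'
    haveI := hfin m'
    haveI := hfin m
    haveI : FiniteDimensional k (Lb m') := Submodule.finiteDimensional_of_le (hle m')
    have h1 : Lb m ≤ Lb m' ⊓ Lam m := le_inf (hmono' _ _ hm') (hle m)
    have h2 := Submodule.finrank_sup_add_finrank_inf_eq (Lb m') (Lam m)
    have h3 : Lb m' ⊔ Lam m = Lam m' := by
      apply le_antisymm (sup_le (hle m') (hmono _ _ hm'))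
      rw [sup_comm]
      exact hM₁ m (by omega) m' hm'
    rw [h3] at h2
    have h4 := hM₂ m (by omega)
    have h5 := hM₂ m' (by omega)
    have h6 : finrank k (Lb m' ⊓ Lam m : Submodule k (κ × κ)) = finrank k (Lb m) := by
      change (finrank k (Lam m) : ℤ) = finrank k (Lb m) + _ at h4
      change (finrank k (Lam m') : ℤ) = finrank k (Lb m') + _ at h5
      omega
    exact (Submodule.eq_of_le_of_finrank_eq h1 h6.symm).ge
  refine ⟨m, ?_, ?_, hM₂ m (by omega)⟩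
  · intro c
    obtain ⟨b, rfl⟩ := Ideal.Quotient.mk_surjective c
    obtain ⟨r, hr⟩ := exists_mem_Lm b.2
    have h1 : ((0, (b : κ)) : κ × κ) ∈ Lam (m + r) :=
      ⟨zero_mem _, Lm_mono (by omega) hr⟩
    have h2 := hM₁ m (by omega) (m + r) (by omega) h1
    rw [Submodule.mem_sup] at h2
    obtain ⟨p, hp, l, hl, hpl⟩ := h2
    refine ⟨⟨p, hp⟩, ?_⟩
    rw [theta'_apply, Ideal.Quotient.mk_eq_mk_iff_sub_mem]
    obtain ⟨f, hf, hf1, hf2⟩ := hl
    have hg : Glued R₁ R₂ (α j * w (α j)) l.1 l.2 := ⟨f, mem_regAlg_of_mem_Lm hf, hf1, hf2⟩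
    have e1 : p.1 = 0 - l.1 := by
      have := congrArg Prod.fst hpl
      exact eq_sub_of_add_eq this
    have e2 : p.2 = b - l.2 := by
      have := congrArg Prod.snd hpl
      exact eq_sub_of_add_eq this
    have h3 := Glued.sub glued_zero hg
    rw [H.glued_iff (Glued.mem1 H h3) (Glued.mem2 H h3)] at h3
    convert h3 using 1
    apply Subtype.ext
    change (p.2 - Fr p.1) - (b : κ) = (0 - l.2) - Fr (0 - l.1)
    rw [e1, e2]
    ring
  · have h1 : (LinearMap.ker (H.theta' m)).map (Lam m).subtype = Lb m := by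
      apply le_antisymm
      · rintro _ ⟨p, hp, rfl⟩
        rw [SetLike.mem_coe, LinearMap.mem_ker] at hp
        obtain ⟨f, hf, hf1, hf2⟩ := (H.theta'_eq_zero_iff m p).1 hp
        obtain ⟨r, hr⟩ := exists_mem_Lm hf
        exact hint (m + r) (by omega) ⟨⟨f, Lm_mono (by omega) hr, hf1, hf2⟩, p.2⟩
      · intro b hb
        refine ⟨⟨b, hle m hb⟩, ?_, rfl⟩
        rw [SetLike.mem_coe, LinearMap.mem_ker, H.theta'_eq_zero_iff]
        obtain ⟨f, hf, hf1, hf2⟩ := hb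
        exact ⟨f, mem_regAlg_of_mem_Lm hf, hf1, hf2⟩
    have h2 := (Submodule.equivMapOfInjective (Lam m).subtype (Submodule.injective_subtype _)
      (LinearMap.ker (H.theta' m))).finrank_eq
    rw [h1] at h2
    exact h2

theorem finrank_quot (hπ : Function.Surjective π) :
    FiniteDimensional k (regAlg k (jb ^ (q + 1)) ⧸ H.cond) ∧
      (finrank k (regAlg k (jb ^ (q + 1)) ⧸ H.cond) : ℤ) =
        genusFF K F + 1 - 2 * genusFF k κ := by
  obtain ⟨m, h1, h2, h3⟩ := H.exists_theta hπ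
  haveI : FiniteDimensional k (riemannRochSpace (m • RR.poleDiv (K := k) (jb ^ (q + 1))) ×
      riemannRochSpace (m • RR.poleDiv (K := k) (jb ^ (q + 1)))) := inferInstance
  haveI : FiniteDimensional k ((riemannRochSpace (m • RR.poleDiv (K := k) (jb ^ (q + 1)))).prod
        (riemannRochSpace (m • RR.poleDiv (K := k) (jb ^ (q + 1))))) :=
    Module.Finite.equiv (prodEquiv' _ _).symm
  refine ⟨Module.Finite.of_surjective _ h1, ?_⟩
  have h4 := (H.theta' m).finrank_range_add_finrank_ker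
  rw [LinearMap.range_eq_top.2 h1, finrank_top, h2] at h4
  omega

end TwoLevel

end Fermat.Agent.QComp
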