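import Fermat.Agent.Red.Charpoly

/-!
# Two constant reductions: orthonormal families
-/

set_option autoImplicit false
set_option linter.unusedSectionVars false
set_option linter.style.haveILetI false

open AlgebraicCurve IntermediateField
open scoped IntermediateField.algebraAdjoinAdjoin

namespace Fermat.Agent.QComp

open Fermat.Agent.FF Fermat.Agent.Red

variable {K k₁ k₂ : Type*} [Field K] [Field k₁] [Field k₂] {A : ValuationSubring K}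
  {π₁ : A →+* k₁} {π₂ : A →+* k₂} {F κ₁ κ₂ : Type*} [Field F] [Algebra K F]
  [Field κ₁] [Algebra k₁ κ₁] [Field κ₂] [Algebra k₂ κ₂]

/-- A family adapted to two constant reductions. -/
structure Orth2 (R₁ : ConstRed A π₁ F κ₁) (R₂ : ConstRed A π₂ F κ₂) {ι₁ ι₂ : Type*}
    (y₁ : ι₁ → F) (y₂ : ι₂ → F) (z₁ : ι₁ → κ₁) (z₂ : ι₂ → κ₂) : Prop where
  r11 : ∀ i, R₁.IsRed (y₁ i) (z₁ i)
  r12 : ∀ i, R₂.IsRed (y₁ i) 0
  r21 : ∀ j, R₁.IsRed (y₂ j) 0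
  r22 : ∀ j, R₂.IsRed (y₂ j) (z₂ j)
  i1 : LinearIndependent k₁ z₁
  i2 : LinearIndependent k₂ z₂

namespace Orth2

variable {R₁ : ConstRed A π₁ F κ₁} {R₂ : ConstRed A π₂ F κ₂} {ι₁ ι₂ : Type*}
    {y₁ : ι₁ → F} {y₂ : ι₂ → F} {z₁ : ι₁ → κ₁} {z₂ : ι₂ → κ₂}
    (h : Orth2 R₁ R₂ y₁ y₂ z₁ z₂)

include h

theorem comp {κ κ' : Type*} (g : κ → ι₁) (hg : Function.Injective g) (g' : κ' → ι₂)
    (hg' : Function.Injective g') :
    Orth2 R₁ R₂ (y₁ ∘ g) (y₂ ∘ g') (z₁ ∘ g) (z₂ ∘ g') :=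
  ⟨fun i => h.r11 (g i), fun i => h.r12 (g i), fun i => h.r21 (g' i), fun i => h.r22 (g' i),
    h.i1.comp g hg, h.i2.comp g' hg'⟩

theorem mul_left {e : F} {ε₁ : κ₁} {ε₂ : κ₂}
    (he₁ : R₁.IsRed e ε₁) (he₂ : R₂.IsRed e ε₂) (hε₁ : ε₁ ≠ 0) (hε₂ : ε₂ ≠ 0) :
    Orth2 R₁ R₂ (fun i => e * y₁ i) (fun i => e * y₂ i) (fun i => ε₁ * z₁ i)
      (fun i => ε₂ * z₂ i) := by
  refine ⟨fun i => he₁.mul (h.r11 i), fun i => ?_, fun i => ?_, fun i => he₂.mul (h.r22 i), ?_, ?_⟩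
  · simpa using he₂.mul (h.r12 i)
  · simpa using he₁.mul (h.r21 i)
  · exact h.i1.map' (LinearMap.mulLeft k₁ ε₁) (LinearMap.ker_eq_bot.mpr
      (mul_right_injective₀ hε₁))
  · exact h.i2.map' (LinearMap.mulLeft k₂ ε₂) (LinearMap.ker_eq_bot.mpr
      (mul_right_injective₀ hε₂))

variable [Fintype ι₁] [Fintype ι₂]

theorem isRed₁ (a₁ : ι₁ → A) (a₂ : ι₂ → A) :
    R₁.IsRed (∑ i, algebraMap K F (a₁ i) * y₁ i + ∑ j, algebraMap K F (a₂ j) * y₂ j)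
      (∑ i, π₁ (a₁ i) • z₁ i) := by
  have h1 := ConstRed.isRed_sum (R := R₁) Finset.univ
    (fun i _ => (R₁.isRed_coe (a₁ i)).mul (h.r11 i))
  have h2 := ConstRed.isRed_sum (R := R₁) Finset.univ
    (fun i _ => (R₁.isRed_coe (a₂ i)).mul (h.r21 i))
  have h3 := h1.add h2
  have h4 : (∑ i, algebraMap k₁ κ₁ (π₁ (a₁ i)) * z₁ i + ∑ i, algebraMap k₁ κ₁ (π₁ (a₂ i)) * 0) =
      ∑ i, π₁ (a₁ i) • z₁ i := by
    simp [Algebra.smul_def]
  rwa [h4] at h3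

theorem isRed₂ (a₁ : ι₁ → A) (a₂ : ι₂ → A) :
    R₂.IsRed (∑ i, algebraMap K F (a₁ i) * y₁ i + ∑ j, algebraMap K F (a₂ j) * y₂ j)
      (∑ j, π₂ (a₂ j) • z₂ j) := by
  have h1 := ConstRed.isRed_sum (R := R₂) Finset.univ
    (fun i _ => (R₂.isRed_coe (a₁ i)).mul (h.r12 i))
  have h2 := ConstRed.isRed_sum (R := R₂) Finset.univ
    (fun i _ => (R₂.isRed_coe (a₂ i)).mul (h.r22 i))
  have h3 := h1.add h2
  have h4 : (∑ i, algebraMap k₂ κ₂ (π₂ (a₁ i)) * 0 + ∑ i, algebraMap k₂ κ₂ (π₂ (a₂ i)) * z₂ i) =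
      ∑ i, π₂ (a₂ i) • z₂ i := by
    simp [Algebra.smul_def]
  rwa [h4] at h3

/-- if both reductions of a combination with coefficients in `A` vanish, then all the coefficients
reduce to zero. -/
theorem coeff_eq_zero (a₁ : ι₁ → A) (a₂ : ι₂ → A)
    (h1 : R₁.IsRed (∑ i, algebraMap K F (a₁ i) * y₁ i + ∑ j, algebraMap K F (a₂ j) * y₂ j) 0)
    (h2 : R₂.IsRed (∑ i, algebraMap K F (a₁ i) * y₁ i + ∑ j, algebraMap K F (a₂ j) * y₂ j) 0) :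
    (∀ i, π₁ (a₁ i) = 0) ∧ ∀ j, π₂ (a₂ j) = 0 := by
  have e1 := (h.isRed₁ a₁ a₂).unique h1
  have e2 := (h.isRed₂ a₁ a₂).unique h2
  exact ⟨Fintype.linearIndependent_iff.mp h.i1 _ e1, Fintype.linearIndependent_iff.mp h.i2 _ e2⟩

/-- scaling by the largest coefficient -/
theorem exists_scaling (c₁ : ι₁ → K) (c₂ : ι₂ → K)
    (hne : (∃ i, c₁ i ≠ 0) ∨ ∃ j, c₂ j ≠ 0) : ∃ d : K, d ≠ 0 ∧
      (∃ (a₁ : ι₁ → A) (a₂ : ι₂ → A), (∀ i, c₁ i = d * a₁ i) ∧ (∀ j, c₂ j = d * a₂ j) ∧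
      ¬ ((∀ i, π₁ (a₁ i) = 0) ∧ ∀ j, π₂ (a₂ j) = 0)) := by
  classical
  obtain ⟨i, -, hi0, hi⟩ := exists_max A (Finset.univ : Finset (ι₁ ⊕ ι₂)) (Sum.elim c₁ c₂) (by
    rcases hne with ⟨i, hi⟩ | ⟨j, hj⟩
    · exact ⟨Sum.inl i, Finset.mem_univ _, hi⟩
    · exact ⟨Sum.inr j, Finset.mem_univ _, hj⟩)
  refine ⟨Sum.elim c₁ c₂ i, hi0, fun l => ⟨c₁ l / Sum.elim c₁ c₂ i, hi (Sum.inl l) (Finset.mem_univ _)⟩,
    fun l => ⟨c₂ l / Sum.elim c₁ c₂ i, hi (Sum.inr l) (Finset.mem_univ _)⟩, fun l => ?_,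
    fun l => ?_, ?_⟩
  · change c₁ l = _ * (c₁ l / _)
    field_simp
  · change c₂ l = _ * (c₂ l / _)
    field_simp
  · rintro ⟨h1, h2⟩
    rcases i with i | i
    · have h3 := h1 i
      have h4 : (⟨c₁ i / Sum.elim c₁ c₂ (Sum.inl i), hi (Sum.inl i) (Finset.mem_univ _)⟩ : A) = 1 :=
        Subtype.ext (div_self hi0)
      beta_reduce at h3
      rw [h4, map_one] at h3
      exact one_ne_zero h3
    · have h3 := h2 i
      have h4 : (⟨c₂ i / Sum.elim c₁ c₂ (Sum.inr i), hi (Sum.inr i) (Finset.mem_univ _)⟩ : A) = 1 :=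
        Subtype.ext (div_self hi0)
      beta_reduce at h3
      rw [h4, map_one] at h3
      exact one_ne_zero h3

theorem mem_of_sum_mem (c₁ : ι₁ → K) (c₂ : ι₂ → K)
    (h1 : ∑ i, algebraMap K F (c₁ i) * y₁ i + ∑ j, algebraMap K F (c₂ j) * y₂ j ∈ R₁.O)
    (h2 : ∑ i, algebraMap K F (c₁ i) * y₁ i + ∑ j, algebraMap K F (c₂ j) * y₂ j ∈ R₂.O) :
    (∀ i, c₁ i ∈ A) ∧ ∀ j, c₂ j ∈ A := by
  by_cases hne : (∃ i, c₁ i ≠ 0) ∨ ∃ j, c₂ j ≠ 0
  swap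
  · push Not at hne
    exact ⟨fun i => by rw [hne.1 i]; exact A.zero_mem, fun i => by rw [hne.2 i]; exact A.zero_mem⟩
  obtain ⟨d, hd0, a₁, a₂, e1, e2, hnz⟩ := h.exists_scaling c₁ c₂ hne
  have hdA : d ∈ A := by
    by_contra hd
    apply hnz
    have hdi : d⁻¹ ∈ A := (A.mem_or_inv_mem d).resolve_left hd
    have hu : ¬ IsUnit (⟨d⁻¹, hdi⟩ : A) := by
      intro hu
      apply hd
      obtain ⟨v, hv⟩ := hu.exists_right_inv
      have hv' : d⁻¹ * (v : K) = 1 := congrArg Subtype.val hv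
      have : d = v := by field_simp at hv'; exact hv'.symm
      rw [this]; exact v.2
    have hdF : algebraMap K F d ≠ 0 := by simpa using hd0
    have hS : ∑ i, algebraMap K F (a₁ i) * y₁ i + ∑ j, algebraMap K F (a₂ j) * y₂ j =
        algebraMap K F d⁻¹ *
          (∑ i, algebraMap K F (c₁ i) * y₁ i + ∑ j, algebraMap K F (c₂ j) * y₂ j) := by
      rw [mul_add, Finset.mul_sum, Finset.mul_sum]
      congr 1
      · refine Finset.sum_congr rfl fun i _ => ?_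
        rw [e1 i, map_mul, map_inv₀]
        field_simp
      · refine Finset.sum_congr rfl fun i _ => ?_
        rw [e2 i, map_mul, map_inv₀]
        field_simp
    obtain ⟨s₁, hs₁⟩ := R₁.exists_isRed_of_mem h1
    obtain ⟨s₂, hs₂⟩ := R₂.exists_isRed_of_mem h2
    refine h.coeff_eq_zero a₁ a₂ ?_ ?_
    · have h3 := (R₁.isRed_algebraMap hdi).mul hs₁
      rw [(R₁.pi_eq_zero_iff _).2 hu, map_zero, zero_mul] at h3
      rwa [hS]
    · have h3 := (R₂.isRed_algebraMap hdi).mul hs₂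
      rw [(R₂.pi_eq_zero_iff _).2 hu, map_zero, zero_mul] at h3
      rwa [hS]
  exact ⟨fun i => by rw [e1 i]; exact mul_mem hdA (a₁ i).2,
    fun i => by rw [e2 i]; exact mul_mem hdA (a₂ i).2⟩

theorem eq_zero_of_sum (c₁ : ι₁ → K) (c₂ : ι₂ → K)
    (h1 : ∑ i, algebraMap K F (c₁ i) * y₁ i + ∑ j, algebraMap K F (c₂ j) * y₂ j = 0) :
    (∀ i, c₁ i = 0) ∧ ∀ j, c₂ j = 0 := by
  by_contra hne
  rw [not_and_or] at hne
  push Not at hne
  obtain ⟨d, hd0, a₁, a₂, e1, e2, hnz⟩ := h.exists_scaling c₁ c₂ hne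
  have hdF : algebraMap K F d ≠ 0 := by simpa using hd0
  apply hnz
  have hS : ∑ i, algebraMap K F (a₁ i) * y₁ i + ∑ j, algebraMap K F (a₂ j) * y₂ j = 0 := by
    apply mul_left_cancel₀ hdF
    rw [mul_zero, ← h1, mul_add, Finset.mul_sum, Finset.mul_sum]
    congr 1
    · refine Finset.sum_congr rfl fun i _ => ?_
      rw [e1 i, map_mul]
      ring
    · refine Finset.sum_congr rfl fun i _ => ?_
      rw [e2 i, map_mul]
      ring
  refine h.coeff_eq_zero a₁ a₂ ?_ ?_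
  · rw [hS]; exact R₁.isRed_zero
  · rw [hS]; exact R₂.isRed_zero

theorem linearIndependent : LinearIndependent K (Sum.elim y₁ y₂) := by
  rw [Fintype.linearIndependent_iff]
  intro g hg
  have h1 := h.eq_zero_of_sum (fun i => g (Sum.inl i)) (fun i => g (Sum.inr i)) (by
    rw [← hg, Fintype.sum_sum_type]
    simp [Algebra.smul_def])
  rintro (i | i)
  · exact h1.1 i
  · exact h1.2 i

end Orth2

end Fermat.Agent.QComp
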