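import Fermat.Agent.QComp.TwoShift
import Fermat.Agent.Red.Genus

/-!
# Functions regular away from the poles of `x`, and their reductions
-/

set_option autoImplicit false
set_option linter.unusedSectionVars false
set_option linter.style.haveILetI false

open AlgebraicCurve IntermediateField Module

namespace Fermat.Agent.QComp

open Fermat.Agent.FF Fermat.Agent.Red

section Reg

variable (K : Type*) {F : Type*} [Field K] [Field F] [Algebra K F]

/-- the algebra of functions which are regular at all places where `x` is regular -/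
def regAlg (x : F) : Subalgebra K F where
  carrier := {f | ∀ P : Place K F, x ∈ P.toValuationSubring → f ∈ P.toValuationSubring}
  mul_mem' ha hb P hP := mul_mem (ha P hP) (hb P hP)
  add_mem' ha hb P hP := add_mem (ha P hP) (hb P hP)
  algebraMap_mem' a P _ := P.algebraMap_mem' a

variable {K}

theorem mem_regAlg {x f : F} : f ∈ regAlg K x ↔
    ∀ P : Place K F, x ∈ P.toValuationSubring → f ∈ P.toValuationSubring := Iff.rfl

theorem mem_regAlg_iff {x f : F} : f ∈ regAlg K x ↔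
    ∀ P : Place K F, 0 ≤ P.ord x → 0 ≤ P.ord f :=
  ⟨fun h P hP => ord_nonneg_of_mem P (h P (mem_of_ord_nonneg P hP)),
    fun h P hP => mem_of_ord_nonneg P (h P (ord_nonneg_of_mem P hP))⟩

theorem self_mem_regAlg (x : F) : x ∈ regAlg K x := fun _ h => h

theorem pow_mem_regAlg_iff {x f : F} {n : ℕ} (hn : n ≠ 0) : f ^ n ∈ regAlg K x ↔ f ∈ regAlg K x := by
  rw [mem_regAlg_iff, mem_regAlg_iff]
  refine forall₂_congr fun P _ => ?_
  rw [ord_pow]
  have : (0 : ℤ) < n := by positivity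
  constructor
  · intro h; by_contra h2; push Not at h2; nlinarith
  · intro h; positivity

variable [IsAlgClosed K] [IsFnField K F]

theorem mem_regAlg_of_isIntegral {x f : F} (hf : IsIntegral (Algebra.adjoin K {x}) f) :
    f ∈ regAlg K x := fun P hP => mem_of_isIntegral P (ord_nonneg_of_mem P hP) hf

theorem isIntegral_of_mem_regAlg [CharZero K] {x f : F} [FiniteDimensional K⟮x⟯ F]
    (hf : f ∈ regAlg K x) : IsIntegral (Algebra.adjoin K {x}) f := by
  haveI : CharZero K⟮x⟯ := charZero_of_injective_algebraMap (algebraMap K K⟮x⟯).injective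
  exact isIntegral_of_forall (mem_regAlg_iff.1 hf)

theorem mem_Lm {x f : F} {m : ℕ} : f ∈ riemannRochSpace (m • RR.poleDiv (K := K) x) ↔
    ∀ P : Place K F, f = 0 ∨ 0 ≤ P.ord f + m * max 0 (-P.ord x) := by
  rw [mem_riemannRochSpace_iff]
  refine forall_congr' fun P => ?_
  rw [Finsupp.smul_apply, RR.poleDiv_apply, nsmul_eq_mul]
  constructor
  · rintro (h | h)
    · exact Or.inl h
    · right; linarith
  · rintro (h | h)
    · exact Or.inl h
    · right; linarith

theorem mem_Lm_iff {x f : F} (hx : x ≠ 0) {m : ℕ} :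
    f ∈ riemannRochSpace (m • RR.poleDiv (K := K) x) ↔
      f ∈ regAlg K x ∧ (x⁻¹) ^ m * f ∈ regAlg K x⁻¹ := by
  rcases eq_or_ne f 0 with rfl | hf
  · simp only [Submodule.zero_mem, mul_zero, true_iff]
    exact ⟨zero_mem _, zero_mem _⟩
  have hxm : (x⁻¹) ^ m ≠ 0 := pow_ne_zero _ (inv_ne_zero hx)
  rw [mem_Lm, mem_regAlg_iff, mem_regAlg_iff]
  constructor
  · intro h
    refine ⟨fun P hP => ?_, fun P hP => ?_⟩
    · have := (h P).resolve_left hf
      rwa [max_eq_left (by omega), mul_zero, add_zero] at this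
    · rw [P.ord_inv] at hP
      have := (h P).resolve_left hf
      rw [max_eq_right hP] at this
      rw [P.ord_mul hxm hf, ord_pow, P.ord_inv]
      linarith
  · rintro ⟨h1, h2⟩ P
    right
    rcases le_total 0 (P.ord x) with hP | hP
    · rw [max_eq_left (by omega), mul_zero, add_zero]
      exact h1 P hP
    · have := h2 P (by rw [P.ord_inv]; omega)
      rw [P.ord_mul hxm hf, ord_pow, P.ord_inv] at this
      rw [max_eq_right (by omega)]
      linarith

theorem mem_regAlg_of_mem_Lm {x f : F} {m : ℕ}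
    (hf : f ∈ riemannRochSpace (m • RR.poleDiv (K := K) x)) : f ∈ regAlg K x := by
  rcases eq_or_ne f 0 with rfl | hf0
  · exact zero_mem _
  rw [mem_Lm] at hf
  rw [mem_regAlg_iff]
  intro P hP
  have := (hf P).resolve_left hf0
  rwa [max_eq_left (by omega), mul_zero, add_zero] at this

theorem self_mem_Lm (x : F) : x ∈ riemannRochSpace (1 • RR.poleDiv (K := K) x) := by
  rw [mem_Lm]
  intro P
  right
  push_cast
  rcases le_total 0 (P.ord x) with hP | hP
  · rw [max_eq_left (by omega)]; omega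
  · rw [max_eq_right (by omega)]; omega

theorem Lm_mono {x : F} {m m' : ℕ} (h : m ≤ m') :
    riemannRochSpace (m • RR.poleDiv (K := K) x) ≤
      riemannRochSpace (m' • RR.poleDiv (K := K) x) := by
  intro f hf
  rw [mem_Lm] at hf ⊢
  intro P
  rcases hf P with h1 | h1
  · exact Or.inl h1
  · right
    have h2 : (0 : ℤ) ≤ max 0 (-P.ord x) := le_max_left _ _
    have h3 : (m : ℤ) ≤ m' := by exact_mod_cast h
    nlinarith

theorem exists_mem_Lm {x f : F} (hf : f ∈ regAlg K x) :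
    ∃ m : ℕ, f ∈ riemannRochSpace (m • RR.poleDiv (K := K) x) := by
  classical
  rcases eq_or_ne f 0 with rfl | hf0
  · exact ⟨0, zero_mem _⟩
  rw [mem_regAlg_iff] at hf
  refine ⟨(RR.divOf (K := K) f).support.sup fun P => (P.ord f).natAbs, ?_⟩
  rw [mem_Lm]
  intro P
  right
  rcases le_total 0 (P.ord f) with h1 | h1
  · positivity
  rcases eq_or_lt_of_le h1 with h1 | h1
  · rw [h1, zero_add]; positivity
  have h2 : P ∈ (RR.divOf (K := K) f).support := by
    rw [Finsupp.mem_support_iff, RR.divOf_apply]; omega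
  have h3 := Finset.le_sup (f := fun P : Place K F => (P.ord f).natAbs) h2
  have h4 : P.ord x < 0 := by
    by_contra h; push Not at h
    have := hf P h
    omega
  rw [max_eq_right (by omega)]
  set M := (RR.divOf (K := K) f).support.sup fun P => (P.ord f).natAbs
  have h5 : ((P.ord f).natAbs : ℤ) ≤ M := by exact_mod_cast h3
  have h6 : -(P.ord f) ≤ M := by omega
  have h7 : (M : ℤ) * 1 ≤ M * (-P.ord x) := mul_le_mul_of_nonneg_left (by omega) (by positivity)
  linarith

end Reg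

variable {K k : Type*} [Field K] [Field k] {A : ValuationSubring K} {π : A →+* k}
  {F κ₁ κ₂ : Type*} [Field F] [Algebra K F] [Field κ₁] [Algebra k κ₁] [Field κ₂] [Algebra k κ₂]
  {R₁ : ConstRed A π F κ₁} {R₂ : ConstRed A π F κ₂} {x : F} {x₁ : κ₁} {x₂ : κ₂}

theorem TwoRed.ne1 (T : TwoRed R₁ R₂ x x₁ x₂) : x₁ ≠ 0 := transcendental_ne_zero T.t1
theorem TwoRed.ne2 (T : TwoRed R₁ R₂ x x₁ x₂) : x₂ ≠ 0 := transcendental_ne_zero T.t2
theorem TwoRed.ne (T : TwoRed R₁ R₂ x x₁ x₂) : x ≠ 0 := T.r1.ne_zero T.ne1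

theorem TwoRed.inv (T : TwoRed R₁ R₂ x x₁ x₂) : TwoRed R₁ R₂ x⁻¹ x₁⁻¹ x₂⁻¹ where
  r1 := T.r1.inv T.ne1
  r2 := T.r2.inv T.ne2
  t1 := RR.transcendental_inv' T.t1
  t2 := RR.transcendental_inv' T.t2
  fd := by rw [RR.adjoin_simple_inv' (K := K) x]; exact T.fd
  fd1 := by rw [RR.adjoin_simple_inv' (K := k) x₁]; exact T.fd1
  fd2 := by rw [RR.adjoin_simple_inv' (K := k) x₂]; exact T.fd2
  finrank_eq := by
    rw [RR.adjoin_simple_inv' (K := K) x, RR.adjoin_simple_inv' (K := k) x₁,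
      RR.adjoin_simple_inv' (K := k) x₂]
    exact T.finrank_eq
  lift1 := T.lift1
  lift2 := T.lift2

variable [IsAlgClosed K] [CharZero K] [IsAlgClosed k] [IsFnField K F] [IsFnField k κ₁]
  [IsFnField k κ₂]

theorem TwoRed.mem_regAlg1 (T : TwoRed R₁ R₂ x x₁ x₂) {f : F} (hf : f ∈ regAlg K x) {b : κ₁}
    (h1 : R₁.IsRed f b) (h2 : f ∈ R₂.O) : b ∈ regAlg k x₁ := by
  haveI := T.fd
  exact mem_regAlg_of_isIntegral (T.isIntegral_red1 h1 h2 (isIntegral_of_mem_regAlg hf))

theorem TwoRed.mem_regAlg2 (T : TwoRed R₁ R₂ x x₁ x₂) {f : F} (hf : f ∈ regAlg K x) {b : κ₂}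
    (h1 : f ∈ R₁.O) (h2 : R₂.IsRed f b) : b ∈ regAlg k x₂ :=
  T.symm.mem_regAlg1 hf h2 h1

theorem TwoRed.mem_Lm1 (T : TwoRed R₁ R₂ x x₁ x₂) {f : F} {m : ℕ}
    (hf : f ∈ riemannRochSpace (m • RR.poleDiv (K := K) x)) {b : κ₁}
    (h1 : R₁.IsRed f b) (h2 : f ∈ R₂.O) : b ∈ riemannRochSpace (m • RR.poleDiv (K := k) x₁) := by
  rw [mem_Lm_iff T.ne] at hf
  rw [mem_Lm_iff T.ne1]
  refine ⟨T.mem_regAlg1 hf.1 h1 h2, T.inv.mem_regAlg1 hf.2 (((T.r1.inv T.ne1).pow m).mul h1)
    (mul_mem (pow_mem (T.r2.inv T.ne2).mem m) h2)⟩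

theorem TwoRed.mem_Lm2 (T : TwoRed R₁ R₂ x x₁ x₂) {f : F} {m : ℕ}
    (hf : f ∈ riemannRochSpace (m • RR.poleDiv (K := K) x)) {b : κ₂}
    (h1 : f ∈ R₁.O) (h2 : R₂.IsRed f b) : b ∈ riemannRochSpace (m • RR.poleDiv (K := k) x₂) :=
  T.symm.mem_Lm1 hf h2 h1

end Fermat.Agent.QComp
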