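import Mathlib.RingTheory.UniqueFactorizationDomain.Kaplansky
import Mathlib.RingTheory.Valuation.ValuationRing
import Mathlib.RingTheory.Nakayama
import Mathlib.RingTheory.UniqueFactorizationDomain.Multiplicity
import Mathlib.RingTheory.LocalRing.MaximalIdeal.Basic

/-!
# A factoriality criterion for local noetherian domains of dimension two
-/

set_option autoImplicit false
set_option linter.unusedSectionVars false
set_option linter.style.haveILetI false

open IsLocalRing

namespace Fermat.Agent.QComp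

section UFD

variable {B : Type*} [CommRing B] [IsDomain B]

/-- If every prime ideal not containing the prime element `p` is principal modulo `p`, then the
local noetherian domain `B` is factorial. -/
theorem ufd_of_prime [IsLocalRing B] [IsNoetherianRing B] {p : B} (hp : Prime p)
    (h : ∀ Q : Ideal B, Q.IsPrime → p ∉ Q → ∃ a ∈ Q, ∀ b ∈ Q, ∃ c, p ∣ b - c * a) :
    UniqueFactorizationMonoid B := by
  apply UniqueFactorizationMonoid.iff_exists_prime_mem_of_isPrime.2
  intro Q hQ0 hQ
  by_cases hpQ : p ∈ Q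
  · exact ⟨p, hpQ, hp⟩
  obtain ⟨a, haQ, ha⟩ := h Q hQ hpQ
  have hpm : p ∈ maximalIdeal B := (mem_maximalIdeal _).2 hp.not_isUnit
  have hle : Q ≤ Ideal.span {a} := by
    refine Submodule.le_of_le_smul_of_le_jacobson_bot (I := maximalIdeal B)
      (IsNoetherian.noetherian Q) ?_ ?_
    · rw [IsLocalRing.jacobson_eq_maximalIdeal _ bot_ne_top]
    · intro b hb
      obtain ⟨c, d, hd⟩ := ha b hb
      have hdQ : d ∈ Q := by
        have h1 : p * d ∈ Q := by
          rw [← hd]
          exact sub_mem hb (Ideal.mul_mem_left _ _ haQ)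
        exact (hQ.mem_or_mem h1).resolve_left hpQ
      have h2 : b = c * a + p * d := by rw [← hd]; ring
      rw [h2]
      exact Submodule.add_mem_sup (Ideal.mem_span_singleton'.2 ⟨c, rfl⟩)
        (Ideal.mul_mem_mul hpm hdQ)
  have heq : Q = Ideal.span {a} := le_antisymm hle ((Ideal.span_singleton_le_iff_mem _).2 haQ)
  have ha0 : a ≠ 0 := by
    rintro rfl
    apply hQ0
    rw [heq, Ideal.span_singleton_eq_bot]
  exact ⟨a, haQ, (Ideal.span_singleton_prime ha0).1 (heq ▸ hQ)⟩

/-- An ideal of a noetherian ring is principal modulo the kernel of a homomorphism whose image is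
totally ordered by divisibility. -/
theorem exists_principal_mod [IsNoetherianRing B] {κ : Type*} [Field κ] (ρ : B →+* κ)
    (hdiv : ∀ b b' : B, (∃ c, ρ b = ρ (c * b')) ∨ (∃ c, ρ b' = ρ (c * b)))
    (Q : Ideal B) : ∃ a ∈ Q, ∀ b ∈ Q, ∃ c, ρ (b - c * a) = 0 := by
  classical
  obtain ⟨s, hs⟩ := IsNoetherian.noetherian Q
  have key : ∀ s : Finset B, ∃ a ∈ Ideal.span (s : Set B), ∀ b ∈ Ideal.span (s : Set B),
      ∃ c, ρ (b - c * a) = 0 := by
    intro s
    induction s using Finset.induction_on with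
    | empty =>
      refine ⟨0, zero_mem _, fun b hb => ⟨0, ?_⟩⟩
      rw [Finset.coe_empty, Ideal.span_empty, Ideal.mem_bot] at hb
      rw [hb]; simp
    | insert x s hx ih =>
      obtain ⟨a, ha, ha'⟩ := ih
      rw [Finset.coe_insert, Ideal.span_insert]
      rcases hdiv x a with ⟨c, hc⟩ | ⟨c, hc⟩
      · refine ⟨a, Ideal.mem_sup_right ha, fun b hb => ?_⟩
        obtain ⟨u, hu, v, hv, rfl⟩ := Submodule.mem_sup.1 hb
        obtain ⟨e, rfl⟩ := Ideal.mem_span_singleton'.1 hu
        obtain ⟨d, hd⟩ := ha' v hv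
        refine ⟨e * c + d, ?_⟩
        have h1 : e * x + v - (e * c + d) * a = e * (x - c * a) + (v - d * a) := by ring
        rw [h1, map_add, hd, map_mul, map_sub, hc, sub_self, mul_zero, zero_add]
      · refine ⟨x, Ideal.mem_sup_left (Ideal.subset_span rfl), fun b hb => ?_⟩
        obtain ⟨u, hu, v, hv, rfl⟩ := Submodule.mem_sup.1 hb
        obtain ⟨e, rfl⟩ := Ideal.mem_span_singleton'.1 hu
        obtain ⟨d, hd⟩ := ha' v hv
        refine ⟨e + d * c, ?_⟩
        have h1 : e * x + v - (e + d * c) * x = (v - d * a) + d * (a - c * x) := by ring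
        rw [h1, map_add, hd, map_mul, map_sub, hc, sub_self, mul_zero, zero_add]
  obtain ⟨a, ha, ha'⟩ := key s
  rw [Ideal.submodule_span_eq] at hs
  rw [hs] at ha ha'
  exact ⟨a, ha, ha'⟩

/-- the factoriality criterion in terms of a residue map -/
theorem ufd_of_red [IsLocalRing B] [IsNoetherianRing B] {κ : Type*} [Field κ] (ρ : B →+* κ)
    {a : B} (ha0 : a ≠ 0) (hker : ∀ b, ρ b = 0 ↔ a ∣ b)
    (hdiv : ∀ b b' : B, (∃ c, ρ b = ρ (c * b')) ∨ (∃ c, ρ b' = ρ (c * b))) :
    UniqueFactorizationMonoid B := by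
  have hp : Prime a := by
    refine ⟨ha0, fun hu => ?_, fun b c hbc => ?_⟩
    · have := (hker 1).2 (hu.dvd)
      rw [map_one] at this
      exact one_ne_zero this
    · rw [← hker, map_mul, mul_eq_zero, hker, hker] at hbc
      exact hbc
  refine ufd_of_prime hp fun Q _ _ => ?_
  obtain ⟨x, hx, hx'⟩ := exists_principal_mod ρ hdiv Q
  refine ⟨x, hx, fun b hb => ?_⟩
  obtain ⟨c, hc⟩ := hx' b hb
  exact ⟨c, (hker _).1 hc⟩

/-- extraction of an `n`-th power in a factorial ring -/
theorem exists_unit_mul_pow [UniqueFactorizationMonoid B] {n : ℕ} (hn : 0 < n) (c : B)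
    (hc : c ≠ 0) (h : ∀ p : B, Prime p → ∀ m : ℕ, ∀ c', c = p ^ m * c' → ¬ p ∣ c' → n ∣ m) :
    ∃ u g : B, IsUnit u ∧ g ≠ 0 ∧ c = u * g ^ n := by
  classical
  revert hc h
  induction c using (wellFounded_dvdNotUnit (α := B)).induction with
  | _ c ih =>
  intro hc h
  by_cases hu : IsUnit c
  · exact ⟨c, 1, hu, one_ne_zero, by simp⟩
  obtain ⟨p, hp, hpc⟩ := WfDvdMonoid.exists_irreducible_factor hu hc
  have hpp : Prime p := UniqueFactorizationMonoid.irreducible_iff_prime.1 hp
  obtain ⟨m, c', hpc', hcm⟩ := WfDvdMonoid.max_power_factor hc hp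
  have hnm := h p hpp m c' hcm hpc'
  have hm0 : m ≠ 0 := by
    rintro rfl
    rw [pow_zero, one_mul] at hcm
    exact hpc' (hcm ▸ hpc)
  obtain ⟨k, rfl⟩ := hnm
  have hc'0 : c' ≠ 0 := by
    rintro rfl
    exact hc (by rw [hcm, mul_zero])
  have hdn : DvdNotUnit c' c := by
    refine ⟨hc'0, p ^ (n * k), ?_, by rw [hcm, mul_comm]⟩
    intro hu'
    exact hp.not_isUnit ((isUnit_pow_iff hm0).1 hu')
  obtain ⟨u, g, hu1, hg, hug⟩ := ih c' hdn hc'0 (fun p' hp' m' d hd hpd => by
    by_cases hpp' : p ∣ p'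
    · have h1 : m' = 0 := by
        by_contra hm'
        apply hpc'
        rw [hd]
        exact (hpp'.trans (dvd_pow_self p' hm')).mul_right d
      rw [h1]; exact dvd_zero n
    · refine h p' hp' m' (p ^ (n * k) * d) (by rw [hcm, hd]; ring) ?_
      intro hdiv
      rcases hp'.dvd_or_dvd hdiv with h2 | h2
      · have h3 := hp'.dvd_of_dvd_pow h2
        exact hpp' (hp'.irreducible.dvd_symm hp h3)
      · exact hpd h2)
  refine ⟨u, p ^ k * g, hu1, mul_ne_zero (pow_ne_zero _ hpp.ne_zero) hg, ?_⟩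
  rw [hcm, hug, mul_pow, ← pow_mul, mul_comm k n]
  ring

end UFD

end Fermat.Agent.QComp
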